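import Mathlib
import Fermat.Prelude.Def_AlgebraicGeometry_RelativePicardFunctor

/-!
# Frames of modules on schemes
-/

set_option autoImplicit false
set_option linter.unusedSectionVars false

noncomputable section

universe u

open CategoryTheory CategoryTheory.Limits AlgebraicGeometry TopologicalSpace Opposite

namespace Fermat.Agent.J25

section basic

variable {X : Scheme.{u}}

/-- restriction of functions -/
def rs {U V : X.Opens} (h : U ≤ V) : Γ(X, V) →+* Γ(X, U) := (X.presheaf.map (homOfLE h).op).hom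

theorem rs_rs {U V W : X.Opens} (h : U ≤ V) (h' : V ≤ W) (s : Γ(X, W)) :
    rs h (rs h' s) = rs (h.trans h') s := by
  unfold rs
  rw [← CommRingCat.comp_apply, ← Functor.map_comp]
  rfl

@[simp]
theorem rs_self {U : X.Opens} (h : U ≤ U) (s : Γ(X, U)) : rs h s = s := by
  unfold rs
  have : (homOfLE h).op = 𝟙 (op U) := rfl
  rw [this, X.presheaf.map_id]
  rfl

theorem rs_ext {ι : Type*} {V : X.Opens} (U : ι → X.Opens) (hU : ∀ i, U i ≤ V) (hV : V ≤ iSup U)
    {s t : Γ(X, V)} (h : ∀ i, rs (hU i) s = rs (hU i) t) : s = t :=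
  X.sheaf.eq_of_locally_eq' U V (fun i => homOfLE (hU i)) hV s t h

theorem rs_glue {ι : Type*} {V : X.Opens} (U : ι → X.Opens) (hU : ∀ i, U i ≤ V)
    (hV : V ≤ iSup U) (s : ∀ i, Γ(X, U i))
    (h : ∀ i j, rs (inf_le_left : U i ⊓ U j ≤ U i) (s i) =
      rs (inf_le_right : U i ⊓ U j ≤ U j) (s j)) :
    ∃ t : Γ(X, V), ∀ i, rs (hU i) t = s i :=
  (X.sheaf.existsUnique_gluing' U V (fun i => homOfLE (hU i)) hV s h).exists

/-- restriction of sections -/
def rm (L : X.Modules) {U V : X.Opens} (h : U ≤ V) : Γ(L, V) →+ Γ(L, U) :=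
  (L.presheaf.map (homOfLE h).op).hom

variable (L : X.Modules)

theorem rm_rm {U V W : X.Opens} (h : U ≤ V) (h' : V ≤ W) (s : Γ(L, W)) :
    rm L h (rm L h' s) = rm L (h.trans h') s := by
  unfold rm
  rw [← ConcreteCategory.comp_apply, ← Functor.map_comp]
  rfl

@[simp]
theorem rm_self {U : X.Opens} (h : U ≤ U) (s : Γ(L, U)) : rm L h s = s := by
  unfold rm
  have : (homOfLE h).op = 𝟙 (op U) := rfl
  rw [this, L.presheaf.map_id]
  rfl

theorem rm_smul {U V : X.Opens} (h : U ≤ V) (r : Γ(X, V)) (s : Γ(L, V)) :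
    rm L h (r • s) = rs h r • rm L h s :=
  Scheme.Modules.map_smul L (homOfLE h) r s

theorem rm_ext {ι : Type*} {V : X.Opens} (U : ι → X.Opens) (hU : ∀ i, U i ≤ V) (hV : V ≤ iSup U)
    {s t : Γ(L, V)} (h : ∀ i, rm L (hU i) s = rm L (hU i) t) : s = t :=
  TopCat.Sheaf.eq_of_locally_eq' ⟨L.presheaf, L.isSheaf⟩ U V (fun i => homOfLE (hU i)) hV s t h

theorem rm_glue {ι : Type*} {V : X.Opens} (U : ι → X.Opens) (hU : ∀ i, U i ≤ V)
    (hV : V ≤ iSup U) (s : ∀ i, Γ(L, U i))
    (h : ∀ i j, rm L (inf_le_left : U i ⊓ U j ≤ U i) (s i) =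
      rm L (inf_le_right : U i ⊓ U j ≤ U j) (s j)) :
    ∃ t : Γ(L, V), ∀ i, rm L (hU i) t = s i :=
  (TopCat.Sheaf.existsUnique_gluing' ⟨L.presheaf, L.isSheaf⟩ U V (fun i => homOfLE (hU i)) hV s
    h).exists

variable {L}

theorem app_rm {M : X.Modules} (φ : L ⟶ M) {U V : X.Opens} (h : U ≤ V) (s : Γ(L, V)) :
    φ.app U (rm L h s) = rm M h (φ.app V s) := by
  have := φ.mapPresheaf.naturality (homOfLE h).op
  exact congrArg (fun f => f.hom s) this

theorem app_smul {M : X.Modules} (φ : L ⟶ M) {U : X.Opens} (r : Γ(X, U)) (s : Γ(L, U)) :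
    φ.app U (r • s) = r • φ.app U s := Scheme.Modules.Hom.app_smul φ r s

/-- construction of morphisms -/
def mkHom (L M : X.Modules) (φ : ∀ U : X.Opens, Γ(L, U) →+ Γ(M, U))
    (hnat : ∀ (U V : X.Opens) (h : U ≤ V) (s : Γ(L, V)), φ U (rm L h s) = rm M h (φ V s))
    (hlin : ∀ (U : X.Opens) (r : Γ(X, U)) (s : Γ(L, U)), φ U (r • s) = r • φ U s) : L ⟶ M :=
  ⟨PresheafOfModules.homMk
    { app := fun U => AddCommGrpCat.ofHom (φ U.unop)
      naturality := fun U V f => by
        ext s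
        exact hnat _ _ (leOfHom f.unop) s } fun U r s => hlin U.unop r s⟩

@[simp]
theorem mkHom_app (L M : X.Modules) (φ : ∀ U : X.Opens, Γ(L, U) →+ Γ(M, U))
    (hnat : ∀ (U V : X.Opens) (h : U ≤ V) (s : Γ(L, V)), φ U (rm L h s) = rm M h (φ V s))
    (hlin : ∀ (U : X.Opens) (r : Γ(X, U)) (s : Γ(L, U)), φ U (r • s) = r • φ U s) (U : X.Opens)
    (s : Γ(L, U)) : (mkHom L M φ hnat hlin).app U s = φ U s := rfl

theorem isIso_of_bij {M : X.Modules} (φ : L ⟶ M)
    (h : ∀ U : X.Opens, Function.Bijective (φ.app U)) : IsIso φ := by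
  rw [Scheme.Modules.Hom.isIso_iff_isIso_app]
  exact fun U => (ConcreteCategory.isIso_iff_bijective _).mpr (h U)

theorem bij_of_isIso {M : X.Modules} (φ : L ⟶ M) [IsIso φ] (U : X.Opens) :
    Function.Bijective (φ.app U) :=
  (ConcreteCategory.isIso_iff_bijective _).mp inferInstance

end basic

section frame

variable {X : Scheme.{u}}

/-- a section `e` over `U` is a frame if multiplication with `e` is bijective -/
def IsFrame (L : X.Modules) {U : X.Opens} (e : Γ(L, U)) : Prop :=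
  ∀ (V : X.Opens) (h : V ≤ U), Function.Bijective (fun r : Γ(X, V) => r • rm L h e)

namespace IsFrame

variable {L M : X.Modules} {U : X.Opens} {e : Γ(L, U)}

theorem res (he : IsFrame L e) {V : X.Opens} (h : V ≤ U) : IsFrame L (rm L h e) := by
  intro W hW
  simp_rw [rm_rm]
  exact he W (hW.trans h)

theorem inj (he : IsFrame L e) {V : X.Opens} (h : V ≤ U) {r s : Γ(X, V)}
    (hrs : r • rm L h e = s • rm L h e) : r = s := (he V h).1 hrs

theorem inj' (he : IsFrame L e) {r s : Γ(X, U)} (hrs : r • e = s • e) : r = s := by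
  refine he.inj le_rfl ?_
  rw [rm_self]
  exact hrs

theorem surj (he : IsFrame L e) {V : X.Opens} (h : V ≤ U) (s : Γ(L, V)) :
    ∃ r : Γ(X, V), r • rm L h e = s := (he V h).2 s

theorem surj' (he : IsFrame L e) (s : Γ(L, U)) : ∃ r : Γ(X, U), r • e = s := by
  obtain ⟨r, hr⟩ := he.surj le_rfl s
  rw [rm_self] at hr
  exact ⟨r, hr⟩

/-- two frames differ by a unit -/
theorem exists_unit (he : IsFrame L e) {e' : Γ(L, U)} (he' : IsFrame L e') :
    ∃ u : Γ(X, U)ˣ, e' = (u : Γ(X, U)) • e := by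
  obtain ⟨a, ha⟩ := he.surj' e'
  obtain ⟨b, hb⟩ := he'.surj' e
  have h1 : a * b = 1 := he'.inj' (by rw [mul_smul, hb, ha, one_smul])
  exact ⟨⟨a, b, h1, by rw [mul_comm]; exact h1⟩, ha.symm⟩

theorem unit_smul (he : IsFrame L e) (u : Γ(X, U)ˣ) : IsFrame L ((u : Γ(X, U)) • e) := by
  intro V h
  have h1 : (fun r : Γ(X, V) => r • rm L h ((u : Γ(X, U)) • e)) =
      (fun r : Γ(X, V) => r • rm L h e) ∘ fun r => r * (rs h (u : Γ(X, U))) := by
    funext r
    simp only [Function.comp, rm_smul, mul_smul]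
  rw [h1]
  refine (he V h).comp ?_
  have h2 : (rs h (u : Γ(X, U))) = ((Units.map (rs h).toMonoidHom u : Γ(X, V)ˣ) : Γ(X, V)) := rfl
  rw [h2]
  exact (Units.mulRight (Units.map (rs h).toMonoidHom u)).bijective

theorem app (he : IsFrame L e) (φ : L ⟶ M) [IsIso φ] : IsFrame M (φ.app U e) := by
  intro V h
  have h1 : (fun r : Γ(X, V) => r • rm M h (φ.app U e)) =
      (φ.app V) ∘ fun r : Γ(X, V) => r • rm L h e := by
    funext r
    simp only [Function.comp]
    rw [app_smul, app_rm]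
  rw [h1]
  exact (bij_of_isIso φ V).comp (he V h)

theorem of_app (φ : L ⟶ M) [IsIso φ] (he : IsFrame M (φ.app U e)) : IsFrame L e := by
  have h1 := he.app (inv φ)
  have h2 : (inv φ).app U (φ.app U e) = e := by
    have h3 : (φ ≫ inv φ).app U e = e := by rw [IsIso.hom_inv_id]; rfl
    exact h3
  rwa [h2] at h1

/-- frames can be checked locally -/
theorem of_local {ι : Type*} (V : ι → X.Opens) (hV : ∀ i, V i ≤ U) (hU : U ≤ iSup V)
    (he : ∀ i, IsFrame L (rm L (hV i) e)) : IsFrame L e := by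
  intro W hW
  have hle : ∀ i, W ⊓ V i ≤ W := fun i => inf_le_left
  have hcov : W ≤ ⨆ i, W ⊓ V i := by
    rw [← inf_iSup_eq]
    exact le_inf le_rfl (hW.trans hU)
  have key : ∀ (i : ι) (Z : X.Opens) (h1 : Z ≤ W) (h2 : Z ≤ V i) (r : Γ(X, W)),
      rm L h1 (r • rm L hW e) = rs h1 r • rm L h2 (rm L (hV i) e) := by
    intro i Z h1 h2 r
    rw [rm_smul, rm_rm, rm_rm]
  constructor
  · intro r s hrs
    refine rs_ext (fun i => W ⊓ V i) hle hcov fun i => ?_
    refine (he i).inj (inf_le_right : W ⊓ V i ≤ V i) ?_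
    rw [← key i _ (hle i) inf_le_right r, ← key i _ (hle i) inf_le_right s]
    exact congrArg _ hrs
  · intro s
    have h1 : ∀ i, ∃ r : Γ(X, W ⊓ V i), r • rm L inf_le_right (rm L (hV i) e) =
        rm L (hle i) s := fun i => (he i).surj inf_le_right _
    choose r hr using h1
    obtain ⟨t, ht⟩ := rs_glue (fun i => W ⊓ V i) hle hcov r fun i j => by
      have h2 : (W ⊓ V i) ⊓ (W ⊓ V j) ≤ V i := inf_le_left.trans inf_le_right
      have h3 : (W ⊓ V i) ⊓ (W ⊓ V j) ≤ V j := inf_le_right.trans inf_le_right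
      refine (he i).inj h2 ?_
      have h4 := congrArg (rm L (inf_le_left : (W ⊓ V i) ⊓ (W ⊓ V j) ≤ _)) (hr i)
      have h5 := congrArg (rm L (inf_le_right : (W ⊓ V i) ⊓ (W ⊓ V j) ≤ _)) (hr j)
      rw [rm_smul, rm_rm, rm_rm] at h4 h5
      rw [rm_rm] at h4 h5 ⊢
      rw [h4, h5]
    refine ⟨t, rm_ext L (fun i => W ⊓ V i) hle hcov fun i => ?_⟩
    change rm L (hle i) (t • rm L hW e) = rm L (hle i) s
    rw [key i _ (hle i) inf_le_right, ht, hr]

end IsFrame

/-- the structure sheaf as a module -/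
abbrev unitM (X : Scheme.{u}) : X.Modules := SheafOfModules.unit X.ringCatSheaf

/-- the frame of the structure sheaf -/
theorem isFrame_one (U : X.Opens) :
    IsFrame (unitM X) (U := U) (1 : Γ(X, U)) := by
  intro V h
  have h1 : (fun r : Γ(X, V) => r • rm (unitM X) h
      (1 : Γ(X, U))) = id := by
    funext r
    have h2 : rm (unitM X) h (1 : Γ(X, U)) =
      (1 : Γ(X, V)) := (rs h).map_one
    rw [h2]
    exact mul_one r
  rw [h1]
  exact Function.bijective_id

/-- the morphism attached to a global section -/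
def ofSec (L : X.Modules) (e : Γ(L, ⊤)) : unitM X ⟶ L :=
  mkHom _ L (fun U =>
    { toFun := fun r => (show Γ(X, U) from r) • rm L le_top e
      map_zero' := zero_smul _ _
      map_add' := fun r s => add_smul (show Γ(X, U) from r) (show Γ(X, U) from s) _ })
    (fun U V h s => by
      change (rs h (show Γ(X, V) from s)) • rm L (le_top : U ≤ ⊤) e =
        rm L h ((show Γ(X, V) from s) • rm L (le_top : V ≤ ⊤) e)
      rw [rm_smul, rm_rm])
    (fun U r s => by
      change (r * (show Γ(X, U) from s)) • rm L (le_top : U ≤ ⊤) e =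
        r • ((show Γ(X, U) from s) • rm L (le_top : U ≤ ⊤) e)
      rw [mul_smul])

theorem ofSec_app (L : X.Modules) (e : Γ(L, ⊤)) (U : X.Opens) (r : Γ(X, U)) :
    (ofSec L e).app U r = r • rm L le_top e := rfl

theorem isIso_ofSec {L : X.Modules} {e : Γ(L, ⊤)} (he : IsFrame L e) : IsIso (ofSec L e) :=
  isIso_of_bij _ fun U => he U le_top

end frame

end Fermat.Agent.J25
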