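import Mathlib
import Fermat.Agent.J25.Frame

/-!
# Frames and pullback
-/

set_option autoImplicit false
set_option linter.unusedSectionVars false
set_option linter.style.haveILetI false

noncomputable section

universe u

open CategoryTheory CategoryTheory.Limits AlgebraicGeometry TopologicalSpace Opposite

namespace Fermat.Agent.J25

variable {X Y Z : Scheme.{u}}

/-- the pullback of a section -/
def pull (f : X ⟶ Y) (L : Y.Modules) {U : Y.Opens} (e : Γ(L, U)) :
    Γ((Scheme.Modules.pullback f).obj L, f ⁻¹ᵁ U) :=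
  ((Scheme.Modules.pullbackPushforwardAdjunction f).unit.app L).app U e

theorem pull_rm (f : X ⟶ Y) (L : Y.Modules) {U V : Y.Opens} (h : U ≤ V) (e : Γ(L, V)) :
    pull f L (rm L h e) = rm _ (f.preimage_mono h) (pull f L e) :=
  app_rm ((Scheme.Modules.pullbackPushforwardAdjunction f).unit.app L) h e

theorem pull_smul (f : X ⟶ Y) (L : Y.Modules) {U : Y.Opens} (r : Γ(Y, U)) (e : Γ(L, U)) :
    pull f L (r • e) = (f.app U r : Γ(X, f ⁻¹ᵁ U)) • pull f L e :=
  app_smul ((Scheme.Modules.pullbackPushforwardAdjunction f).unit.app L) r e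

theorem pull_app (f : X ⟶ Y) {L M : Y.Modules} (φ : L ⟶ M) {U : Y.Opens} (e : Γ(L, U)) :
    pull f M (φ.app U e) = ((Scheme.Modules.pullback f).map φ).app (f ⁻¹ᵁ U) (pull f L e) := by
  have h := (Scheme.Modules.pullbackPushforwardAdjunction f).unit.naturality φ
  have h1 := congrArg (fun g => Scheme.Modules.Hom.app g U e) h
  exact h1

/-- the unit section of the structure sheaf -/
def oneM (U : X.Opens) : Γ(unitM X, U) := (1 : Γ(X, U))

theorem isFrame_oneM (U : X.Opens) : IsFrame (unitM X) (oneM U) := isFrame_one U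

/-- the pullback of the unit section -/
theorem pull_one (f : X ⟶ Y) (U : Y.Opens) :
    (Scheme.Modules.pullbackUnitIso f).hom.app (f ⁻¹ᵁ U) (pull f (unitM Y) (oneM U)) =
      oneM (f ⁻¹ᵁ U) := by
  have h : (Scheme.Modules.pullbackPushforwardAdjunction f).unit.app (unitM Y) ≫
      (Scheme.Modules.pushforward f).map (Scheme.Modules.pullbackUnitIso f).hom =
      SheafOfModules.unitToPushforwardObjUnit f.toRingCatSheafHom :=
    SheafOfModules.pullbackPushforwardAdjunction_homEquiv_pullbackObjUnitToUnit _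
  have h1 := congrArg (fun g : unitM Y ⟶ (Scheme.Modules.pushforward f).obj (unitM X) =>
    Scheme.Modules.Hom.app g U (oneM U)) h
  refine h1.trans ?_
  exact map_one (f.app U).hom

/-- frames on the whole space pull back -/
theorem IsFrame.pull_top (f : X ⟶ Y) {L : Y.Modules} {e : Γ(L, ⊤)} (he : IsFrame L e) :
    IsFrame ((Scheme.Modules.pullback f).obj L) (pull f L e) := by
  haveI := isIso_ofSec he
  have h1 : e = (ofSec L e).app ⊤ (oneM ⊤) := by
    have h2 : (ofSec L e).app ⊤ (oneM ⊤) = (1 : Γ(Y, ⊤)) • rm L le_top e := ofSec_app L e ⊤ 1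
    rw [h2, one_smul, rm_self]
  have h3 : IsFrame ((Scheme.Modules.pullback f).obj (unitM Y)) (pull f (unitM Y) (oneM ⊤)) := by
    refine IsFrame.of_app (Scheme.Modules.pullbackUnitIso f).hom ?_
    rw [pull_one]
    exact isFrame_oneM _
  have h4 : pull f L e = ((Scheme.Modules.pullback f).map (ofSec L e)).app (f ⁻¹ᵁ ⊤)
      (pull f (unitM Y) (oneM ⊤)) := by
    rw [← pull_app, ← h1]
  rw [h4]
  exact h3.app _

/-! ## Restriction to open subschemes -/

section opn

variable (j : X ⟶ Y) [IsOpenImmersion j]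

/-- a section over `j ''ᵁ U` as a section of the restriction -/
def toRes (L : Y.Modules) (U : X.Opens) (e : Γ(L, j ''ᵁ U)) : Γ(L.restrict j, U) := e

theorem toRes_rm (L : Y.Modules) {U V : X.Opens} (h : U ≤ V) (e : Γ(L, j ''ᵁ V)) :
    toRes j L U (rm L (j.image_mono h) e) = rm (L.restrict j) h (toRes j L V e) := rfl

theorem smul_toRes (L : Y.Modules) (U : X.Opens) (r : Γ(X, U)) (e : Γ(L, j ''ᵁ U)) :
    r • toRes j L U e = toRes j L U (((j.appIso U).inv r : Γ(Y, j ''ᵁ U)) • e) := rfl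

theorem isFrame_toRes_iff (L : Y.Modules) (U : X.Opens) (e : Γ(L, j ''ᵁ U)) :
    IsFrame (L.restrict j) (toRes j L U e) ↔ IsFrame L e := by
  have key : ∀ (V : X.Opens) (h : V ≤ U),
      (fun r : Γ(X, V) => r • rm (L.restrict j) h (toRes j L U e)) =
      (fun r : Γ(Y, j ''ᵁ V) => r • rm L (j.image_mono h) e) ∘ (j.appIso V).inv := by
    intro V h
    rfl
  have hb : ∀ V : X.Opens, Function.Bijective ((j.appIso V).inv : Γ(X, V) → Γ(Y, j ''ᵁ V)) :=
    fun V => (ConcreteCategory.isIso_iff_bijective _).mp inferInstance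
  constructor
  · intro h W hW
    have hWr : W ≤ j.opensRange := hW.trans (j.image_le_opensRange U)
    have h1 : j ''ᵁ (j ⁻¹ᵁ W) = W := by
      rw [Scheme.Hom.image_preimage_eq_opensRange_inf]
      exact inf_eq_right.mpr hWr
    have hV : j ⁻¹ᵁ W ≤ U := by
      have := j.preimage_mono hW
      rwa [j.preimage_image_eq] at this
    have h2 := h (j ⁻¹ᵁ W) hV
    rw [key] at h2
    have h3 := (Function.Bijective.of_comp_iff _ (hb (j ⁻¹ᵁ W))).mp h2
    have h4 : ∀ (W' : Y.Opens) (hW' : W' ≤ j ''ᵁ U), W' = W →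
        Function.Bijective (fun r : Γ(Y, W') => r • rm L hW' e) →
        Function.Bijective (fun r : Γ(Y, W) => r • rm L hW e) := by
      rintro W' hW' rfl h
      exact h
    exact h4 _ (j.image_mono hV) h1 h3
  · intro h V hV
    have h2 := h (j ''ᵁ V) (j.image_mono hV)
    have h3 := h2.comp (hb V)
    rw [key]
    exact h3

/-- the pullback of a section along an open immersion -/
theorem pull_eq (L : Y.Modules) {U : Y.Opens} (e : Γ(L, U)) :
    pull j L e = ((Scheme.Modules.restrictFunctorIsoPullback j).hom.app L).app (j ⁻¹ᵁ U)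
      (toRes j L (j ⁻¹ᵁ U) (rm L (j.image_preimage_le U) e)) := by
  have h := Adjunction.unit_leftAdjointUniq_hom_app (Scheme.Modules.restrictAdjunction j)
    (Scheme.Modules.pullbackPushforwardAdjunction j) L
  have h1 := congrArg (fun g => Scheme.Modules.Hom.app g U e) h
  exact h1.symm

theorem isFrame_pull_of_le {L : Y.Modules} {U : Y.Opens} {e : Γ(L, U)} (he : IsFrame L e) :
    IsFrame ((Scheme.Modules.pullback j).obj L) (pull j L e) := by
  rw [pull_eq]
  refine IsFrame.app ?_ _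
  rw [isFrame_toRes_iff]
  exact he.res _

theorem isFrame_of_pull {L : Y.Modules} {U : Y.Opens} {e : Γ(L, U)} (hU : U ≤ j.opensRange)
    (he : IsFrame ((Scheme.Modules.pullback j).obj L) (pull j L e)) : IsFrame L e := by
  rw [pull_eq] at he
  have h1 := IsFrame.of_app _ he
  rw [isFrame_toRes_iff] at h1
  refine IsFrame.of_local (fun _ : Unit => j ''ᵁ (j ⁻¹ᵁ U)) (fun _ => j.image_preimage_le U) ?_
    fun _ => h1
  rw [iSup_const, Scheme.Hom.image_preimage_eq_opensRange_inf]
  exact le_inf hU le_rfl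

end opn

/-- the pullback of a section along a composition -/
theorem pull_comp (f : X ⟶ Y) (g : Y ⟶ Z) (L : Z.Modules) {U : Z.Opens} (e : Γ(L, U)) :
    pull f _ (pull g L e) =
      ((Scheme.Modules.pullbackComp f g).inv.app L).app _ (pull (f ≫ g) L e) := by
  have h := unit_conjugateEquiv ((Scheme.Modules.pullbackPushforwardAdjunction g).comp
    (Scheme.Modules.pullbackPushforwardAdjunction f))
    (Scheme.Modules.pullbackPushforwardAdjunction (f ≫ g))
    (Scheme.Modules.pullbackComp f g).inv L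
  rw [Scheme.Modules.conjugateEquiv_pullbackComp_inv] at h
  have h1 := congrArg (fun g => Scheme.Modules.Hom.app g U e) h
  exact h1

theorem isFrame_pull_comp_iff (f : X ⟶ Y) (g : Y ⟶ Z) (L : Z.Modules) {U : Z.Opens}
    (e : Γ(L, U)) : IsFrame _ (pull f _ (pull g L e)) ↔ IsFrame _ (pull (f ≫ g) L e) := by
  rw [pull_comp]
  exact ⟨fun h => IsFrame.of_app _ h, fun h => h.app _⟩

theorem isFrame_pull_congr {f g : X ⟶ Y} (h : f = g) {L : Y.Modules} {U : Y.Opens}
    {e : Γ(L, U)} (he : IsFrame _ (pull f L e)) : IsFrame _ (pull g L e) := by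
  subst h
  exact he

/-- **frames pull back to frames** -/
theorem IsFrame.pull (f : X ⟶ Y) {L : Y.Modules} {V : Y.Opens} {e : Γ(L, V)}
    (he : IsFrame L e) : IsFrame ((Scheme.Modules.pullback f).obj L) (pull f L e) := by
  have h1 : IsFrame _ (J25.pull V.ι L e) := isFrame_pull_of_le V.ι he
  have htop : (⊤ : V.toScheme.Opens) ≤ V.ι ⁻¹ᵁ V := by
    rw [Scheme.Opens.ι_preimage_self]
  have h2 := (h1.res htop).pull_top (f ∣_ V)
  have h3 : IsFrame _ (J25.pull (f ∣_ V) _ (J25.pull V.ι L e)) := by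
    rw [pull_rm] at h2
    refine IsFrame.of_local (fun _ : Unit => (f ∣_ V) ⁻¹ᵁ ⊤)
      (fun _ => (f ∣_ V).preimage_mono htop) ?_ fun _ => h2
    rw [iSup_const]
    exact le_top
  rw [isFrame_pull_comp_iff] at h3
  have h4 := isFrame_pull_congr (morphismRestrict_ι f V) h3
  rw [← isFrame_pull_comp_iff] at h4
  refine isFrame_of_pull (f ⁻¹ᵁ V).ι ?_ h4
  rw [Scheme.Opens.opensRange_ι]

/-- invertible modules in terms of frames -/
theorem isInvertible_iff (L : X.Modules) : Scheme.Modules.IsInvertible L ↔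
    ∀ x : X, ∃ (U : X.Opens) (_ : x ∈ U) (e : Γ(L, U)), IsFrame L e := by
  constructor
  · rintro ⟨h⟩ x
    obtain ⟨U, hx, ⟨φ⟩⟩ := h x
    let φ' : L.restrict U.ι ≅ unitM U.toScheme :=
      (Scheme.Modules.restrictFunctorIsoPullback U.ι).app L ≪≫ φ
    let e : Γ(L.restrict U.ι, ⊤) := φ'.inv.app ⊤ (oneM ⊤)
    have he : IsFrame (L.restrict U.ι) e := (isFrame_oneM ⊤).app φ'.inv
    have h1 : IsFrame L (U := U.ι ''ᵁ ⊤) e := (isFrame_toRes_iff U.ι L ⊤ e).mp he
    have hU : U ≤ U.ι ''ᵁ ⊤ := by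
      rw [Scheme.Opens.ι_image_top]
    exact ⟨U, hx, rm L hU e, h1.res hU⟩
  · intro h
    refine ⟨fun x => ?_⟩
    obtain ⟨U, hx, e, he⟩ := h x
    have hU : U.ι ''ᵁ ⊤ ≤ U := by
      rw [Scheme.Opens.ι_image_top]
    have h1 := he.res hU
    rw [← isFrame_toRes_iff] at h1
    haveI := isIso_ofSec h1
    exact ⟨U, hx, ⟨((Scheme.Modules.restrictFunctorIsoPullback U.ι).app L).symm ≪≫
      (asIso (ofSec _ (toRes U.ι L ⊤ (rm L hU e)))).symm⟩⟩

end Fermat.Agent.J25
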