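import Mathlib
import Fermat.Agent.J25.PullFrame

/-!
# Gluing of isomorphisms of invertible modules
-/

set_option autoImplicit false
set_option linter.unusedSectionVars false
set_option linter.style.haveILetI false

noncomputable section

universe u

open CategoryTheory CategoryTheory.Limits AlgebraicGeometry TopologicalSpace Opposite

namespace Fermat.Agent.J25

variable {X : Scheme.{u}} {ι : Type*} {L M : X.Modules} {U : ι → X.Opens}

theorem cover_inf (hU : (⊤ : X.Opens) ≤ iSup U) (V : X.Opens) : V ≤ ⨆ i, V ⊓ U i := by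
  rw [← inf_iSup_eq]
  exact le_inf le_rfl (le_top.trans hU)

/-- a morphism is determined by the images of the frames -/
theorem hom_ext_frames (hU : (⊤ : X.Opens) ≤ iSup U) {e : ∀ i, Γ(L, U i)}
    (he : ∀ i, IsFrame L (e i)) {φ ψ : L ⟶ M} (h : ∀ i, φ.app (U i) (e i) = ψ.app (U i) (e i)) :
    φ = ψ := by
  refine Scheme.Modules.hom_ext _ _ fun V => ?_
  ext s
  refine rm_ext M (fun i => V ⊓ U i) (fun i => inf_le_left) (cover_inf hU V) fun i => ?_
  obtain ⟨r, hr⟩ := (he i).surj (inf_le_right : V ⊓ U i ≤ U i) (rm L inf_le_left s)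
  have h1 : φ.app _ (rm L (inf_le_left : V ⊓ U i ≤ V) s) =
      ψ.app _ (rm L (inf_le_left : V ⊓ U i ≤ V) s) := by
    rw [← hr, app_smul, app_smul, app_rm, app_rm, h i]
  rw [app_rm, app_rm] at h1
  exact h1

/-- the local description of the morphism -/
def GlRel (e : ∀ i, Γ(L, U i)) (e' : ∀ i, Γ(M, U i)) {V : X.Opens} (s : Γ(L, V))
    (t : Γ(M, V)) : Prop :=
  ∀ (i : ι) (W : X.Opens) (h : W ≤ V) (h' : W ≤ U i) (r : Γ(X, W)),
    r • rm L h' (e i) = rm L h s → r • rm M h' (e' i) = rm M h t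

section glue

variable {e : ∀ i, Γ(L, U i)} {e' : ∀ i, Γ(M, U i)}

theorem GlRel.rm {V V' : X.Opens} (h : V ≤ V') {s : Γ(L, V')} {t : Γ(M, V')}
    (H : GlRel e e' s t) : GlRel e e' (rm L h s) (rm M h t) := by
  intro i W h1 h2 r hr
  rw [rm_rm] at hr ⊢
  exact H i W (h1.trans h) h2 r hr

theorem GlRel.unique (hU : (⊤ : X.Opens) ≤ iSup U) (he : ∀ i, IsFrame L (e i)) {V : X.Opens}
    {s : Γ(L, V)} {t t' : Γ(M, V)} (H : GlRel e e' s t) (H' : GlRel e e' s t') : t = t' := by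
  refine rm_ext M (fun i => V ⊓ U i) (fun i => inf_le_left) (cover_inf hU V) fun i => ?_
  obtain ⟨r, hr⟩ := (he i).surj (inf_le_right : V ⊓ U i ≤ U i) (J25.rm L inf_le_left s)
  rw [← H i _ inf_le_left inf_le_right r hr, ← H' i _ inf_le_left inf_le_right r hr]

theorem GlRel.add (he : ∀ i, IsFrame L (e i)) {V : X.Opens}
    {s s' : Γ(L, V)} {t t' : Γ(M, V)} (H : GlRel e e' s t) (H' : GlRel e e' s' t') :
    GlRel e e' (s + s') (t + t') := by
  intro i W h h' r hr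
  obtain ⟨a, ha⟩ := (he i).surj h' (J25.rm L h s)
  obtain ⟨b, hb⟩ := (he i).surj h' (J25.rm L h s')
  have h1 : r = a + b := (he i).inj h' (by rw [hr, add_smul, ha, hb, map_add])
  rw [h1, add_smul, H i W h h' a ha, H' i W h h' b hb, map_add]

theorem GlRel.smul (he : ∀ i, IsFrame L (e i)) {V : X.Opens} (c : Γ(X, V))
    {s : Γ(L, V)} {t : Γ(M, V)} (H : GlRel e e' s t) : GlRel e e' (c • s) (c • t) := by
  intro i W h h' r hr
  obtain ⟨a, ha⟩ := (he i).surj h' (J25.rm L h s)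
  have h1 : r = rs h c * a := (he i).inj h' (by rw [hr, mul_smul, ha, rm_smul])
  rw [h1, mul_smul, H i W h h' a ha, rm_smul]

theorem GlRel.exists (hU : (⊤ : X.Opens) ≤ iSup U) (he : ∀ i, IsFrame L (e i))
    (g : ∀ i j, Γ(X, U i ⊓ U j))
    (hg : ∀ i j, J25.rm L inf_le_right (e j) = g i j • J25.rm L inf_le_left (e i))
    (hg' : ∀ i j, J25.rm M inf_le_right (e' j) = g i j • J25.rm M inf_le_left (e' i))
    {V : X.Opens} (s : Γ(L, V)) : ∃ t : Γ(M, V), GlRel e e' s t := by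
  have h1 : ∀ i, ∃ r : Γ(X, V ⊓ U i), r • J25.rm L inf_le_right (e i) = J25.rm L inf_le_left s :=
    fun i => (he i).surj (inf_le_right : V ⊓ U i ≤ U i) _
  choose r hr using h1
  have hW : ∀ (i j : ι) (W : X.Opens) (h : W ≤ U i ⊓ U j),
      J25.rm L (h.trans inf_le_right) (e j) =
        rs h (g i j) • J25.rm L (h.trans inf_le_left) (e i) := by
    intro i j W h
    have h2 := congrArg (J25.rm L h) (hg i j)
    rwa [rm_smul, rm_rm, rm_rm] at h2
  have hW' : ∀ (i j : ι) (W : X.Opens) (h : W ≤ U i ⊓ U j),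
      J25.rm M (h.trans inf_le_right) (e' j) =
        rs h (g i j) • J25.rm M (h.trans inf_le_left) (e' i) := by
    intro i j W h
    have h2 := congrArg (J25.rm M h) (hg' i j)
    rwa [rm_smul, rm_rm, rm_rm] at h2
  obtain ⟨t, ht⟩ := rm_glue M (fun i => V ⊓ U i) (fun i => inf_le_left) (cover_inf hU V)
    (fun i => r i • J25.rm M inf_le_right (e' i)) fun i j => by
      have h2 : (V ⊓ U i) ⊓ (V ⊓ U j) ≤ U i ⊓ U j :=
        inf_le_inf inf_le_right inf_le_right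
      have h3 : rs (inf_le_left : (V ⊓ U i) ⊓ (V ⊓ U j) ≤ _) (r i) =
          rs (inf_le_right : (V ⊓ U i) ⊓ (V ⊓ U j) ≤ _) (r j) * rs h2 (g i j) := by
        refine (he i).inj (h2.trans inf_le_left) ?_
        have h4 := congrArg (J25.rm L (inf_le_left : (V ⊓ U i) ⊓ (V ⊓ U j) ≤ _)) (hr i)
        have h5 := congrArg (J25.rm L (inf_le_right : (V ⊓ U i) ⊓ (V ⊓ U j) ≤ _)) (hr j)
        rw [rm_smul, rm_rm, rm_rm] at h4 h5
        rw [h4, mul_smul, ← hW i j _ h2, h5]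
      rw [rm_smul, rm_smul, rm_rm, rm_rm, h3, mul_smul, ← hW' i j _ h2]
  refine ⟨t, fun i W h h' a ha => ?_⟩
  have h2 : W ≤ V ⊓ U i := le_inf h h'
  have h3 : a = rs h2 (r i) := by
    refine (he i).inj h' ?_
    have h4 := congrArg (J25.rm L h2) (hr i)
    rw [rm_smul, rm_rm, rm_rm] at h4
    rw [ha, h4]
  have h5 := congrArg (J25.rm M h2) (ht i)
  rw [rm_smul, rm_rm, rm_rm] at h5
  rw [h5, h3]

end glue

/-- **gluing of morphisms** -/
theorem exists_hom_of_frames (hU : (⊤ : X.Opens) ≤ iSup U) {e : ∀ i, Γ(L, U i)}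
    {e' : ∀ i, Γ(M, U i)} (he : ∀ i, IsFrame L (e i)) (g : ∀ i j, Γ(X, U i ⊓ U j))
    (hg : ∀ i j, rm L inf_le_right (e j) = g i j • rm L inf_le_left (e i))
    (hg' : ∀ i j, rm M inf_le_right (e' j) = g i j • rm M inf_le_left (e' i)) :
    ∃ φ : L ⟶ M, ∀ i, φ.app (U i) (e i) = e' i := by
  choose φ hφ using fun (V : X.Opens) (s : Γ(L, V)) => GlRel.exists hU he g hg hg' s
  refine ⟨mkHom L M (fun V => AddMonoidHom.mk' (φ V) fun s s' => ?_) (fun V V' h s => ?_)
    (fun V r s => ?_), fun i => ?_⟩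
  · exact GlRel.unique hU he (hφ V _) ((hφ V s).add he (hφ V s'))
  · exact GlRel.unique hU he (hφ V _) ((hφ V' s).rm h)
  · exact GlRel.unique hU he (hφ V _) ((hφ V s).smul he r)
  · have h1 := hφ (U i) (e i) i (U i) le_rfl le_rfl 1 (by rw [one_smul])
    rw [one_smul, rm_self, rm_self] at h1
    exact h1.symm

/-- **gluing of isomorphisms** -/
theorem exists_iso_of_frames (hU : (⊤ : X.Opens) ≤ iSup U) {e : ∀ i, Γ(L, U i)}
    {e' : ∀ i, Γ(M, U i)} (he : ∀ i, IsFrame L (e i)) (he' : ∀ i, IsFrame M (e' i))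
    (g : ∀ i j, Γ(X, U i ⊓ U j))
    (hg : ∀ i j, rm L inf_le_right (e j) = g i j • rm L inf_le_left (e i))
    (hg' : ∀ i j, rm M inf_le_right (e' j) = g i j • rm M inf_le_left (e' i)) :
    ∃ φ : L ≅ M, ∀ i, φ.hom.app (U i) (e i) = e' i := by
  obtain ⟨φ, hφ⟩ := exists_hom_of_frames hU he g hg hg'
  obtain ⟨ψ, hψ⟩ := exists_hom_of_frames hU he' g hg' hg
  refine ⟨⟨φ, ψ, hom_ext_frames hU he fun i => ?_, hom_ext_frames hU he' fun i => ?_⟩, hφ⟩
  · change ψ.app (U i) (φ.app (U i) (e i)) = e i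
    rw [hφ, hψ]
  · change φ.app (U i) (ψ.app (U i) (e' i)) = e' i
    rw [hψ, hφ]

end Fermat.Agent.J25
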