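import Mathlib
import Fermat.Agent.J25.Frame

/-!
# Restriction, gluing and pullback of sections and of units
-/

set_option autoImplicit false

universe u v w

open CategoryTheory CategoryTheory.Limits AlgebraicGeometry TopologicalSpace Opposite

noncomputable section

namespace Fermat.Agent.J25

section Sections

variable {X : Scheme.{u}}

/-- sections are determined locally -/
theorem sec_ext {ι : Type*} {W : X.Opens} (V : ι → X.Opens) (hV : ∀ i, V i ≤ W)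
    (hc : ∀ x ∈ W, ∃ i, x ∈ V i) {a b : Γ(X, W)} (h : ∀ i, rs (hV i) a = rs (hV i) b) :
    a = b := by
  refine X.sheaf.eq_of_locally_eq' V W (fun i => homOfLE (hV i)) (fun x hx => ?_) a b h
  obtain ⟨i, hi⟩ := hc x hx
  exact Opens.mem_iSup.mpr ⟨i, hi⟩

/-- gluing of sections -/
theorem sec_glue {ι : Type*} {W : X.Opens} (V : ι → X.Opens) (hV : ∀ i, V i ≤ W)
    (hc : ∀ x ∈ W, ∃ i, x ∈ V i) (s : ∀ i, Γ(X, V i))
    (h : ∀ i j, rs (inf_le_left : V i ⊓ V j ≤ V i) (s i) =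
      rs (inf_le_right : V i ⊓ V j ≤ V j) (s j)) :
    ∃ a : Γ(X, W), ∀ i, rs (hV i) a = s i := by
  obtain ⟨a, ha, -⟩ := X.sheaf.existsUnique_gluing' V W (fun i => homOfLE (hV i))
    (fun x hx => by
      obtain ⟨i, hi⟩ := hc x hx
      exact Opens.mem_iSup.mpr ⟨i, hi⟩) s h
  exact ⟨a, ha⟩

/-- restriction of units -/
abbrev ru {U V : X.Opens} (h : V ≤ U) : Γ(X, U)ˣ →* Γ(X, V)ˣ := Units.map (rs h).toMonoidHom

theorem ru_ru {U V W : X.Opens} (h₁ : V ≤ U) (h₂ : W ≤ V) (a : Γ(X, U)ˣ) :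
    ru h₂ (ru h₁ a) = ru (h₂.trans h₁) a := Units.ext (rs_rs h₂ h₁ _)

theorem ru_self {U : X.Opens} (h : U ≤ U) (a : Γ(X, U)ˣ) : ru h a = a := Units.ext (rs_self h _)

theorem coe_ru {U V : X.Opens} (h : V ≤ U) (a : Γ(X, U)ˣ) :
    ((ru h a : Γ(X, V)ˣ) : Γ(X, V)) = rs h a := rfl

theorem unit_ext {ι : Type*} {W : X.Opens} (V : ι → X.Opens) (hV : ∀ i, V i ≤ W)
    (hc : ∀ x ∈ W, ∃ i, x ∈ V i) {a b : Γ(X, W)ˣ} (h : ∀ i, ru (hV i) a = ru (hV i) b) :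
    a = b :=
  Units.ext (sec_ext V hV hc fun i => congrArg Units.val (h i))

/-- gluing of units -/
theorem unit_glue {ι : Type*} {W : X.Opens} (V : ι → X.Opens) (hV : ∀ i, V i ≤ W)
    (hc : ∀ x ∈ W, ∃ i, x ∈ V i) (s : ∀ i, Γ(X, V i)ˣ)
    (h : ∀ i j, ru (inf_le_left : V i ⊓ V j ≤ V i) (s i) =
      ru (inf_le_right : V i ⊓ V j ≤ V j) (s j)) :
    ∃ a : Γ(X, W)ˣ, ∀ i, ru (hV i) a = s i := by
  obtain ⟨a, ha⟩ := sec_glue V hV hc (fun i => (s i : Γ(X, V i)))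
    (fun i j => congrArg Units.val (h i j))
  obtain ⟨b, hb⟩ := sec_glue V hV hc (fun i => ((s i)⁻¹ : Γ(X, V i)ˣ)) (fun i j => by
    have := congrArg (fun t => t⁻¹) (h i j)
    simp only [← map_inv] at this
    exact congrArg Units.val this)
  have hab : a * b = 1 := sec_ext V hV hc fun i => by
    rw [map_mul, ha, hb, map_one, Units.mul_inv]
  exact ⟨⟨a, b, hab, (mul_comm _ _).trans hab⟩, fun i => Units.ext (ha i)⟩

end Sections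

section Pull

variable {X Y Z : Scheme.{u}}

/-- pullback of sections -/
abbrev pb (f : X ⟶ Y) {U : Y.Opens} {V : X.Opens} (h : V ≤ f ⁻¹ᵁ U) : Γ(Y, U) →+* Γ(X, V) :=
  (f.appLE U V h).hom

theorem rs_pb (f : X ⟶ Y) {U : Y.Opens} {V V' : X.Opens} (h : V ≤ f ⁻¹ᵁ U) (h' : V' ≤ V)
    (a : Γ(Y, U)) : rs h' (pb f h a) = pb f (h'.trans h) a :=
  congrArg (fun φ : Γ(Y, U) ⟶ Γ(X, V') => φ.hom a) (f.appLE_map h (homOfLE h').op)

theorem pb_rs (f : X ⟶ Y) {U U' : Y.Opens} {V : X.Opens} (h : V ≤ f ⁻¹ᵁ U') (h' : U' ≤ U)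
    (a : Γ(Y, U)) : pb f h (rs h' a) = pb f (h.trans (Scheme.Hom.preimage_mono f h')) a :=
  congrArg (fun φ : Γ(Y, U) ⟶ Γ(X, V) => φ.hom a) (f.map_appLE h (homOfLE h').op)

theorem pb_pb (f : X ⟶ Y) (g : Y ⟶ Z) {U : Z.Opens} {V : Y.Opens} {W : X.Opens}
    (h : V ≤ g ⁻¹ᵁ U) (h' : W ≤ f ⁻¹ᵁ V) (a : Γ(Z, U)) :
    pb f h' (pb g h a) = pb (f ≫ g) (h'.trans (Scheme.Hom.preimage_mono f h)) a :=
  congrArg (fun φ : Γ(Z, U) ⟶ Γ(X, W) => φ.hom a) (Scheme.Hom.appLE_comp_appLE f g U V W h h')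

theorem pb_id {U V : X.Opens} (h : V ≤ (𝟙 X) ⁻¹ᵁ U) (a : Γ(X, U)) :
    pb (𝟙 X) h a = rs (show V ≤ U from h) a := by
  have h1 : (𝟙 X : X ⟶ X).appLE U V h = X.presheaf.map (homOfLE (show V ≤ U from h)).op := by
    rw [Scheme.Hom.appLE]
    exact Category.id_comp _
  exact congrArg (fun φ : Γ(X, U) ⟶ Γ(X, V) => φ.hom a) h1

/-- pullback of units -/
abbrev pu (f : X ⟶ Y) {U : Y.Opens} {V : X.Opens} (h : V ≤ f ⁻¹ᵁ U) : Γ(Y, U)ˣ →* Γ(X, V)ˣ :=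
  Units.map (pb f h).toMonoidHom

theorem ru_pu (f : X ⟶ Y) {U : Y.Opens} {V V' : X.Opens} (h : V ≤ f ⁻¹ᵁ U) (h' : V' ≤ V)
    (a : Γ(Y, U)ˣ) : ru h' (pu f h a) = pu f (h'.trans h) a := Units.ext (rs_pb f h h' a)

theorem pu_ru (f : X ⟶ Y) {U U' : Y.Opens} {V : X.Opens} (h : V ≤ f ⁻¹ᵁ U') (h' : U' ≤ U)
    (a : Γ(Y, U)ˣ) : pu f h (ru h' a) = pu f (h.trans (Scheme.Hom.preimage_mono f h')) a :=
  Units.ext (pb_rs f h h' a)

theorem pu_pu (f : X ⟶ Y) (g : Y ⟶ Z) {U : Z.Opens} {V : Y.Opens} {W : X.Opens}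
    (h : V ≤ g ⁻¹ᵁ U) (h' : W ≤ f ⁻¹ᵁ V) (a : Γ(Z, U)ˣ) :
    pu f h' (pu g h a) = pu (f ≫ g) (h'.trans (Scheme.Hom.preimage_mono f h)) a :=
  Units.ext (pb_pb f g h h' a)

theorem pu_id {U V : X.Opens} (h : V ≤ (𝟙 X) ⁻¹ᵁ U) (a : Γ(X, U)ˣ) :
    pu (𝟙 X) h a = ru (show V ≤ U from h) a := Units.ext (pb_id h a)

end Pull

end Fermat.Agent.J25
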