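import Mathlib
import Fermat.Agent.J25.Sec

/-!
# Čech cocycles of units indexed by the points of a scheme, and their classes
-/

set_option autoImplicit false

universe u v w

open CategoryTheory CategoryTheory.Limits AlgebraicGeometry TopologicalSpace Opposite

noncomputable section

namespace Fermat.Agent.J25

/-- Čech cocycles of units indexed by the points (`e y = g x y • e x` for the generators). -/
structure Coc (X : Scheme.{u}) : Type u where
  U : X → X.Opens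
  mem : ∀ x, x ∈ U x
  g : ∀ x y, Γ(X, U x ⊓ U y)ˣ
  cocycle : ∀ (x y z : X) (V : X.Opens) (hx : V ≤ U x) (hy : V ≤ U y) (hz : V ≤ U z),
    ru (le_inf hx hy) (g x y) * ru (le_inf hy hz) (g y z) = ru (le_inf hx hz) (g x z)

namespace Coc

variable {X Y Z : Scheme.{u}}

/-- the transition unit on a small open -/
def gg (c : Coc X) (x y : X) {V : X.Opens} (hx : V ≤ c.U x) (hy : V ≤ c.U y) : Γ(X, V)ˣ :=
  ru (le_inf hx hy) (c.g x y)

theorem gg_mul (c : Coc X) (x y z : X) {V : X.Opens} (hx : V ≤ c.U x) (hy : V ≤ c.U y)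
    (hz : V ≤ c.U z) : c.gg x y hx hy * c.gg y z hy hz = c.gg x z hx hz :=
  c.cocycle x y z V hx hy hz

theorem ru_gg (c : Coc X) (x y : X) {V W : X.Opens} (hx : V ≤ c.U x) (hy : V ≤ c.U y)
    (h : W ≤ V) : ru h (c.gg x y hx hy) = c.gg x y (h.trans hx) (h.trans hy) :=
  ru_ru _ _ _

theorem gg_self (c : Coc X) (x : X) {V : X.Opens} (hx hx' : V ≤ c.U x) :
    c.gg x x hx hx' = 1 := by
  have h : c.gg x x hx hx * c.gg x x hx hx = c.gg x x hx hx := c.gg_mul x x x hx hx hx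
  exact mul_eq_left.mp h

theorem gg_inv (c : Coc X) (x y : X) {V : X.Opens} (hx : V ≤ c.U x) (hy : V ≤ c.U y) :
    (c.gg x y hx hy)⁻¹ = c.gg y x hy hx := by
  rw [inv_eq_iff_mul_eq_one, c.gg_mul x y x hx hy hx, c.gg_self]

/-- Equivalence: the cocycles differ by a coboundary on smaller opens. -/
def Rel (c d : Coc X) : Prop :=
  ∃ (W : X → X.Opens) (_ : ∀ x, x ∈ W x) (hc : ∀ x, W x ≤ c.U x) (hd : ∀ x, W x ≤ d.U x)
    (f : ∀ x, Γ(X, W x)ˣ), ∀ (x y : X) (V : X.Opens) (hx : V ≤ W x) (hy : V ≤ W y),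
      d.gg x y (hx.trans (hd x)) (hy.trans (hd y)) =
        (ru hx (f x))⁻¹ * c.gg x y (hx.trans (hc x)) (hy.trans (hc y)) * ru hy (f y)

theorem Rel.refl (c : Coc X) : Rel c c :=
  ⟨c.U, c.mem, fun _ => le_rfl, fun _ => le_rfl, fun _ => 1, fun x y V hx hy => by simp⟩

theorem Rel.symm {c d : Coc X} (h : Rel c d) : Rel d c := by
  obtain ⟨W, hW, hc, hd, f, hf⟩ := h
  refine ⟨W, hW, hd, hc, fun x => (f x)⁻¹, fun x y V hx hy => ?_⟩
  rw [hf x y V hx hy, map_inv, map_inv, inv_inv]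
  group

theorem Rel.trans {c d e : Coc X} (h : Rel c d) (h' : Rel d e) : Rel c e := by
  obtain ⟨W, hW, hc, hd, f, hf⟩ := h
  obtain ⟨W', hW', hd', he', f', hf'⟩ := h'
  refine ⟨fun x => W x ⊓ W' x, fun x => ⟨hW x, hW' x⟩, fun x => inf_le_left.trans (hc x),
    fun x => inf_le_right.trans (he' x), fun x => ru inf_le_left (f x) * ru inf_le_right (f' x),
    fun x y V hx hy => ?_⟩
  rw [hf' x y V (hx.trans inf_le_right) (hy.trans inf_le_right),
    hf x y V (hx.trans inf_le_left) (hy.trans inf_le_left), map_mul, map_mul, ru_ru, ru_ru,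
    ru_ru, ru_ru, mul_inv_rev]
  simp only [mul_assoc]

instance setoid (X : Scheme.{u}) : Setoid (Coc X) where
  r := Rel
  iseqv := ⟨Rel.refl, Rel.symm, Rel.trans⟩

/-- pullback of cocycles -/
def comap (f : X ⟶ Y) (c : Coc Y) : Coc X where
  U x := f ⁻¹ᵁ c.U (f x)
  mem x := c.mem (f x)
  g x y := pu f (show f ⁻¹ᵁ c.U (f x) ⊓ f ⁻¹ᵁ c.U (f y) ≤ f ⁻¹ᵁ (c.U (f x) ⊓ c.U (f y)) from
    le_rfl) (c.g (f x) (f y))
  cocycle x y z V hx hy hz := by
    have h1 : V ≤ f ⁻¹ᵁ (c.U (f x) ⊓ c.U (f y) ⊓ c.U (f z)) := le_inf (le_inf hx hy) hz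
    have h := congrArg (pu f h1) (c.cocycle (f x) (f y) (f z)
      (c.U (f x) ⊓ c.U (f y) ⊓ c.U (f z)) (inf_le_left.trans inf_le_left)
      (inf_le_left.trans inf_le_right) inf_le_right)
    rw [map_mul, pu_ru, pu_ru, pu_ru] at h
    rw [ru_pu, ru_pu, ru_pu]
    exact h

theorem comap_U (f : X ⟶ Y) (c : Coc Y) (x : X) : (c.comap f).U x = f ⁻¹ᵁ c.U (f x) := rfl

theorem comap_gg (f : X ⟶ Y) (c : Coc Y) (x y : X) {V : X.Opens} {W : Y.Opens}
    (hx : V ≤ f ⁻¹ᵁ c.U (f x)) (hy : V ≤ f ⁻¹ᵁ c.U (f y)) (hV : V ≤ f ⁻¹ᵁ W)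
    (hx' : W ≤ c.U (f x)) (hy' : W ≤ c.U (f y)) :
    (c.comap f).gg x y hx hy = pu f hV (c.gg (f x) (f y) hx' hy') := by
  unfold gg
  rw [pu_ru]
  exact ru_pu f _ _ _

theorem comap_g (f : X ⟶ Y) (c : Coc Y) (x y : X) {V : X.Opens}
    (hx : V ≤ f ⁻¹ᵁ c.U (f x)) (hy : V ≤ f ⁻¹ᵁ c.U (f y)) :
    (c.comap f).gg x y hx hy = pu f (le_inf hx hy) (c.g (f x) (f y)) :=
  ru_pu f _ _ _

theorem Rel.comap (f : X ⟶ Y) {c d : Coc Y} (h : Rel c d) : Rel (c.comap f) (d.comap f) := by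
  obtain ⟨W, hW, hc, hd, u, hu⟩ := h
  refine ⟨fun x => f ⁻¹ᵁ W (f x), fun x => hW (f x),
    fun x => Scheme.Hom.preimage_mono f (hc _), fun x => Scheme.Hom.preimage_mono f (hd _),
    fun x => pu f le_rfl (u (f x)), fun x y V hx hy => ?_⟩
  have hV : V ≤ f ⁻¹ᵁ (W (f x) ⊓ W (f y)) := le_inf hx hy
  have h := congrArg (pu f hV) (hu (f x) (f y) (W (f x) ⊓ W (f y)) inf_le_left inf_le_right)
  rw [map_mul, map_mul, map_inv, pu_ru, pu_ru] at h
  rw [ru_pu, ru_pu, comap_gg f d x y _ _ hV (inf_le_left.trans (hd _)) (inf_le_right.trans (hd _)),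
    comap_gg f c x y _ _ hV (inf_le_left.trans (hc _)) (inf_le_right.trans (hc _))]
  exact h

end Coc

/-- classes of cocycles -/
def PicC (X : Scheme.{u}) : Type u := Quotient (Coc.setoid X)

/-- the class of a cocycle -/
def PicC.mk {X : Scheme.{u}} (c : Coc X) : PicC X := Quotient.mk _ c

theorem PicC.mk_eq_mk {X : Scheme.{u}} {c d : Coc X} : PicC.mk c = PicC.mk d ↔ Coc.Rel c d :=
  Quotient.eq

theorem PicC.mk_surjective {X : Scheme.{u}} : Function.Surjective (PicC.mk (X := X)) :=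
  Quotient.mk_surjective

end Fermat.Agent.J25
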