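import Mathlib
import Fermat.Agent.J25.PicC0
import Fermat.Agent.J25.GlueIso

/-!
# The invertible module attached to a cocycle
-/

set_option autoImplicit false
set_option linter.unusedSectionVars false
set_option linter.style.haveILetI false

noncomputable section

universe u

open CategoryTheory CategoryTheory.Limits AlgebraicGeometry TopologicalSpace Opposite

namespace Fermat.Agent.J25

variable {X : Scheme.{u}} (c : Coc X)

/-- the sections of the module attached to a cocycle -/
def MSec (V : X.Opens) : AddSubgroup (∀ x, Γ(X, V ⊓ c.U x)) where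
  carrier := {s | ∀ (x y : X) (W : X.Opens) (hV : W ≤ V) (hx : W ≤ c.U x) (hy : W ≤ c.U y),
    rs (le_inf hV hx) (s x) = (c.gg x y hx hy : Γ(X, W)) * rs (le_inf hV hy) (s y)}
  zero_mem' := fun x y W hV hx hy => by simp
  add_mem' := fun {s t} hs ht x y W hV hx hy => by
    rw [Pi.add_apply, Pi.add_apply, map_add, map_add, hs x y W hV hx hy, ht x y W hV hx hy,
      mul_add]
  neg_mem' := fun {s} hs x y W hV hx hy => by
    rw [Pi.neg_apply, Pi.neg_apply, map_neg, map_neg, hs x y W hV hx hy, mul_neg]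

theorem MSec.cond {V : X.Opens} (s : MSec c V) (x y : X) {W : X.Opens} (hV : W ≤ V)
    (hx : W ≤ c.U x) (hy : W ≤ c.U y) :
    rs (le_inf hV hx) (s.1 x) = (c.gg x y hx hy : Γ(X, W)) * rs (le_inf hV hy) (s.1 y) :=
  s.2 x y W hV hx hy

/-- restriction -/
def MSec.res {V V' : X.Opens} (h : V' ≤ V) : MSec c V →+ MSec c V' where
  toFun s := ⟨fun x => rs (inf_le_inf_right (c.U x) h) (s.1 x), fun x y W hV hx hy => by
    rw [rs_rs, rs_rs]
    exact MSec.cond c s x y (hV.trans h) hx hy⟩
  map_zero' := Subtype.ext (funext fun x => map_zero _)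
  map_add' s t := Subtype.ext (funext fun x => map_add _ _ _)

instance (V : X.Opens) : Module Γ(X, V) (MSec c V) where
  smul r s := ⟨fun x => rs inf_le_left r * s.1 x, fun x y W hV hx hy => by
    rw [map_mul, map_mul, rs_rs, rs_rs, MSec.cond c s x y hV hx hy]
    ring⟩
  one_smul s := Subtype.ext (funext fun x => by
    change rs inf_le_left 1 * s.1 x = s.1 x
    rw [map_one, one_mul])
  mul_smul r r' s := Subtype.ext (funext fun x => by
    change rs inf_le_left (r * r') * s.1 x = rs inf_le_left r * (rs inf_le_left r' * s.1 x)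
    rw [map_mul, mul_assoc])
  smul_zero r := Subtype.ext (funext fun x => mul_zero _)
  smul_add r s t := Subtype.ext (funext fun x => mul_add _ _ _)
  add_smul r r' s := Subtype.ext (funext fun x => by
    change rs inf_le_left (r + r') * s.1 x = rs inf_le_left r * s.1 x + rs inf_le_left r' * s.1 x
    rw [map_add, add_mul])
  zero_smul s := Subtype.ext (funext fun x => by
    change rs inf_le_left 0 * s.1 x = 0
    rw [map_zero, zero_mul])

theorem MSec.smul_val {V : X.Opens} (r : Γ(X, V)) (s : MSec c V) (x : X) :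
    (r • s).1 x = rs inf_le_left r * s.1 x := rfl

theorem MSec.res_val {V V' : X.Opens} (h : V' ≤ V) (s : MSec c V) (x : X) :
    (MSec.res c h s).1 x = rs (inf_le_inf_right (c.U x) h) (s.1 x) := rfl

/-- the presheaf of groups -/
def mPre : TopCat.Presheaf Ab X where
  obj V := AddCommGrpCat.of (MSec c V.unop)
  map f := AddCommGrpCat.ofHom (MSec.res c (leOfHom f.unop))
  map_id V := by
    ext s x
    exact rs_self _ _
  map_comp f g := by
    ext s x
    exact (rs_rs _ _ _).symm

theorem mPre_isSheaf : (mPre c).IsSheaf := by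
  rw [TopCat.Presheaf.isSheaf_iff_isSheafUniqueGluing]
  intro ι V s hs
  have hs' : ∀ (i j : ι) (x : X), rs (inf_le_inf_right (c.U x) (inf_le_left : V i ⊓ V j ≤ V i))
      ((s i).1 x) = rs (inf_le_inf_right (c.U x) (inf_le_right : V i ⊓ V j ≤ V j))
      ((s j).1 x) := fun i j x => congrArg (fun t : MSec c (V i ⊓ V j) => t.1 x) (hs i j)
  have hle : ∀ (i : ι) (x : X), V i ⊓ c.U x ≤ iSup V ⊓ c.U x := fun i x =>
    inf_le_inf_right _ (le_iSup V i)
  have hcov : ∀ x : X, iSup V ⊓ c.U x ≤ ⨆ i, V i ⊓ c.U x := fun x => by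
    rw [← iSup_inf_eq]
  have h1 : ∀ x, ∃ t : Γ(X, iSup V ⊓ c.U x), ∀ i, rs (hle i x) t = (s i).1 x := by
    intro x
    refine rs_glue (fun i => V i ⊓ c.U x) (fun i => hle i x) (hcov x) (fun i => (s i).1 x)
      fun i j => ?_
    have h2 : (V i ⊓ c.U x) ⊓ (V j ⊓ c.U x) ≤ (V i ⊓ V j) ⊓ c.U x :=
      le_inf (inf_le_inf inf_le_left inf_le_left) (inf_le_left.trans inf_le_right)
    have h3 := congrArg (rs h2) (hs' i j x)
    rwa [rs_rs, rs_rs] at h3
  choose t ht using h1
  refine ⟨⟨t, fun x y W hV hx hy => ?_⟩, fun i => ?_, fun t' ht' => ?_⟩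
  · refine rs_ext (fun i => W ⊓ V i) (fun i => inf_le_left) ?_ fun i => ?_
    · rw [← inf_iSup_eq]
      exact le_inf le_rfl hV
    · have h2 : ∀ (z : X) (hz : W ≤ c.U z), rs (inf_le_left : W ⊓ V i ≤ W) (rs (le_inf hV hz)
          (t z)) = rs (le_inf inf_le_right (inf_le_left.trans hz) : W ⊓ V i ≤ V i ⊓ c.U z)
          ((s i).1 z) := by
        intro z hz
        rw [← ht z i, rs_rs, rs_rs]
      rw [map_mul, h2 x hx, h2 y hy, ← coe_ru, Coc.ru_gg]
      exact MSec.cond c (s i) x y inf_le_right (inf_le_left.trans hx) (inf_le_left.trans hy)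
  · exact Subtype.ext (funext fun x => ht x i)
  · refine Subtype.ext (funext fun x => ?_)
    refine rs_ext (fun i => V i ⊓ c.U x) (fun i => hle i x) (hcov x) fun i => ?_
    rw [ht x i]
    exact congrArg (fun t : MSec c (V i) => t.1 x) (ht' i)

instance instModMPre (V : (Opens X)ᵒᵖ) : Module (X.ringCatSheaf.obj.obj V) ((mPre c).obj V) :=
  inferInstanceAs (Module Γ(X, V.unop) (MSec c V.unop))

theorem mPre_map_smul ⦃V V' : (Opens X)ᵒᵖ⦄ (f : V ⟶ V') (r : X.ringCatSheaf.obj.obj V)
    (s : (mPre c).obj V) :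
    (mPre c).map f (r • s) = X.ringCatSheaf.obj.map f r • (mPre c).map f s := by
  refine Subtype.ext (funext fun x => ?_)
  change rs _ (rs _ (show Γ(X, V.unop) from r) * (show MSec c V.unop from s).1 x) =
    rs _ (rs (leOfHom f.unop) (show Γ(X, V.unop) from r)) *
      rs _ ((show MSec c V.unop from s).1 x)
  rw [map_mul, rs_rs, rs_rs]

/-- **the module attached to a cocycle** -/
def modOf : X.Modules where
  val := PresheafOfModules.ofPresheaf (mPre c) (mPre_map_smul c)
  isSheaf := mPre_isSheaf c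

/-- the sections of the module -/
def mkM {V : X.Opens} (s : MSec c V) : Γ(modOf c, V) := s

/-- the sections of the module -/
def unM {V : X.Opens} (s : Γ(modOf c, V)) : MSec c V := s

theorem rm_mkM {V V' : X.Opens} (h : V' ≤ V) (s : MSec c V) :
    rm (modOf c) h (mkM c s) = mkM c (MSec.res c h s) := rfl

theorem smul_mkM {V : X.Opens} (r : Γ(X, V)) (s : MSec c V) :
    r • mkM c s = mkM c (r • s) := rfl

/-- the frames -/
def frS (a : X) : MSec c (c.U a) := ⟨fun x => (c.gg x a inf_le_right inf_le_left : Γ(X, _)),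
  fun x y W hV hx hy => by
    rw [← coe_ru, ← coe_ru, Coc.ru_gg, Coc.ru_gg, ← Units.val_mul, Coc.gg_mul]⟩

/-- the frames -/
def fr (a : X) : Γ(modOf c, c.U a) := mkM c (frS c a)

theorem isFrame_fr (a : X) : IsFrame (modOf c) (fr c a) := by
  intro V hV
  have h0 : ∀ (r : Γ(X, V)) (x : X), (unM c (r • rm (modOf c) hV (fr c a))).1 x =
      rs inf_le_left r * (c.gg x a (inf_le_right : V ⊓ c.U x ≤ _) (inf_le_left.trans hV) :
        Γ(X, V ⊓ c.U x)) := by
    intro r x
    change rs inf_le_left r * rs (inf_le_inf_right (c.U x) hV)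
      (c.gg x a inf_le_right inf_le_left : Γ(X, c.U a ⊓ c.U x)) = _
    rw [← coe_ru, Coc.ru_gg]
  have hVa : V ≤ V ⊓ c.U a := le_inf le_rfl hV
  constructor
  · intro r r' hrr
    have h1 := congrArg (fun s => (unM c s).1 a) hrr
    simp only [h0] at h1
    have h2 := (Units.mul_left_inj _).mp h1
    have h3 := congrArg (rs hVa) h2
    rwa [rs_rs, rs_rs, rs_self, rs_self] at h3
  · intro s
    refine ⟨rs hVa ((unM c s).1 a), ?_⟩
    refine Subtype.ext (funext fun x => ?_)
    refine (h0 _ x).trans ?_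
    have h1 := MSec.cond c (unM c s) x a (W := V ⊓ c.U x) inf_le_left inf_le_right
      (inf_le_left.trans hV)
    rw [rs_self] at h1
    rw [rs_rs, mul_comm]
    exact h1.symm

/-- the transition functions -/
theorem fr_trans (a b : X) : rm (modOf c) inf_le_right (fr c b) =
    (c.g a b : Γ(X, c.U a ⊓ c.U b)) • rm (modOf c) inf_le_left (fr c a) := by
  refine Subtype.ext (funext fun x => ?_)
  change rs _ (c.gg x b inf_le_right inf_le_left : Γ(X, c.U b ⊓ c.U x)) =
    rs inf_le_left (c.g a b : Γ(X, c.U a ⊓ c.U b)) *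
      rs _ (c.gg x a inf_le_right inf_le_left : Γ(X, c.U a ⊓ c.U x))
  rw [← coe_ru, ← coe_ru, ← coe_ru, Coc.ru_gg, Coc.ru_gg, ← Units.val_mul, mul_comm]
  refine congrArg Units.val ?_
  exact (c.gg_mul x a b _ _ _).symm

end Fermat.Agent.J25
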