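import Mathlib
import Fermat.Agent.J25.ModOf

/-!
# The dictionary between invertible modules and classes of cocycles
-/

set_option autoImplicit false
set_option linter.unusedSectionVars false
set_option linter.style.haveILetI false

noncomputable section

universe u

open CategoryTheory CategoryTheory.Limits AlgebraicGeometry TopologicalSpace Opposite

namespace Fermat.Agent.J25

variable {X Y : Scheme.{u}}

/-- `L` is given by the cocycle `c` -/
def HasCoc (L : X.Modules) (c : Coc X) : Prop :=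
  ∃ e : ∀ x, Γ(L, c.U x), (∀ x, IsFrame L (e x)) ∧
    ∀ x y, rm L inf_le_right (e y) = (c.g x y : Γ(X, c.U x ⊓ c.U y)) • rm L inf_le_left (e x)

theorem trans_gg {L : X.Modules} {c : Coc X} {e : ∀ x, Γ(L, c.U x)}
    (h : ∀ x y, rm L inf_le_right (e y) =
      (c.g x y : Γ(X, c.U x ⊓ c.U y)) • rm L inf_le_left (e x))
    (x y : X) {V : X.Opens} (hx : V ≤ c.U x) (hy : V ≤ c.U y) :
    rm L hy (e y) = (c.gg x y hx hy : Γ(X, V)) • rm L hx (e x) := by
  have h1 := congrArg (rm L (le_inf hx hy)) (h x y)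
  rwa [rm_smul, rm_rm, rm_rm] at h1

/-- every invertible module is given by a cocycle -/
theorem exists_hasCoc {L : X.Modules} (hL : Scheme.Modules.IsInvertible L) :
    ∃ c : Coc X, HasCoc L c := by
  have h := (isInvertible_iff L).mp hL
  choose U hU e he using h
  have h1 : ∀ x y, ∃ u : Γ(X, U x ⊓ U y)ˣ, rm L inf_le_right (e y) =
      (u : Γ(X, U x ⊓ U y)) • rm L inf_le_left (e x) := fun x y =>
    ((he x).res (inf_le_left : U x ⊓ U y ≤ U x)).exists_unit
      ((he y).res (inf_le_right : U x ⊓ U y ≤ U y))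
  choose g hg using h1
  have hgg : ∀ (x y : X) (V : X.Opens) (hx : V ≤ U x) (hy : V ≤ U y),
      rm L hy (e y) = (ru (le_inf hx hy) (g x y) : Γ(X, V)) • rm L hx (e x) := by
    intro x y V hx hy
    have h1 := congrArg (rm L (le_inf hx hy)) (hg x y)
    rwa [rm_smul, rm_rm, rm_rm] at h1
  refine ⟨⟨U, hU, g, fun x y z V hx hy hz => Units.ext ?_⟩, e, he, hg⟩
  refine (he x).inj hx ?_
  rw [Units.val_mul, mul_comm, mul_smul, ← hgg x y V hx hy, ← hgg y z V hy hz,
    ← hgg x z V hx hz]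

theorem HasCoc.isInvertible {L : X.Modules} {c : Coc X} (h : HasCoc L c) :
    Scheme.Modules.IsInvertible L := by
  obtain ⟨e, he, -⟩ := h
  exact (isInvertible_iff L).mpr fun x => ⟨c.U x, c.mem x, e x, he x⟩

theorem hasCoc_modOf (c : Coc X) : HasCoc (modOf c) c :=
  ⟨fr c, isFrame_fr c, fr_trans c⟩

/-- the cocycle is well defined up to equivalence -/
theorem HasCoc.rel {L : X.Modules} {c d : Coc X} (h : HasCoc L c) (h' : HasCoc L d) :
    Coc.Rel c d := by
  obtain ⟨e, he, hee⟩ := h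
  obtain ⟨e', he', hee'⟩ := h'
  have h1 : ∀ x, ∃ u : Γ(X, c.U x ⊓ d.U x)ˣ, rm L inf_le_right (e' x) =
      (u : Γ(X, c.U x ⊓ d.U x)) • rm L inf_le_left (e x) := fun x =>
    ((he x).res (inf_le_left : c.U x ⊓ d.U x ≤ c.U x)).exists_unit
      ((he' x).res (inf_le_right : c.U x ⊓ d.U x ≤ d.U x))
  choose f hf using h1
  have hff : ∀ (x : X) (V : X.Opens) (h : V ≤ c.U x ⊓ d.U x),
      rm L (h.trans inf_le_right) (e' x) =
        (ru h (f x) : Γ(X, V)) • rm L (h.trans inf_le_left) (e x) := by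
    intro x V h
    have h1 := congrArg (rm L h) (hf x)
    rwa [rm_smul, rm_rm, rm_rm] at h1
  refine ⟨fun x => c.U x ⊓ d.U x, fun x => ⟨c.mem x, d.mem x⟩, fun x => inf_le_left,
    fun x => inf_le_right, f, fun x y V hx hy => ?_⟩
  rw [eq_comm, mul_assoc, inv_mul_eq_iff_eq_mul]
  refine Units.ext ?_
  refine (he x).inj (hx.trans inf_le_left) ?_
  rw [Units.val_mul, Units.val_mul, mul_comm, mul_smul,
    ← trans_gg hee x y (hx.trans inf_le_left) (hy.trans inf_le_left), ← hff y V hy,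
    trans_gg hee' x y (hx.trans inf_le_right) (hy.trans inf_le_right), hff x V hx, smul_smul,
    mul_comm]

theorem HasCoc.of_iso {L M : X.Modules} {c : Coc X} (h : HasCoc L c) (φ : L ≅ M) :
    HasCoc M c := by
  obtain ⟨e, he, hee⟩ := h
  refine ⟨fun x => φ.hom.app _ (e x), fun x => (he x).app φ.hom, fun x y => ?_⟩
  rw [← app_rm, ← app_rm, hee x y, app_smul]

/-- equivalent cocycles give isomorphic modules -/
theorem HasCoc.iso {L M : X.Modules} {c d : Coc X} (h : HasCoc L c) (h' : HasCoc M d)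
    (hr : Coc.Rel c d) : Nonempty (L ≅ M) := by
  obtain ⟨e, he, hee⟩ := h
  obtain ⟨e', he', hee'⟩ := h'
  obtain ⟨W, hW, hc, hd, f, hf⟩ := hr
  have hcov : (⊤ : X.Opens) ≤ iSup W := fun x _ => Opens.mem_iSup.mpr ⟨x, hW x⟩
  refine (exists_iso_of_frames (L := L) (M := M) (U := W) hcov
    (e := fun x => (f x : Γ(X, W x)) • rm L (hc x) (e x)) (e' := fun x => rm M (hd x) (e' x))
    (fun x => ((he x).res (hc x)).unit_smul (f x)) (fun x => (he' x).res (hd x))
    (fun x y => (d.gg x y (inf_le_left.trans (hd x)) (inf_le_right.trans (hd y)) :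
      Γ(X, W x ⊓ W y))) (fun x y => ?_) (fun x y => ?_)).elim fun φ _ => ⟨φ⟩
  · have h1 := hf x y (W x ⊓ W y) inf_le_left inf_le_right
    rw [rm_smul, rm_smul, rm_rm, rm_rm, h1, smul_smul, ← coe_ru, ← coe_ru, ← Units.val_mul,
      trans_gg hee x y (inf_le_left.trans (hc x)) (inf_le_right.trans (hc y)), smul_smul,
      ← Units.val_mul]
    refine congrArg (fun u : Γ(X, W x ⊓ W y)ˣ =>
      (u : Γ(X, W x ⊓ W y)) • rm L (inf_le_left.trans (hc x)) (e x)) ?_
    rw [mul_comm _ (ru _ (f x)), mul_assoc, mul_inv_cancel_left, mul_comm]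
  · rw [rm_rm, rm_rm]
    exact trans_gg hee' x y (inf_le_left.trans (hd x)) (inf_le_right.trans (hd y))

theorem HasCoc.pullback {L : Y.Modules} {c : Coc Y} (h : HasCoc L c) (f : X ⟶ Y) :
    HasCoc ((Scheme.Modules.pullback f).obj L) (c.comap f) := by
  obtain ⟨e, he, hee⟩ := h
  refine ⟨fun x => pull f L (e (f x)), fun x => (he (f x)).pull f, fun x y => ?_⟩
  have h1 := congrArg (pull f L) (hee (f x) (f y))
  rw [pull_smul, pull_rm, pull_rm] at h1
  refine h1.trans ?_
  congr 1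
  have h2 : f.appLE (c.U (f x) ⊓ c.U (f y)) (f ⁻¹ᵁ (c.U (f x) ⊓ c.U (f y))) le_rfl =
      f.app (c.U (f x) ⊓ c.U (f y)) := f.appLE_eq_app
  exact (congrArg (fun φ => φ.hom (c.g (f x) (f y) : Γ(Y, _))) h2).symm

/-! ## The class of an invertible module -/

/-- **the class of an invertible module** -/
def cls (L : X.Modules) (hL : Scheme.Modules.IsInvertible L) : PicC X :=
  PicC.mk (exists_hasCoc hL).choose

theorem HasCoc.cls_eq {L : X.Modules} {c : Coc X} (h : HasCoc L c)
    (hL : Scheme.Modules.IsInvertible L) : cls L hL = PicC.mk c :=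
  PicC.mk_eq_mk.mpr ((exists_hasCoc hL).choose_spec.rel h)

/-- **isomorphic modules have the same class and conversely** -/
theorem cls_eq_iff {L M : X.Modules} (hL : Scheme.Modules.IsInvertible L)
    (hM : Scheme.Modules.IsInvertible M) : cls L hL = cls M hM ↔ Nonempty (L ≅ M) := by
  obtain ⟨c, hc⟩ := exists_hasCoc hL
  obtain ⟨d, hd⟩ := exists_hasCoc hM
  rw [hc.cls_eq, hd.cls_eq, PicC.mk_eq_mk]
  exact ⟨fun h => hc.iso hd h, fun ⟨φ⟩ => (hc.of_iso φ).rel hd⟩

/-- **every class comes from an invertible module** -/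
theorem cls_surj (ℓ : PicC X) : ∃ (L : X.Modules) (hL : Scheme.Modules.IsInvertible L),
    cls L hL = ℓ := by
  obtain ⟨c, rfl⟩ := PicC.mk_surjective ℓ
  exact ⟨modOf c, (hasCoc_modOf c).isInvertible, (hasCoc_modOf c).cls_eq _⟩

end Fermat.Agent.J25
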