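import Mathlib
import Fermat.Agent.J25.PicC0

/-!
# The group of classes of Čech cocycles of units
-/

set_option autoImplicit false

universe u v w

open CategoryTheory CategoryTheory.Limits AlgebraicGeometry TopologicalSpace Opposite

noncomputable section

namespace Fermat.Agent.J25

namespace Coc

variable {X Y Z : Scheme.{u}}

theorem gg_le (c : Coc X) (x y : X) : c.gg x y inf_le_left inf_le_right = c.g x y :=
  ru_self _ _

/-- construction of cocycles from the transition units on all small opens -/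
theorem rel_of (c d : Coc X) (W : X → X.Opens) (hW : ∀ x, x ∈ W x) (hc : ∀ x, W x ≤ c.U x)
    (hd : ∀ x, W x ≤ d.U x) (f : ∀ x, Γ(X, W x)ˣ)
    (h : ∀ x y, d.gg x y (inf_le_left.trans (hd x)) (inf_le_right.trans (hd y)) =
      (ru (inf_le_left : W x ⊓ W y ≤ W x) (f x))⁻¹ *
        c.gg x y (inf_le_left.trans (hc x)) (inf_le_right.trans (hc y)) *
          ru (inf_le_right : W x ⊓ W y ≤ W y) (f y)) : Rel c d := by
  refine ⟨W, hW, hc, hd, f, fun x y V hx hy => ?_⟩
  have := congrArg (ru (le_inf hx hy)) (h x y)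
  rw [map_mul, map_mul, map_inv, ru_ru, ru_ru, ru_gg, ru_gg] at this
  exact this

/-- Comparison of two cocycles over the full intersections. -/
theorem Rel.exists_full {c d : Coc X} (h : Rel c d) :
    ∃ f : ∀ x, Γ(X, c.U x ⊓ d.U x)ˣ, ∀ (x y : X) (V : X.Opens) (hx : V ≤ c.U x ⊓ d.U x)
      (hy : V ≤ c.U y ⊓ d.U y), d.gg x y (hx.trans inf_le_right) (hy.trans inf_le_right) =
        (ru hx (f x))⁻¹ * c.gg x y (hx.trans inf_le_left) (hy.trans inf_le_left) *
          ru hy (f y) := by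
  obtain ⟨W, hW, hc, hd, f, hf⟩ := h
  have key : ∀ x, ∃ a : Γ(X, c.U x ⊓ d.U x)ˣ, ∀ z : X,
      ru (inf_le_left : c.U x ⊓ d.U x ⊓ W z ≤ c.U x ⊓ d.U x) a =
        d.gg z x (inf_le_right.trans (hd z)) (inf_le_left.trans inf_le_right) *
          ru inf_le_right (f z) *
            c.gg x z (inf_le_left.trans inf_le_left) (inf_le_right.trans (hc z)) := by
    intro x
    refine unit_glue (fun z => c.U x ⊓ d.U x ⊓ W z) (fun z => inf_le_left)
      (fun y hy => ⟨y, hy, hW y⟩) _ (fun z z' => ?_)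
    rw [map_mul, map_mul, map_mul, map_mul, ru_gg, ru_gg, ru_gg, ru_gg, ru_ru, ru_ru]
    have hz : (c.U x ⊓ d.U x ⊓ W z) ⊓ (c.U x ⊓ d.U x ⊓ W z') ≤ W z :=
      inf_le_left.trans inf_le_right
    have hz' : (c.U x ⊓ d.U x ⊓ W z) ⊓ (c.U x ⊓ d.U x ⊓ W z') ≤ W z' :=
      inf_le_right.trans inf_le_right
    have hxc : (c.U x ⊓ d.U x ⊓ W z) ⊓ (c.U x ⊓ d.U x ⊓ W z') ≤ c.U x :=
      inf_le_left.trans (inf_le_left.trans inf_le_left)
    have hxd : (c.U x ⊓ d.U x ⊓ W z) ⊓ (c.U x ⊓ d.U x ⊓ W z') ≤ d.U x :=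
      inf_le_left.trans (inf_le_left.trans inf_le_right)
    have h1 := hf z z' _ hz hz'
    have h2 := d.gg_mul z z' x (hz.trans (hd z)) (hz'.trans (hd z')) hxd
    have h3 := c.gg_mul x z z' hxc (hz.trans (hc z)) (hz'.trans (hc z'))
    rw [← h2, ← h3, h1]
    generalize d.gg z' x _ _ = A
    generalize c.gg z z' _ _ = B
    generalize c.gg x z _ _ = C
    generalize ru hz (f z) = F
    generalize ru hz' (f z') = G
    calc F⁻¹ * B * G * A * F * C = A * G * (C * B) * (F * F⁻¹) := by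
          simp only [mul_comm, mul_left_comm, mul_assoc]
      _ = A * G * (C * B) := by rw [mul_inv_cancel, mul_one]
  choose a ha using key
  refine ⟨a, fun x y V hx hy => ?_⟩
  refine unit_ext (fun z => V ⊓ W z) (fun z => inf_le_left) (fun y hy => ⟨y, hy, hW y⟩)
    fun z => ?_
  have hz : V ⊓ W z ≤ W z := inf_le_right
  have hx' : V ⊓ W z ≤ c.U x ⊓ d.U x ⊓ W z := le_inf (inf_le_left.trans hx) inf_le_right
  have hy' : V ⊓ W z ≤ c.U y ⊓ d.U y ⊓ W z := le_inf (inf_le_left.trans hy) inf_le_right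
  have h1 := congrArg (ru hx') (ha x z)
  have h2 := congrArg (ru hy') (ha y z)
  rw [map_mul, map_mul, ru_gg, ru_gg, ru_ru, ru_ru] at h1 h2
  rw [map_mul, map_mul, map_inv, ru_gg, ru_gg, ru_ru, ru_ru, h1, h2]
  have h3 := c.gg_mul x y z (inf_le_left.trans (hx.trans inf_le_left))
    (inf_le_left.trans (hy.trans inf_le_left)) (hz.trans (hc z))
  have h4 := d.gg_mul z x y (hz.trans (hd z)) (inf_le_left.trans (hx.trans inf_le_right))
    (inf_le_left.trans (hy.trans inf_le_right))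
  rw [← h3, ← h4]
  generalize d.gg z x _ _ = A
  generalize d.gg x y _ _ = B
  generalize c.gg x y _ _ = C
  generalize c.gg y z _ _ = D
  generalize ru hz (f z) = F
  rw [mul_inv_rev, mul_inv_rev, mul_inv_rev]
  calc B = (F⁻¹ * F) * (A⁻¹ * A) * (C⁻¹ * C) * (D⁻¹ * D) * B := by simp
    _ = _ := by simp only [mul_comm, mul_left_comm, mul_assoc]

/-- restriction to smaller opens -/
def res (c : Coc X) (W : X → X.Opens) (hW : ∀ x, x ∈ W x) (h : ∀ x, W x ≤ c.U x) : Coc X where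
  U := W
  mem := hW
  g x y := c.gg x y (inf_le_left.trans (h x)) (inf_le_right.trans (h y))
  cocycle x y z V hx hy hz := by
    simp only [ru_gg]
    exact c.gg_mul x y z _ _ _

theorem res_gg (c : Coc X) (W : X → X.Opens) (hW : ∀ x, x ∈ W x) (h : ∀ x, W x ≤ c.U x)
    (x y : X) {V : X.Opens} (hx : V ≤ W x) (hy : V ≤ W y) :
    (c.res W hW h).gg x y hx hy = c.gg x y (hx.trans (h x)) (hy.trans (h y)) :=
  c.ru_gg x y (inf_le_left.trans (h x)) (inf_le_right.trans (h y)) (le_inf hx hy)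

theorem rel_res (c : Coc X) (W : X → X.Opens) (hW : ∀ x, x ∈ W x) (h : ∀ x, W x ≤ c.U x) :
    Rel c (c.res W hW h) :=
  ⟨W, hW, h, fun _ => le_rfl, fun _ => 1, fun x y V hx hy => by
    rw [res_gg]
    simp⟩

/-- the trivial cocycle -/
protected def one (X : Scheme.{u}) : Coc X where
  U _ := ⊤
  mem _ := trivial
  g _ _ := 1
  cocycle x y z V hx hy hz := by simp

theorem one_gg (x y : X) {V : X.Opens} (hx : V ≤ (Coc.one X).U x) (hy : V ≤ (Coc.one X).U y) :
    (Coc.one X).gg x y hx hy = 1 := map_one _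

/-- the product of cocycles -/
protected def mul (c d : Coc X) : Coc X where
  U x := c.U x ⊓ d.U x
  mem x := ⟨c.mem x, d.mem x⟩
  g x y := c.gg x y (inf_le_left.trans inf_le_left) (inf_le_right.trans inf_le_left) *
    d.gg x y (inf_le_left.trans inf_le_right) (inf_le_right.trans inf_le_right)
  cocycle x y z V hx hy hz := by
    simp only [map_mul, ru_gg]
    rw [mul_mul_mul_comm, gg_mul, gg_mul]

theorem mul_gg (c d : Coc X) (x y : X) {V : X.Opens} (hx : V ≤ (c.mul d).U x)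
    (hy : V ≤ (c.mul d).U y) : (c.mul d).gg x y hx hy =
      c.gg x y (hx.trans inf_le_left) (hy.trans inf_le_left) *
        d.gg x y (hx.trans inf_le_right) (hy.trans inf_le_right) := by
  have h1 : V ≤ (c.U x ⊓ d.U x) ⊓ (c.U y ⊓ d.U y) := le_inf hx hy
  have h2 := map_mul (ru h1) (c.gg x y (inf_le_left.trans inf_le_left)
    (inf_le_right.trans inf_le_left)) (d.gg x y (inf_le_left.trans inf_le_right)
      (inf_le_right.trans inf_le_right))
  rw [ru_gg, ru_gg] at h2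
  exact h2

/-- the inverse cocycle -/
protected def inv (c : Coc X) : Coc X where
  U := c.U
  mem := c.mem
  g x y := (c.g x y)⁻¹
  cocycle x y z V hx hy hz := by
    have h := c.cocycle x y z V hx hy hz
    rw [map_inv, map_inv, map_inv, ← h, mul_inv]

theorem inv_gg (c : Coc X) (x y : X) {V : X.Opens} (hx : V ≤ c.inv.U x) (hy : V ≤ c.inv.U y) :
    c.inv.gg x y hx hy = (c.gg x y hx hy)⁻¹ := map_inv _ _

theorem aux_mul {G : Type*} [CommGroup G] (a b c d e f : G) :
    (a⁻¹ * b * c) * (d⁻¹ * e * f) = (a * d)⁻¹ * (b * e) * (c * f) := by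
  rw [mul_mul_mul_comm, mul_mul_mul_comm a⁻¹, mul_inv]

theorem Rel.mul {c c' d d' : Coc X} (h : Rel c c') (h' : Rel d d') :
    Rel (c.mul d) (c'.mul d') := by
  obtain ⟨W, hW, hc, hc', f, hf⟩ := h
  obtain ⟨W', hW', hd, hd', f', hf'⟩ := h'
  refine ⟨fun x => W x ⊓ W' x, fun x => ⟨hW x, hW' x⟩, fun x => inf_le_inf (hc x) (hd x),
    fun x => inf_le_inf (hc' x) (hd' x),
    fun x => ru inf_le_left (f x) * ru inf_le_right (f' x), fun x y V hx hy => ?_⟩
  have hx1 : V ≤ W x := hx.trans inf_le_left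
  have hy1 : V ≤ W y := hy.trans inf_le_left
  have hx2 : V ≤ W' x := hx.trans inf_le_right
  have hy2 : V ≤ W' y := hy.trans inf_le_right
  have e1 : ru hx (ru inf_le_left (f x) * ru inf_le_right (f' x)) =
      ru hx1 (f x) * ru hx2 (f' x) := by
    rw [map_mul, ru_ru, ru_ru]
  have e2 : ru hy (ru inf_le_left (f y) * ru inf_le_right (f' y)) =
      ru hy1 (f y) * ru hy2 (f' y) := by
    rw [map_mul, ru_ru, ru_ru]
  refine (mul_gg c' d' x y _ _).trans ?_
  rw [hf x y V hx1 hy1, hf' x y V hx2 hy2, e1, e2]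
  refine Eq.trans ?_ (congrArg (fun t => (ru hx1 (f x) * ru hx2 (f' x))⁻¹ * t *
    (ru hy1 (f y) * ru hy2 (f' y))) (mul_gg c d x y _ _).symm)
  exact aux_mul _ _ _ _ _ _

theorem Rel.inv {c c' : Coc X} (h : Rel c c') : Rel c.inv c'.inv := by
  obtain ⟨W, hW, hc, hc', f, hf⟩ := h
  refine ⟨W, hW, hc, hc', fun x => (f x)⁻¹, fun x y V hx hy => ?_⟩
  have e1 : ru hx (f x)⁻¹ = (ru hx (f x))⁻¹ := map_inv _ _
  have e2 : ru hy (f y)⁻¹ = (ru hy (f y))⁻¹ := map_inv _ _
  have h1 := hf x y V hx hy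
  have h2 : c'.inv.gg x y (hx.trans (hc' x)) (hy.trans (hc' y)) =
    (c'.gg x y (hx.trans (hc' x)) (hy.trans (hc' y)))⁻¹ := c'.inv_gg x y _ _
  have h3 : c.inv.gg x y (hx.trans (hc x)) (hy.trans (hc y)) =
    (c.gg x y (hx.trans (hc x)) (hy.trans (hc y)))⁻¹ := c.inv_gg x y _ _
  refine h2.trans ?_
  rw [h1, e1, e2]
  refine Eq.trans ?_ (congrArg (fun t => ((ru hx (f x))⁻¹)⁻¹ * t * (ru hy (f y))⁻¹) h3.symm)
  simp only [mul_inv]

theorem rel_mul_comm (c d : Coc X) : Rel (c.mul d) (d.mul c) :=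
  ⟨(c.mul d).U, (c.mul d).mem, fun _ => le_rfl, fun _ => (inf_comm _ _).le, fun _ => 1,
    fun x y V hx hy => by
      rw [mul_gg, mul_gg, map_one, map_one, inv_one, one_mul, mul_one, mul_comm]⟩

theorem rel_mul_assoc (c d e : Coc X) : Rel ((c.mul d).mul e) (c.mul (d.mul e)) :=
  ⟨((c.mul d).mul e).U, ((c.mul d).mul e).mem, fun _ => le_rfl, fun _ => (inf_assoc _ _ _).le,
    fun _ => 1, fun x y V hx hy => by
      rw [mul_gg, mul_gg, mul_gg, mul_gg, map_one, map_one, inv_one, one_mul, mul_one, mul_assoc]⟩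

theorem rel_one_mul (c : Coc X) : Rel ((Coc.one X).mul c) c :=
  ⟨((Coc.one X).mul c).U, ((Coc.one X).mul c).mem, fun _ => le_rfl, fun _ => inf_le_right,
    fun _ => 1, fun x y V hx hy => by
      rw [mul_gg, one_gg, map_one, map_one, inv_one, one_mul, mul_one, one_mul]⟩

theorem rel_inv_mul (c : Coc X) : Rel (c.inv.mul c) (Coc.one X) :=
  ⟨(c.inv.mul c).U, (c.inv.mul c).mem, fun _ => le_rfl, fun _ => le_top,
    fun _ => 1, fun x y V hx hy => by
      rw [mul_gg, one_gg, map_one, map_one, inv_one, one_mul, mul_one, inv_gg, inv_mul_cancel]⟩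

theorem rel_one_iff {c : Coc X} : Rel c (Coc.one X) ↔ ∃ f : ∀ x, Γ(X, c.U x)ˣ,
    ∀ (x y : X) (V : X.Opens) (hx : V ≤ c.U x) (hy : V ≤ c.U y),
      c.gg x y hx hy = (ru hx (f x))⁻¹ * ru hy (f y) := by
  constructor
  · intro h
    obtain ⟨f, hf⟩ := h.exists_full
    have hle : ∀ x, c.U x ≤ c.U x ⊓ (Coc.one X).U x := fun x => le_inf le_rfl le_top
    refine ⟨fun x => (ru (hle x) (f x))⁻¹, fun x y V hx hy => ?_⟩
    have := hf x y V (hx.trans (hle x)) (hy.trans (hle y))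
    rw [one_gg] at this
    rw [map_inv, map_inv, inv_inv, ru_ru, ru_ru]
    generalize c.gg x y _ _ = A at this ⊢
    generalize ru _ (f x) = F at this ⊢
    generalize ru _ (f y) = G at this ⊢
    have h2 : F = A * G := by
      calc F = F * 1 := (mul_one _).symm
        _ = F * (F⁻¹ * A * G) := by rw [this]
        _ = A * G := by group
    rw [h2]
    group
  · rintro ⟨f, hf⟩
    refine ⟨c.U, c.mem, fun _ => le_rfl, fun _ => le_top, fun x => (f x)⁻¹,
      fun x y V hx hy => ?_⟩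
    rw [one_gg, hf x y V hx hy, map_inv, map_inv, inv_inv]
    generalize ru _ (f x) = F
    generalize ru _ (f y) = G
    group

theorem rel_one_of {c : Coc X} (W : X → X.Opens) (hW : ∀ x, x ∈ W x) (h : ∀ x, W x ≤ c.U x)
    (f : ∀ x, Γ(X, W x)ˣ) (hf : ∀ (x y : X) (V : X.Opens) (hx : V ≤ W x) (hy : V ≤ W y),
      c.gg x y (hx.trans (h x)) (hy.trans (h y)) = (ru hx (f x))⁻¹ * ru hy (f y)) :
    Rel c (Coc.one X) := by
  refine (rel_res c W hW h).trans (rel_one_iff.mpr ⟨f, fun x y V hx hy => ?_⟩)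
  rw [res_gg]
  exact hf x y V hx hy

section comap

theorem comap_one (f : X ⟶ Y) : Rel ((Coc.one Y).comap f) (Coc.one X) :=
  rel_one_iff.mpr ⟨fun _ => 1, fun x y V hx hy => by
    rw [comap_g]
    change pu f _ 1 = _
    simp⟩

theorem comap_mul (f : X ⟶ Y) (c d : Coc Y) :
    Rel ((c.mul d).comap f) ((c.comap f).mul (d.comap f)) :=
  ⟨((c.mul d).comap f).U, ((c.mul d).comap f).mem, fun _ => le_rfl, fun _ => le_rfl, fun _ => 1,
    fun x y V hx hy => by
      have hV : V ≤ f ⁻¹ᵁ ((c.mul d).U (f x) ⊓ (c.mul d).U (f y)) := le_inf hx hy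
      rw [mul_gg, comap_gg f (c.mul d) x y _ _ hV inf_le_left inf_le_right,
        comap_gg f c x y _ _ hV (inf_le_left.trans inf_le_left) (inf_le_right.trans inf_le_left),
        comap_gg f d x y _ _ hV (inf_le_left.trans inf_le_right)
          (inf_le_right.trans inf_le_right), mul_gg, map_mul]
      simp⟩

theorem comap_id (c : Coc X) : Rel (c.comap (𝟙 X)) c :=
  ⟨(c.comap (𝟙 X)).U, (c.comap (𝟙 X)).mem, fun _ => le_rfl, fun _ => le_rfl, fun _ => 1,
    fun x y V hx hy => by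
      rw [comap_g]
      have : pu (𝟙 X) (le_inf hx hy) (c.g x y) = c.gg x y hx hy := pu_id _ _
      erw [this]
      simp⟩

theorem comap_comp (f : X ⟶ Y) (g : Y ⟶ Z) (c : Coc Z) :
    Rel (c.comap (f ≫ g)) ((c.comap g).comap f) :=
  ⟨(c.comap (f ≫ g)).U, (c.comap (f ≫ g)).mem, fun _ => le_rfl, fun _ => le_rfl, fun _ => 1,
    fun x y V hx hy => by
      rw [comap_g, comap_g]
      have : pu f (le_inf hx hy) ((c.comap g).g (f x) (f y)) =
          pu (f ≫ g) (le_inf hx hy) (c.g ((f ≫ g) x) ((f ≫ g) y)) := pu_pu f g _ _ _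
      erw [this]
      simp⟩

end comap

section ofCover

variable {ι : Type v} (V : ι → X.Opens) (σ : X → ι) (hσ : ∀ x, x ∈ V (σ x))
  (g : ∀ i j, Γ(X, V i ⊓ V j)ˣ)
  (hg : ∀ (i j k : ι) (W : X.Opens) (hi : W ≤ V i) (hj : W ≤ V j) (hk : W ≤ V k),
    ru (le_inf hi hj) (g i j) * ru (le_inf hj hk) (g j k) = ru (le_inf hi hk) (g i k))

/-- the cocycle attached to a cocycle on a cover -/
def ofCover : Coc X where
  U x := V (σ x)
  mem := hσ
  g x y := g (σ x) (σ y)
  cocycle x y z W hx hy hz := hg (σ x) (σ y) (σ z) W hx hy hz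

theorem ofCover_gg (x y : X) {W : X.Opens} (hx : W ≤ V (σ x)) (hy : W ≤ V (σ y)) :
    (ofCover V σ hσ g hg).gg x y hx hy = ru (le_inf hx hy) (g (σ x) (σ y)) := rfl

include hg in
theorem cover_self (i : ι) {W : X.Opens} (hi : W ≤ V i) (hi' : W ≤ V i) :
    ru (le_inf hi hi') (g i i) = 1 := by
  have h : ru (le_inf hi hi) (g i i) * ru (le_inf hi hi) (g i i) = ru (le_inf hi hi) (g i i) :=
    hg i i i W hi hi hi
  exact mul_eq_left.mp h

include hg in
theorem cover_inv (i j : ι) {W : X.Opens} (hi : W ≤ V i) (hj : W ≤ V j) :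
    (ru (le_inf hi hj) (g i j))⁻¹ = ru (le_inf hj hi) (g j i) := by
  rw [inv_eq_iff_mul_eq_one, hg i j i W hi hj hi, cover_self V g hg i hi hi]

theorem ofCover_rel (τ : X → ι) (hτ : ∀ x, x ∈ V (τ x)) :
    Rel (ofCover V σ hσ g hg) (ofCover V τ hτ g hg) := by
  refine ⟨fun x => V (σ x) ⊓ V (τ x), fun x => ⟨hσ x, hτ x⟩, fun x => inf_le_left,
    fun x => inf_le_right, fun x => g (σ x) (τ x), fun x y W hx hy => ?_⟩
  have hxσ := hx.trans inf_le_left
  have hxτ := hx.trans inf_le_right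
  have hyσ := hy.trans inf_le_left
  have hyτ := hy.trans inf_le_right
  have h1 := hg (σ x) (σ y) (τ y) W hxσ hyσ hyτ
  have h2 := hg (σ x) (τ x) (τ y) W hxσ hxτ hyτ
  rw [ofCover_gg, ofCover_gg, mul_assoc]
  rw [eq_inv_mul_iff_mul_eq]
  exact h2.trans h1.symm

theorem ofCover_rel_one_iff : Rel (ofCover V σ hσ g hg) (Coc.one X) ↔
    ∃ f : ∀ i, Γ(X, V i)ˣ, ∀ (i j : ι) (W : X.Opens) (hi : W ≤ V i) (hj : W ≤ V j),
      ru (le_inf hi hj) (g i j) = (ru hi (f i))⁻¹ * ru hj (f j) := by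
  constructor
  · intro h
    have h0 : ∃ f : ∀ x, Γ(X, V (σ x))ˣ, ∀ (x y : X) (W : X.Opens) (hx : W ≤ V (σ x))
        (hy : W ≤ V (σ y)), ru (le_inf hx hy) (g (σ x) (σ y)) =
          (ru hx (f x))⁻¹ * ru hy (f y) := rel_one_iff.mp h
    obtain ⟨f, hf⟩ := h0
    have key : ∀ i, ∃ a : Γ(X, V i)ˣ, ∀ x : X, ru (inf_le_left : V i ⊓ V (σ x) ≤ V i) a =
        ru (le_inf inf_le_right inf_le_left) (g (σ x) i) * ru inf_le_right (f x) := by
      intro i
      refine unit_glue (fun x => V i ⊓ V (σ x)) (fun x => inf_le_left)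
        (fun y hy => ⟨y, hy, hσ y⟩) _ (fun x y => ?_)
      rw [map_mul, map_mul, ru_ru, ru_ru, ru_ru, ru_ru]
      have hi : (V i ⊓ V (σ x)) ⊓ (V i ⊓ V (σ y)) ≤ V i := inf_le_left.trans inf_le_left
      have hx : (V i ⊓ V (σ x)) ⊓ (V i ⊓ V (σ y)) ≤ V (σ x) := inf_le_left.trans inf_le_right
      have hy : (V i ⊓ V (σ x)) ⊓ (V i ⊓ V (σ y)) ≤ V (σ y) := inf_le_right.trans inf_le_right
      have h1 := hg (σ x) (σ y) i _ hx hy hi
      have h2 := hf x y _ hx hy
      rw [← h1, h2]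
      generalize ru _ (g (σ y) i) = A
      generalize ru hx (f x) = F
      generalize ru hy (f y) = G
      calc F⁻¹ * G * A * F = A * G * (F⁻¹ * F) := by
            simp only [mul_comm, mul_left_comm, mul_assoc]
        _ = A * G := by rw [inv_mul_cancel, mul_one]
    choose a ha using key
    refine ⟨a, fun i j W hi hj => ?_⟩
    refine unit_ext (fun x => W ⊓ V (σ x)) (fun z => inf_le_left) (fun y hy => ⟨y, hy, hσ y⟩)
      fun x => ?_
    have hi' : W ⊓ V (σ x) ≤ V i ⊓ V (σ x) := inf_le_inf hi le_rfl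
    have hj' : W ⊓ V (σ x) ≤ V j ⊓ V (σ x) := inf_le_inf hj le_rfl
    have h1 := congrArg (ru hi') (ha i x)
    have h2 := congrArg (ru hj') (ha j x)
    rw [map_mul, ru_ru, ru_ru, ru_ru] at h1 h2
    rw [map_mul, map_inv, ru_ru, ru_ru, ru_ru, h1, h2]
    have h3 := hg (σ x) i j (W ⊓ V (σ x)) inf_le_right (inf_le_left.trans hi)
      (inf_le_left.trans hj)
    rw [← h3]
    generalize ru _ (g (σ x) i) = A
    generalize ru _ (g i j) = B
    generalize ru _ (f x) = F
    rw [mul_inv]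
    calc B = (A⁻¹ * A) * (F⁻¹ * F) * B := by simp
      _ = _ := by simp only [mul_comm, mul_left_comm, mul_assoc]
  · rintro ⟨f, hf⟩
    exact rel_one_iff.mpr ⟨fun x => f (σ x), fun x y W hx hy => hf _ _ W hx hy⟩

end ofCover

end Coc

namespace PicC

variable {X Y Z : Scheme.{u}}

instance : CommGroup (PicC X) where
  mul := Quotient.map₂ Coc.mul fun _ _ h _ _ h' => Coc.Rel.mul h h'
  one := PicC.mk (Coc.one X)
  inv := Quotient.map Coc.inv fun _ _ h => Coc.Rel.inv h
  mul_assoc a b c := by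
    induction a using Quotient.inductionOn
    induction b using Quotient.inductionOn
    induction c using Quotient.inductionOn
    exact Quotient.sound (Coc.rel_mul_assoc _ _ _)
  one_mul a := by
    induction a using Quotient.inductionOn
    exact Quotient.sound (Coc.rel_one_mul _)
  mul_one a := by
    induction a using Quotient.inductionOn
    exact Quotient.sound ((Coc.rel_mul_comm _ _).trans (Coc.rel_one_mul _))
  inv_mul_cancel a := by
    induction a using Quotient.inductionOn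
    exact Quotient.sound (Coc.rel_inv_mul _)
  mul_comm a b := by
    induction a using Quotient.inductionOn
    induction b using Quotient.inductionOn
    exact Quotient.sound (Coc.rel_mul_comm _ _)

theorem mk_one : PicC.mk (Coc.one X) = 1 := rfl

theorem mk_mul (c d : Coc X) : PicC.mk (c.mul d) = PicC.mk c * PicC.mk d := rfl

theorem mk_inv (c : Coc X) : PicC.mk c.inv = (PicC.mk c)⁻¹ := rfl

theorem mk_eq_one {c : Coc X} : PicC.mk c = 1 ↔ ∃ f : ∀ x, Γ(X, c.U x)ˣ,
    ∀ (x y : X) (V : X.Opens) (hx : V ≤ c.U x) (hy : V ≤ c.U y),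
      c.gg x y hx hy = (ru hx (f x))⁻¹ * ru hy (f y) := by
  rw [← mk_one, mk_eq_mk, Coc.rel_one_iff]

theorem mk_eq_one_of {c : Coc X} (W : X → X.Opens) (hW : ∀ x, x ∈ W x) (h : ∀ x, W x ≤ c.U x)
    (f : ∀ x, Γ(X, W x)ˣ) (hf : ∀ (x y : X) (V : X.Opens) (hx : V ≤ W x) (hy : V ≤ W y),
      c.gg x y (hx.trans (h x)) (hy.trans (h y)) = (ru hx (f x))⁻¹ * ru hy (f y)) :
    PicC.mk c = 1 := by
  rw [← mk_one, mk_eq_mk]
  exact Coc.rel_one_of W hW h f hf

theorem mk_res (c : Coc X) (W : X → X.Opens) (hW : ∀ x, x ∈ W x) (h : ∀ x, W x ≤ c.U x) :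
    PicC.mk (c.res W hW h) = PicC.mk c := (mk_eq_mk.mpr (c.rel_res W hW h)).symm

/-- pullback of classes -/
def map (f : X ⟶ Y) : PicC Y →* PicC X where
  toFun := Quotient.map (Coc.comap f) fun _ _ h => Coc.Rel.comap f h
  map_one' := Quotient.sound (Coc.comap_one f)
  map_mul' a b := by
    induction a using Quotient.inductionOn
    induction b using Quotient.inductionOn
    exact Quotient.sound (Coc.comap_mul f _ _)

theorem map_mk (f : X ⟶ Y) (c : Coc Y) : map f (PicC.mk c) = PicC.mk (c.comap f) := rfl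

theorem map_id : map (𝟙 X) = MonoidHom.id (PicC X) := by
  ext a
  induction a using Quotient.inductionOn
  exact Quotient.sound (Coc.comap_id _)

theorem map_comp (f : X ⟶ Y) (g : Y ⟶ Z) : map (f ≫ g) = (map f).comp (map g) := by
  ext a
  induction a using Quotient.inductionOn
  exact Quotient.sound (Coc.comap_comp f g _)

@[simp]
theorem map_id_apply (a : PicC X) : map (𝟙 X) a = a := by
  rw [map_id]
  rfl

theorem map_comp_apply (f : X ⟶ Y) (g : Y ⟶ Z) (a : PicC Z) :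
    map (f ≫ g) a = map f (map g a) := by
  rw [map_comp]
  rfl

/-- an isomorphism of schemes induces an isomorphism of class groups -/
def mapEquiv (e : X ≅ Y) : PicC Y ≃* PicC X :=
  (map e.hom).toMulEquiv (map e.inv) (by rw [← map_comp, e.inv_hom_id, map_id])
    (by rw [← map_comp, e.hom_inv_id, map_id])

section ofCover

variable {ι : Type v} (V : ι → X.Opens) (hV : ∀ x, ∃ i, x ∈ V i)
  (g : ∀ i j, Γ(X, V i ⊓ V j)ˣ)
  (hg : ∀ (i j k : ι) (W : X.Opens) (hi : W ≤ V i) (hj : W ≤ V j) (hk : W ≤ V k),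
    ru (le_inf hi hj) (g i j) * ru (le_inf hj hk) (g j k) = ru (le_inf hi hk) (g i k))

/-- the class of a cocycle on a cover -/
def ofCover : PicC X :=
  PicC.mk (Coc.ofCover V (fun x => (hV x).choose) (fun x => (hV x).choose_spec) g hg)

theorem mk_ofCover (σ : X → ι) (hσ : ∀ x, x ∈ V (σ x)) :
    PicC.mk (Coc.ofCover V σ hσ g hg) = PicC.ofCover V hV g hg :=
  mk_eq_mk.mpr (Coc.ofCover_rel V σ hσ g hg _ _)

theorem ofCover_eq_one_iff : PicC.ofCover V hV g hg = 1 ↔
    ∃ f : ∀ i, Γ(X, V i)ˣ, ∀ (i j : ι) (W : X.Opens) (hi : W ≤ V i) (hj : W ≤ V j),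
      ru (le_inf hi hj) (g i j) = (ru hi (f i))⁻¹ * ru hj (f j) := by
  rw [ofCover, ← mk_one, mk_eq_mk, Coc.ofCover_rel_one_iff]

end ofCover

end PicC

end Fermat.Agent.J25
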