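import Mathlib
import Fermat.Agent.J25.Dict
import Fermat.Agent.J25.PicC

/-!
# The dictionary between invertible modules and classes of cocycles: pullback, unit, covers
-/

set_option autoImplicit false
set_option linter.unusedSectionVars false
set_option linter.style.haveILetI false

noncomputable section

universe u v

open CategoryTheory CategoryTheory.Limits AlgebraicGeometry TopologicalSpace Opposite

namespace Fermat.Agent.J25

variable {X Y : Scheme.{u}}

/-- **the class of the pullback** -/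
theorem cls_pullback (f : X ⟶ Y) {L : Y.Modules} (hL : Scheme.Modules.IsInvertible L)
    (hfL : Scheme.Modules.IsInvertible ((Scheme.Modules.pullback f).obj L)) :
    cls ((Scheme.Modules.pullback f).obj L) hfL = PicC.map f (cls L hL) := by
  obtain ⟨c, hc⟩ := exists_hasCoc hL
  rw [hc.cls_eq, (hc.pullback f).cls_eq, PicC.map_mk]

theorem hasCoc_unit : HasCoc (unitM X) (Coc.one X) := by
  refine ⟨fun x => oneM _, fun x => isFrame_oneM _, fun x y => ?_⟩
  have h1 : ∀ {U V : X.Opens} (h : U ≤ V), rm (unitM X) h (oneM V) = oneM U := fun h =>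
    (rs h).map_one
  rw [h1, h1]
  exact (one_smul Γ(X, (⊤ : X.Opens) ⊓ ⊤) (oneM (X := X) ((⊤ : X.Opens) ⊓ ⊤))).symm

/-- **the class of the structure sheaf** -/
theorem cls_unit (h : Scheme.Modules.IsInvertible (unitM X)) : cls (unitM X) h = 1 :=
  hasCoc_unit.cls_eq h

theorem cls_eq_one_iff {L : X.Modules} (hL : Scheme.Modules.IsInvertible L) :
    cls L hL = 1 ↔ Nonempty (L ≅ SheafOfModules.unit X.ringCatSheaf) := by
  rw [← cls_unit (Scheme.Modules.isInvertible_unit X)]
  exact cls_eq_iff hL _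

/-- the class does not depend on the isomorphism class -/
theorem cls_congr {L M : X.Modules} (φ : L ≅ M) (hL : Scheme.Modules.IsInvertible L)
    (hM : Scheme.Modules.IsInvertible M) : cls L hL = cls M hM := (cls_eq_iff hL hM).mpr ⟨φ⟩

/-- the class in terms of frames over an arbitrary cover -/
theorem cls_eq_ofCover {L : X.Modules} (hL : Scheme.Modules.IsInvertible L) {ι : Type v}
    (V : ι → X.Opens) (hV : ∀ x, ∃ i, x ∈ V i) (g : ∀ i j, Γ(X, V i ⊓ V j)ˣ)
    (hg : ∀ (i j k : ι) (W : X.Opens) (hi : W ≤ V i) (hj : W ≤ V j) (hk : W ≤ V k),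
      ru (le_inf hi hj) (g i j) * ru (le_inf hj hk) (g j k) = ru (le_inf hi hk) (g i k))
    (e : ∀ i, Γ(L, V i)) (he : ∀ i, IsFrame L (e i))
    (hee : ∀ i j, rm L inf_le_right (e j) = (g i j : Γ(X, V i ⊓ V j)) • rm L inf_le_left (e i)) :
    cls L hL = PicC.ofCover V hV g hg := by
  refine HasCoc.cls_eq (c := Coc.ofCover V (fun x => (hV x).choose)
    (fun x => (hV x).choose_spec) g hg) ?_ hL
  exact ⟨fun x => e _, fun x => he _, fun x y => hee _ _⟩

/-- frames over a cover give the invertibility -/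
theorem isInvertible_of_cover {L : X.Modules} {ι : Type v} (V : ι → X.Opens)
    (hV : ∀ x, ∃ i, x ∈ V i) (e : ∀ i, Γ(L, V i)) (he : ∀ i, IsFrame L (e i)) :
    Scheme.Modules.IsInvertible L :=
  (isInvertible_iff L).mpr fun x => by
    obtain ⟨i, hi⟩ := hV x
    exact ⟨V i, hi, e i, he i⟩

/-- the transition units of frames over a cover form a cocycle -/
theorem exists_transition {L : X.Modules} {ι : Type v} (V : ι → X.Opens)
    (e : ∀ i, Γ(L, V i)) (he : ∀ i, IsFrame L (e i)) :
    ∃ g : ∀ i j, Γ(X, V i ⊓ V j)ˣ,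
      (∀ i j, rm L inf_le_right (e j) = (g i j : Γ(X, V i ⊓ V j)) • rm L inf_le_left (e i)) ∧
      ∀ (i j k : ι) (W : X.Opens) (hi : W ≤ V i) (hj : W ≤ V j) (hk : W ≤ V k),
        ru (le_inf hi hj) (g i j) * ru (le_inf hj hk) (g j k) = ru (le_inf hi hk) (g i k) := by
  have h1 : ∀ i j, ∃ u : Γ(X, V i ⊓ V j)ˣ, rm L inf_le_right (e j) =
      (u : Γ(X, V i ⊓ V j)) • rm L inf_le_left (e i) := fun i j =>
    ((he i).res (inf_le_left : V i ⊓ V j ≤ V i)).exists_unit
      ((he j).res (inf_le_right : V i ⊓ V j ≤ V j))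
  choose g hg using h1
  have hgg : ∀ (i j : ι) (W : X.Opens) (hi : W ≤ V i) (hj : W ≤ V j),
      rm L hj (e j) = (ru (le_inf hi hj) (g i j) : Γ(X, W)) • rm L hi (e i) := by
    intro i j W hi hj
    have h1 := congrArg (rm L (le_inf hi hj)) (hg i j)
    rwa [rm_smul, rm_rm, rm_rm] at h1
  refine ⟨g, hg, fun i j k W hi hj hk => Units.ext ?_⟩
  refine (he i).inj hi ?_
  rw [Units.val_mul, mul_comm, mul_smul, ← hgg i j W hi hj, ← hgg j k W hj hk,
    ← hgg i k W hi hk]

end Fermat.Agent.J25
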