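import Mathlib
import Fermat.Agent.J25.Dict2
import Fermat.Prelude.Def_AlgebraicGeometry_RelPicardAlgEquivZeroCut

/-!
# Rigidified line bundles in terms of classes of cocycles
-/

set_option autoImplicit false
set_option linter.unusedSectionVars false
set_option linter.style.haveILetI false

noncomputable section

universe u

open CategoryTheory CategoryTheory.Limits AlgebraicGeometry AlgebraicGeometry.RelPicard
open NeronModelInfra

namespace Fermat.Agent.J25

variable {R : Type u} [CommRing R] {C T T' : Scheme.{u}} {c : C ⟶ Spec (CommRingCat.of R)}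
  {ε : SchemeHomOver (𝟙 (Spec (CommRingCat.of R))) c} {t : T ⟶ Spec (CommRingCat.of R)}
  {t' : T' ⟶ Spec (CommRingCat.of R)}

/-- the class of a rigidified line bundle -/
def rcls (M : RigidifiedLineBundle c ε t) : PicC (pullback c t) := cls M.L M.isInvertible

theorem rcls_rig (M : RigidifiedLineBundle c ε t) : PicC.map (rigSection c t ε) (rcls M) = 1 := by
  rw [rcls, ← cls_pullback _ M.isInvertible (M.isInvertible.pullback _), cls_eq_one_iff]
  exact M.rigidified

theorem rcls_eq_iff {M M' : RigidifiedLineBundle c ε t} :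
    rcls M = rcls M' ↔ Nonempty (M.L ≅ M'.L) := cls_eq_iff _ _

theorem rcls_unit : rcls (RigidifiedLineBundle.unit (c := c) (ε := ε) t) = 1 :=
  cls_unit _

theorem rcls_pullbackAlong (M : RigidifiedLineBundle c ε t) (ψ : SchemeHomOver t' t) :
    rcls (M.pullbackAlong ψ) = PicC.map (baseChangeSnd c ψ) (rcls M) :=
  cls_pullback _ M.isInvertible _

/-- every class which is trivial along the section is the class of a rigidified line bundle -/
theorem exists_rcls (ℓ : PicC (pullback c t)) (h : PicC.map (rigSection c t ε) ℓ = 1) :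
    ∃ M : RigidifiedLineBundle c ε t, rcls M = ℓ := by
  obtain ⟨L, hL, rfl⟩ := cls_surj ℓ
  rw [← cls_pullback _ hL (hL.pullback _), cls_eq_one_iff] at h
  exact ⟨⟨L, hL, h⟩, rfl⟩

/-- the algebraic equivalence to zero, in terms of classes -/
def AEZ {k : Type u} [Field k] {A : Scheme.{u}} (a : A ⟶ Spec (CommRingCat.of k)) (ℓ : PicC A) :
    Prop :=
  ∃ (T' : Scheme.{u}) (h : T' ⟶ Spec (CommRingCat.of k)) (_ : LocallyOfFiniteType h)
    (_ : GeometricallyIntegral h) (m : PicC (pullback a h))
    (t₀ t₁ : SchemeHomOver (𝟙 (Spec (CommRingCat.of k))) h),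
    PicC.map (baseChangeSnd a t₀) m = 1 ∧
    PicC.map (baseChangeSnd a t₁) m = PicC.map (pullback.fst a (𝟙 (Spec (CommRingCat.of k)))) ℓ

theorem isAlgEquivZero_iff {k : Type u} [Field k] {A : Scheme.{u}}
    (a : A ⟶ Spec (CommRingCat.of k)) {L : A.Modules} (hL : Scheme.Modules.IsInvertible L) :
    IsAlgEquivZero a L ↔ AEZ a (cls L hL) := by
  constructor
  · rintro ⟨T', h, h1, h2, M, hM, t₀, t₁, h3, h4⟩
    refine ⟨T', h, h1, h2, cls M hM, t₀, t₁, ?_, ?_⟩
    · rw [← cls_pullback _ hM (hM.pullback _), cls_eq_one_iff]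
      exact h3
    · rw [← cls_pullback _ hM (hM.pullback _), ← cls_pullback _ hL (hL.pullback _), cls_eq_iff]
      exact h4
  · rintro ⟨T', h, h1, h2, m, t₀, t₁, h3, h4⟩
    obtain ⟨M, hM, rfl⟩ := cls_surj m
    refine ⟨T', h, h1, h2, M, hM, t₀, t₁, ?_, ?_⟩
    · rwa [← cls_pullback _ hM (hM.pullback _), cls_eq_one_iff] at h3
    · rwa [← cls_pullback _ hM (hM.pullback _), ← cls_pullback _ hL (hL.pullback _),
        cls_eq_iff] at h4

/-- the cut, in terms of classes -/
theorem fibrewise_iff {C T : Scheme.{u}} {c : C ⟶ Spec (CommRingCat.of R)}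
    {ε : SchemeHomOver (𝟙 (Spec (CommRingCat.of R))) c} {t : T ⟶ Spec (CommRingCat.of R)}
    (M : RigidifiedLineBundle c ε t) :
    FibrewiseAlgEquivZero M ↔ ∀ (k : Type u) [Field k] [IsAlgClosed k]
      (s : Spec (CommRingCat.of k) ⟶ T),
      AEZ (fibreAt c t s) (PicC.map (pullback.fst (pullback.snd c t) s) (rcls M)) := by
  have h : ∀ (k : Type u) [Field k] (s : Spec (CommRingCat.of k) ⟶ T),
      IsAlgEquivZero (fibreAt c t s)
        ((Scheme.Modules.pullback (pullback.fst (pullback.snd c t) s)).obj M.L) ↔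
      AEZ (fibreAt c t s) (PicC.map (pullback.fst (pullback.snd c t) s) (rcls M)) := by
    intro k _ s
    rw [isAlgEquivZero_iff _ (M.isInvertible.pullback _), cls_pullback _ M.isInvertible]
    rfl
  exact ⟨fun H k _ _ s => (h k s).mp (H k s), fun H k _ _ s => (h k s).mpr (H k s)⟩

end Fermat.Agent.J25
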