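import Mathlib
import Fermat.Agent.H20.Prod

/-!
# Global properties of schemes over an algebraically closed field
-/

set_option autoImplicit false

universe u

open AlgebraicGeometry CategoryTheory CategoryTheory.Limits TopologicalSpace

namespace Fermat.Agent.J25.Glb

noncomputable section

section Separated

open Scheme Pullback

variable {X Y : Scheme.{u}} (f : X ⟶ Y) (𝒰 : Y.OpenCover)
  (𝒱 : ∀ i, (pullback f (𝒰.f i)).OpenCover)

set_option backward.defeqAttrib.useBackward true in
set_option backward.isDefEq.respectTransparency false in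
lemma mem_diagonalCoverDiagonalRange (x : ↑(pullback f f)) (i : 𝒰.I₀) (j : (𝒱 i).I₀)
    (w w' : (𝒱 i).X j)
    (hw : pullback.fst f (𝒰.f i) ((𝒱 i).f j w) = pullback.fst f f x)
    (hw' : pullback.fst f (𝒰.f i) ((𝒱 i).f j w') = pullback.snd f f x) :
    x ∈ diagonalCoverDiagonalRange f 𝒰 𝒱 := by
  simp only [diagonalCoverDiagonalRange, openCoverOfBase_I₀, openCoverOfBase_X,
    openCoverOfLeftRight_I₀, Opens.iSup_mk, Opens.carrier_eq_coe, Hom.coe_opensRange, Opens.mem_mk,
    Set.mem_iUnion, Set.mem_range, Sigma.exists]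
  refine ⟨i, j, ?_⟩
  simp_rw [diagonalCover_map]
  change x ∈ Set.range _
  simp only [diagonalCover, openCoverOfBase_I₀,
    Precoverage.ZeroHypercover.pullback₁_toPreZeroHypercover, PreZeroHypercover.pullback₁_X,
    Precoverage.ZeroHypercover.bind_toPreZeroHypercover, openCoverOfBase_X,
    PreZeroHypercover.bind_X, openCoverOfLeftRight_I₀, openCoverOfLeftRight_X]
  rw [range_map]
  refine ⟨⟨w, ?_⟩, ⟨w', ?_⟩⟩
  · rw [← hw]; rfl
  · rw [← hw']; rfl

/-- A scheme locally of finite type over a Jacobson affine base such that any two closed points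
lie in a common affine open subset is separated. -/
theorem isSeparated_of_closedPoints [IsAffine Y] [JacobsonSpace Y] [LocallyOfFiniteType f]
    (h : ∀ x y : X, IsClosed ({x} : Set X) → IsClosed ({y} : Set X) →
      ∃ U : X.Opens, IsAffineOpen U ∧ x ∈ U ∧ y ∈ U) : IsSeparated f := by
  constructor
  let 𝒰 : OpenCover.{u} Y := Scheme.coverOfIsIso (𝟙 Y)
  have hU : ∀ i, IsAffine (𝒰.X i) := fun _ => inferInstanceAs (IsAffine Y)
  have hiso : ∀ i, IsIso (pullback.fst f (𝒰.f i)) := fun _ =>
    inferInstanceAs (IsIso (pullback.fst f (𝟙 Y)))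
  let 𝒱 (i : 𝒰.I₀) : OpenCover.{u} (pullback f (𝒰.f i)) :=
    openCoverOfIsOpenCover (pullback f (𝒰.f i))
      (fun U : {U : X.Opens // IsAffineOpen U} => pullback.fst f (𝒰.f i) ⁻¹ᵁ U.1) (by
        rw [IsOpenCover, eq_top_iff]
        rintro z -
        obtain ⟨U, hU, hzU, -⟩ := exists_isAffineOpen_mem_and_subset
          (Opens.mem_top (pullback.fst f (𝒰.f i) z))
        exact Opens.mem_iSup.mpr ⟨⟨U, hU⟩, hzU⟩)
  have hV : ∀ i j, IsAffine ((𝒱 i).X j) := fun i j =>
    (j.2.preimage_of_isIso (pullback.fst f (𝒰.f i)))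
  have : JacobsonSpace X := LocallyOfFiniteType.jacobsonSpace f
  have : JacobsonSpace ↑(pullback f f) :=
    LocallyOfFiniteType.jacobsonSpace (pullback.fst f f)
  have htop : diagonalCoverDiagonalRange f 𝒰 𝒱 = ⊤ := by
    by_contra hne
    have hne' : ((diagonalCoverDiagonalRange f 𝒰 𝒱 : Set ↑(pullback f f))ᶜ).Nonempty := by
      rw [Set.nonempty_compl]
      intro h0
      exact hne (Opens.ext h0)
    obtain ⟨z, hz, hzc⟩ := nonempty_inter_closedPoints hne'
      (diagonalCoverDiagonalRange f 𝒰 𝒱).isOpen.isClosed_compl.isLocallyClosed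
    have h1 : IsClosed ({pullback.fst f f z} : Set X) :=
      Scheme.Hom.closePoints_subset_preimage_closedPoints (pullback.fst f f) hzc
    have h2 : IsClosed ({pullback.snd f f z} : Set X) :=
      Scheme.Hom.closePoints_subset_preimage_closedPoints (pullback.snd f f) hzc
    obtain ⟨U, hU, hx, hy⟩ := h _ _ h1 h2
    apply hz
    have hs : ∀ x : X, ∃ w, pullback.fst f (𝒰.f ⟨⟩) w = x := by
      have := hiso ⟨⟩
      exact fun x => (pullback.fst f (𝒰.f ⟨⟩)).surjective x
    obtain ⟨w, hw⟩ := hs (pullback.fst f f z)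
    obtain ⟨w', hw'⟩ := hs (pullback.snd f f z)
    refine mem_diagonalCoverDiagonalRange f 𝒰 𝒱 z ⟨⟩ ⟨U, hU⟩ ⟨w, ?_⟩ ⟨w', ?_⟩ hw hw'
    · change pullback.fst f (𝒰.f ⟨⟩) w ∈ U
      rwa [hw]
    · change pullback.fst f (𝒰.f ⟨⟩) w' ∈ U
      rwa [hw']
  refine IsZariskiLocalAtTarget.of_iSup_eq_top (fun i : PUnit.{0} ↦ ⊤) (by simp) fun _ ↦ ?_
  rw [← htop]
  exact isClosedImmersion_diagonal_restrict_diagonalCoverDiagonalRange f 𝒰 𝒱

end Separated

section Proper

variable {X Y Z : Scheme.{u}} (f : X ⟶ Y) (g : Y ⟶ Z)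

/-- The target of a surjective morphism from a proper scheme is proper if it is separated and
locally of finite type. -/
theorem isProper_of_surjective [IsProper (f ≫ g)] [Surjective f] [IsSeparated g]
    [LocallyOfFiniteType g] : IsProper g :=
  have : UniversallyClosed g := UniversallyClosed.of_comp_surjective f g
  { }

/-- The target of a surjective morphism from a geometrically connected scheme is geometrically
connected. -/
theorem geometricallyConnected_of_surjective [GeometricallyConnected (f ≫ g)] [Surjective f] :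
    GeometricallyConnected g := by
  refine ⟨geometrically_iff_of_isClosedUnderIsomorphisms.mpr fun K _ x ↦ ?_⟩
  have h1 : ConnectedSpace ↑(pullback (f ≫ g) x) :=
    GeometricallyConnected.geometrically_connectedSpace _ _ _ (.of_hasPullback _ _)
  let φ : pullback (f ≫ g) x ⟶ pullback g x :=
    (pullbackRightPullbackFstIso g x f).inv ≫ pullback.snd f (pullback.fst g x)
  have h2 : Surjective φ := inferInstance
  exact φ.surjective.connectedSpace φ.continuous

end Proper

section GeometricallyIntegral

variable {k : Type u} [Field k] [IsAlgClosed k] {X : Scheme.{u}}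

/-- An integral scheme over an algebraically closed field is geometrically integral. -/
theorem geometricallyIntegral_of_isAlgClosed (f : X ⟶ Spec (CommRingCat.of k)) [IsIntegral X] :
    GeometricallyIntegral f := by
  have : ObjectProperty.IsClosedUnderIsomorphisms AlgebraicGeometry.IsIntegral.{u} :=
    ⟨fun e (h : AlgebraicGeometry.IsIntegral _) => @IsIntegral.of_isIso _ _ h e.hom _⟩
  refine ⟨geometrically_iff_of_isClosedUnderIsomorphisms.mpr fun K _ x ↦ ?_⟩
  let _ : H20.KSch k X := ⟨f⟩
  let : H20.KSch k (Spec (CommRingCat.of K)) := ⟨x⟩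
  exact H20.kprod_integral k X (Spec (CommRingCat.of K))

end GeometricallyIntegral

end

end Fermat.Agent.J25.Glb
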