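import Mathlib
import Fermat.Agent.J25.Glob
import Fermat.Prelude.Def_AlgebraicGeometry_NeronModelPropertyBundleCarrier

/-!
# Fibre powers
-/

set_option autoImplicit false

universe u

open AlgebraicGeometry CategoryTheory CategoryTheory.Limits TopologicalSpace NeronModelInfra

namespace Fermat.Agent.J25.Tow

noncomputable section

section Def

variable {S C : Scheme.{u}} (c : C ⟶ S)

/-- fibre powers of `C` over `S`: `T 0 = S`, `T (n + 1) = C ×[S] T n`. -/
def tow : ℕ → Over S
  | 0 => Over.mk (𝟙 S)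
  | n + 1 => Over.mk (pullback.snd c (tow n).hom ≫ (tow n).hom)

/-- the `n`-th fibre power -/
def T (n : ℕ) : Scheme.{u} := (tow c n).left

/-- its structure morphism -/
def tp (n : ℕ) : T c n ⟶ S := (tow c n).hom

theorem T_zero : T c 0 = S := rfl

theorem tp_zero : tp c 0 = 𝟙 S := rfl

theorem T_succ (n : ℕ) : T c (n + 1) = pullback c (tp c n) := rfl

theorem tp_succ (n : ℕ) : tp c (n + 1) = pullback.snd c (tp c n) ≫ tp c n := rfl

/-- the first projection -/
def hd (n : ℕ) : T c (n + 1) ⟶ C := pullback.fst c (tp c n)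

/-- the remaining projections -/
def tl (n : ℕ) : T c (n + 1) ⟶ T c n := pullback.snd c (tp c n)

theorem tl_tp (n : ℕ) : tl c n ≫ tp c n = tp c (n + 1) := rfl

theorem hd_comp (n : ℕ) : hd c n ≫ c = tp c (n + 1) := pullback.condition

/-- the projections -/
def pr : ∀ (n : ℕ), Fin n → (T c n ⟶ C)
  | 0 => Fin.elim0
  | n + 1 => Fin.cases (hd c n) (fun i => tl c n ≫ pr n i)

theorem pr_zero (n : ℕ) : pr c (n + 1) 0 = hd c n := rfl

theorem pr_succ (n : ℕ) (i : Fin n) : pr c (n + 1) i.succ = tl c n ≫ pr c n i := rfl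

theorem pr_comp : ∀ (n : ℕ) (i : Fin n), pr c n i ≫ c = tp c n
  | 0, i => i.elim0
  | n + 1, i => by
    refine Fin.cases ?_ (fun i => ?_) i
    · exact hd_comp c n
    · rw [pr_succ, Category.assoc, pr_comp n i, tl_tp]

/-- morphisms to the fibre powers are determined by their components -/
theorem hom_ext {Z : Scheme.{u}} : ∀ (n : ℕ) (f g : Z ⟶ T c n) (_ : f ≫ tp c n = g ≫ tp c n)
    (_ : ∀ i, f ≫ pr c n i = g ≫ pr c n i), f = g
  | 0, f, g, h, _ => by
    rw [tp_zero] at h
    exact (Category.comp_id f).symm.trans (h.trans (Category.comp_id g))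
  | n + 1, f, g, h, h' => by
    refine pullback.hom_ext (f := c) (g := tp c n) (h' 0) ?_
    change f ≫ tl c n = g ≫ tl c n
    refine hom_ext n _ _ ?_ fun i => ?_
    · rw [Category.assoc, Category.assoc, tl_tp, h]
    · have := h' i.succ
      rwa [pr_succ, ← Category.assoc, ← Category.assoc] at this

variable {c} in
/-- adding a component -/
def cons {Z : Scheme.{u}} {n : ℕ} (x : Z ⟶ C) (y : Z ⟶ T c n) (h : x ≫ c = y ≫ tp c n) :
    Z ⟶ T c (n + 1) := pullback.lift x y h

variable {c} in
theorem cons_hd {Z : Scheme.{u}} {n : ℕ} (x : Z ⟶ C) (y : Z ⟶ T c n) (h : x ≫ c = y ≫ tp c n) :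
    cons x y h ≫ hd c n = x := pullback.lift_fst _ _ _

variable {c} in
theorem cons_tl {Z : Scheme.{u}} {n : ℕ} (x : Z ⟶ C) (y : Z ⟶ T c n) (h : x ≫ c = y ≫ tp c n) :
    cons x y h ≫ tl c n = y := pullback.lift_snd _ _ _

/-- morphisms to the fibre powers -/
theorem exists_lift {Z : Scheme.{u}} (g : Z ⟶ S) : ∀ (n : ℕ) (x : Fin n → (Z ⟶ C))
    (_ : ∀ i, x i ≫ c = g), ∃ y : Z ⟶ T c n, y ≫ tp c n = g ∧ ∀ i, y ≫ pr c n i = x i
  | 0, _, _ => ⟨g, Category.comp_id g, fun i => i.elim0⟩
  | n + 1, x, hx => by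
    obtain ⟨y, hy, hy'⟩ := exists_lift g n (fun i => x i.succ) (fun i => hx i.succ)
    refine ⟨cons (x 0) y ((hx 0).trans hy.symm), ?_, fun i => ?_⟩
    · rw [← tl_tp, ← Category.assoc, cons_tl, hy]
    · refine Fin.cases ?_ (fun i => ?_) i
      · exact cons_hd _ _ _
      · rw [pr_succ, ← Category.assoc, cons_tl, hy']

/-- the `i`-th projection, over the base -/
def prO (n : ℕ) (i : Fin n) : SchemeHomOver (tp c n) c := ⟨pr c n i, pr_comp c n i⟩

/-- the morphism to the fibre power given by a tuple -/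
def lift {Z : Scheme.{u}} {g : Z ⟶ S} {n : ℕ} (x : Fin n → SchemeHomOver g c) :
    SchemeHomOver g (tp c n) :=
  ⟨(exists_lift c g n (fun i => (x i).1) (fun i => (x i).2)).choose,
    (exists_lift c g n (fun i => (x i).1) (fun i => (x i).2)).choose_spec.1⟩

theorem lift_pr {Z : Scheme.{u}} {g : Z ⟶ S} {n : ℕ} (x : Fin n → SchemeHomOver g c) (i : Fin n) :
    (lift c x).1 ≫ pr c n i = (x i).1 :=
  (exists_lift c g n (fun i => (x i).1) (fun i => (x i).2)).choose_spec.2 i

/-- morphisms to the fibre powers are tuples -/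
def homEquiv {Z : Scheme.{u}} (g : Z ⟶ S) (n : ℕ) :
    SchemeHomOver g (tp c n) ≃ (Fin n → SchemeHomOver g c) where
  toFun y i := ⟨y.1 ≫ pr c n i, by rw [Category.assoc, pr_comp, y.2]⟩
  invFun x := lift c x
  left_inv y := Subtype.ext <| hom_ext c n _ _ ((lift c _).2.trans y.2.symm) fun i =>
    lift_pr c _ i
  right_inv x := funext fun i => Subtype.ext (lift_pr c x i)

end Def

section Props

variable {S C : Scheme.{u}} (c : C ⟶ S)

instance isProper_tp [IsProper c] : ∀ n, IsProper (tp c n)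
  | 0 => inferInstanceAs (IsProper (𝟙 S))
  | n + 1 => by
    have := isProper_tp n
    exact inferInstanceAs (IsProper (pullback.snd c (tp c n) ≫ tp c n))

instance locallyOfFiniteType_tp [LocallyOfFiniteType c] : ∀ n, LocallyOfFiniteType (tp c n)
  | 0 => inferInstanceAs (LocallyOfFiniteType (𝟙 S))
  | n + 1 => by
    have := locallyOfFiniteType_tp n
    exact inferInstanceAs (LocallyOfFiniteType (pullback.snd c (tp c n) ≫ tp c n))

instance smooth_tp [Smooth c] : ∀ n, Smooth (tp c n)
  | 0 => inferInstanceAs (Smooth (𝟙 S))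
  | n + 1 => by
    have := smooth_tp n
    exact inferInstanceAs (Smooth (pullback.snd c (tp c n) ≫ tp c n))

instance isSeparated_tp [IsSeparated c] : ∀ n, IsSeparated (tp c n)
  | 0 => inferInstanceAs (IsSeparated (𝟙 S))
  | n + 1 => by
    have := isSeparated_tp n
    exact inferInstanceAs (IsSeparated (pullback.snd c (tp c n) ≫ tp c n))

instance quasiCompact_tp [QuasiCompact c] : ∀ n, QuasiCompact (tp c n)
  | 0 => inferInstanceAs (QuasiCompact (𝟙 S))
  | n + 1 => by
    have := quasiCompact_tp n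
    exact inferInstanceAs (QuasiCompact (pullback.snd c (tp c n) ≫ tp c n))

end Props

section Field

variable {k : Type u} [Field k] [IsAlgClosed k] {C : Scheme.{u}}
  (c : C ⟶ Spec (CommRingCat.of k))

/-- Products of integral schemes over an algebraically closed field. -/
theorem isIntegral_pullback {X Y : Scheme.{u}} (x : X ⟶ Spec (CommRingCat.of k))
    (y : Y ⟶ Spec (CommRingCat.of k)) [IsIntegral X] [IsIntegral Y] :
    IsIntegral (pullback x y) := by
  let _ : H20.KSch k X := ⟨x⟩
  let _ : H20.KSch k Y := ⟨y⟩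
  exact H20.kprod_integral k X Y

instance isIntegral_T [IsIntegral C] : ∀ n, IsIntegral (T c n)
  | 0 => inferInstanceAs (IsIntegral (Spec (CommRingCat.of k)))
  | n + 1 => by
    have := isIntegral_T n
    exact isIntegral_pullback c (tp c n)

instance geometricallyIntegral_tp [IsIntegral C] (n : ℕ) : GeometricallyIntegral (tp c n) :=
  Glb.geometricallyIntegral_of_isAlgClosed _

end Field

end

end Fermat.Agent.J25.Tow
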