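import Mathlib
import Fermat.Agent.J25.RigCls
import Fermat.Agent.J25.Tower
import Fermat.Prelude.Def_AlgebraicGeometry_RelPicardAlgEquivZeroCut

/-!
# The cut: fibrewise algebraically equivalent to zero = fibrewise of degree zero
-/

set_option autoImplicit false

universe u

open CategoryTheory CategoryTheory.Limits AlgebraicGeometry TopologicalSpace Opposite
open AlgebraicGeometry.RelPicard NeronModelInfra

noncomputable section

namespace Fermat.Agent.J25.Cut

section rst

variable {k : Type u} [CommRing k] {C : Scheme.{u}} (c : C ⟶ Spec (CommRingCat.of k))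

/-- restriction of classes along a morphism of base schemes -/
abbrev rst {T T' : Scheme.{u}} {t : T ⟶ Spec (CommRingCat.of k)}
    {t' : T' ⟶ Spec (CommRingCat.of k)} (φ : SchemeHomOver t' t) :
    PicC (pullback c t) →* PicC (pullback c t') := PicC.map (baseChangeSnd c φ)

theorem rst_rst {T T' T'' : Scheme.{u}} {t : T ⟶ Spec (CommRingCat.of k)}
    {t' : T' ⟶ Spec (CommRingCat.of k)} {t'' : T'' ⟶ Spec (CommRingCat.of k)}
    (φ : SchemeHomOver t' t) (ψ : SchemeHomOver t'' t') (l : PicC (pullback c t)) :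
    rst c ψ (rst c φ l) = rst c (postComp φ ψ) l := by
  rw [rst, rst, ← PicC.map_comp_apply, baseChangeSnd_comp]

end rst

section cut

variable {k : Type u} [Field k] {C : Scheme.{u}} {c : C ⟶ Spec (CommRingCat.of k)}
  {ε : SchemeHomOver (𝟙 (Spec (CommRingCat.of k))) c}

/-- a class which is algebraically equivalent to zero on a geometric fibre has degree zero -/
theorem deg0_of_AEZ
    (D0 : ∀ (K : Type u) [Field K] [IsAlgClosed K]
      (σ : Spec (CommRingCat.of K) ⟶ Spec (CommRingCat.of k)), PicC (pullback c σ) → Prop)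
    (h1 : ∀ (K : Type u) [Field K] [IsAlgClosed K]
      (σ : Spec (CommRingCat.of K) ⟶ Spec (CommRingCat.of k)), D0 K σ 1)
    (hconn : ∀ (T : Scheme.{u}) [ConnectedSpace T] (t : T ⟶ Spec (CommRingCat.of k))
      (l : PicC (pullback c t)) (K : Type u) [Field K] [IsAlgClosed K]
      (σ : Spec (CommRingCat.of K) ⟶ Spec (CommRingCat.of k)) (s₀ s₁ : SchemeHomOver σ t),
      D0 K σ (rst c s₀ l) → D0 K σ (rst c s₁ l))
    {T : Scheme.{u}} {t : T ⟶ Spec (CommRingCat.of k)} (l : PicC (pullback c t))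
    (K : Type u) [Field K] [IsAlgClosed K] (s : Spec (CommRingCat.of K) ⟶ T)
    (h : AEZ (fibreAt c t s) (PicC.map (pullback.fst (pullback.snd c t) s) l)) :
    D0 K (s ≫ t) (rst c (⟨s, rfl⟩ : SchemeHomOver (s ≫ t) t) l) := by
  obtain ⟨T', h, hft, hgi, m, t₀, t₁, e₀, e₁⟩ := h
  have hint : IsIntegral T' := GeometricallyIntegral.isIntegral_of_subsingleton h
  have hT : ConnectedSpace T' := inferInstance
  -- the comparison isomorphisms
  obtain ⟨q, q1, q2, q3, q4⟩ : ∃ q : pullback c (h ≫ s ≫ t) ⟶ pullback (fibreAt c t s) h,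
      q ≫ pullback.fst _ _ ≫ pullback.fst _ _ ≫ pullback.fst _ _ = pullback.fst _ _ ∧
      q ≫ pullback.fst _ _ ≫ pullback.fst _ _ ≫ pullback.snd _ _ = pullback.snd _ _ ≫ h ≫ s ∧
      q ≫ pullback.fst _ _ ≫ pullback.snd _ _ = pullback.snd _ _ ≫ h ∧
      q ≫ pullback.snd _ _ = pullback.snd _ _ := by
    refine ⟨pullback.lift (pullback.lift (pullback.lift (pullback.fst _ _)
      (pullback.snd _ _ ≫ h ≫ s)
      (by rw [pullback.condition]; simp only [Category.assoc])) (pullback.snd _ _ ≫ h)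
      (by rw [pullback.lift_snd]; simp only [Category.assoc])) (pullback.snd _ _)
      (by rw [fibreAt, pullback.lift_snd]), ?_, ?_, ?_, ?_⟩
    · rw [pullback.lift_fst_assoc, pullback.lift_fst_assoc, pullback.lift_fst]
    · rw [pullback.lift_fst_assoc, pullback.lift_fst_assoc, pullback.lift_snd]
    · rw [pullback.lift_fst_assoc, pullback.lift_snd]
    · rw [pullback.lift_snd]
  obtain ⟨j, j1, j2, j3, j4⟩ : ∃ j : pullback c (s ≫ t) ⟶
      pullback (fibreAt c t s) (𝟙 (Spec (CommRingCat.of K))),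
      j ≫ pullback.fst _ _ ≫ pullback.fst _ _ ≫ pullback.fst _ _ = pullback.fst _ _ ∧
      j ≫ pullback.fst _ _ ≫ pullback.fst _ _ ≫ pullback.snd _ _ = pullback.snd _ _ ≫ s ∧
      j ≫ pullback.fst _ _ ≫ pullback.snd _ _ = pullback.snd _ _ ∧
      j ≫ pullback.snd _ _ = pullback.snd _ _ := by
    refine ⟨pullback.lift (pullback.lift (pullback.lift (pullback.fst _ _) (pullback.snd _ _ ≫ s)
      (by rw [pullback.condition]; simp only [Category.assoc])) (pullback.snd _ _)
      (by rw [pullback.lift_snd])) (pullback.snd _ _)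
      (by rw [fibreAt, pullback.lift_snd, Category.comp_id]), ?_, ?_, ?_, ?_⟩
    · rw [pullback.lift_fst_assoc, pullback.lift_fst_assoc, pullback.lift_fst]
    · rw [pullback.lift_fst_assoc, pullback.lift_fst_assoc, pullback.lift_snd]
    · rw [pullback.lift_fst_assoc, pullback.lift_snd]
    · rw [pullback.lift_snd]
  have hτ : ∀ τ : SchemeHomOver (𝟙 (Spec (CommRingCat.of K))) h, τ.1 ≫ h ≫ s ≫ t = s ≫ t := by
    intro τ
    rw [← Category.assoc, τ.2, Category.id_comp]
  have hq : ∀ τ : SchemeHomOver (𝟙 (Spec (CommRingCat.of K))) h,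
      baseChangeSnd c (⟨τ.1, hτ τ⟩ : SchemeHomOver (s ≫ t) (h ≫ s ≫ t)) ≫ q =
        j ≫ baseChangeSnd (fibreAt c t s) τ := by
    intro τ
    have b1 : baseChangeSnd (fibreAt c t s) τ ≫ pullback.fst _ _ = pullback.fst _ _ := by
      rw [baseChangeSnd, pullback.map, pullback.lift_fst, Category.comp_id]
    have b2 : baseChangeSnd (fibreAt c t s) τ ≫ pullback.snd _ _ = pullback.snd _ _ ≫ τ.1 := by
      rw [baseChangeSnd, pullback.map, pullback.lift_snd]
    have b3 : baseChangeSnd c (⟨τ.1, hτ τ⟩ : SchemeHomOver (s ≫ t) (h ≫ s ≫ t)) ≫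
        pullback.fst _ _ = pullback.fst _ _ := by
      rw [baseChangeSnd, pullback.map, pullback.lift_fst, Category.comp_id]
    have b4 : baseChangeSnd c (⟨τ.1, hτ τ⟩ : SchemeHomOver (s ≫ t) (h ≫ s ≫ t)) ≫
        pullback.snd _ _ = pullback.snd _ _ ≫ τ.1 := by
      rw [baseChangeSnd, pullback.map, pullback.lift_snd]
    have hτs : τ.1 ≫ h ≫ s = s := by rw [← Category.assoc, τ.2, Category.id_comp]
    apply pullback.hom_ext
    · apply pullback.hom_ext
      · apply pullback.hom_ext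
        · simp only [Category.assoc]
          rw [q1, b3, reassoc_of% b1, j1]
        · simp only [Category.assoc]
          rw [q2, reassoc_of% b4, reassoc_of% b1, j2, hτs]
      · simp only [Category.assoc]
        rw [q3, reassoc_of% b4, reassoc_of% b1, j3, τ.2, Category.comp_id]
    · simp only [Category.assoc]
      rw [q4, b4, b2, reassoc_of% j4]
  have hj : j ≫ pullback.fst (fibreAt c t s) (𝟙 (Spec (CommRingCat.of K))) ≫
      pullback.fst (pullback.snd c t) s =
        baseChangeSnd c (⟨s, rfl⟩ : SchemeHomOver (s ≫ t) t) := by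
    apply pullback.hom_ext
    · simp only [Category.assoc]
      rw [j1, baseChangeSnd, pullback.map, pullback.lift_fst, Category.comp_id]
    · simp only [Category.assoc]
      rw [j2, baseChangeSnd, pullback.map, pullback.lift_snd]
  have h0 : rst c (⟨t₀.1, hτ t₀⟩ : SchemeHomOver (s ≫ t) (h ≫ s ≫ t)) (PicC.map q m) = 1 := by
    rw [rst, ← PicC.map_comp_apply, hq t₀, PicC.map_comp_apply, e₀, map_one]
  have h2 : rst c (⟨t₁.1, hτ t₁⟩ : SchemeHomOver (s ≫ t) (h ≫ s ≫ t)) (PicC.map q m) =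
        rst c (⟨s, rfl⟩ : SchemeHomOver (s ≫ t) t) l := by
    rw [rst, ← PicC.map_comp_apply, hq t₁, PicC.map_comp_apply, e₁, ← PicC.map_comp_apply, ← PicC.map_comp_apply,
      Category.assoc, hj]
  rw [← h2]
  refine hconn T' (h ≫ s ≫ t) (PicC.map q m) K (s ≫ t) ⟨t₀.1, hτ t₀⟩ ⟨t₁.1, hτ t₁⟩ ?_
  rw [h0]
  exact h1 K _

/-- a class of degree zero on a geometric fibre is algebraically equivalent to zero -/
theorem AEZ_of_deg0
    (P : Scheme.{u}) (p : P ⟶ Spec (CommRingCat.of k)) [LocallyOfFiniteType p]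
    [GeometricallyIntegral p]
    (e : SchemeHomOver (𝟙 (Spec (CommRingCat.of k))) p) (u : PicC (pullback c p))
    (hu0 : rst c e u = 1)
    {T : Scheme.{u}} {t : T ⟶ Spec (CommRingCat.of k)} (l : PicC (pullback c t))
    (K : Type u) [Field K] (s : Spec (CommRingCat.of K) ⟶ T)
    (g : SchemeHomOver (s ≫ t) p)
    (hg : rst c g u = rst c (⟨s, rfl⟩ : SchemeHomOver (s ≫ t) t) l) :
    AEZ (fibreAt c t s) (PicC.map (pullback.fst (pullback.snd c t) s) l) := by
  obtain ⟨q, q1, q2⟩ : ∃ q : pullback (fibreAt c t s) (pullback.snd p (s ≫ t)) ⟶ pullback c p,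
      q ≫ pullback.fst _ _ = pullback.fst _ _ ≫ pullback.fst _ _ ≫ pullback.fst _ _ ∧
      q ≫ pullback.snd _ _ = pullback.snd _ _ ≫ pullback.fst _ _ := by
    refine ⟨pullback.lift (pullback.fst _ _ ≫ pullback.fst _ _ ≫ pullback.fst _ _)
      (pullback.snd _ _ ≫ pullback.fst _ _) ?_, pullback.lift_fst _ _ _,
      pullback.lift_snd _ _ _⟩
    have h1 : pullback.fst c t ≫ c = pullback.snd c t ≫ t := pullback.condition
    have h2 : pullback.fst (pullback.snd c t) s ≫ pullback.snd c t = fibreAt c t s ≫ s :=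
      pullback.condition
    have h3 : pullback.fst (fibreAt c t s) (pullback.snd p (s ≫ t)) ≫ fibreAt c t s =
      pullback.snd (fibreAt c t s) (pullback.snd p (s ≫ t)) ≫ pullback.snd p (s ≫ t) :=
      pullback.condition
    have h4 : pullback.fst p (s ≫ t) ≫ p = pullback.snd p (s ≫ t) ≫ s ≫ t := pullback.condition
    simp only [Category.assoc]
    rw [h1, reassoc_of% h2, reassoc_of% h3, h4]
  have hlift : ∀ τ : SchemeHomOver (s ≫ t) p, ∃ τ' : SchemeHomOver
      (𝟙 (Spec (CommRingCat.of K))) (pullback.snd p (s ≫ t)),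
      τ'.1 ≫ pullback.fst p (s ≫ t) = τ.1 := by
    intro τ
    exact ⟨⟨pullback.lift τ.1 (𝟙 _) (by rw [τ.2, Category.id_comp]), pullback.lift_snd _ _ _⟩,
      pullback.lift_fst _ _ _⟩
  have hcomm : ∀ (τ : SchemeHomOver (s ≫ t) p) (τ' : SchemeHomOver
      (𝟙 (Spec (CommRingCat.of K))) (pullback.snd p (s ≫ t))),
      τ'.1 ≫ pullback.fst p (s ≫ t) = τ.1 → ∃ r : pullback (fibreAt c t s) (𝟙 _) ⟶
        pullback c (s ≫ t), baseChangeSnd (fibreAt c t s) τ' ≫ q = r ≫ baseChangeSnd c τ ∧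
        r ≫ baseChangeSnd c (⟨s, rfl⟩ : SchemeHomOver (s ≫ t) t) =
          pullback.fst _ _ ≫ pullback.fst _ _ := by
    intro τ τ' hττ
    have b1 : baseChangeSnd (fibreAt c t s) τ' ≫ pullback.fst _ _ = pullback.fst _ _ := by
      rw [baseChangeSnd, pullback.map, pullback.lift_fst, Category.comp_id]
    have b2 : baseChangeSnd (fibreAt c t s) τ' ≫ pullback.snd _ _ = pullback.snd _ _ ≫ τ'.1 := by
      rw [baseChangeSnd, pullback.map, pullback.lift_snd]
    have h1 : pullback.fst c t ≫ c = pullback.snd c t ≫ t := pullback.condition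
    have h2 : pullback.fst (pullback.snd c t) s ≫ pullback.snd c t = fibreAt c t s ≫ s :=
      pullback.condition
    have h3 : pullback.fst (fibreAt c t s) (𝟙 (Spec (CommRingCat.of K))) ≫ fibreAt c t s =
      pullback.snd (fibreAt c t s) (𝟙 (Spec (CommRingCat.of K))) ≫ 𝟙 _ := pullback.condition
    rw [Category.comp_id] at h3
    refine ⟨pullback.lift (pullback.fst _ _ ≫ pullback.fst _ _ ≫ pullback.fst _ _)
      (pullback.snd _ _) ?_, ?_, ?_⟩
    · simp only [Category.assoc]
      rw [h1, reassoc_of% h2, reassoc_of% h3]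
    · apply pullback.hom_ext
      · simp only [Category.assoc]
        rw [q1, reassoc_of% b1, baseChangeSnd, pullback.map, pullback.lift_fst, Category.comp_id,
          pullback.lift_fst]
      · simp only [Category.assoc]
        rw [q2, reassoc_of% b2, hττ, baseChangeSnd, pullback.map, pullback.lift_snd,
          pullback.lift_snd_assoc]
    · apply pullback.hom_ext
      · simp only [Category.assoc]
        rw [baseChangeSnd, pullback.map, pullback.lift_fst, Category.comp_id, pullback.lift_fst]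
      · simp only [Category.assoc]
        rw [baseChangeSnd, pullback.map, pullback.lift_snd, pullback.lift_snd_assoc, h2,
          reassoc_of% h3]
  -- the two points
  have he : (s ≫ t) ≫ e.1 ≫ p = s ≫ t := by rw [e.2, Category.comp_id]
  obtain ⟨t₀, ht₀⟩ := hlift ⟨(s ≫ t) ≫ e.1, by rw [Category.assoc, he]⟩
  obtain ⟨t₁, ht₁⟩ := hlift g
  refine ⟨pullback p (s ≫ t), pullback.snd _ _, inferInstance, inferInstance, PicC.map q u, t₀,
    t₁, ?_, ?_⟩
  · obtain ⟨r, hr, -⟩ := hcomm _ t₀ ht₀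
    rw [← PicC.map_comp_apply, hr, PicC.map_comp_apply]
    have h5 : rst c (⟨(s ≫ t) ≫ e.1, by rw [Category.assoc, he]⟩ : SchemeHomOver (s ≫ t) p) u =
        1 := by
      have h6 := rst_rst c e (⟨s ≫ t, Category.comp_id _⟩ :
        SchemeHomOver (s ≫ t) (𝟙 (Spec (CommRingCat.of k)))) u
      rw [hu0, map_one] at h6
      exact h6.symm
    rw [rst] at h5
    rw [h5, map_one]
  · obtain ⟨r, hr, hr'⟩ := hcomm _ t₁ ht₁
    rw [← PicC.map_comp_apply, hr, PicC.map_comp_apply]
    rw [rst] at hg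
    rw [hg, ← PicC.map_comp_apply, hr', PicC.map_comp_apply]

/-- **The cut**. -/
theorem fibrewiseAlgEquivZero_iff
    (D0 : ∀ (K : Type u) [Field K] [IsAlgClosed K]
      (σ : Spec (CommRingCat.of K) ⟶ Spec (CommRingCat.of k)), PicC (pullback c σ) → Prop)
    (h1 : ∀ (K : Type u) [Field K] [IsAlgClosed K]
      (σ : Spec (CommRingCat.of K) ⟶ Spec (CommRingCat.of k)), D0 K σ 1)
    (hconn : ∀ (T : Scheme.{u}) [ConnectedSpace T] (t : T ⟶ Spec (CommRingCat.of k))
      (l : PicC (pullback c t)) (K : Type u) [Field K] [IsAlgClosed K]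
      (σ : Spec (CommRingCat.of K) ⟶ Spec (CommRingCat.of k)) (s₀ s₁ : SchemeHomOver σ t),
      D0 K σ (rst c s₀ l) → D0 K σ (rst c s₁ l))
    (P : Scheme.{u}) (p : P ⟶ Spec (CommRingCat.of k)) [LocallyOfFiniteType p]
    [GeometricallyIntegral p]
    (e : SchemeHomOver (𝟙 (Spec (CommRingCat.of k))) p) (u : PicC (pullback c p))
    (hu0 : rst c e u = 1)
    (hP : ∀ (K : Type u) [Field K] [IsAlgClosed K]
      (σ : Spec (CommRingCat.of K) ⟶ Spec (CommRingCat.of k)) (l : PicC (pullback c σ)),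
      D0 K σ l → ∃ g : SchemeHomOver σ p, rst c g u = l)
    {T : Scheme.{u}} {t : T ⟶ Spec (CommRingCat.of k)} (M : RigidifiedLineBundle c ε t) :
    FibrewiseAlgEquivZero M ↔
      ∀ (K : Type u) [Field K] [IsAlgClosed K] (s : Spec (CommRingCat.of K) ⟶ T),
        D0 K (s ≫ t) (rst c (⟨s, rfl⟩ : SchemeHomOver (s ≫ t) t) (rcls M)) := by
  rw [fibrewise_iff]
  constructor
  · intro h K _ _ s
    exact deg0_of_AEZ D0 h1 hconn _ K s (h K s)
  · intro h K _ _ s
    obtain ⟨g, hg⟩ := hP K _ _ (h K s)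
    exact AEZ_of_deg0 P p e u hu0 _ K s g hg

end cut

end Fermat.Agent.J25.Cut
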