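import Mathlib

/-!
# Laurent series over rings: coefficientwise maps and the filtration
-/

set_option autoImplicit false

noncomputable section

namespace Fermat.Agent.J25

open HahnSeries

universe u v w

section Basic

variable {R : Type u} {S : Type v} {T : Type w} [CommRing R] [CommRing S] [CommRing T]

/-- the coefficientwise map of Laurent series -/
def lmap (f : R →+* S) : LaurentSeries R →+* LaurentSeries S where
  toFun x := HahnSeries.map x f
  map_one' := by
    ext i
    rw [HahnSeries.map_coeff, ← single_zero_one, ← single_zero_one, coeff_single, coeff_single]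
    split_ifs <;> simp
  map_mul' x y := HahnSeries.map_mul (f : R →ₙ+* S)
  map_zero' := by ext i; simp
  map_add' x y := by ext i; simp

@[simp] theorem lmap_coeff (f : R →+* S) (x : LaurentSeries R) (i : ℤ) :
    (lmap f x).coeff i = f (x.coeff i) := rfl

theorem lmap_id (x : LaurentSeries R) : lmap (RingHom.id R) x = x := by
  ext i; rfl

theorem lmap_lmap (f : R →+* S) (g : S →+* T) (x : LaurentSeries R) :
    lmap g (lmap f x) = lmap (g.comp f) x := by
  ext i; rfl

@[simp] theorem lmap_single (f : R →+* S) (n : ℤ) (r : R) :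
    lmap f (single n r) = single n (f r) := by
  ext i
  rw [lmap_coeff, coeff_single, coeff_single]
  split_ifs <;> simp

theorem lmap_smul (f : R →+* S) (r : R) (x : LaurentSeries R) :
    lmap f (r • x) = f r • lmap f x := by
  ext i
  simp

theorem lmap_injective {f : R →+* S} (hf : Function.Injective f) :
    Function.Injective (lmap f) := by
  intro x y h
  ext i
  exact hf (by rw [← lmap_coeff, h, lmap_coeff])

theorem lmap_surjective {f : R →+* S} (hf : Function.Surjective f) :
    Function.Surjective (lmap f) := by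
  intro y
  obtain ⟨g, hg⟩ : ∃ g : S → R, (∀ s, f (g s) = s) ∧ g 0 = 0 := by
    classical
    refine ⟨fun s => if s = 0 then 0 else (hf s).choose, fun s => ?_, if_pos rfl⟩
    beta_reduce
    split_ifs with h
    · rw [h, map_zero]
    · exact (hf s).choose_spec
  refine ⟨⟨fun i => g (y.coeff i), y.isPWO_support.mono fun i hi => ?_⟩, ?_⟩
  · intro h0
    exact hi (by beta_reduce; rw [h0, hg.2])
  · ext i
    exact hg.1 _

/-- the filtration of Laurent series by the order -/
def LV (R : Type u) [CommRing R] (n : ℤ) : Submodule R (LaurentSeries R) where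
  carrier := {f | ∀ i < n, f.coeff i = 0}
  zero_mem' := fun i _ => rfl
  add_mem' := fun {x y} hx hy i hi => by
    rw [HahnSeries.coeff_add, hx i hi, hy i hi, add_zero]
  smul_mem' := fun r x hx i hi => by
    rw [HahnSeries.coeff_smul, hx i hi, smul_zero]

theorem mem_LV {n : ℤ} {x : LaurentSeries R} : x ∈ LV R n ↔ ∀ i < n, x.coeff i = 0 := Iff.rfl

theorem LV_mono {m n : ℤ} (h : m ≤ n) : LV R n ≤ LV R m :=
  fun _ hx i hi => hx i (lt_of_lt_of_le hi h)

theorem exists_mem_LV (x : LaurentSeries R) : ∃ n : ℕ, x ∈ LV R (-(n : ℤ)) := by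
  refine ⟨(-x.order).toNat, fun i hi => coeff_eq_zero_of_lt_order ?_⟩
  have := Int.self_le_toNat (-x.order)
  omega

theorem single_mem_LV (n : ℤ) (r : R) : (single n r : LaurentSeries R) ∈ LV R n := by
  intro i hi
  rw [coeff_single, if_neg (ne_of_lt hi)]

theorem one_mem_LV : (1 : LaurentSeries R) ∈ LV R 0 := by
  rw [← single_zero_one]
  exact single_mem_LV 0 1

theorem lmap_mem_LV {n : ℤ} (f : R →+* S) {x : LaurentSeries R} (hx : x ∈ LV R n) :
    lmap f x ∈ LV S n := fun i hi => by rw [lmap_coeff, hx i hi, map_zero]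

theorem LV_isPWO (n : ℤ) : (Set.Ici n).IsPWO :=
  (BddBelow.isWF ⟨n, fun _ h => h⟩).isPWO

theorem support_subset_of_mem_LV {n : ℤ} {x : LaurentSeries R} (hx : x ∈ LV R n) :
    x.support ⊆ Set.Ici n := by
  intro i hi
  by_contra h
  exact hi (hx i (not_le.mp h))

/-- the product of Laurent series, as a finite sum -/
theorem coeff_mul_of_mem {x y : LaurentSeries R} {m n : ℤ} (hx : x ∈ LV R m) (hy : y ∈ LV R n)
    (i : ℤ) : (x * y).coeff i = ∑ s ∈ Finset.Icc m (i - n), x.coeff s * y.coeff (i - s) := by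
  rw [HahnSeries.coeff_mul_left' (LV_isPWO m) (support_subset_of_mem_LV hx)]
  refine Finset.sum_bij_ne_zero (fun ij _ _ => ij.1) ?_ ?_ ?_ ?_
  · rintro ⟨a, b⟩ h _
    rw [Finset.mem_antidiagonal] at h
    obtain ⟨h1, h2, h3⟩ := h
    have h4 : n ≤ b := support_subset_of_mem_LV hy h2
    have h1' : m ≤ a := h1
    rw [Finset.mem_Icc]
    dsimp only at h3 ⊢
    constructor <;> omega
  · rintro ⟨a, b⟩ h _ ⟨a', b'⟩ h' _ hh
    rw [Finset.mem_antidiagonal] at h h'
    obtain ⟨-, -, h3⟩ := h
    obtain ⟨-, -, h3'⟩ := h'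
    dsimp only at h3 h3' hh
    rw [Prod.mk.injEq]
    constructor <;> omega
  · intro s hs h0
    rw [Finset.mem_Icc] at hs
    refine ⟨⟨s, i - s⟩, ?_, h0, rfl⟩
    rw [Finset.mem_antidiagonal]
    refine ⟨hs.1, fun h => h0 (by rw [h, mul_zero]), by dsimp only; omega⟩
  · rintro ⟨a, b⟩ h _
    rw [Finset.mem_antidiagonal] at h
    obtain ⟨-, -, h3⟩ := h
    dsimp only at h3 ⊢
    have : i - a = b := by omega
    rw [this]

theorem mul_mem_LV {x y : LaurentSeries R} {m n : ℤ} (hx : x ∈ LV R m) (hy : y ∈ LV R n) :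
    x * y ∈ LV R (m + n) := by
  intro i hi
  rw [coeff_mul_of_mem hx hy, Finset.Icc_eq_empty (by omega), Finset.sum_empty]

theorem coeff_mul_bot {x y : LaurentSeries R} {m n : ℤ} (hx : x ∈ LV R m) (hy : y ∈ LV R n) :
    (x * y).coeff (m + n) = x.coeff m * y.coeff n := by
  rw [coeff_mul_of_mem hx hy, show m + n - n = m by ring, Finset.Icc_self, Finset.sum_singleton,
    show m + n - m = n by ring]

/-- Laurent series in `LV 1`, from coefficients -/
def mkP (c : ℕ → R) : LaurentSeries R :=
  ⟨fun i : ℤ => if 1 ≤ i then c (i - 1).toNat else 0, (LV_isPWO 1).mono (by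
    intro i hi
    by_contra h
    exact hi (if_neg h))⟩

theorem mkP_coeff (c : ℕ → R) (i : ℤ) :
    (mkP c).coeff i = if 1 ≤ i then c (i - 1).toNat else 0 := rfl

theorem mkP_coeff_succ (c : ℕ → R) (i : ℕ) : (mkP c).coeff (i + 1 : ℤ) = c i := by
  rw [mkP_coeff, if_pos (by omega)]
  congr 1
  omega

theorem mkP_mem (c : ℕ → R) : mkP c ∈ LV R 1 := by
  intro i hi
  rw [mkP_coeff, if_neg (by omega)]

theorem lmap_mkP (f : R →+* S) (c : ℕ → R) : lmap f (mkP c) = mkP (fun i => f (c i)) := by
  ext i
  rw [lmap_coeff, mkP_coeff, mkP_coeff]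
  split_ifs
  · rfl
  · rw [map_zero]

theorem eq_mkP {x : LaurentSeries R} (hx : x ∈ LV R 1) :
    x = mkP fun i => x.coeff (i + 1 : ℤ) := by
  ext i
  rw [mkP_coeff]
  split_ifs with h
  · congr 1
    omega
  · exact hx i (by omega)

/-- the principal part (including the constant term) -/
theorem sub_sum_single_mem {x : LaurentSeries R} {n : ℕ} (hx : x ∈ LV R (-(n : ℤ))) :
    x - ∑ j ∈ Finset.range (n + 1), single (-(j : ℤ)) (x.coeff (-(j : ℤ))) ∈ LV R 1 := by
  intro i hi
  rw [HahnSeries.coeff_sub, HahnSeries.coeff_sum]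
  simp only [coeff_single]
  by_cases h : -(n : ℤ) ≤ i
  · rw [Finset.sum_eq_single (-i).toNat]
    · rw [if_pos (by omega)]
      have : -(((-i).toNat : ℕ) : ℤ) = i := by omega
      rw [this, sub_self]
    · intro b _ hb
      rw [if_neg]
      intro h'
      apply hb
      omega
    · intro h'
      exfalso
      apply h'
      rw [Finset.mem_range]
      omega
  · rw [hx i (not_le.mp h), Finset.sum_eq_zero, sub_zero]
    intro b hb
    rw [Finset.mem_range] at hb
    rw [if_neg]
    omega

end Basic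

end Fermat.Agent.J25
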