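import Mathlib
import Fermat.Agent.J25.Laur

/-!
# The chart `W` of the Picard functor: `A`-stable complements of `z R[[z]]` containing `1`
-/

set_option autoImplicit false

noncomputable section

namespace Fermat.Agent.J25

attribute [-instance] HahnSeries.powerSeriesAlgebra

open HahnSeries

universe u

variable {k : Type u} [Field k] {A : Type u} [CommRing A] [Algebra k A]
  (e : A →ₐ[k] LaurentSeries k)

section Ex

variable (R : Type u) [CommRing R] [Algebra k R]

/-- the expansion of elements of `A` over `R` -/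
def ex : A →ₐ[k] LaurentSeries R :=
  { (lmap (algebraMap k R)).comp (e : A →+* LaurentSeries k) with
    commutes' := fun c => by
      change lmap (algebraMap k R) (e (algebraMap k A c)) = _
      rw [e.commutes]
      exact lmap_single _ _ _ }

variable {R}

theorem ex_apply (a : A) : ex e R a = lmap (algebraMap k R) (e a) := rfl

variable {S : Type u} [CommRing S] [Algebra k S]

theorem lmap_ex (f : R →ₐ[k] S) (a : A) : lmap (f : R →+* S) (ex e R a) = ex e S a := by
  rw [ex_apply, ex_apply, lmap_lmap, f.comp_algebraMap]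

theorem ex_mem_LV {n : ℤ} {a : A} (ha : e a ∈ LV k n) : ex e R a ∈ LV R n :=
  lmap_mem_LV _ ha

end Ex

/-- a bound for the pole of `a` -/
def pbd (a : A) : ℕ := (exists_mem_LV (e a)).choose

theorem pbd_spec (a : A) : e a ∈ LV k (-(pbd e a : ℤ)) := (exists_mem_LV (e a)).choose_spec

section Data

variable {R : Type u} [CommRing R]

/-- the Laurent series `z^-j + ∑ c j i z^(i+1)` -/
def mser (c : ℕ → ℕ → R) (j : ℕ) : LaurentSeries R := single (-(j : ℤ)) 1 + mkP (c j)

theorem mser_sub (c : ℕ → ℕ → R) (j : ℕ) : mser c j - single (-(j : ℤ)) 1 ∈ LV R 1 := by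
  rw [mser, add_sub_cancel_left]
  exact mkP_mem _

theorem mem_LV_of_sub {x : LaurentSeries R} {j : ℕ} (hx : x - single (-(j : ℤ)) 1 ∈ LV R 1) :
    x ∈ LV R (-(j : ℤ)) := by
  have h := (LV R (-(j : ℤ))).add_mem (LV_mono (by omega) hx) (single_mem_LV (-(j : ℤ)) 1)
  rwa [sub_add_cancel] at h

theorem coeff_of_sub {x : LaurentSeries R} {j : ℕ} (hx : x - single (-(j : ℤ)) 1 ∈ LV R 1)
    (l : ℕ) : x.coeff (-(l : ℤ)) = if l = j then 1 else 0 := by
  have h := hx (-(l : ℤ)) (by omega)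
  rw [HahnSeries.coeff_sub, sub_eq_zero] at h
  rw [h, coeff_single]
  congr 1
  simp

theorem mser_mem_LV (c : ℕ → ℕ → R) (j : ℕ) : mser c j ∈ LV R (-(j : ℤ)) :=
  mem_LV_of_sub (mser_sub c j)

theorem mser_coeff (c : ℕ → ℕ → R) (j i : ℕ) : (mser c j).coeff (i + 1 : ℤ) = c j i := by
  rw [mser, HahnSeries.coeff_add, mkP_coeff_succ, coeff_single, if_neg (by omega), zero_add]

theorem lmap_mser {S : Type u} [CommRing S] (f : R →+* S) (c : ℕ → ℕ → R) (j : ℕ) :
    lmap f (mser c j) = mser (fun j i => f (c j i)) j := by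
  rw [mser, mser, map_add, lmap_single, map_one, lmap_mkP]

theorem eq_mser {x : LaurentSeries R} {j : ℕ} (hx : x - single (-(j : ℤ)) 1 ∈ LV R 1) :
    x = single (-(j : ℤ)) 1 + mkP (fun i => x.coeff (i + 1 : ℤ)) := by
  have h := eq_mkP hx
  rw [sub_eq_iff_eq_add'] at h
  refine h.trans ?_
  congr 2
  funext i
  rw [HahnSeries.coeff_sub, coeff_single, if_neg (by omega), sub_zero]

theorem smul_single_one (r : R) (n : ℤ) : r • (single n (1 : R) : LaurentSeries R) = single n r := by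
  ext i
  rw [HahnSeries.coeff_smul, coeff_single, coeff_single]
  split_ifs <;> simp

/-- the remainder of a Laurent series with respect to the family `m` -/
def redm (m : ℕ → LaurentSeries R) (n : ℕ) (x : LaurentSeries R) : LaurentSeries R :=
  x - ∑ l ∈ Finset.range (n + 1), x.coeff (-(l : ℤ)) • m l

theorem redm_mem {m : ℕ → LaurentSeries R} (hm : ∀ j, m j - single (-(j : ℤ)) 1 ∈ LV R 1) {n : ℕ}
    {x : LaurentSeries R} (hx : x ∈ LV R (-(n : ℤ))) : redm m n x ∈ LV R 1 := by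
  have h1 := sub_sum_single_mem hx
  have h2 : ∑ l ∈ Finset.range (n + 1), x.coeff (-(l : ℤ)) • (m l - single (-(l : ℤ)) 1) ∈
      LV R 1 := Submodule.sum_mem _ fun l _ => Submodule.smul_mem _ _ (hm l)
  have h3 := (LV R 1).sub_mem h1 h2
  have e1 : x - ∑ j ∈ Finset.range (n + 1), single (-(j : ℤ)) (x.coeff (-(j : ℤ))) -
      ∑ l ∈ Finset.range (n + 1), x.coeff (-(l : ℤ)) • (m l - single (-(l : ℤ)) 1) =
      redm m n x := by
    rw [redm, sub_sub, ← Finset.sum_add_distrib]
    congr 1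
    refine Finset.sum_congr rfl fun l _ => ?_
    rw [smul_sub, smul_single_one]
    abel
  rwa [e1] at h3

theorem lmap_redm {S : Type u} [CommRing S] (f : R →+* S) (m : ℕ → LaurentSeries R) (n : ℕ)
    (x : LaurentSeries R) : lmap f (redm m n x) = redm (fun l => lmap f (m l)) n (lmap f x) := by
  rw [redm, redm, map_sub, map_sum]
  congr 1
  refine Finset.sum_congr rfl fun l _ => ?_
  rw [lmap_smul, lmap_coeff]

end Data

section WPt

variable (R : Type u) [CommRing R] [Algebra k R]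

/-- a point of the chart: an `A`-stable complement of `z R[[z]]` containing `1` -/
@[ext] structure WPt where
  /-- the submodule -/
  M : Submodule R (LaurentSeries R)
  stab : ∀ (a : A), ∀ m ∈ M, ex e R a * m ∈ M
  one_mem : 1 ∈ M
  compl : IsCompl M (LV R 1)

variable {e R}

namespace WPt

variable (P : WPt e R)

theorem exists_basis (x : LaurentSeries R) : ∃ m ∈ P.M, m - x ∈ LV R 1 := by
  have h : x ∈ P.M ⊔ LV R 1 := by
    rw [P.compl.sup_eq_top]
    trivial
  obtain ⟨m, hm, v, hv, hmv⟩ := Submodule.mem_sup.mp h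
  refine ⟨m, hm, ?_⟩
  rw [← hmv]
  have : m - (m + v) = -v := by ring
  rw [this]
  exact (LV R 1).neg_mem hv

theorem eq_of_sub_mem {x y : LaurentSeries R} (hx : x ∈ P.M) (hy : y ∈ P.M)
    (h : x - y ∈ LV R 1) : x = y := by
  have h1 : x - y ∈ P.M ⊓ LV R 1 := ⟨P.M.sub_mem hx hy, h⟩
  rw [P.compl.inf_eq_bot, Submodule.mem_bot, sub_eq_zero] at h1
  exact h1

/-- the basis of `M` over `R` -/
def wb (j : ℕ) : LaurentSeries R := (P.exists_basis (single (-(j : ℤ)) 1)).choose

theorem wb_mem (j : ℕ) : P.wb j ∈ P.M := (P.exists_basis (single (-(j : ℤ)) 1)).choose_spec.1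

theorem wb_sub (j : ℕ) : P.wb j - single (-(j : ℤ)) 1 ∈ LV R 1 :=
  (P.exists_basis (single (-(j : ℤ)) 1)).choose_spec.2

theorem wb_unique {j : ℕ} {x : LaurentSeries R} (hx : x ∈ P.M)
    (h : x - single (-(j : ℤ)) 1 ∈ LV R 1) : x = P.wb j := by
  refine P.eq_of_sub_mem hx (P.wb_mem j) ?_
  have := (LV R 1).sub_mem h (P.wb_sub j)
  rwa [sub_sub_sub_cancel_right] at this

theorem wb_zero : P.wb 0 = 1 := by
  refine (P.wb_unique P.one_mem ?_).symm
  have : (single (-((0 : ℕ) : ℤ)) (1 : R) : LaurentSeries R) = 1 := by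
    rw [Nat.cast_zero, neg_zero, single_zero_one]
  rw [this, sub_self]
  exact (LV R 1).zero_mem

theorem wb_mem_LV (j : ℕ) : P.wb j ∈ LV R (-(j : ℤ)) := mem_LV_of_sub (P.wb_sub j)

theorem wb_coeff (j l : ℕ) : (P.wb j).coeff (-(l : ℤ)) = if l = j then 1 else 0 :=
  coeff_of_sub (P.wb_sub j) l

/-- expansion of the elements of `M` in the basis -/
theorem eq_sum {x : LaurentSeries R} {n : ℕ} (hx : x ∈ P.M) (hn : x ∈ LV R (-(n : ℤ))) :
    x = ∑ l ∈ Finset.range (n + 1), x.coeff (-(l : ℤ)) • P.wb l := by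
  refine P.eq_of_sub_mem hx (Submodule.sum_mem _ fun l _ => P.M.smul_mem _ (P.wb_mem l)) ?_
  exact redm_mem P.wb_sub hn

theorem span_wb : Submodule.span R (Set.range P.wb) = P.M := by
  apply le_antisymm
  · rw [Submodule.span_le]
    rintro _ ⟨j, rfl⟩
    exact P.wb_mem j
  · intro x hx
    obtain ⟨n, hn⟩ := exists_mem_LV x
    rw [P.eq_sum hx hn]
    exact Submodule.sum_mem _ fun l _ => Submodule.smul_mem _ _ (Submodule.subset_span ⟨l, rfl⟩)

/-- the coefficients of the basis -/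
def cf (j i : ℕ) : R := (P.wb j).coeff (i + 1 : ℤ)

theorem wb_eq_mser (j : ℕ) : P.wb j = mser P.cf j := eq_mser (P.wb_sub j)

theorem ext_wb {P Q : WPt e R} (h : ∀ j, P.wb j = Q.wb j) : P = Q := by
  apply WPt.ext
  rw [← P.span_wb, ← Q.span_wb, funext h]

theorem ext_cf {P Q : WPt e R} (h : ∀ j i, P.cf j i = Q.cf j i) : P = Q := by
  refine ext_wb fun j => ?_
  rw [wb_eq_mser, wb_eq_mser]
  congr 1
  funext j i
  exact h j i

end WPt

end WPt

section OfData

variable {R : Type u} [CommRing R] [Algebra k R]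

theorem linComb_coeff {m : ℕ → LaurentSeries R}
    (hm : ∀ j, m j - single (-(j : ℤ)) 1 ∈ LV R 1) (c : ℕ →₀ R) (l : ℕ) :
    (Finsupp.linearCombination R m c).coeff (-(l : ℤ)) = c l := by
  rw [Finsupp.linearCombination_apply, Finsupp.sum, HahnSeries.coeff_sum]
  simp only [HahnSeries.coeff_smul, coeff_of_sub (hm _), smul_eq_mul, mul_ite, mul_one, mul_zero]
  rw [Finset.sum_ite_eq]
  split_ifs with h
  · rfl
  · exact (Finsupp.notMem_support_iff.mp h).symm

theorem isCompl_span {m : ℕ → LaurentSeries R} (hm : ∀ j, m j - single (-(j : ℤ)) 1 ∈ LV R 1) :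
    IsCompl (Submodule.span R (Set.range m)) (LV R 1) := by
  constructor
  · rw [Submodule.disjoint_def]
    intro x hx hx1
    obtain ⟨c, rfl⟩ := Finsupp.mem_span_range_iff_exists_finsupp.mp hx
    change (Finsupp.linearCombination R m c) ∈ LV R 1 at hx1
    change (Finsupp.linearCombination R m c) = 0
    have : c = 0 := by
      ext l
      rw [← linComb_coeff hm c l, hx1 _ (by omega), Finsupp.zero_apply]
    rw [this, map_zero]
  · rw [codisjoint_iff, eq_top_iff]
    intro x _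
    obtain ⟨n, hn⟩ := exists_mem_LV x
    have h1 := redm_mem hm hn
    have h2 : x = (∑ l ∈ Finset.range (n + 1), x.coeff (-(l : ℤ)) • m l) + redm m n x := by
      rw [redm]
      ring
    rw [h2]
    exact Submodule.add_mem_sup (Submodule.sum_mem _ fun l _ => Submodule.smul_mem _ _
      (Submodule.subset_span ⟨l, rfl⟩)) h1

/-- the defect of stability -/
def dif (m : ℕ → LaurentSeries R) (a : A) (j : ℕ) : LaurentSeries R :=
  redm m (pbd e a + j) (ex e R a * m j)

theorem dif_mem {m : ℕ → LaurentSeries R} (hm : ∀ j, m j - single (-(j : ℤ)) 1 ∈ LV R 1)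
    (a : A) (j : ℕ) : dif e m a j ∈ LV R 1 := by
  refine redm_mem hm ?_
  have h := mul_mem_LV (ex_mem_LV e (R := R) (pbd_spec e a)) (mem_LV_of_sub (hm j))
  have e1 : -((pbd e a + j : ℕ) : ℤ) = -(pbd e a : ℤ) + -(j : ℤ) := by push_cast; ring
  rw [e1]
  exact h

/-- a point of the chart, from a family -/
def WPt.ofFam (m : ℕ → LaurentSeries R) (hm : ∀ j, m j - single (-(j : ℤ)) 1 ∈ LV R 1)
    (h0 : m 0 = 1) (hd : ∀ (a : A) (j : ℕ), dif e m a j = 0) : WPt e R where
  M := Submodule.span R (Set.range m)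
  stab a x hx := by
    induction hx using Submodule.span_induction with
    | mem x h =>
      obtain ⟨j, rfl⟩ := h
      have h1 := hd a j
      rw [dif, redm, sub_eq_zero] at h1
      rw [h1]
      exact Submodule.sum_mem _ fun l _ => Submodule.smul_mem _ _ (Submodule.subset_span ⟨l, rfl⟩)
    | zero => rw [mul_zero]; exact Submodule.zero_mem _
    | add x y _ _ hx hy => rw [mul_add]; exact Submodule.add_mem _ hx hy
    | smul r x _ hx => rw [mul_smul_comm]; exact Submodule.smul_mem _ _ hx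
  one_mem := h0 ▸ Submodule.subset_span ⟨0, rfl⟩
  compl := isCompl_span hm

theorem WPt.ofFam_wb (m : ℕ → LaurentSeries R) (hm : ∀ j, m j - single (-(j : ℤ)) 1 ∈ LV R 1)
    (h0 : m 0 = 1) (hd : ∀ (a : A) (j : ℕ), dif e m a j = 0) (j : ℕ) :
    (WPt.ofFam e m hm h0 hd).wb j = m j :=
  ((WPt.ofFam e m hm h0 hd).wb_unique (Submodule.subset_span ⟨j, rfl⟩) (hm j)).symm

theorem WPt.dif_wb (P : WPt e R) (a : A) (j : ℕ) : dif e P.wb a j = 0 := by
  rw [dif, redm, sub_eq_zero]
  refine P.eq_sum (P.stab a _ (P.wb_mem j)) ?_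
  have h := mul_mem_LV (ex_mem_LV e (R := R) (pbd_spec e a)) (P.wb_mem_LV j)
  have e1 : -((pbd e a + j : ℕ) : ℤ) = -(pbd e a : ℤ) + -(j : ℤ) := by push_cast; ring
  rw [e1]
  exact h

variable {S : Type u} [CommRing S] [Algebra k S]

theorem lmap_dif (f : R →ₐ[k] S) (m : ℕ → LaurentSeries R) (a : A) (j : ℕ) :
    lmap (f : R →+* S) (dif e m a j) = dif e (fun l => lmap (f : R →+* S) (m l)) a j := by
  rw [dif, dif, lmap_redm, map_mul, lmap_ex]

variable {e}

theorem lmap_sub_mem (f : R →+* S) {x : LaurentSeries R} {j : ℕ}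
    (h : x - single (-(j : ℤ)) 1 ∈ LV R 1) : lmap f x - single (-(j : ℤ)) 1 ∈ LV S 1 := by
  have := lmap_mem_LV f h
  rwa [map_sub, lmap_single, map_one] at this

/-- base change of the points of the chart -/
def WPt.map (P : WPt e R) (f : R →ₐ[k] S) : WPt e S :=
  WPt.ofFam e (fun j => lmap (f : R →+* S) (P.wb j)) (fun j => lmap_sub_mem _ (P.wb_sub j))
    (by rw [P.wb_zero, map_one]) fun a j => by rw [← lmap_dif, P.dif_wb, map_zero]

theorem WPt.map_wb (P : WPt e R) (f : R →ₐ[k] S) (j : ℕ) :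
    (P.map f).wb j = lmap (f : R →+* S) (P.wb j) := WPt.ofFam_wb e _ _ _ _ j

theorem WPt.map_cf (P : WPt e R) (f : R →ₐ[k] S) (j i : ℕ) :
    (P.map f).cf j i = f (P.cf j i) := by
  rw [cf, map_wb]
  rfl

theorem WPt.lmap_mem (P : WPt e R) (f : R →ₐ[k] S) {x : LaurentSeries R} (hx : x ∈ P.M) :
    lmap (f : R →+* S) x ∈ (P.map f).M := by
  obtain ⟨n, hn⟩ := exists_mem_LV x
  rw [P.eq_sum hx hn, map_sum]
  refine Submodule.sum_mem _ fun l _ => ?_
  rw [lmap_smul]
  exact Submodule.smul_mem _ _ (by rw [← P.map_wb f l]; exact (P.map f).wb_mem l)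

theorem WPt.map_M (P : WPt e R) (f : R →ₐ[k] S) :
    (P.map f).M = Submodule.span S (lmap (f : R →+* S) '' (P.M : Set (LaurentSeries R))) := by
  apply le_antisymm
  · rw [← (P.map f).span_wb, Submodule.span_le]
    rintro _ ⟨j, rfl⟩
    rw [P.map_wb]
    exact Submodule.subset_span ⟨_, P.wb_mem j, rfl⟩
  · rw [Submodule.span_le]
    rintro _ ⟨x, hx, rfl⟩
    exact P.lmap_mem f hx

theorem WPt.map_id (P : WPt e R) : P.map (AlgHom.id k R) = P := by
  refine WPt.ext_wb fun j => ?_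
  rw [WPt.map_wb]
  exact lmap_id _

theorem WPt.map_map {T : Type u} [CommRing T] [Algebra k T] (P : WPt e R) (f : R →ₐ[k] S)
    (g : S →ₐ[k] T) : (P.map f).map g = P.map (g.comp f) := by
  refine WPt.ext_wb fun j => ?_
  rw [WPt.map_wb, WPt.map_wb, WPt.map_wb, lmap_lmap]
  rfl

end OfData

section Univ

/-- the generic coefficients -/
def cgen : ℕ → ℕ → MvPolynomial (ℕ × ℕ) k := fun j i => MvPolynomial.X (j, i)

/-- the relations -/
def relI : Ideal (MvPolynomial (ℕ × ℕ) k) :=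
  Ideal.span ({x | ∃ i, x = (mser cgen 0 - 1 : LaurentSeries (MvPolynomial (ℕ × ℕ) k)).coeff i} ∪
    {x | ∃ (a : A) (j : ℕ) (i : ℤ), x = (dif e (mser cgen) a j).coeff i})

/-- the coordinate ring of the chart -/
def Buniv : Type u := MvPolynomial (ℕ × ℕ) k ⧸ relI e

instance : CommRing (Buniv e) := inferInstanceAs (CommRing (MvPolynomial (ℕ × ℕ) k ⧸ relI e))

instance : Algebra k (Buniv e) := inferInstanceAs (Algebra k (MvPolynomial (ℕ × ℕ) k ⧸ relI e))

/-- the quotient map -/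
def qu : MvPolynomial (ℕ × ℕ) k →ₐ[k] Buniv e := Ideal.Quotient.mkₐ k (relI e)

theorem qu_surjective : Function.Surjective (qu e) := Ideal.Quotient.mkₐ_surjective k (relI e)

theorem qu_eq_zero {x : MvPolynomial (ℕ × ℕ) k} (hx : x ∈ relI e) : qu e x = 0 :=
  Ideal.Quotient.eq_zero_iff_mem.mpr hx

/-- the universal point -/
def uniW : WPt e (Buniv e) :=
  WPt.ofFam e (fun j => lmap (qu e : MvPolynomial (ℕ × ℕ) k →+* Buniv e) (mser cgen j))
    (fun j => lmap_sub_mem _ (mser_sub _ j))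
    (by
      rw [← sub_eq_zero, ← map_one (lmap (qu e : MvPolynomial (ℕ × ℕ) k →+* Buniv e)), ← map_sub]
      ext i
      exact qu_eq_zero e (Ideal.subset_span (Or.inl ⟨i, rfl⟩)))
    (fun a j => by
      rw [← lmap_dif]
      ext i
      exact qu_eq_zero e (Ideal.subset_span (Or.inr ⟨a, j, i, rfl⟩)))

theorem uniW_wb (j : ℕ) : (uniW e).wb j =
    lmap (qu e : MvPolynomial (ℕ × ℕ) k →+* Buniv e) (mser cgen j) := WPt.ofFam_wb e _ _ _ _ j

theorem uniW_cf (j i : ℕ) : (uniW e).cf j i = qu e (MvPolynomial.X (j, i)) := by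
  rw [WPt.cf, uniW_wb, lmap_coeff, mser_coeff]
  rfl

variable {e} {R : Type u} [CommRing R] [Algebra k R]

/-- the evaluation of the generic coefficients at a point -/
def WPt.ev (P : WPt e R) : MvPolynomial (ℕ × ℕ) k →ₐ[k] R :=
  MvPolynomial.aeval fun ji => P.cf ji.1 ji.2

theorem WPt.ev_mser (P : WPt e R) (j : ℕ) :
    lmap (P.ev : MvPolynomial (ℕ × ℕ) k →+* R) (mser cgen j) = P.wb j := by
  rw [lmap_mser, P.wb_eq_mser]
  congr 1
  funext j i
  exact MvPolynomial.aeval_X _ _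

theorem WPt.ev_relI (P : WPt e R) (x : MvPolynomial (ℕ × ℕ) k) (hx : x ∈ relI e) :
    P.ev x = 0 := by
  have h : relI e ≤ RingHom.ker (P.ev : MvPolynomial (ℕ × ℕ) k →+* R) := by
    rw [relI, Ideal.span_le]
    rintro x (⟨i, rfl⟩ | ⟨a, j, i, rfl⟩)
    · change (P.ev : MvPolynomial (ℕ × ℕ) k →+* R) _ = 0
      rw [← lmap_coeff, map_sub, map_one, P.ev_mser, P.wb_zero, sub_self]
      rfl
    · change (P.ev : MvPolynomial (ℕ × ℕ) k →+* R) _ = 0
      rw [← lmap_coeff, lmap_dif]
      have : (fun l => lmap (P.ev : MvPolynomial (ℕ × ℕ) k →+* R) (mser cgen l)) = P.wb :=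
        funext P.ev_mser
      rw [this, P.dif_wb]
      rfl
  exact h hx

/-- the classifying map of a point of the chart -/
def WPt.cl (P : WPt e R) : Buniv e →ₐ[k] R :=
  Ideal.Quotient.liftₐ (relI e) P.ev P.ev_relI

theorem WPt.cl_qu (P : WPt e R) (x : MvPolynomial (ℕ × ℕ) k) : P.cl (qu e x) = P.ev x := rfl

theorem WPt.cl_cf (P : WPt e R) (j i : ℕ) : P.cl ((uniW e).cf j i) = P.cf j i := by
  rw [uniW_cf, cl_qu]
  exact MvPolynomial.aeval_X _ _

theorem WPt.map_cl (P : WPt e R) : (uniW e).map P.cl = P :=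
  WPt.ext_cf fun j i => by rw [WPt.map_cf, P.cl_cf]

theorem uniW_hom_ext {f g : Buniv e →ₐ[k] R} (h : ∀ j i, f ((uniW e).cf j i) = g ((uniW e).cf j i)) :
    f = g := by
  have h1 : f.comp (qu e) = g.comp (qu e) := by
    apply MvPolynomial.algHom_ext
    rintro ⟨j, i⟩
    have := h j i
    rw [uniW_cf] at this
    exact this
  apply AlgHom.ext
  intro x
  obtain ⟨y, rfl⟩ := qu_surjective e x
  exact DFunLike.congr_fun h1 y

theorem cl_map (f : Buniv e →ₐ[k] R) : ((uniW e).map f).cl = f :=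
  uniW_hom_ext fun j i => by rw [WPt.cl_cf, WPt.map_cf]

/-- **representability of the chart** -/
def homEquiv : (Buniv e →ₐ[k] R) ≃ WPt e R where
  toFun f := (uniW e).map f
  invFun P := P.cl
  left_inv f := cl_map f
  right_inv P := P.map_cl

end Univ

end Fermat.Agent.J25
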