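import Mathlib
import Fermat.Agent.J25.Chart

/-!
# The expansion of `R ⊗ A`
-/

set_option autoImplicit false

noncomputable section

namespace Fermat.Agent.J25

attribute [-instance] HahnSeries.powerSeriesAlgebra

open HahnSeries
open scoped TensorProduct

universe u

section

variable {k : Type u} [Field k] {A : Type u} [CommRing A] [Algebra k A]
  (e : A →ₐ[k] LaurentSeries k) (R : Type u) [CommRing R] [Algebra k R]

/-- the expansion of `R ⊗ A` -/
def exR : R ⊗[k] A →ₐ[R] LaurentSeries R :=
  Algebra.TensorProduct.lift (Algebra.ofId R (LaurentSeries R)) (ex e R) fun _ _ => Commute.all _ _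

variable {R}

theorem algebraMap_mul_eq_smul (r : R) (x : LaurentSeries R) :
    algebraMap R (LaurentSeries R) r * x = r • x := (Algebra.smul_def r x).symm

@[simp] theorem exR_tmul (r : R) (a : A) : exR e R (r ⊗ₜ a) = r • ex e R a := by
  rw [exR, Algebra.TensorProduct.lift_tmul]
  exact algebraMap_mul_eq_smul _ _

variable {S : Type u} [CommRing S] [Algebra k S]

theorem lmap_exR (f : R →ₐ[k] S) (x : R ⊗[k] A) :
    lmap (f : R →+* S) (exR e R x) =
      exR e S (Algebra.TensorProduct.map f (AlgHom.id k A) x) := by
  induction x using TensorProduct.induction_on with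
  | zero => simp
  | tmul r a =>
    rw [exR_tmul, lmap_smul, lmap_ex, Algebra.TensorProduct.map_tmul, exR_tmul]
    rfl
  | add x y hx hy => rw [map_add, map_add, map_add, map_add, hx, hy]

theorem smul_ex_coeff (r : R) (a : A) (i : ℤ) :
    (r • ex e R a).coeff i = (e a).coeff i • r := by
  rw [HahnSeries.coeff_smul, ex_apply, lmap_coeff, smul_eq_mul, mul_comm, Algebra.smul_def]

/-- `R ⊗ A` embeds in the Laurent series -/
theorem exR_injective (he : Function.Injective e) : Function.Injective (exR e R) := by
  rw [injective_iff_map_eq_zero]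
  classical
  intro x hx
  let b := Module.Basis.ofVectorSpace k R
  obtain ⟨s, c, rfl⟩ : ∃ (s : Finset _) (c : _ → A), x = ∑ i ∈ s, b i ⊗ₜ[k] c i := by
    refine ⟨(TensorProduct.equivFinsuppOfBasisLeft b x).support,
      TensorProduct.equivFinsuppOfBasisLeft b x, ?_⟩
    conv_lhs => rw [← (TensorProduct.equivFinsuppOfBasisLeft b).symm_apply_apply x]
    rw [TensorProduct.equivFinsuppOfBasisLeft_symm_apply]
    rfl
  have h : ∀ n : ℤ, ∑ i ∈ s, (e (c i)).coeff n • b i = 0 := by
    intro n
    have h1 := congrArg (fun f : LaurentSeries R => f.coeff n) hx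
    beta_reduce at h1
    rw [map_sum, HahnSeries.coeff_sum] at h1
    simp only [exR_tmul, smul_ex_coeff] at h1
    exact h1
  refine Finset.sum_eq_zero fun i hi => ?_
  have : c i = 0 := by
    apply he
    rw [map_zero]
    ext n
    exact linearIndependent_iff'.mp b.linearIndependent s _ (h n) i hi
  rw [this, TensorProduct.tmul_zero]

end

section Mod

variable {k : Type u} [Field k] {A : Type u} [CommRing A] [Algebra k A]
  {e : A →ₐ[k] LaurentSeries k} {R : Type u} [CommRing R] [Algebra k R] (P : WPt e R)

theorem WPt.exR_mul_mem (x : R ⊗[k] A) {m : LaurentSeries R} (hm : m ∈ P.M) :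
    exR e R x * m ∈ P.M := by
  induction x using TensorProduct.induction_on with
  | zero => rw [map_zero, zero_mul]; exact P.M.zero_mem
  | tmul r a =>
    rw [exR_tmul, smul_mul_assoc]
    exact P.M.smul_mem _ (P.stab a m hm)
  | add x y hx hy => rw [map_add, add_mul]; exact P.M.add_mem hx hy

theorem WPt.exR_mem (x : R ⊗[k] A) : exR e R x ∈ P.M := by
  have := P.exR_mul_mem x P.one_mem
  rwa [mul_one] at this

/-- the type of elements of a point of the chart -/
def WPt.Carrier : Type u := P.M

instance : AddCommGroup P.Carrier := inferInstanceAs (AddCommGroup P.M)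

instance : Module R P.Carrier := inferInstanceAs (Module R P.M)

/-- the inclusion in the Laurent series -/
def WPt.incl : P.Carrier →ₗ[R] LaurentSeries R := P.M.subtype

theorem WPt.incl_injective : Function.Injective P.incl := Subtype.val_injective

theorem WPt.incl_mem (x : P.Carrier) : P.incl x ∈ P.M := x.2

/-- an element of the point -/
def WPt.elt (x : LaurentSeries R) (hx : x ∈ P.M) : P.Carrier := ⟨x, hx⟩

@[simp] theorem WPt.incl_elt (x : LaurentSeries R) (hx : x ∈ P.M) : P.incl (P.elt x hx) = x := rfl

instance : Module (R ⊗[k] A) P.Carrier where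
  smul x m := P.elt (exR e R x * P.incl m) (P.exR_mul_mem x (P.incl_mem m))
  one_smul m := P.incl_injective (by
    change exR e R 1 * P.incl m = _
    rw [map_one, one_mul])
  mul_smul x y m := P.incl_injective (by
    change exR e R (x * y) * P.incl m = exR e R x * (exR e R y * P.incl m)
    rw [map_mul, mul_assoc])
  smul_zero x := P.incl_injective (by
    change exR e R x * P.incl 0 = P.incl 0
    rw [map_zero, mul_zero])
  smul_add x m n := P.incl_injective (by
    change exR e R x * P.incl (m + n) = exR e R x * P.incl m + exR e R x * P.incl n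
    rw [map_add, mul_add])
  add_smul x y m := P.incl_injective (by
    change exR e R (x + y) * P.incl m = exR e R x * P.incl m + exR e R y * P.incl m
    rw [map_add, add_mul])
  zero_smul m := P.incl_injective (by
    change exR e R 0 * P.incl m = P.incl 0
    rw [map_zero, zero_mul, map_zero])

theorem WPt.incl_smul (x : R ⊗[k] A) (m : P.Carrier) :
    P.incl (x • m) = exR e R x * P.incl m := rfl

instance : IsScalarTower R (R ⊗[k] A) P.Carrier where
  smul_assoc r x m := P.incl_injective (by
    rw [P.incl_smul, map_smul, map_smul, P.incl_smul, smul_mul_assoc])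

/-- the basis of a point of the chart over `R` -/
def WPt.basis : Module.Basis ℕ R P.Carrier :=
  Module.Basis.mk (v := fun j => P.elt (P.wb j) (P.wb_mem j)) (by
    rw [linearIndependent_iff]
    intro c hc
    have h := congrArg P.incl hc
    rw [map_zero, Finsupp.linearCombination_apply, Finsupp.sum, map_sum] at h
    simp only [map_smul, WPt.incl_elt] at h
    ext l
    rw [← linComb_coeff P.wb_sub c l, Finsupp.linearCombination_apply, Finsupp.sum, h]
    rfl) (by
    intro x _
    obtain ⟨n, hn⟩ := exists_mem_LV (P.incl x)
    have h := P.eq_sum (P.incl_mem x) hn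
    have h2 : x = ∑ l ∈ Finset.range (n + 1),
        (P.incl x).coeff (-(l : ℤ)) • P.elt (P.wb l) (P.wb_mem l) := by
      apply P.incl_injective
      rw [map_sum]
      simp only [map_smul, WPt.incl_elt]
      exact h
    rw [h2]
    exact Submodule.sum_mem _ fun l _ => Submodule.smul_mem _ _ (Submodule.subset_span ⟨l, rfl⟩))

theorem WPt.incl_basis (j : ℕ) : P.incl (P.basis j) = P.wb j := by
  rw [WPt.basis, Module.Basis.mk_apply, WPt.incl_elt]

end Mod

end Fermat.Agent.J25
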