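import Mathlib
import Fermat.Agent.J25.Basic
import Fermat.Prelude.Def_AlgebraicGeometry_RelativePicardFunctor

/-!
# S25: common definitions (lattices over `A_R`, the geometric datum of the curve)
-/

set_option autoImplicit false

noncomputable section

universe u v w

open CategoryTheory CategoryTheory.Limits AlgebraicGeometry TensorProduct NeronModelInfra

namespace Fermat.Agent.J25

attribute [-instance] HahnSeries.powerSeriesAlgebra

section Alg

variable {k : Type u} [Field k] {A : Type u} [CommRing A] [Algebra k A]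
variable (e : A →ₐ[k] LaurentSeries k)
variable (R : Type u) [CommRing R] [Algebra k R]
variable (S : Type u) [CommRing S] [Algebra k S]

/-- the coefficientwise map as a map of `k`-algebras -/
def lmapA {R S : Type u} [CommRing R] [Algebra k R] [CommRing S] [Algebra k S] (f : R →ₐ[k] S) :
    LaurentSeries R →ₐ[k] LaurentSeries S :=
  { lmap (f : R →+* S) with
    commutes' := fun c => by
      change lmap (f : R →+* S) (HahnSeries.single 0 (algebraMap k R c)) =
        HahnSeries.single 0 (algebraMap k S c)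
      rw [lmap_single]
      congr 1
      exact f.commutes c }

@[simp] theorem lmapA_coeff {R S : Type u} [CommRing R] [Algebra k R] [CommRing S] [Algebra k S]
    (f : R →ₐ[k] S) (x : LaurentSeries R) (i : ℤ) : (lmapA f x).coeff i = f (x.coeff i) := rfl

theorem lmapA_eq {R S : Type u} [CommRing R] [Algebra k R] [CommRing S] [Algebra k S]
    (f : R →ₐ[k] S) (x : LaurentSeries R) : lmapA f x = lmap (f : R →+* S) x := rfl

theorem ex_coeff (x : A) (i : ℤ) : (ex e R x).coeff i = algebraMap k R ((e x).coeff i) := rfl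

/-- `A_R` as a subring of `R((z))` -/
def AR : Subalgebra R (LaurentSeries R) := (exR e R).range

theorem ex_mem_AR (x : A) : ex e R x ∈ AR e R := ⟨1 ⊗ₜ x, by
  change exR e R (1 ⊗ₜ x) = _
  rw [exR_tmul, one_smul]⟩

/-- the value at `a` of a polynomial over `R`, as a Laurent series -/
def pev (a : A) (P : Polynomial R) : LaurentSeries R := Polynomial.aeval (ex e R a) P

variable {R} in
/-- The group `G(R)` of invertible fractional ideals of `A_R` in `R((z))` which are trivial on
`{P(a) ≠ 0} ∪ {∞}` for some monic `P`. -/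
def G (a : A) : Subgroup (Submodule (AR e R) (LaurentSeries R))ˣ where
  carrier := {M | ∃ P : Polynomial R, P.Monic ∧
    (∀ m ∈ (M : Submodule (AR e R) (LaurentSeries R)), pev e R a P * m ∈ AR e R) ∧
    ∀ m ∈ ((M⁻¹ : (Submodule (AR e R) (LaurentSeries R))ˣ) :
      Submodule (AR e R) (LaurentSeries R)), pev e R a P * m ∈ AR e R}
  mul_mem' := by
    rintro M N ⟨P, hP, hM, hM'⟩ ⟨Q, hQ, hN, hN'⟩
    refine ⟨P * Q, hP.mul hQ, fun m hm => ?_, fun m hm => ?_⟩
    · rw [Units.val_mul] at hm
      induction hm using Submodule.mul_induction_on' with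
      | mem_mul_mem m hm n hn =>
        have : pev e R a (P * Q) * (m * n) = (pev e R a P * m) * (pev e R a Q * n) := by
          rw [pev, map_mul]
          unfold pev
          ring
        rw [this]
        exact mul_mem (hM m hm) (hN n hn)
      | add m _ n _ hm hn =>
        rw [mul_add]
        exact add_mem hm hn
    · rw [mul_inv_rev, Units.val_mul] at hm
      induction hm using Submodule.mul_induction_on' with
      | mem_mul_mem m hm n hn =>
        have : pev e R a (P * Q) * (m * n) = (pev e R a P * n) * (pev e R a Q * m) := by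
          rw [pev, map_mul]
          unfold pev
          ring
        rw [this]
        exact mul_mem (hM' n hn) (hN' m hm)
      | add m _ n _ hm hn =>
        rw [mul_add]
        exact add_mem hm hn
  one_mem' := by
    refine ⟨1, Polynomial.monic_one, fun m hm => ?_, fun m hm => ?_⟩
    · rw [Units.val_one, Submodule.mem_one] at hm
      obtain ⟨y, rfl⟩ := hm
      rw [pev, map_one, one_mul]
      exact y.2
    · rw [inv_one, Units.val_one, Submodule.mem_one] at hm
      obtain ⟨y, rfl⟩ := hm
      rw [pev, map_one, one_mul]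
      exact y.2
  inv_mem' := by
    rintro M ⟨P, hP, hM, hM'⟩
    exact ⟨P, hP, hM', by rwa [inv_inv]⟩

variable {e R}

/-- the underlying `R`-submodule of `R((z))` of an element of `G(R)` -/
def G.sub {a : A} (M : G e (R := R) a) : Submodule R (LaurentSeries R) :=
  ((M : (Submodule (AR e R) (LaurentSeries R))ˣ) :
    Submodule (AR e R) (LaurentSeries R)).restrictScalars R

theorem G.mem_sub {a : A} {M : G e (R := R) a} {x : LaurentSeries R} :
    x ∈ G.sub M ↔ x ∈ ((M : (Submodule (AR e R) (LaurentSeries R))ˣ) :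
      Submodule (AR e R) (LaurentSeries R)) := Iff.rfl

theorem G.mem_one {a : A} {x : LaurentSeries R} : x ∈ G.sub (1 : G e (R := R) a) ↔ x ∈ AR e R := by
  rw [G.mem_sub, OneMemClass.coe_one, Units.val_one, Submodule.mem_one]
  exact ⟨fun ⟨y, hy⟩ => hy ▸ y.2, fun h => ⟨⟨x, h⟩, rfl⟩⟩

theorem G.ext {a : A} {M N : G e (R := R) a} (h : G.sub M = G.sub N) : M = N := by
  apply Subtype.ext
  apply Units.ext
  exact Submodule.restrictScalars_injective R _ _ h

theorem G.smul_mem {a : A} {M : G e (R := R) a} {x y : LaurentSeries R} (hx : x ∈ AR e R)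
    (hy : y ∈ G.sub M) : x * y ∈ G.sub M :=
  Submodule.smul_mem _ (⟨x, hx⟩ : AR e R) hy

theorem G.mul_mem_mul {a : A} {M N : G e (R := R) a} {x y : LaurentSeries R} (hx : x ∈ G.sub M)
    (hy : y ∈ G.sub N) : x * y ∈ G.sub (M * N) := by
  rw [G.mem_sub] at hx hy ⊢
  rw [MulMemClass.coe_mul, Units.val_mul]
  exact Submodule.mul_mem_mul hx hy

theorem G.sub_mul {a : A} (M N : G e (R := R) a) : G.sub (M * N) = G.sub M * G.sub N := by
  apply le_antisymm
  · intro x hx
    have hx' : x ∈ ((M : (Submodule (AR e R) (LaurentSeries R))ˣ) :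
      Submodule (AR e R) (LaurentSeries R)) * ((N : (Submodule (AR e R) (LaurentSeries R))ˣ) :
      Submodule (AR e R) (LaurentSeries R)) := hx
    induction hx' using Submodule.mul_induction_on' with
    | mem_mul_mem m hm n hn => exact Submodule.mul_mem_mul (M := G.sub M) (N := G.sub N) hm hn
    | add m hm n hn hm' hn' => exact add_mem (hm' hm) (hn' hn)
  · rw [Submodule.mul_le]
    intro m hm n hn
    exact G.mul_mem_mul hm hn

theorem lmap_pev (f : R →ₐ[k] S) (a : A) (P : Polynomial R) :
    lmap (f : R →+* S) (pev e R a P) = pev e S a (P.map (f : R →+* S)) := by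
  unfold pev
  rw [Polynomial.aeval_def, Polynomial.aeval_def, Polynomial.hom_eval₂, Polynomial.eval₂_map]
  congr 1
  · ext r : 1
    change lmap (f : R →+* S) (HahnSeries.single 0 r) = HahnSeries.single 0 (f r)
    rw [lmap_single]
    rfl
  · ext i
    rw [lmap_coeff, ex_coeff, ex_coeff]
    exact f.commutes _

theorem lmap_mem_AR (f : R →ₐ[k] S) {x : LaurentSeries R} (hx : x ∈ AR e R) :
    lmap (f : R →+* S) x ∈ AR e S := by
  obtain ⟨t, rfl⟩ := hx
  induction t using TensorProduct.induction_on with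
  | zero => simp
  | tmul r y =>
    change lmap (f : R →+* S) (exR e R (r ⊗ₜ y)) ∈ _
    rw [exR_tmul, lmap_smul]
    have : lmap (f : R →+* S) (ex e R y) = ex e S y := by
      ext i
      rw [lmap_coeff, ex_coeff, ex_coeff]
      exact f.commutes _
    rw [this]
    exact Subalgebra.smul_mem _ (ex_mem_AR e S y) _
  | add x y hx hy =>
    change lmap (f : R →+* S) (exR e R (x + y)) ∈ _
    rw [map_add, map_add]
    exact add_mem hx hy

/-- base change of `A_R`-submodules of `R((z))` -/
def bcS (e : A →ₐ[k] LaurentSeries k) (f : R →ₐ[k] S)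
    (M : Submodule (AR e R) (LaurentSeries R)) : Submodule (AR e S) (LaurentSeries S) :=
  Submodule.span (AR e S) (lmap (f : R →+* S) '' (M : Set (LaurentSeries R)))

theorem bcS_mul (f : R →ₐ[k] S) (M N : Submodule (AR e R) (LaurentSeries R)) :
    bcS S e f (M * N) = bcS S e f M * bcS S e f N := by
  apply le_antisymm
  · refine Submodule.span_le.mpr ?_
    rintro _ ⟨x, hx, rfl⟩
    induction hx using Submodule.mul_induction_on' with
    | mem_mul_mem m hm n hn =>
      rw [map_mul]
      exact Submodule.mul_mem_mul (Submodule.subset_span ⟨m, hm, rfl⟩)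
        (Submodule.subset_span ⟨n, hn, rfl⟩)
    | add m _ n _ hm hn =>
      rw [map_add]
      exact add_mem hm hn
  · unfold bcS
    rw [Submodule.span_mul_span]
    refine Submodule.span_mono ?_
    rintro _ ⟨_, ⟨m, hm, rfl⟩, _, ⟨n, hn, rfl⟩, rfl⟩
    exact ⟨m * n, Submodule.mul_mem_mul hm hn, map_mul _ _ _⟩

theorem bcS_one (f : R →ₐ[k] S) : bcS S e f 1 = 1 := by
  apply le_antisymm
  · refine Submodule.span_le.mpr ?_
    rintro _ ⟨x, hx, rfl⟩
    obtain ⟨y, rfl⟩ := Submodule.mem_one.mp hx
    exact Submodule.mem_one.mpr ⟨⟨_, lmap_mem_AR S f y.2⟩, rfl⟩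
  · rw [Submodule.one_le]
    exact Submodule.subset_span ⟨1, Submodule.one_le.mp le_rfl, map_one _⟩

/-- base change as a monoid homomorphism -/
def bcHom (e : A →ₐ[k] LaurentSeries k) (f : R →ₐ[k] S) :
    Submodule (AR e R) (LaurentSeries R) →* Submodule (AR e S) (LaurentSeries S) where
  toFun := bcS S e f
  map_one' := bcS_one S f
  map_mul' := bcS_mul S f

variable {S}

theorem pev_mul_mem_bcS (f : R →ₐ[k] S) {a : A} {P : Polynomial R}
    {M : Submodule (AR e R) (LaurentSeries R)} (h : ∀ m ∈ M, pev e R a P * m ∈ AR e R) :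
    ∀ m ∈ bcS S e f M, pev e S a (P.map (f : R →+* S)) * m ∈ AR e S := by
  intro m hm
  refine Submodule.span_induction (p := fun m _ => pev e S a (P.map (f : R →+* S)) * m ∈ AR e S)
    ?_ ?_ ?_ ?_ hm
  · rintro _ ⟨m, hm, rfl⟩
    rw [← lmap_pev, ← map_mul]
    exact lmap_mem_AR S f (h m hm)
  · rw [mul_zero]
    exact zero_mem _
  · intro x y _ _ hx hy
    rw [mul_add]
    exact add_mem hx hy
  · intro c x _ hx
    rw [Subalgebra.smul_def, smul_eq_mul, mul_left_comm]
    exact mul_mem c.2 hx

/-- base change `G(R) → G(S)` -/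
def bc {a : A} (f : R →ₐ[k] S) : G e (R := R) a →* G e (R := S) a :=
  ((Units.map (bcHom S e f)).comp (G e a).subtype).codRestrict (G e a) (by
    rintro ⟨M, P, hP, hM, hM'⟩
    refine ⟨P.map (f : R →+* S), hP.map _, ?_, ?_⟩
    · exact pev_mul_mem_bcS f hM
    · have : ((((Units.map (bcHom S e f)).comp (G e a).subtype) ⟨M, P, hP, hM, hM'⟩)⁻¹ :
        (Submodule (AR e S) (LaurentSeries S))ˣ) = Units.map (bcHom S e f) M⁻¹ := by
          rw [map_inv]; rfl
      rw [this]
      exact pev_mul_mem_bcS f hM')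

theorem bc_val {a : A} (f : R →ₐ[k] S) (M : G e (R := R) a) :
    ((bc f M : (Submodule (AR e S) (LaurentSeries S))ˣ) :
      Submodule (AR e S) (LaurentSeries S)) = bcS S e f M.1 := rfl

/-- the base change is the `S`-span of the image -/
theorem bc_sub {a : A} (f : R →ₐ[k] S) (M : G e (R := R) a) :
    G.sub (bc f M) = Submodule.span S (lmap (f : R →+* S) '' (G.sub M : Set (LaurentSeries R))) := by
  apply le_antisymm
  · intro x hx
    rw [G.mem_sub, bc_val] at hx
    refine Submodule.span_induction (p := fun m _ => m ∈ Submodule.span S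
      (lmap (f : R →+* S) '' (G.sub M : Set (LaurentSeries R)))) ?_ ?_ ?_ ?_ hx
    · intro y hy
      exact Submodule.subset_span hy
    · exact zero_mem _
    · intro x y _ _ hx hy
      exact add_mem hx hy
    · rintro ⟨c, t, rfl⟩ x _ hx
      rw [Subalgebra.smul_def, smul_eq_mul]
      refine Submodule.span_induction (p := fun x _ => (exR e S t) * x ∈ Submodule.span S
        (lmap (f : R →+* S) '' (G.sub M : Set (LaurentSeries R)))) ?_ ?_ ?_ ?_ hx
      · rintro _ ⟨m, hm, rfl⟩
        induction t using TensorProduct.induction_on with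
        | zero => rw [map_zero, zero_mul]; exact zero_mem _
        | tmul r y =>
          rw [exR_tmul, smul_mul_assoc]
          refine Submodule.smul_mem _ _ (Submodule.subset_span ⟨ex e R y * m, ?_, ?_⟩)
          · exact G.smul_mem (ex_mem_AR e R y) hm
          · rw [map_mul]
            congr 1
            ext i
            rw [lmap_coeff, ex_coeff, ex_coeff]
            exact f.commutes _
        | add x y hx hy =>
          rw [map_add, add_mul]
          exact add_mem hx hy
      · rw [mul_zero]; exact zero_mem _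
      · intro x y _ _ hx hy
        rw [mul_add]; exact add_mem hx hy
      · intro c x _ hx
        rw [mul_smul_comm]
        exact Submodule.smul_mem _ _ hx
  · refine Submodule.span_le.mpr ?_
    intro y hy
    exact Submodule.subset_span hy

/-- membership in the group of series `u = r + ...` with `r` a unit -/
def IsU (u : LaurentSeries R) : Prop := u ∈ LV R 0 ∧ IsUnit (u.coeff 0)

/-- `h⁰(M(-∞))` -/
def hZ {K : Type u} [Field K] (M : Submodule K (LaurentSeries K)) : ℕ :=
  Module.finrank K (M ⊓ LV K 1 : Submodule K (LaurentSeries K))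

/-- `h¹(M(-∞))` -/
def hI {K : Type u} [Field K] (M : Submodule K (LaurentSeries K)) : ℕ :=
  Module.finrank K (LaurentSeries K ⧸ (M ⊔ LV K 1))

/-- `χ(M(-∞))` -/
def chi {K : Type u} [Field K] (M : Submodule K (LaurentSeries K)) : ℤ := hZ M - hI M

/-- `M` has degree zero -/
def IsDegZero {K : Type u} [Field K] [Algebra k K] {a : A} (M : G e (R := K) a) : Prop :=
  chi (G.sub M) = chi (G.sub (1 : G e (R := K) a))

end Alg

section Geom

/-- the structure map of `Spec R` for a `k`-algebra `R` -/
abbrev sS (k R : Type u) [CommRing k] [CommRing R] [Algebra k R] :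
    Spec (CommRingCat.of R) ⟶ Spec (CommRingCat.of k) :=
  Spec.map (CommRingCat.ofHom (algebraMap k R))

/-- `Spec f` for a map of `k`-algebras -/
def sH {k R S : Type u} [CommRing k] [CommRing R] [Algebra k R] [CommRing S] [Algebra k S]
    (f : R →ₐ[k] S) : SchemeHomOver (sS k S) (sS k R) :=
  ⟨Spec.map (CommRingCat.ofHom (f : R →+* S)), by
    rw [← Spec.map_comp, ← CommRingCat.ofHom_comp, AlgHom.comp_algebraMap]⟩

/-- the geometric datum: `U = C ∖ ∞ = Spec A`, `V = Spec B ∋ ∞`, `U ∩ V = Spec D`,
`D = A[1/a] = B[1/w]`, and the expansion `D → k((z))` at `∞`. -/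
structure Geo {k : Type u} [Field k] {C : Scheme.{u}} (c : C ⟶ Spec (CommRingCat.of k))
    (ε : SchemeHomOver (𝟙 (Spec (CommRingCat.of k))) c) : Type (u + 1) where
  A : Type u
  B : Type u
  D : Type u
  [crA : CommRing A]
  [crB : CommRing B]
  [crD : CommRing D]
  [alA : Algebra k A]
  [alB : Algebra k B]
  [alD : Algebra k D]
  [alAD : Algebra A D]
  [alBD : Algebra B D]
  [tA : IsScalarTower k A D]
  [tB : IsScalarTower k B D]
  a : A
  w : B
  [locA : IsLocalization.Away a D]
  [locB : IsLocalization.Away w D]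
  haw : algebraMap A D a * algebraMap B D w = 1
  jA : Spec (CommRingCat.of A) ⟶ C
  jB : Spec (CommRingCat.of B) ⟶ C
  [oA : IsOpenImmersion jA]
  [oB : IsOpenImmersion jB]
  jA_c : jA ≫ c = sS k A
  jB_c : jB ≫ c = sS k B
  pb : IsPullback (Spec.map (CommRingCat.ofHom (algebraMap A D)))
    (Spec.map (CommRingCat.ofHom (algebraMap B D))) jA jB
  cover : ∀ x : C, x ∈ Set.range jA.base ∨ x ∈ Set.range jB.base
  eD : D →ₐ[k] LaurentSeries k
  injA : Function.Injective fun x : A => eD (algebraMap A D x)
  injB : Function.Injective fun x : B => eD (algebraMap B D x)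
  eB_mem : ∀ b : B, eD (algebraMap B D b) ∈ LV k 0
  approx : ∀ (n : ℤ) (f : LaurentSeries k), f ∈ LV k 0 →
    ∃ b : B, f - eD (algebraMap B D b) ∈ LV k n
  d : ℕ
  hd : 0 < d
  ea_mem : eD (algebraMap A D a) ∈ LV k (-(d : ℤ))
  ea_coeff : (eD (algebraMap A D a)).coeff (-(d : ℤ)) = 1
  eB_dvd : ∀ b : B, eD (algebraMap B D b) ∈ LV k d → w ∣ b
  finA : (Polynomial.aeval (R := k) a).toRingHom.Finite
  finB : (Polynomial.aeval (R := k) w).toRingHom.Finite
  H0 : ∀ x : A, eD (algebraMap A D x) ∈ LV k 0 → ∃ r : k, x = algebraMap k A r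
  H1 : Module.Finite k (LaurentSeries k ⧸
    (LinearMap.range (eD.comp (IsScalarTower.toAlgHom k A D)).toLinearMap ⊔ LV k 1))
  diag : Module.Invertible (A ⊗[k] A)
    (RingHom.ker (Algebra.TensorProduct.lmul' k : A ⊗[k] A →ₐ[k] A))
  diagB : Module.Invertible (B ⊗[k] B)
    (RingHom.ker (Algebra.TensorProduct.lmul' k : B ⊗[k] B →ₐ[k] B))
  ded : ∀ (κ : Type u) [Field κ] [Algebra k κ], IsDedekindDomain (κ ⊗[k] A)
  aug : B →ₐ[k] k
  aug_eq : ∀ b : B, aug b = (eD (algebraMap B D b)).coeff 0
  ε_eq : ε.1 = Spec.map (CommRingCat.ofHom (aug : B →+* k)) ≫ jB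

attribute [instance] Geo.crA Geo.crB Geo.crD Geo.alA Geo.alB Geo.alD Geo.alAD Geo.alBD Geo.tA
  Geo.tB Geo.locA Geo.locB Geo.oA Geo.oB

variable {k : Type u} [Field k] {C : Scheme.{u}} {c : C ⟶ Spec (CommRingCat.of k)}
    {ε : SchemeHomOver (𝟙 (Spec (CommRingCat.of k))) c}

/-- the expansion `A → k((z))` -/
def Geo.e (g : Geo c ε) : g.A →ₐ[k] LaurentSeries k :=
  g.eD.comp (IsScalarTower.toAlgHom k g.A g.D)

/-- `C_R` -/
abbrev CR (c : C ⟶ Spec (CommRingCat.of k)) (R : Type u) [CommRing R] [Algebra k R] :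
    Scheme.{u} := pullback c (sS k R)

/-- the section `∞_R` of `C_R` -/
abbrev secR (c : C ⟶ Spec (CommRingCat.of k)) (ε : SchemeHomOver (𝟙 (Spec (CommRingCat.of k))) c)
    (R : Type u) [CommRing R] [Algebra k R] : Spec (CommRingCat.of R) ⟶ CR c R :=
  RelPicard.rigSection c (sS k R) ε

/-- the base change map `C_S ⟶ C_R` -/
abbrev mR (c : C ⟶ Spec (CommRingCat.of k)) {R S : Type u} [CommRing R] [Algebra k R]
    [CommRing S] [Algebra k S] (f : R →ₐ[k] S) : CR c S ⟶ CR c R :=
  RelPicard.baseChangeSnd c (sH f)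

end Geom

end Fermat.Agent.J25
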