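import Mathlib
import Fermat.Agent.J25.CutB
import Fermat.Agent.J25.Hub

/-!
# Normalisation of classes along the section, geometric points
-/

set_option autoImplicit false

universe u

open CategoryTheory CategoryTheory.Limits AlgebraicGeometry TopologicalSpace Opposite
open AlgebraicGeometry.RelPicard NeronModelInfra

noncomputable section

namespace Fermat.Agent.J25.Cut

section subsingleton

/-- there are no nontrivial classes on a scheme with one point -/
theorem PicC.eq_one_of_subsingleton {X : Scheme.{u}} [Subsingleton X] (l : PicC X) : l = 1 := by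
  obtain ⟨c, rfl⟩ := PicC.mk_surjective l
  rw [PicC.mk_eq_one]
  refine ⟨fun _ => 1, fun x y V hx hy => ?_⟩
  obtain rfl : x = y := Subsingleton.elim _ _
  rw [c.gg_self, map_one, inv_one, one_mul]

instance subsingleton_spec_field (K : Type u) [Field K] :
    Subsingleton (Spec (CommRingCat.of K)) :=
  inferInstanceAs (Subsingleton (PrimeSpectrum K))

end subsingleton

section nrm

variable {k : Type u} [CommRing k] {C : Scheme.{u}} (c : C ⟶ Spec (CommRingCat.of k))
  (ε : SchemeHomOver (𝟙 (Spec (CommRingCat.of k))) c)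

theorem rigSection_snd {T : Scheme.{u}} (t : T ⟶ Spec (CommRingCat.of k)) :
    rigSection c t ε ≫ pullback.snd c t = 𝟙 T := by
  rw [rigSection, pullback.lift_snd]

/-- normalisation of a class along the section -/
def nrm {T : Scheme.{u}} (t : T ⟶ Spec (CommRingCat.of k)) :
    PicC (pullback c t) →* PicC (pullback c t) where
  toFun l := l * (PicC.map (pullback.snd c t) (PicC.map (rigSection c t ε) l))⁻¹
  map_one' := by rw [map_one, map_one, inv_one, one_mul]
  map_mul' x y := by
    rw [map_mul, map_mul, mul_inv]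
    exact mul_mul_mul_comm _ _ _ _

theorem nrm_apply {T : Scheme.{u}} (t : T ⟶ Spec (CommRingCat.of k)) (l : PicC (pullback c t)) :
    nrm c ε t l = l * (PicC.map (pullback.snd c t) (PicC.map (rigSection c t ε) l))⁻¹ := rfl

/-- the normalised class is trivial along the section -/
theorem map_rigSection_nrm {T : Scheme.{u}} (t : T ⟶ Spec (CommRingCat.of k))
    (l : PicC (pullback c t)) : PicC.map (rigSection c t ε) (nrm c ε t l) = 1 := by
  rw [nrm_apply, map_mul, map_inv, ← PicC.map_comp_apply (rigSection c t ε), rigSection_snd,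
    PicC.map_id_apply, mul_inv_cancel]

theorem nrm_eq_self {T : Scheme.{u}} {t : T ⟶ Spec (CommRingCat.of k)} {l : PicC (pullback c t)}
    (h : PicC.map (rigSection c t ε) l = 1) : nrm c ε t l = l := by
  rw [nrm_apply, h, map_one, inv_one, mul_one]

theorem nrm_eq_self_of_subsingleton {T : Scheme.{u}} [Subsingleton T]
    (t : T ⟶ Spec (CommRingCat.of k)) (l : PicC (pullback c t)) : nrm c ε t l = l :=
  nrm_eq_self c ε (PicC.eq_one_of_subsingleton _)

variable {c}

theorem rst_snd {T T' : Scheme.{u}} {t : T ⟶ Spec (CommRingCat.of k)}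
    {t' : T' ⟶ Spec (CommRingCat.of k)} (φ : SchemeHomOver t' t) (m : PicC T) :
    rst c φ (PicC.map (pullback.snd c t) m) = PicC.map (pullback.snd c t') (PicC.map φ.1 m) := by
  have : baseChangeSnd c φ ≫ pullback.snd c t = pullback.snd c t' ≫ φ.1 := by
    rw [baseChangeSnd, pullback.map, pullback.lift_snd]
  rw [rst, ← PicC.map_comp_apply, this, PicC.map_comp_apply]

theorem map_rigSection_rst {T T' : Scheme.{u}} {t : T ⟶ Spec (CommRingCat.of k)}
    {t' : T' ⟶ Spec (CommRingCat.of k)} (φ : SchemeHomOver t' t) (l : PicC (pullback c t)) :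
    PicC.map (rigSection c t' ε) (rst c φ l) = PicC.map φ.1 (PicC.map (rigSection c t ε) l) := by
  rw [rst, ← PicC.map_comp_apply, rigSection_baseChangeSnd, PicC.map_comp_apply]

/-- normalisation commutes with base change -/
theorem rst_nrm {T T' : Scheme.{u}} {t : T ⟶ Spec (CommRingCat.of k)}
    {t' : T' ⟶ Spec (CommRingCat.of k)} (φ : SchemeHomOver t' t) (l : PicC (pullback c t)) :
    rst c φ (nrm c ε t l) = nrm c ε t' (rst c φ l) := by
  rw [nrm_apply, nrm_apply, map_mul, map_inv, rst_snd, map_rigSection_rst]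

/-- over one point spaces the normalisation does not matter -/
theorem rst_nrm_of_subsingleton {T T' : Scheme.{u}} [Subsingleton T']
    {t : T ⟶ Spec (CommRingCat.of k)}
    {t' : T' ⟶ Spec (CommRingCat.of k)} (φ : SchemeHomOver t' t) (l : PicC (pullback c t)) :
    rst c φ (nrm c ε t l) = rst c φ l := by
  rw [rst_nrm, nrm_eq_self_of_subsingleton]

end nrm

section geometric

/-- every point of a scheme carries a geometric point -/
theorem exists_geometric_point {T : Scheme.{u}} (x : T) :
    ∃ (K : Type u) (_ : Field K) (_ : IsAlgClosed K) (s : Spec (CommRingCat.of K) ⟶ T),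
      ∀ y, s y = x := by
  refine ⟨AlgebraicClosure (T.residueField x), inferInstance, inferInstance,
    Spec.map (CommRingCat.ofHom (algebraMap (T.residueField x)
      (AlgebraicClosure (T.residueField x)))) ≫ T.fromSpecResidueField x, fun y => ?_⟩
  have h : (Spec.map (CommRingCat.ofHom (algebraMap (T.residueField x)
      (AlgebraicClosure (T.residueField x)))) ≫ T.fromSpecResidueField x) y ∈
        Set.range (T.fromSpecResidueField x) := by
    rw [Scheme.Hom.comp_apply]
    exact ⟨_, rfl⟩
  rw [Scheme.range_fromSpecResidueField] at h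
  exact h

/-- a property of geometric points which is locally independent of the point is independent of
the point on connected schemes -/
theorem of_local_const {T : Scheme.{u}} [PreconnectedSpace T]
    (Q : ∀ (K : Type u) [Field K] [IsAlgClosed K], (Spec (CommRingCat.of K) ⟶ T) → Prop)
    (hloc : ∀ x : T, ∃ W : T.Opens, x ∈ W ∧ ∀ (K₀ : Type u) [Field K₀] [IsAlgClosed K₀]
      (s₀ : Spec (CommRingCat.of K₀) ⟶ T) (K₁ : Type u) [Field K₁] [IsAlgClosed K₁]
      (s₁ : Spec (CommRingCat.of K₁) ⟶ T), (∀ y, s₀ y ∈ W) → (∀ y, s₁ y ∈ W) →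
        Q K₀ s₀ → Q K₁ s₁)
    {K₀ : Type u} [Field K₀] [IsAlgClosed K₀] {s₀ : Spec (CommRingCat.of K₀) ⟶ T}
    (h₀ : Q K₀ s₀) (K₁ : Type u) [Field K₁] [IsAlgClosed K₁]
    (s₁ : Spec (CommRingCat.of K₁) ⟶ T) : Q K₁ s₁ := by
  let Z : Set T := {x | ∃ (K : Type u) (_ : Field K) (_ : IsAlgClosed K)
    (s : Spec (CommRingCat.of K) ⟶ T), (∀ y, s y = x) ∧ Q K s}
  have hpt : ∀ (K : Type u) [Field K] (s : Spec (CommRingCat.of K) ⟶ T) (y z), s y = s z :=
    fun K _ s y z => by rw [Subsingleton.elim y z]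
  have hopen : IsOpen Z := by
    rw [isOpen_iff_forall_mem_open]
    rintro x ⟨K, _, _, s, hs, hQ⟩
    obtain ⟨W, hxW, hW⟩ := hloc x
    refine ⟨W, fun y hy => ?_, W.isOpen, hxW⟩
    obtain ⟨K', _, _, s', hs'⟩ := exists_geometric_point y
    exact ⟨K', _, _, s', hs', hW K s K' s' (fun z => by rw [hs]; exact hxW)
      (fun z => by rw [hs']; exact hy) hQ⟩
  have hclosed : IsClosed Z := by
    rw [← isOpen_compl_iff, isOpen_iff_forall_mem_open]
    intro x hx
    obtain ⟨W, hxW, hW⟩ := hloc x
    refine ⟨W, fun y hy hyZ => hx ?_, W.isOpen, hxW⟩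
    obtain ⟨K, _, _, s, hs, hQ⟩ := hyZ
    obtain ⟨K', _, _, s', hs'⟩ := exists_geometric_point x
    exact ⟨K', _, _, s', hs', hW K s K' s' (fun z => by rw [hs]; exact hy)
      (fun z => by rw [hs']; exact hxW) hQ⟩
  have y₀ : Spec (CommRingCat.of K₀) := (⊥ : PrimeSpectrum K₀)
  have y₁ : Spec (CommRingCat.of K₁) := (⊥ : PrimeSpectrum K₁)
  have huniv : Z = Set.univ := by
    refine IsClopen.eq_univ ⟨hclosed, hopen⟩ ⟨s₀ y₀, K₀, _, _, s₀, fun y => hpt _ _ _ _, h₀⟩
  have h1 : s₁ y₁ ∈ Z := by rw [huniv]; trivial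
  obtain ⟨K, _, _, s, hs, hQ⟩ := h1
  obtain ⟨W, hxW, hW⟩ := hloc (s₁ y₁)
  exact hW K s K₁ s₁ (fun z => by rw [hs]; exact hxW)
    (fun z => by rw [hpt _ s₁ z y₁]; exact hxW) hQ

end geometric

end Fermat.Agent.J25.Cut
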