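import Mathlib
import Fermat.Agent.J25.Hub
import Fermat.Agent.J25.PicC

/-!
# S25: the comparison data `PicData` (lattices → classes on `C_R`), degree zero, the functor `F`
-/

set_option autoImplicit false

noncomputable section

universe u v w

open CategoryTheory CategoryTheory.Limits AlgebraicGeometry TensorProduct NeronModelInfra Opposite
open AlgebraicGeometry.RelPicard

namespace Fermat.Agent.J25

attribute [-instance] HahnSeries.powerSeriesAlgebra

section

variable {k : Type u} [Field k] {C : Scheme.{u}} {c : C ⟶ Spec (CommRingCat.of k)}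
    {ε : SchemeHomOver (𝟙 (Spec (CommRingCat.of k))) c}

/-- The comparison between `G(R)` and classes on `C_R` trivial along `∞` (output of WP5). -/
structure PicData (g : Geo c ε) : Type (u + 1) where
  toPic : ∀ (R : Type u) [CommRing R] [Algebra k R], G g.e (R := R) g.a →* PicC (CR c R)
  sec : ∀ (R : Type u) [CommRing R] [Algebra k R] (M : G g.e (R := R) g.a),
    PicC.map (secR c ε R) (toPic R M) = 1
  surj : ∀ (R : Type u) [CommRing R] [Algebra k R] (l : PicC (CR c R)),
    PicC.map (secR c ε R) l = 1 → ∃ M, toPic R M = l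
  ker : ∀ (R : Type u) [CommRing R] [Algebra k R] (M : G g.e (R := R) g.a),
    toPic R M = 1 ↔ ∃ u : LaurentSeries R, IsU u ∧
      ∀ x, x ∈ G.sub M ↔ ∃ y ∈ AR g.e R, x = u * y
  nat : ∀ (R S : Type u) [CommRing R] [Algebra k R] [CommRing S] [Algebra k S] (f : R →ₐ[k] S)
    (M : G g.e (R := R) g.a), toPic S (bc f M) = PicC.map (mR c f) (toPic R M)

variable {g : Geo c ε}

/-- `χ`-degree zero classes over a field -/
def PicData.DegZ (D : PicData g) {K : Type u} [Field K] [Algebra k K] (l : PicC (CR c K)) : Prop :=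
  ∃ M : G g.e (R := K) g.a, D.toPic K M = l ∧ IsDegZero M

/-- degree zero at all geometric points -/
def PicData.Deg0 (D : PicData g) {T : Scheme.{u}} (t : T ⟶ Spec (CommRingCat.of k))
    (l : PicC (pullback c t)) : Prop :=
  ∀ (K : Type u) [Field K] [IsAlgClosed K] [Algebra k K] (s : SchemeHomOver (sS k K) t),
    D.DegZ (PicC.map (baseChangeSnd c s) l)

/-! ### units of `R[[z]]` -/

theorem IsU.mem {R : Type u} [CommRing R] {u : LaurentSeries R} (hu : IsU u) : u ∈ LV R 0 := hu.1

/-- a series `r + ...` with `r` a unit is invertible, with inverse of the same form -/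
theorem IsU.exists_inv {R : Type u} [CommRing R] {u : LaurentSeries R} (hu : IsU u) :
    ∃ v : LaurentSeries R, IsU v ∧ u * v = 1 := by
  obtain ⟨h0, h1⟩ := hu
  obtain ⟨p, hp⟩ : ∃ p : PowerSeries R, HahnSeries.ofPowerSeries ℤ R p = u := by
    refine ⟨PowerSeries.mk fun n => u.coeff n, ?_⟩
    ext i
    rcases lt_or_ge i 0 with hi | hi
    · rw [h0 i hi, HahnSeries.ofPowerSeries_apply, HahnSeries.embDomain_of_notMem_range]
      rintro ⟨n, hn⟩
      change (n : ℤ) = i at hn
      omega
    · lift i to ℕ using hi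
      rw [LaurentSeries.coeff_coe_powerSeries, PowerSeries.coeff_mk]
  have hc : PowerSeries.constantCoeff p = u.coeff 0 := by
    rw [← hp]
    have := LaurentSeries.coeff_coe_powerSeries p 0
    rw [Nat.cast_zero] at this
    rw [this, PowerSeries.coeff_zero_eq_constantCoeff]
  have hpu : IsUnit p := by
    rw [PowerSeries.isUnit_iff_constantCoeff, hc]
    exact h1
  obtain ⟨q, hq⟩ := hpu.exists_right_inv
  refine ⟨HahnSeries.ofPowerSeries ℤ R q, ⟨?_, ?_⟩, ?_⟩
  · intro i hi
    rw [HahnSeries.ofPowerSeries_apply, HahnSeries.embDomain_of_notMem_range]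
    rintro ⟨n, hn⟩
    change (n : ℤ) = i at hn
    omega
  · have := LaurentSeries.coeff_coe_powerSeries q 0
    rw [Nat.cast_zero] at this
    rw [this, PowerSeries.coeff_zero_eq_constantCoeff]
    have h2 := congrArg PowerSeries.constantCoeff hq
    rw [map_mul, map_one] at h2
    exact IsUnit.of_mul_eq_one _ ((mul_comm _ _).trans h2)
  · rw [← hp, ← map_mul, hq, map_one]

theorem IsU.mul {R : Type u} [CommRing R] {u v : LaurentSeries R} (hu : IsU u) (hv : IsU v) :
    IsU (u * v) := by
  refine ⟨by simpa using mul_mem_LV hu.1 hv.1, ?_⟩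
  have := coeff_mul_bot hu.1 hv.1
  rw [add_zero] at this
  rw [this]
  exact hu.2.mul hv.2

theorem IsU.one (R : Type u) [CommRing R] : IsU (1 : LaurentSeries R) := by
  refine ⟨one_mem_LV, ?_⟩
  rw [HahnSeries.coeff_one, if_pos rfl]
  exact isUnit_one

theorem IsU.lmap {R S : Type u} [CommRing R] [CommRing S] (f : R →+* S) {u : LaurentSeries R}
    (hu : IsU u) : IsU (lmap f u) :=
  ⟨lmap_mem_LV f hu.1, by rw [lmap_coeff]; exact hu.2.map f⟩

theorem IsU.mul_mem_LV_iff {R : Type u} [CommRing R] {u x : LaurentSeries R} (hu : IsU u) (n : ℤ) :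
    u * x ∈ LV R n ↔ x ∈ LV R n := by
  constructor
  · intro h
    obtain ⟨v, hv, huv⟩ := hu.exists_inv
    have h2 := mul_mem_LV hv.1 h
    rwa [zero_add, ← mul_assoc, mul_comm v u, huv, one_mul] at h2
  · intro h
    have h2 := mul_mem_LV hu.1 h
    rwa [zero_add] at h2

/-- multiplication by a unit series as a linear automorphism of `R((z))` -/
def IsU.equiv {R : Type u} [CommRing R] {u : LaurentSeries R} (hu : IsU u) :
    LaurentSeries R ≃ₗ[R] LaurentSeries R where
  toFun x := u * x
  map_add' := mul_add u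
  map_smul' r x := mul_smul_comm r u x
  invFun x := hu.exists_inv.choose * x
  left_inv x := by
    change hu.exists_inv.choose * (u * x) = x
    rw [← mul_assoc, mul_comm _ u, hu.exists_inv.choose_spec.2, one_mul]
  right_inv x := by
    change u * (hu.exists_inv.choose * x) = x
    rw [← mul_assoc, hu.exists_inv.choose_spec.2, one_mul]

theorem IsU.equiv_apply {R : Type u} [CommRing R] {u : LaurentSeries R} (hu : IsU u)
    (x : LaurentSeries R) : hu.equiv x = u * x := rfl

theorem IsU.map_LV {R : Type u} [CommRing R] {u : LaurentSeries R} (hu : IsU u) (n : ℤ) :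
    (LV R n).map (hu.equiv : LaurentSeries R →ₗ[R] LaurentSeries R) = LV R n := by
  ext x
  constructor
  · rintro ⟨y, hy, rfl⟩
    exact (hu.mul_mem_LV_iff n).mpr hy
  · intro hx
    refine ⟨hu.equiv.symm x, ?_, hu.equiv.apply_symm_apply x⟩
    rw [← hu.equiv.apply_symm_apply x] at hx
    exact (hu.mul_mem_LV_iff n).mp hx

theorem IsU.isCompl_iff {R : Type u} [CommRing R] {u : LaurentSeries R} (hu : IsU u) (n : ℤ)
    (M : Submodule R (LaurentSeries R)) :
    IsCompl (M.map (hu.equiv : LaurentSeries R →ₗ[R] LaurentSeries R)) (LV R n) ↔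
      IsCompl M (LV R n) := by
  conv_lhs => rw [← hu.map_LV n]
  exact (Submodule.orderIsoMapComap hu.equiv).isCompl_iff.symm

theorem IsU.hZ_map {K : Type u} [Field K] {u : LaurentSeries K} (hu : IsU u)
    (M : Submodule K (LaurentSeries K)) :
    hZ (M.map (hu.equiv : LaurentSeries K →ₗ[K] LaurentSeries K)) = hZ M := by
  unfold hZ
  conv_lhs => rw [← hu.map_LV 1]
  rw [← Submodule.map_inf _ hu.equiv.injective]
  exact (hu.equiv.submoduleMap _).finrank_eq.symm

theorem IsU.hI_map {K : Type u} [Field K] {u : LaurentSeries K} (hu : IsU u)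
    (M : Submodule K (LaurentSeries K)) :
    hI (M.map (hu.equiv : LaurentSeries K →ₗ[K] LaurentSeries K)) = hI M := by
  unfold hI
  refine (LinearEquiv.finrank_eq (Submodule.Quotient.equiv _ _ hu.equiv ?_)).symm
  rw [Submodule.map_sup]
  congr 1
  exact hu.map_LV 1

theorem IsU.chi_map {K : Type u} [Field K] {u : LaurentSeries K} (hu : IsU u)
    (M : Submodule K (LaurentSeries K)) :
    chi (M.map (hu.equiv : LaurentSeries K →ₗ[K] LaurentSeries K)) = chi M := by
  unfold chi
  rw [hu.hZ_map, hu.hI_map]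

namespace PicData

variable (D : PicData g)

/-- two lattices have the same class iff they differ by a unit series -/
theorem toPic_eq_iff {R : Type u} [CommRing R] [Algebra k R] (M N : G g.e (R := R) g.a) :
    D.toPic R M = D.toPic R N ↔ ∃ (u : LaurentSeries R) (hu : IsU u),
      G.sub M = (G.sub N).map (hu.equiv : LaurentSeries R →ₗ[R] LaurentSeries R) := by
  rw [← mul_inv_eq_one, ← map_inv, ← map_mul, D.ker]
  constructor
  · rintro ⟨u, hu, h⟩
    refine ⟨u, hu, ?_⟩
    have hM : G.sub M = G.sub (M * N⁻¹) * G.sub N := by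
      rw [← G.sub_mul, inv_mul_cancel_right]
    rw [hM]
    apply le_antisymm
    · rw [Submodule.mul_le]
      intro x hx y hy
      obtain ⟨z, hz, rfl⟩ := (h x).mp hx
      exact ⟨z * y, G.smul_mem hz hy, (mul_assoc u z y).symm⟩
    · rintro _ ⟨y, hy, rfl⟩
      have h3 : u ∈ G.sub (M * N⁻¹) := (h u).mpr ⟨1, one_mem (AR g.e R), (mul_one u).symm⟩
      exact Submodule.mul_mem_mul h3 hy
  · rintro ⟨u, hu, h⟩
    refine ⟨u, hu, fun x => ?_⟩
    have h1 : G.sub (1 : G g.e (R := R) g.a) = G.sub N * G.sub N⁻¹ := by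
      rw [← G.sub_mul, mul_inv_cancel]
    have h2 : G.sub (M * N⁻¹) = (G.sub (1 : G g.e (R := R) g.a)).map
        (hu.equiv : LaurentSeries R →ₗ[R] LaurentSeries R) := by
      rw [G.sub_mul, h1, h]
      apply le_antisymm
      · rw [Submodule.mul_le]
        rintro _ ⟨x, hx, rfl⟩ y hy
        exact ⟨x * y, Submodule.mul_mem_mul hx hy, (mul_assoc u x y).symm⟩
      · rw [Submodule.map_le_iff_le_comap, Submodule.mul_le]
        intro x hx y hy
        have h4 : u * x ∈ (G.sub N).map
          (hu.equiv : LaurentSeries R →ₗ[R] LaurentSeries R) := ⟨x, hx, rfl⟩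
        have h5 := Submodule.mul_mem_mul h4 hy
        rw [mul_assoc] at h5
        exact h5
    rw [h2]
    constructor
    · rintro ⟨y, hy, rfl⟩
      exact ⟨y, G.mem_one.mp hy, rfl⟩
    · rintro ⟨y, hy, rfl⟩
      exact ⟨y, G.mem_one.mpr hy, rfl⟩

theorem chi_eq {K : Type u} [Field K] [Algebra k K] {M N : G g.e (R := K) g.a}
    (h : D.toPic K M = D.toPic K N) : chi (G.sub M) = chi (G.sub N) := by
  obtain ⟨u, hu, h⟩ := (D.toPic_eq_iff M N).mp h
  rw [h, hu.chi_map]

theorem isCompl_iff {R : Type u} [CommRing R] [Algebra k R] {M N : G g.e (R := R) g.a}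
    (h : D.toPic R M = D.toPic R N) (n : ℤ) :
    IsCompl (G.sub M) (LV R n) ↔ IsCompl (G.sub N) (LV R n) := by
  obtain ⟨u, hu, h⟩ := (D.toPic_eq_iff M N).mp h
  rw [h, hu.isCompl_iff]

theorem degZ_toPic {K : Type u} [Field K] [Algebra k K] (M : G g.e (R := K) g.a) :
    D.DegZ (D.toPic K M) ↔ IsDegZero M := by
  constructor
  · rintro ⟨N, hN, h⟩
    unfold IsDegZero at h ⊢
    rw [← h]
    exact (D.chi_eq hN).symm
  · intro h
    exact ⟨M, rfl, h⟩

theorem Deg0.pullback {T T' : Scheme.{u}} {t : T ⟶ Spec (CommRingCat.of k)}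
    {t' : T' ⟶ Spec (CommRingCat.of k)} {l : PicC (Limits.pullback c t)} (h : D.Deg0 t l)
    (s : SchemeHomOver t' t) : D.Deg0 t' (PicC.map (baseChangeSnd c s) l) := by
  intro K _ _ _ s'
  have := h K (postComp s s')
  rw [← baseChangeSnd_comp, PicC.map_comp_apply] at this
  exact this

/-! ### the functor `F` -/

/-- `F(T)`: a structure map `t : T ⟶ Spec k` and a class on `C × T`, trivial along `ε`, of degree
zero at all geometric points. -/
structure FPt (D : PicData g) (T : Scheme.{u}) : Type u where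
  t : T ⟶ Spec (CommRingCat.of k)
  l : PicC (Limits.pullback c t)
  rig : PicC.map (rigSection c t ε) l = 1
  deg : D.Deg0 t l

variable {D}

theorem FPt.ext' {T : Scheme.{u}} {x y : FPt D T} (h : x.t = y.t)
    (h' : x.l = PicC.map (baseChangeSnd c (⟨𝟙 T, by rw [Category.id_comp, h]⟩ :
      SchemeHomOver x.t y.t)) y.l) : x = y := by
  obtain ⟨t, l, hr, hd⟩ := x
  obtain ⟨t', l', hr', hd'⟩ := y
  obtain rfl : t = t' := h
  rw [baseChangeSnd_id, PicC.map_id_apply] at h'
  obtain rfl : l = l' := h'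
  rfl

/-- pullback of points of `F` -/
def FPt.map {T T' : Scheme.{u}} (φ : T' ⟶ T) (x : FPt D T) : FPt D T' where
  t := φ ≫ x.t
  l := PicC.map (baseChangeSnd c (⟨φ, rfl⟩ : SchemeHomOver (φ ≫ x.t) x.t)) x.l
  rig := by
    rw [← PicC.map_comp_apply, rigSection_baseChangeSnd, PicC.map_comp_apply, x.rig, map_one]
  deg := Deg0.pullback D x.deg _

theorem FPt.map_id {T : Scheme.{u}} (x : FPt D T) : x.map (𝟙 T) = x :=
  FPt.ext' (Category.id_comp _) rfl

theorem FPt.map_comp {T T' T'' : Scheme.{u}} (φ : T' ⟶ T) (ψ : T'' ⟶ T') (x : FPt D T) :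
    x.map (ψ ≫ φ) = (x.map φ).map ψ := by
  refine FPt.ext' (Category.assoc _ _ _) ?_
  have key : baseChangeSnd c (⟨ψ ≫ φ, rfl⟩ : SchemeHomOver ((ψ ≫ φ) ≫ x.t) x.t) =
      baseChangeSnd c (⟨𝟙 T'', by rw [Category.id_comp, Category.assoc]⟩ :
        SchemeHomOver ((ψ ≫ φ) ≫ x.t) (ψ ≫ φ ≫ x.t)) ≫
      baseChangeSnd c (⟨ψ, rfl⟩ : SchemeHomOver (ψ ≫ φ ≫ x.t) (φ ≫ x.t)) ≫
      baseChangeSnd c (⟨φ, rfl⟩ : SchemeHomOver (φ ≫ x.t) x.t) := by
    rw [baseChangeSnd_comp, baseChangeSnd_comp]
    congr 1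
  refine (congrArg (fun m => PicC.map m x.l) key).trans ?_
  rw [PicC.map_comp_apply, PicC.map_comp_apply]
  rfl

variable (D)

/-- the functor `F` on schemes -/
def F : Scheme.{u}ᵒᵖ ⥤ Type u where
  obj T := FPt D T.unop
  map φ := TypeCat.ofHom (FPt.map φ.unop)
  map_id _ := TypeCat.homEquiv.injective (funext fun x => FPt.map_id x)
  map_comp _ _ := TypeCat.homEquiv.injective (funext fun x => FPt.map_comp _ _ x)

end PicData

end

end Fermat.Agent.J25
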