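import Mathlib

set_option autoImplicit false
set_option linter.style.haveILetI false
set_option linter.unusedSectionVars false

/-!
# Index theory for pairs of subspaces
-/

namespace Fermat.Agent.J25.Lat

open Module

variable {K V : Type*} [Field K] [AddCommGroup V] [Module K V]

/-- `(X + Y)/X` is finite dimensional -/
def fd (X Y : Submodule K V) : Prop := FiniteDimensional K (Y.map X.mkQ)

/-- the dimension of `(X + Y)/X` -/
noncomputable def rd (X Y : Submodule K V) : ℕ := finrank K (Y.map X.mkQ)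

section basic

variable {W : Type*} [AddCommGroup W] [Module K W]

theorem finrank_map_add (f : V →ₗ[K] W) (Z : Submodule K V) [FiniteDimensional K Z] :
    finrank K (Z.map f) + finrank K (Z ⊓ LinearMap.ker f : Submodule K V) = finrank K Z := by
  have h := LinearMap.finrank_range_add_finrank_ker (f.domRestrict Z)
  rw [LinearMap.range_domRestrict, LinearMap.ker_domRestrict] at h
  rw [← h]
  congr 1
  have e := (Submodule.equivSubtypeMap Z (Submodule.comap Z.subtype (LinearMap.ker f))).finrank_eq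
  rw [e, Submodule.map_comap_subtype]

theorem fd_of_map {f : V →ₗ[K] W} {Z : Submodule K V} (h1 : FiniteDimensional K (Z.map f))
    (h2 : FiniteDimensional K (Z ⊓ LinearMap.ker f : Submodule K V)) : FiniteDimensional K Z :=
  Module.Finite.iff_fg.2 (Submodule.fg_of_fg_map_of_fg_inf_ker f (Module.Finite.iff_fg.1 h1)
    (Module.Finite.iff_fg.1 h2))

theorem fd_map (f : V →ₗ[K] W) (Z : Submodule K V) [FiniteDimensional K Z] :
    FiniteDimensional K (Z.map f) := inferInstance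

theorem fd_mono {X Y : Submodule K V} (h : X ≤ Y) [FiniteDimensional K Y] :
    FiniteDimensional K X := Submodule.finiteDimensional_of_le h

end basic

variable {X Y Z M M' P P' : Submodule K V}

theorem map_factor (h : X ≤ Y) (Z : Submodule K V) :
    (Z.map X.mkQ).map (Submodule.factor h) = Z.map Y.mkQ := by
  rw [← Submodule.map_comp, Submodule.factor_comp_mk]

theorem ker_factor (h : X ≤ Y) : LinearMap.ker (Submodule.factor h) = Y.map X.mkQ := by
  ext x
  obtain ⟨v, rfl⟩ := X.mkQ_surjective x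
  rw [LinearMap.mem_ker, Submodule.mem_map]
  change (Submodule.Quotient.mk v : V ⧸ Y) = 0 ↔ _
  rw [Submodule.Quotient.mk_eq_zero]
  constructor
  · intro hv
    exact ⟨v, hv, rfl⟩
  · rintro ⟨y, hy, hyv⟩
    have h1 : y - v ∈ X := (Submodule.Quotient.eq X).1 hyv
    have h2 := Y.sub_mem hy (h h1)
    rwa [sub_sub_cancel] at h2

/-- additivity -/
theorem fd_iff (hXY : X ≤ Y) (hYZ : Y ≤ Z) : fd X Z ↔ fd X Y ∧ fd Y Z := by
  constructor
  · intro h
    haveI : FiniteDimensional K (Z.map X.mkQ) := h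
    refine ⟨fd_mono (Submodule.map_mono hYZ), ?_⟩
    rw [fd, ← map_factor hXY]
    infer_instance
  · rintro ⟨h1, h2⟩
    rw [fd, ← map_factor hXY] at h2
    refine fd_of_map h2 ?_
    rw [ker_factor, inf_eq_right.2 (Submodule.map_mono hYZ)]
    exact h1

theorem rd_add (hXY : X ≤ Y) (hYZ : Y ≤ Z) (h : fd X Z) : rd X Z = rd X Y + rd Y Z := by
  haveI : FiniteDimensional K (Z.map X.mkQ) := h
  have h1 := finrank_map_add (Submodule.factor hXY) (Z.map X.mkQ)
  rw [ker_factor, inf_eq_right.2 (Submodule.map_mono hYZ), map_factor hXY] at h1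
  rw [rd, rd, rd, ← h1, add_comm]

theorem map_mkQ_sup (X Y : Submodule K V) : (X ⊔ Y).map X.mkQ = Y.map X.mkQ := by
  rw [Submodule.map_sup, Submodule.mkQ_map_self, bot_sup_eq]

theorem fd_sup : fd X (X ⊔ Y) ↔ fd X Y := by rw [fd, fd, map_mkQ_sup]

theorem rd_sup : rd X (X ⊔ Y) = rd X Y := by rw [rd, rd, map_mkQ_sup]

theorem inf_ker_aux (X Y : Submodule K V) :
    Y.map (X ⊓ Y).mkQ ⊓ LinearMap.ker (Submodule.factor (inf_le_left : X ⊓ Y ≤ X)) = ⊥ := by
  rw [ker_factor, eq_bot_iff]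
  rintro x ⟨⟨y, hy, rfl⟩, ⟨v, hv, hvy⟩⟩
  have h1 : v - y ∈ X ⊓ Y := (Submodule.Quotient.eq _).1 hvy
  have h2 : y ∈ X := by
    have := X.sub_mem hv h1.1
    rwa [sub_sub_cancel] at this
  rw [Submodule.mem_bot, Submodule.mkQ_apply, Submodule.Quotient.mk_eq_zero]
  exact ⟨h2, hy⟩

theorem fd_inf : fd (X ⊓ Y) Y ↔ fd X Y := by
  constructor
  · intro h
    haveI : FiniteDimensional K (Y.map (X ⊓ Y).mkQ) := h
    rw [fd, ← map_factor (inf_le_left : X ⊓ Y ≤ X)]
    infer_instance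
  · intro h
    rw [fd, ← map_factor (inf_le_left : X ⊓ Y ≤ X)] at h
    refine fd_of_map h ?_
    rw [inf_ker_aux]
    infer_instance

theorem rd_inf : rd (X ⊓ Y) Y = rd X Y := by
  by_cases h : fd (X ⊓ Y) Y
  · haveI : FiniteDimensional K (Y.map (X ⊓ Y).mkQ) := h
    have h1 := finrank_map_add (Submodule.factor (inf_le_left : X ⊓ Y ≤ X)) (Y.map (X ⊓ Y).mkQ)
    rw [inf_ker_aux, map_factor, finrank_bot, add_zero] at h1
    exact h1.symm
  · have h' : ¬ fd X Y := fun h0 => h (fd_inf.2 h0)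
    rw [rd, rd, finrank_of_not_finite h, finrank_of_not_finite h']

theorem fd_top : fd X ⊤ ↔ FiniteDimensional K (V ⧸ X) := by
  rw [fd, Submodule.map_top, Submodule.range_mkQ]
  exact ⟨fun h => Module.Finite.equiv (Submodule.topEquiv), fun h => inferInstance⟩

theorem rd_top : rd X ⊤ = finrank K (V ⧸ X) := by
  rw [rd, Submodule.map_top, Submodule.range_mkQ, finrank_top]

/-- `M ∩ P` and `V/(M + P)` are finite dimensional -/
structure Ad (P M : Submodule K V) : Prop where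
  h0 : FiniteDimensional K (M ⊓ P : Submodule K V)
  h1 : FiniteDimensional K (V ⧸ (M ⊔ P))

/-- the index of `M` with respect to `P` -/
noncomputable def chi (P M : Submodule K V) : ℤ :=
  (finrank K (M ⊓ P : Submodule K V) : ℤ) - finrank K (V ⧸ (M ⊔ P))

theorem Ad.symm (h : Ad P M) : Ad M P := ⟨by rw [inf_comm]; exact h.h0, by
  rw [sup_comm]; exact h.h1⟩

theorem chi_comm (P M : Submodule K V) : chi P M = chi M P := by
  rw [chi, chi, inf_comm, sup_comm]

section mono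

variable (hM : M ≤ M')
include hM

theorem aux1 : M ≤ M ⊔ M' ⊓ P := le_sup_left

theorem aux2 : M ⊔ M' ⊓ P ≤ M' := sup_le hM inf_le_left

theorem aux_fd : fd M M' ↔ fd (M ⊓ P) (M' ⊓ P) ∧ fd (M ⊔ P) (M' ⊔ P) := by
  have e1 : M ⊓ (M' ⊓ P) = M ⊓ P := by rw [← inf_assoc, inf_eq_left.2 hM]
  have e2 : (M ⊔ P) ⊔ M' = M' ⊔ P := by
    rw [sup_comm M P, sup_assoc, sup_eq_right.2 hM, sup_comm]
  have e3 : (M ⊔ P) ⊓ M' = M ⊔ M' ⊓ P := by rw [sup_inf_assoc_of_le P hM, inf_comm P]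
  rw [fd_iff (Y := M ⊔ M' ⊓ P) (aux1 hM) (aux2 hM), fd_sup, ← fd_inf (X := M) (Y := M' ⊓ P), e1,
    ← e3, fd_inf, ← fd_sup (X := M ⊔ P) (Y := M'), e2]

theorem aux_rd (h : fd M M') : rd M M' = rd (M ⊓ P) (M' ⊓ P) + rd (M ⊔ P) (M' ⊔ P) := by
  have e1 : M ⊓ (M' ⊓ P) = M ⊓ P := by rw [← inf_assoc, inf_eq_left.2 hM]
  have e2 : (M ⊔ P) ⊔ M' = M' ⊔ P := by
    rw [sup_comm M P, sup_assoc, sup_eq_right.2 hM, sup_comm]
  have e3 : (M ⊔ P) ⊓ M' = M ⊔ M' ⊓ P := by rw [sup_inf_assoc_of_le P hM, inf_comm P]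
  rw [rd_add (Y := M ⊔ M' ⊓ P) (aux1 hM) (aux2 hM) h, rd_sup, ← rd_inf (X := M) (Y := M' ⊓ P),
    e1, ← e3, rd_inf, ← rd_sup (X := M ⊔ P) (Y := M'), e2]

/-- finiteness of the index and inclusions of finite codimension -/
theorem Ad.of_le (h : Ad P M) (hf : fd M M') : Ad P M' := by
  obtain ⟨h1, h2⟩ := (aux_fd (P := P) hM).1 hf
  haveI := h.h0
  haveI := h.h1
  refine ⟨fd_of_map (f := (M ⊓ P).mkQ) h1 ?_, ?_⟩
  · rw [Submodule.ker_mkQ]
    exact fd_mono inf_le_right
  · exact Module.Finite.of_surjective (Submodule.factor (sup_le_sup_right hM P))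
      (Submodule.factor_surjective _)

theorem Ad.of_ge (h : Ad P M') (hf : fd M M') : Ad P M := by
  obtain ⟨h1, h2⟩ := (aux_fd (P := P) hM).1 hf
  haveI := h.h0
  refine ⟨fd_mono (inf_le_inf_right P hM), fd_top.1 ?_⟩
  rw [fd_iff (sup_le_sup_right hM P) le_top]
  exact ⟨h2, fd_top.2 h.h1⟩

/-- the codimension of an inclusion is finite -/
theorem Ad.fd_of_le (h : Ad P M) (h' : Ad P M') : fd M M' := by
  rw [aux_fd (P := P) hM]
  haveI := h'.h0
  refine ⟨fd_map _ _, ?_⟩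
  have h1 := (fd_top (X := M ⊔ P)).2 h.h1
  rw [fd_iff (sup_le_sup_right hM P) le_top] at h1
  exact h1.1

theorem chi_add (h : Ad P M) (h' : Ad P M') : chi P M' = chi P M + rd M M' := by
  have hf := h.fd_of_le hM h'
  have h1 := aux_rd (P := P) hM hf
  haveI := h'.h0
  haveI := h'.h1
  have h2 := finrank_map_add (M ⊓ P).mkQ (M' ⊓ P)
  rw [Submodule.ker_mkQ, inf_eq_right.2 (inf_le_inf_right P hM)] at h2
  have h3 := rd_add (sup_le_sup_right hM P) (le_top (a := M' ⊔ P)) ((fd_top (X := M ⊔ P)).2 h.h1)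
  rw [rd_top, rd_top] at h3
  have h4 : rd (M ⊓ P) (M' ⊓ P) = finrank K ((M' ⊓ P).map (M ⊓ P).mkQ) := rfl
  rw [chi, chi, h1, h3, ← h2, h4]
  push_cast
  ring

end mono

/-- change of the second subspace -/
theorem Ad.of_le' (hP : P ≤ P') (h : Ad P M) (hf : fd P P') : Ad P' M :=
  (h.symm.of_le hP hf).symm

theorem Ad.of_ge' (hP : P ≤ P') (h : Ad P' M) (hf : fd P P') : Ad P M :=
  (h.symm.of_ge hP hf).symm

theorem chi_add' (hP : P ≤ P') (h : Ad P M) (h' : Ad P' M) : chi P' M = chi P M + rd P P' := by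
  rw [chi_comm P', chi_comm P, chi_add hP h.symm h'.symm]

section equiv

variable (e : V ≃ₗ[K] V)

theorem Ad.map (h : Ad P M) : Ad (P.map (e : V →ₗ[K] V)) (M.map (e : V →ₗ[K] V)) := by
  haveI := h.h0
  haveI := h.h1
  refine ⟨?_, ?_⟩
  · rw [← Submodule.map_inf _ e.injective]
    infer_instance
  · rw [← Submodule.map_sup]
    exact Module.Finite.equiv (Submodule.Quotient.equiv _ _ e rfl)

theorem chi_map : chi (P.map (e : V →ₗ[K] V)) (M.map (e : V →ₗ[K] V)) = chi P M := by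
  rw [chi, chi, ← Submodule.map_inf _ e.injective, ← Submodule.map_sup,
    (Submodule.Quotient.equiv (M ⊔ P) ((M ⊔ P).map (e : V →ₗ[K] V)) e rfl).finrank_eq,
    (e.submoduleMap (M ⊓ P)).finrank_eq]

end equiv

end Fermat.Agent.J25.Lat
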