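import Mathlib
import Fermat.Agent.J25.Lat1
import Fermat.Agent.J25.Laur

set_option autoImplicit false
set_option linter.style.haveILetI false
set_option linter.unusedSectionVars false

/-!
# The index of subspaces of the field of Laurent series
-/

namespace Fermat.Agent.J25.Lat

attribute [-instance] HahnSeries.powerSeriesAlgebra

open Module HahnSeries

universe u

variable {K : Type u} [Field K]

theorem mem_LV_iff {n : ℤ} {f : LaurentSeries K} : f ∈ LV K n ↔ f = 0 ∨ n ≤ f.order := by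
  constructor
  · intro h
    by_cases h0 : f = 0
    · exact Or.inl h0
    · right
      by_contra hlt
      exact HahnSeries.coeff_order_eq_zero.not.2 h0 (h _ (lt_of_not_ge hlt))
  · rintro (rfl | h) i hi
    · rfl
    · exact HahnSeries.coeff_eq_zero_of_lt_order (lt_of_lt_of_le hi h)

theorem LV_anti {m n : ℤ} (h : n ≤ m) : LV K m ≤ LV K n := LV_mono h

theorem map_LV_succ (n : ℤ) : (LV K n).map (LV K (n + 1)).mkQ =
    K ∙ ((LV K (n + 1)).mkQ (single n 1)) := by
  apply le_antisymm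
  · rintro _ ⟨f, hf, rfl⟩
    rw [Submodule.mem_span_singleton]
    refine ⟨f.coeff n, ?_⟩
    rw [← map_smul, ← sub_eq_zero, ← map_sub, Submodule.mkQ_apply, Submodule.Quotient.mk_eq_zero]
    intro i hi
    rw [HahnSeries.coeff_sub, HahnSeries.coeff_smul]
    rcases lt_or_eq_of_le (Int.lt_add_one_iff.1 hi) with h | rfl
    · rw [hf i h, HahnSeries.coeff_single_of_ne (ne_of_lt h), smul_zero, sub_zero]
    · rw [HahnSeries.coeff_single_same, smul_eq_mul, mul_one, sub_self]
  · rw [Submodule.span_singleton_le_iff_mem]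
    refine ⟨single n 1, fun i hi => ?_, rfl⟩
    exact HahnSeries.coeff_single_of_ne (ne_of_lt hi)

theorem fd_LV_succ (n : ℤ) : fd (LV K (n + 1)) (LV K n) := by
  rw [fd, map_LV_succ]
  infer_instance

theorem rd_LV_succ (n : ℤ) : rd (LV K (n + 1)) (LV K n) = 1 := by
  rw [rd, map_LV_succ]
  refine finrank_span_singleton fun h => ?_
  rw [Submodule.mkQ_apply, Submodule.Quotient.mk_eq_zero] at h
  have := h n (by omega)
  rw [HahnSeries.coeff_single_same] at this
  exact one_ne_zero this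

theorem LV_aux (n : ℤ) (d : ℕ) : fd (LV K (n + d)) (LV K n) ∧ rd (LV K (n + d)) (LV K n) = d := by
  induction d with
  | zero =>
    rw [Nat.cast_zero, add_zero, fd, rd, Submodule.mkQ_map_self]
    exact ⟨inferInstance, finrank_bot K _⟩
  | succ d ih =>
    have e : (n + ((d + 1 : ℕ) : ℤ)) = n + d + 1 := by push_cast; ring
    have h1 : LV K (n + d + 1) ≤ LV K (n + d) := LV_anti (by omega)
    have h2 : LV K (n + d) ≤ LV K n := LV_anti (by omega)
    have h3 : fd (LV K (n + d + 1)) (LV K n) := (fd_iff h1 h2).2 ⟨fd_LV_succ _, ih.1⟩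
    rw [e]
    refine ⟨h3, ?_⟩
    rw [rd_add h1 h2 h3, rd_LV_succ, ih.2, add_comm]

theorem fd_LV {m n : ℤ} (h : n ≤ m) : fd (LV K m) (LV K n) := by
  obtain ⟨d, hd⟩ := Int.le.dest h
  rw [← hd]
  exact (LV_aux n d).1

theorem rd_LV {m n : ℤ} (h : n ≤ m) : (rd (LV K m) (LV K n) : ℤ) = m - n := by
  obtain ⟨d, hd⟩ := Int.le.dest h
  rw [← hd, (LV_aux n d).2]
  ring

/-- multiplication by a nonzero Laurent series -/
noncomputable def mulE (f : LaurentSeries K) (hf : f ≠ 0) : LaurentSeries K ≃ₗ[K] LaurentSeries K where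
  toFun x := f * x
  map_add' x y := mul_add f x y
  map_smul' c x := mul_smul_comm c f x
  invFun x := f⁻¹ * x
  left_inv x := inv_mul_cancel_left₀ hf x
  right_inv x := mul_inv_cancel_left₀ hf x

theorem mulE_apply (f : LaurentSeries K) (hf : f ≠ 0) (x : LaurentSeries K) :
    mulE f hf x = f * x := rfl

theorem map_mulE_LV (f : LaurentSeries K) (hf : f ≠ 0) (n : ℤ) :
    (LV K n).map (mulE f hf : LaurentSeries K →ₗ[K] LaurentSeries K) = LV K (n + f.order) := by
  ext x
  constructor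
  · rintro ⟨y, hy, rfl⟩
    change f * y ∈ _
    rw [SetLike.mem_coe, mem_LV_iff] at hy
    rw [mem_LV_iff]
    rcases hy with rfl | hy
    · left; rw [mul_zero]
    · by_cases h0 : y = 0
      · left; rw [h0, mul_zero]
      · right
        rw [HahnSeries.order_mul hf h0]
        omega
  · intro hx
    refine ⟨f⁻¹ * x, ?_, ?_⟩
    · rw [SetLike.mem_coe, mem_LV_iff]
      rw [mem_LV_iff] at hx
      rcases hx with rfl | hx
      · left; rw [mul_zero]
      · by_cases h0 : x = 0
        · left; rw [h0, mul_zero]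
        · right
          have h1 : f * (f⁻¹ * x) = x := mul_inv_cancel_left₀ hf x
          have h2 : f⁻¹ * x ≠ 0 := mul_ne_zero (inv_ne_zero hf) h0
          have h3 := HahnSeries.order_mul hf h2
          rw [h1] at h3
          omega
    · change f * (f⁻¹ * x) = x
      exact mul_inv_cancel_left₀ hf x

variable {M M' : Submodule K (LaurentSeries K)}

theorem Ad.shift {m n : ℤ} (h : Ad (LV K n) M) : Ad (LV K m) M := by
  rcases le_total n m with hnm | hnm
  · exact h.of_ge' (LV_anti hnm) (fd_LV hnm)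
  · exact h.of_le' (LV_anti hnm) (fd_LV hnm)

theorem chi_shift {m n : ℤ} (h : Ad (LV K n) M) :
    chi (LV K m) M = chi (LV K n) M + (n - m) := by
  rcases le_total n m with hnm | hnm
  · rw [chi_add' (LV_anti hnm) h.shift h, rd_LV hnm]
    ring
  · rw [chi_add' (LV_anti hnm) h h.shift, rd_LV hnm]

theorem Ad.mul {n : ℤ} (h : Ad (LV K n) M) (f : LaurentSeries K) (hf : f ≠ 0) :
    Ad (LV K n) (M.map (mulE f hf : LaurentSeries K →ₗ[K] LaurentSeries K)) := by
  have h1 := h.map (mulE f hf)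
  rw [map_mulE_LV] at h1
  exact h1.shift

theorem chi_mul {n : ℤ} (h : Ad (LV K n) M) (f : LaurentSeries K) (hf : f ≠ 0) :
    chi (LV K n) (M.map (mulE f hf : LaurentSeries K →ₗ[K] LaurentSeries K)) =
      chi (LV K n) M + f.order := by
  have h1 := chi_map (P := LV K n) (M := M) (mulE f hf)
  rw [map_mulE_LV] at h1
  rw [chi_shift (n := n + f.order) ((h.mul f hf).shift), h1]
  ring

/-- the second index vanishes after twisting -/
theorem exists_sup_eq_top (h : Ad (LV K 0) M) : ∃ N : ℤ, ∀ n ≤ N, M ⊔ LV K n = ⊤ := by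
  by_contra hcon
  push Not at hcon
  -- the codimension of `M + LV n`
  have hfin : ∀ n : ℤ, FiniteDimensional K (LaurentSeries K ⧸ (M ⊔ LV K n)) := fun n =>
    (h.shift (m := n)).h1
  have hex : ∃ d : ℕ, ∃ n : ℤ, finrank K (LaurentSeries K ⧸ (M ⊔ LV K n)) = d := ⟨_, 0, rfl⟩
  classical
  obtain ⟨n0, hn0⟩ := Nat.find_spec hex
  obtain ⟨n, hn, hne⟩ := hcon n0
  obtain ⟨f, hf⟩ : ∃ f, f ∉ M ⊔ LV K n := by
    by_contra h1
    push Not at h1
    exact hne (eq_top_iff.2 fun x _ => h1 x)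
  -- `f` lies in `LV n'` for some `n' ≤ n`
  obtain ⟨n', hn', hfn'⟩ : ∃ n' ≤ n, f ∈ LV K n' := by
    refine ⟨min n f.order, min_le_left _ _, ?_⟩
    rw [mem_LV_iff]
    exact Or.inr (min_le_right _ _)
  have hle : M ⊔ LV K n ≤ M ⊔ LV K n' := sup_le_sup_left (LV_anti hn') M
  have h1 : fd (M ⊔ LV K n) ⊤ := fd_top.2 (hfin n)
  have h2 := rd_add hle le_top h1
  rw [rd_top, rd_top] at h2
  have h3 : rd (M ⊔ LV K n) (M ⊔ LV K n') ≠ 0 := by
    intro h0
    have h4 : fd (M ⊔ LV K n) (M ⊔ LV K n') := ((fd_iff hle le_top).1 h1).1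
    haveI : FiniteDimensional K ((M ⊔ LV K n').map (M ⊔ LV K n).mkQ) := h4
    have h5 : (M ⊔ LV K n').map (M ⊔ LV K n).mkQ = ⊥ := Submodule.finrank_eq_zero.1 h0
    have h6 : (M ⊔ LV K n).mkQ f ∈ (M ⊔ LV K n').map (M ⊔ LV K n).mkQ :=
      ⟨f, (le_sup_right : LV K n' ≤ M ⊔ LV K n') hfn', rfl⟩
    rw [h5, Submodule.mem_bot, Submodule.mkQ_apply, Submodule.Quotient.mk_eq_zero] at h6
    exact hf h6
  have hle0 : M ⊔ LV K n0 ≤ M ⊔ LV K n := sup_le_sup_left (LV_anti hn) M
  have h7 := rd_add hle0 le_top (fd_top.2 (hfin n0))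
  rw [rd_top, rd_top, hn0] at h7
  have h8 := Nat.find_min' hex ⟨n', rfl⟩
  omega

end Fermat.Agent.J25.Lat
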