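import Mathlib
import Fermat.Agent.J25.Lat2

set_option autoImplicit false
set_option linter.style.haveILetI false
set_option linter.unusedSectionVars false

/-!
# Invertible lattices in the field of Laurent series
-/

namespace Fermat.Agent.J25.Lat

attribute [-instance] HahnSeries.powerSeriesAlgebra

open Module HahnSeries

universe u

variable {K : Type u} [Field K] {A : Type u} [CommRing A] [Algebra K A]
  [Algebra A (LaurentSeries K)] [IsScalarTower K A (LaurentSeries K)]

/-- the underlying vector space of a lattice -/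
noncomputable abbrev rs (L : Submodule A (LaurentSeries K)) : Submodule K (LaurentSeries K) :=
  L.restrictScalars K

theorem mem_rs {L : Submodule A (LaurentSeries K)} {x : LaurentSeries K} : x ∈ rs L ↔ x ∈ L :=
  Iff.rfl

theorem rs_mono {L L' : Submodule A (LaurentSeries K)} (h : L ≤ L') : rs L ≤ rs L' := h

variable (A) in
/-- the lattice generated by an element -/
noncomputable abbrev sp (s : LaurentSeries K) : Submodule A (LaurentSeries K) :=
  Submodule.span A {s}

theorem mem_sp_mul {s x : LaurentSeries K} {L : Submodule A (LaurentSeries K)} :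
    x ∈ sp A s * L ↔ ∃ y ∈ L, s * y = x := Submodule.mem_span_singleton_mul

theorem rs_sp_mul {s : LaurentSeries K} (hs : s ≠ 0) (L : Submodule A (LaurentSeries K)) :
    rs (sp A s * L) = (rs L).map (mulE s hs : LaurentSeries K →ₗ[K] LaurentSeries K) := by
  ext x
  rw [mem_rs, mem_sp_mul]
  rfl

theorem sp_le_iff {s : LaurentSeries K} {L : Submodule A (LaurentSeries K)} :
    sp A s ≤ L ↔ s ∈ L := by
  rw [sp, Submodule.span_le, Set.singleton_subset_iff]; rfl

theorem sp_mul_sp (s t : LaurentSeries K) : sp A s * sp A t = sp A (s * t) := by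
  rw [sp, sp, Submodule.span_mul_span, Set.singleton_mul_singleton]

theorem one_mem_one' : (1 : LaurentSeries K) ∈ (1 : Submodule A (LaurentSeries K)) :=
  Submodule.mem_one.2 ⟨1, map_one _⟩

theorem sp_one : sp A (1 : LaurentSeries K) = 1 := Submodule.one_eq_span.symm

variable (A) in
/-- the invertible lattice generated by an element -/
noncomputable def spu (s : LaurentSeries K) (hs : s ≠ 0) : (Submodule A (LaurentSeries K))ˣ :=
  ⟨sp A s, sp A s⁻¹, by rw [sp_mul_sp, mul_inv_cancel₀ hs, sp_one],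
    by rw [sp_mul_sp, inv_mul_cancel₀ hs, sp_one]⟩

theorem coe_spu (s : LaurentSeries K) (hs : s ≠ 0) :
    ((spu A s hs : (Submodule A (LaurentSeries K))ˣ) : Submodule A (LaurentSeries K)) = sp A s :=
  rfl

/-- finiteness for principal lattices -/
theorem ad_sp {n : ℤ} (h1 : Ad (LV K 0) (rs (1 : Submodule A (LaurentSeries K))))
    {s : LaurentSeries K} (hs : s ≠ 0) : Ad (LV K n) (rs (sp A s)) := by
  have h := (h1.shift (m := n)).mul s hs
  rwa [← rs_sp_mul, mul_one] at h

theorem chi_sp_mul {n : ℤ} {L : Submodule A (LaurentSeries K)} (h : Ad (LV K n) (rs L))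
    {s : LaurentSeries K} (hs : s ≠ 0) :
    chi (LV K n) (rs (sp A s * L)) = chi (LV K n) (rs L) + s.order := by
  rw [rs_sp_mul hs, chi_mul h s hs]

theorem unit_exists_ne (L : (Submodule A (LaurentSeries K))ˣ) :
    ∃ s ∈ (L : Submodule A (LaurentSeries K)), s ≠ 0 := by
  by_contra hcon
  push Not at hcon
  have h0 : (L : Submodule A (LaurentSeries K)) = ⊥ := by
    rw [Submodule.eq_bot_iff]
    exact hcon
  have h1 : (L : Submodule A (LaurentSeries K)) * (L⁻¹ : (Submodule A (LaurentSeries K))ˣ) = 1 :=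
    Units.mul_inv L
  rw [h0, Submodule.bot_mul] at h1
  have h2 : (1 : LaurentSeries K) ∈ (1 : Submodule A (LaurentSeries K)) := one_mem_one'
  rw [← h1, Submodule.mem_bot] at h2
  exact one_ne_zero h2

/-- **finiteness for invertible lattices** -/
theorem ad_unit {n : ℤ} (h1 : Ad (LV K 0) (rs (1 : Submodule A (LaurentSeries K))))
    (L : (Submodule A (LaurentSeries K))ˣ) :
    Ad (LV K n) (rs (L : Submodule A (LaurentSeries K))) := by
  obtain ⟨s, hs, hs0⟩ := unit_exists_ne L
  obtain ⟨t, ht, ht0⟩ := unit_exists_ne L⁻¹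
  have ht1 : t⁻¹ ≠ 0 := inv_ne_zero ht0
  have hle1 : rs (sp A s) ≤ rs (L : Submodule A (LaurentSeries K)) := rs_mono (sp_le_iff.2 hs)
  have hle2 : rs (L : Submodule A (LaurentSeries K)) ≤ rs (sp A t⁻¹) := by
    intro m hm
    have h3 : t * m ∈ (1 : Submodule A (LaurentSeries K)) := by
      rw [← Units.inv_mul L]
      exact Submodule.mul_mem_mul ht hm
    have h4 : m = t⁻¹ * (t * m) := (inv_mul_cancel_left₀ ht0 m).symm
    rw [mem_rs, ← mul_one (sp A t⁻¹), mem_sp_mul]
    exact ⟨_, h3, h4.symm⟩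
  have h5 := (ad_sp (n := n) h1 hs0).fd_of_le (hle1.trans hle2) (ad_sp (n := n) h1 ht1)
  exact (ad_sp (n := n) h1 hs0).of_le hle1 ((fd_iff hle1 hle2).1 h5).1

/-- the lattice of a point -/
noncomputable def pp (φ : A →ₐ[K] K) : Submodule A (LaurentSeries K) :=
  Submodule.map (Algebra.linearMap A (LaurentSeries K)) (RingHom.ker φ)

theorem mem_pp {φ : A →ₐ[K] K} {x : LaurentSeries K} :
    x ∈ pp φ ↔ ∃ a : A, φ a = 0 ∧ algebraMap A (LaurentSeries K) a = x := Iff.rfl

theorem pp_le_one (φ : A →ₐ[K] K) : (pp φ : Submodule A (LaurentSeries K)) ≤ 1 := by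
  rintro x ⟨a, -, rfl⟩
  exact Submodule.mem_one.2 ⟨a, rfl⟩

theorem pp_mul_le (φ : A →ₐ[K] K) (L : Submodule A (LaurentSeries K)) : pp φ * L ≤ L := by
  rw [Submodule.mul_le]
  rintro _ ⟨a, -, rfl⟩ m hm
  change algebraMap A (LaurentSeries K) a * m ∈ L
  rw [← Algebra.smul_def]
  exact L.smul_mem a hm

variable (hinj : Function.Injective (algebraMap A (LaurentSeries K)))

include hinj

theorem alg_mem_pp {φ : A →ₐ[K] K} {a : A} :
    algebraMap A (LaurentSeries K) a ∈ (pp φ : Submodule A (LaurentSeries K)) ↔ φ a = 0 := by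
  rw [mem_pp]
  constructor
  · rintro ⟨b, hb, hba⟩
    rwa [← hinj hba]
  · intro h
    exact ⟨a, h, rfl⟩

/-- the fibre of an invertible lattice at a point is one dimensional -/
theorem exists_decomp (φ : A →ₐ[K] K) (L : (Submodule A (LaurentSeries K))ˣ) :
    ∃ m0 ∈ (L : Submodule A (LaurentSeries K)), m0 ∉ pp φ * (L : Submodule A (LaurentSeries K)) ∧
      ∀ m ∈ (L : Submodule A (LaurentSeries K)), ∃ c : K,
        m - c • m0 ∈ pp φ * (L : Submodule A (LaurentSeries K)) := by
  -- a product with nonzero value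
  obtain ⟨m0, hm0, n0, hn0, a0, ha0, hφ⟩ : ∃ m0 ∈ (L : Submodule A (LaurentSeries K)),
      ∃ n0 ∈ ((L⁻¹ : (Submodule A (LaurentSeries K))ˣ) : Submodule A (LaurentSeries K)),
      ∃ a0 : A, algebraMap A (LaurentSeries K) a0 = m0 * n0 ∧ φ a0 ≠ 0 := by
    by_contra hcon
    push Not at hcon
    have h1 : (L : Submodule A (LaurentSeries K)) * (L⁻¹ : (Submodule A (LaurentSeries K))ˣ) ≤
        pp φ := by
      rw [Submodule.mul_le]
      intro m hm n hn
      have h2 : m * n ∈ (1 : Submodule A (LaurentSeries K)) := by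
        rw [← Units.mul_inv L]
        exact Submodule.mul_mem_mul hm hn
      obtain ⟨a, ha⟩ := Submodule.mem_one.1 h2
      rw [← ha]
      exact (alg_mem_pp hinj).2 (hcon m hm n hn a ha)
    rw [Units.mul_inv] at h1
    have h3 := (alg_mem_pp (φ := φ) (a := 1) hinj).1 (by
      rw [map_one]
      exact h1 one_mem_one')
    rw [map_one] at h3
    exact one_ne_zero h3
  have hmem : ∀ x ∈ pp φ * (L : Submodule A (LaurentSeries K)), x * n0 ∈
      (pp φ : Submodule A (LaurentSeries K)) := by
    intro x hx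
    have h1 : x * n0 ∈ pp φ * (L : Submodule A (LaurentSeries K)) *
        (L⁻¹ : (Submodule A (LaurentSeries K))ˣ) := Submodule.mul_mem_mul hx hn0
    rwa [mul_assoc, Units.mul_inv, mul_one] at h1
  refine ⟨m0, hm0, fun h => hφ ?_, fun m hm => ?_⟩
  · have h1 := hmem m0 h
    rw [← ha0, alg_mem_pp hinj] at h1
    exact h1
  · have h2 : m * n0 ∈ (1 : Submodule A (LaurentSeries K)) := by
      rw [← Units.mul_inv L]
      exact Submodule.mul_mem_mul hm hn0
    obtain ⟨b, hb⟩ := Submodule.mem_one.1 h2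
    refine ⟨φ b * (φ a0)⁻¹, ?_⟩
    -- `a0 m = b m0`
    have h3 : a0 • m = b • m0 := by
      rw [Algebra.smul_def, Algebra.smul_def, ha0, hb]
      ring
    have h4 : (a0 - algebraMap K A (φ a0)) • m ∈ pp φ * (L : Submodule A (LaurentSeries K)) := by
      rw [Algebra.smul_def]
      refine Submodule.mul_mem_mul ((alg_mem_pp hinj).2 ?_) hm
      rw [map_sub, AlgHom.commutes, Algebra.algebraMap_self_apply, sub_self]
    have h5 : (b - algebraMap K A (φ b)) • m0 ∈ pp φ * (L : Submodule A (LaurentSeries K)) := by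
      rw [Algebra.smul_def]
      refine Submodule.mul_mem_mul ((alg_mem_pp hinj).2 ?_) hm0
      rw [map_sub, AlgHom.commutes, Algebra.algebraMap_self_apply, sub_self]
    have h6 : m - (φ b * (φ a0)⁻¹) • m0 = (φ a0)⁻¹ • ((b - algebraMap K A (φ b)) • m0 -
        (a0 - algebraMap K A (φ a0)) • m) := by
      rw [sub_smul, sub_smul, h3, algebraMap_smul, algebraMap_smul]
      have : (b • m0 - φ b • m0 - (b • m0 - φ a0 • m)) = φ a0 • m - φ b • m0 := by abel
      rw [this, smul_sub, smul_smul, smul_smul, inv_mul_cancel₀ hφ, one_smul, mul_comm]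
    rw [h6]
    exact (rs (pp φ * (L : Submodule A (LaurentSeries K)))).smul_mem _
      (Submodule.sub_mem _ h5 h4)

theorem exists_coeff (φ : A →ₐ[K] K) (L : (Submodule A (LaurentSeries K))ˣ)
    {s : LaurentSeries K} (hs : s ∈ (L : Submodule A (LaurentSeries K)))
    (hs' : s ∉ pp φ * (L : Submodule A (LaurentSeries K))) :
    ∀ m ∈ (L : Submodule A (LaurentSeries K)), ∃ c : K,
      m - c • s ∈ pp φ * (L : Submodule A (LaurentSeries K)) := by
  obtain ⟨m0, hm0, hm0', h⟩ := exists_decomp hinj φ L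
  obtain ⟨c0, hc0⟩ := h s hs
  have hne : c0 ≠ 0 := by
    rintro rfl
    rw [zero_smul, sub_zero] at hc0
    exact hs' hc0
  intro m hm
  obtain ⟨c, hc⟩ := h m hm
  refine ⟨c * c0⁻¹, ?_⟩
  have e : m - (c * c0⁻¹) • s = (m - c • m0) - (c * c0⁻¹) • (s - c0 • m0) := by
    rw [smul_sub, smul_smul, inv_mul_cancel_right₀ hne]
    abel
  rw [e]
  exact Submodule.sub_mem _ hc ((rs (pp φ * (L : Submodule A (LaurentSeries K)))).smul_mem _ hc0)

theorem map_pp_mul (φ : A →ₐ[K] K) (L : (Submodule A (LaurentSeries K))ˣ)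
    {s : LaurentSeries K} (hs : s ∈ (L : Submodule A (LaurentSeries K)))
    (hs' : s ∉ pp φ * (L : Submodule A (LaurentSeries K))) :
    (rs (L : Submodule A (LaurentSeries K))).map
      (rs (pp φ * (L : Submodule A (LaurentSeries K)))).mkQ =
      K ∙ ((rs (pp φ * (L : Submodule A (LaurentSeries K)))).mkQ s) := by
  apply le_antisymm
  · rintro _ ⟨m, hm, rfl⟩
    obtain ⟨c, hc⟩ := exists_coeff hinj φ L hs hs' m hm
    rw [Submodule.mem_span_singleton]
    refine ⟨c, ?_⟩
    rw [← map_smul, eq_comm, ← sub_eq_zero, ← map_sub, Submodule.mkQ_apply,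
      Submodule.Quotient.mk_eq_zero]
    exact hc
  · rw [Submodule.span_singleton_le_iff_mem]
    exact ⟨s, hs, rfl⟩

theorem fd_pp_mul (φ : A →ₐ[K] K) (L : (Submodule A (LaurentSeries K))ˣ) :
    fd (rs (pp φ * (L : Submodule A (LaurentSeries K))))
      (rs (L : Submodule A (LaurentSeries K))) := by
  obtain ⟨m0, hm0, hm0', -⟩ := exists_decomp hinj φ L
  rw [fd, map_pp_mul hinj φ L hm0 hm0']
  infer_instance

/-- **the codimension of a point** -/
theorem rd_pp_mul (φ : A →ₐ[K] K) (L : (Submodule A (LaurentSeries K))ˣ) :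
    rd (rs (pp φ * (L : Submodule A (LaurentSeries K))))
      (rs (L : Submodule A (LaurentSeries K))) = 1 := by
  obtain ⟨m0, hm0, hm0', -⟩ := exists_decomp hinj φ L
  rw [rd, map_pp_mul hinj φ L hm0 hm0']
  refine finrank_span_singleton fun h => ?_
  rw [Submodule.mkQ_apply, Submodule.Quotient.mk_eq_zero] at h
  exact hm0' h

theorem chi_pp_mul {n : ℤ} (h1 : Ad (LV K 0) (rs (1 : Submodule A (LaurentSeries K))))
    (φ : A →ₐ[K] K) (L : (Submodule A (LaurentSeries K))ˣ) :
    chi (LV K n) (rs (pp φ * (L : Submodule A (LaurentSeries K)))) =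
      chi (LV K n) (rs (L : Submodule A (LaurentSeries K))) - 1 := by
  have hL := ad_unit (n := n) h1 L
  have hle : rs (pp φ * (L : Submodule A (LaurentSeries K))) ≤
      rs (L : Submodule A (LaurentSeries K)) := rs_mono (pp_mul_le φ _)
  rw [chi_add hle (hL.of_ge hle (fd_pp_mul hinj φ L)) hL, rd_pp_mul hinj]
  push_cast
  ring

/-- an element of the algebra vanishes at finitely many points -/
theorem finite_points (h1 : Ad (LV K 0) (rs (1 : Submodule A (LaurentSeries K))))
    {b : A} (hb : b ≠ 0) : {φ : A →ₐ[K] K | φ b = 0}.Finite := by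
  have hs : algebraMap A (LaurentSeries K) b ≠ 0 := fun h => hb (hinj (by rw [h, map_zero]))
  have hle : rs (sp A (algebraMap A (LaurentSeries K) b)) ≤
      rs (1 : Submodule A (LaurentSeries K)) :=
    rs_mono (sp_le_iff.2 (Submodule.mem_one.2 ⟨b, rfl⟩))
  have h2 : fd (rs (sp A (algebraMap A (LaurentSeries K) b)))
      (rs (1 : Submodule A (LaurentSeries K))) := (ad_sp h1 hs).fd_of_le hle h1
  -- the quotient is finite dimensional
  let g : A →ₗ[K] (LaurentSeries K ⧸ rs (sp A (algebraMap A (LaurentSeries K) b))) :=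
    (rs (sp A (algebraMap A (LaurentSeries K) b))).mkQ.comp
      ((Algebra.linearMap A (LaurentSeries K)).restrictScalars K)
  have hker : LinearMap.ker g = (Ideal.span {b}).restrictScalars K := by
    ext a
    rw [LinearMap.mem_ker, Submodule.restrictScalars_mem, Ideal.mem_span_singleton]
    change (Submodule.Quotient.mk (algebraMap A (LaurentSeries K) a) : _ ⧸ _) = 0 ↔ _
    rw [Submodule.Quotient.mk_eq_zero, mem_rs, sp, Submodule.mem_span_singleton]
    constructor
    · rintro ⟨c, hc⟩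
      refine ⟨c, hinj ?_⟩
      rw [← hc, map_mul, Algebra.smul_def, mul_comm]
    · rintro ⟨c, rfl⟩
      exact ⟨c, by rw [map_mul, Algebra.smul_def, mul_comm]⟩
  have hrange : LinearMap.range g ≤ (rs (1 : Submodule A (LaurentSeries K))).map
      (rs (sp A (algebraMap A (LaurentSeries K) b))).mkQ := by
    rintro _ ⟨a, rfl⟩
    exact ⟨algebraMap A (LaurentSeries K) a, Submodule.mem_one.2 ⟨a, rfl⟩, rfl⟩
  haveI : FiniteDimensional K ((rs (1 : Submodule A (LaurentSeries K))).map
      (rs (sp A (algebraMap A (LaurentSeries K) b))).mkQ) := h2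
  haveI : FiniteDimensional K (LinearMap.range g) := fd_mono hrange
  haveI : FiniteDimensional K (A ⧸ LinearMap.ker g) :=
    Module.Finite.equiv g.quotKerEquivRange.symm
  haveI : Module.Finite K (A ⧸ Ideal.span {b}) := by
    rw [hker] at this
    exact this
  haveI : Finite ((A ⧸ Ideal.span {b}) →ₐ[K] K) := Finite.algHom K _ K
  refine Set.Finite.subset (Set.finite_range (fun ψ : (A ⧸ Ideal.span {b}) →ₐ[K] K =>
    ψ.comp (Ideal.Quotient.mkₐ K (Ideal.span {b})))) ?_
  intro φ hφ
  refine ⟨Ideal.Quotient.liftₐ (Ideal.span {b}) φ fun a ha => ?_, ?_⟩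
  · obtain ⟨c, rfl⟩ := Ideal.mem_span_singleton.1 ha
    rw [map_mul, hφ, zero_mul]
  · ext a
    rfl

/-- a nonzero section vanishes at finitely many points -/
theorem finite_zeros (h1 : Ad (LV K 0) (rs (1 : Submodule A (LaurentSeries K))))
    (L : (Submodule A (LaurentSeries K))ˣ) {s : LaurentSeries K}
    (hs : s ∈ (L : Submodule A (LaurentSeries K))) (hs0 : s ≠ 0) :
    {φ : A →ₐ[K] K | s ∈ pp φ * (L : Submodule A (LaurentSeries K))}.Finite := by
  obtain ⟨t, ht, ht0⟩ := unit_exists_ne L⁻¹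
  have h2 : s * t ∈ (1 : Submodule A (LaurentSeries K)) := by
    rw [← Units.mul_inv L]
    exact Submodule.mul_mem_mul hs ht
  obtain ⟨b, hb⟩ := Submodule.mem_one.1 h2
  have hb0 : b ≠ 0 := by
    rintro rfl
    rw [map_zero] at hb
    exact mul_ne_zero hs0 ht0 hb.symm
  refine (finite_points hinj h1 hb0).subset fun φ hφ => ?_
  have h3 : s * t ∈ pp φ * (L : Submodule A (LaurentSeries K)) *
      (L⁻¹ : (Submodule A (LaurentSeries K))ˣ) := Submodule.mul_mem_mul hφ ht
  rw [mul_assoc, Units.mul_inv, mul_one, ← hb, alg_mem_pp hinj] at h3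
  exact h3

end Fermat.Agent.J25.Lat
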