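import Mathlib
import Fermat.Agent.J25.Lat3

set_option autoImplicit false
set_option linter.style.haveILetI false
set_option linter.unusedSectionVars false

/-!
# Generic points
-/

namespace Fermat.Agent.J25.Lat

attribute [-instance] HahnSeries.powerSeriesAlgebra

open Module HahnSeries

universe u

/-- successive generic choices -/
theorem exists_list {Φ : Type*} [Infinite Φ] {J : Type*} [Finite J] {X : J → Type*}
    (act : ∀ j, Φ → X j → X j) (P : ∀ j, ℕ → X j → Prop)
    (hstep : ∀ j n x, P j (n + 1) x → {φ | ¬ P j n (act j φ x)}.Finite) (n : ℕ)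
    (x : ∀ j, X j) (hx : ∀ j, P j n (x j)) :
    ∃ l : List Φ, l.length = n ∧ ∀ j, P j 0 (l.foldr (act j) (x j)) := by
  induction n generalizing x with
  | zero => exact ⟨[], rfl, hx⟩
  | succ n ih =>
    have hfin : (⋃ j, {φ | ¬ P j n (act j φ (x j))}).Finite :=
      Set.finite_iUnion fun j => hstep j n (x j) (hx j)
    obtain ⟨φ, hφ⟩ := hfin.infinite_compl.nonempty
    have hφ' : ∀ j, P j n (act j φ (x j)) := by
      intro j
      by_contra h
      exact hφ (Set.mem_iUnion.2 ⟨j, h⟩)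
    obtain ⟨l, hl, h⟩ := ih (fun j => act j φ (x j)) hφ'
    refine ⟨l ++ [φ], by rw [List.length_append, hl]; rfl, fun j => ?_⟩
    rw [List.foldr_append]
    exact h j

theorem foldr_mul {Φ G : Type*} [CommMonoid G] (m : Φ → G) (x : G) (l : List Φ) :
    l.foldr (fun φ y => m φ * y) x = (l.map m).prod * x := by
  induction l with
  | nil => simp
  | cons a l ih => rw [List.foldr_cons, ih, List.map_cons, List.prod_cons, mul_assoc]

variable {K : Type u} [Field K] {A : Type u} [CommRing A] [Algebra K A]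
  [Algebra A (LaurentSeries K)] [IsScalarTower K A (LaurentSeries K)]

/-- `H¹(L(-∞)) = 0` and `dim H⁰(L(-∞)) = n` -/
def Pn (n : ℕ) (L : (Submodule A (LaurentSeries K))ˣ) : Prop :=
  rs (L : Submodule A (LaurentSeries K)) ⊔ LV K 1 = ⊤ ∧
    FiniteDimensional K (rs (L : Submodule A (LaurentSeries K)) ⊓ LV K 1 : Submodule K _) ∧
    finrank K (rs (L : Submodule A (LaurentSeries K)) ⊓ LV K 1 : Submodule K _) = n

theorem Pn.isCompl {L : (Submodule A (LaurentSeries K))ˣ} (h : Pn 0 L) :
    IsCompl (rs (L : Submodule A (LaurentSeries K))) (LV K 1) := by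
  obtain ⟨h1, h2, h3⟩ := h
  exact ⟨disjoint_iff.2 (Submodule.finrank_eq_zero.1 h3), codisjoint_iff.2 h1⟩

theorem pn_of_chi (h1 : Ad (LV K 0) (rs (1 : Submodule A (LaurentSeries K))))
    {L : (Submodule A (LaurentSeries K))ˣ}
    (h : rs (L : Submodule A (LaurentSeries K)) ⊔ LV K 1 = ⊤) {n : ℕ}
    (hn : chi (LV K 1) (rs (L : Submodule A (LaurentSeries K))) = n) : Pn n L := by
  have hL := ad_unit (n := 1) h1 L
  refine ⟨h, hL.h0, ?_⟩
  rw [chi, h] at hn
  have h3 : finrank K (LaurentSeries K ⧸ (⊤ : Submodule K (LaurentSeries K))) = 0 := by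
    haveI : Subsingleton (LaurentSeries K ⧸ (⊤ : Submodule K (LaurentSeries K))) :=
      Submodule.Quotient.subsingleton_iff.2 rfl
    exact finrank_zero_of_subsingleton
  rw [h3] at hn
  exact_mod_cast by simpa using hn

variable (hinj : Function.Injective (algebraMap A (LaurentSeries K)))
include hinj

/-- one step -/
theorem pn_step (h1 : Ad (LV K 0) (rs (1 : Submodule A (LaurentSeries K)))) {n : ℕ}
    {L : (Submodule A (LaurentSeries K))ˣ} (hL : Pn (n + 1) L) :
    {φ : A →ₐ[K] K | ∃ m : (Submodule A (LaurentSeries K))ˣ,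
      (m : Submodule A (LaurentSeries K)) = pp φ ∧ ¬ Pn n (m * L)}.Finite := by
  obtain ⟨h2, h3, h4⟩ := hL
  obtain ⟨s, hs, hs0⟩ : ∃ s ∈ (rs (L : Submodule A (LaurentSeries K)) ⊓ LV K 1 :
      Submodule K _), s ≠ 0 := by
    by_contra hcon
    push Not at hcon
    have h5 : (rs (L : Submodule A (LaurentSeries K)) ⊓ LV K 1 : Submodule K _) = ⊥ := by
      rw [Submodule.eq_bot_iff]
      exact hcon
    rw [h5, finrank_bot] at h4
    omega
  refine (finite_zeros hinj h1 L hs.1 hs0).subset ?_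
  rintro φ ⟨m, hm, hP⟩
  by_contra hφ
  have hφ' : s ∉ pp φ * (L : Submodule A (LaurentSeries K)) := hφ
  apply hP
  have hcoe : ((m * L : (Submodule A (LaurentSeries K))ˣ) : Submodule A (LaurentSeries K)) =
      pp φ * (L : Submodule A (LaurentSeries K)) := by rw [Units.val_mul, hm]
  refine pn_of_chi h1 ?_ ?_
  · rw [hcoe, eq_top_iff, ← h2]
    refine sup_le (fun x hx => ?_) le_sup_right
    obtain ⟨c, hc⟩ := exists_coeff hinj φ L hs.1 hφ' x hx
    have e : x = (x - c • s) + c • s := by abel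
    rw [e]
    exact Submodule.add_mem_sup hc ((LV K 1).smul_mem c hs.2)
  · rw [hcoe, chi_pp_mul hinj h1, chi, h4, h2]
    have h5 : finrank K (LaurentSeries K ⧸ (⊤ : Submodule K (LaurentSeries K))) = 0 := by
      haveI : Subsingleton (LaurentSeries K ⧸ (⊤ : Submodule K (LaurentSeries K))) :=
        Submodule.Quotient.subsingleton_iff.2 rfl
      exact finrank_zero_of_subsingleton
    rw [h5]
    push_cast
    ring

/-- one step, for a family of points -/
theorem pn_step' (h1 : Ad (LV K 0) (rs (1 : Submodule A (LaurentSeries K)))) {Φ : Type*}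
    (β : Φ → (A →ₐ[K] K)) (hβ : Function.Injective β)
    (m : Φ → (Submodule A (LaurentSeries K))ˣ)
    (hm : ∀ φ, (m φ : Submodule A (LaurentSeries K)) = pp (β φ)) {n : ℕ}
    {L : (Submodule A (LaurentSeries K))ˣ} (hL : Pn (n + 1) L) :
    {φ : Φ | ¬ Pn n (m φ * L)}.Finite := by
  refine Set.Finite.of_finite_image (f := β) ((pn_step hinj h1 hL).subset ?_)
    hβ.injOn
  rintro _ ⟨φ, hφ, rfl⟩
  exact ⟨m φ, hm φ, hφ⟩

omit hinj

/-- multiplication by `w ^ n` -/
theorem rs_spu_pow_mul {w : LaurentSeries K} (hw : w ≠ 0) (n : ℕ)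
    (L : (Submodule A (LaurentSeries K))ˣ) :
    rs (((spu A w hw) ^ n * L : (Submodule A (LaurentSeries K))ˣ) :
      Submodule A (LaurentSeries K)) = (rs (L : Submodule A (LaurentSeries K))).map
        (mulE (w ^ n) (pow_ne_zero n hw) : LaurentSeries K →ₗ[K] LaurentSeries K) := by
  rw [← rs_sp_mul, Units.val_mul, Units.val_pow_eq_pow_val, coe_spu, Submodule.span_pow,
    Set.singleton_pow]

theorem order_pow' {w : LaurentSeries K} (n : ℕ) : (w ^ n).order = n * w.order := by
  rw [HahnSeries.order_pow, nsmul_eq_mul]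

/-- twisting -/
theorem exists_twist (h1 : Ad (LV K 0) (rs (1 : Submodule A (LaurentSeries K))))
    (M : (Submodule A (LaurentSeries K))ˣ) {w : LaurentSeries K} (hw : w ≠ 0)
    (hd : 0 < w.order) : ∃ n0 : ℕ, ∀ n ≥ n0, ∀ r : ℕ,
      chi (LV K 1) (rs (M : Submodule A (LaurentSeries K))) + n * w.order = r →
      Pn r ((spu A w hw) ^ n * M) := by
  obtain ⟨N, hN⟩ := exists_sup_eq_top (ad_unit (n := 0) h1 M)
  refine ⟨(1 - N).toNat, fun n hn r hr => pn_of_chi h1 ?_ ?_⟩
  · rw [rs_spu_pow_mul]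
    have h2 : LV K 1 = (LV K (1 - n * w.order)).map
        (mulE (w ^ n) (pow_ne_zero n hw) : LaurentSeries K →ₗ[K] LaurentSeries K) := by
      rw [map_mulE_LV, order_pow', sub_add_cancel]
    rw [h2, ← Submodule.map_sup, hN, Submodule.map_top, LinearEquiv.range]
    have h3 : (n : ℤ) ≤ n * w.order := le_mul_of_one_le_right (by positivity) (by omega)
    have h4 := Int.self_le_toNat (1 - N)
    omega
  · rw [rs_spu_pow_mul, chi_mul (ad_unit h1 M), order_pow', hr]

include hinj

/-- **generic points** (one field, finitely many lattices) -/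
theorem exists_generic (h1 : Ad (LV K 0) (rs (1 : Submodule A (LaurentSeries K))))
    {Φ : Type*} [Infinite Φ] (β : Φ → (A →ₐ[K] K)) (hβ : Function.Injective β)
    (m : Φ → (Submodule A (LaurentSeries K))ˣ)
    (hm : ∀ φ, (m φ : Submodule A (LaurentSeries K)) = pp (β φ))
    {w : LaurentSeries K} (hw : w ≠ 0) (hd : 0 < w.order) {J : Type*} [Finite J]
    (M : J → (Submodule A (LaurentSeries K))ˣ) (c : ℤ)
    (hM : ∀ j, chi (LV K 1) (rs (M j : Submodule A (LaurentSeries K))) = c) :
    ∃ n0 : ℕ, ∀ n ≥ n0, ∀ r : ℕ, c + n * w.order = r → ∃ l : List Φ, l.length = r ∧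
      ∀ j, IsCompl (rs (((l.map m).prod * ((spu A w hw) ^ n * M j) :
        (Submodule A (LaurentSeries K))ˣ) : Submodule A (LaurentSeries K))) (LV K 1) := by
  choose n0 hn0 using fun j => exists_twist h1 (M j) hw hd
  cases nonempty_fintype J
  refine ⟨∑ j, n0 j, fun n hn r hr => ?_⟩
  have hn' : ∀ j, n0 j ≤ n := fun j =>
    (Finset.single_le_sum (fun i _ => Nat.zero_le (n0 i)) (Finset.mem_univ j)).trans hn
  obtain ⟨l, hl, h⟩ := exists_list (Φ := Φ) (J := J)
    (X := fun _ => (Submodule A (LaurentSeries K))ˣ) (fun _ φ L => m φ * L) (fun _ => Pn)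
    (fun _ k L hL => pn_step' hinj h1 β hβ m hm hL) r (fun j => (spu A w hw) ^ n * M j)
    (fun j => hn0 j n (hn' j) r (by rw [hM, hr]))
  refine ⟨l, hl, fun j => ?_⟩
  have h2 := (h j).isCompl
  have e := foldr_mul m ((spu A w hw) ^ n * M j) l
  rw [← e]
  exact h2

end Fermat.Agent.J25.Lat
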