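import Mathlib
import Fermat.Agent.J25.Lat4

set_option autoImplicit false
set_option linter.style.haveILetI false
set_option linter.unusedSectionVars false

/-!
# Extension of the base field
-/

namespace Fermat.Agent.J25.Lat

attribute [-instance] HahnSeries.powerSeriesAlgebra

open Module HahnSeries

universe u

variable {K K' : Type u} [Field K] [Field K'] (f : K →+* K')

/-- the extension of scalars of a subspace of the field of Laurent series -/
def bcV (M : Submodule K (LaurentSeries K)) : Submodule K' (LaurentSeries K') :=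
  Submodule.span K' (lmap f '' (M : Set (LaurentSeries K)))

theorem lmap_mem_bcV {M : Submodule K (LaurentSeries K)} {x : LaurentSeries K} (hx : x ∈ M) :
    lmap f x ∈ bcV f M := Submodule.subset_span ⟨x, hx, rfl⟩

theorem bcV_mono {M N : Submodule K (LaurentSeries K)} (h : M ≤ N) : bcV f M ≤ bcV f N :=
  Submodule.span_mono (Set.image_mono h)

theorem bcV_LV_le (n : ℤ) : bcV f (LV K n) ≤ LV K' n := by
  rw [bcV, Submodule.span_le]
  rintro _ ⟨x, hx, rfl⟩
  exact lmap_mem_LV f hx

section comp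

variable [Algebra K K'] {ι : Type*} (b : Basis ι K K')

/-- the components of a Laurent series -/
noncomputable def cp (t : ι) (x : LaurentSeries K') : LaurentSeries K := HahnSeries.map x (b.coord t)

theorem cp_coeff (t : ι) (x : LaurentSeries K') (i : ℤ) :
    (cp b t x).coeff i = b.repr (x.coeff i) t := rfl

theorem cp_add (t : ι) (x y : LaurentSeries K') : cp b t (x + y) = cp b t x + cp b t y := by
  ext i
  rw [cp_coeff, HahnSeries.coeff_add, HahnSeries.coeff_add, cp_coeff, cp_coeff, map_add,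
    Finsupp.add_apply]

theorem cp_smul_lmap (t : ι) (c : K') (x : LaurentSeries K) :
    cp b t (c • lmap (algebraMap K K') x) = b.repr c t • x := by
  ext i
  rw [cp_coeff, HahnSeries.coeff_smul, HahnSeries.coeff_smul, lmap_coeff, smul_eq_mul, mul_comm,
    ← Algebra.smul_def, map_smul, Finsupp.smul_apply, smul_eq_mul, smul_eq_mul, mul_comm]

theorem cp_sum {σ : Type*} (s : Finset σ) (g : σ → LaurentSeries K') (t : ι) :
    cp b t (∑ j ∈ s, g j) = ∑ j ∈ s, cp b t (g j) := by
  classical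
  induction s using Finset.induction_on with
  | empty =>
    rw [Finset.sum_empty, Finset.sum_empty]
    ext i
    rw [cp_coeff, HahnSeries.coeff_zero, map_zero]
    rfl
  | insert a s ha ih => rw [Finset.sum_insert ha, Finset.sum_insert ha, cp_add, ih]

theorem cp_mem_LV {n : ℤ} {x : LaurentSeries K'} (hx : x ∈ LV K' n) (t : ι) :
    cp b t x ∈ LV K n := fun i hi => by
  rw [cp_coeff, hx i hi, map_zero]
  rfl

theorem cp_mem {M : Submodule K (LaurentSeries K)} {x : LaurentSeries K'}
    (hx : x ∈ bcV (algebraMap K K') M) (t : ι) : cp b t x ∈ M := by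
  rw [bcV, Submodule.mem_span_set'] at hx
  obtain ⟨n, c, g, rfl⟩ := hx
  rw [cp_sum]
  refine M.sum_mem fun j _ => ?_
  obtain ⟨y, hy, hyg⟩ := (g j).2
  rw [← hyg, cp_smul_lmap]
  exact M.smul_mem _ hy

/-- the decomposition of the elements of an extension of scalars -/
theorem eq_sum_cp {M : Submodule K (LaurentSeries K)} {x : LaurentSeries K'}
    (hx : x ∈ bcV (algebraMap K K') M) :
    ∃ F : Finset ι, x = ∑ t ∈ F, b t • lmap (algebraMap K K') (cp b t x) := by
  classical
  rw [bcV, Submodule.mem_span_set'] at hx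
  obtain ⟨n, c, g, rfl⟩ := hx
  choose y hy hyg using fun j => (g j).2
  refine ⟨Finset.univ.biUnion fun j => (b.repr (c j)).support, ?_⟩
  have e1 : ∀ t, cp b t (∑ j, c j • (g j : LaurentSeries K')) = ∑ j, b.repr (c j) t • y j := by
    intro t
    rw [cp_sum]
    refine Finset.sum_congr rfl fun j _ => ?_
    rw [← hyg, cp_smul_lmap]
  have e2 : ∀ j, c j = ∑ t ∈ Finset.univ.biUnion fun j => (b.repr (c j)).support,
      b.repr (c j) t • b t := by
    intro j
    have h1 := b.linearCombination_repr (c j)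
    rw [Finsupp.linearCombination_apply, Finsupp.sum] at h1
    conv_lhs => rw [← h1]
    refine Finset.sum_subset (Finset.subset_biUnion_of_mem (fun j => (b.repr (c j)).support)
      (Finset.mem_univ j)) fun t _ ht => ?_
    rw [Finsupp.notMem_support_iff.1 ht, zero_smul]
  have e3 : ∀ j, c j • (g j : LaurentSeries K') =
      ∑ t ∈ Finset.univ.biUnion fun j => (b.repr (c j)).support,
        b t • lmap (algebraMap K K') (b.repr (c j) t • y j) := by
    intro j
    conv_lhs => rw [e2 j, Finset.sum_smul]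
    refine Finset.sum_congr rfl fun t _ => ?_
    rw [lmap_smul, ← hyg, smul_smul]
    congr 1
    rw [Algebra.smul_def, mul_comm]
  have e4 : ∑ j, c j • (g j : LaurentSeries K') =
      ∑ t ∈ Finset.univ.biUnion fun j => (b.repr (c j)).support,
        b t • lmap (algebraMap K K') (∑ j, b.repr (c j) t • y j) := by
    rw [Finset.sum_congr rfl fun j _ => e3 j, Finset.sum_comm]
    refine Finset.sum_congr rfl fun t _ => ?_
    rw [map_sum, Finset.smul_sum]
  conv_lhs => rw [e4]
  refine Finset.sum_congr rfl fun t _ => ?_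
  rw [e1]

theorem bcV_inf (M : Submodule K (LaurentSeries K)) (n : ℤ) :
    bcV (algebraMap K K') M ⊓ LV K' n = bcV (algebraMap K K') (M ⊓ LV K n) := by
  apply le_antisymm
  · rintro x ⟨hx1, hx2⟩
    obtain ⟨F, hF⟩ := eq_sum_cp (Basis.ofVectorSpace K K') hx1
    rw [hF]
    refine Submodule.sum_mem _ fun t _ => Submodule.smul_mem _ _ (lmap_mem_bcV _ ⟨?_, ?_⟩)
    · exact cp_mem _ hx1 t
    · exact cp_mem_LV _ hx2 t
  · exact le_inf (bcV_mono _ inf_le_left) ((bcV_mono _ inf_le_right).trans (bcV_LV_le _ n))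

/-- comparison of quotients -/
theorem exists_basis_quot {X Y : Submodule K (LaurentSeries K)}
    {X' Y' : Submodule K' (LaurentSeries K')} (hY : Y' = X' ⊔ bcV (algebraMap K K') Y)
    (hX : ∀ x ∈ X', ∀ t, cp b t x ∈ X) (hXX : bcV (algebraMap K K') X ≤ X')
    {σ : Type*} (β : Basis σ K (Y.map X.mkQ)) : Nonempty (Basis σ K' (Y'.map X'.mkQ)) := by
  classical
  choose y hy hyβ using fun s => (β s).2
  have hmem : ∀ s, X'.mkQ (lmap (algebraMap K K') (y s)) ∈ Y'.map X'.mkQ := by
    intro s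
    refine ⟨_, ?_, rfl⟩
    rw [hY]
    exact (le_sup_right : _ ≤ X' ⊔ _) (lmap_mem_bcV _ (hy s))
  let v : σ → Y'.map X'.mkQ := fun s => ⟨_, hmem s⟩
  refine ⟨Basis.mk (v := v) ?_ ?_⟩
  · rw [linearIndependent_iff']
    intro S g hg s hs
    have h1 : ∑ s ∈ S, g s • lmap (algebraMap K K') (y s) ∈ X' := by
      have h2 := congrArg Subtype.val hg
      rw [AddSubmonoidClass.coe_finsetSum, ZeroMemClass.coe_zero] at h2
      rw [← Submodule.Quotient.mk_eq_zero, ← Submodule.mkQ_apply, map_sum, ← h2]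
      refine Finset.sum_congr rfl fun j _ => ?_
      rw [map_smul]
      rfl
    have h3 : ∀ t, b.repr (g s) t = 0 := by
      intro t
      have h4 := hX _ h1 t
      rw [cp_sum, Finset.sum_congr rfl fun j _ => cp_smul_lmap b t (g j) (y j)] at h4
      have h5 : ∑ j ∈ S, b.repr (g j) t • β j = 0 := by
        apply Subtype.ext
        rw [AddSubmonoidClass.coe_finsetSum, ZeroMemClass.coe_zero]
        rw [← Submodule.Quotient.mk_eq_zero, ← Submodule.mkQ_apply, map_sum] at h4
        rw [← h4]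
        refine Finset.sum_congr rfl fun j _ => ?_
        rw [map_smul, hyβ]
        rfl
      exact linearIndependent_iff'.1 β.linearIndependent S _ h5 s hs
    apply b.repr.injective
    rw [map_zero]
    ext t
    exact h3 t
  · rintro ⟨x, hx⟩ -
    obtain ⟨z, hz, rfl⟩ := id hx
    have hz' : z ∈ X' ⊔ bcV (algebraMap K K') Y := by rw [← hY]; exact hz
    obtain ⟨x', hx', w, hw, rfl⟩ := Submodule.mem_sup.1 hz'
    -- it suffices to treat `lmap y`
    have key : ∀ w ∈ bcV (algebraMap K K') Y, ∃ h : X'.mkQ w ∈ Y'.map X'.mkQ,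
        (⟨X'.mkQ w, h⟩ : Y'.map X'.mkQ) ∈ Submodule.span K' (Set.range v) := by
      intro w hw
      have hle : bcV (algebraMap K K') Y ≤ Y' := by rw [hY]; exact le_sup_right
      refine Submodule.span_induction (p := fun w _ => ∃ h : X'.mkQ w ∈ Y'.map X'.mkQ,
        (⟨X'.mkQ w, h⟩ : Y'.map X'.mkQ) ∈ Submodule.span K' (Set.range v)) ?_ ?_ ?_ ?_ hw
      · rintro _ ⟨y0, hy0, rfl⟩
        refine ⟨⟨_, hle (lmap_mem_bcV _ hy0), rfl⟩, ?_⟩
        have h6 := β.linearCombination_repr ⟨X.mkQ y0, ⟨y0, hy0, rfl⟩⟩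
        rw [Finsupp.linearCombination_apply, Finsupp.sum] at h6
        obtain ⟨cf, hcf⟩ : ∃ cf, cf = β.repr ⟨X.mkQ y0, ⟨y0, hy0, rfl⟩⟩ := ⟨_, rfl⟩
        rw [← hcf] at h6
        have h7 : y0 - ∑ s ∈ cf.support, cf s • y s ∈ X := by
          rw [← Submodule.Quotient.mk_eq_zero, ← Submodule.mkQ_apply, map_sub, sub_eq_zero,
            map_sum]
          have h8 := congrArg Subtype.val h6
          rw [AddSubmonoidClass.coe_finsetSum] at h8
          refine h8.symm.trans ?_
          refine Finset.sum_congr rfl fun j _ => ?_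
          rw [map_smul, hyβ]
          rfl
        have h9 : lmap (algebraMap K K') y0 - ∑ s ∈ cf.support, algebraMap K K' (cf s) •
            lmap (algebraMap K K') (y s) ∈ X' := by
          have := hXX (lmap_mem_bcV _ h7)
          rw [map_sub, map_sum] at this
          simpa only [lmap_smul] using this
        have h10 : (⟨X'.mkQ (lmap (algebraMap K K') y0), ⟨_, hle (lmap_mem_bcV _ hy0), rfl⟩⟩ :
            Y'.map X'.mkQ) = ∑ s ∈ cf.support, algebraMap K K' (cf s) • v s := by
          apply Subtype.ext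
          rw [AddSubmonoidClass.coe_finsetSum]
          change X'.mkQ (lmap (algebraMap K K') y0) = _
          rw [← sub_eq_zero]
          rw [← Submodule.Quotient.mk_eq_zero, ← Submodule.mkQ_apply, map_sub, map_sum] at h9
          rw [← h9]
          congr 1
        rw [h10]
        exact Submodule.sum_mem _ fun s _ => Submodule.smul_mem _ _
          (Submodule.subset_span ⟨s, rfl⟩)
      · refine ⟨by rw [map_zero]; exact zero_mem _, ?_⟩
        have : (⟨X'.mkQ 0, by rw [map_zero]; exact zero_mem _⟩ : Y'.map X'.mkQ) = 0 :=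
          Subtype.ext (map_zero _)
        rw [this]
        exact zero_mem _
      · rintro w1 w2 _ _ ⟨h1, h1'⟩ ⟨h2, h2'⟩
        refine ⟨by rw [map_add]; exact add_mem h1 h2, ?_⟩
        have : (⟨X'.mkQ (w1 + w2), by rw [map_add]; exact add_mem h1 h2⟩ : Y'.map X'.mkQ) =
            ⟨X'.mkQ w1, h1⟩ + ⟨X'.mkQ w2, h2⟩ := Subtype.ext (map_add _ _ _)
        rw [this]
        exact add_mem h1' h2'
      · rintro c w1 _ ⟨h1, h1'⟩
        refine ⟨by rw [map_smul]; exact Submodule.smul_mem _ _ h1, ?_⟩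
        have : (⟨X'.mkQ (c • w1), by rw [map_smul]; exact Submodule.smul_mem _ _ h1⟩ :
            Y'.map X'.mkQ) = c • ⟨X'.mkQ w1, h1⟩ := Subtype.ext (map_smul _ _ _)
        rw [this]
        exact Submodule.smul_mem _ _ h1'
    obtain ⟨h, h'⟩ := key w hw
    have e : (⟨X'.mkQ (x' + w), hx⟩ : Y'.map X'.mkQ) = ⟨X'.mkQ w, h⟩ := by
      apply Subtype.ext
      change X'.mkQ (x' + w) = X'.mkQ w
      rw [map_add]
      have : X'.mkQ x' = 0 := (Submodule.Quotient.mk_eq_zero _).2 hx'
      rw [this, zero_add]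
    rw [e]
    exact h'

end comp

section main

variable [Algebra K K']

theorem fd_rd_bc {X Y : Submodule K (LaurentSeries K)}
    {X' Y' : Submodule K' (LaurentSeries K')} (hY : Y' = X' ⊔ bcV (algebraMap K K') Y)
    (hX : ∀ x ∈ X', ∀ t, cp (Basis.ofVectorSpace K K') t x ∈ X)
    (hXX : bcV (algebraMap K K') X ≤ X') : (fd X' Y' ↔ fd X Y) ∧ rd X' Y' = rd X Y := by
  have β := Basis.ofVectorSpace K (Y.map X.mkQ)
  obtain ⟨β'⟩ := exists_basis_quot (Basis.ofVectorSpace K K') hY hX hXX β
  refine ⟨⟨fun h => ?_, fun h => ?_⟩, ?_⟩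
  · haveI : FiniteDimensional K' (Y'.map X'.mkQ) := h
    haveI := Module.Finite.finite_basis β'
    exact Module.Finite.of_basis β
  · haveI : FiniteDimensional K (Y.map X.mkQ) := h
    haveI := Module.Finite.finite_basis β
    exact Module.Finite.of_basis β'
  · rw [rd, rd, Module.finrank_eq_nat_card_basis β, Module.finrank_eq_nat_card_basis β']

theorem LV_le_sup (n : ℤ) (d : ℕ) : LV K' (n - d) ≤ LV K' n ⊔ bcV (algebraMap K K') ⊤ := by
  induction d with
  | zero => rw [Nat.cast_zero, sub_zero]; exact le_sup_left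
  | succ d ih =>
    intro x hx
    have e : x = (x - x.coeff (n - (d + 1 : ℕ)) • lmap (algebraMap K K')
        (single (n - (d + 1 : ℕ) : ℤ) 1)) + x.coeff (n - (d + 1 : ℕ)) • lmap (algebraMap K K')
        (single (n - (d + 1 : ℕ) : ℤ) 1) := by abel
    rw [e]
    refine Submodule.add_mem _ (ih fun i hi => ?_) ((le_sup_right : _ ≤ LV K' n ⊔ _)
      (Submodule.smul_mem _ _ (lmap_mem_bcV _ trivial)))
    rw [HahnSeries.coeff_sub, HahnSeries.coeff_smul, lmap_single, coeff_single]
    split_ifs with h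
    · rw [h, map_one, smul_eq_mul, mul_one, sub_self]
    · rw [smul_zero, sub_zero]
      refine hx i ?_
      have : i ≠ n - (d + 1 : ℕ) := h
      push_cast at this ⊢
      omega

theorem top_eq_sup (n : ℤ) : (⊤ : Submodule K' (LaurentSeries K')) =
    LV K' n ⊔ bcV (algebraMap K K') ⊤ := by
  symm
  rw [eq_top_iff]
  intro x _
  obtain ⟨m, hm⟩ := exists_mem_LV x
  refine LV_le_sup n (n + m).toNat (LV_mono ?_ hm)
  have := Int.self_le_toNat (n + m)
  omega

theorem fd_rd_h0 (M : Submodule K (LaurentSeries K)) (n : ℤ) :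
    (fd ⊥ (bcV (algebraMap K K') M ⊓ LV K' n) ↔ fd ⊥ (M ⊓ LV K n)) ∧
      rd ⊥ (bcV (algebraMap K K') M ⊓ LV K' n) = rd ⊥ (M ⊓ LV K n) := by
  refine fd_rd_bc ?_ ?_ ?_
  · rw [bot_sup_eq, bcV_inf]
  · intro x hx t
    rw [Submodule.mem_bot] at hx ⊢
    rw [hx]
    ext i
    rw [cp_coeff, HahnSeries.coeff_zero, map_zero]
    rfl
  · rw [bcV, Submodule.span_le]
    rintro _ ⟨x, hx, rfl⟩
    have h0 : x = 0 := hx
    rw [h0, map_zero]
    exact zero_mem _

theorem fd_rd_h1 (M : Submodule K (LaurentSeries K)) (n : ℤ) :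
    (fd (bcV (algebraMap K K') M ⊔ LV K' n) ⊤ ↔ fd (M ⊔ LV K n) ⊤) ∧
      rd (bcV (algebraMap K K') M ⊔ LV K' n) ⊤ = rd (M ⊔ LV K n) ⊤ := by
  refine fd_rd_bc ?_ ?_ ?_
  · rw [sup_assoc, ← top_eq_sup, sup_top_eq]
  · intro x hx t
    obtain ⟨y, hy, z, hz, rfl⟩ := Submodule.mem_sup.1 hx
    rw [cp_add]
    exact Submodule.add_mem_sup (cp_mem _ hy t) (cp_mem_LV _ hz t)
  · rw [bcV, Submodule.span_le]
    rintro _ ⟨x, hx, rfl⟩
    obtain ⟨y, hy, z, hz, rfl⟩ := Submodule.mem_sup.1 hx
    rw [map_add]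
    exact Submodule.add_mem_sup (lmap_mem_bcV _ hy) (lmap_mem_LV _ hz)

theorem fd_bot {V : Type*} [AddCommGroup V] [Module K V] {Y : Submodule K V} :
    fd ⊥ Y ↔ FiniteDimensional K Y := by
  constructor
  · intro h
    refine fd_of_map (f := (⊥ : Submodule K V).mkQ) h ?_
    rw [Submodule.ker_mkQ, inf_bot_eq]
    infer_instance
  · intro h
    exact fd_map _ _

theorem rd_bot {V : Type*} [AddCommGroup V] [Module K V] {Y : Submodule K V} :
    rd ⊥ Y = finrank K Y := by
  rw [rd]
  exact (LinearEquiv.finrank_eq (Submodule.equivMapOfInjective _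
    (by rw [← LinearMap.ker_eq_bot, Submodule.ker_mkQ]) Y)).symm

/-- **extension of the base field: finiteness** -/
theorem ad_bcV {M : Submodule K (LaurentSeries K)} {n : ℤ} :
    Ad (LV K' n) (bcV (algebraMap K K') M) ↔ Ad (LV K n) M := by
  constructor
  · rintro ⟨h0, h1⟩
    exact ⟨fd_bot.1 ((fd_rd_h0 M n).1.1 (fd_bot.2 h0)), fd_top.1 ((fd_rd_h1 M n).1.1 (fd_top.2 h1))⟩
  · rintro ⟨h0, h1⟩
    exact ⟨fd_bot.1 ((fd_rd_h0 M n).1.2 (fd_bot.2 h0)), fd_top.1 ((fd_rd_h1 M n).1.2 (fd_top.2 h1))⟩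

theorem h0_bcV (M : Submodule K (LaurentSeries K)) (n : ℤ) :
    finrank K' (bcV (algebraMap K K') M ⊓ LV K' n : Submodule K' (LaurentSeries K')) =
      finrank K (M ⊓ LV K n : Submodule K (LaurentSeries K)) := by
  rw [← rd_bot, ← rd_bot, (fd_rd_h0 M n).2]

theorem h1_bcV (M : Submodule K (LaurentSeries K)) (n : ℤ) :
    finrank K' (LaurentSeries K' ⧸ (bcV (algebraMap K K') M ⊔ LV K' n)) =
      finrank K (LaurentSeries K ⧸ (M ⊔ LV K n)) := by
  rw [← rd_top, ← rd_top, (fd_rd_h1 M n).2]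

/-- **extension of the base field: the index** -/
theorem chi_bcV (M : Submodule K (LaurentSeries K)) (n : ℤ) :
    chi (LV K' n) (bcV (algebraMap K K') M) = chi (LV K n) M := by
  rw [chi, chi, h0_bcV, h1_bcV]

theorem inf_eq_bot_bcV (M : Submodule K (LaurentSeries K)) (n : ℤ) :
    bcV (algebraMap K K') M ⊓ LV K' n = ⊥ ↔ M ⊓ LV K n = ⊥ := by
  rw [bcV_inf]
  constructor
  · intro h
    rw [Submodule.eq_bot_iff] at h ⊢
    intro x hx
    have := h _ (lmap_mem_bcV (algebraMap K K') hx)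
    exact lmap_injective (algebraMap K K').injective (by rw [this, map_zero])
  · intro h
    rw [h, bcV, Submodule.span_eq_bot]
    rintro _ ⟨x, hx, rfl⟩
    have h0 : x = 0 := hx
    rw [h0, map_zero]

theorem sup_eq_top_bcV (M : Submodule K (LaurentSeries K)) (n : ℤ) :
    bcV (algebraMap K K') M ⊔ LV K' n = ⊤ ↔ M ⊔ LV K n = ⊤ := by
  constructor
  · intro h
    rw [eq_top_iff]
    intro x _
    -- a coordinate which does not vanish at `1`
    have h1 : lmap (algebraMap K K') x ∈ bcV (algebraMap K K') M ⊔ LV K' n := by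
      rw [h]; trivial
    obtain ⟨t, ht⟩ : ∃ t, (Basis.ofVectorSpace K K').repr 1 t ≠ 0 := by
      by_contra hcon
      push Not at hcon
      have : (Basis.ofVectorSpace K K').repr 1 = 0 := Finsupp.ext hcon
      rw [map_eq_zero_iff _ (Basis.ofVectorSpace K K').repr.injective] at this
      exact one_ne_zero this
    obtain ⟨y, hy, z, hz, hyz⟩ := Submodule.mem_sup.1 h1
    have h2 : cp (Basis.ofVectorSpace K K') t (lmap (algebraMap K K') x) ∈ M ⊔ LV K n := by
      rw [← hyz, cp_add]
      exact Submodule.add_mem_sup (cp_mem _ hy t) (cp_mem_LV _ hz t)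
    have h3 := cp_smul_lmap (Basis.ofVectorSpace K K') t 1 x
    rw [one_smul] at h3
    rw [h3] at h2
    have h4 := (M ⊔ LV K n).smul_mem ((Basis.ofVectorSpace K K').repr 1 t)⁻¹ h2
    rwa [smul_smul, inv_mul_cancel₀ ht, one_smul] at h4
  · intro h
    rw [eq_top_iff, top_eq_sup (K := K) n]
    refine sup_le le_sup_right ?_
    rw [← h, bcV, Submodule.span_le]
    rintro _ ⟨x, hx, rfl⟩
    obtain ⟨y, hy, z, hz, rfl⟩ := Submodule.mem_sup.1 hx
    rw [map_add]
    exact Submodule.add_mem_sup (lmap_mem_bcV _ hy) (lmap_mem_LV _ hz)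

theorem isCompl_bcV (M : Submodule K (LaurentSeries K)) (n : ℤ) :
    IsCompl (bcV (algebraMap K K') M) (LV K' n) ↔ IsCompl M (LV K n) := by
  rw [isCompl_iff, isCompl_iff, disjoint_iff, disjoint_iff, codisjoint_iff, codisjoint_iff,
    inf_eq_bot_bcV, sup_eq_top_bcV]

end main

end Fermat.Agent.J25.Lat
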