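import Mathlib
import Fermat.Agent.J25.CutA0
import Fermat.Agent.J25.Hub2
import Fermat.Agent.J25.Lat5

/-!
# Local constancy of the degree
-/

set_option autoImplicit false

universe u

open CategoryTheory CategoryTheory.Limits AlgebraicGeometry TopologicalSpace Opposite
open AlgebraicGeometry.RelPicard NeronModelInfra

noncomputable section

namespace Fermat.Agent.J25.Cut

attribute [-instance] HahnSeries.powerSeriesAlgebra

section alg

variable {k : Type u} [Field k] {A : Type u} [CommRing A] [Algebra k A]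
  {e : A →ₐ[k] LaurentSeries k} {a : A}

/-- functoriality of the base change of lattices -/
theorem bc_bc {R S S' : Type u} [CommRing R] [Algebra k R] [CommRing S] [Algebra k S]
    [CommRing S'] [Algebra k S'] (f : R →ₐ[k] S) (f' : S →ₐ[k] S') (M : G e (R := R) a) :
    bc f' (bc f M) = bc (f'.comp f) M := by
  apply G.ext
  rw [bc_sub, bc_sub, bc_sub]
  have hcomp : ∀ x : LaurentSeries R, lmap (f' : S →+* S') (lmap (f : R →+* S) x) =
      lmap ((f'.comp f : R →ₐ[k] S') : R →+* S') x := by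
    intro x
    ext i
    rw [lmap_coeff, lmap_coeff, lmap_coeff]
    rfl
  apply le_antisymm
  · rw [Submodule.span_le]
    rintro _ ⟨y, hy, rfl⟩
    refine Submodule.span_induction (p := fun y _ => lmap (f' : S →+* S') y ∈ Submodule.span S'
      (lmap ((f'.comp f : R →ₐ[k] S') : R →+* S') '' (G.sub M : Set (LaurentSeries R))))
      ?_ ?_ ?_ ?_ hy
    · rintro _ ⟨x, hx, rfl⟩
      rw [hcomp]
      exact Submodule.subset_span ⟨x, hx, rfl⟩
    · rw [map_zero]
      exact zero_mem _
    · intro x y _ _ hx hy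
      rw [map_add]
      exact add_mem hx hy
    · intro s x _ hx
      rw [lmap_smul]
      exact Submodule.smul_mem _ _ hx
  · rw [Submodule.span_le]
    rintro _ ⟨x, hx, rfl⟩
    rw [← hcomp]
    exact Submodule.subset_span ⟨_, Submodule.subset_span ⟨x, hx, rfl⟩, rfl⟩

/-- the index is invariant under extension of the base field -/
theorem chi_bc {K K' : Type u} [Field K] [Algebra k K] [Field K'] [Algebra k K']
    (f : K →ₐ[k] K') (M : G e (R := K) a) : chi (G.sub (bc f M)) = chi (G.sub M) := by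
  let _ : Algebra K K' := (f : K →+* K').toAlgebra
  have h := Lat.chi_bcV (K := K) (K' := K') (G.sub M) 1
  rw [bc_sub]
  exact h

theorem chi_bc_one (K : Type u) [Field K] [Algebra k K] :
    chi (G.sub (1 : G e (R := K) a)) = chi (G.sub (1 : G e (R := k) a)) := by
  rw [← chi_bc (Algebra.ofId k K) (1 : G e (R := k) a), map_one]

theorem isDegZero_iff {K : Type u} [Field K] [Algebra k K] (M : G e (R := K) a) :
    IsDegZero M ↔ chi (G.sub M) = chi (G.sub (1 : G e (R := k) a)) := by
  rw [IsDegZero, chi_bc_one K]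

theorem isDegZero_bc {K K' : Type u} [Field K] [Algebra k K] [Field K'] [Algebra k K']
    (f : K →ₐ[k] K') (M : G e (R := K) a) : IsDegZero (bc f M) ↔ IsDegZero M := by
  rw [isDegZero_iff, isDegZero_iff, chi_bc]

/-- the point of `Spec R` under a map to a field -/
def ptOf {R K : Type u} [CommRing R] [Algebra k R] [Field K] [Algebra k K] (φ : R →ₐ[k] K) :
    PrimeSpectrum R := ⟨RingHom.ker (φ : R →+* K), RingHom.ker_isPrime _⟩

/-- the index of the fibre at a point -/
def chiAt {R : Type u} [CommRing R] [Algebra k R] (M : G e (R := R) a) (x : PrimeSpectrum R) : ℤ :=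
  chi (G.sub (bc (IsScalarTower.toAlgHom k R x.asIdeal.ResidueField) M))

theorem chi_bc_eq_chiAt {R K : Type u} [CommRing R] [Algebra k R] [Field K] [Algebra k K]
    (φ : R →ₐ[k] K) (M : G e (R := R) a) : chi (G.sub (bc φ M)) = chiAt M (ptOf φ) := by
  have hker : (ptOf φ).asIdeal = RingHom.ker (φ : R →+* K) := rfl
  let ψ : (ptOf φ).asIdeal.ResidueField →ₐ[k] K :=
    Ideal.ResidueField.liftₐ (ptOf φ).asIdeal φ hker.le (by
      intro x hx
      refine isUnit_iff_ne_zero.mpr fun h => hx ?_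
      exact h)
  have hψ : ψ.comp (IsScalarTower.toAlgHom k R (ptOf φ).asIdeal.ResidueField) = φ :=
    Ideal.ResidueField.liftₐ_comp_toAlgHom _ _ _ _
  rw [chiAt, ← chi_bc ψ, bc_bc, hψ]

end alg

section geom

variable {k : Type u} [Field k] {C : Scheme.{u}} {c : C ⟶ Spec (CommRingCat.of k)}
    {ε : SchemeHomOver (𝟙 (Spec (CommRingCat.of k))) c} {g : Geo c ε}

/-- a morphism to `Spec k` comes from an algebra structure -/
theorem exists_algebra (R : Type u) [CommRing R]
    (σ : Spec (CommRingCat.of R) ⟶ Spec (CommRingCat.of k)) :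
    ∃ _ : Algebra k R, σ = sS k R := by
  refine ⟨(Spec.preimage σ).hom.toAlgebra, ?_⟩
  exact (Spec.map_preimage σ).symm

/-- the algebra structure is determined by the morphism -/
theorem algebra_unique {R : Type u} [CommRing R] (i j : Algebra k R)
    (h : @sS k R _ _ i = @sS k R _ _ j) : i = j := by
  have h1 := Spec.map_injective h
  have h2 : (@algebraMap k R _ _ i) = @algebraMap k R _ _ j := congrArg (fun f => f.hom) h1
  exact Algebra.algebra_ext _ _ fun r => congrArg (fun f : k →+* R => f r) h2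

/-- degree zero at a geometric point -/
def DzAt (D : PicData g) {T : Scheme.{u}} (t : T ⟶ Spec (CommRingCat.of k))
    (l : PicC (pullback c t)) (K : Type u) [Field K] (s : Spec (CommRingCat.of K) ⟶ T) : Prop :=
  ∀ (_ : Algebra k K) (h : s ≫ t = sS k K),
    D.DegZ (PicC.map (baseChangeSnd c (⟨s, h⟩ : SchemeHomOver (sS k K) t)) l)

variable (D : PicData g) {T : Scheme.{u}} {t : T ⟶ Spec (CommRingCat.of k)}
  (l : PicC (pullback c t))

theorem dzAt_iff {K : Type u} [Field K] [i : Algebra k K] (s : SchemeHomOver (sS k K) t) :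
    DzAt D t l K s.1 ↔ D.DegZ (PicC.map (baseChangeSnd c s) l) := by
  constructor
  · intro h
    exact h i s.2
  · intro h j hj
    obtain rfl : i = j := algebra_unique i j (s.2.symm.trans hj)
    exact h

theorem deg0_iff : D.Deg0 t l ↔
    ∀ (K : Type u) [Field K] [IsAlgClosed K] (s : Spec (CommRingCat.of K) ⟶ T),
      DzAt D t l K s :=
  ⟨fun h K _ _ s _ hs => h K ⟨s, hs⟩, fun h K _ _ i s => (dzAt_iff D l s).mp (h K s.1)⟩

/-- degree zero at a point of an affine chart, in terms of a lattice -/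
theorem degZ_chart {R : Type u} [CommRing R] [Algebra k R] (i : SchemeHomOver (sS k R) t)
    (M : G g.e (R := R) g.a)
    (hM : D.toPic R M = PicC.map (baseChangeSnd c i) (nrm c ε t l))
    {K : Type u} [Field K] [Algebra k K] (φ : R →ₐ[k] K) :
    D.DegZ (PicC.map (baseChangeSnd c (postComp i (sH φ))) l) ↔
      chiAt M (ptOf φ) = chi (G.sub (1 : G g.e (R := k) g.a)) := by
  have h1 : PicC.map (baseChangeSnd c (postComp i (sH φ))) l = D.toPic K (bc φ M) := by
    rw [D.nat, hM, ← PicC.map_comp_apply, baseChangeSnd_comp]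
    exact (rst_nrm_of_subsingleton ε (postComp i (sH φ)) l).symm
  rw [h1, D.degZ_toPic, isDegZero_iff, chi_bc_eq_chiAt]

/-- the hypothesis (6b): local constancy of the index of the fibres -/
def H6b (g : Geo c ε) : Prop := ∀ (R : Type u) [CommRing R] [Algebra k R]
  (M : G g.e (R := R) g.a), IsLocallyConstant (chiAt M)

/-- every point has a neighbourhood on which the degree is constant -/
theorem local_const (h6 : H6b g) (x : T) : ∃ W : T.Opens, x ∈ W ∧
    ∀ (K₀ : Type u) [Field K₀] [IsAlgClosed K₀]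
      (s₀ : Spec (CommRingCat.of K₀) ⟶ T) (K₁ : Type u) [Field K₁] [IsAlgClosed K₁]
      (s₁ : Spec (CommRingCat.of K₁) ⟶ T), (∀ y, s₀ y ∈ W) → (∀ y, s₁ y ∈ W) →
        DzAt D t l K₀ s₀ → DzAt D t l K₁ s₁ := by
  obtain ⟨U, hU, hxU, -⟩ := exists_isAffineOpen_mem_and_subset (Opens.mem_top x)
  obtain ⟨iR, hiR⟩ := exists_algebra (k := k) Γ(T, U) (hU.fromSpec ≫ t)
  let i : SchemeHomOver (sS k Γ(T, U)) t := ⟨hU.fromSpec, hiR⟩
  obtain ⟨M, hM⟩ := D.surj Γ(T, U) (PicC.map (baseChangeSnd c i) (nrm c ε t l)) (by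
    have := map_rigSection_rst ε i (nrm c ε t l)
    rw [map_rigSection_nrm, map_one] at this
    exact this)
  obtain ⟨x', hx'⟩ : x ∈ Set.range hU.fromSpec := by rw [hU.range_fromSpec]; exact hxU
  -- the open set where the index is that at `x`
  let O : (Spec (CommRingCat.of Γ(T, U))).Opens :=
    ⟨(chiAt M) ⁻¹' {chiAt M x'}, (h6 _ M).isOpen_fiber _⟩
  have hO : ∀ y : PrimeSpectrum Γ(T, U), y ∈ O ↔ chiAt M y = chiAt M x' := fun y => Iff.rfl
  refine ⟨hU.fromSpec ''ᵁ O, ⟨x', (hO x').mpr rfl, hx'⟩, ?_⟩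
  -- the criterion at the geometric points of the open set
  have key : ∀ (K : Type u) [Field K] (s : Spec (CommRingCat.of K) ⟶ T),
      (∀ y, s y ∈ hU.fromSpec ''ᵁ O) → ∀ (_ : Algebra k K) (h : s ≫ t = sS k K),
      (D.DegZ (PicC.map (baseChangeSnd c (⟨s, h⟩ : SchemeHomOver (sS k K) t)) l) ↔
        chiAt M x' = chi (G.sub (1 : G g.e (R := k) g.a))) := by
    intro K _ s hs _ h
    have hrange : Set.range s ⊆ Set.range hU.fromSpec := by
      rintro _ ⟨y, rfl⟩
      obtain ⟨z, -, hz⟩ := hs y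
      exact ⟨z, hz⟩
    let s' := IsOpenImmersion.lift hU.fromSpec s hrange
    have hs' : s' ≫ hU.fromSpec = s := IsOpenImmersion.lift_fac _ _ _
    let f : Γ(T, U) →+* K := (Spec.preimage s').hom
    have hf : Spec.map (CommRingCat.ofHom f) = s' := Spec.map_preimage s'
    have hfk : ∀ r : k, f (algebraMap k Γ(T, U) r) = algebraMap k K r := by
      have h2 : Spec.map (CommRingCat.ofHom f) ≫ sS k Γ(T, U) = sS k K := by
        rw [hf, ← hiR, ← h, ← hs', Category.assoc]
      rw [sS, sS, ← Spec.map_comp] at h2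
      have h3 := congrArg (fun q => q.hom) (Spec.map_injective h2)
      exact fun r => congrArg (fun q : k →+* K => q r) h3
    let φ : Γ(T, U) →ₐ[k] K := { f with commutes' := hfk }
    have hφ : (⟨s, h⟩ : SchemeHomOver (sS k K) t) = postComp i (sH φ) := by
      apply Subtype.ext
      change s = Spec.map (CommRingCat.ofHom f) ≫ hU.fromSpec
      rw [hf, hs']
    have hpt : chiAt M (ptOf φ) = chiAt M x' := by
      have y₀ : Spec (CommRingCat.of K) := (⊥ : PrimeSpectrum K)
      obtain ⟨z, hz, hz'⟩ := hs y₀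
      have h4 : hU.fromSpec (s' y₀) = hU.fromSpec z := by
        rw [← Scheme.Hom.comp_apply, hs']
        exact hz'.symm
      have h5 : s' y₀ = z := hU.fromSpec.isOpenEmbedding.injective h4
      have h6 : s' y₀ = ptOf φ := by
        rw [← hf]
        have h7 : y₀ = (⊥ : PrimeSpectrum K) := Subsingleton.elim _ _
        rw [h7]
        rfl
      rw [← h6, h5]
      exact (hO z).mp hz
    rw [hφ, degZ_chart D l i M hM φ, hpt]
  intro K₀ _ _ s₀ K₁ _ _ s₁ hs₀ hs₁ h₀ i₁ hi₁
  obtain ⟨i₀, hi₀⟩ := exists_algebra (k := k) K₀ (s₀ ≫ t)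
  rw [key K₁ s₁ hs₁ i₁ hi₁, ← key K₀ s₀ hs₀ i₀ hi₀]
  exact h₀ i₀ hi₀

/-- **The degree is constant on connected schemes.** -/
theorem deg0_of_connected (h6 : H6b g) [PreconnectedSpace T] {K : Type u} [Field K]
    [IsAlgClosed K] [Algebra k K] (s : SchemeHomOver (sS k K) t)
    (hs : D.DegZ (PicC.map (baseChangeSnd c s) l)) : D.Deg0 t l := by
  rw [deg0_iff]
  intro K₁ _ _ s₁
  exact of_local_const (fun K _ _ s => DzAt D t l K s) (local_const D l h6)
    ((dzAt_iff D l s).mpr hs) K₁ s₁

end geom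

end Fermat.Agent.J25.Cut
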