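import Mathlib
import Fermat.Agent.J25.Hub

/-!
# The maximal ideal of an `R`-point: pure algebra
-/

set_option autoImplicit false

noncomputable section

namespace Fermat.Agent.J25.Mx

attribute [-instance] HahnSeries.powerSeriesAlgebra

open HahnSeries TensorProduct

universe u

section Unit

variable {R : Type u} [CommRing R]

/-- a Laurent series with invertible lowest coefficient is a unit -/
theorem isUnit_of_coeff {f : LaurentSeries R} {n : ℤ} (hf : f ∈ LV R n)
    (h : IsUnit (f.coeff n)) : IsUnit f := by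
  obtain _ | _ := subsingleton_or_nontrivial R
  · exact isUnit_of_subsingleton f
  have h0 : f.coeff n ≠ 0 := h.ne_zero
  have hf0 : f ≠ 0 := by rintro rfl; exact h0 rfl
  have ho : f.order = n := by
    apply le_antisymm (order_le_of_coeff_ne_zero h0)
    by_contra hlt
    push Not at hlt
    exact (coeff_order_eq_zero.not.2 hf0) (hf _ hlt)
  refine isUnit_of_isUnit_leadingCoeff_AddUnitOrder ?_ ?_
  · rw [leadingCoeff_eq, ho]; exact h
  · rw [ho]; exact AddGroup.isAddUnit _

end Unit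



section Pt

variable {k : Type u} [Field k] {A : Type u} [CommRing A] [Algebra k A]
  (e : A →ₐ[k] LaurentSeries k)

variable {R : Type u} [CommRing R] [Algebra k R] {S : Type u} [CommRing S] [Algebra k S]

/-- evaluation at an `R`-point -/
def evx (x : A →ₐ[k] R) : R ⊗[k] A →ₐ[R] R :=
  Algebra.TensorProduct.lift (AlgHom.id R R) x (fun _ _ => Commute.all _ _)

theorem evx_tmul (x : A →ₐ[k] R) (r : R) (b : A) : evx x (r ⊗ₜ[k] b) = r * x b := by
  rw [evx, Algebra.TensorProduct.lift_tmul]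
  rfl

theorem evx_map (x : A →ₐ[k] R) (f : R →ₐ[k] S) (t : R ⊗[k] A) :
    evx (f.comp x) (Algebra.TensorProduct.map f (AlgHom.id k A) t) = f (evx x t) := by
  induction t using TensorProduct.induction_on with
  | zero => simp
  | add x y hx hy => rw [map_add, map_add, hx, hy, map_add, map_add]
  | tmul r b =>
    rw [evx_tmul, Algebra.TensorProduct.map_tmul, evx_tmul, map_mul]
    rfl

/-- the generators of the kernel of the evaluation -/
theorem eq_sum_of_evx (x : A →ₐ[k] R) (t : R ⊗[k] A) :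
    ∃ s : Finset (R × A), t = ∑ p ∈ s, (p.1 ⊗ₜ[k] (1 : A)) *
      ((1 : R) ⊗ₜ[k] p.2 - x p.2 ⊗ₜ[k] (1 : A)) + evx x t ⊗ₜ[k] (1 : A) := by
  obtain ⟨s, hs⟩ := TensorProduct.exists_finset t
  refine ⟨s, ?_⟩
  have h1 : evx x t = ∑ p ∈ s, p.1 * x p.2 := by
    conv_lhs => rw [hs]
    rw [map_sum]
    exact Finset.sum_congr rfl fun p _ => evx_tmul _ _ _
  rw [h1, TensorProduct.sum_tmul, ← Finset.sum_add_distrib]
  conv_lhs => rw [hs]
  refine Finset.sum_congr rfl fun p _ => ?_
  rw [mul_sub, Algebra.TensorProduct.tmul_mul_tmul, Algebra.TensorProduct.tmul_mul_tmul, mul_one,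
    one_mul, mul_one]
  abel

theorem exR_mem (t : R ⊗[k] A) : exR e R t ∈ AR e R := ⟨t, rfl⟩

/-- the ideal of an `R`-point -/
def mxS (x : A →ₐ[k] R) : Submodule (AR e R) (LaurentSeries R) where
  carrier := {y | ∃ t, evx x t = 0 ∧ exR e R t = y}
  zero_mem' := ⟨0, map_zero _, map_zero _⟩
  add_mem' := by
    rintro _ _ ⟨s, hs, rfl⟩ ⟨t, ht, rfl⟩
    exact ⟨s + t, by rw [map_add, hs, ht, add_zero], map_add _ _ _⟩
  smul_mem' := by
    rintro ⟨_, s, rfl⟩ _ ⟨t, ht, rfl⟩
    exact ⟨s * t, by rw [map_mul, ht, mul_zero], map_mul _ _ _⟩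

variable {e}

theorem mem_mxS {x : A →ₐ[k] R} {y : LaurentSeries R} :
    y ∈ mxS e x ↔ ∃ t, evx x t = 0 ∧ exR e R t = y := Iff.rfl

theorem mem_mxS_of {x : A →ₐ[k] R} {t : R ⊗[k] A} (h : evx x t = 0) : exR e R t ∈ mxS e x :=
  ⟨t, h, rfl⟩

theorem mxS_le_AR {x : A →ₐ[k] R} {y : LaurentSeries R} (h : y ∈ mxS e x) : y ∈ AR e R := by
  obtain ⟨t, -, rfl⟩ := h
  exact exR_mem e t

theorem delta_mem (x : A →ₐ[k] R) (b : A) :
    ex e R b - algebraMap R (LaurentSeries R) (x b) ∈ mxS e x := by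
  refine ⟨(1 : R) ⊗ₜ[k] b - x b ⊗ₜ[k] (1 : A), ?_, ?_⟩
  · rw [map_sub, evx_tmul, evx_tmul, map_one, one_mul, mul_one, sub_self]
  · rw [map_sub, exR_tmul, exR_tmul, one_smul, map_one, Algebra.smul_def, mul_one]

/-- `A_R = 𝔪_x + R` -/
theorem exists_sub_mem {x : A →ₐ[k] R} {y : LaurentSeries R} (h : y ∈ AR e R) :
    ∃ r : R, y - algebraMap R (LaurentSeries R) r ∈ mxS e x := by
  obtain ⟨t, rfl⟩ := h
  refine ⟨evx x t, t - algebraMap R _ (evx x t), ?_, ?_⟩
  · rw [map_sub, AlgHom.commutes]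
    exact sub_self _
  · rw [map_sub, AlgHom.commutes]
    rfl

variable (e) in
/-- base change of the ideal of a point: the image of the universal one spans -/
theorem span_lmap_mxS (x : A →ₐ[k] R) (f : R →ₐ[k] S) :
    Submodule.span (AR e S) (lmap (f : R →+* S) '' (mxS e x : Set (LaurentSeries R))) =
      mxS e (f.comp x) := by
  apply le_antisymm
  · rw [Submodule.span_le]
    rintro _ ⟨_, ⟨t, ht, rfl⟩, rfl⟩
    rw [SetLike.mem_coe, lmap_exR]
    exact mem_mxS_of (by rw [evx_map, ht, map_zero])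
  · rintro _ ⟨t, ht, rfl⟩
    obtain ⟨s, hs⟩ := eq_sum_of_evx (f.comp x) t
    rw [ht, TensorProduct.zero_tmul, add_zero] at hs
    rw [hs, map_sum]
    refine Submodule.sum_mem _ fun p _ => ?_
    rw [map_mul]
    refine (Submodule.span (AR e S) _).smul_mem ⟨_, exR_mem e (p.1 ⊗ₜ[k] (1 : A))⟩ ?_
    apply Submodule.subset_span
    refine ⟨ex e R p.2 - algebraMap R (LaurentSeries R) (x p.2), delta_mem x p.2, ?_⟩
    rw [map_sub, map_sub, lmap_ex, exR_tmul, exR_tmul, one_smul, map_one, Algebra.smul_def,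
      mul_one]
    congr 1
    exact lmap_single _ _ _

end Pt

section Inv

/-- an invertible module: `1` is a sum of values of linear forms -/
theorem exists_sum_of_invertible {B : Type u} {M : Type u} [CommRing B] [AddCommGroup M]
    [Module B M] (h : Module.Invertible B M) :
    ∃ s : Finset (Module.Dual B M × M), ∑ p ∈ s, p.1 p.2 = 1 := by
  obtain ⟨t, ht⟩ := h.bijective.2 1
  obtain ⟨s, rfl⟩ := TensorProduct.exists_finset t
  refine ⟨s, ?_⟩
  rw [map_sum] at ht
  exact ht

variable {k : Type u} [Field k] {A : Type u} [CommRing A] [Algebra k A]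
  (e : A →ₐ[k] LaurentSeries k)

variable {R : Type u} [CommRing R] [Algebra k R] {S : Type u} [CommRing S] [Algebra k S]

/-- `a - x(a)` is a unit of `R((z))` -/
theorem isUnit_delta {a : A} {d : ℕ} (hd : 0 < d) (had : e a ∈ LV k (-(d : ℤ)))
    (ha : (e a).coeff (-(d : ℤ)) ≠ 0) (r : R) :
    IsUnit (ex e R a - algebraMap R (LaurentSeries R) r) := by
  refine isUnit_of_coeff (n := -(d : ℤ)) ?_ ?_
  · refine (LV R _).sub_mem (ex_mem_LV e had) ?_
    exact LV_mono (by omega) (single_mem_LV 0 r)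
  · rw [HahnSeries.coeff_sub, ex_apply, lmap_coeff]
    have h0 : (algebraMap R (LaurentSeries R) r).coeff (-(d : ℤ)) = 0 := by
      change (single (0 : ℤ) r : LaurentSeries R).coeff (-(d : ℤ)) = 0
      rw [coeff_single, if_neg (by omega)]
    rw [h0, sub_zero]
    exact (isUnit_iff_ne_zero.2 ha).map (algebraMap k R)

/-- the universal inverse data: `∑ m_i y_i = 1`, `y_i 𝔪 ⊂ A_R`, for `x = id` -/
theorem exists_inv_univ {a : A} {d : ℕ} (hd : 0 < d) (had : e a ∈ LV k (-(d : ℤ)))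
    (ha : (e a).coeff (-(d : ℤ)) ≠ 0)
    (hI : Module.Invertible (A ⊗[k] A) (RingHom.ker (evx (AlgHom.id k A)))) :
    ∃ (ι : Type u) (s : Finset ι) (y m : ι → LaurentSeries A), (∑ i ∈ s, y i * m i = 1) ∧
      ∀ i, m i ∈ mxS e (AlgHom.id k A) ∧
        ∀ n ∈ mxS e (AlgHom.id k A), y i * n ∈ AR e A := by
  classical
  obtain ⟨s, hs⟩ := exists_sum_of_invertible hI
  obtain ⟨g, hg⟩ : ∃ g : RingHom.ker (evx (AlgHom.id k A)),
      (g : A ⊗[k] A) = (1 : A) ⊗ₜ[k] a - a ⊗ₜ[k] (1 : A) := by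
    refine ⟨⟨_, ?_⟩, rfl⟩
    rw [RingHom.mem_ker, map_sub, evx_tmul, evx_tmul, map_one, one_mul, mul_one]
    exact sub_self _
  have hgu : IsUnit (exR e A (g : A ⊗[k] A)) := by
    have h := isUnit_delta e hd had ha a (R := A)
    rw [hg, map_sub, exR_tmul, exR_tmul, one_smul, map_one]
    have e2 : (a • (1 : LaurentSeries A)) = algebraMap A (LaurentSeries A) a := by
      rw [Algebra.smul_def, mul_one]
    rw [e2]
    exact h
  obtain ⟨u, hu⟩ := hgu
  have key : ∀ (φ : Module.Dual (A ⊗[k] A) (RingHom.ker (evx (AlgHom.id k A))))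
      (m : RingHom.ker (evx (AlgHom.id k A))),
      exR e A (φ m) = (exR e A (φ g) * ((u⁻¹ : (LaurentSeries A)ˣ) : LaurentSeries A)) *
        exR e A (m : A ⊗[k] A) := by
    intro φ m
    have h1 : (g : A ⊗[k] A) * φ m = (m : A ⊗[k] A) * φ g := by
      rw [← smul_eq_mul, ← smul_eq_mul, ← map_smul, ← map_smul]
      congr 1
      apply Subtype.ext
      exact mul_comm _ _
    have h2 := congrArg (exR e A) h1
    rw [map_mul, map_mul, ← hu] at h2
    calc exR e A (φ m) = ((u⁻¹ : (LaurentSeries A)ˣ) : LaurentSeries A) * (u * exR e A (φ m)) := by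
          rw [← mul_assoc, Units.inv_mul, one_mul]
      _ = _ := by rw [h2]; ring
  refine ⟨_, s, fun p => exR e A (p.1 g) * ((u⁻¹ : (LaurentSeries A)ˣ) : LaurentSeries A),
    fun p => exR e A (p.2 : A ⊗[k] A), ?_, fun q => ⟨mem_mxS_of q.2.2, ?_⟩⟩
  · rw [← map_one (exR e A), ← hs, map_sum]
    exact Finset.sum_congr rfl fun p _ => (key p.1 p.2).symm
  · rintro _ ⟨t, ht, rfl⟩
    have := key q.1 ⟨t, ht⟩
    rw [← this]
    exact exR_mem e _

/-- inverse data at an `R`-point -/
theorem exists_inv {a : A} {d : ℕ} (hd : 0 < d) (had : e a ∈ LV k (-(d : ℤ)))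
    (ha : (e a).coeff (-(d : ℤ)) ≠ 0)
    (hI : Module.Invertible (A ⊗[k] A) (RingHom.ker (evx (AlgHom.id k A)))) (x : A →ₐ[k] R) :
    ∃ (ι : Type u) (s : Finset ι) (y m : ι → LaurentSeries R), (∑ i ∈ s, y i * m i = 1) ∧
      ∀ i, m i ∈ mxS e x ∧ ∀ n ∈ mxS e x, y i * n ∈ AR e R := by
  obtain ⟨ι, s, y, m, h1, h2⟩ := exists_inv_univ e hd had ha hI
  have hsp := span_lmap_mxS e (AlgHom.id k A) x
  have hx : x.comp (AlgHom.id k A) = x := by ext; rfl
  rw [hx] at hsp
  refine ⟨ι, s, fun i => lmap (x : A →+* R) (y i), fun i => lmap (x : A →+* R) (m i), ?_,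
    fun i => ⟨?_, ?_⟩⟩
  · have := congrArg (lmap (x : A →+* R)) h1
    rw [map_sum, map_one] at this
    rw [← this]
    exact Finset.sum_congr rfl fun i _ => (map_mul _ _ _).symm
  · rw [← hsp]
    exact Submodule.subset_span ⟨_, (h2 i).1, rfl⟩
  · intro n hn
    rw [← hsp] at hn
    induction hn using Submodule.span_induction with
    | mem n hn =>
      obtain ⟨n, hn, rfl⟩ := hn
      obtain ⟨t, ht⟩ := (h2 i).2 n hn
      have e1 : exR e A t = y i * n := ht
      rw [← map_mul, ← e1, lmap_exR]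
      exact exR_mem e _
    | zero => rw [mul_zero]; exact (AR e R).zero_mem
    | add a b _ _ ha hb => rw [mul_add]; exact (AR e R).add_mem ha hb
    | smul c b _ hb =>
      have : lmap (x : A →+* R) (y i) * (c • b) = (c : LaurentSeries R) *
          (lmap (x : A →+* R) (y i) * b) := by
        rw [Algebra.smul_def]
        change _ * ((c : LaurentSeries R) * b) = _
        ring
      rw [this]
      exact (AR e R).mul_mem c.2 hb

/-- **the ideal of a point is an invertible fractional ideal** -/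
theorem isUnit_mxS {a : A} {d : ℕ} (hd : 0 < d) (had : e a ∈ LV k (-(d : ℤ)))
    (ha : (e a).coeff (-(d : ℤ)) ≠ 0)
    (hI : Module.Invertible (A ⊗[k] A) (RingHom.ker (evx (AlgHom.id k A)))) (x : A →ₐ[k] R) :
    mxS e x * (1 / mxS e x) = 1 := by
  obtain ⟨ι, s, y, m, h1, h2⟩ := exists_inv e hd had ha hI x
  apply le_antisymm Submodule.mul_one_div_le_one
  rw [Submodule.one_le, ← h1]
  refine Submodule.sum_mem _ fun i _ => ?_
  rw [mul_comm (y i) (m i)]
  refine Submodule.mul_mem_mul (h2 i).1 ?_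
  rw [Submodule.mem_div_iff_forall_mul_mem]
  intro n hn
  obtain ⟨t, ht⟩ := (h2 i).2 n hn
  rw [Submodule.mem_one]
  exact ⟨⟨_, t, rfl⟩, ht⟩

variable {e} in
/-- `a - x(a)` multiplies the inverse of `𝔪_x` into `A_R` -/
theorem smul_inv_le (x : A →ₐ[k] R) (b : A) {J : Submodule (AR e R) (LaurentSeries R)}
    (hJ : mxS e x * J ≤ 1) {y : LaurentSeries R} (hy : y ∈ J) :
    (ex e R b - algebraMap R (LaurentSeries R) (x b)) * y ∈
      (1 : Submodule (AR e R) (LaurentSeries R)) :=
  hJ (Submodule.mul_mem_mul (delta_mem x b) hy)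

end Inv

section Codim

variable {k : Type u} [Field k] {A : Type u} [CommRing A] [Algebra k A]
  {e : A →ₐ[k] LaurentSeries k}

variable {R : Type u} [CommRing R] [Algebra k R]

theorem mem_one_iff {y : LaurentSeries R} :
    y ∈ (1 : Submodule (AR e R) (LaurentSeries R)) ↔ y ∈ AR e R := by
  rw [Submodule.mem_one]
  constructor
  · rintro ⟨c, rfl⟩
    exact c.2
  · intro h
    exact ⟨⟨y, h⟩, rfl⟩

theorem mxS_le_one (x : A →ₐ[k] R) : mxS e x ≤ 1 := fun _ h => mem_one_iff.2 (mxS_le_AR h)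

/-- constants in `𝔪_x` vanish -/
theorem eq_zero_of_const (he : Function.Injective e) {x : A →ₐ[k] R} {r : R}
    (h : algebraMap R (LaurentSeries R) r ∈ mxS e x) : r = 0 := by
  obtain ⟨t, ht, h⟩ := h
  have : t = algebraMap R _ r := by
    apply exR_injective e he
    rw [h, AlgHom.commutes]
  rw [this, AlgHom.commutes] at ht
  exact ht

variable (e) in
/-- `R ⊗ A = A_R` -/
def exE (he : Function.Injective e) : R ⊗[k] A ≃ₐ[R] AR e R :=
  AlgEquiv.ofInjective (exR e R) (exR_injective e he)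

theorem coe_exE (he : Function.Injective e) (t : R ⊗[k] A) :
    ((exE (R := R) e he t : AR e R) : LaurentSeries R) = exR e R t := rfl

/-- the evaluation `A_R → R` -/
def phi (he : Function.Injective e) (x : A →ₐ[k] R) : AR e R →ₐ[R] R :=
  (evx x).comp ((exE (R := R) e he).symm : AR e R →ₐ[R] R ⊗[k] A)

theorem phi_exE (he : Function.Injective e) (x : A →ₐ[k] R) (t : R ⊗[k] A) :
    phi he x (exE e he t) = evx x t := by
  change evx x ((exE e he).symm (exE e he t)) = _
  rw [AlgEquiv.symm_apply_apply]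

theorem phi_ex (he : Function.Injective e) (x : A →ₐ[k] R) (b : A)
    (hb : ex e R b ∈ AR e R) : phi he x ⟨ex e R b, hb⟩ = x b := by
  have h : (⟨ex e R b, hb⟩ : AR e R) = exE e he ((1 : R) ⊗ₜ[k] b) := by
    apply Subtype.ext
    rw [coe_exE, exR_tmul, one_smul]
  rw [h, phi_exE, evx_tmul, one_mul]

theorem mem_mxS_iff_phi (he : Function.Injective e) {x : A →ₐ[k] R} {y : LaurentSeries R} :
    y ∈ mxS e x ↔ ∃ c : AR e R, phi he x c = 0 ∧ (c : LaurentSeries R) = y := by
  constructor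
  · rintro ⟨t, ht, rfl⟩
    exact ⟨exE e he t, by rw [phi_exE, ht], rfl⟩
  · rintro ⟨c, hc, rfl⟩
    obtain ⟨t, rfl⟩ := (exE e he).surjective c
    rw [phi_exE] at hc
    exact ⟨t, hc, rfl⟩

theorem mxS_eq_map (he : Function.Injective e) (x : A →ₐ[k] R) :
    mxS e x = Submodule.map (Algebra.linearMap (AR e R) (LaurentSeries R))
      (RingHom.ker (phi he x)) := by
  ext y
  rw [mem_mxS_iff_phi he, Submodule.mem_map]
  rfl

/-- every `R`-algebra map `A_R → R` comes from a point -/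
theorem exists_eq_phi (he : Function.Injective e) (φ : AR e R →ₐ[R] R) :
    ∃ x : A →ₐ[k] R, φ = phi he x := by
  refine ⟨((φ.restrictScalars k).comp (((exE (R := R) e he : R ⊗[k] A →ₐ[R] AR e R)).restrictScalars
    k)).comp Algebra.TensorProduct.includeRight, ?_⟩
  ext c
  obtain ⟨t, rfl⟩ := (exE e he).surjective c
  rw [phi_exE]
  induction t using TensorProduct.induction_on with
  | zero => rw [map_zero, map_zero, map_zero]
  | add x y hx hy => rw [map_add, map_add, map_add, hx, hy]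
  | tmul r b =>
    rw [evx_tmul]
    have h1 : r ⊗ₜ[k] b = r • ((1 : R) ⊗ₜ[k] b) := by
      rw [TensorProduct.smul_tmul', smul_eq_mul, mul_one]
    rw [h1, map_smul, map_smul, smul_eq_mul]
    rfl

end Codim



end Fermat.Agent.J25.Mx
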