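import Mathlib
import Fermat.Agent.J25.MxA

/-!
# The ideal of an `R`-point as an element of `G(R)`
-/

set_option autoImplicit false

noncomputable section

namespace Fermat.Agent.J25

attribute [-instance] HahnSeries.powerSeriesAlgebra

open HahnSeries TensorProduct CategoryTheory AlgebraicGeometry NeronModelInfra
open Mx

universe u

section

variable {k : Type u} [Field k] {A : Type u} [CommRing A] [Algebra k A]

/-- the hypotheses on `(A, e, a)` -/
structure MxH (e : A →ₐ[k] LaurentSeries k) (a : A) : Prop where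
  inj : Function.Injective e
  pole : ∃ d : ℕ, 0 < d ∧ e a ∈ LV k (-(d : ℤ)) ∧ (e a).coeff (-(d : ℤ)) ≠ 0
  diag : Module.Invertible (A ⊗[k] A)
    (RingHom.ker (Algebra.TensorProduct.lmul' k : A ⊗[k] A →ₐ[k] A))

theorem Mx.ker_evx_id : RingHom.ker (evx (AlgHom.id k A)) =
    RingHom.ker (Algebra.TensorProduct.lmul' k : A ⊗[k] A →ₐ[k] A) := by
  have h : ∀ t : A ⊗[k] A, evx (AlgHom.id k A) t = Algebra.TensorProduct.lmul' k t := by
    intro t
    induction t using TensorProduct.induction_on with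
    | zero => rw [map_zero, map_zero]
    | add x y hx hy => rw [map_add, map_add, hx, hy]
    | tmul r b => rw [evx_tmul, Algebra.TensorProduct.lmul'_apply_tmul]; rfl
  ext t
  rw [RingHom.mem_ker, RingHom.mem_ker, h]

variable {e : A →ₐ[k] LaurentSeries k} {a : A}

theorem MxH.diag' (h : MxH e a) :
    Module.Invertible (A ⊗[k] A) (RingHom.ker (evx (AlgHom.id k A))) := by
  rw [Mx.ker_evx_id]
  exact h.diag

theorem Geo.mxH {C : Scheme.{u}} {c : C ⟶ Spec (CommRingCat.of k)}
    {ε : SchemeHomOver (𝟙 (Spec (CommRingCat.of k))) c} (g : Geo c ε) : MxH g.e g.a where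
  inj := g.injA
  pole := ⟨g.d, g.hd, g.ea_mem, by
    change (g.eD (algebraMap g.A g.D g.a)).coeff (-(g.d : ℤ)) ≠ 0
    rw [g.ea_coeff]; exact one_ne_zero⟩
  diag := g.diag

variable {R : Type u} [CommRing R] [Algebra k R] {S : Type u} [CommRing S] [Algebra k S]

theorem MxH.mul_inv (h : MxH e a) (x : A →ₐ[k] R) : mxS e x * (1 / mxS e x) = 1 := by
  obtain ⟨d, hd, h1, h2⟩ := h.pole
  exact isUnit_mxS e hd h1 h2 h.diag' x

/-- the ideal of a point as a unit -/
def MxH.unit (h : MxH e a) (x : A →ₐ[k] R) : (Submodule (AR e R) (LaurentSeries R))ˣ where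
  val := mxS e x
  inv := 1 / mxS e x
  val_inv := h.mul_inv x
  inv_val := by rw [mul_comm]; exact h.mul_inv x

/-- **the element of `G(R)` given by the ideal of a point** -/
def mx (h : MxH e a) (x : A →ₐ[k] R) : G e (R := R) a :=
  ⟨h.unit x, Polynomial.X - Polynomial.C (x a), Polynomial.monic_X_sub_C _, by
    have hp : pev e R a (Polynomial.X - Polynomial.C (x a)) =
        ex e R a - algebraMap R (LaurentSeries R) (x a) := by
      rw [pev, map_sub, Polynomial.aeval_X, Polynomial.aeval_C]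
    rw [hp]
    constructor
    · intro m hm
      exact mul_mem (mxS_le_AR (delta_mem x a)) (mxS_le_AR hm)
    · intro m hm
      exact mem_one_iff.1 (smul_inv_le x a (J := 1 / mxS e x) (h.mul_inv x).le hm)⟩

theorem mx_val (h : MxH e a) (x : A →ₐ[k] R) :
    ((mx h x : (Submodule (AR e R) (LaurentSeries R))ˣ) : Submodule (AR e R) (LaurentSeries R)) =
      mxS e x := rfl

/-- the map `A_R → R` given by a point -/
def phiX (h : MxH e a) (x : A →ₐ[k] R) : AR e R →ₐ[R] R := phi h.inj x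

theorem phiX_ex (h : MxH e a) (x : A →ₐ[k] R) (b : A) (hb : ex e R b ∈ AR e R) :
    phiX h x ⟨ex e R b, hb⟩ = x b := phi_ex h.inj x b hb

theorem exists_eq_phiX (h : MxH e a) (φ : AR e R →ₐ[R] R) : ∃ x : A →ₐ[k] R, φ = phiX h x :=
  exists_eq_phi h.inj φ

theorem phiX_injective (h : MxH e a) : Function.Injective (phiX (R := R) h) := by
  intro x y hxy
  ext b
  have h1 := phiX_ex (R := R) h x b ⟨1 ⊗ₜ b, by
    change exR e R (1 ⊗ₜ b) = _
    rw [exR_tmul, one_smul]⟩
  rw [hxy, phiX_ex] at h1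
  exact h1.symm

/-- `𝔪_x` is the kernel of `A_R → R` -/
theorem mx_eq_map (h : MxH e a) (x : A →ₐ[k] R) :
    ((mx h x : (Submodule (AR e R) (LaurentSeries R))ˣ) : Submodule (AR e R) (LaurentSeries R)) =
      Submodule.map (Algebra.linearMap (AR e R) (LaurentSeries R)) (RingHom.ker (phiX h x)) :=
  mxS_eq_map h.inj x

theorem mem_mx_iff_phiX {h : MxH e a} {x : A →ₐ[k] R} {y : LaurentSeries R} :
    y ∈ G.sub (mx h x) ↔ ∃ c : AR e R, phiX h x c = 0 ∧ (c : LaurentSeries R) = y :=
  mem_mxS_iff_phi h.inj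

theorem mem_mx {h : MxH e a} {x : A →ₐ[k] R} {y : LaurentSeries R} :
    y ∈ G.sub (mx h x) ↔ ∃ t, evx x t = 0 ∧ exR e R t = y := Iff.rfl

theorem delta_mem_mx (h : MxH e a) (x : A →ₐ[k] R) (b : A) :
    ex e R b - algebraMap R (LaurentSeries R) (x b) ∈ G.sub (mx h x) := delta_mem x b

theorem mx_le_one (h : MxH e a) (x : A →ₐ[k] R) : G.sub (mx h x) ≤ G.sub (1 : G e (R := R) a) :=
  fun _ hy => G.mem_one.2 (mxS_le_AR hy)

theorem mem_AR_of_mem_mx {h : MxH e a} {x : A →ₐ[k] R} {y : LaurentSeries R}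
    (hy : y ∈ G.sub (mx h x)) : y ∈ AR e R := mxS_le_AR hy

/-- **base change** -/
theorem bc_mx (h : MxH e a) (x : A →ₐ[k] R) (f : R →ₐ[k] S) :
    bc f (mx h x) = mx h (f.comp x) := by
  apply Subtype.ext
  apply Units.ext
  rw [bc_val, mx_val]
  exact span_lmap_mxS e x f

/-- `A_R = 𝔪_x + R` -/
theorem exists_sub_mem_mx (h : MxH e a) (x : A →ₐ[k] R) {y : LaurentSeries R} (hy : y ∈ AR e R) :
    ∃ r : R, y - algebraMap R (LaurentSeries R) r ∈ G.sub (mx h x) := exists_sub_mem hy

/-- constants in `𝔪_x` vanish -/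
theorem const_mem_mx {h : MxH e a} {x : A →ₐ[k] R} {r : R}
    (hr : algebraMap R (LaurentSeries R) r ∈ G.sub (mx h x)) : r = 0 :=
  eq_zero_of_const h.inj hr

theorem mx_mul_le (h : MxH e a) (x : A →ₐ[k] R) (M : G e (R := R) a) :
    G.sub (mx h x * M) ≤ G.sub M := by
  rw [G.sub_mul, Submodule.mul_le]
  intro m hm n hn
  exact G.smul_mem (mem_AR_of_mem_mx hm) hn

end

section field

variable {k : Type u} [Field k] {A : Type u} [CommRing A] [Algebra k A]
  {e : A →ₐ[k] LaurentSeries k} {a : A}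

variable {K : Type u} [Field K] [Algebra k K]

/-- **codimension one** -/
theorem exists_gen_mod_mx (h : MxH e a) (x : A →ₐ[k] K) (M : G e (R := K) a) :
    ∃ m₀ ∈ G.sub M, m₀ ∉ G.sub (mx h x * M) ∧
      ∀ m ∈ G.sub M, ∃ c : K, m - c • m₀ ∈ G.sub (mx h x * M) := by
  obtain ⟨m₀, hm₀, hn₀⟩ : ∃ m₀ ∈ G.sub M, m₀ ∉ G.sub (mx h x * M) := by
    by_contra hcon
    push Not at hcon
    have h1 : M = mx h x * M := G.ext (le_antisymm hcon (mx_mul_le h x M))
    have h2 : mx h x = 1 := by
      have := congrArg (· * M⁻¹) h1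
      simpa using this.symm
    have h3 : algebraMap K (LaurentSeries K) 1 ∈ G.sub (mx h x) := by
      rw [h2, G.mem_one, map_one]
      exact one_mem _
    exact one_ne_zero (const_mem_mx h3)
  refine ⟨m₀, hm₀, hn₀, fun m hm => ?_⟩
  -- `s = n m₀` with value one at `x`
  obtain ⟨n, hn, hs⟩ : ∃ n ∈ G.sub M⁻¹, n * m₀ ∉ G.sub (mx h x) := by
    by_contra hcon
    push Not at hcon
    apply hn₀
    have key : ∀ z ∈ G.sub M * G.sub M⁻¹, z * m₀ ∈ G.sub (mx h x * M) := by
      intro z hz
      induction hz using Submodule.mul_induction_on' with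
      | mem_mul_mem u hu v hv =>
        rw [mul_assoc, mul_comm u]
        exact G.mul_mem_mul (hcon v hv) hu
      | add u _ v _ hu hv =>
        rw [add_mul]
        exact add_mem hu hv
    have h1 : (1 : LaurentSeries K) ∈ G.sub M * G.sub M⁻¹ := by
      rw [← G.sub_mul, mul_inv_cancel, G.mem_one]
      exact one_mem _
    have := key 1 h1
    rwa [one_mul] at this
  have hinv : ∀ v ∈ G.sub M⁻¹, ∀ m ∈ G.sub M, v * m ∈ AR e K := by
    intro v hv m hm
    have := G.mul_mem_mul hv hm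
    rwa [inv_mul_cancel, G.mem_one] at this
  obtain ⟨r, hr⟩ := exists_sub_mem_mx h x (hinv n hn m₀ hm₀)
  have hr0 : r ≠ 0 := by
    rintro rfl
    rw [map_zero, sub_zero] at hr
    exact hs hr
  obtain ⟨t, ht⟩ := exists_sub_mem_mx h x (hinv n hn m hm)
  refine ⟨r⁻¹ * t, ?_⟩
  -- `r m = n m₀ m - (n m₀ - r) m`
  have e1 : m - (r⁻¹ * t) • m₀ = r⁻¹ • ((n * m - algebraMap K (LaurentSeries K) t) * m₀ -
      (n * m₀ - algebraMap K (LaurentSeries K) r) * m) := by
    have e2 : (n * m - algebraMap K (LaurentSeries K) t) * m₀ -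
      (n * m₀ - algebraMap K (LaurentSeries K) r) * m = r • m - t • m₀ := by
      rw [Algebra.smul_def, Algebra.smul_def]
      ring
    rw [e2, smul_sub, smul_smul, smul_smul, inv_mul_cancel₀ hr0, one_smul]
  rw [e1]
  exact Submodule.smul_mem _ _ (Submodule.sub_mem _ (G.mul_mem_mul ht hm₀)
    (G.mul_mem_mul hr hm))

/-- codimension one, in terms of a linear form -/
theorem exists_form_mod_mx (h : MxH e a) (x : A →ₐ[k] K) (M : G e (R := K) a) :
    ∃ φ : G.sub M →ₗ[K] K, Function.Surjective φ ∧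
      ∀ m : G.sub M, φ m = 0 ↔ (m : LaurentSeries K) ∈ G.sub (mx h x * M) := by
  obtain ⟨m₀, hm₀, hn₀, hc⟩ := exists_gen_mod_mx h x M
  have huniq : ∀ (m : LaurentSeries K) (c c' : K), m - c • m₀ ∈ G.sub (mx h x * M) →
      m - c' • m₀ ∈ G.sub (mx h x * M) → c = c' := by
    intro m c c' h1 h2
    by_contra hne
    apply hn₀
    have h3 := Submodule.sub_mem _ h2 h1
    have e1 : m - c' • m₀ - (m - c • m₀) = (c - c') • m₀ := by
      rw [sub_smul]; abel
    rw [e1] at h3
    have h4 := Submodule.smul_mem _ (c - c')⁻¹ h3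
    rwa [smul_smul, inv_mul_cancel₀ (sub_ne_zero.2 hne), one_smul] at h4
  choose f hf using fun m : G.sub M => hc m m.2
  refine ⟨{ toFun := f, map_add' := ?_, map_smul' := ?_ }, ?_, ?_⟩
  · intro m n
    refine huniq _ _ _ (hf (m + n)) ?_
    have := Submodule.add_mem _ (hf m) (hf n)
    have e1 : ((m + n : G.sub M) : LaurentSeries K) - (f m + f n) • m₀ =
        (m : LaurentSeries K) - f m • m₀ + ((n : LaurentSeries K) - f n • m₀) := by
      rw [add_smul, Submodule.coe_add]; abel
    rw [e1]; exact this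
  · intro c m
    refine huniq _ _ _ (hf (c • m)) ?_
    have := Submodule.smul_mem _ c (hf m)
    have e1 : ((c • m : G.sub M) : LaurentSeries K) - (c * f m) • m₀ =
        c • ((m : LaurentSeries K) - f m • m₀) := by
      rw [smul_sub, smul_smul, Submodule.coe_smul]
    rw [RingHom.id_apply, smul_eq_mul, e1]; exact this
  · intro c
    refine ⟨c • ⟨m₀, hm₀⟩, ?_⟩
    refine huniq _ _ _ (hf _) ?_
    have : ((c • (⟨m₀, hm₀⟩ : G.sub M) : G.sub M) : LaurentSeries K) - c • m₀ = 0 := by
      rw [Submodule.coe_smul, sub_self]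
    rw [this]
    exact Submodule.zero_mem _
  · intro m
    constructor
    · intro h0
      have h0' : f m = 0 := h0
      have := hf m
      rwa [h0', zero_smul, sub_zero] at this
    · intro hm
      refine huniq _ _ _ (hf m) ?_
      rw [zero_smul, sub_zero]
      exact hm

/-- codimension one, in terms of dimensions -/
theorem finrank_quot_mx (h : MxH e a) (x : A →ₐ[k] K) (M : G e (R := K) a) :
    Module.finrank K (G.sub M ⧸ (G.sub (mx h x * M)).submoduleOf (G.sub M)) = 1 := by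
  obtain ⟨φ, hφ, hker⟩ := exists_form_mod_mx h x M
  have h1 : (G.sub (mx h x * M)).submoduleOf (G.sub M) = LinearMap.ker φ := by
    ext m
    rw [LinearMap.mem_ker, hker]
    rfl
  rw [h1, (φ.quotKerEquivOfSurjective hφ).finrank_eq, Module.finrank_self]

end field

end Fermat.Agent.J25
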