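import Mathlib
import Fermat.Agent.J25.Mx

/-!
# Principal elements of `G(R)`
-/

set_option autoImplicit false

noncomputable section

namespace Fermat.Agent.J25

attribute [-instance] HahnSeries.powerSeriesAlgebra

open HahnSeries TensorProduct CategoryTheory AlgebraicGeometry NeronModelInfra
open Mx

universe u

section

variable {k : Type u} [Field k] {A : Type u} [CommRing A] [Algebra k A]
  (e : A →ₐ[k] LaurentSeries k) (a : A)

variable {R : Type u} [CommRing R] [Algebra k R] {S : Type u} [CommRing S] [Algebra k S]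

/-- the fractional ideal `u A_R` -/
def prS (u : LaurentSeries R) : Submodule (AR e R) (LaurentSeries R) :=
  Submodule.span (AR e R) {u}

variable {e} in
theorem mem_prS {u y : LaurentSeries R} : y ∈ prS e u ↔ ∃ c ∈ AR e R, y = u * c := by
  rw [prS, Submodule.mem_span_singleton]
  constructor
  · rintro ⟨c, rfl⟩
    refine ⟨c, c.2, ?_⟩
    rw [Subalgebra.smul_def, smul_eq_mul, mul_comm]
  · rintro ⟨c, hc, rfl⟩
    refine ⟨⟨c, hc⟩, ?_⟩
    rw [Subalgebra.smul_def, smul_eq_mul, mul_comm]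

theorem prS_mul (u v : LaurentSeries R) : prS e u * prS e v = prS e (u * v) := by
  rw [prS, prS, Submodule.span_mul_span, Set.singleton_mul_singleton, prS]

theorem prS_one : prS e (1 : LaurentSeries R) = 1 := Submodule.one_eq_span.symm

/-- `u A_R` as a unit -/
def prUnit (u : (LaurentSeries R)ˣ) : (Submodule (AR e R) (LaurentSeries R))ˣ where
  val := prS e u
  inv := prS e ((u⁻¹ : (LaurentSeries R)ˣ) : LaurentSeries R)
  val_inv := by rw [prS_mul, Units.mul_inv, prS_one]
  inv_val := by rw [prS_mul, Units.inv_mul, prS_one]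

/-- `u` and `u⁻¹` have denominators `P(a)` -/
def HasDen (u : (LaurentSeries R)ˣ) : Prop := ∃ P : Polynomial R, P.Monic ∧
  pev e R a P * (u : LaurentSeries R) ∈ AR e R ∧
  pev e R a P * ((u⁻¹ : (LaurentSeries R)ˣ) : LaurentSeries R) ∈ AR e R

variable {e a}

theorem HasDen.mul {u v : (LaurentSeries R)ˣ} (hu : HasDen e a u) (hv : HasDen e a v) :
    HasDen e a (u * v) := by
  obtain ⟨P, hP, h1, h2⟩ := hu
  obtain ⟨Q, hQ, h3, h4⟩ := hv
  refine ⟨P * Q, hP.mul hQ, ?_, ?_⟩
  · have : pev e R a (P * Q) * ((u * v : (LaurentSeries R)ˣ) : LaurentSeries R) =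
        (pev e R a P * (u : LaurentSeries R)) * (pev e R a Q * (v : LaurentSeries R)) := by
      rw [Units.val_mul, pev, map_mul]
      unfold pev
      ring
    rw [this]
    exact mul_mem h1 h3
  · have : pev e R a (P * Q) * (((u * v)⁻¹ : (LaurentSeries R)ˣ) : LaurentSeries R) =
        (pev e R a P * ((u⁻¹ : (LaurentSeries R)ˣ) : LaurentSeries R)) *
          (pev e R a Q * ((v⁻¹ : (LaurentSeries R)ˣ) : LaurentSeries R)) := by
      rw [mul_inv, Units.val_mul, pev, map_mul]
      unfold pev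
      ring
    rw [this]
    exact mul_mem h2 h4

theorem HasDen.inv {u : (LaurentSeries R)ˣ} (hu : HasDen e a u) : HasDen e a u⁻¹ := by
  obtain ⟨P, hP, h1, h2⟩ := hu
  exact ⟨P, hP, h2, by rwa [inv_inv]⟩

theorem HasDen.one : HasDen e a (1 : (LaurentSeries R)ˣ) := by
  refine ⟨1, Polynomial.monic_one, ?_, ?_⟩
  · rw [pev, map_one, one_mul, Units.val_one]
    exact one_mem _
  · rw [pev, map_one, one_mul, inv_one, Units.val_one]
    exact one_mem _

theorem HasDen.map {u : (LaurentSeries R)ˣ} (hu : HasDen e a u) (f : R →ₐ[k] S) :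
    HasDen e a (Units.map (lmap (f : R →+* S) : LaurentSeries R →* LaurentSeries S) u) := by
  obtain ⟨P, hP, h1, h2⟩ := hu
  refine ⟨P.map (f : R →+* S), hP.map _, ?_, ?_⟩
  · have := lmap_mem_AR S f h1
    rw [map_mul, lmap_pev] at this
    exact this
  · have := lmap_mem_AR S f h2
    rw [map_mul, lmap_pev] at this
    rw [← map_inv]
    exact this

/-- **principal elements of `G(R)`** -/
def prG (u : (LaurentSeries R)ˣ) (hu : HasDen e a u) : G e (R := R) a :=
  ⟨prUnit e u, by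
    obtain ⟨P, hP, h1, h2⟩ := hu
    refine ⟨P, hP, ?_, ?_⟩
    · intro m hm
      obtain ⟨c, hc, rfl⟩ := mem_prS.1 hm
      rw [← mul_assoc]
      exact mul_mem h1 hc
    · intro m hm
      obtain ⟨c, hc, rfl⟩ := mem_prS.1 (show m ∈ prS e
        ((u⁻¹ : (LaurentSeries R)ˣ) : LaurentSeries R) from hm)
      rw [← mul_assoc]
      exact mul_mem h2 hc⟩

theorem mem_prG {u : (LaurentSeries R)ˣ} {hu : HasDen e a u} {y : LaurentSeries R} :
    y ∈ G.sub (prG u hu) ↔ ∃ c ∈ AR e R, y = u * c := mem_prS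

theorem prG_val (u : (LaurentSeries R)ˣ) (hu : HasDen e a u) :
    ((prG u hu : (Submodule (AR e R) (LaurentSeries R))ˣ) :
      Submodule (AR e R) (LaurentSeries R)) = prS e u := rfl

theorem self_mem_prG (u : (LaurentSeries R)ˣ) (hu : HasDen e a u) :
    (u : LaurentSeries R) ∈ G.sub (prG u hu) := mem_prG.2 ⟨1, one_mem _, (mul_one _).symm⟩

theorem prG_mul (u v : (LaurentSeries R)ˣ) (hu : HasDen e a u) (hv : HasDen e a v) :
    prG u hu * prG v hv = prG (u * v) (hu.mul hv) := by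
  apply Subtype.ext
  apply Units.ext
  exact prS_mul e _ _

theorem prG_one : prG (1 : (LaurentSeries R)ˣ) HasDen.one = (1 : G e (R := R) a) := by
  apply Subtype.ext
  apply Units.ext
  exact prS_one e

theorem prG_inv (u : (LaurentSeries R)ˣ) (hu : HasDen e a u) :
    (prG u hu)⁻¹ = prG u⁻¹ hu.inv := by
  apply Subtype.ext
  apply Units.ext
  rfl

theorem bc_prG (f : R →ₐ[k] S) (u : (LaurentSeries R)ˣ) (hu : HasDen e a u) :
    bc f (prG u hu) = prG (Units.map (lmap (f : R →+* S) : LaurentSeries R →* LaurentSeries S) u)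
      (hu.map f) := by
  apply Subtype.ext
  apply Units.ext
  rw [bc_val, prG_val, prG_val, bcS]
  apply le_antisymm
  · rw [Submodule.span_le]
    rintro _ ⟨y, hy, rfl⟩
    obtain ⟨c, hc, rfl⟩ := mem_prS.1 hy
    rw [map_mul]
    exact mem_prS.2 ⟨_, lmap_mem_AR S f hc, rfl⟩
  · rw [prS, Submodule.span_le, Set.singleton_subset_iff]
    exact Submodule.subset_span ⟨u, mem_prS.2 ⟨1, one_mem _, (mul_one _).symm⟩, rfl⟩

/-- multiplication by a principal element -/
theorem mem_prG_mul {u : (LaurentSeries R)ˣ} {hu : HasDen e a u} {M : G e (R := R) a}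
    {y : LaurentSeries R} : y ∈ G.sub (prG u hu * M) ↔ ∃ m ∈ G.sub M, y = u * m := by
  constructor
  · intro hy
    rw [G.sub_mul] at hy
    induction hy using Submodule.mul_induction_on' with
    | mem_mul_mem p hp m hm =>
      obtain ⟨c, hc, rfl⟩ := mem_prG.1 hp
      exact ⟨c * m, G.smul_mem hc hm, by rw [mul_assoc]⟩
    | add y _ z _ hy hz =>
      obtain ⟨m, hm, rfl⟩ := hy
      obtain ⟨n, hn, rfl⟩ := hz
      exact ⟨m + n, add_mem hm hn, by rw [mul_add]⟩
  · rintro ⟨m, hm, rfl⟩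
    exact G.mul_mem_mul (self_mem_prG u hu) hm

/-! ### The lattice `a A_R` -/

variable (R) in
/-- `a` as a unit of `R((z))` -/
def aUnit (h : MxH e a) : (LaurentSeries R)ˣ := IsUnit.unit (a := ex e R a) (by
  obtain ⟨d, hd, h1, h2⟩ := h.pole
  have := isUnit_delta e hd h1 h2 (0 : R)
  rwa [map_zero, sub_zero] at this)

theorem coe_aUnit (h : MxH e a) : (aUnit R h : LaurentSeries R) = ex e R a := rfl

theorem aUnit_den (h : MxH e a) : HasDen e a (aUnit R h) := by
  have hp : pev e R a Polynomial.X = ex e R a := by rw [pev, Polynomial.aeval_X]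
  refine ⟨Polynomial.X, Polynomial.monic_X, ?_, ?_⟩
  · rw [hp, coe_aUnit]
    exact mul_mem (ex_mem_AR e R a) (ex_mem_AR e R a)
  · rw [hp, ← coe_aUnit (R := R) h, Units.mul_inv]
    exact one_mem _

theorem map_aUnit (h : MxH e a) (f : R →ₐ[k] S) :
    Units.map (lmap (f : R →+* S) : LaurentSeries R →* LaurentSeries S) (aUnit R h) =
      aUnit S h := by
  apply Units.ext
  change lmap (f : R →+* S) (ex e R a) = ex e S a
  rw [lmap_ex]

variable (R) in
/-- the lattice `a A_R` -/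
def aG (h : MxH e a) : G e (R := R) a := prG (aUnit R h) (aUnit_den h)

theorem bc_aG (h : MxH e a) (f : R →ₐ[k] S) : bc f (aG R h) = aG S h := by
  rw [aG, bc_prG]
  apply Subtype.ext
  apply Units.ext
  rw [prG_val, map_aUnit]
  rfl

theorem mem_aG_mul {h : MxH e a} {M : G e (R := R) a} {y : LaurentSeries R} :
    y ∈ G.sub (aG R h * M) ↔ ∃ m ∈ G.sub M, y = ex e R a * m := mem_prG_mul

theorem mem_aG_inv_mul {h : MxH e a} {M : G e (R := R) a} {y : LaurentSeries R} :
    y ∈ G.sub ((aG R h)⁻¹ * M) ↔ ex e R a * y ∈ G.sub M := by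
  rw [aG, prG_inv, mem_prG_mul]
  constructor
  · rintro ⟨m, hm, rfl⟩
    rw [← coe_aUnit (R := R) h, ← mul_assoc, Units.mul_inv, one_mul]
    exact hm
  · intro hy
    exact ⟨_, hy, by rw [← coe_aUnit (R := R) h, ← mul_assoc, Units.inv_mul, one_mul]⟩

/-- `y ∈ a^{-n} M ↔ a^n y ∈ M` -/
theorem mem_aG_inv_pow_mul {h : MxH e a} {M : G e (R := R) a} {n : ℕ} {y : LaurentSeries R} :
    y ∈ G.sub ((aG R h)⁻¹ ^ n * M) ↔ ex e R a ^ n * y ∈ G.sub M := by
  induction n generalizing y with
  | zero => rw [pow_zero, one_mul, pow_zero, one_mul]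
  | succ n ih =>
    rw [pow_succ', mul_assoc, mem_aG_inv_mul, ih, pow_succ, mul_assoc]

theorem mem_aG_inv_pow {h : MxH e a} {n : ℕ} {y : LaurentSeries R} :
    y ∈ G.sub ((aG R h)⁻¹ ^ n) ↔ ex e R a ^ n * y ∈ AR e R := by
  have := mem_aG_inv_pow_mul (h := h) (M := 1) (n := n) (y := y)
  rw [mul_one] at this
  rw [this, G.mem_one]

theorem bc_aG_inv_pow (h : MxH e a) (n : ℕ) (f : R →ₐ[k] S) :
    bc f ((aG R h)⁻¹ ^ n) = (aG S h)⁻¹ ^ n := by
  rw [map_pow, map_inv, bc_aG]

end

end Fermat.Agent.J25
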