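import Mathlib
import Fermat.Agent.J25.Lat5
import Fermat.Agent.J25.PrG

set_option autoImplicit false
set_option linter.style.haveILetI false
set_option linter.unusedSectionVars false

/-!
# The index of the elements of `G(K)`
-/

noncomputable section

namespace Fermat.Agent.J25.Lat

attribute [-instance] HahnSeries.powerSeriesAlgebra

open Module HahnSeries CategoryTheory AlgebraicGeometry NeronModelInfra
open scoped TensorProduct

universe u

variable {k : Type u} [Field k] {A : Type u} [CommRing A] [Algebra k A]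
  {e : A →ₐ[k] LaurentSeries k} {a : A}

/-- the finiteness hypotheses on `(A, e)` -/
structure FinH (e : A →ₐ[k] LaurentSeries k) : Prop where
  H0 : ∀ x : A, e x ∈ LV k 0 → ∃ r : k, x = algebraMap k A r
  H1 : Module.Finite k (LaurentSeries k ⧸ (LinearMap.range e.toLinearMap ⊔ LV k 1))

theorem _root_.Fermat.Agent.J25.Geo.finH {C : Scheme.{u}} {c : C ⟶ Spec (CommRingCat.of k)}
    {ε : SchemeHomOver (𝟙 (Spec (CommRingCat.of k))) c} (g : Geo c ε) : FinH g.e where
  H0 := g.H0
  H1 := g.H1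

variable {K : Type u} [Field K] [Algebra k K] {K' : Type u} [Field K'] [Algebra k K']

theorem chi_eq (M : Submodule K (LaurentSeries K)) : J25.chi M = chi (LV K 1) M := rfl

theorem sub_eq_rs (M : G e (R := K) a) :
    G.sub M = rs ((M : (Submodule (AR e K) (LaurentSeries K))ˣ) :
      Submodule (AR e K) (LaurentSeries K)) := rfl

theorem sub_one_eq : G.sub (1 : G e (R := K) a) =
    rs (1 : Submodule (AR e K) (LaurentSeries K)) := by
  rw [sub_eq_rs, OneMemClass.coe_one, Units.val_one]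

theorem algebraMap_AR_injective :
    Function.Injective (algebraMap (AR e K) (LaurentSeries K)) := Subtype.val_injective

section bc

theorem sub_bc (f : K →ₐ[k] K') (M : G e (R := K) a) :
    G.sub (bc f M) = bcV (f : K →+* K') (G.sub M) := bc_sub f M

/-- **field extensions: finiteness** -/
theorem ad_bc (f : K →ₐ[k] K') (M : G e (R := K) a) (n : ℤ) :
    Ad (LV K' n) (G.sub (bc f M)) ↔ Ad (LV K n) (G.sub M) := by
  letI := (f : K →+* K').toAlgebra
  rw [sub_bc]
  exact ad_bcV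

/-- **field extensions: the index** -/
theorem chi_bc' (f : K →ₐ[k] K') (M : G e (R := K) a) (n : ℤ) :
    chi (LV K' n) (G.sub (bc f M)) = chi (LV K n) (G.sub M) := by
  letI := (f : K →+* K').toAlgebra
  rw [sub_bc]
  exact chi_bcV _ n

theorem chi_bc (f : K →ₐ[k] K') (M : G e (R := K) a) :
    J25.chi (G.sub (bc f M)) = J25.chi (G.sub M) := chi_bc' f M 1

theorem isDegZero_bc (f : K →ₐ[k] K') (M : G e (R := K) a) :
    IsDegZero (bc f M) ↔ IsDegZero M := by
  have h1 := chi_bc f M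
  have h2 := chi_bc f (1 : G e (R := K) a)
  rw [map_one] at h2
  rw [IsDegZero, IsDegZero, h1, h2]

theorem isCompl_bc (f : K →ₐ[k] K') (M : G e (R := K) a) (n : ℤ) :
    IsCompl (G.sub (bc f M)) (LV K' n) ↔ IsCompl (G.sub M) (LV K n) := by
  letI := (f : K →+* K').toAlgebra
  rw [sub_bc]
  exact isCompl_bcV _ n

theorem sup_eq_top_bc (f : K →ₐ[k] K') (M : G e (R := K) a) (n : ℤ) :
    G.sub (bc f M) ⊔ LV K' n = ⊤ ↔ G.sub M ⊔ LV K n = ⊤ := by
  letI := (f : K →+* K').toAlgebra
  rw [sub_bc]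
  exact sup_eq_top_bcV _ n

theorem inf_eq_bot_bc (f : K →ₐ[k] K') (M : G e (R := K) a) (n : ℤ) :
    G.sub (bc f M) ⊓ LV K' n = ⊥ ↔ G.sub M ⊓ LV K n = ⊥ := by
  letI := (f : K →+* K').toAlgebra
  rw [sub_bc]
  exact inf_eq_bot_bcV _ n

theorem h0_bc (f : K →ₐ[k] K') (M : G e (R := K) a) (n : ℤ) :
    finrank K' (G.sub (bc f M) ⊓ LV K' n : Submodule K' (LaurentSeries K')) =
      finrank K (G.sub M ⊓ LV K n : Submodule K (LaurentSeries K)) := by
  letI := (f : K →+* K').toAlgebra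
  rw [sub_bc]
  exact h0_bcV _ n

theorem h1_bc (f : K →ₐ[k] K') (M : G e (R := K) a) (n : ℤ) :
    finrank K' (LaurentSeries K' ⧸ (G.sub (bc f M) ⊔ LV K' n)) =
      finrank K (LaurentSeries K ⧸ (G.sub M ⊔ LV K n)) := by
  letI := (f : K →+* K').toAlgebra
  rw [sub_bc]
  exact h1_bcV _ n

end bc

section ad

theorem ex_self (x : A) : ex e k x = e x := by
  ext i
  rfl

theorem mem_AR_self {x : LaurentSeries k} : x ∈ AR e k ↔ x ∈ LinearMap.range e.toLinearMap := by
  constructor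
  · rintro ⟨t, rfl⟩
    change exR e k t ∈ _
    induction t using TensorProduct.induction_on with
    | zero => rw [map_zero]; exact zero_mem _
    | tmul r b =>
      rw [exR_tmul, ex_self]
      exact Submodule.smul_mem _ _ ⟨b, rfl⟩
    | add x y hx hy => rw [map_add]; exact add_mem hx hy
  · rintro ⟨b, rfl⟩
    change e b ∈ _
    rw [← ex_self]
    exact ex_mem_AR e k b

theorem sub_one_self : G.sub (1 : G e (R := k) a) = LinearMap.range e.toLinearMap := by
  ext x
  rw [G.mem_one]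
  exact mem_AR_self

variable (h : FinH e)
include h

theorem ad_range : Ad (LV k 0) (LinearMap.range e.toLinearMap) := by
  refine ⟨?_, ?_⟩
  · have hle : (LinearMap.range e.toLinearMap ⊓ LV k 0 : Submodule k (LaurentSeries k)) ≤
        Submodule.span k {1} := by
      rintro _ ⟨⟨x, rfl⟩, hx⟩
      obtain ⟨r, rfl⟩ := h.H0 x hx
      rw [Submodule.mem_span_singleton]
      refine ⟨r, ?_⟩
      change r • (1 : LaurentSeries k) = e (algebraMap k A r)
      rw [AlgHom.commutes, Algebra.algebraMap_eq_smul_one]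
    exact fd_mono hle
  · haveI := h.H1
    have hle : LinearMap.range e.toLinearMap ⊔ LV k 1 ≤ LinearMap.range e.toLinearMap ⊔ LV k 0 :=
      sup_le_sup_left (LV_mono (by norm_num)) _
    exact Module.Finite.of_surjective (Submodule.factor hle) (Submodule.factor_surjective _)

/-- finiteness for `A_K` -/
theorem ad_one (K : Type u) [Field K] [Algebra k K] :
    Ad (LV K 0) (rs (1 : Submodule (AR e K) (LaurentSeries K))) := by
  have h1 : Ad (LV k 0) (G.sub (1 : G e (R := k) (1 : A))) := by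
    rw [sub_one_self]
    exact ad_range h
  have h2 := (ad_bc (Algebra.ofId k K) (1 : G e (R := k) (1 : A)) 0).2 h1
  rwa [map_one, sub_one_eq] at h2

/-- **finiteness for `G(K)`** -/
theorem adG (M : G e (R := K) a) (n : ℤ) : Ad (LV K n) (G.sub M) :=
  ad_unit (ad_one h K) M.1

theorem finite_h0 (M : G e (R := K) a) (n : ℤ) :
    FiniteDimensional K (G.sub M ⊓ LV K n : Submodule K (LaurentSeries K)) := (adG h M n).h0

theorem finite_h1 (M : G e (R := K) a) (n : ℤ) :
    FiniteDimensional K (LaurentSeries K ⧸ (G.sub M ⊔ LV K n)) := (adG h M n).h1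

theorem chi_shiftG (M : G e (R := K) a) (m n : ℤ) :
    chi (LV K m) (G.sub M) = chi (LV K n) (G.sub M) + (n - m) := chi_shift (adG h M n)

end ad

section pts

theorem mx_val_pp (hm : MxH e a) (x : A →ₐ[k] K) :
    ((mx hm x : (Submodule (AR e K) (LaurentSeries K))ˣ) : Submodule (AR e K) (LaurentSeries K)) =
      pp (phiX hm x) := mx_eq_map hm x

theorem sub_mx_mul (hm : MxH e a) (x : A →ₐ[k] K) (M : G e (R := K) a) :
    G.sub (mx hm x * M) = rs (pp (phiX hm x) * ((M : (Submodule (AR e K) (LaurentSeries K))ˣ) :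
      Submodule (AR e K) (LaurentSeries K))) := by
  rw [sub_eq_rs, MulMemClass.coe_mul, Units.val_mul, mx_val_pp]

variable (h : FinH e)
include h

/-- the index of `𝔪_x M` -/
theorem chi_mx_mul' (hm : MxH e a) (x : A →ₐ[k] K) (M : G e (R := K) a) (n : ℤ) :
    chi (LV K n) (G.sub (mx hm x * M)) = chi (LV K n) (G.sub M) - 1 := by
  rw [sub_mx_mul, chi_pp_mul algebraMap_AR_injective (ad_one h K)]
  rfl

theorem chi_mx_mul (hm : MxH e a) (x : A →ₐ[k] K) (M : G e (R := K) a) :
    J25.chi (G.sub (mx hm x * M)) = J25.chi (G.sub M) - 1 := chi_mx_mul' h hm x M 1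

theorem chi_mx_prod_mul (hm : MxH e a) (l : List (A →ₐ[k] K)) (M : G e (R := K) a) :
    J25.chi (G.sub ((l.map (mx hm)).prod * M)) = J25.chi (G.sub M) - l.length := by
  induction l with
  | nil => simp
  | cons x l ih =>
    rw [List.map_cons, List.prod_cons, mul_assoc, chi_mx_mul h hm, ih, List.length_cons]
    push_cast
    ring

end pts

section twist

variable {d : ℕ}

theorem order_inv' {f : LaurentSeries K} (hf : f ≠ 0) : (f⁻¹).order = -f.order := by
  have h1 := HahnSeries.order_mul hf (inv_ne_zero hf)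
  rw [mul_inv_cancel₀ hf, HahnSeries.order_one] at h1
  omega

theorem order_ex (hd : e a ∈ LV k (-(d : ℤ))) (hd' : (e a).coeff (-(d : ℤ)) ≠ 0) (K : Type u)
    [Field K] [Algebra k K] : ex e K a ≠ 0 ∧ (ex e K a).order = -(d : ℤ) := by
  have h1 : (ex e K a).coeff (-(d : ℤ)) ≠ 0 := by
    rw [ex_coeff]
    exact fun h => hd' ((map_eq_zero _).1 h)
  have h2 : ex e K a ≠ 0 := by
    intro h0
    rw [h0] at h1
    exact h1 rfl
  refine ⟨h2, le_antisymm (HahnSeries.order_le_of_coeff_ne_zero h1) ?_⟩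
  by_contra hlt
  have h3 := ex_mem_LV e (R := K) hd _ (lt_of_not_ge hlt)
  exact HahnSeries.coeff_order_eq_zero.not.2 h2 h3

theorem sub_aG_inv_pow_mul (hm : MxH e a) (n : ℕ) (M : G e (R := K) a)
    (hw : (ex e K a)⁻¹ ≠ 0) :
    G.sub ((aG K hm)⁻¹ ^ n * M) = rs (((spu (AR e K) (ex e K a)⁻¹ hw) ^ n * M.1 :
      (Submodule (AR e K) (LaurentSeries K))ˣ) : Submodule (AR e K) (LaurentSeries K)) := by
  rw [rs_spu_pow_mul]
  have h0 : ex e K a ≠ 0 := fun h => hw (by rw [h, inv_zero])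
  ext y
  rw [mem_aG_inv_pow_mul]
  constructor
  · intro hy
    refine ⟨_, hy, ?_⟩
    change ((ex e K a)⁻¹) ^ n * (ex e K a ^ n * y) = y
    rw [← mul_assoc, ← mul_pow, inv_mul_cancel₀ h0, one_pow, one_mul]
  · rintro ⟨m, hm', rfl⟩
    change ex e K a ^ n * (((ex e K a)⁻¹) ^ n * m) ∈ G.sub M
    rw [← mul_assoc, ← mul_pow, mul_inv_cancel₀ h0, one_pow, one_mul]
    exact hm'

variable (h : FinH e)
include h

theorem chi_aG_inv_pow_mul (hm : MxH e a) (hd : e a ∈ LV k (-(d : ℤ)))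
    (hd' : (e a).coeff (-(d : ℤ)) ≠ 0) (n : ℕ) (M : G e (R := K) a) (m : ℤ) :
    chi (LV K m) (G.sub ((aG K hm)⁻¹ ^ n * M)) = chi (LV K m) (G.sub M) + n * d := by
  obtain ⟨h1, h2⟩ := order_ex (a := a) hd hd' K
  rw [sub_aG_inv_pow_mul hm n M (inv_ne_zero h1), rs_spu_pow_mul,
    chi_mul (ad_unit (ad_one h K) M.1), order_pow', order_inv' h1, h2, neg_neg]
  rfl

/-- the condition `H¹(M(-∞)) = 0`, `dim H⁰(M(-∞)) = n` -/
def PG (n : ℕ) (M : G e (R := K) a) : Prop := Pn n M.1

omit h in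
theorem PG.isCompl {M : G e (R := K) a} (hM : PG 0 M) : IsCompl (G.sub M) (LV K 1) :=
  Pn.isCompl hM

/-- **twisting** -/
theorem exists_twistG (hm : MxH e a) (hd0 : 0 < d) (hd : e a ∈ LV k (-(d : ℤ)))
    (hd' : (e a).coeff (-(d : ℤ)) ≠ 0) (M : G e (R := K) a) :
    ∃ n0 : ℕ, ∀ n ≥ n0, ∀ r : ℕ, J25.chi (G.sub M) + n * d = r → PG r ((aG K hm)⁻¹ ^ n * M) := by
  obtain ⟨h1, h2⟩ := order_ex (a := a) hd hd' K
  have h3 : ((ex e K a)⁻¹).order = (d : ℤ) := by rw [order_inv' h1, h2, neg_neg]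
  obtain ⟨n0, hn0⟩ := exists_twist (ad_one h K) M.1 (inv_ne_zero h1) (by rw [h3]; omega)
  refine ⟨n0, fun n hn r hr => ?_⟩
  have h4 := hn0 n hn r (by rw [h3]; exact hr)
  have h5 : ((aG K hm)⁻¹ ^ n * M).1 = (spu (AR e K) (ex e K a)⁻¹ (inv_ne_zero h1)) ^ n * M.1 := by
    apply Units.ext
    exact Submodule.restrictScalars_injective K _ _ (sub_aG_inv_pow_mul hm n M (inv_ne_zero h1))
  rw [PG, h5]
  exact h4

/-- **one step** (points over a subfield) -/
theorem pg_step (hm : MxH e a) {k' : Type u} [Field k'] [Algebra k k'] (f : k' →ₐ[k] K) {n : ℕ}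
    {M : G e (R := K) a} (hM : PG (n + 1) M) :
    {x : A →ₐ[k] k' | ¬ PG n (bc f (mx hm x) * M)}.Finite := by
  refine pn_step' (Φ := A →ₐ[k] k') algebraMap_AR_injective (ad_one h K)
    (fun x => phiX hm (f.comp x)) ?_ (fun x => (bc f (mx hm x)).1) ?_ (L := M.1) hM
  · intro x y hxy
    have h1 := phiX_injective hm hxy
    ext b
    have h2 := congrArg (fun g : A →ₐ[k] K => g b) h1
    exact f.toRingHom.injective h2
  · intro x
    rw [bc_mx, mx_val_pp]

end twist

end Fermat.Agent.J25.Lat
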