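import Fermat.Agent.J25.KerOpen
import Fermat.Agent.J25.Lat6
import Fermat.Agent.J25.CutA

/-!
# The index is locally constant (6b)
-/

set_option autoImplicit false
set_option linter.style.haveILetI false

noncomputable section

namespace Fermat.Agent.J25.KF

attribute [-instance] HahnSeries.powerSeriesAlgebra

open HahnSeries
open scoped TensorProduct

universe u v w

section General

variable {R : Type u} [CommRing R] {M : Type v} {Q : Type w} [AddCommGroup M] [Module R M]
  [AddCommGroup Q] [Module R Q] (φ : M →ₗ[R] Q)

/-- the kernel of a surjection of projective modules is projective -/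
theorem projective_ker [Module.Projective R M] [Module.Projective R Q]
    (hs : Function.Surjective φ) : Module.Projective R (LinearMap.ker φ) := by
  obtain ⟨s, hs⟩ := φ.exists_rightInverse_of_surjective (LinearMap.range_eq_top.mpr hs)
  let π : M →ₗ[R] LinearMap.ker φ := (LinearMap.id - s ∘ₗ φ).codRestrict _ fun m => by
    rw [LinearMap.mem_ker, LinearMap.sub_apply, LinearMap.id_apply, LinearMap.comp_apply, map_sub,
      sub_eq_zero]
    exact (LinearMap.congr_fun hs (φ m)).symm
  refine Module.Projective.of_split (LinearMap.ker φ).subtype π ?_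
  ext x
  change (x : M) - s (φ x) = x
  rw [LinearMap.mem_ker.mp x.2, map_zero, sub_zero]

/-- the kernel commutes with base change -/
theorem finrank_ker_baseChange [Module.Projective R Q] (hs : Function.Surjective φ)
    (K : Type*) [Field K] [Algebra R K] :
    Module.finrank K (LinearMap.ker (φ.baseChange K)) =
      Module.finrank K (K ⊗[R] LinearMap.ker φ) := by
  obtain ⟨s, hs'⟩ := φ.exists_rightInverse_of_surjective (LinearMap.range_eq_top.mpr hs)
  let π : M →ₗ[R] LinearMap.ker φ := (LinearMap.id - s ∘ₗ φ).codRestrict _ fun m => by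
    rw [LinearMap.mem_ker, LinearMap.sub_apply, LinearMap.id_apply, LinearMap.comp_apply, map_sub,
      sub_eq_zero]
    exact (LinearMap.congr_fun hs' (φ m)).symm
  have hπ : π ∘ₗ (LinearMap.ker φ).subtype = LinearMap.id := by
    ext x
    change (x : M) - s (φ x) = x
    rw [LinearMap.mem_ker.mp x.2, map_zero, sub_zero]
  have hinj : Function.Injective ((LinearMap.ker φ).subtype.baseChange K) := by
    refine Function.LeftInverse.injective (g := π.baseChange K) fun z => ?_
    rw [← LinearMap.comp_apply, ← LinearMap.baseChange_comp, hπ, LinearMap.baseChange_id,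
      LinearMap.id_apply]
  have hex : Function.Exact (LinearMap.lTensor K (LinearMap.ker φ).subtype)
      (LinearMap.lTensor K φ) := lTensor_exact K (LinearMap.exact_subtype_ker_map φ) hs
  have h1 : LinearMap.ker (φ.baseChange K) =
      LinearMap.range ((LinearMap.ker φ).subtype.baseChange K) := by
    ext z
    rw [LinearMap.mem_ker, LinearMap.mem_range]
    exact hex z
  rw [h1]
  exact LinearMap.finrank_range_of_inj hinj

end General

section Lattice

variable {k : Type u} [Field k] {A : Type u} [CommRing A] [Algebra k A]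
  {e : A →ₐ[k] LaurentSeries k} {a : A} {d : ℕ} {R : Type u} [CommRing R] [Algebra k R]

/-- the space of sections of the fibre -/
theorem finrank_inf_bc (he : Function.Injective e) (M : G e (R := R) a) (n : ℤ)
    (h : G.sub M ⊔ LV R n = ⊤) (K : Type u) [Field K] [Algebra k K] [Algebra R K]
    [IsScalarTower k R K] :
    Module.finrank K (G.sub (bc (IsScalarTower.toAlgHom k R K) M) ⊓ LV K n :
      Submodule K (LaurentSeries K)) =
      Module.finrank K (K ⊗[R] LinearMap.ker (KB.ppM (G.sub M) n)) := by
  rw [← finrank_ker_baseChange _ ((KB.surjective_ppM_iff _ _).mpr h) K,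
    ← (KB.kerE (G.sub (bc (IsScalarTower.toAlgHom k R K) M)) n).finrank_eq,
    ker_baseChange_ppM he]
  exact (LinearEquiv.ofSubmodule' (KB.bcE K M he) _).finrank_eq.symm

/-- **(6b)**: the index is locally constant -/
theorem isLocallyConstant_chi' (he : Function.Injective e)
    (ha : e a ∈ LV k (-(d : ℤ))) (ha1 : (e a).coeff (-(d : ℤ)) = 1) (hd : 0 < d)
    (finA : (Polynomial.aeval (R := k) a).toRingHom.Finite)
    (H0 : ∀ x : A, e x ∈ LV k 0 → ∃ r : k, x = algebraMap k A r)
    (H1 : Module.Finite k (LaurentSeries k ⧸ (LinearMap.range e.toLinearMap ⊔ LV k 1)))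
    (M : G e (R := R) a) :
    IsLocallyConstant fun x : PrimeSpectrum R =>
      chi (G.sub (bc (IsScalarTower.toAlgHom k R x.asIdeal.ResidueField) M)) := by
  obtain ⟨n, hn⟩ := exists_bound_G ha ha1 hd H1 M
  have h1 : G.sub M ⊔ LV R n = ⊤ := by
    rw [eq_top_iff]
    intro x _
    obtain ⟨m, hm, hx⟩ := hn x
    rw [← add_sub_cancel m x]
    exact Submodule.add_mem_sup hm hx
  have hs := (KB.surjective_ppM_iff _ _).mpr h1
  haveI := KB.projective_sub he M
  haveI := projective_ker _ hs
  have hfg := fg_ker he ha ha1 hd finA H0 M n h1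
  rw [← Module.Finite.iff_fg] at hfg
  haveI : Module.Finite R (LinearMap.ker (KB.ppM (G.sub M) n)) :=
    Module.Finite.equiv (KB.kerE (G.sub M) n).symm
  haveI : Module.FinitePresentation R (LinearMap.ker (KB.ppM (G.sub M) n)) :=
    Module.finitePresentation_of_projective R (LinearMap.ker (KB.ppM (G.sub M) n))
  have h2 := Module.isLocallyConstant_rankAtStalk (R := R)
    (M := LinearMap.ker (KB.ppM (G.sub M) n))
  have h3 : (fun x : PrimeSpectrum R =>
      chi (G.sub (bc (IsScalarTower.toAlgHom k R x.asIdeal.ResidueField) M))) =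
      (fun r : ℕ => (r : ℤ) + (n - 1)) ∘
        Module.rankAtStalk (R := R) (LinearMap.ker (KB.ppM (G.sub M) n)) := by
    funext x
    have hH : Lat.FinH e := ⟨H0, H1⟩
    rw [Function.comp_apply, Module.rankAtStalk_eq, Lat.chi_eq, Lat.chi_shiftG hH _ 1 n]
    congr 1
    have h4 : G.sub (bc (IsScalarTower.toAlgHom k R x.asIdeal.ResidueField) M) ⊔
        LV x.asIdeal.ResidueField n = ⊤ := by
      rw [← KB.surjective_ppM_iff, KB.surjective_ppM_bc_iff _ M he]
      exact surjective_baseChange_of_surjective _ _ hs
    rw [Lat.chi, h4, finrank_inf_bc he M n h1]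
    have h5 : Module.finrank x.asIdeal.ResidueField
        (LaurentSeries x.asIdeal.ResidueField ⧸
          (⊤ : Submodule x.asIdeal.ResidueField (LaurentSeries x.asIdeal.ResidueField))) = 0 := by
      haveI : Subsingleton (LaurentSeries x.asIdeal.ResidueField ⧸
          (⊤ : Submodule x.asIdeal.ResidueField (LaurentSeries x.asIdeal.ResidueField))) :=
        Submodule.Quotient.subsingleton_iff.mpr rfl
      exact Module.finrank_zero_of_subsingleton
    rw [h5, Nat.cast_zero, sub_zero]
  rw [h3]
  exact h2.comp _

end Lattice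

section Geom

open CategoryTheory CategoryTheory.Limits AlgebraicGeometry NeronModelInfra

variable {k : Type u} [Field k] {C : Scheme.{u}} {c : C ⟶ Spec (CommRingCat.of k)}
    {ε : SchemeHomOver (𝟙 (Spec (CommRingCat.of k))) c} (g : Geo c ε)

/-- **(6b)** -/
theorem isLocallyConstant_chi {R : Type u} [CommRing R] [Algebra k R]
    (M : G g.e (R := R) g.a) :
    IsLocallyConstant fun x : PrimeSpectrum R =>
      chi (G.sub (bc (IsScalarTower.toAlgHom k R x.asIdeal.ResidueField) M)) :=
  isLocallyConstant_chi' (e := g.e) (a := g.a) (d := g.d) g.injA g.ea_mem g.ea_coeff g.hd g.finA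
    g.H0 g.H1 M

/-- **(6b)**, in the form of `Cut.H6b` -/
theorem h6b : Cut.H6b g := fun _ _ _ M => isLocallyConstant_chi g M

end Geom

end Fermat.Agent.J25.KF
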