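import Mathlib
import Fermat.Agent.J25.PicC
import Fermat.Agent.J25.Tower
import Fermat.Prelude.Def_AlgebraicGeometry_RelativePicardFunctor

/-!
# The Abel–Jacobi class
-/

set_option autoImplicit false

universe u

open AlgebraicGeometry CategoryTheory CategoryTheory.Limits TopologicalSpace NeronModelInfra
open AlgebraicGeometry.RelPicard

namespace Fermat.Agent.J25.AJ

noncomputable section

variable {R : Type u} [CommRing R] {C : Scheme.{u}} {c : C ⟶ Spec (CommRingCat.of R)}

/-- composition of morphisms over the base -/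
def pre {T T' : Scheme.{u}} {t : T ⟶ Spec (CommRingCat.of R)} {t' : T' ⟶ Spec (CommRingCat.of R)}
    (g : SchemeHomOver t' t) (x : SchemeHomOver t c) : SchemeHomOver t' c :=
  ⟨g.1 ≫ x.1, by rw [Category.assoc, x.2, g.2]⟩

section Norm

variable (ε : SchemeHomOver (𝟙 (Spec (CommRingCat.of R))) c)

theorem rigSection_snd {T : Scheme.{u}} (t : T ⟶ Spec (CommRingCat.of R)) :
    rigSection c t ε ≫ pullback.snd c t = 𝟙 T := pullback.lift_snd _ _ _

theorem baseChangeSnd_snd {T T' : Scheme.{u}} {t : T ⟶ Spec (CommRingCat.of R)}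
    {t' : T' ⟶ Spec (CommRingCat.of R)} (g : SchemeHomOver t' t) :
    baseChangeSnd c g ≫ pullback.snd c t = pullback.snd c t' ≫ g.1 := by
  simp only [baseChangeSnd, pullback.lift_snd]

theorem baseChangeSnd_fst {T T' : Scheme.{u}} {t : T ⟶ Spec (CommRingCat.of R)}
    {t' : T' ⟶ Spec (CommRingCat.of R)} (g : SchemeHomOver t' t) :
    baseChangeSnd c g ≫ pullback.fst c t = pullback.fst c t' := by
  simp only [baseChangeSnd, pullback.lift_fst, Category.comp_id]

/-- normalisation of a class along the section -/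
def nrm {T : Scheme.{u}} (t : T ⟶ Spec (CommRingCat.of R)) : PicC (pullback c t) →* PicC (pullback c t) :=
  MonoidHom.id _ / (PicC.map (pullback.snd c t)).comp (PicC.map (rigSection c t ε))

theorem nrm_apply {T : Scheme.{u}} (t : T ⟶ Spec (CommRingCat.of R)) (ℓ : PicC (pullback c t)) :
    nrm ε t ℓ = ℓ / PicC.map (pullback.snd c t) (PicC.map (rigSection c t ε) ℓ) := rfl

theorem sec_nrm {T : Scheme.{u}} (t : T ⟶ Spec (CommRingCat.of R)) (ℓ : PicC (pullback c t)) :
    PicC.map (rigSection c t ε) (nrm ε t ℓ) = 1 := by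
  rw [nrm_apply, map_div, ← PicC.map_comp_apply (rigSection c t ε) (pullback.snd c t), rigSection_snd,
    PicC.map_id_apply, div_self']

theorem nrm_of_sec {T : Scheme.{u}} (t : T ⟶ Spec (CommRingCat.of R)) {ℓ : PicC (pullback c t)}
    (h : PicC.map (rigSection c t ε) ℓ = 1) : nrm ε t ℓ = ℓ := by
  rw [nrm_apply, h, map_one, div_one]

theorem nrm_map {T T' : Scheme.{u}} {t : T ⟶ Spec (CommRingCat.of R)}
    {t' : T' ⟶ Spec (CommRingCat.of R)} (g : SchemeHomOver t' t) (ℓ : PicC (pullback c t)) :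
    PicC.map (baseChangeSnd c g) (nrm ε t ℓ) = nrm ε t' (PicC.map (baseChangeSnd c g) ℓ) := by
  rw [nrm_apply, nrm_apply, map_div, ← PicC.map_comp_apply (baseChangeSnd c g) (pullback.snd c t),
    baseChangeSnd_snd, PicC.map_comp_apply, ← PicC.map_comp_apply (rigSection c t' ε),
    rigSection_baseChangeSnd, PicC.map_comp_apply g.1]

end Norm

section Theta

variable (α : PicC C) (δ : PicC (pullback c c))

/-- the class of `α + Σ x i` -/
def theta {T : Scheme.{u}} (t : T ⟶ Spec (CommRingCat.of R)) {N : ℕ}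
    (x : Fin N → SchemeHomOver t c) : PicC (pullback c t) :=
  PicC.map (pullback.fst c t) α * ∏ i, PicC.map (baseChangeSnd c (x i)) δ

theorem theta_map {T T' : Scheme.{u}} {t : T ⟶ Spec (CommRingCat.of R)}
    {t' : T' ⟶ Spec (CommRingCat.of R)} (g : SchemeHomOver t' t) {N : ℕ}
    (x : Fin N → SchemeHomOver t c) :
    PicC.map (baseChangeSnd c g) (theta α δ t x) = theta α δ t' (fun i => pre g (x i)) := by
  rw [theta, theta, map_mul, map_prod, ← PicC.map_comp_apply (baseChangeSnd c g) (pullback.fst c t),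
    baseChangeSnd_fst]
  congr 1
  refine Finset.prod_congr rfl fun i _ => ?_
  rw [← PicC.map_comp_apply (baseChangeSnd c g), baseChangeSnd_comp]
  rfl

variable (ε : SchemeHomOver (𝟙 (Spec (CommRingCat.of R))) c)

/-- **The Abel–Jacobi class** of a tuple of points. -/
def aj {T : Scheme.{u}} (t : T ⟶ Spec (CommRingCat.of R)) {N : ℕ}
    (x : Fin N → SchemeHomOver t c) : PicC (pullback c t) := nrm ε t (theta α δ t x)

theorem sec_aj {T : Scheme.{u}} (t : T ⟶ Spec (CommRingCat.of R)) {N : ℕ}
    (x : Fin N → SchemeHomOver t c) : PicC.map (rigSection c t ε) (aj α δ ε t x) = 1 :=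
  sec_nrm ε t _

theorem aj_map {T T' : Scheme.{u}} {t : T ⟶ Spec (CommRingCat.of R)}
    {t' : T' ⟶ Spec (CommRingCat.of R)} (g : SchemeHomOver t' t) {N : ℕ}
    (x : Fin N → SchemeHomOver t c) :
    PicC.map (baseChangeSnd c g) (aj α δ ε t x) = aj α δ ε t' (fun i => pre g (x i)) := by
  rw [aj, aj, nrm_map, theta_map]

/-- **The universal Abel–Jacobi class** -/
def ajU (N : ℕ) : PicC (pullback c (Tow.tp c N)) := aj α δ ε (Tow.tp c N) (Tow.prO c N)

theorem sec_ajU (N : ℕ) : PicC.map (rigSection c (Tow.tp c N) ε) (ajU α δ ε N) = 1 :=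
  sec_aj _ _ _ _ _

/-- The universal class at a tuple of points. -/
theorem ajU_map (N : ℕ) {T : Scheme.{u}} {t : T ⟶ Spec (CommRingCat.of R)}
    (x : Fin N → SchemeHomOver t c) :
    PicC.map (baseChangeSnd c (Tow.lift c x)) (ajU α δ ε N) = aj α δ ε t x := by
  rw [ajU, aj_map]
  congr 1
  funext i
  exact Subtype.ext (Tow.lift_pr c x i)

/-- If all the pullbacks of `δ` are trivial along the section, then no normalisation is needed. -/
theorem aj_eq {T : Scheme.{u}} (t : T ⟶ Spec (CommRingCat.of R)) {N : ℕ}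
    (x : Fin N → SchemeHomOver t c) (hα : PicC.map (rigSection c t ε)
      (PicC.map (pullback.fst c t) α) = 1)
    (hδ : ∀ i, PicC.map (rigSection c t ε) (PicC.map (baseChangeSnd c (x i)) δ) = 1) :
    aj α δ ε t x = PicC.map (pullback.fst c t) α * ∏ i, PicC.map (baseChangeSnd c (x i)) δ := by
  refine nrm_of_sec ε t ?_
  rw [theta, map_mul, map_prod, hα, one_mul]
  exact Finset.prod_eq_one fun i _ => hδ i

end Theta

end

end Fermat.Agent.J25.AJ
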