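import Mathlib
import Fermat.Agent.J25.Hub
import Fermat.Agent.J25.AJ

/-!
# The Abel–Jacobi class and lattices
-/

set_option autoImplicit false

universe u

open AlgebraicGeometry CategoryTheory CategoryTheory.Limits TopologicalSpace NeronModelInfra
open AlgebraicGeometry.RelPicard

namespace Fermat.Agent.J25.AJ

attribute [-instance] HahnSeries.powerSeriesAlgebra

noncomputable section

variable {k : Type u} [Field k] {C : Scheme.{u}} {c : C ⟶ Spec (CommRingCat.of k)}
    {ε : SchemeHomOver (𝟙 (Spec (CommRingCat.of k))) c}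

/-- the point of `C` with values in `Spec R` given by a point of `A` -/
def ptA (g : Geo c ε) {R : Type u} [CommRing R] [Algebra k R] (x : g.A →ₐ[k] R) :
    SchemeHomOver (sS k R) c :=
  ⟨Spec.map (CommRingCat.ofHom (x : g.A →+* R)) ≫ g.jA, by
    rw [Category.assoc, g.jA_c, ← Spec.map_comp, ← CommRingCat.ofHom_comp, AlgHom.comp_algebraMap]⟩

theorem sS_self : sS k k = 𝟙 (Spec (CommRingCat.of k)) := by
  rw [sS, Algebra.algebraMap_self, CommRingCat.ofHom_id, Spec.map_id]

/-- `C ⟶ C_k` -/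
def toCk (c : C ⟶ Spec (CommRingCat.of k)) : C ⟶ CR c k :=
  pullback.lift (𝟙 C) c (by rw [sS_self, Category.id_comp, Category.comp_id])

theorem fst_toCk (K : Type u) [CommRing K] [Algebra k K] :
    pullback.fst c (sS k K) ≫ toCk c = mR c (Algebra.ofId k K) := by
  refine pullback.hom_ext ?_ ?_
  · rw [Category.assoc, toCk, pullback.lift_fst, Category.comp_id, baseChangeSnd_fst]
  · rw [Category.assoc, toCk, pullback.lift_snd, baseChangeSnd_snd, pullback.condition]
    rfl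

section

variable (g : Geo c ε)
  (toPic : ∀ (R : Type u) [CommRing R] [Algebra k R], G g.e (R := R) g.a →* PicC (CR c R))

/-- the class on `C` of a lattice -/
def alp (η : G g.e (R := k) g.a) : PicC C := PicC.map (toCk c) (toPic k η)

variable (P1 : ∀ (R : Type u) [CommRing R] [Algebra k R] (M : G g.e (R := R) g.a),
    PicC.map (secR c ε R) (toPic R M) = 1)
  (P4 : ∀ (R S : Type u) [CommRing R] [Algebra k R] [CommRing S] [Algebra k S] (f : R →ₐ[k] S)
    (M : G g.e (R := R) g.a), PicC.map (mR c f) (toPic R M) = toPic S (bc f M))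

include P4 in
theorem alp_map (η : G g.e (R := k) g.a) (K : Type u) [CommRing K] [Algebra k K] :
    PicC.map (pullback.fst c (sS k K)) (alp g toPic η) = toPic K (bc (Algebra.ofId k K) η) := by
  rw [alp, ← PicC.map_comp_apply, fst_toCk, P4]

include P1 P4 in
/-- **The Abel–Jacobi class of a tuple of points of `U`**. -/
theorem aj_eq_toPic (δ : PicC (pullback c c)) (η : G g.e (R := k) g.a) (K : Type u) [CommRing K]
    [Algebra k K] {N : ℕ} (x : Fin N → (g.A →ₐ[k] K)) (m : Fin N → G g.e (R := K) g.a)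
    (hδ : ∀ i, PicC.map (baseChangeSnd c (ptA g (x i))) δ = toPic K (m i)) :
    aj (alp g toPic η) δ ε (sS k K) (fun i => ptA g (x i)) =
      toPic K (bc (Algebra.ofId k K) η * ∏ i, m i) := by
  rw [aj_eq, alp_map g toPic P4, map_mul, map_prod]
  · simp only [hδ]
  · rw [alp_map g toPic P4]
    exact P1 K _
  · intro i
    rw [hδ]
    exact P1 K _

end

section Surj

variable (ε)

/-- **The Abel–Jacobi morphism** `C^N ⟶ P` and its surjectivity on points. -/
theorem exists_ajMor [IsAlgClosed k] [IsIntegral C] (α : PicC C) (δ : PicC (pullback c c))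
    (Deg0 : ∀ {T : Scheme.{u}} (t : T ⟶ Spec (CommRingCat.of k)), PicC (pullback c t) → Prop)
    (hcon : ∀ {T : Scheme.{u}} (t : T ⟶ Spec (CommRingCat.of k)) (_ : IsIntegral T)
      (ℓ : PicC (pullback c t)) (_ : PicC.map (rigSection c t ε) ℓ = 1)
      (s : SchemeHomOver (sS k k) t), PicC.map (baseChangeSnd c s) ℓ = 1 → Deg0 t ℓ)
    {P : Scheme.{u}} (p : P ⟶ Spec (CommRingCat.of k)) (ℓP : PicC (pullback c p))
    (hP : PicC.map (rigSection c p ε) ℓP = 1)
    (hPD : ∀ φ : SchemeHomOver (sS k k) p, Deg0 (sS k k) (PicC.map (baseChangeSnd c φ) ℓP))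
    (hex : ∀ {T : Scheme.{u}} (t : T ⟶ Spec (CommRingCat.of k)) (ℓ : PicC (pullback c t)),
      PicC.map (rigSection c t ε) ℓ = 1 → Deg0 t ℓ →
        ∃ φ : SchemeHomOver t p, PicC.map (baseChangeSnd c φ) ℓP = ℓ)
    (huniq : ∀ φ ψ : SchemeHomOver (sS k k) p, PicC.map (baseChangeSnd c φ) ℓP =
      PicC.map (baseChangeSnd c ψ) ℓP → φ = ψ)
    (hone : Deg0 (sS k k) (1 : PicC (CR c k))) (N : ℕ)
    (h3b : ∀ ℓ : PicC (CR c k), PicC.map (secR c ε k) ℓ = 1 → Deg0 (sS k k) ℓ →
      ∃ x : Fin N → SchemeHomOver (sS k k) c, ℓ = aj α δ ε (sS k k) x) :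
    ∃ q : Tow.T c N ⟶ P, q ≫ p = Tow.tp c N ∧
      ∀ y : Spec (CommRingCat.of k) ⟶ P, y ≫ p = 𝟙 _ →
        ∃ z : Spec (CommRingCat.of k) ⟶ Tow.T c N, z ≫ q = y := by
  obtain ⟨x₀, hx₀⟩ := h3b 1 (map_one _) hone
  obtain ⟨q, hq⟩ := hex (Tow.tp c N) (ajU α δ ε N) (sec_ajU _ _ _ _)
    (hcon _ inferInstance _ (sec_ajU _ _ _ _) (Tow.lift c x₀) (by rw [ajU_map, hx₀]))
  refine ⟨q.1, q.2, fun y hy => ?_⟩
  let φ : SchemeHomOver (sS k k) p := ⟨y, hy.trans sS_self.symm⟩
  have hs : PicC.map (secR c ε k) (PicC.map (baseChangeSnd c φ) ℓP) = 1 := by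
    rw [← PicC.map_comp_apply, rigSection_baseChangeSnd, PicC.map_comp_apply, hP, map_one]
  obtain ⟨x, hx⟩ := h3b _ hs (hPD φ)
  refine ⟨(Tow.lift c x).1, ?_⟩
  have h := huniq (postComp q (Tow.lift c x)) φ (by
    rw [← baseChangeSnd_comp, PicC.map_comp_apply, hq, ajU_map, hx])
  exact congrArg Subtype.val h

end Surj

end

end Fermat.Agent.J25.AJ
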