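import Mathlib
import Fermat.Agent.J25.PicC0

/-!
# Classes of families of transition units
-/

set_option autoImplicit false

universe u v w

open CategoryTheory CategoryTheory.Limits AlgebraicGeometry TopologicalSpace Opposite

noncomputable section

namespace Fermat.Agent.J25

/-- a family of opens with transition units on all small opens -/
structure Fam (X : Scheme.{u}) (T : Type v) where
  O : T → X.Opens
  g : ∀ (s t : T) (W : X.Opens), W ≤ O s → W ≤ O t → Γ(X, W)ˣ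
  res : ∀ (s t : T) (W W' : X.Opens) (hs : W ≤ O s) (ht : W ≤ O t) (h : W' ≤ W),
    ru h (g s t W hs ht) = g s t W' (h.trans hs) (h.trans ht)
  mul : ∀ (s t r : T) (W : X.Opens) (hs : W ≤ O s) (ht : W ≤ O t) (hr : W ≤ O r),
    g s t W hs ht * g t r W ht hr = g s r W hs hr

namespace Fam

variable {X Y : Scheme.{u}} {T : Type v} {T' : Type w}

theorem g_self (F : Fam X T) (s : T) (W : X.Opens) (hs hs' : W ≤ F.O s) :
    F.g s s W hs hs' = 1 := by
  have h := F.mul s s s W hs hs hs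
  exact mul_eq_left.mp h

theorem g_inv (F : Fam X T) (s t : T) (W : X.Opens) (hs : W ≤ F.O s) (ht : W ≤ F.O t) :
    (F.g s t W hs ht)⁻¹ = F.g t s W ht hs := by
  rw [inv_eq_iff_mul_eq_one, F.mul s t s W hs ht hs, F.g_self]

/-- the cocycle of a choice -/
def coc (F : Fam X T) (t : X → T) (ht : ∀ x, x ∈ F.O (t x)) : Coc X where
  U x := F.O (t x)
  mem := ht
  g x y := F.g (t x) (t y) _ inf_le_left inf_le_right
  cocycle x y z V hx hy hz := by
    rw [F.res, F.res, F.res]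
    exact F.mul _ _ _ V hx hy hz

theorem coc_gg (F : Fam X T) (t : X → T) (ht : ∀ x, x ∈ F.O (t x)) (x y : X) {V : X.Opens}
    (hx : V ≤ (F.coc t ht).U x) (hy : V ≤ (F.coc t ht).U y) :
    (F.coc t ht).gg x y hx hy = F.g (t x) (t y) V hx hy := F.res _ _ _ _ _ _ _

theorem coc_rel (F : Fam X T) (t t' : X → T) (ht : ∀ x, x ∈ F.O (t x))
    (ht' : ∀ x, x ∈ F.O (t' x)) : Coc.Rel (F.coc t ht) (F.coc t' ht') := by
  refine ⟨fun x => F.O (t x) ⊓ F.O (t' x), fun x => ⟨ht x, ht' x⟩, fun x => inf_le_left,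
    fun x => inf_le_right, fun x => F.g (t x) (t' x) _ inf_le_left inf_le_right,
    fun x y V hx hy => ?_⟩
  rw [coc_gg, coc_gg, F.res, F.res, F.g_inv, F.mul, F.mul]

/-- a family is covering -/
def Cov (F : Fam X T) : Prop := ∀ x, ∃ t, x ∈ F.O t

/-- the class of a covering family -/
def cls (F : Fam X T) (h : F.Cov) : PicC X :=
  PicC.mk (F.coc (fun x => (h x).choose) fun x => (h x).choose_spec)

theorem cls_eq (F : Fam X T) (h : F.Cov) (t : X → T) (ht : ∀ x, x ∈ F.O (t x)) :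
    F.cls h = PicC.mk (F.coc t ht) := PicC.mk_eq_mk.2 (F.coc_rel _ _ _ _)

/-- reindexing and shrinking -/
def comp (F : Fam X T) (σ : T' → T) (O' : T' → X.Opens) (hO : ∀ t, O' t ≤ F.O (σ t)) :
    Fam X T' where
  O := O'
  g s t W hs ht := F.g (σ s) (σ t) W (hs.trans (hO s)) (ht.trans (hO t))
  res _ _ _ _ _ _ _ := F.res _ _ _ _ _ _ _
  mul _ _ _ _ _ _ _ := F.mul _ _ _ _ _ _ _

theorem cls_comp (F : Fam X T) (h : F.Cov) (σ : T' → T) (O' : T' → X.Opens)
    (hO : ∀ t, O' t ≤ F.O (σ t)) (h' : (F.comp σ O' hO).Cov) :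
    (F.comp σ O' hO).cls h' = F.cls h := by
  obtain ⟨t, ht⟩ := Classical.skolem.1 h'
  rw [(F.comp σ O' hO).cls_eq h' t ht,
    F.cls_eq h (fun x => σ (t x)) (fun x => hO _ (ht x)), PicC.mk_eq_mk]
  refine ⟨fun x => O' (t x), ht, fun x => le_rfl, fun x => hO _, fun x => 1,
    fun x y V hx hy => ?_⟩
  rw [coc_gg, coc_gg, map_one, map_one, inv_one, one_mul, mul_one]
  rfl

/-- equal transition units give equal classes -/
theorem cls_congr {F F' : Fam X T} (h : F.Cov) (h' : F'.Cov) (hO : ∀ t, F'.O t = F.O t)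
    (hg : ∀ s t W hs ht hs' ht', F.g s t W hs ht = F'.g s t W hs' ht') : F.cls h = F'.cls h' := by
  obtain ⟨t, ht⟩ := Classical.skolem.1 h
  rw [F.cls_eq h t ht, F'.cls_eq h' t (fun x => (hO _).symm ▸ ht x), PicC.mk_eq_mk]
  refine ⟨fun x => F.O (t x), ht, fun x => le_rfl, fun x => (hO _).symm.le, fun x => 1,
    fun x y V hx hy => ?_⟩
  rw [coc_gg, coc_gg, map_one, map_one, inv_one, one_mul, mul_one]
  exact (hg _ _ _ _ _ _ _).symm

/-- equality of classes through a map of indices -/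
theorem cls_eq_of_map {F : Fam X T} {F' : Fam X T'} (h : F.Cov) (h' : F'.Cov) (σ : T → T')
    (hO : ∀ t, F.O t ≤ F'.O (σ t))
    (hg : ∀ s t W hs ht, F.g s t W hs ht =
      F'.g (σ s) (σ t) W (hs.trans (hO s)) (ht.trans (hO t))) : F.cls h = F'.cls h' := by
  rw [← F'.cls_comp h' σ F.O hO (fun x => h x)]
  exact cls_congr (F := F) (F' := F'.comp σ F.O hO) h _ (fun _ => rfl) fun s t W hs ht _ _ =>
    hg s t W hs ht

/-- pullback of a family -/
def comap (f : X ⟶ Y) (F : Fam Y T) : Fam X T where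
  O t := f ⁻¹ᵁ F.O t
  g s t W hs ht := pu f (le_inf hs ht : W ≤ f ⁻¹ᵁ (F.O s ⊓ F.O t))
    (F.g s t (F.O s ⊓ F.O t) inf_le_left inf_le_right)
  res s t W W' hs ht h := ru_pu f _ _ _
  mul s t r W hs ht hr := by
    have h1 : W ≤ f ⁻¹ᵁ (F.O s ⊓ F.O t ⊓ F.O r) := le_inf (le_inf hs ht) hr
    have h := congrArg (pu f h1) (F.mul s t r (F.O s ⊓ F.O t ⊓ F.O r)
      (inf_le_left.trans inf_le_left) (inf_le_left.trans inf_le_right) inf_le_right)
    rw [map_mul] at h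
    have e : ∀ (a b : T) (ha : F.O s ⊓ F.O t ⊓ F.O r ≤ F.O a)
        (hb : F.O s ⊓ F.O t ⊓ F.O r ≤ F.O b) (hab : W ≤ f ⁻¹ᵁ (F.O a ⊓ F.O b)),
        pu f h1 (F.g a b _ ha hb) = pu f hab (F.g a b (F.O a ⊓ F.O b) inf_le_left inf_le_right) := by
      intro a b ha hb hab
      rw [← F.res a b (F.O a ⊓ F.O b) _ inf_le_left inf_le_right (le_inf ha hb), pu_ru]
    rw [e s t _ _ (le_inf hs ht), e t r _ _ (le_inf ht hr), e s r _ _ (le_inf hs hr)] at h
    exact h

theorem comap_g (f : X ⟶ Y) (F : Fam Y T) (s t : T) (W : X.Opens) (V : Y.Opens)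
    (hs : W ≤ f ⁻¹ᵁ F.O s) (ht : W ≤ f ⁻¹ᵁ F.O t) (hV : W ≤ f ⁻¹ᵁ V) (hs' : V ≤ F.O s)
    (ht' : V ≤ F.O t) : (F.comap f).g s t W hs ht = pu f hV (F.g s t V hs' ht') := by
  change pu f _ _ = _
  rw [← F.res s t (F.O s ⊓ F.O t) _ inf_le_left inf_le_right (le_inf hs' ht'), pu_ru]

theorem Cov.comap {F : Fam Y T} (h : F.Cov) (f : X ⟶ Y) : (F.comap f).Cov := fun x => h (f x)

end Fam

end Fermat.Agent.J25
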