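import Mathlib
import Fermat.Agent.J25.Fam
import Fermat.Agent.J25.PicC

/-!
# Equations of a closed subscheme and the class of its ideal
-/

set_option autoImplicit false

universe u v w

open CategoryTheory CategoryTheory.Limits AlgebraicGeometry TopologicalSpace Opposite

noncomputable section

namespace Fermat.Agent.J25

variable {X Y D E : Scheme.{u}}

/-- `f` is an equation of `i : D ⟶ X` over the open `W`: over every smaller open, the functions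
vanishing on `D` are the multiples of `f`, in a unique way. -/
def IsEqn (i : D ⟶ X) {W : X.Opens} (f : Γ(X, W)) : Prop :=
  ∀ (V : X.Opens) (h : V ≤ W), (∀ s : Γ(X, V), pb i (le_refl (i ⁻¹ᵁ V)) s = 0 ↔
    ∃ r : Γ(X, V), r * rs h f = s) ∧ ∀ r : Γ(X, V), r * rs h f = 0 → r = 0

namespace IsEqn

variable {i : D ⟶ X} {W : X.Opens} {f f' : Γ(X, W)}

theorem res (hf : IsEqn i f) {V : X.Opens} (h : V ≤ W) : IsEqn i (rs h f) := by
  intro V' h'
  rw [rs_rs]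
  exact hf V' (h'.trans h)

theorem exists_mul (hf : IsEqn i f) {V : X.Opens} (h : V ≤ W) (s : Γ(X, V))
    (hs : pb i (le_refl (i ⁻¹ᵁ V)) s = 0) : ∃ r : Γ(X, V), r * rs h f = s :=
  ((hf V h).1 s).1 hs

theorem reg (hf : IsEqn i f) {V : X.Opens} (h : V ≤ W) {r s : Γ(X, V)}
    (e : r * rs h f = s * rs h f) : r = s := by
  have := (hf V h).2 (r - s) (by rw [sub_mul, e, sub_self])
  exact sub_eq_zero.mp this

theorem reg' (hf : IsEqn i f) {r s : Γ(X, W)} (e : r * f = s * f) : r = s := by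
  refine hf.reg le_rfl ?_
  rw [rs_self]
  exact e

theorem van (hf : IsEqn i f) {V : X.Opens} (h : V ≤ W) :
    pb i (le_refl (i ⁻¹ᵁ V)) (rs h f) = 0 :=
  ((hf V h).1 _).2 ⟨1, one_mul _⟩

theorem van' (hf : IsEqn i f) : pb i (le_refl (i ⁻¹ᵁ W)) f = 0 := by
  have := hf.van le_rfl
  rwa [rs_self] at this

theorem exists_unit (hf : IsEqn i f) (hf' : IsEqn i f') : ∃ r : Γ(X, W)ˣ,
    (r : Γ(X, W)) * f = f' := by
  obtain ⟨a, ha⟩ := hf.exists_mul le_rfl f' hf'.van'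
  obtain ⟨b, hb⟩ := hf'.exists_mul le_rfl f hf.van'
  rw [rs_self] at ha hb
  have h1 : a * b = 1 := hf'.reg' (by rw [mul_assoc, hb, ha, one_mul])
  exact ⟨⟨a, b, h1, by rw [mul_comm]; exact h1⟩, ha⟩

theorem unit_mul (hf : IsEqn i f) (a : Γ(X, W)ˣ) : IsEqn i ((a : Γ(X, W)) * f) := by
  intro V h
  have ha : rs h (a : Γ(X, W)) * rs h ((a⁻¹ : Γ(X, W)ˣ) : Γ(X, W)) = 1 := by
    rw [← map_mul, Units.mul_inv, map_one]
  refine ⟨fun s => ?_, fun r hr => ?_⟩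
  · rw [(hf V h).1 s]
    constructor
    · rintro ⟨r, hr⟩
      refine ⟨r * rs h ((a⁻¹ : Γ(X, W)ˣ) : Γ(X, W)), ?_⟩
      rw [map_mul]
      calc r * rs h ((a⁻¹ : Γ(X, W)ˣ) : Γ(X, W)) * (rs h (a : Γ(X, W)) * rs h f)
          = (rs h (a : Γ(X, W)) * rs h ((a⁻¹ : Γ(X, W)ˣ) : Γ(X, W))) * (r * rs h f) := by ring
        _ = s := by rw [ha, one_mul, hr]
    · rintro ⟨r, hr⟩
      refine ⟨r * rs h (a : Γ(X, W)), ?_⟩
      rw [← hr, map_mul, mul_assoc]
  · rw [map_mul, ← mul_assoc] at hr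
    have h1 := (hf V h).2 _ hr
    calc r = r * (rs h (a : Γ(X, W)) * rs h ((a⁻¹ : Γ(X, W)ˣ) : Γ(X, W))) := by
          rw [ha, mul_one]
      _ = r * rs h (a : Γ(X, W)) * rs h ((a⁻¹ : Γ(X, W)ˣ) : Γ(X, W)) := by ring
      _ = 0 := by rw [h1, zero_mul]

/-- equations can be checked on a basis of opens stable under intersection -/
theorem of_basis (B : Set X.Opens) (hB : ∀ (V : X.Opens), V ≤ W → ∀ x ∈ V, ∃ U ∈ B, U ≤ V ∧ x ∈ U)
    (h : ∀ V ∈ B, ∀ h : V ≤ W, (∀ s : Γ(X, V), pb i (le_refl (i ⁻¹ᵁ V)) s = 0 ↔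
    ∃ r : Γ(X, V), r * rs h f = s) ∧ ∀ r : Γ(X, V), r * rs h f = 0 → r = 0) : IsEqn i f := by
  have key : ∀ (V : X.Opens) (h : V ≤ W) (r : Γ(X, V)), r * rs h f = 0 → r = 0 := by
    intro V hV r hr
    refine sec_ext (fun U : {U : X.Opens // U ∈ B ∧ U ≤ V} => U.1) (fun U => U.2.2)
      (fun x hx => ?_) (fun U => ?_)
    · obtain ⟨U, h1, h2, h3⟩ := hB V hV x hx
      exact ⟨⟨U, h1, h2⟩, h3⟩
    · rw [map_zero]
      refine (h U.1 U.2.1 (U.2.2.trans hV)).2 _ ?_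
      have := congrArg (rs U.2.2) hr
      rwa [map_mul, rs_rs, map_zero] at this
  intro V hV
  refine ⟨fun s => ⟨fun hs => ?_, ?_⟩, key V hV⟩
  · have h1 : ∀ U : {U : X.Opens // U ∈ B ∧ U ≤ V}, ∃ r : Γ(X, U.1),
        r * rs (U.2.2.trans hV) f = rs U.2.2 s := by
      intro U
      refine ((h U.1 U.2.1 (U.2.2.trans hV)).1 _).1 ?_
      have h2 : i ⁻¹ᵁ U.1 ≤ i ⁻¹ᵁ V := Scheme.Hom.preimage_mono i U.2.2
      have := congrArg (rs h2) hs
      rw [rs_pb, map_zero] at this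
      rw [pb_rs]
      exact this
    choose r hr using h1
    obtain ⟨a, ha⟩ := sec_glue (fun U : {U : X.Opens // U ∈ B ∧ U ≤ V} => U.1)
      (fun U => U.2.2) (fun x hx => by
        obtain ⟨U, h1, h2, h3⟩ := hB V hV x hx
        exact ⟨⟨U, h1, h2⟩, h3⟩) r (fun U U' => by
        have e1 := congrArg (rs (inf_le_left : U.1 ⊓ U'.1 ≤ U.1)) (hr U)
        have e2 := congrArg (rs (inf_le_right : U.1 ⊓ U'.1 ≤ U'.1)) (hr U')
        rw [map_mul, rs_rs, rs_rs] at e1 e2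
        have e3 := e1.trans e2.symm
        rw [← sub_eq_zero, ← sub_mul] at e3
        exact sub_eq_zero.mp (key _ _ _ e3))
    refine ⟨a, sec_ext (fun U : {U : X.Opens // U ∈ B ∧ U ≤ V} => U.1) (fun U => U.2.2)
      (fun x hx => by
        obtain ⟨U, h1, h2, h3⟩ := hB V hV x hx
        exact ⟨⟨U, h1, h2⟩, h3⟩) (fun U => ?_)⟩
    rw [map_mul, ha, rs_rs, hr]
  · rintro ⟨r, rfl⟩
    refine sec_ext (fun U : {U : X.Opens // U ∈ B ∧ U ≤ V} => i ⁻¹ᵁ U.1)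
      (fun U => Scheme.Hom.preimage_mono i U.2.2) (fun x hx => by
        obtain ⟨U, h1, h2, h3⟩ := hB V hV (i x) hx
        exact ⟨⟨U, h1, h2⟩, h3⟩) (fun U => ?_)
    rw [rs_pb, map_zero]
    have h1 := ((h U.1 U.2.1 (U.2.2.trans hV)).1 (rs U.2.2 (r * rs hV f))).2 ⟨rs U.2.2 r, by
      rw [map_mul, rs_rs]⟩
    rw [pb_rs] at h1
    exact h1

/-- equations can be checked locally -/
theorem of_local {ι : Type*} (U : ι → X.Opens) (hU : ∀ j, U j ≤ W) (hc : ∀ x ∈ W, ∃ j, x ∈ U j)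
    (h : ∀ j, IsEqn i (rs (hU j) f)) : IsEqn i f := by
  refine of_basis {V | ∃ j, V ≤ U j} (fun V hV x hx => ?_) (fun V hV hVW => ?_)
  · obtain ⟨j, hj⟩ := hc x (hV hx)
    exact ⟨V ⊓ U j, ⟨j, inf_le_right⟩, inf_le_left, hx, hj⟩
  · obtain ⟨j, hj⟩ := hV
    have := h j V hj
    rwa [rs_rs] at this

/-- `1` is an equation where there is nothing -/
theorem one (h : i ⁻¹ᵁ W = ⊥) : IsEqn i (1 : Γ(X, W)) := by
  intro V hV
  refine ⟨fun s => ⟨fun _ => ⟨s, by rw [map_one, mul_one]⟩, fun _ => ?_⟩, fun r hr => by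
    rwa [map_one, mul_one] at hr⟩
  refine sec_ext (ι := Empty) (fun e => e.elim) (fun e => e.elim) (fun x hx => ?_)
    (fun e => e.elim)
  have h1 : x ∈ i ⁻¹ᵁ W := Scheme.Hom.preimage_mono i hV hx
  rw [h] at h1
  exact h1.elim

/-- an equation is invertible where there is nothing -/
theorem isUnit (hf : IsEqn i f) {V : X.Opens} (hV : V ≤ W) (h : i ⁻¹ᵁ V = ⊥) :
    IsUnit (rs hV f) := by
  obtain ⟨r, hr⟩ := (IsEqn.one h).exists_unit (hf.res hV)
  rw [mul_one] at hr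
  exact ⟨r, hr⟩

end IsEqn

/-- local equations -/
structure Eqn (i : D ⟶ X) where
  W : X.Opens
  f : Γ(X, W)
  isEqn : IsEqn i f

namespace Eqn

variable {i : D ⟶ X}

theorem exists_g (s t : Eqn i) {V : X.Opens} (hs : V ≤ s.W) (ht : V ≤ t.W) :
    ∃ r : Γ(X, V)ˣ, (r : Γ(X, V)) * rs hs s.f = rs ht t.f :=
  (s.isEqn.res hs).exists_unit (t.isEqn.res ht)

/-- the transition unit -/
def g (s t : Eqn i) {V : X.Opens} (hs : V ≤ s.W) (ht : V ≤ t.W) : Γ(X, V)ˣ :=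
  (exists_g s t hs ht).choose

theorem g_mul (s t : Eqn i) {V : X.Opens} (hs : V ≤ s.W) (ht : V ≤ t.W) :
    (g s t hs ht : Γ(X, V)) * rs hs s.f = rs ht t.f := (exists_g s t hs ht).choose_spec

theorem g_eq (s t : Eqn i) {V : X.Opens} (hs : V ≤ s.W) (ht : V ≤ t.W) (a : Γ(X, V)ˣ)
    (ha : (a : Γ(X, V)) * rs hs s.f = rs ht t.f) : g s t hs ht = a :=
  Units.ext (s.isEqn.reg hs ((g_mul s t hs ht).trans ha.symm))

/-- the family of all local equations -/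
def fam (i : D ⟶ X) : Fam X (Eqn i) where
  O := Eqn.W
  g s t _ hs ht := g s t hs ht
  res s t W W' hs ht h := by
    symm
    refine g_eq s t _ _ _ ?_
    have := congrArg (rs h) (g_mul s t hs ht)
    rw [map_mul, rs_rs, rs_rs] at this
    exact this
  mul s t r W hs ht hr := by
    symm
    refine g_eq s r _ _ _ ?_
    rw [Units.val_mul, mul_comm (g s t hs ht : Γ(X, W)), mul_assoc, g_mul, g_mul]

/-- `D` is locally defined by one equation -/
def Cartier (i : D ⟶ X) : Prop := ∀ x : X, ∃ e : Eqn i, x ∈ e.W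

theorem cov {i : D ⟶ X} (h : Cartier i) : (fam i).Cov := h

/-- the class of the ideal of `D` -/
def idl (i : D ⟶ X) (h : Cartier i) : PicC X := (fam i).cls h

/-- comparison -/
theorem idl_eq {T : Type v} (F : Fam X T) (hF : F.Cov) (i : D ⟶ X) (h : Cartier i)
    (f : ∀ t, Γ(X, F.O t)) (hf : ∀ t, IsEqn i (f t))
    (hg : ∀ s t W hs ht, (F.g s t W hs ht : Γ(X, W)) * rs hs (f s) = rs ht (f t)) :
    F.cls hF = idl i h := by
  refine Fam.cls_eq_of_map hF (cov h) (fun t => ⟨F.O t, f t, hf t⟩) (fun t => le_rfl)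
    (fun s t W hs ht => ?_)
  exact (g_eq (i := i) ⟨F.O s, f s, hf s⟩ ⟨F.O t, f t, hf t⟩ _ _ _ (hg s t W hs ht)).symm

/-- pullback of the class of a family -/
theorem map_cls {T : Type v} (p : Y ⟶ X) (F : Fam X T) (hF : F.Cov) :
    PicC.map p (F.cls hF) = (F.comap p).cls (hF.comap p) := by
  obtain ⟨t, ht⟩ := Classical.skolem.1 hF
  rw [F.cls_eq hF t ht, (F.comap p).cls_eq (hF.comap p) (fun y => t (p y)) (fun y => ht (p y)),
    PicC.map_mk, PicC.mk_eq_mk]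
  refine ⟨fun y => p ⁻¹ᵁ F.O (t (p y)), fun y => ht (p y), fun y => le_rfl, fun y => le_rfl,
    fun y => 1, fun x y V hx hy => ?_⟩
  have e1 := Fam.coc_gg (F.comap p) (fun y => t (p y)) (fun y => ht (p y)) x y hx hy
  have e2 := Coc.comap_g p (F.coc t ht) x y hx hy
  refine e1.trans (Eq.trans ?_ (congrArg (fun z => (ru hx 1)⁻¹ * z * ru hy 1) e2.symm))
  rw [map_one, map_one, inv_one, one_mul, mul_one]
  rfl

/-- pullback of the class of the ideal -/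
theorem map_idl (p : Y ⟶ X) (i : D ⟶ X) (h : Cartier i) (j : E ⟶ Y) (h' : Cartier j)
    (H : ∀ e : Eqn i, IsEqn j (pb p (le_refl (p ⁻¹ᵁ e.W)) e.f)) :
    PicC.map p (idl i h) = idl j h' := by
  rw [idl, map_cls p (fam i) (cov h)]
  refine idl_eq _ _ j h' (fun t => pb p (le_refl (p ⁻¹ᵁ t.W)) t.f) H fun s t W hs ht => ?_
  have hV : W ≤ p ⁻¹ᵁ (s.W ⊓ t.W) := le_inf hs ht
  have h1 := congrArg (pb p hV) (g_mul s t (V := s.W ⊓ t.W) inf_le_left inf_le_right)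
  rw [map_mul, pb_rs, pb_rs] at h1
  have e1 := rs_pb p (le_refl (p ⁻¹ᵁ s.W)) hs s.f
  have e2 := rs_pb p (le_refl (p ⁻¹ᵁ t.W)) ht t.f
  refine (congrArg (fun z => (((fam i).comap p).g s t W hs ht : Γ(Y, W)) * z) e1).trans
    (Eq.trans ?_ e2.symm)
  exact h1

end Eqn

end Fermat.Agent.J25
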