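import Mathlib
import Fermat.Agent.J25.Laur
import Fermat.Agent.J25.PicC0

/-!
# A relative curve over a ring, covered by two affine opens, with expansions at infinity
-/

set_option autoImplicit false
set_option linter.unusedSectionVars false

universe u

open CategoryTheory CategoryTheory.Limits AlgebraicGeometry TopologicalSpace Opposite Polynomial

noncomputable section

namespace Fermat.Agent.J25

attribute [-instance] HahnSeries.powerSeriesAlgebra

/-- A scheme `X` over `R` with a section `σ` ("infinity"), covered by the affine opens `U` (the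
complement of `σ`) and `V`, with expansions along `σ`. -/
structure XD (R : Type u) [CommRing R] (S : Subalgebra R (LaurentSeries R)) (α : LaurentSeries R)
    (X : Scheme.{u}) where
  π : X ⟶ Spec (CommRingCat.of R)
  σ : Spec (CommRingCat.of R) ⟶ X
  hσπ : σ ≫ π = 𝟙 _
  U : X.Opens
  V : X.Opens
  hU : IsAffineOpen U
  hV : IsAffineOpen V
  cov : U ⊔ V = ⊤
  a : Γ(X, U)
  w : Γ(X, V)
  ha : X.basicOpen a = U ⊓ V
  hw : X.basicOpen w = U ⊓ V
  haw : rs (inf_le_left : U ⊓ V ≤ U) a * rs (inf_le_right : U ⊓ V ≤ V) w = 1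
  /-- constants -/
  cst : R →+* Γ(X, ⊤)
  fin : (eval₂RingHom ((rs (le_top : V ≤ ⊤)).comp cst) w).Finite
  /-- the expansion -/
  ex : Γ(X, U ⊓ V) →+* LaurentSeries R
  ex_cst : ∀ r, ex (rs le_top (cst r)) = HahnSeries.C r
  exU_inj : ∀ f : Γ(X, U), ex (rs inf_le_left f) = 0 → f = 0
  hS : ∀ f : LaurentSeries R, f ∈ S ↔ ∃ x : Γ(X, U), ex (rs inf_le_left x) = f
  hα : ex (rs inf_le_left a) = α
  d : ℕ
  hd : 0 < d
  ex_w : ex (rs inf_le_right w) ∈ LV R d
  ex_w' : (ex (rs inf_le_right w)).coeff d = 1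
  exV : ∀ b : Γ(X, V), ex (rs inf_le_right b) ∈ LV R 0
  exV_inj : ∀ b : Γ(X, V), ex (rs inf_le_right b) = 0 → b = 0
  dvd : ∀ b : Γ(X, V), ex (rs inf_le_right b) ∈ LV R d → w ∣ b
  hσV : ⊤ ≤ σ ⁻¹ᵁ V
  hσ : ∀ b : Γ(X, V), (Scheme.ΓSpecIso (CommRingCat.of R)).hom (pb σ hσV b) =
    (ex (rs inf_le_right b)).coeff 0

end Fermat.Agent.J25
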