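import Mathlib
import Fermat.Agent.J25.XD

/-!
# Neighbourhoods of infinity
-/

set_option autoImplicit false
set_option linter.unusedSectionVars false

universe u

open CategoryTheory CategoryTheory.Limits AlgebraicGeometry TopologicalSpace Opposite Polynomial

noncomputable section

namespace Fermat.Agent.J25

attribute [-instance] HahnSeries.powerSeriesAlgebra

theorem basicOpen_rs {X : Scheme.{u}} {U V : X.Opens} (h : V ≤ U) (f : Γ(X, U)) :
    X.basicOpen (rs h f) = V ⊓ X.basicOpen f := X.basicOpen_res f (homOfLE h).op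

theorem basicOpen_pb {X Y : Scheme.{u}} (f : X ⟶ Y) {U : Y.Opens} {V : X.Opens}
    (h : V ≤ f ⁻¹ᵁ U) (s : Γ(Y, U)) :
    X.basicOpen (pb f h s) = V ⊓ f ⁻¹ᵁ (Y.basicOpen s) := Scheme.basicOpen_appLE f V U h s

/-- Laurent series with invertible lowest coefficient -/
theorem isUnit_of_LV {R : Type u} [CommRing R] {f : LaurentSeries R} {n : ℤ} (hf : f ∈ LV R n)
    (hu : IsUnit (f.coeff n)) : ∃ g ∈ LV R (-n), f * g = 1 ∧ g.coeff (-n) * f.coeff n = 1 := by
  have h1 : ∀ f : LaurentSeries R, f ∈ LV R 0 →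
      ∃ F : PowerSeries R, HahnSeries.ofPowerSeries ℤ R F = f := by
    intro f hf
    refine ⟨PowerSeries.mk fun i => f.coeff i, ?_⟩
    ext i
    rcases lt_or_ge i 0 with hi | hi
    · rw [hf i hi]
      rw [HahnSeries.ofPowerSeries_apply]
      exact HahnSeries.embDomain_notin_range (by
        rintro ⟨j, hj⟩
        have : (j : ℤ) = i := hj
        omega)
    · obtain ⟨j, rfl⟩ := Int.eq_ofNat_of_zero_le hi
      rw [LaurentSeries.coeff_coe_powerSeries, PowerSeries.coeff_mk]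
  have h2 : ∀ F : PowerSeries R, HahnSeries.ofPowerSeries ℤ R F ∈ LV R 0 := by
    intro F i hi
    rw [HahnSeries.ofPowerSeries_apply]
    exact HahnSeries.embDomain_notin_range (by
      rintro ⟨j, hj⟩
      have : (j : ℤ) = i := hj
      omega)
  set f0 : LaurentSeries R := HahnSeries.single (-n) 1 * f with hf0
  have hf0m : f0 ∈ LV R 0 := by
    have := mul_mem_LV (single_mem_LV (-n) (1 : R)) hf
    rwa [neg_add_cancel] at this
  have hf0c : f0.coeff 0 = f.coeff n := by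
    have := coeff_mul_bot (single_mem_LV (-n) (1 : R)) hf
    rw [neg_add_cancel, HahnSeries.coeff_single_same, one_mul] at this
    exact this
  obtain ⟨F, hF⟩ := h1 f0 hf0m
  have hF0 : PowerSeries.constantCoeff F = f.coeff n := by
    rw [← hf0c, ← hF, ← PowerSeries.coeff_zero_eq_constantCoeff_apply]
    exact (LaurentSeries.coeff_coe_powerSeries F 0).symm
  have hFu : IsUnit F := PowerSeries.isUnit_iff_constantCoeff.mpr (by rw [hF0]; exact hu)
  obtain ⟨G, hG⟩ := hFu.exists_right_inv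
  set g0 : LaurentSeries R := HahnSeries.ofPowerSeries ℤ R G
  have hg0 : g0 ∈ LV R 0 := h2 G
  have hfg0 : f0 * g0 = 1 := by
    rw [← hF, ← map_mul, hG, map_one]
  refine ⟨HahnSeries.single (-n) 1 * g0, ?_, ?_, ?_⟩
  · have := mul_mem_LV (single_mem_LV (-n) (1 : R)) hg0
    rwa [add_zero] at this
  · rw [← mul_assoc, mul_comm f, ← hf0, hfg0]
  · have h3 := coeff_mul_bot (single_mem_LV (-n) (1 : R)) hg0
    rw [add_zero, HahnSeries.coeff_single_same, one_mul] at h3
    rw [h3]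
    have h4 := coeff_mul_bot hf0m hg0
    rw [hfg0, add_zero, HahnSeries.coeff_one, if_pos rfl, hf0c] at h4
    rw [mul_comm, ← h4]

namespace XD

variable {R : Type u} [CommRing R] {S : Subalgebra R (LaurentSeries R)} {α : LaurentSeries R}
  {X : Scheme.{u}} (D : XD R S α X)

/-- polynomials in `w` -/
def pw : R[X] →+* Γ(X, D.V) := eval₂RingHom ((rs (le_top : D.V ≤ ⊤)).comp D.cst) D.w

/-- polynomials in `a` -/
def pa : R[X] →+* Γ(X, D.U) := eval₂RingHom ((rs (le_top : D.U ≤ ⊤)).comp D.cst) D.a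

@[simp] theorem pw_X : D.pw Polynomial.X = D.w := eval₂_X _ _
@[simp] theorem pa_X : D.pa Polynomial.X = D.a := eval₂_X _ _
@[simp] theorem pw_C (r : R) : D.pw (C r) = rs le_top (D.cst r) := eval₂_C _ _
@[simp] theorem pa_C (r : R) : D.pa (C r) = rs le_top (D.cst r) := eval₂_C _ _

/-- the neighbourhood of infinity attached to a polynomial (with constant term one) -/
def W (p : R[X]) : X.Opens := X.basicOpen (D.pw p)

theorem W_le (p : R[X]) : D.W p ≤ D.V := X.basicOpen_le _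

theorem W_mul (p q : R[X]) : D.W (p * q) = D.W p ⊓ D.W q := by
  unfold W
  rw [map_mul, Scheme.basicOpen_mul]

theorem W_one : D.W 1 = D.V := by
  unfold W
  rw [map_one, Scheme.basicOpen_one]

theorem isAffineOpen_W (p : R[X]) : IsAffineOpen (D.W p) := D.hV.basicOpen _

/-- expansions on `U` -/
def exU : Γ(X, D.U) →+* LaurentSeries R := D.ex.comp (rs inf_le_left)

/-- expansions on `V` -/
def eV : Γ(X, D.V) →+* LaurentSeries R := D.ex.comp (rs inf_le_right)

theorem exU_injective : Function.Injective D.exU :=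
  (injective_iff_map_eq_zero _).mpr D.exU_inj

theorem eV_mem (b : Γ(X, D.V)) : D.eV b ∈ LV R 0 := D.exV b

theorem eV_cst (r : R) : D.eV (rs le_top (D.cst r)) = HahnSeries.C r := by
  change D.ex (rs _ (rs _ _)) = _
  rw [rs_rs]
  exact D.ex_cst r

theorem exU_cst (r : R) : D.exU (rs le_top (D.cst r)) = HahnSeries.C r := by
  change D.ex (rs _ (rs _ _)) = _
  rw [rs_rs]
  exact D.ex_cst r

/-- the value at infinity -/
def ev0 : Γ(X, D.V) →+* R :=
  ((Scheme.ΓSpecIso (CommRingCat.of R)).hom.hom).comp (pb D.σ D.hσV)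

theorem ev0_apply (b : Γ(X, D.V)) : D.ev0 b = (D.eV b).coeff 0 := D.hσ b

theorem ev0_cst (r : R) : D.ev0 (rs le_top (D.cst r)) = r := by
  rw [ev0_apply, eV_cst]
  exact HahnSeries.coeff_single_same 0 r

theorem ev0_w : D.ev0 D.w = 0 := by
  rw [ev0_apply]
  exact D.ex_w 0 (by exact_mod_cast D.hd)

theorem ev0_pw (p : R[X]) : D.ev0 (D.pw p) = p.coeff 0 := by
  have h : D.ev0.comp D.pw = constantCoeff := by
    ext r
    · simp [ev0_cst]
    · simp [ev0_w]
  exact congrArg (fun f => f p) h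

/-- every neighbourhood `W p` contains infinity -/
theorem σ_le_W {p : R[X]} (hp : p.coeff 0 = 1) : ⊤ ≤ D.σ ⁻¹ᵁ D.W p := by
  have h1 := basicOpen_pb D.σ D.hσV (D.pw p)
  have h2 : IsUnit (pb D.σ D.hσV (D.pw p)) := by
    have h3 : (Scheme.ΓSpecIso (CommRingCat.of R)).hom (pb D.σ D.hσV (D.pw p)) = 1 := by
      have : (Scheme.ΓSpecIso (CommRingCat.of R)).hom (pb D.σ D.hσV (D.pw p)) =
        D.ev0 (D.pw p) := rfl
      rw [this, ev0_pw, hp]
    have h4 : (Scheme.ΓSpecIso (CommRingCat.of R)).inv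
        ((Scheme.ΓSpecIso (CommRingCat.of R)).hom (pb D.σ D.hσV (D.pw p))) =
        pb D.σ D.hσV (D.pw p) := (Scheme.ΓSpecIso (CommRingCat.of R)).hom_inv_id_apply _
    rw [← h4, h3]
    exact (isUnit_one (M := R)).map (Scheme.ΓSpecIso (CommRingCat.of R)).inv.hom
  rw [Scheme.basicOpen_of_isUnit _ h2] at h1
  exact h1.le.trans inf_le_right

/-- elements of the kernel of the value at infinity are nilpotent modulo `w` -/
theorem dvd_pow {b : Γ(X, D.V)} (hb : D.ev0 b = 0) : D.w ∣ b ^ D.d := by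
  apply D.dvd
  have h1 : D.eV b ∈ LV R 1 := by
    intro i hi
    rcases lt_or_eq_of_le (Int.lt_add_one_iff.mp (show i < 0 + 1 by omega)) with h | h
    · exact D.eV_mem b i h
    · rw [h, ← ev0_apply, hb]
  have h2 : ∀ n : ℕ, (D.eV b) ^ n ∈ LV R n := by
    intro n
    induction n with
    | zero => exact one_mem_LV
    | succ n ih =>
      rw [pow_succ]
      exact_mod_cast mul_mem_LV ih h1
  have h3 : D.ex (rs inf_le_right (b ^ D.d)) = (D.eV b) ^ D.d := by
    rw [map_pow, map_pow]; rfl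
  rw [h3]
  exact h2 _

theorem ev0_surjective : Function.Surjective D.ev0 := fun r => ⟨_, D.ev0_cst r⟩

/-- the zeroes of `w` are on the section -/
theorem mem_range_σ {x : X} (hxV : x ∈ D.V) (hxw : x ∉ X.basicOpen D.w) :
    x ∈ Set.range D.σ := by
  obtain ⟨𝔭, rfl⟩ : ∃ 𝔭, D.hV.fromSpec 𝔭 = x := by
    have : x ∈ Set.range D.hV.fromSpec := by rw [D.hV.range_fromSpec]; exact hxV
    exact this
  have key : ∀ b : Γ(X, D.V), b ∈ 𝔭.asIdeal ↔ D.hV.fromSpec 𝔭 ∉ X.basicOpen b := by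
    intro b
    have h1 : 𝔭 ∈ D.hV.fromSpec ⁻¹ᵁ X.basicOpen b ↔ b ∉ 𝔭.asIdeal := by
      rw [D.hV.fromSpec_preimage_basicOpen]
      exact Iff.rfl
    have h2 : 𝔭 ∈ D.hV.fromSpec ⁻¹ᵁ X.basicOpen b ↔ D.hV.fromSpec 𝔭 ∈ X.basicOpen b := Iff.rfl
    rw [← h2, h1, not_not]
  have hw : D.w ∈ 𝔭.asIdeal := (key _).mpr hxw
  have hker : RingHom.ker D.ev0 ≤ 𝔭.asIdeal := by
    intro b hb
    have h1 := D.dvd_pow (RingHom.mem_ker.mp hb)
    have h2 : b ^ D.d ∈ 𝔭.asIdeal := by
      obtain ⟨c, hc⟩ := h1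
      rw [hc]
      exact Ideal.mul_mem_right _ _ hw
    exact 𝔭.isPrime.mem_of_pow_mem _ h2
  have h3 : 𝔭 ∈ Set.range (PrimeSpectrum.comap D.ev0) := by
    rw [range_comap_of_surjective _ _ D.ev0_surjective]
    exact hker
  obtain ⟨𝔮, h𝔮⟩ := h3
  refine ⟨𝔮, ?_⟩
  have h4 := D.hV.SpecMap_appLE_fromSpec D.σ (isAffineOpen_top (Spec (CommRingCat.of R))) D.hσV
  rw [IsAffineOpen.fromSpec_top] at h4
  have h5 : D.σ = Spec.map (CommRingCat.ofHom D.ev0) ≫ D.hV.fromSpec := by
    have h6 : (Spec (CommRingCat.of R)).isoSpec.hom ≫ (Spec (CommRingCat.of R)).isoSpec.inv ≫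
      D.σ = D.σ := by rw [Iso.hom_inv_id_assoc]
    rw [← h6, ← h4, Scheme.isoSpec_Spec_hom, ← Category.assoc, ← Spec.map_comp]
    rfl
  rw [h5, ← h𝔮]
  rfl

/-- **(K1)** the opens `W p` are a basis of neighbourhoods of infinity -/
theorem exists_W_le {O : X.Opens} (hO : ⊤ ≤ D.σ ⁻¹ᵁ O) :
    ∃ p : R[X], p.coeff 0 = 1 ∧ D.W p ≤ O := by
  -- the ideal of functions vanishing outside of `O`
  let I : Ideal Γ(X, D.V) :=
    { carrier := {b | X.basicOpen b ≤ O}
      zero_mem' := by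
        change X.basicOpen (0 : Γ(X, D.V)) ≤ O
        rw [Scheme.basicOpen_zero]
        exact bot_le
      add_mem' := fun {b c} hb hc => (X.basicOpen_add_le b c).trans (sup_le hb hc)
      smul_mem' := fun c b hb => by
        change X.basicOpen (c * b) ≤ O
        rw [Scheme.basicOpen_mul]
        exact inf_le_right.trans hb }
  have hI : ∀ b, b ∈ I ↔ X.basicOpen b ≤ O := fun b => Iff.rfl
  have htop : Ideal.span {D.w} ⊔ I = ⊤ := by
    by_contra hne
    obtain ⟨𝔪, h𝔪, hle⟩ := Ideal.exists_le_maximal _ hne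
    let 𝔭 : PrimeSpectrum Γ(X, D.V) := ⟨𝔪, h𝔪.isPrime⟩
    let x : X := D.hV.fromSpec 𝔭
    have hxV : x ∈ D.V := by
      have : x ∈ Set.range D.hV.fromSpec := ⟨𝔭, rfl⟩
      rw [D.hV.range_fromSpec] at this
      exact this
    have key : ∀ b : Γ(X, D.V), b ∈ 𝔪 ↔ x ∉ X.basicOpen b := by
      intro b
      have h1 : 𝔭 ∈ D.hV.fromSpec ⁻¹ᵁ X.basicOpen b ↔ b ∉ 𝔪 := by
        rw [D.hV.fromSpec_preimage_basicOpen]
        exact Iff.rfl
      have h2 : 𝔭 ∈ D.hV.fromSpec ⁻¹ᵁ X.basicOpen b ↔ x ∈ X.basicOpen b := Iff.rfl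
      rw [← h2, h1, not_not]
    have hxw : x ∉ X.basicOpen D.w :=
      (key _).mp (hle (Ideal.mem_sup_left (Ideal.subset_span rfl)))
    obtain ⟨y, hy⟩ := D.mem_range_σ hxV hxw
    have hxO : x ∈ O := by
      rw [← hy]
      exact hO (show y ∈ (⊤ : (Spec (CommRingCat.of R)).Opens) from trivial)
    obtain ⟨b, hb1, hb2⟩ := D.hV.exists_basicOpen_le ⟨x, hxO⟩ hxV
    exact (key b).mp (hle (Ideal.mem_sup_right ((hI b).mpr hb1))) hb2
  letI : Algebra R[X] Γ(X, D.V) := D.pw.toAlgebra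
  have hfin : Module.Finite R[X] Γ(X, D.V) := D.fin
  have hfg : (⊤ : Submodule R[X] (Γ(X, D.V) ⧸ I)).FG := Module.Finite.fg_top
  have hle : (⊤ : Submodule R[X] (Γ(X, D.V) ⧸ I)) ≤
      Ideal.span {(Polynomial.X : R[X])} • (⊤ : Submodule R[X] (Γ(X, D.V) ⧸ I)) := by
    rintro q -
    obtain ⟨b, rfl⟩ := Ideal.Quotient.mk_surjective q
    have h1 : (1 : Γ(X, D.V)) ∈ Ideal.span {D.w} ⊔ I := by rw [htop]; trivial
    obtain ⟨y, hy, i, hi, hyi⟩ := Submodule.mem_sup.mp h1
    obtain ⟨c, rfl⟩ := Ideal.mem_span_singleton'.mp hy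
    have h2 : Ideal.Quotient.mk I b = (Polynomial.X : R[X]) • Ideal.Quotient.mk I (c * b) := by
      have h3 : (Polynomial.X : R[X]) • Ideal.Quotient.mk I (c * b) =
        Ideal.Quotient.mk I ((Polynomial.X : R[X]) • (c * b)) := rfl
      rw [h3, Algebra.smul_def]
      have h4 : algebraMap R[X] Γ(X, D.V) Polynomial.X = D.w := D.pw_X
      rw [h4, Ideal.Quotient.eq]
      have h5 : b - D.w * (c * b) = i * b := by
        have : b = (c * D.w + i) * b := by rw [hyi, one_mul]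
        linear_combination this
      rw [h5]
      exact Ideal.mul_mem_right _ _ hi
    rw [h2]
    exact Submodule.smul_mem_smul (Ideal.subset_span rfl) trivial
  obtain ⟨p, hp, hp'⟩ := Submodule.exists_sub_one_mem_and_smul_eq_zero_of_fg_of_le_smul _ _ hfg hle
  refine ⟨p, ?_, ?_⟩
  · obtain ⟨q, hq⟩ := Ideal.mem_span_singleton'.mp hp
    have : p = q * Polynomial.X + 1 := by rw [hq]; ring
    rw [this]
    simp
  · have h1 := hp' (Ideal.Quotient.mk I 1) trivial
    have h2 : p • Ideal.Quotient.mk I (1 : Γ(X, D.V)) = Ideal.Quotient.mk I (D.pw p * 1) := rfl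
    rw [h2, mul_one, Ideal.Quotient.eq_zero_iff_mem] at h1
    exact h1

end XD

end Fermat.Agent.J25
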