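import Mathlib
import Fermat.Agent.J25.XDK

/-!
# Expansions near infinity
-/

set_option autoImplicit false
set_option linter.unusedSectionVars false

universe u

open CategoryTheory CategoryTheory.Limits AlgebraicGeometry TopologicalSpace Opposite Polynomial

noncomputable section

namespace Fermat.Agent.J25

attribute [-instance] HahnSeries.powerSeriesAlgebra

section aff

variable {X : Scheme.{u}} {O : X.Opens} (hO : IsAffineOpen O) (f : Γ(X, O)) {O' : X.Opens}
  (h : O' ≤ O) (hf : O' = X.basicOpen f)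

include hO hf in
theorem away_rs : @IsLocalization.Away _ _ f Γ(X, O') _ (rs h).toAlgebra :=
  hO.isLocalization_of_eq_basicOpen f (homOfLE h) hf

include hO hf in
/-- sections on a basic open of an affine open: denominators -/
theorem exists_pow_mul (x : Γ(X, O')) : ∃ (n : ℕ) (y : Γ(X, O)), rs h y = rs h f ^ n * x := by
  letI := (rs h).toAlgebra
  haveI := away_rs hO f h hf
  obtain ⟨n, y, hy⟩ := IsLocalization.Away.surj f x
  exact ⟨n, y, by rw [mul_comm]; exact hy.symm⟩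

include hO hf in
/-- sections on a basic open of an affine open: equality -/
theorem exists_pow_mul_eq {x y : Γ(X, O)} (hxy : rs h x = rs h y) :
    ∃ n : ℕ, f ^ n * x = f ^ n * y := by
  letI := (rs h).toAlgebra
  haveI := away_rs hO f h hf
  exact IsLocalization.Away.exists_of_eq f hxy

include hO hf in
/-- restriction to a basic open is injective when the function is regular -/
theorem rs_injective (hreg : ∀ x : Γ(X, O), f * x = 0 → x = 0) : Function.Injective (rs h) := by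
  refine (injective_iff_map_eq_zero _).mpr fun x hx => ?_
  obtain ⟨n, hn⟩ := exists_pow_mul_eq hO f h hf (x := x) (y := 0) (by rw [hx, map_zero])
  rw [mul_zero] at hn
  have : ∀ n : ℕ, f ^ n * x = 0 → x = 0 := by
    intro n
    induction n with
    | zero => intro h; rwa [pow_zero, one_mul] at h
    | succ n ih =>
      intro h
      apply ih
      apply hreg
      rw [← mul_assoc, ← pow_succ']
      exact h
  exact this n hn

end aff

/-- products in the filtration -/
theorem mem_LV_of_mul {R : Type u} [CommRing R] {f g : LaurentSeries R} {m n : ℤ}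
    (hf : f ∈ LV R n) (hu : IsUnit (f.coeff n)) (hfg : f * g ∈ LV R m) : g ∈ LV R (m - n) := by
  obtain ⟨i, hi, h1, -⟩ := isUnit_of_LV hf hu
  have h2 : g = i * (f * g) := by rw [← mul_assoc, mul_comm i, h1, one_mul]
  rw [h2]
  have := mul_mem_LV hi hfg
  rwa [show -n + m = m - n by ring] at this

theorem isUnit_of_mem_LV {R : Type u} [CommRing R] {f : LaurentSeries R} {n : ℤ}
    (hf : f ∈ LV R n) (hu : IsUnit (f.coeff n)) : IsUnit f := by
  obtain ⟨i, hi, h1, -⟩ := isUnit_of_LV hf hu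
  exact IsUnit.of_mul_eq_one _ h1

namespace XD

variable {R : Type u} [CommRing R] {S : Subalgebra R (LaurentSeries R)} {α : LaurentSeries R}
  {X : Scheme.{u}} (D : XD R S α X)

theorem isAffineOpen_UV : IsAffineOpen (D.U ⊓ D.V) := D.ha ▸ D.hU.basicOpen _

theorem a_mul_w : rs (inf_le_left : D.U ⊓ D.V ≤ D.U) D.a *
    rs (inf_le_right : D.U ⊓ D.V ≤ D.V) D.w = 1 := D.haw

theorem isUnit_exa : IsUnit (D.exU D.a) := by
  refine IsUnit.of_mul_eq_one (D.eV D.w) ?_
  change D.ex _ * D.ex _ = 1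
  rw [← map_mul, D.haw, map_one]

theorem eV_w_mem : D.eV D.w ∈ LV R D.d := D.ex_w

theorem eV_w_coeff : (D.eV D.w).coeff D.d = 1 := D.ex_w'

theorem ex_injective : Function.Injective D.ex := by
  refine (injective_iff_map_eq_zero _).mpr fun x hx => ?_
  obtain ⟨n, y, hy⟩ := exists_pow_mul D.hU D.a (inf_le_left : D.U ⊓ D.V ≤ D.U) D.ha.symm x
  have h1 : D.exU y = 0 := by
    change D.ex (rs _ y) = 0
    rw [hy, map_mul, hx, mul_zero]
  have h2 : y = 0 := D.exU_inj _ h1
  rw [h2, map_zero] at hy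
  have h3 : IsUnit (rs (inf_le_left : D.U ⊓ D.V ≤ D.U) D.a ^ n) :=
    (IsUnit.of_mul_eq_one _ D.haw).pow n
  exact ((h3.mul_right_eq_zero).mp hy.symm)

theorem eV_injective : Function.Injective D.eV :=
  (injective_iff_map_eq_zero _).mpr D.exV_inj

/-- divisibility by powers of `w` -/
theorem dvd_pow_w (n : ℕ) (b : Γ(X, D.V)) (hb : D.eV b ∈ LV R (D.d * n)) : D.w ^ n ∣ b := by
  induction n generalizing b with
  | zero => rw [pow_zero]; exact one_dvd _
  | succ n ih =>
    have h1 : D.w ∣ b := by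
      apply D.dvd
      refine LV_mono ?_ hb
      push_cast
      nlinarith [D.hd]
    obtain ⟨c, rfl⟩ := h1
    rw [pow_succ']
    refine mul_dvd_mul_left _ (ih c ?_)
    rw [map_mul] at hb
    have := mem_LV_of_mul D.eV_w_mem (by rw [D.eV_w_coeff]; exact isUnit_one) hb
    refine LV_mono (le_of_eq ?_) this
    push_cast
    ring

theorem eV_pw_coeff (p : R[X]) : (D.eV (D.pw p)).coeff 0 = p.coeff 0 := by
  rw [← ev0_apply, ev0_pw]

theorem isUnit_eV_pw {p : R[X]} (hp : p.coeff 0 = 1) : IsUnit (D.eV (D.pw p)) :=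
  isUnit_of_mem_LV (D.eV_mem _) (by rw [D.eV_pw_coeff, hp]; exact isUnit_one)

/-- the punctured neighbourhood of infinity -/
def UW (p : R[X]) : X.Opens := D.U ⊓ D.W p

theorem UW_le (p : R[X]) : D.UW p ≤ D.U ⊓ D.V := inf_le_inf_left _ (D.W_le p)

theorem UW_le_U (p : R[X]) : D.UW p ≤ D.U := inf_le_left

theorem UW_le_W (p : R[X]) : D.UW p ≤ D.W p := inf_le_right

theorem UW_le_V (p : R[X]) : D.UW p ≤ D.V := (D.UW_le_W p).trans (D.W_le p)

theorem UW_eq (p : R[X]) : D.UW p = X.basicOpen (rs (inf_le_right : D.U ⊓ D.V ≤ D.V) (D.pw p)) := by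
  rw [basicOpen_rs]
  change D.U ⊓ D.W p = D.U ⊓ D.V ⊓ D.W p
  rw [inf_assoc, inf_eq_right.mpr (D.W_le p)]

theorem UW_eq' (p : R[X]) : D.UW p = X.basicOpen (rs (D.W_le p) D.w) := by
  rw [basicOpen_rs, D.hw]
  change D.U ⊓ D.W p = _
  rw [inf_comm D.U D.V, ← inf_assoc, inf_eq_left.mpr (D.W_le p), inf_comm]

/-- the expansion on a punctured neighbourhood of infinity -/
def exW {p : R[X]} (hp : p.coeff 0 = 1) : Γ(X, D.UW p) →+* LaurentSeries R :=
  letI := (rs (D.UW_le p)).toAlgebra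
  haveI := away_rs D.isAffineOpen_UV (rs (inf_le_right : D.U ⊓ D.V ≤ D.V) (D.pw p)) (D.UW_le p)
    (D.UW_eq p)
  IsLocalization.Away.lift (rs (inf_le_right : D.U ⊓ D.V ≤ D.V) (D.pw p)) (g := D.ex)
    (D.isUnit_eV_pw hp)

theorem exW_rs {p : R[X]} (hp : p.coeff 0 = 1) (x : Γ(X, D.U ⊓ D.V)) :
    D.exW hp (rs (D.UW_le p) x) = D.ex x := by
  letI := (rs (D.UW_le p)).toAlgebra
  haveI := away_rs D.isAffineOpen_UV (rs (inf_le_right : D.U ⊓ D.V ≤ D.V) (D.pw p)) (D.UW_le p)
    (D.UW_eq p)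
  exact IsLocalization.Away.lift_eq (S := Γ(X, D.UW p)) _ (g := D.ex) (D.isUnit_eV_pw hp) x

theorem exW_U {p : R[X]} (hp : p.coeff 0 = 1) (x : Γ(X, D.U)) :
    D.exW hp (rs (D.UW_le_U p) x) = D.exU x := by
  have : rs (D.UW_le_U p) x = rs (D.UW_le p) (rs inf_le_left x) := (rs_rs _ _ _).symm
  rw [this, exW_rs]
  rfl

theorem exW_V {p : R[X]} (hp : p.coeff 0 = 1) (x : Γ(X, D.V)) :
    D.exW hp (rs (D.UW_le_V p) x) = D.eV x := by
  have : rs (D.UW_le_V p) x = rs (D.UW_le p) (rs inf_le_right x) := (rs_rs _ _ _).symm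
  rw [this, exW_rs]
  rfl

/-- representation of sections on the punctured neighbourhood -/
theorem exists_UW {p : R[X]} (x : Γ(X, D.UW p)) :
    ∃ (n : ℕ) (y : Γ(X, D.U ⊓ D.V)),
      rs (D.UW_le p) y = rs (D.UW_le_V p) (D.pw p) ^ n * x := by
  obtain ⟨n, y, hy⟩ := exists_pow_mul D.isAffineOpen_UV
    (rs (inf_le_right : D.U ⊓ D.V ≤ D.V) (D.pw p)) (D.UW_le p) (D.UW_eq p) x
  refine ⟨n, y, ?_⟩
  rw [hy, rs_rs]

theorem isUnit_pw_UW (p : R[X]) : IsUnit (rs (D.UW_le_V p) (D.pw p)) := by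
  have h : rs (D.UW_le_V p) (D.pw p) =
    rs (D.UW_le_W p) (rs (D.W_le p) (D.pw p)) := (rs_rs _ _ _).symm
  rw [h]
  exact (X.toRingedSpace.isUnit_res_basicOpen (D.pw p)).map
    (rs (D.UW_le_W p))

theorem exW_injective {p : R[X]} (hp : p.coeff 0 = 1) : Function.Injective (D.exW hp) := by
  refine (injective_iff_map_eq_zero _).mpr fun x hx => ?_
  obtain ⟨n, y, hy⟩ := D.exists_UW x
  have h1 : D.ex y = 0 := by
    rw [← D.exW_rs hp, hy, map_mul, hx, mul_zero]
  rw [(injective_iff_map_eq_zero _).mp D.ex_injective y h1, map_zero] at hy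
  exact ((((D.isUnit_pw_UW p).pow n).mul_right_eq_zero).mp hy.symm)

/-- compatibility of the expansions -/
theorem exW_exW {p q : R[X]} (hp : p.coeff 0 = 1) (hq : q.coeff 0 = 1) (h : D.UW q ≤ D.UW p)
    (x : Γ(X, D.UW p)) : D.exW hq (rs h x) = D.exW hp x := by
  obtain ⟨n, y, hy⟩ := D.exists_UW x
  have h1 : IsUnit (D.exW hp (rs (D.UW_le_V p) (D.pw p) ^ n)) :=
    ((D.isUnit_pw_UW p).pow n).map _
  apply h1.mul_left_cancel
  rw [← map_mul, ← hy, exW_rs, ← D.exW_rs hq]
  have h2 : rs (D.UW_le q) y = rs h (rs (D.UW_le p) y) := (rs_rs _ _ _).symm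
  rw [h2, hy, map_mul, map_mul]
  congr 1
  rw [map_pow, map_pow, map_pow]
  congr 1
  rw [rs_rs, D.exW_V hq, D.exW_V hp]

/-- sections on a full neighbourhood have expansions without poles -/
theorem exW_mem {p : R[X]} (hp : p.coeff 0 = 1) (y : Γ(X, D.W p)) :
    D.exW hp (rs (D.UW_le_W p) y) ∈ LV R 0 := by
  obtain ⟨n, b, hb⟩ := exists_pow_mul D.hV (D.pw p) (D.W_le p) rfl y
  have h1 : D.eV b = (D.eV (D.pw p)) ^ n * D.exW hp (rs (D.UW_le_W p) y) := by
    have h2 := congrArg (fun t => D.exW hp (rs (D.UW_le_W p) t)) hb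
    simp only [map_mul, map_pow, rs_rs] at h2
    rw [D.exW_V hp, D.exW_V hp] at h2
    exact h2
  obtain ⟨g, hg, hg1, -⟩ := isUnit_of_LV (D.eV_mem (D.pw p))
    (by rw [D.eV_pw_coeff, hp]; exact isUnit_one)
  have h3 : D.exW hp (rs (D.UW_le_W p) y) = g ^ n * D.eV b := by
    rw [h1, ← mul_assoc, ← mul_pow, mul_comm g, hg1, one_pow, one_mul]
  rw [h3]
  have h4 : ∀ n : ℕ, g ^ n ∈ LV R 0 := by
    intro n
    induction n with
    | zero => rw [pow_zero]; exact one_mem_LV
    | succ n ih =>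
      rw [pow_succ]
      have := mul_mem_LV ih hg
      simpa using this
  simpa using mul_mem_LV (h4 n) (D.eV_mem b)

/-- **(K2)** sections without poles extend -/
theorem exists_ext {p : R[X]} (hp : p.coeff 0 = 1) (x : Γ(X, D.UW p))
    (hx : D.exW hp x ∈ LV R 0) : ∃ y : Γ(X, D.W p), rs (D.UW_le_W p) y = x := by
  obtain ⟨n, y, hy⟩ := exists_pow_mul (D.isAffineOpen_W p) (rs (D.W_le p) D.w)
    (D.UW_le_W p) (D.UW_eq' p) x
  obtain ⟨m, b, hb⟩ := exists_pow_mul D.hV (D.pw p) (D.W_le p) rfl y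
  have h1 : D.eV b = D.eV (D.pw p) ^ m * (D.eV D.w ^ n * D.exW hp x) := by
    have h2 := congrArg (fun t => D.exW hp (rs (D.UW_le_W p) t)) hb
    have h3 := congrArg (fun t => D.exW hp t) hy
    simp only [map_mul, map_pow, rs_rs] at h2 h3
    rw [D.exW_V hp, D.exW_V hp] at h2
    rw [D.exW_V hp] at h3
    rw [h2, h3]
  have h2 : D.eV b ∈ LV R (D.d * n) := by
    rw [h1]
    have h4 : ∀ (f : LaurentSeries R) (i : ℤ), f ∈ LV R i → ∀ n : ℕ, f ^ n ∈ LV R (i * n) := by
      intro f i hf n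
      induction n with
      | zero => rw [pow_zero]; simpa using one_mem_LV
      | succ n ih =>
        rw [pow_succ]
        have := mul_mem_LV ih hf
        refine LV_mono (le_of_eq ?_) this
        push_cast
        ring
    have h5 := mul_mem_LV (h4 _ _ (D.eV_mem (D.pw p)) m)
      (mul_mem_LV (h4 _ _ D.eV_w_mem n) hx)
    refine LV_mono (le_of_eq ?_) h5
    ring
  obtain ⟨c, rfl⟩ := D.dvd_pow_w n b h2
  have hu : IsUnit (rs (D.W_le p) (D.pw p)) := X.toRingedSpace.isUnit_res_basicOpen (D.pw p)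
  obtain ⟨v, hv⟩ := hu.exists_left_inv
  refine ⟨v ^ m * rs (D.W_le p) c, ?_⟩
  apply D.exW_injective hp
  have hv' : D.exW hp (rs (D.UW_le_W p) v) * D.eV (D.pw p) = 1 := by
    have := congrArg (fun t => D.exW hp (rs (D.UW_le_W p) t)) hv
    simp only [map_mul, map_one, rs_rs] at this
    rw [D.exW_V hp] at this
    exact this
  have hw : IsUnit (D.eV D.w ^ n) :=
    (isUnit_of_mem_LV D.eV_w_mem (by rw [D.eV_w_coeff]; exact isUnit_one)).pow n
  have h6 : D.eV c = D.eV (D.pw p) ^ m * D.exW hp x := by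
    apply hw.mul_left_cancel
    rw [← map_pow, ← map_mul, h1, map_pow]
    ring
  rw [map_mul, map_pow, rs_rs, map_mul, map_pow, D.exW_V hp, h6, ← mul_assoc, ← mul_pow, hv',
    one_pow, one_mul]

end XD

end Fermat.Agent.J25
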