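import Mathlib
import Fermat.Agent.J25.Diag1
import Fermat.Agent.J25.XDE

/-!
# Base change of the equations of a section
-/

set_option autoImplicit false

universe u v w

open CategoryTheory CategoryTheory.Limits AlgebraicGeometry TopologicalSpace Opposite

noncomputable section

namespace Fermat.Agent.J25.DX

section Ring

variable {B P K Q : Type u} [CommRing B] [CommRing P] [CommRing K] [CommRing Q]
  [Algebra B P] [Algebra B K] [Algebra P Q] [Algebra K Q] [Algebra B Q] [IsScalarTower B P Q]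
  [IsScalarTower B K Q] [Algebra.IsPushout B K P Q]

/-- base change of a split exact sequence `0 → P → P → B → 0` -/
theorem split_ring (i : P →+* B) (hi : ∀ b, i (algebraMap B P b) = b) (f : P)
    (hk : ∀ y, i y = 0 ↔ ∃ r, r * f = y) (hr : ∀ r, r * f = 0 → r = 0)
    (j : Q →+* K) (hj : ∀ κ, j (algebraMap K Q κ) = κ)
    (hji : ∀ y, j (algebraMap P Q y) = algebraMap B K (i y)) :
    (∀ z, j z = 0 → ∃ r, r * algebraMap P Q f = z) ∧ ∀ r, r * algebraMap P Q f = 0 → r = 0 := by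
  have hreg : ∀ {r s : P}, r * f = s * f → r = s := fun {r s} h =>
    sub_eq_zero.mp (hr _ (by rw [sub_mul, h, sub_self]))
  have h1 : ∀ y : P, ∃ r, r * f = y - algebraMap B P (i y) := fun y =>
    (hk _).1 (by rw [map_sub, hi, sub_self])
  choose ρ hρ using h1
  let ρl : P →ₗ[B] P :=
    { toFun := ρ
      map_add' := fun x y => hreg (by
        rw [add_mul, hρ, hρ, hρ, map_add, map_add]; ring)
      map_smul' := fun b y => hreg (by
        rw [RingHom.id_apply, smul_mul_assoc, hρ, hρ, Algebra.smul_def, Algebra.smul_def, map_mul,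
          hi, map_mul]
        ring) }
  have hρf : ∀ y, ρ (y * f) = y := fun y => hreg (by
    rw [hρ, (hk _).2 ⟨y, rfl⟩, map_zero, sub_zero])
  have β : IsBaseChange K (IsScalarTower.toAlgHom B P Q).toLinearMap :=
    Algebra.IsPushout.out (R := B) (S := K) (R' := P) (S' := Q)
  let ρ' : Q →ₗ[K] Q := β.lift ((IsScalarTower.toAlgHom B P Q).toLinearMap.comp ρl)
  have hρ' : ∀ y : P, ρ' (algebraMap P Q y) = algebraMap P Q (ρ y) := fun y => β.lift_eq _ y
  have e1 : ρ'.comp (LinearMap.mulRight K (algebraMap P Q f)) = LinearMap.id :=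
    β.algHom_ext _ _ fun y => by
      change ρ' (algebraMap P Q y * algebraMap P Q f) = algebraMap P Q y
      rw [← map_mul, hρ', hρf]
  have hjl : ∀ (κ : K) (z : Q), j (κ • z) = κ * j z := fun κ z => by
    rw [Algebra.smul_def, map_mul, hj]
  let jl : Q →ₗ[K] K :=
    { toFun := j
      map_add' := map_add j
      map_smul' := hjl }
  have e2 : (LinearMap.mulRight K (algebraMap P Q f)).comp ρ' + (Algebra.linearMap K Q).comp jl =
      LinearMap.id :=
    β.algHom_ext _ _ fun y => by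
      change ρ' (algebraMap P Q y) * algebraMap P Q f + algebraMap K Q (j (algebraMap P Q y)) =
        algebraMap P Q y
      rw [hρ', hji, ← map_mul, hρ, map_sub, ← IsScalarTower.algebraMap_apply B P Q,
        ← IsScalarTower.algebraMap_apply B K Q, sub_add_cancel]
  refine ⟨fun z hz => ⟨ρ' z, ?_⟩, fun r h => ?_⟩
  · have := LinearMap.congr_fun e2 z
    change ρ' z * algebraMap P Q f + algebraMap K Q (j z) = z at this
    rwa [hz, map_zero, add_zero] at this
  · have := LinearMap.congr_fun e1 r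
    change ρ' (r * algebraMap P Q f) = r at this
    rw [← this, h, map_zero]

end Ring

/-- the same for pushouts in the category of rings -/
theorem split_cat {B P K Q : CommRingCat.{u}} {a : B ⟶ P} {b : B ⟶ K} {c : P ⟶ Q} {d : K ⟶ Q}
    (h : IsPushout a b c d) (i : P →+* B) (hi : ∀ y, i (a.hom y) = y) (f : P)
    (hk : ∀ y, i y = 0 ↔ ∃ r, r * f = y) (hr : ∀ r, r * f = 0 → r = 0)
    (j : Q →+* K) (hj : ∀ κ, j (d.hom κ) = κ)
    (hji : ∀ y, j (c.hom y) = b.hom (i y)) :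
    (∀ z, j z = 0 → ∃ r, r * c.hom f = z) ∧ ∀ r, r * c.hom f = 0 → r = 0 := by
  letI : Algebra B P := a.hom.toAlgebra
  letI : Algebra B K := b.hom.toAlgebra
  letI : Algebra P Q := c.hom.toAlgebra
  letI : Algebra K Q := d.hom.toAlgebra
  letI : Algebra B Q := (c.hom.comp a.hom).toAlgebra
  haveI : IsScalarTower B P Q := IsScalarTower.of_algebraMap_eq fun _ => rfl
  haveI : IsScalarTower B K Q := IsScalarTower.of_algebraMap_eq fun y =>
    congrArg (fun φ => φ.hom y) h.w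
  haveI : Algebra.IsPushout B P K Q := CommRingCat.isPushout_iff_isPushout.mp h
  haveI : Algebra.IsPushout B K P Q := Algebra.IsPushout.symm inferInstance
  exact split_ring i hi f hk hr j hj hji

section Aff

variable {X D : Scheme.{u}}

/-- affine criterion for equations -/
theorem isEqn_of_affine (i : D ⟶ X) {O : X.Opens} (hO : IsAffineOpen O)
    (hc : IsCompact ((i ⁻¹ᵁ O : D.Opens) : Set D)) (f : Γ(X, O))
    (hv : pb i (le_refl (i ⁻¹ᵁ O)) f = 0)
    (hk : ∀ s : Γ(X, O), pb i (le_refl (i ⁻¹ᵁ O)) s = 0 → ∃ r, r * f = s)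
    (hr : ∀ r : Γ(X, O), r * f = 0 → r = 0) : IsEqn i f := by
  refine IsEqn.of_basis {V | ∃ h : Γ(X, O), V = X.basicOpen h} (fun V hV x hx => ?_) ?_
  · obtain ⟨h, h1, h2⟩ := hO.exists_basicOpen_le ⟨x, hx⟩ (hV hx)
    exact ⟨_, ⟨h, rfl⟩, h1, h2⟩
  rintro V ⟨h, hh⟩ hV
  have hu : IsUnit (rs hV h) := by
    subst hh
    exact RingedSpace.isUnit_res_basicOpen _ h
  refine ⟨fun s => ⟨fun hs => ?_, ?_⟩, fun r hrf => ?_⟩
  · obtain ⟨n, y, hy⟩ := exists_pow_mul hO h hV hh s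
    have h1 : rs (Scheme.Hom.preimage_mono i hV) (pb i (le_refl (i ⁻¹ᵁ O)) y) = 0 := by
      rw [rs_pb]
      have := congrArg (pb i (le_refl (i ⁻¹ᵁ V))) hy
      rw [map_mul, hs, mul_zero, pb_rs] at this
      exact this
    have hb : i ⁻¹ᵁ V = D.basicOpen (pb i (le_refl (i ⁻¹ᵁ O)) h) := by
      rw [hh, basicOpen_pb, inf_eq_right.mpr]
      exact Scheme.Hom.preimage_mono i (X.basicOpen_le h)
    obtain ⟨m, hm⟩ := exists_pow_mul_eq_zero_of_res_basicOpen_eq_zero_of_isCompact D hc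
      (pb i (le_refl (i ⁻¹ᵁ O)) y) (pb i (le_refl (i ⁻¹ᵁ O)) h) (by
        have h2 := congrArg (rs hb.ge) h1
        rw [rs_rs, map_zero] at h2
        exact h2)
    rw [← map_pow, ← map_mul] at hm
    obtain ⟨r, hr'⟩ := hk _ hm
    obtain ⟨v, hv'⟩ := hu.pow (m + n)
    refine ⟨((v⁻¹ : Γ(X, V)ˣ) : Γ(X, V)) * rs hV r, ?_⟩
    have h3 := congrArg (rs hV) hr'
    rw [map_mul, map_mul, map_pow, hy, ← mul_assoc, ← pow_add, ← hv'] at h3
    rw [mul_assoc, h3, ← mul_assoc, Units.inv_mul, one_mul]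
  · rintro ⟨r, rfl⟩
    rw [map_mul, pb_rs]
    have h2 := congrArg (rs (Scheme.Hom.preimage_mono i hV)) hv
    rw [rs_pb, map_zero] at h2
    rw [h2, mul_zero]
  · obtain ⟨n, y, hy⟩ := exists_pow_mul hO h hV hh r
    have h1 : rs hV (y * f) = rs hV 0 := by
      rw [map_mul, hy, mul_assoc, hrf, mul_zero, map_zero]
    obtain ⟨m, hm⟩ := exists_pow_mul_eq hO h hV hh h1
    rw [mul_zero, ← mul_assoc] at hm
    have h2 := congrArg (rs hV) (hr _ hm)
    rw [map_mul, map_pow, map_zero, hy, ← mul_assoc, ← pow_add] at h2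
    exact (hu.pow (m + n)).mul_left_cancel (h2.trans (mul_zero _).symm)

end Aff

section BC

variable {X S T Y : Scheme.{u}} {p : X ⟶ S} {x : T ⟶ S} {φ : Y ⟶ X} {π : Y ⟶ T}
  {i : S ⟶ X} {j : T ⟶ Y}

theorem pb_congr {X Y : Scheme.{u}} {f g : X ⟶ Y} (e : f = g) {U : Y.Opens} {V : X.Opens}
    (h : V ≤ f ⁻¹ᵁ U) (h' : V ≤ g ⁻¹ᵁ U) (a : Γ(Y, U)) : pb f h a = pb g h' a := by
  subst e
  rfl

/-- the base change of a section: the section square is cartesian -/
theorem isPullback_section (H : IsPullback φ π p x) (hi : i ≫ p = 𝟙 S) (hj : j ≫ π = 𝟙 T)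
    (hji : j ≫ φ = x ≫ i) : IsPullback j x φ i := by
  refine IsPullback.of_right (h₁₂ := π) (h₂₂ := p) (v₁₃ := x) ?_ hji H.flip
  rw [hj, hi]
  exact IsPullback.of_horiz_isIso ⟨by rw [Category.id_comp, Category.comp_id]⟩

theorem exists_of_mem_range (H : IsPullback φ π p x) (hi : i ≫ p = 𝟙 S) (hj : j ≫ π = 𝟙 T)
    (hji : j ≫ φ = x ≫ i) (q : Y) (hq : φ q ∈ Set.range i) : q ∈ Set.range j := by
  obtain ⟨s, hs⟩ := hq
  have h1 := isPullback_section H hi hj hji
  obtain ⟨z, hz, -⟩ := Scheme.Pullback.exists_preimage_pullback (f := φ) (g := i) q s hs.symm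
  refine ⟨h1.isoPullback.inv z, ?_⟩
  rw [← Scheme.Hom.comp_apply, h1.isoPullback_inv_fst, hz]

theorem apply_section (hi : i ≫ p = 𝟙 S) (s : S) : p (i s) = s := by
  rw [← Scheme.Hom.comp_apply, hi]
  rfl

/-- pullback of an equation of a section, near a point of the section -/
theorem isEqn_near (H : IsPullback φ π p x) (hi : i ≫ p = 𝟙 S) (hj : j ≫ π = 𝟙 T)
    (hji : j ≫ φ = x ≫ i) {W : X.Opens} {f : Γ(X, W)} (hf : IsEqn i f) (t : T)
    (ht : φ (j t) ∈ W) : ∃ O : Y.Opens, j t ∈ O ∧ ∃ h : O ≤ φ ⁻¹ᵁ W, IsEqn j (pb φ h f) := by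
  have hφj : φ (j t) = i (x t) := by
    rw [← Scheme.Hom.comp_apply, hji]
    rfl
  rw [hφj] at ht
  obtain ⟨S1, hS1, hsS1, -⟩ := exists_isAffineOpen_mem_and_subset (X := S) (x := x t)
    (U := ⊤) trivial
  obtain ⟨X1, hX1, hxX1, hX1le⟩ := exists_isAffineOpen_mem_and_subset (X := X) (x := i (x t))
    (U := W ⊓ p ⁻¹ᵁ S1) ⟨ht, by
      change p (i (x t)) ∈ S1
      rwa [apply_section hi]⟩
  have hX1W : X1 ≤ W := fun y hy => (hX1le hy).1
  have hX1S : X1 ≤ p ⁻¹ᵁ S1 := fun y hy => (hX1le hy).2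
  obtain ⟨b, hb, hsb⟩ := hS1.exists_basicOpen_le (V := S1 ⊓ i ⁻¹ᵁ X1) ⟨x t, hsS1, hxX1⟩ hsS1
  have hS0 : IsAffineOpen (S.basicOpen b) := hS1.basicOpen b
  set S0 := S.basicOpen b with hS0def
  have hX0 : IsAffineOpen (X1 ⊓ p ⁻¹ᵁ S0) := by
    rw [hS0def, ← basicOpen_pb p hX1S b]
    exact hX1.basicOpen _
  set X0 := X1 ⊓ p ⁻¹ᵁ S0 with hX0def
  obtain ⟨T0, hT0, htT0, hT0le⟩ := exists_isAffineOpen_mem_and_subset (X := T) (x := t)
    (U := x ⁻¹ᵁ S0) hsb
  have hUST : T0 ≤ x ⁻¹ᵁ S0 := hT0le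
  have hUSX : X0 ≤ p ⁻¹ᵁ S0 := inf_le_right
  have hX0W : X0 ≤ W := inf_le_left.trans hX1W
  -- the preimage of `X0` under the section
  have hiX0 : i ⁻¹ᵁ X0 = S0 := by
    apply le_antisymm
    · intro s hs
      have h1 : p (i s) ∈ S0 := hs.2
      rwa [apply_section hi] at h1
    · intro s hs
      refine ⟨(hb hs).2, ?_⟩
      change p (i s) ∈ S0
      rwa [apply_section hi]
  let O : Y.Opens := φ ⁻¹ᵁ X0 ⊓ π ⁻¹ᵁ T0
  have hjO : j ⁻¹ᵁ O = T0 := by
    apply le_antisymm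
    · intro s hs
      have h1 : π (j s) ∈ T0 := hs.2
      rwa [apply_section hj] at h1
    · intro s hs
      refine ⟨?_, ?_⟩
      · change φ (j s) ∈ X0
        have h1 : φ (j s) = i (x s) := by
          rw [← Scheme.Hom.comp_apply, hji]
          rfl
        rw [h1]
        have h2 : x s ∈ S0 := hUST hs
        rw [← hiX0] at h2
        exact h2
      · change π (j s) ∈ T0
        rwa [apply_section hj]
  have hOφ : O ≤ φ ⁻¹ᵁ X0 := inf_le_left
  have hOπ : O ≤ π ⁻¹ᵁ T0 := inf_le_right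
  have hOaff : IsAffineOpen O := by
    have : IsAffine _ := hS0
    have : IsAffine _ := hT0
    have : IsAffine _ := hX0
    exact .of_isIso (Scheme.Hom.isPullback_resLE H hUST hUSX (rfl : O = _)).isoPullback.hom
  have hpush : IsPushout (p.appLE S0 X0 hUSX) (x.appLE S0 T0 hUST) (φ.appLE X0 O hOφ)
      (π.appLE T0 O hOπ) :=
    (isIso_pushoutSection_iff H hUST hUSX (rfl : O = _)).mp
      (isIso_pushoutSection_of_isAffineOpen H hUST hUSX rfl hS0 hT0 hX0)
  have hO : O ≤ φ ⁻¹ᵁ W := hOφ.trans (Scheme.Hom.preimage_mono φ hX0W)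
  refine ⟨O, ?_, hO, ?_⟩
  · refine ⟨?_, ?_⟩
    · change φ (j t) ∈ X0
      rw [hφj]
      have h2 : x t ∈ S0 := hsb
      rw [← hiX0] at h2
      exact h2
    · change π (j t) ∈ T0
      rwa [apply_section hj]
  have key := split_cat hpush (pb i hiX0.ge) (fun y => by
      have h1 := pb_pb i p hUSX hiX0.ge y
      refine h1.trans ((pb_congr hi _ le_rfl y).trans ((pb_id le_rfl y).trans (rs_self _ _))))
    (rs hX0W f) (fun y => by
      rw [← (hf X0 hX0W).1 y]
      constructor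
      · intro h
        have h1 := congrArg (rs hiX0.le) h
        rw [rs_pb, map_zero] at h1
        exact h1
      · intro h
        have h1 := congrArg (rs hiX0.ge) h
        rw [rs_pb, map_zero] at h1
        exact h1)
    (hf X0 hX0W).2 (pb j hjO.ge) (fun y => by
      have h1 := pb_pb j π hOπ hjO.ge y
      exact h1.trans ((pb_congr hj _ le_rfl y).trans ((pb_id le_rfl y).trans (rs_self _ _))))
    (fun y => by
      have h1 := pb_pb j φ hOφ hjO.ge y
      have h2 := pb_pb x i hiX0.ge hUST y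
      exact h1.trans ((pb_congr hji _ _ y).trans h2.symm))
  have hfe : pb φ hO f = (φ.appLE X0 O hOφ).hom (rs hX0W f) := (pb_rs φ hOφ hX0W f).symm
  rw [hfe]
  refine isEqn_of_affine j hOaff ?_ _ ?_ ?_ key.2
  · rw [hjO]
    exact hT0.isCompact
  · rw [← hfe, pb_pb, pb_congr hji _ (by
      rw [hjO]
      exact hUST.trans (Scheme.Hom.preimage_mono x (hiX0.ge.trans
        (Scheme.Hom.preimage_mono i hX0W))))]
    have h1 := pb_pb x i (le_refl (i ⁻¹ᵁ W)) (V := i ⁻¹ᵁ W) (W := j ⁻¹ᵁ O) (by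
      rw [hjO]
      exact hUST.trans (Scheme.Hom.preimage_mono x (hiX0.ge.trans
        (Scheme.Hom.preimage_mono i hX0W)))) f
    rw [← h1, hf.van', map_zero]
  · intro s hs
    apply key.1
    have h1 := congrArg (rs hjO.ge) hs
    rw [rs_pb, map_zero] at h1
    exact h1

/-- **Base change of the equations of a section.** -/
theorem isEqn_pullback (H : IsPullback φ π p x) (hi : i ≫ p = 𝟙 S) (hj : j ≫ π = 𝟙 T)
    (hji : j ≫ φ = x ≫ i) (hcl : IsClosed (Set.range i)) {W : X.Opens} {f : Γ(X, W)}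
    (hf : IsEqn i f) {W' : Y.Opens} (hW : W' ≤ φ ⁻¹ᵁ W) : IsEqn j (pb φ hW f) := by
  have key : ∀ q : Y, q ∈ W' → ∃ O : Y.Opens, q ∈ O ∧ ∃ h : O ≤ W', IsEqn j (rs h (pb φ hW f)) := by
    intro q hq
    by_cases hqj : q ∈ Set.range j
    · obtain ⟨t, rfl⟩ := hqj
      obtain ⟨O, h1, h2, h3⟩ := isEqn_near H hi hj hji hf t (hW hq)
      refine ⟨O ⊓ W', ⟨h1, hq⟩, inf_le_right, ?_⟩
      have h4 := h3.res (inf_le_left : O ⊓ W' ≤ O)
      rw [rs_pb] at h4 ⊢
      exact h4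
    · let V0 : X.Opens := W ⊓ ⟨(Set.range i)ᶜ, hcl.isOpen_compl⟩
      have hV0 : i ⁻¹ᵁ V0 = ⊥ := by
        rw [eq_bot_iff]
        intro s hs
        exact (hs.2 ⟨s, rfl⟩).elim
      have hu := hf.isUnit (inf_le_left : V0 ≤ W) hV0
      let O : Y.Opens := W' ⊓ φ ⁻¹ᵁ V0
      have hjO : j ⁻¹ᵁ O = ⊥ := by
        rw [eq_bot_iff]
        intro s hs
        have h1 : φ (j s) ∈ V0 := hs.2
        have h2 : φ (j s) = i (x s) := by
          rw [← Scheme.Hom.comp_apply, hji]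
          rfl
        rw [h2] at h1
        exact (h1.2 ⟨_, rfl⟩).elim
      refine ⟨O, ⟨hq, hW hq, fun h => hqj (exists_of_mem_range H hi hj hji q h)⟩,
        inf_le_left, ?_⟩
      obtain ⟨v, hv⟩ := hu.map (pb φ (inf_le_right : O ≤ φ ⁻¹ᵁ V0))
      rw [pb_rs] at hv
      have h3 := (IsEqn.one hjO).unit_mul v
      rw [mul_one, hv] at h3
      rw [rs_pb]
      exact h3
  choose O h1 h2 h3 using key
  exact IsEqn.of_local (fun q : W' => O q.1 q.2) (fun q => h2 q.1 q.2)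
    (fun q hq => ⟨⟨q, hq⟩, h1 q hq⟩) (fun q => h3 q.1 q.2)

end BC

end Fermat.Agent.J25.DX
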