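import Mathlib
import Fermat.Agent.J25.DX1
import Fermat.Agent.J25.AJ

/-!
# The ideal of the diagonal and the ideal of the graph of a point
-/

set_option autoImplicit false

universe u v w

open CategoryTheory CategoryTheory.Limits AlgebraicGeometry TopologicalSpace Opposite
open NeronModelInfra AlgebraicGeometry.RelPicard

noncomputable section

namespace Fermat.Agent.J25.DX

variable {R : Type u} [CommRing R] {C T : Scheme.{u}} {c : C ⟶ Spec (CommRingCat.of R)}
  {t : T ⟶ Spec (CommRingCat.of R)}

/-- the graph of a `T`-valued point -/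
def graph (s : SchemeHomOver t c) : T ⟶ pullback c t :=
  pullback.lift s.1 (𝟙 T) (by rw [s.2, Category.id_comp])

theorem graph_fst (s : SchemeHomOver t c) : graph s ≫ pullback.fst c t = s.1 :=
  pullback.lift_fst _ _ _

theorem graph_snd (s : SchemeHomOver t c) : graph s ≫ pullback.snd c t = 𝟙 T :=
  pullback.lift_snd _ _ _

theorem isPullback_bcSnd (s : SchemeHomOver t c) :
    IsPullback (baseChangeSnd c s) (pullback.snd c t) (pullback.snd c c) s.1 := by
  refine IsPullback.of_right (h₁₂ := pullback.fst c c) (h₂₂ := c) (v₁₃ := c) ?_ ?_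
    (IsPullback.of_hasPullback c c)
  · rw [AJ.baseChangeSnd_fst, s.2]
    exact IsPullback.of_hasPullback c t
  · exact AJ.baseChangeSnd_snd s

theorem graph_baseChangeSnd (s : SchemeHomOver t c) :
    graph s ≫ baseChangeSnd c s = s.1 ≫ pullback.diagonal c := by
  refine pullback.hom_ext ?_ ?_
  · rw [Category.assoc, AJ.baseChangeSnd_fst, graph_fst, Category.assoc, pullback.diagonal_fst,
      Category.comp_id]
  · rw [Category.assoc, AJ.baseChangeSnd_snd, ← Category.assoc, graph_snd, Category.id_comp,
      Category.assoc, pullback.diagonal_snd, Category.comp_id]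

/-- the pullback of an equation of the diagonal is an equation of the graph -/
theorem isEqn_graph [IsSeparated c] (s : SchemeHomOver t c) {W : (pullback c c).Opens}
    {f : Γ(pullback c c, W)} (hf : IsEqn (pullback.diagonal c) f) {W' : (pullback c t).Opens}
    (hW : W' ≤ baseChangeSnd c s ⁻¹ᵁ W) : IsEqn (graph s) (pb (baseChangeSnd c s) hW f) :=
  isEqn_pullback (isPullback_bcSnd s) (pullback.diagonal_snd c) (graph_snd s)
    (graph_baseChangeSnd s) (pullback.diagonal c).isClosedEmbedding.isClosed_range hf hW

theorem cartier_graph [IsSeparated c] (hΔ : Eqn.Cartier (pullback.diagonal c))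
    (s : SchemeHomOver t c) : Eqn.Cartier (graph s) := by
  intro y
  obtain ⟨e, he⟩ := hΔ (baseChangeSnd c s y)
  exact ⟨⟨baseChangeSnd c s ⁻¹ᵁ e.W, pb (baseChangeSnd c s) le_rfl e.f,
    isEqn_graph s e.isEqn le_rfl⟩, he⟩

/-- **The pullback of the ideal of the diagonal is the ideal of the graph.** -/
theorem map_idl_diagonal [IsSeparated c] (hΔ : Eqn.Cartier (pullback.diagonal c))
    (s : SchemeHomOver t c) (h' : Eqn.Cartier (graph s)) :
    PicC.map (baseChangeSnd c s) (Eqn.idl (pullback.diagonal c) hΔ) = Eqn.idl (graph s) h' :=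
  Eqn.map_idl _ _ _ _ _ fun e => isEqn_graph s e.isEqn le_rfl

end Fermat.Agent.J25.DX
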