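import Mathlib
import Fermat.Agent.J25.Diag1

/-!
# Equations: affine criterion and charts
-/

set_option autoImplicit false
set_option linter.style.haveILetI false

universe u v w

open CategoryTheory CategoryTheory.Limits AlgebraicGeometry TopologicalSpace Opposite

noncomputable section

namespace Fermat.Agent.J25

variable {X Y D E : Scheme.{u}}

section aff

variable {O : X.Opens} (hO : IsAffineOpen O) (f : Γ(X, O))

include hO in
theorem DG.away_rs : @IsLocalization.Away _ _ f Γ(X, X.basicOpen f) _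
    (rs (X.basicOpen_le f)).toAlgebra :=
  hO.isLocalization_of_eq_basicOpen f (homOfLE (X.basicOpen_le f)) rfl

include hO in
/-- sections on a basic open of an affine open: denominators -/
theorem DG.exists_pow_mul (x : Γ(X, X.basicOpen f)) :
    ∃ (n : ℕ) (y : Γ(X, O)), rs (X.basicOpen_le f) y = rs (X.basicOpen_le f) f ^ n * x := by
  letI := (rs (X.basicOpen_le f)).toAlgebra
  haveI := DG.away_rs hO f
  obtain ⟨n, y, hy⟩ := IsLocalization.Away.surj f x
  exact ⟨n, y, by rw [mul_comm]; exact hy.symm⟩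

include hO in
/-- sections on a basic open of an affine open: equality -/
theorem DG.exists_pow_mul_eq {x : Γ(X, O)} (hxy : rs (X.basicOpen_le f) x = 0) :
    ∃ n : ℕ, f ^ n * x = 0 := by
  letI := (rs (X.basicOpen_le f)).toAlgebra
  haveI := DG.away_rs hO f
  obtain ⟨n, hn⟩ := IsLocalization.Away.exists_of_eq (x := f) (S := Γ(X, X.basicOpen f))
    (a := x) (b := 0) (by rw [map_zero]; exact hxy)
  exact ⟨n, by rw [hn, mul_zero]⟩

end aff

/-- sections vanish on a basic open of an affine open -/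
theorem DG.exists_pow_of_le {O : X.Opens} (hO : IsAffineOpen O) (f : Γ(X, O)) (V : X.Opens)
    (hV : V = X.basicOpen f) (h : V ≤ O) {x : Γ(X, O)} (hx : rs h x = 0) :
    ∃ n : ℕ, f ^ n * x = 0 := by
  subst hV
  exact DG.exists_pow_mul_eq hO f hx

/-- **criterion**: `f` is an equation on `{h ≠ 0}` if, on an affine open, `f` vanishes on `D`,
`h` times a function vanishing on `D` is a multiple of `f` and `r * f = 0` implies `r * h = 0`. -/
theorem isEqn_of_aff {i : D ⟶ X} {O : X.Opens} (hO : IsAffineOpen O)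
    (hO' : IsAffineOpen (i ⁻¹ᵁ O)) (f h : Γ(X, O)) (h1 : pb i (le_refl (i ⁻¹ᵁ O)) f = 0)
    (h2 : ∀ s : Γ(X, O), pb i (le_refl (i ⁻¹ᵁ O)) s = 0 → ∃ r, r * f = h * s)
    (h3 : ∀ r : Γ(X, O), r * f = 0 → r * h = 0) {W : X.Opens} (hW : W ≤ O)
    (hWh : IsUnit (rs hW h)) : IsEqn i (rs hW f) := by
  refine IsEqn.of_basis {V | ∃ g : Γ(X, O), V = X.basicOpen g} (fun V hV x hx => ?_) ?_
  · obtain ⟨g, hg, hxg⟩ := hO.exists_basicOpen_le (V := V) ⟨x, hx⟩ (hW (hV hx))
    exact ⟨X.basicOpen g, ⟨g, rfl⟩, hg, hxg⟩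
  · rintro _ ⟨g, rfl⟩ hg
    have hgO : X.basicOpen g ≤ O := X.basicOpen_le g
    have hu : IsUnit (rs hgO h) := by
      have := hWh.map (rs hg)
      rwa [rs_rs] at this
    have hgu : IsUnit (rs hgO g) := X.toRingedSpace.isUnit_res_basicOpen g
    have e1 : rs hg (rs hW f) = rs hgO f := rs_rs _ _ _
    rw [e1]
    refine ⟨fun s => ⟨fun hs => ?_, ?_⟩, fun r hr => ?_⟩
    · obtain ⟨n, s0, hs0⟩ := DG.exists_pow_mul hO g s
      have h4 : pb i (le_refl (i ⁻¹ᵁ X.basicOpen g)) (rs hgO s0) = 0 := by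
        rw [hs0, map_mul, hs, mul_zero]
      rw [pb_rs] at h4
      have hle : i ⁻¹ᵁ X.basicOpen g ≤ i ⁻¹ᵁ O := Scheme.Hom.preimage_mono i hgO
      have h5 : rs hle (pb i (le_refl (i ⁻¹ᵁ O)) s0) = 0 := by
        rw [rs_pb]
        exact h4
      have h6 : i ⁻¹ᵁ X.basicOpen g = D.basicOpen (pb i (le_refl (i ⁻¹ᵁ O)) g) := by
        have h7 := Scheme.preimage_basicOpen i g
        have h8 : pb i (le_refl (i ⁻¹ᵁ O)) g = (i.app O).hom g := by
          change (i.appLE O (i ⁻¹ᵁ O) le_rfl).hom g = _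
          rw [Scheme.Hom.app_eq_appLE]
        rw [h8]
        exact h7
      obtain ⟨m, hm⟩ := DG.exists_pow_of_le hO' _ _ h6 hle h5
      rw [← map_pow, ← map_mul] at hm
      obtain ⟨r, hr⟩ := h2 _ hm
      have h9 := congrArg (rs hgO) hr
      rw [map_mul, map_mul, map_mul, map_pow, hs0, ← mul_assoc (_ ^ m), ← pow_add,
        ← mul_assoc] at h9
      obtain ⟨v, hv⟩ := (hu.mul (hgu.pow (m + n))).exists_left_inv
      refine ⟨v * rs hgO r, ?_⟩
      rw [mul_assoc, h9, ← mul_assoc, hv, one_mul]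
    · rintro ⟨r, rfl⟩
      have h4 : pb i (le_refl (i ⁻¹ᵁ X.basicOpen g)) (rs hgO f) = 0 := by
        have hle : i ⁻¹ᵁ X.basicOpen g ≤ i ⁻¹ᵁ O := Scheme.Hom.preimage_mono i hgO
        have := congrArg (rs hle) h1
        rw [rs_pb, map_zero] at this
        rw [pb_rs]
        exact this
      rw [map_mul, h4, mul_zero]
    · obtain ⟨n, r0, hr0⟩ := DG.exists_pow_mul hO g r
      have h4 : rs hgO (r0 * f) = 0 := by
        rw [map_mul, hr0, mul_assoc, hr, mul_zero]
      obtain ⟨m, hm⟩ := DG.exists_pow_mul_eq hO g h4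
      rw [← mul_assoc] at hm
      have h5 := congrArg (rs hgO) (h3 _ hm)
      rw [map_mul, map_mul, map_pow, hr0, map_zero, ← mul_assoc (_ ^ m), ← pow_add] at h5
      have h6 : r * (rs hgO g ^ (m + n) * rs hgO h) = 0 := by
        rw [← h5]
        ring
      exact (((hgu.pow (m + n)).mul hu).mul_left_eq_zero).mp h6

end Fermat.Agent.J25
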