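import Mathlib
import Fermat.Agent.J25.Fam
import Fermat.Agent.J25.PicC

/-!
# Products, pullback and triviality of classes of families of transition units
-/

set_option autoImplicit false

universe u v w

open CategoryTheory CategoryTheory.Limits AlgebraicGeometry TopologicalSpace Opposite

noncomputable section

namespace Fermat.Agent.J25

namespace Fam

variable {X Y : Scheme.{u}} {T : Type v} {T' : Type w}

/-- the product of two families -/
def prod (F : Fam X T) (F' : Fam X T') : Fam X (T × T') where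
  O t := F.O t.1 ⊓ F'.O t.2
  g s t W hs ht := F.g s.1 t.1 W (hs.trans inf_le_left) (ht.trans inf_le_left) *
    F'.g s.2 t.2 W (hs.trans inf_le_right) (ht.trans inf_le_right)
  res s t W W' hs ht h := by rw [map_mul, F.res, F'.res]
  mul s t r W hs ht hr := by rw [mul_mul_mul_comm, F.mul, F'.mul]

theorem Cov.prod {F : Fam X T} {F' : Fam X T'} (h : F.Cov) (h' : F'.Cov) :
    (F.prod F').Cov := fun x => by
  obtain ⟨t, ht⟩ := h x
  obtain ⟨t', ht'⟩ := h' x
  exact ⟨(t, t'), ht, ht'⟩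

theorem cls_prod {F : Fam X T} {F' : Fam X T'} (h : F.Cov) (h' : F'.Cov) :
    (F.prod F').cls (h.prod h') = F.cls h * F'.cls h' := by
  obtain ⟨t, ht⟩ := Classical.skolem.1 h
  obtain ⟨t', ht'⟩ := Classical.skolem.1 h'
  rw [F.cls_eq h t ht, F'.cls_eq h' t' ht',
    (F.prod F').cls_eq _ (fun x => (t x, t' x)) (fun x => ⟨ht x, ht' x⟩), ← PicC.mk_mul,
    PicC.mk_eq_mk]
  refine ⟨fun x => F.O (t x) ⊓ F'.O (t' x), fun x => ⟨ht x, ht' x⟩, fun x => le_rfl,
    fun x => le_rfl, fun x => 1, fun x y V hx hy => ?_⟩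
  rw [map_one, map_one, inv_one, one_mul, mul_one, coc_gg, Coc.mul_gg, coc_gg, coc_gg]
  rfl

theorem map_cls (f : X ⟶ Y) (F : Fam Y T) (h : F.Cov) :
    PicC.map f (F.cls h) = (F.comap f).cls (h.comap f) := by
  obtain ⟨t, ht⟩ := Classical.skolem.1 h
  rw [F.cls_eq h t ht, (F.comap f).cls_eq _ (fun x => t (f x)) (fun x => ht (f x)),
    PicC.map_mk]
  rfl

/-- criterion of triviality -/
theorem cls_eq_one (F : Fam X T) (h : F.Cov) (σ : T' → T) (O' : T' → X.Opens)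
    (hO : ∀ t, O' t ≤ F.O (σ t)) (h' : ∀ x, ∃ t, x ∈ O' t) (f : ∀ t : T', Γ(X, O' t)ˣ)
    (hf : ∀ (s t : T') (W : X.Opens) (hs : W ≤ O' s) (ht : W ≤ O' t),
      F.g (σ s) (σ t) W (hs.trans (hO s)) (ht.trans (hO t)) = (ru hs (f s))⁻¹ * ru ht (f t)) :
    F.cls h = 1 := by
  rw [← F.cls_comp h σ O' hO h']
  obtain ⟨t, ht⟩ := Classical.skolem.1 h'
  rw [(F.comp σ O' hO).cls_eq h' t ht]
  refine PicC.mk_eq_one.2 ⟨fun x => f (t x), fun x y V hx hy => ?_⟩
  rw [coc_gg]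
  exact hf _ _ _ _ _

/-- the converse -/
theorem exists_of_cls_eq_one (F : Fam X T) (h : F.Cov) (h1 : F.cls h = 1) :
    ∃ f : ∀ t, Γ(X, F.O t)ˣ, ∀ (s t : T) (W : X.Opens) (hs : W ≤ F.O s) (ht : W ≤ F.O t),
      F.g s t W hs ht = (ru hs (f s))⁻¹ * ru ht (f t) := by
  obtain ⟨t, ht⟩ := Classical.skolem.1 h
  have h2 := (PicC.ofCover_eq_one_iff F.O h (fun i j => F.g i j _ inf_le_left inf_le_right)
    (fun i j k W hi hj hk => by rw [F.res, F.res, F.res]; exact F.mul _ _ _ _ _ _ _)).1 (by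
      rw [← h1, F.cls_eq h t ht, ← PicC.mk_ofCover _ _ _ _ t ht]
      rfl)
  obtain ⟨f, hf⟩ := h2
  refine ⟨f, fun s t W hs ht => ?_⟩
  rw [← hf s t W hs ht, F.res]

/-- comparison with the class of a cocycle on a cover -/
theorem cls_eq_ofCover (F : Fam X T) (h : F.Cov) (σ : T' → T) (V : T' → X.Opens)
    (hV : ∀ x, ∃ i, x ∈ V i) (g : ∀ i j, Γ(X, V i ⊓ V j)ˣ)
    (hg : ∀ (i j k : T') (W : X.Opens) (hi : W ≤ V i) (hj : W ≤ V j) (hk : W ≤ V k),
      ru (le_inf hi hj) (g i j) * ru (le_inf hj hk) (g j k) = ru (le_inf hi hk) (g i k))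
    (hO : ∀ t, V t ≤ F.O (σ t))
    (hF : ∀ i j, F.g (σ i) (σ j) (V i ⊓ V j) (inf_le_left.trans (hO i))
      (inf_le_right.trans (hO j)) = g i j) : F.cls h = PicC.ofCover V hV g hg := by
  rw [← F.cls_comp h σ V hO hV]
  obtain ⟨t, ht⟩ := Classical.skolem.1 hV
  rw [(F.comp σ V hO).cls_eq hV t ht, ← PicC.mk_ofCover _ _ _ _ t ht, PicC.mk_eq_mk]
  refine ⟨fun x => V (t x), ht, fun x => le_rfl, fun x => le_rfl, fun x => 1,
    fun x y V hx hy => ?_⟩
  rw [map_one, map_one, inv_one, one_mul, mul_one, coc_gg, Coc.ofCover_gg, ← hF, F.res]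
  rfl

end Fam

end Fermat.Agent.J25
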