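import Mathlib
import Fermat.Agent.J25.Fam
import Fermat.Agent.J25.Laur

/-!
# The line bundle attached to an invertible module of Laurent series
-/

set_option autoImplicit false

universe u v w

open CategoryTheory CategoryTheory.Limits AlgebraicGeometry TopologicalSpace Opposite

noncomputable section

namespace Fermat.Agent.J25

attribute [-instance] HahnSeries.powerSeriesAlgebra

variable {R : Type u} [CommRing R] {L : Type u} [CommRing L] [Algebra R L] (AR : Subalgebra R L)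

/-- A scheme with an open subset on which the elements of `AR` are functions. -/
structure GX (X : Scheme.{u}) where
  U : X.Opens
  α : AR →+* Γ(X, U)

variable {AR} {X : Scheme.{u}} (γ : GX AR X)

/-- A local generator `m` of the invertible module `M` (with inverse `n`). If `inf` the generator is
`1`. -/
structure Frm (M : (Submodule AR L)ˣ) where
  c : AR
  m : L
  n : L
  f : AR
  O : X.Opens
  inf : Prop
  hf : (f : L) = m * n
  hm : (c : L) * m ∈ (M : Submodule AR L)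
  hn : (c : L) * n ∈ ((M⁻¹ : (Submodule AR L)ˣ) : Submodule AR L)
  hc : ∀ (W : X.Opens), W ≤ O → ∀ h : W ≤ γ.U, IsUnit (rs h (γ.α c))
  hfu : ∀ (W : X.Opens), W ≤ O → ∀ h : W ≤ γ.U, IsUnit (rs h (γ.α f))
  fin : ¬ inf → O ≤ γ.U
  one : inf → m = 1 ∧ n = 1

variable {γ}

namespace Frm

variable {M N : (Submodule AR L)ˣ}

theorem mem_AR_of {M : (Submodule AR L)ˣ} {x y : L} (hx : x ∈ (M : Submodule AR L))
    (hy : y ∈ ((M⁻¹ : (Submodule AR L)ˣ) : Submodule AR L)) : ∃ r : AR, (r : L) = y * x := by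
  have h1 : y * x ∈ ((M⁻¹ : (Submodule AR L)ˣ) : Submodule AR L) * (M : Submodule AR L) :=
    Submodule.mul_mem_mul hy hx
  rw [Units.inv_mul, Submodule.mem_one] at h1
  exact h1

/-- the transition function, scaled -/
def tr (s t : Frm γ M) : AR := (mem_AR_of t.hm s.hn).choose

theorem tr_coe (s t : Frm γ M) : (s.tr t : L) = (s.c * s.n) * (t.c * t.m) :=
  (mem_AR_of t.hm s.hn).choose_spec

theorem tr_mul_tr (s t r : Frm γ M) : s.tr t * t.tr r = t.c * t.c * t.f * s.tr r := by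
  apply Subtype.ext
  push_cast
  rw [tr_coe, tr_coe, tr_coe, t.hf]
  ring

theorem tr_self (s : Frm γ M) : s.tr s = s.c * s.c * s.f := by
  apply Subtype.ext
  push_cast
  rw [tr_coe, s.hf]
  ring

/-- the denominator -/
def dn (s : Frm γ M) {W : X.Opens} (h : W ≤ s.O) (h' : W ≤ γ.U) : Γ(X, W)ˣ :=
  (s.hc W h h').unit

theorem coe_dn (s : Frm γ M) {W : X.Opens} (h : W ≤ s.O) (h' : W ≤ γ.U) :
    (s.dn h h' : Γ(X, W)) = rs h' (γ.α s.c) := rfl

/-- the second denominator -/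
def fn (s : Frm γ M) {W : X.Opens} (h : W ≤ s.O) (h' : W ≤ γ.U) : Γ(X, W)ˣ :=
  (s.hfu W h h').unit

theorem coe_fn (s : Frm γ M) {W : X.Opens} (h : W ≤ s.O) (h' : W ≤ γ.U) :
    (s.fn h h' : Γ(X, W)) = rs h' (γ.α s.f) := rfl

theorem isUnit_tr (s t : Frm γ M) {W : X.Opens} (hs : W ≤ s.O) (ht : W ≤ t.O) (h' : W ≤ γ.U) :
    IsUnit (rs h' (γ.α (s.tr t))) := by
  have h1 := congrArg (fun y => rs h' (γ.α y)) (tr_mul_tr s t s)
  simp only [map_mul, tr_self] at h1
  refine isUnit_of_mul_isUnit_left (y := rs h' (γ.α (t.tr s))) ?_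
  rw [h1]
  exact ((((t.hc W ht h').mul (t.hc W ht h')).mul (t.hfu W ht h'))).mul
    (((s.hc W hs h').mul (s.hc W hs h')).mul (s.hfu W hs h'))

/-- the transition function on an open of `U` -/
def gU (s t : Frm γ M) {W : X.Opens} (hs : W ≤ s.O) (ht : W ≤ t.O) (h' : W ≤ γ.U) : Γ(X, W)ˣ :=
  (isUnit_tr s t hs ht h').unit * (s.dn hs h')⁻¹ * (t.dn ht h')⁻¹ * (s.fn hs h')⁻¹

theorem gU_spec (s t : Frm γ M) {W : X.Opens} (hs : W ≤ s.O) (ht : W ≤ t.O) (h' : W ≤ γ.U)
    (y : Γ(X, W)ˣ) : s.gU t hs ht h' = y ↔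
      rs h' (γ.α (s.tr t)) = y * rs h' (γ.α s.c) * rs h' (γ.α t.c) * rs h' (γ.α s.f) := by
  rw [gU, ← coe_dn s hs h', ← coe_dn t ht h', ← coe_fn s hs h', mul_inv_eq_iff_eq_mul,
    mul_inv_eq_iff_eq_mul, mul_inv_eq_iff_eq_mul, Units.ext_iff]
  push_cast
  rw [IsUnit.unit_spec, mul_right_comm (y : Γ(X, W)), mul_right_comm (y * _ : Γ(X, W)),
    mul_right_comm (y : Γ(X, W))]

theorem gU_eq (s t : Frm γ M) {W : X.Opens} (hs : W ≤ s.O) (ht : W ≤ t.O) (h' : W ≤ γ.U) :
    rs h' (γ.α (s.tr t)) =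
      (s.gU t hs ht h' : Γ(X, W)) * rs h' (γ.α s.c) * rs h' (γ.α t.c) * rs h' (γ.α s.f) :=
  (gU_spec s t hs ht h' _).1 rfl

theorem gU_mul (s t r : Frm γ M) {W : X.Opens} (hs : W ≤ s.O) (ht : W ≤ t.O) (hr : W ≤ r.O)
    (h' : W ≤ γ.U) : s.gU t hs ht h' * t.gU r ht hr h' = s.gU r hs hr h' := by
  symm
  rw [gU_spec]
  apply ((((t.hc W ht h').mul (t.hc W ht h')).mul (t.hfu W ht h'))).mul_left_cancel
  have h1 := congrArg (fun y => rs h' (γ.α y)) (tr_mul_tr s t r)
  simp only [map_mul] at h1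
  rw [← h1, gU_eq s t hs ht h', gU_eq t r ht hr h']
  push_cast
  ring

theorem ru_gU (s t : Frm γ M) {W W' : X.Opens} (hs : W ≤ s.O) (ht : W ≤ t.O) (h' : W ≤ γ.U)
    (h : W' ≤ W) : ru h (s.gU t hs ht h') = s.gU t (h.trans hs) (h.trans ht) (h.trans h') := by
  symm
  rw [gU_spec]
  have h1 := congrArg (rs h) (gU_eq s t hs ht h')
  simp only [map_mul, rs_rs] at h1
  exact h1

theorem gU_inf (s t : Frm γ M) {W : X.Opens} (hs : W ≤ s.O) (ht : W ≤ t.O) (h' : W ≤ γ.U)
    (hi : s.inf) (hi' : t.inf) : s.gU t hs ht h' = 1 := by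
  rw [gU_spec, Units.val_one, one_mul]
  rw [← map_mul, ← map_mul, ← map_mul, ← map_mul]
  congr 2
  apply Subtype.ext
  push_cast
  rw [tr_coe, s.hf, (s.one hi).1, (s.one hi).2, (t.one hi').1]
  ring

open scoped Classical in
/-- the transition units -/
def g (s t : Frm γ M) (W : X.Opens) (hs : W ≤ s.O) (ht : W ≤ t.O) : Γ(X, W)ˣ :=
  if h : s.inf ∧ t.inf then 1 else s.gU t hs ht (by
    rw [not_and_or] at h
    rcases h with h | h
    · exact hs.trans (s.fin h)
    · exact ht.trans (t.fin h))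

theorem g_of_inf (s t : Frm γ M) {W : X.Opens} (hs : W ≤ s.O) (ht : W ≤ t.O) (h : s.inf)
    (h' : t.inf) : s.g t W hs ht = 1 := by
  rw [g, dif_pos ⟨h, h'⟩]

theorem g_eq_gU (s t : Frm γ M) {W : X.Opens} (hs : W ≤ s.O) (ht : W ≤ t.O) (h' : W ≤ γ.U) :
    s.g t W hs ht = s.gU t hs ht h' := by
  rw [g]
  split_ifs with h
  · exact (s.gU_inf t hs ht h' h.1 h.2).symm
  · rfl

variable (γ M) in
/-- the canonical family of transition units -/
def fam : Fam X (Frm γ M) where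
  O := Frm.O
  g := Frm.g
  res s t W W' hs ht h := by
    by_cases hi : s.inf ∧ t.inf
    · rw [g_of_inf s t hs ht hi.1 hi.2, g_of_inf s t _ _ hi.1 hi.2, map_one]
    · have h' : W ≤ γ.U := by
        rw [not_and_or] at hi
        rcases hi with hi | hi
        · exact hs.trans (s.fin hi)
        · exact ht.trans (t.fin hi)
      rw [g_eq_gU s t hs ht h', g_eq_gU s t _ _ (h.trans h'), ru_gU]
  mul s t r W hs ht hr := by
    by_cases hi : s.inf ∧ t.inf ∧ r.inf
    · rw [g_of_inf s t hs ht hi.1 hi.2.1, g_of_inf t r ht hr hi.2.1 hi.2.2,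
        g_of_inf s r hs hr hi.1 hi.2.2, one_mul]
    · have h' : W ≤ γ.U := by
        rw [not_and_or, not_and_or] at hi
        rcases hi with hi | hi | hi
        · exact hs.trans (s.fin hi)
        · exact ht.trans (t.fin hi)
        · exact hr.trans (r.fin hi)
      rw [g_eq_gU s t hs ht h', g_eq_gU t r ht hr h', g_eq_gU s r hs hr h', gU_mul]

end Frm

end Fermat.Agent.J25
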