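import Mathlib
import Fermat.Agent.J25.Frm
import Fermat.Agent.J25.FamMul

/-!
# Products and pullbacks of frames
-/

set_option autoImplicit false

universe u v w

open CategoryTheory CategoryTheory.Limits AlgebraicGeometry TopologicalSpace Opposite

noncomputable section

namespace Fermat.Agent.J25

attribute [-instance] HahnSeries.powerSeriesAlgebra

section prod

variable {R : Type u} [CommRing R] {L : Type u} [CommRing L] [Algebra R L] {AR : Subalgebra R L}
  {X : Scheme.{u}} {γ : GX AR X}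

namespace Frm

variable {M N : (Submodule AR L)ˣ}

/-- two frames have the transition unit `g`, in terms of elements of the inverse module -/
theorem g_spec (s t : Frm γ M) {W : X.Opens} (hs : W ≤ s.O) (ht : W ≤ t.O) (h' : W ≤ γ.U)
    {n : L} {x y : AR}
    (hx : (x : L) = s.c * s.m * n) (hy : (y : L) = t.c * t.m * n) :
    (s.g t W hs ht : Γ(X, W)) * rs h' (γ.α t.c) * rs h' (γ.α x) =
      rs h' (γ.α s.c) * rs h' (γ.α y) := by
  rw [g_eq_gU s t hs ht h']
  have h1 := gU_eq s t hs ht h'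
  have e : s.tr t * x = s.c * s.c * s.f * y := by
    apply Subtype.ext
    push_cast
    rw [tr_coe, hx, hy, s.hf]
    ring
  have e' := congrArg (fun z => rs h' (γ.α z)) e
  simp only [map_mul] at e'
  apply ((s.hc W hs h').mul (s.hfu W hs h')).mul_left_cancel
  calc rs h' (γ.α s.c) * rs h' (γ.α s.f) * ((s.gU t hs ht h' : Γ(X, W)) * rs h' (γ.α t.c) *
      rs h' (γ.α x)) = ((s.gU t hs ht h' : Γ(X, W)) * rs h' (γ.α s.c) * rs h' (γ.α t.c) *
        rs h' (γ.α s.f)) * rs h' (γ.α x) := by ring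
    _ = _ := by rw [← h1, e']; ring

/-- the product of two frames -/
def prod (s : Frm γ M) (t : Frm γ N) : Frm γ (M * N) where
  c := s.c * t.c
  m := s.m * t.m
  n := s.n * t.n
  f := s.f * t.f
  O := s.O ⊓ t.O
  inf := s.inf ∧ t.inf
  hf := by
    push_cast
    rw [s.hf, t.hf]
    ring
  hm := by
    have h := Submodule.mul_mem_mul s.hm t.hm
    rw [Units.val_mul]
    convert h using 1
    push_cast
    ring
  hn := by
    have h := Submodule.mul_mem_mul t.hn s.hn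
    rw [mul_inv_rev, Units.val_mul]
    convert h using 1
    push_cast
    ring
  hc W hW h := by
    rw [map_mul, map_mul]
    exact (s.hc W (hW.trans inf_le_left) h).mul (t.hc W (hW.trans inf_le_right) h)
  hfu W hW h := by
    rw [map_mul, map_mul]
    exact (s.hfu W (hW.trans inf_le_left) h).mul (t.hfu W (hW.trans inf_le_right) h)
  fin h := by
    rw [not_and_or] at h
    rcases h with h | h
    · exact inf_le_left.trans (s.fin h)
    · exact inf_le_right.trans (t.fin h)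
  one h := by
    rw [(s.one h.1).1, (s.one h.1).2, (t.one h.2).1, (t.one h.2).2, one_mul]
    exact ⟨rfl, rfl⟩

theorem tr_prod (s s' : Frm γ M) (t t' : Frm γ N) :
    (s.prod t).tr (s'.prod t') = s.tr s' * t.tr t' := by
  apply Subtype.ext
  rw [Subalgebra.coe_mul, tr_coe, tr_coe, tr_coe]
  change ((s.c * t.c : AR) : L) * (s.n * t.n) * (((s'.c * t'.c : AR) : L) * (s'.m * t'.m)) = _
  push_cast
  ring

theorem gU_prod (s s' : Frm γ M) (t t' : Frm γ N) {W : X.Opens} (hs : W ≤ (s.prod t).O)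
    (ht : W ≤ (s'.prod t').O) (h' : W ≤ γ.U) : (s.prod t).gU (s'.prod t') hs ht h' =
      s.gU s' (hs.trans inf_le_left) (ht.trans inf_le_left) h' *
        t.gU t' (hs.trans inf_le_right) (ht.trans inf_le_right) h' := by
  rw [gU_spec, tr_prod, map_mul, map_mul,
    gU_eq s s' (hs.trans inf_le_left) (ht.trans inf_le_left) h',
    gU_eq t t' (hs.trans inf_le_right) (ht.trans inf_le_right) h']
  change _ = ((_ * _ : Γ(X, W)ˣ) : Γ(X, W)) * rs h' (γ.α (s.c * t.c)) *
    rs h' (γ.α (s'.c * t'.c)) * rs h' (γ.α (s.f * t.f))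
  rw [map_mul, map_mul, map_mul, map_mul, map_mul, map_mul, Units.val_mul]
  ring

theorem g_prod (s s' : Frm γ M) (t t' : Frm γ N) (W : X.Opens) (hs : W ≤ (s.prod t).O)
    (ht : W ≤ (s'.prod t').O) : (s.prod t).g (s'.prod t') W hs ht =
      s.g s' W (hs.trans inf_le_left) (ht.trans inf_le_left) *
        t.g t' W (hs.trans inf_le_right) (ht.trans inf_le_right) := by
  by_cases hi : (s.prod t).inf ∧ (s'.prod t').inf
  · rw [g_of_inf _ _ _ _ hi.1 hi.2, g_of_inf _ _ _ _ hi.1.1 hi.2.1,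
      g_of_inf _ _ _ _ hi.1.2 hi.2.2, one_mul]
  · have h' : W ≤ γ.U := by
      rw [not_and_or] at hi
      rcases hi with hi | hi
      · exact hs.trans ((s.prod t).fin hi)
      · exact ht.trans ((s'.prod t').fin hi)
    rw [g_eq_gU _ _ _ _ h', g_eq_gU _ _ _ _ h', g_eq_gU _ _ _ _ h', gU_prod]

theorem cls_mul (hM : (fam γ M).Cov) (hN : (fam γ N).Cov) (h : (fam γ (M * N)).Cov) :
    (fam γ (M * N)).cls h = (fam γ M).cls hM * (fam γ N).cls hN := by
  rw [← Fam.cls_prod]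
  refine (Fam.cls_eq_of_map _ _ (fun t : Frm γ M × Frm γ N => t.1.prod t.2)
    (fun t => le_rfl) fun s t W hs ht => ?_).symm
  exact (g_prod s.1 t.1 s.2 t.2 W hs ht).symm

/-- a frame at infinity which contains the image of `σ` trivialises the pullback -/
theorem map_cls_eq_one {Y : Scheme.{u}} (σ : Y ⟶ X) (h : (fam γ M).Cov) (s : Frm γ M)
    (hs : ⊤ ≤ σ ⁻¹ᵁ s.O) : PicC.map σ ((fam γ M).cls h) = 1 := by
  rw [Fam.map_cls]
  refine Fam.cls_eq_one _ _ (fun _ : Unit => s) (fun _ => ⊤) (fun _ => hs)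
    (fun x => ⟨(), trivial⟩) (fun _ => 1) fun _ _ W _ _ => ?_
  rw [Fam.g_self]
  simp

/-- a principal module given by a unit at infinity has trivial class -/
theorem cls_eq_one (h : (fam γ M).Cov) (s t : Frm γ M) (hst : ∀ x, x ∈ s.O ∨ x ∈ t.O)
    (v : Γ(X, t.O)ˣ) (hg : s.g t (s.O ⊓ t.O) inf_le_left inf_le_right = ru inf_le_right v) :
    (fam γ M).cls h = 1 := by
  refine Fam.cls_eq_one _ _ (fun b : Bool => if b then s else t)
    (fun b => (if b then s else t).O) (fun _ => le_rfl) (fun x => ?_)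
    (fun b => match b with
      | true => 1
      | false => v) fun b b' W hb hb' => ?_
  · rcases hst x with h | h
    · exact ⟨true, h⟩
    · exact ⟨false, h⟩
  · match b, b' with
    | true, true =>
      rw [Fam.g_self]
      simp
    | false, false =>
      rw [Fam.g_self]
      simp
    | true, false =>
      have h1 := congrArg (ru (le_inf hb hb' : W ≤ s.O ⊓ t.O)) hg
      rw [ru_ru] at h1
      have h2 : ru hb (1 : Γ(X, s.O)ˣ) = 1 := map_one _
      change s.g t W hb hb' = (ru hb (1 : Γ(X, s.O)ˣ))⁻¹ * ru hb' v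
      rw [h2, inv_one, one_mul]
      exact ((fam γ M).res s t _ _ inf_le_left inf_le_right _).symm.trans h1
    | false, true =>
      have h1 := congrArg (ru (le_inf hb' hb : W ≤ s.O ⊓ t.O)) hg
      rw [ru_ru] at h1
      have h2 : ru hb' (1 : Γ(X, s.O)ˣ) = 1 := map_one _
      change t.g s W hb hb' = (ru hb v)⁻¹ * (ru hb' (1 : Γ(X, s.O)ˣ))
      rw [h2, mul_one, ← h1]
      refine ((fam γ M).g_inv s t W hb' hb).symm.trans ?_
      congr 1
      exact ((fam γ M).res s t _ _ inf_le_left inf_le_right _).symm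

end Frm

end prod

section map

variable {R : Type u} [CommRing R] {L : Type u} [CommRing L] [Algebra R L] {AR : Subalgebra R L}
  {X : Scheme.{u}} {γ : GX AR X} {R' : Type u} [CommRing R'] {L' : Type u} [CommRing L']
  [Algebra R' L'] {AR' : Subalgebra R' L'} {X' : Scheme.{u}} {γ' : GX AR' X'}

/-- morphisms of data -/
structure GXHom (γ : GX AR X) (γ' : GX AR' X') where
  f : X' ⟶ X
  φ : AR →+* AR'
  ψ : L →+* L'
  hφ : ∀ x : AR, (φ x : L') = ψ x
  hU : γ'.U = f ⁻¹ᵁ γ.U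
  hα : ∀ x : AR, pb f hU.le (γ.α x) = γ'.α (φ x)

variable (F : GXHom γ γ') {M : (Submodule AR L)ˣ} {M' : (Submodule AR' L')ˣ}

theorem GXHom.pb_rs (x : AR) {W : X.Opens} {W' : X'.Opens} (h : W ≤ γ.U)
    (h1 : W' ≤ F.f ⁻¹ᵁ W) (h2 : W' ≤ γ'.U) :
    pb F.f h1 (rs h (γ.α x)) = rs h2 (γ'.α (F.φ x)) := by
  rw [← F.hα, rs_pb, J25.pb_rs]

/-- the image of a frame -/
def Frm.map (h1 : ∀ x ∈ (M : Submodule AR L), F.ψ x ∈ (M' : Submodule AR' L'))
    (h2 : ∀ x ∈ ((M⁻¹ : (Submodule AR L)ˣ) : Submodule AR L),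
      F.ψ x ∈ ((M'⁻¹ : (Submodule AR' L')ˣ) : Submodule AR' L')) (s : Frm γ M) : Frm γ' M' where
  c := F.φ s.c
  m := F.ψ s.m
  n := F.ψ s.n
  f := F.φ s.f
  O := F.f ⁻¹ᵁ s.O
  inf := s.inf
  hf := by rw [F.hφ, s.hf, map_mul]
  hm := by
    rw [F.hφ, ← map_mul]
    exact h1 _ s.hm
  hn := by
    rw [F.hφ, ← map_mul]
    exact h2 _ s.hn
  hc W hW h := by
    have h3 : W ≤ F.f ⁻¹ᵁ (s.O ⊓ γ.U) := le_inf hW (h.trans F.hU.le)
    have h4 := (s.hc (s.O ⊓ γ.U) inf_le_left inf_le_right).map (pb F.f h3)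
    rwa [F.pb_rs s.c inf_le_right h3 h] at h4
  hfu W hW h := by
    have h3 : W ≤ F.f ⁻¹ᵁ (s.O ⊓ γ.U) := le_inf hW (h.trans F.hU.le)
    have h4 := (s.hfu (s.O ⊓ γ.U) inf_le_left inf_le_right).map (pb F.f h3)
    rwa [F.pb_rs s.f inf_le_right h3 h] at h4
  fin h := by
    rw [F.hU]
    exact Scheme.Hom.preimage_mono F.f (s.fin h)
  one h := by rw [(s.one h).1, (s.one h).2, map_one]; exact ⟨rfl, rfl⟩

variable (h1 : ∀ x ∈ (M : Submodule AR L), F.ψ x ∈ (M' : Submodule AR' L'))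
  (h2 : ∀ x ∈ ((M⁻¹ : (Submodule AR L)ˣ) : Submodule AR L),
    F.ψ x ∈ ((M'⁻¹ : (Submodule AR' L')ˣ) : Submodule AR' L'))

theorem Frm.tr_map (s t : Frm γ M) :
    (s.map F h1 h2).tr (t.map F h1 h2) = F.φ (s.tr t) := by
  apply Subtype.ext
  rw [tr_coe, F.hφ, tr_coe]
  change ((F.φ s.c : L') * F.ψ s.n) * ((F.φ t.c : L') * F.ψ t.m) = _
  rw [F.hφ, F.hφ, ← map_mul, ← map_mul, ← map_mul]

theorem Frm.g_map (s t : Frm γ M) (W : X'.Opens) (hs : W ≤ (s.map F h1 h2).O)
    (ht : W ≤ (t.map F h1 h2).O) : ((fam γ M).comap F.f).g s t W hs ht =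
      (s.map F h1 h2).g (t.map F h1 h2) W hs ht := by
  by_cases hi : s.inf ∧ t.inf
  · rw [g_of_inf (s.map F h1 h2) (t.map F h1 h2) hs ht hi.1 hi.2,
      Fam.comap_g F.f (fam γ M) s t W (s.O ⊓ t.O) hs ht (le_inf hs ht) inf_le_left inf_le_right]
    change pu F.f _ (s.g t (s.O ⊓ t.O) inf_le_left inf_le_right) = 1
    rw [g_of_inf s t _ _ hi.1 hi.2, map_one]
  · have h' : W ≤ γ'.U := by
      rw [not_and_or] at hi
      rcases hi with hi | hi
      · exact hs.trans ((s.map F h1 h2).fin hi)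
      · exact ht.trans ((t.map F h1 h2).fin hi)
    have h3 : W ≤ F.f ⁻¹ᵁ (s.O ⊓ t.O ⊓ γ.U) := le_inf (le_inf hs ht) (h'.trans F.hU.le)
    rw [g_eq_gU _ _ _ _ h', Fam.comap_g F.f (fam γ M) s t W (s.O ⊓ t.O ⊓ γ.U) hs ht h3
      (inf_le_left.trans inf_le_left) (inf_le_left.trans inf_le_right)]
    change pu F.f _ (s.g t (s.O ⊓ t.O ⊓ γ.U) _ _) = _
    rw [g_eq_gU s t _ _ inf_le_right]
    symm
    rw [gU_spec, tr_map]
    change rs h' (γ'.α (F.φ (s.tr t))) = _ * rs h' (γ'.α (F.φ s.c)) * rs h' (γ'.α (F.φ t.c)) *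
      rs h' (γ'.α (F.φ s.f))
    rw [← F.pb_rs _ inf_le_right h3 h', ← F.pb_rs _ inf_le_right h3 h',
      ← F.pb_rs _ inf_le_right h3 h', ← F.pb_rs _ inf_le_right h3 h',
      gU_eq s t (inf_le_left.trans inf_le_left) (inf_le_left.trans inf_le_right) inf_le_right,
      map_mul, map_mul, map_mul]
    rfl

include h1 h2 in
/-- base change -/
theorem Frm.map_cls (h : (fam γ M).Cov) (h' : (fam γ' M').Cov) :
    PicC.map F.f ((fam γ M).cls h) = (fam γ' M').cls h' := by
  rw [Fam.map_cls]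
  exact Fam.cls_eq_of_map _ _ (Frm.map F h1 h2) (fun t => le_rfl) fun s t W hs ht =>
    Frm.g_map F h1 h2 s t W hs ht

end map

end Fermat.Agent.J25
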