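import Mathlib
import Fermat.Agent.J25.XDE

/-!
# Denominators of the sections on punctured neighbourhoods of infinity
-/

set_option autoImplicit false
set_option linter.unusedSectionVars false

universe u

open CategoryTheory CategoryTheory.Limits AlgebraicGeometry TopologicalSpace Opposite Polynomial

noncomputable section

namespace Fermat.Agent.J25

attribute [-instance] HahnSeries.powerSeriesAlgebra

namespace XD

variable {R : Type u} [CommRing R] {S : Subalgebra R (LaurentSeries R)} {α : LaurentSeries R}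
  {X : Scheme.{u}} (D : XD R S α X)

theorem exU_a : D.exU D.a = α := D.hα

theorem algebraMap_eq_C (r : R) :
    algebraMap R (LaurentSeries R) r = (HahnSeries.C r : LaurentSeries R) := rfl

theorem exU_pa (P : R[X]) : D.exU (D.pa P) = aeval α P := by
  have h : D.exU.comp D.pa = (aeval α : R[X] →ₐ[R] LaurentSeries R).toRingHom := by
    apply Polynomial.ringHom_ext
    · intro r
      rw [RingHom.comp_apply, pa_C, D.exU_cst]
      change _ = aeval α (C r)
      rw [aeval_C]
      rfl
    · rw [RingHom.comp_apply, pa_X, D.exU_a]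
      change _ = aeval α (Polynomial.X : R[X])
      rw [aeval_X]
  exact congrArg (fun f => f P) h

theorem mem_S (f : LaurentSeries R) : f ∈ S ↔ ∃ x : Γ(X, D.U), D.exU x = f := D.hS f

/-- the relation between polynomials in `w` and in `a` -/
theorem rs_pa_reverse (p : R[X]) :
    rs (inf_le_left : D.U ⊓ D.V ≤ D.U) (D.pa p.reverse) =
      rs (inf_le_right : D.U ⊓ D.V ≤ D.V) (D.pw p) *
        rs (inf_le_left : D.U ⊓ D.V ≤ D.U) D.a ^ p.natDegree := by
  have h1 : D.exU (D.pa p.reverse) = D.eV (D.pw p) * D.exU D.a ^ p.natDegree := by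
    have haw : D.exU D.a * D.eV D.w = 1 := by
      change D.ex _ * D.ex _ = 1
      rw [← map_mul, D.haw, map_one]
    letI : Invertible (D.eV D.w) := ⟨D.exU D.a, haw, by rw [mul_comm]; exact haw⟩
    have h2 : ⅟(D.eV D.w) = D.exU D.a := rfl
    have h3 := eval₂_reverse_mul_pow (HahnSeries.C : R →+* LaurentSeries R) (D.eV D.w) p
    have h4 : ∀ q : R[X], D.exU (D.pa q) =
        eval₂ (HahnSeries.C : R →+* LaurentSeries R) (D.exU D.a) q := by
      intro q
      rw [D.exU_pa, aeval_def, D.exU_a]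
      rfl
    have h5 : D.eV (D.pw p) = eval₂ (HahnSeries.C : R →+* LaurentSeries R) (D.eV D.w) p := by
      have h : D.eV.comp D.pw = eval₂RingHom (HahnSeries.C : R →+* LaurentSeries R) (D.eV D.w) := by
        apply Polynomial.ringHom_ext
        · intro r
          rw [RingHom.comp_apply, pw_C, D.eV_cst]
          exact (eval₂_C _ _).symm
        · rw [RingHom.comp_apply, pw_X]
          exact (eval₂_X _ _).symm
      exact congrArg (fun f => f p) h
    rw [h4, h5, ← h3, h2, mul_assoc, ← mul_pow, mul_comm (D.eV D.w), haw, one_pow, mul_one]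
  apply D.ex_injective
  rw [map_mul, map_pow]
  exact h1

/-- **denominators** -/
theorem exists_denom {p : R[X]} (hp : p.coeff 0 = 1) (x : Γ(X, D.UW p)) :
    ∃ (P : R[X]) (y : Γ(X, D.U)), P.Monic ∧ rs (D.UW_le_U p) y = rs (D.UW_le_U p) (D.pa P) * x := by
  obtain ⟨n, y, hy⟩ := D.exists_UW x
  obtain ⟨m, z, hz⟩ := exists_pow_mul D.hU D.a (inf_le_left : D.U ⊓ D.V ≤ D.U) D.ha.symm y
  refine ⟨Polynomial.X ^ m * p.reverse ^ n, D.a ^ (p.natDegree * n) * z, ?_, ?_⟩
  · refine (monic_X_pow m).mul (Monic.pow ?_ n)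
    rcases subsingleton_or_nontrivial R with h | h
    · exact monic_of_subsingleton _
    · rw [Monic, reverse_leadingCoeff, trailingCoeff]
      have : p.natTrailingDegree = 0 := by
        refine natTrailingDegree_eq_zero.mpr (Or.inr ?_)
        rw [hp]
        exact one_ne_zero
      rw [this, hp]
  · have h1 := congrArg (rs (D.UW_le p)) (D.rs_pa_reverse p)
    have h2 := congrArg (rs (D.UW_le p)) hz
    rw [map_mul, map_pow, rs_rs, rs_rs, rs_rs] at h1
    rw [map_mul, map_pow, rs_rs, rs_rs, hy] at h2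
    rw [map_mul, map_pow, map_mul, map_mul, map_pow, map_pow, map_pow, map_pow, pa_X, h2, h1]
    ring

theorem reverse_monic {p : R[X]} (hp : p.coeff 0 = 1) : p.reverse.Monic := by
  rcases subsingleton_or_nontrivial R with h | h
  · exact monic_of_subsingleton _
  · rw [Monic, reverse_leadingCoeff, trailingCoeff]
    have : p.natTrailingDegree = 0 := by
      refine natTrailingDegree_eq_zero.mpr (Or.inr ?_)
      rw [hp]
      exact one_ne_zero
    rw [this, hp]

/-- the punctured neighbourhood is a basic open of `U` -/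
theorem UW_eq_U {p : R[X]} : D.UW p = X.basicOpen (D.pa (Polynomial.X * p.reverse)) := by
  rw [map_mul, Scheme.basicOpen_mul, pa_X, D.ha, D.UW_eq]
  have h1 : X.basicOpen (rs (inf_le_left : D.U ⊓ D.V ≤ D.U) (D.pa p.reverse)) =
      X.basicOpen (rs (inf_le_right : D.U ⊓ D.V ≤ D.V) (D.pw p)) := by
    rw [D.rs_pa_reverse, Scheme.basicOpen_mul]
    apply inf_eq_left.mpr
    refine (X.basicOpen_le _).trans (le_of_eq ?_)
    symm
    refine Scheme.basicOpen_of_isUnit _ ?_
    exact (IsUnit.of_mul_eq_one _ D.haw).pow _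
  rw [← h1, basicOpen_rs]

theorem exa_mul_ew : D.exU D.a * D.eV D.w = 1 := by
  change D.ex _ * D.ex _ = 1
  rw [← map_mul, D.haw, map_one]

theorem exU_pa_eq (q : R[X]) : D.exU (D.pa q) =
    eval₂ (HahnSeries.C : R →+* LaurentSeries R) (D.exU D.a) q := by
  rw [D.exU_pa, aeval_def, D.exU_a]
  rfl

theorem eV_pw_eq (q : R[X]) : D.eV (D.pw q) =
    eval₂ (HahnSeries.C : R →+* LaurentSeries R) (D.eV D.w) q := by
  have h : D.eV.comp D.pw = eval₂RingHom (HahnSeries.C : R →+* LaurentSeries R) (D.eV D.w) := by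
    apply Polynomial.ringHom_ext
    · intro r
      rw [RingHom.comp_apply, pw_C, D.eV_cst]
      exact (eval₂_C _ _).symm
    · rw [RingHom.comp_apply, pw_X]
      exact (eval₂_X _ _).symm
  exact congrArg (fun f => f q) h

theorem rs_pa (P : R[X]) :
    rs (inf_le_left : D.U ⊓ D.V ≤ D.U) (D.pa P) =
      rs (inf_le_right : D.U ⊓ D.V ≤ D.V) (D.pw P.reverse) *
        rs (inf_le_left : D.U ⊓ D.V ≤ D.U) D.a ^ P.natDegree := by
  apply D.ex_injective
  rw [map_mul, map_pow]
  change D.exU (D.pa P) = D.eV (D.pw P.reverse) * D.exU D.a ^ P.natDegree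
  letI : Invertible (D.exU D.a) := ⟨D.eV D.w, by rw [mul_comm]; exact D.exa_mul_ew, D.exa_mul_ew⟩
  have h2 : ⅟(D.exU D.a) = D.eV D.w := rfl
  rw [exU_pa_eq, eV_pw_eq, ← h2]
  exact (eval₂_reverse_mul_pow _ _ _).symm

theorem coeff_reverse {P : R[X]} (hP : P.Monic) : P.reverse.coeff 0 = 1 := by
  rw [coeff_zero_reverse]
  exact hP

theorem isUnit_exU_pa {P : R[X]} (hP : P.Monic) : IsUnit (D.exU (D.pa P)) := by
  have h1 : D.exU (D.pa P) = D.eV (D.pw P.reverse) * D.exU D.a ^ P.natDegree := by
    have := congrArg D.ex (D.rs_pa P)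
    rw [map_mul, map_pow] at this
    exact this
  rw [h1]
  exact (D.isUnit_eV_pw (coeff_reverse hP)).mul (D.isUnit_exa.pow _)

theorem pa_regular {P : R[X]} (hP : P.Monic) (x : Γ(X, D.U)) (hx : D.pa P * x = 0) : x = 0 := by
  apply D.exU_inj
  have h1 : D.exU (D.pa P) * D.exU x = 0 := by rw [← map_mul, hx, map_zero]
  exact ((D.isUnit_exU_pa hP).mul_right_eq_zero).mp h1

end XD

end Fermat.Agent.J25
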