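import Mathlib
import Fermat.Agent.J25.FrmMul
import Fermat.Agent.J25.XDF

/-!
# From invertible modules of Laurent series to classes of cocycles
-/

set_option autoImplicit false

universe u v w

open CategoryTheory CategoryTheory.Limits AlgebraicGeometry TopologicalSpace Opposite Polynomial

noncomputable section

namespace Fermat.Agent.J25

attribute [-instance] HahnSeries.powerSeriesAlgebra

/-- `M` is an invertible `S`-module in `R((z))` which is trivial on `{P(α) ≠ 0}` for some monic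
`P` -/
def GG {R : Type u} [CommRing R] (S : Subalgebra R (LaurentSeries R)) (α : LaurentSeries R)
    (M : (Submodule S (LaurentSeries R))ˣ) : Prop :=
  ∃ P : R[X], P.Monic ∧
    (∀ m ∈ (M : Submodule S (LaurentSeries R)), aeval α P * m ∈ S) ∧
    ∀ m ∈ ((M⁻¹ : (Submodule S (LaurentSeries R))ˣ) : Submodule S (LaurentSeries R)),
      aeval α P * m ∈ S

namespace XD

variable {R : Type u} [CommRing R] {S : Subalgebra R (LaurentSeries R)} {α : LaurentSeries R}
  {X : Scheme.{u}} (D : XD R S α X)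

theorem exU_mem (x : Γ(X, D.U)) : D.exU x ∈ S := (D.mem_S _).2 ⟨x, rfl⟩

/-- the function on `U` with a given expansion -/
def sec : S →+* Γ(X, D.U) :=
  (RingEquiv.ofBijective (D.exU.codRestrict S D.exU_mem)
    ⟨fun x y h => D.exU_injective (congrArg Subtype.val h), fun x => by
      obtain ⟨y, hy⟩ := (D.mem_S _).1 x.2
      exact ⟨y, Subtype.ext hy⟩⟩).symm.toRingHom

theorem exU_sec (x : S) : D.exU (D.sec x) = x :=
  congrArg Subtype.val (RingEquiv.apply_symm_apply (RingEquiv.ofBijective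
    (D.exU.codRestrict S D.exU_mem) _) x)

theorem sec_eq_iff {x : S} {y : Γ(X, D.U)} : D.sec x = y ↔ (x : LaurentSeries R) = D.exU y := by
  rw [← exU_sec]
  exact ⟨fun h => by rw [h], fun h => D.exU_injective h⟩

/-- the functions on `U` -/
def gx : GX S X := ⟨D.U, D.sec⟩

/-- the frames on `U` -/
def finF {M : (Submodule S (LaurentSeries R))ˣ} (m n : LaurentSeries R)
    (hm : m ∈ (M : Submodule S (LaurentSeries R)))
    (hn : n ∈ ((M⁻¹ : (Submodule S (LaurentSeries R))ˣ) : Submodule S (LaurentSeries R)))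
    (f : S) (hf : (f : LaurentSeries R) = m * n) : Frm D.gx M where
  c := 1
  m := m
  n := n
  f := f
  O := X.basicOpen (D.sec f)
  inf := False
  hf := hf
  hm := by rw [OneMemClass.coe_one, one_mul]; exact hm
  hn := by rw [OneMemClass.coe_one, one_mul]; exact hn
  hc W hW h := by rw [map_one, map_one]; exact isUnit_one
  hfu W hW h := by
    have h1 : IsUnit (rs (X.basicOpen_le (D.sec f)) (D.sec f)) :=
      X.toRingedSpace.isUnit_res_basicOpen (D.sec f)
    have h2 := h1.map (rs hW)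
    rwa [rs_rs] at h2
  fin _ := X.basicOpen_le _
  one h := h.elim

/-- the frames at infinity -/
def infF {M : (Submodule S (LaurentSeries R))ˣ} (P : R[X]) (c : S)
    (hc : (c : LaurentSeries R) = aeval α P)
    (hm : aeval α P ∈ (M : Submodule S (LaurentSeries R)))
    (hn : aeval α P ∈ ((M⁻¹ : (Submodule S (LaurentSeries R))ˣ) :
      Submodule S (LaurentSeries R))) : Frm D.gx M where
  c := c
  m := 1
  n := 1
  f := 1
  O := D.W P.reverse
  inf := True
  hf := by rw [OneMemClass.coe_one, one_mul]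
  hm := by rw [hc, mul_one]; exact hm
  hn := by rw [hc, mul_one]; exact hn
  hc W hW h := by
    change IsUnit (rs (show W ≤ D.U from h) (D.sec c))
    have h0 : D.sec c = D.pa P := by rw [sec_eq_iff, hc, D.exU_pa]
    have hWV : W ≤ D.U ⊓ D.V := le_inf h (hW.trans (D.W_le _))
    have h1 := congrArg (rs hWV) (D.rs_pa P)
    rw [map_mul, map_pow, rs_rs, rs_rs, rs_rs] at h1
    rw [h0, h1]
    have h2 : IsUnit (rs (D.W_le P.reverse) (D.pw P.reverse)) :=
      X.toRingedSpace.isUnit_res_basicOpen (D.pw P.reverse)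
    have h3 := h2.map (rs hW)
    rw [rs_rs] at h3
    have h4 : IsUnit (rs (inf_le_left : D.U ⊓ D.V ≤ D.U) D.a) := IsUnit.of_mul_eq_one _ D.haw
    have h5 := h4.map (rs hWV)
    rw [rs_rs] at h5
    exact h3.mul (h5.pow _)
  hfu W hW h := by rw [map_one, map_one]; exact isUnit_one
  fin h := (h trivial).elim
  one _ := ⟨rfl, rfl⟩

theorem exists_infF {M : (Submodule S (LaurentSeries R))ˣ} {P : R[X]}
    (h1 : ∀ m ∈ (M : Submodule S (LaurentSeries R)), aeval α P * m ∈ S)
    (h2 : ∀ m ∈ ((M⁻¹ : (Submodule S (LaurentSeries R))ˣ) : Submodule S (LaurentSeries R)),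
      aeval α P * m ∈ S) : ∃ s : Frm D.gx M, s.inf ∧ s.O = D.W P.reverse ∧
        (s.c : LaurentSeries R) = aeval α P := by
  have key : ∀ N : (Submodule S (LaurentSeries R))ˣ,
      (∀ m ∈ ((N⁻¹ : (Submodule S (LaurentSeries R))ˣ) : Submodule S (LaurentSeries R)),
      aeval α P * m ∈ S) → aeval α P ∈ (N : Submodule S (LaurentSeries R)) := by
    intro N hN
    have h3 : (1 : LaurentSeries R) ∈ (N : Submodule S (LaurentSeries R)) *
        ((N⁻¹ : (Submodule S (LaurentSeries R))ˣ) : Submodule S (LaurentSeries R)) := by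
      rw [Units.mul_inv]
      exact Submodule.one_le.1 le_rfl
    have h4 : ∀ x ∈ (N : Submodule S (LaurentSeries R)) *
        ((N⁻¹ : (Submodule S (LaurentSeries R))ˣ) : Submodule S (LaurentSeries R)),
        aeval α P * x ∈ (N : Submodule S (LaurentSeries R)) := by
      intro x hx
      induction hx using Submodule.mul_induction_on' with
      | mem_mul_mem m hm n hn =>
        have h5 : aeval α P * (m * n) = (⟨_, hN n hn⟩ : S) • m := by
          rw [Subalgebra.smul_def, smul_eq_mul]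
          ring
        rw [h5]
        exact Submodule.smul_mem _ _ hm
      | add x _ y _ hx hy =>
        rw [mul_add]
        exact add_mem hx hy
    have h6 := h4 1 h3
    rwa [mul_one] at h6
  have hS : aeval α P ∈ S := by
    rw [← D.exU_pa]
    exact D.exU_mem _
  exact ⟨D.infF P ⟨_, hS⟩ rfl (key M h2) (key M⁻¹ (by rwa [inv_inv])), trivial, rfl, rfl⟩

theorem mem_W {p : R[X]} (hp : p.coeff 0 = 1) {x : X} (hx : x ∉ D.U) : x ∈ D.W p := by
  have hV : x ∈ D.V := by
    have h : x ∈ D.U ⊔ D.V := by rw [D.cov]; trivial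
    rcases h with h | h
    · exact (hx h).elim
    · exact h
  have hw : x ∉ X.basicOpen D.w := by
    rw [D.hw]
    exact fun h => hx h.1
  obtain ⟨y, hy⟩ := D.mem_range_σ hV hw
  rw [← hy]
  exact D.σ_le_W hp (show y ∈ (⊤ : (Spec (CommRingCat.of R)).Opens) from trivial)

theorem exists_finF {M : (Submodule S (LaurentSeries R))ˣ} {x : X} (hx : x ∈ D.U) :
    ∃ (m n : LaurentSeries R) (_ : m ∈ (M : Submodule S (LaurentSeries R)))
      (_ : n ∈ ((M⁻¹ : (Submodule S (LaurentSeries R))ˣ) : Submodule S (LaurentSeries R)))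
      (f : S), (f : LaurentSeries R) = m * n ∧ x ∈ X.basicOpen (D.sec f) := by
  by_contra hcon
  push Not at hcon
  have h4 : ∀ z ∈ (M : Submodule S (LaurentSeries R)) *
      ((M⁻¹ : (Submodule S (LaurentSeries R))ˣ) : Submodule S (LaurentSeries R)),
      ∃ f : S, (f : LaurentSeries R) = z ∧ x ∉ X.basicOpen (D.sec f) := by
    intro z hz
    induction hz using Submodule.mul_induction_on' with
    | mem_mul_mem m hm n hn =>
      have h5 : m * n ∈ (M : Submodule S (LaurentSeries R)) *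
        ((M⁻¹ : (Submodule S (LaurentSeries R))ˣ) : Submodule S (LaurentSeries R)) :=
        Submodule.mul_mem_mul hm hn
      rw [Units.mul_inv, Submodule.mem_one] at h5
      obtain ⟨f, hf⟩ := h5
      exact ⟨f, hf, hcon m n hm hn f hf⟩
    | add y _ z _ hy hz =>
      obtain ⟨f, hf, hf'⟩ := hy
      obtain ⟨g, hg, hg'⟩ := hz
      refine ⟨f + g, by rw [Subalgebra.coe_add, hf, hg], fun h => ?_⟩
      rw [map_add] at h
      rcases X.basicOpen_add_le _ _ h with h | h
      · exact hf' h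
      · exact hg' h
  obtain ⟨f, hf, hf'⟩ := h4 1 (by
    rw [Units.mul_inv]
    exact Submodule.one_le.1 le_rfl)
  have : f = 1 := Subtype.ext hf
  rw [this, map_one, Scheme.basicOpen_one] at hf'
  exact hf' hx

theorem fam_cov {M : (Submodule S (LaurentSeries R))ˣ} (hM : GG S α M) :
    (Frm.fam D.gx M).Cov := by
  intro x
  by_cases hx : x ∈ D.U
  · obtain ⟨m, n, hm, hn, f, hf, hxf⟩ := D.exists_finF (M := M) hx
    exact ⟨D.finF m n hm hn f hf, hxf⟩
  · obtain ⟨P, hP, h1, h2⟩ := hM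
    obtain ⟨s, -, hs, -⟩ := D.exists_infF h1 h2
    refine ⟨s, ?_⟩
    change x ∈ s.O
    rw [hs]
    exact D.mem_W (coeff_reverse hP) hx

/-- **the class of an invertible module of Laurent series** -/
def cl (M : (Submodule S (LaurentSeries R))ˣ) (hM : GG S α M) : PicC X :=
  (Frm.fam D.gx M).cls (D.fam_cov hM)

theorem cl_mul {M N : (Submodule S (LaurentSeries R))ˣ} (hM : GG S α M) (hN : GG S α N)
    (h : GG S α (M * N)) : D.cl (M * N) h = D.cl M hM * D.cl N hN :=
  Frm.cls_mul _ _ _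

/-- **(P1)** -/
theorem map_σ_cl {M : (Submodule S (LaurentSeries R))ˣ} (hM : GG S α M) :
    PicC.map D.σ (D.cl M hM) = 1 := by
  obtain ⟨P, hP, h1, h2⟩ := id hM
  obtain ⟨s, -, hs, -⟩ := D.exists_infF h1 h2
  refine Frm.map_cls_eq_one D.σ _ s ?_
  rw [hs]
  exact D.σ_le_W (coeff_reverse hP)

/-- **(P4)** base change -/
theorem map_cl {R' : Type u} [CommRing R'] {S' : Subalgebra R' (LaurentSeries R')}
    {α' : LaurentSeries R'} {X' : Scheme.{u}} (D' : XD R' S' α' X') (f : X' ⟶ X)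
    (ψ : LaurentSeries R →+* LaurentSeries R') (hU : D'.U = f ⁻¹ᵁ D.U)
    (hex : ∀ x : Γ(X, D.U), D'.exU (pb f hU.le x) = ψ (D.exU x))
    {M : (Submodule S (LaurentSeries R))ˣ} {M' : (Submodule S' (LaurentSeries R'))ˣ}
    (hM : GG S α M) (hM' : GG S' α' M')
    (h1 : ∀ x ∈ (M : Submodule S (LaurentSeries R)),
      ψ x ∈ (M' : Submodule S' (LaurentSeries R')))
    (h2 : ∀ x ∈ ((M⁻¹ : (Submodule S (LaurentSeries R))ˣ) : Submodule S (LaurentSeries R)),
      ψ x ∈ ((M'⁻¹ : (Submodule S' (LaurentSeries R'))ˣ) : Submodule S' (LaurentSeries R'))) :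
    PicC.map f (D.cl M hM) = D'.cl M' hM' := by
  have hmem : ∀ x : S, ψ x ∈ S' := fun x => by
    rw [← D.exU_sec x, ← hex]
    exact D'.exU_mem _
  let F : GXHom D.gx D'.gx :=
    { f := f
      φ := (ψ.comp S.val.toRingHom).codRestrict S' hmem
      ψ := ψ
      hφ := fun x => rfl
      hU := hU
      hα := fun x => by
        symm
        change D'.sec _ = pb f _ (D.sec x)
        rw [sec_eq_iff, hex, D.exU_sec]
        rfl }
  exact Frm.map_cls F h1 h2 _ _

theorem exW_injective' {p : R[X]} (hp : p.coeff 0 = 1) {y z : Γ(X, D.W p)}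
    (h : D.exW hp (rs (D.UW_le_W p) y) = D.exW hp (rs (D.UW_le_W p) z)) : y = z := by
  rw [← sub_eq_zero]
  rw [← sub_eq_zero, ← map_sub, ← map_sub] at h
  generalize y - z = y at h
  obtain ⟨n, b, hb⟩ := exists_pow_mul D.hV (D.pw p) (D.W_le p) rfl y
  have h1 : D.eV b = 0 := by
    have h2 := congrArg (fun t => D.exW hp (rs (D.UW_le_W p) t)) hb
    simp only [map_mul, map_pow, rs_rs] at h2
    rw [D.exW_V hp, h, mul_zero] at h2
    exact h2
  have h2 : b = 0 := D.exV_inj _ h1
  rw [h2, map_zero] at hb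
  have hu : IsUnit (rs (D.W_le p) (D.pw p)) := X.toRingedSpace.isUnit_res_basicOpen (D.pw p)
  exact (((hu.pow n).mul_right_eq_zero).mp hb.symm)

/-- a unit series with denominators `P(a)` is a unit near infinity -/
theorem exists_unit {P : R[X]} (hP : P.Monic) {u u' : LaurentSeries R} (huu : u * u' = 1)
    (hu : u ∈ LV R 0) (hu' : u' ∈ LV R 0) (h1 : aeval α P * u ∈ S) (h2 : aeval α P * u' ∈ S) :
    ∃ v : Γ(X, D.W P.reverse)ˣ,
      D.exW (coeff_reverse hP) (rs (D.UW_le_W _) (v : Γ(X, D.W P.reverse))) = u ∧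
      D.exW (coeff_reverse hP) (rs (D.UW_le_W _) (↑v⁻¹ : Γ(X, D.W P.reverse))) = u' := by
  have hcP : IsUnit (rs (D.UW_le_U P.reverse) (D.pa P)) := by
    have h1 := congrArg (rs (D.UW_le P.reverse)) (D.rs_pa P)
    rw [map_mul, map_pow, rs_rs, rs_rs, rs_rs] at h1
    rw [h1]
    refine (D.isUnit_pw_UW _).mul (IsUnit.pow _ ?_)
    have h4 : IsUnit (rs (inf_le_left : D.U ⊓ D.V ≤ D.U) D.a) := IsUnit.of_mul_eq_one _ D.haw
    have h5 := h4.map (rs (D.UW_le P.reverse))
    rwa [rs_rs] at h5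
  have key : ∀ u : LaurentSeries R, u ∈ LV R 0 → aeval α P * u ∈ S →
      ∃ y : Γ(X, D.W P.reverse), D.exW (coeff_reverse hP) (rs (D.UW_le_W _) y) = u := by
    intro u hu h
    obtain ⟨r, hr⟩ := hcP.exists_left_inv
    have h3 : D.exW (coeff_reverse hP) (r * rs (D.UW_le_U _) (D.sec ⟨_, h⟩)) = u := by
      rw [map_mul, exW_U, exU_sec]
      change D.exW (coeff_reverse hP) r * (aeval α P * u) = u
      rw [← D.exU_pa, ← D.exW_U (coeff_reverse hP), ← mul_assoc, ← map_mul, hr, map_one, one_mul]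
    obtain ⟨y, hy⟩ := D.exists_ext (coeff_reverse hP) (r * rs (D.UW_le_U _) (D.sec ⟨_, h⟩))
      (by rw [h3]; exact hu)
    exact ⟨y, by rw [hy, h3]⟩
  obtain ⟨y, hy⟩ := key u hu h1
  obtain ⟨y', hy'⟩ := key u' hu' h2
  have hyy : y * y' = 1 := by
    apply D.exW_injective' (coeff_reverse hP)
    rw [map_mul, map_mul, hy, hy', huu, map_one, map_one]
  exact ⟨⟨y, y', hyy, (mul_comm _ _).trans hyy⟩, hy, hy'⟩

/-- **(P3 ⇐)** -/
theorem cl_eq_one {M : (Submodule S (LaurentSeries R))ˣ} (hM : GG S α M)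
    {u u' : LaurentSeries R} (huu : u * u' = 1) (hu : u ∈ LV R 0) (hu' : u' ∈ LV R 0)
    (hm : u ∈ (M : Submodule S (LaurentSeries R)))
    (hn : u' ∈ ((M⁻¹ : (Submodule S (LaurentSeries R))ˣ) : Submodule S (LaurentSeries R))) :
    D.cl M hM = 1 := by
  obtain ⟨P, hP, h1, h2⟩ := id hM
  obtain ⟨t, hti, htO, htc⟩ := D.exists_infF h1 h2
  obtain ⟨v, hv, hv'⟩ := D.exists_unit hP huu hu hu' (h1 u hm) (h2 u' hn)
  let s : Frm D.gx M := D.finF u u' hm hn 1 (by rw [huu]; rfl)
  have hsO : s.O = D.U := by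
    change X.basicOpen (D.sec 1) = _
    rw [map_one, Scheme.basicOpen_one]
  refine Frm.cls_eq_one _ s t (fun x => ?_) (ru (htO.le) v⁻¹) ?_
  · by_cases hx : x ∈ D.U
    · left; rw [hsO]; exact hx
    · right; rw [htO]; exact D.mem_W (coeff_reverse hP) hx
  · have hW : s.O ⊓ t.O = D.UW P.reverse := by rw [hsO, htO]; rfl
    have hWU : s.O ⊓ t.O ≤ D.gx.U := hW.le.trans (D.UW_le_U _)
    have hc : t.c = ⟨aeval α P, by rw [← D.exU_pa]; exact D.exU_mem _⟩ := Subtype.ext htc
    have hg := Frm.g_spec s t (W := s.O ⊓ t.O) inf_le_left inf_le_right hWU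
      (n := u' * aeval α P) (x := t.c) (y := t.c * ⟨_, h2 u' hn⟩) (by
        change _ = ((1 : S) : LaurentSeries R) * u * (u' * aeval α P)
        rw [htc, OneMemClass.coe_one]
        linear_combination (-(aeval α P)) * huu) (by
        rw [Subalgebra.coe_mul, (t.one hti).1, htc]
        ring)
    have hcu := t.hc (s.O ⊓ t.O) inf_le_right hWU
    have e1 : rs hWU (D.gx.α s.c) = 1 := by
      change rs (show s.O ⊓ t.O ≤ D.U from hWU) (D.sec 1) = 1
      rw [map_one, map_one]
    rw [e1, one_mul, map_mul, map_mul, mul_comm] at hg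
    have hg2 := hcu.mul_left_cancel hg
    apply Units.ext
    apply hcu.mul_right_cancel
    rw [hg2]
    change rs hWU (D.sec ⟨_, h2 u' hn⟩) =
      rs inf_le_right (rs htO.le (↑v⁻¹ : Γ(X, D.W P.reverse))) * rs hWU (D.sec t.c)
    have hWW : s.O ⊓ t.O ≤ D.W P.reverse := inf_le_right.trans htO.le
    rw [rs_rs]
    have main : rs (D.UW_le_U _) (D.sec ⟨_, h2 u' hn⟩) =
        rs (D.UW_le_W _) (↑v⁻¹ : Γ(X, D.W P.reverse)) * rs (D.UW_le_U _) (D.sec t.c) := by
      apply D.exW_injective (coeff_reverse hP)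
      rw [map_mul, exW_U, exW_U, exU_sec, exU_sec, hv', htc]
      exact mul_comm _ _
    have main2 := congrArg (rs hW.le) main
    rw [map_mul, rs_rs, rs_rs, rs_rs] at main2
    exact main2

/-- the homomorphism to the Picard group -/
def toPic (H : Subgroup (Submodule S (LaurentSeries R))ˣ) (hH : ∀ M ∈ H, GG S α M) :
    H →* PicC X :=
  MonoidHom.mk' (fun M => D.cl M.1 (hH _ M.2)) fun _ _ => D.cl_mul _ _ _

theorem toPic_apply (H : Subgroup (Submodule S (LaurentSeries R))ˣ) (hH : ∀ M ∈ H, GG S α M)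
    (M : H) : D.toPic H hH M = D.cl M.1 (hH _ M.2) := rfl

end XD

end Fermat.Agent.J25
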