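import Mathlib
import Fermat.Agent.J25.Diag2
import Fermat.Agent.J25.ToPic

/-!
# The class of an integral lattice is the class of an ideal
-/

set_option autoImplicit false

universe u v w

open CategoryTheory CategoryTheory.Limits AlgebraicGeometry TopologicalSpace Opposite

noncomputable section

namespace Fermat.Agent.J25.DX

attribute [-instance] HahnSeries.powerSeriesAlgebra

variable {R : Type u} [CommRing R] {S : Subalgebra R (LaurentSeries R)} {α : LaurentSeries R}
  {X : Scheme.{u}} (D : XD R S α X) {M : (Submodule S (LaurentSeries R))ˣ} {E : Scheme.{u}}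
  (j : E ⟶ X) (hj : j ⁻¹ᵁ D.U = ⊤)
  (hM1 : ∀ m ∈ (M : Submodule S (LaurentSeries R)), m ∈ S)
  (hker : ∀ x : S, pb j (le_refl (j ⁻¹ᵁ D.U)) (D.sec x) = 0 ↔
    (x : LaurentSeries R) ∈ (M : Submodule S (LaurentSeries R)))

include hM1 in
theorem cm_mem (s : Frm D.gx M) : (s.c : LaurentSeries R) * s.m ∈ S := hM1 _ s.hm

/-- the numerator of the equation given by a frame -/
def num (s : Frm D.gx M) : Γ(X, D.U) := D.sec ⟨_, cm_mem D hM1 s⟩

open scoped Classical in
/-- the equation given by a frame -/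
def eqf (s : Frm D.gx M) : Γ(X, s.O) :=
  if h : s.inf then 1 else
    ((s.dn le_rfl (s.fin h))⁻¹ : Γ(X, s.O)ˣ) * rs (s.fin h) (num D hM1 s)

theorem eqf_inf (s : Frm D.gx M) (h : s.inf) : eqf D hM1 s = 1 := by
  rw [eqf, dif_pos h]

theorem eqf_fin (s : Frm D.gx M) (h : ¬ s.inf) : eqf D hM1 s =
    ((s.dn le_rfl (s.fin h))⁻¹ : Γ(X, s.O)ˣ) * rs (s.fin h) (num D hM1 s) := by
  rw [eqf, dif_neg h]

/-- on opens of `U`, the equation times the denominator is the numerator -/
theorem rs_eqf (s : Frm D.gx M) {W : X.Opens} (hs : W ≤ s.O) (h' : W ≤ D.U) :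
    rs h' (D.sec s.c) * rs hs (eqf D hM1 s) = rs h' (num D hM1 s) := by
  by_cases h : s.inf
  · rw [eqf_inf D hM1 s h, map_one, mul_one]
    congr 1
    unfold num
    congr 1
    apply Subtype.ext
    change (s.c : LaurentSeries R) = s.c * s.m
    rw [(s.one h).1, mul_one]
  · rw [eqf_fin D hM1 s h, map_mul, rs_rs, ← mul_assoc]
    have h1 : rs h' (D.sec s.c) = rs hs (s.dn le_rfl (s.fin h) : Γ(X, s.O)ˣ).val := by
      rw [Frm.coe_dn, rs_rs]
      rfl
    rw [h1, ← map_mul, Units.mul_inv, map_one, one_mul]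
    rfl

include hker hj in
theorem isEqn_eqf [IsAffine E] (s : Frm D.gx M) : IsEqn j (eqf D hM1 s) := by
  by_cases h : s.inf
  · rw [eqf_inf D hM1 s h]
    refine IsEqn.one ?_
    -- the frame at infinity does not meet `E`
    have hc : pb j (le_refl (j ⁻¹ᵁ D.U)) (D.sec s.c) = 0 := by
      rw [hker]
      have := s.hm
      rwa [(s.one h).1, mul_one] at this
    have hu := s.hc (s.O ⊓ D.U) inf_le_left inf_le_right
    have hu' := hu.map (pb j (le_refl (j ⁻¹ᵁ (s.O ⊓ D.U))))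
    have h1 : pb j (le_refl (j ⁻¹ᵁ (s.O ⊓ D.U))) (rs (inf_le_right : s.O ⊓ D.U ≤ D.U)
        (D.sec s.c)) = 0 := by
      rw [pb_rs]
      have h2 := congrArg (rs (Scheme.Hom.preimage_mono j (inf_le_right : s.O ⊓ D.U ≤ D.U))) hc
      rw [rs_pb, map_zero] at h2
      exact h2
    have h3 : IsUnit (0 : Γ(E, j ⁻¹ᵁ (s.O ⊓ D.U))) := h1 ▸ hu'
    have h4 : j ⁻¹ᵁ s.O = j ⁻¹ᵁ (s.O ⊓ D.U) := by
      apply le_antisymm
      · intro y hy
        have h5 : y ∈ j ⁻¹ᵁ D.U := by rw [hj]; trivial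
        exact ⟨hy, h5⟩
      · exact Scheme.Hom.preimage_mono j inf_le_left
    rw [h4]
    have h5 : E.basicOpen (0 : Γ(E, j ⁻¹ᵁ (s.O ⊓ D.U))) = j ⁻¹ᵁ (s.O ⊓ D.U) :=
      E.basicOpen_of_isUnit h3
    rw [← h5]
    exact Scheme.basicOpen_zero _ _
  · rw [eqf_fin D hM1 s h]
    refine IsEqn.unit_mul ?_ _
    have haff : IsAffineOpen (j ⁻¹ᵁ D.U) := by
      rw [hj]
      exact isAffineOpen_top E
    have hy : ∀ y : Γ(X, D.U), pb j (le_refl (j ⁻¹ᵁ D.U)) y = 0 →
        D.exU y ∈ (M : Submodule S (LaurentSeries R)) := by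
      intro y hy
      have h1 : D.sec ⟨D.exU y, D.exU_mem y⟩ = y := by
        rw [XD.sec_eq_iff]
      rw [← h1] at hy
      exact (hker _).mp hy
    refine isEqn_of_aff D.hU haff (num D hM1 s) (D.sec (s.c * s.c * s.f)) ?_ ?_ ?_ (s.fin h) ?_
    · exact (hker _).mpr s.hm
    · intro y hy0
      have h2 := Frm.mem_AR_of (hy y hy0) s.hn
      obtain ⟨r, hr⟩ := h2
      refine ⟨D.sec r, ?_⟩
      apply D.exU_injective
      rw [map_mul, map_mul, num, XD.exU_sec, XD.exU_sec, XD.exU_sec, hr]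
      push_cast
      rw [s.hf]
      ring
    · intro r hr
      apply D.exU_injective
      have h1 := congrArg D.exU hr
      rw [map_mul, num, XD.exU_sec, map_zero] at h1
      rw [map_mul, XD.exU_sec, map_zero]
      push_cast
      rw [s.hf]
      calc D.exU r * (s.c * s.c * (s.m * s.n)) = (D.exU r * (s.c * s.m)) * (s.c * s.n) := by ring
        _ = 0 := by rw [h1, zero_mul]
    · have h1 := s.hc s.O le_rfl (s.fin h)
      have h2 := s.hfu s.O le_rfl (s.fin h)
      rw [map_mul, map_mul, map_mul, map_mul]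
      exact (h1.mul h1).mul h2

theorem g_eqf (s t : Frm D.gx M) (W : X.Opens) (hs : W ≤ s.O) (ht : W ≤ t.O) :
    (s.g t W hs ht : Γ(X, W)) * rs hs (eqf D hM1 s) = rs ht (eqf D hM1 t) := by
  by_cases hi : s.inf ∧ t.inf
  · rw [Frm.g_of_inf s t hs ht hi.1 hi.2, eqf_inf D hM1 s hi.1, eqf_inf D hM1 t hi.2, map_one,
      map_one, Units.val_one, one_mul]
  · have h' : W ≤ D.U := by
      rw [not_and_or] at hi
      rcases hi with hi | hi
      · exact hs.trans (s.fin hi)
      · exact ht.trans (t.fin hi)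
    have h1 := Frm.g_spec s t hs ht h' (n := 1) (x := ⟨_, cm_mem D hM1 s⟩)
      (y := ⟨_, cm_mem D hM1 t⟩) (by rw [mul_one]) (by rw [mul_one])
    have h2 : (s.g t W hs ht : Γ(X, W)) * rs h' (D.sec t.c) * rs h' (num D hM1 s) =
      rs h' (D.sec s.c) * rs h' (num D hM1 t) := h1
    rw [← rs_eqf D hM1 s hs h', ← rs_eqf D hM1 t ht h'] at h2
    have h3 : IsUnit (rs h' (D.sec s.c) * rs h' (D.sec t.c)) :=
      (s.hc W hs h').mul (t.hc W ht h')
    apply h3.mul_left_cancel
    linear_combination h2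

include hker hj hM1 in
/-- **The class of an integral lattice is the class of the ideal it defines.** -/
theorem cl_eq_idl [IsAffine E] (hM : GG S α M) (hC : Eqn.Cartier j) :
    D.cl M hM = Eqn.idl j hC :=
  Eqn.idl_eq (Frm.fam D.gx M) (D.fam_cov hM) j hC (eqf D hM1)
    (isEqn_eqf D j hj hM1 hker) fun s t W hs ht => g_eqf D hM1 s t W hs ht

end Fermat.Agent.J25.DX
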