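import Mathlib
import Fermat.Agent.J25.Diag2

/-!
# Equations: charts
-/

set_option autoImplicit false
set_option linter.style.haveILetI false

universe u v w

open CategoryTheory CategoryTheory.Limits AlgebraicGeometry TopologicalSpace Opposite

noncomputable section

namespace Fermat.Agent.J25

variable {X Y D E : Scheme.{u}}

section chart

variable {Λ Λ' : CommRingCat.{u}}

theorem DG.top_le (j : Spec Λ ⟶ X) [IsOpenImmersion j] :
    (⊤ : (Spec Λ).Opens) ≤ j ⁻¹ᵁ j.opensRange := by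
  rw [Scheme.Hom.preimage_opensRange]

/-- functions on the range of a chart -/
def csH (j : Spec Λ ⟶ X) [IsOpenImmersion j] : Γ(X, j.opensRange) →+* Λ :=
  (Scheme.ΓSpecIso Λ).hom.hom.comp (pb j (DG.top_le j))

theorem csH_bijective (j : Spec Λ ⟶ X) [IsOpenImmersion j] : Function.Bijective (csH j) := by
  have h1 : Function.Bijective (Scheme.ΓSpecIso Λ).hom.hom :=
    ConcreteCategory.bijective_of_isIso (Scheme.ΓSpecIso Λ).hom
  haveI : IsIso (j.app j.opensRange) := Scheme.Hom.isIso_app j j.opensRange le_rfl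
  haveI : IsIso (j.appLE j.opensRange ⊤ (DG.top_le j)) := by
    rw [Scheme.Hom.appLE]
    have h2 : (⊤ : (Spec Λ).Opens) = j ⁻¹ᵁ j.opensRange :=
      (Scheme.Hom.preimage_opensRange j).symm
    have h3 : (homOfLE (DG.top_le j)).op = (eqToHom h2).op := rfl
    rw [h3]
    infer_instance
  have h4 : Function.Bijective (pb j (DG.top_le j)) :=
    ConcreteCategory.bijective_of_isIso (j.appLE j.opensRange ⊤ (DG.top_le j))
  exact h1.comp h4

/-- functions on the range of a chart, as an isomorphism -/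
def csE (j : Spec Λ ⟶ X) [IsOpenImmersion j] : Γ(X, j.opensRange) ≃+* Λ :=
  RingEquiv.ofBijective (csH j) (csH_bijective j)

theorem csE_apply (j : Spec Λ ⟶ X) [IsOpenImmersion j] (s : Γ(X, j.opensRange)) :
    csE j s = (Scheme.ΓSpecIso Λ).hom.hom (pb j (DG.top_le j) s) := rfl

/-- naturality of the coordinates of charts -/
theorem csE_pb (p : Y ⟶ X) (jX : Spec Λ ⟶ X) [IsOpenImmersion jX] (jY : Spec Λ' ⟶ Y)
    [IsOpenImmersion jY] (ψ : Λ ⟶ Λ') (H : jY ≫ p = Spec.map ψ ≫ jX)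
    (hle : jY.opensRange ≤ p ⁻¹ᵁ jX.opensRange) (s : Γ(X, jX.opensRange)) :
    csE jY (pb p hle s) = ψ.hom (csE jX s) := by
  rw [csE_apply, csE_apply, pb_pb]
  have h1 : (⊤ : (Spec Λ').Opens) ≤ (Spec.map ψ) ⁻¹ᵁ (⊤ : (Spec Λ).Opens) := le_top
  have h2 : pb (Spec.map ψ) h1 (pb jX (DG.top_le jX) s) =
      pb (Spec.map ψ ≫ jX) ((h1.trans (Scheme.Hom.preimage_mono _ (DG.top_le jX)))) s :=
    pb_pb _ _ _ _ _
  have h3 : ∀ (q q' : Spec Λ' ⟶ X) (e : q = q') (h : ⊤ ≤ q ⁻¹ᵁ jX.opensRange)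
      (h' : ⊤ ≤ q' ⁻¹ᵁ jX.opensRange), pb q h s = pb q' h' s := by
    rintro q _ rfl h h'
    rfl
  rw [h3 _ _ H _ ((h1.trans (Scheme.Hom.preimage_mono _ (DG.top_le jX)))), ← h2]
  have h4 := Scheme.ΓSpecIso_naturality ψ
  have h5 := congrArg (fun t => t.hom (pb jX (DG.top_le jX) s)) h4
  have h6 : ((Spec.map ψ).appTop).hom (pb jX (DG.top_le jX) s) =
      pb (Spec.map ψ) h1 (pb jX (DG.top_le jX) s) := by
    change _ = ((Spec.map ψ).appLE ⊤ ⊤ h1).hom _
    rw [Scheme.Hom.appTop, Scheme.Hom.app_eq_appLE]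
    rfl
  rw [← h6]
  exact h5

theorem DG.le_pre (p : Y ⟶ X) (jX : Spec Λ ⟶ X) [IsOpenImmersion jX] (jY : Spec Λ' ⟶ Y)
    [IsOpenImmersion jY] (ψ : Λ ⟶ Λ') (H : jY ≫ p = Spec.map ψ ≫ jX) :
    jY.opensRange ≤ p ⁻¹ᵁ jX.opensRange := by
  rintro _ ⟨q, rfl⟩
  refine ⟨Spec.map ψ q, ?_⟩
  have := congrArg (fun t : Spec Λ' ⟶ X => t q) H
  exact this.symm

/-- points of the basic open of a function -/
theorem mem_basicOpen_csE (j : Spec Λ ⟶ X) [IsOpenImmersion j] (s : Γ(X, j.opensRange))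
    (q : Spec Λ) : j q ∈ X.basicOpen s ↔ csE j s ∉ q.asIdeal := by
  have h1 : j q ∈ X.basicOpen s ↔ q ∈ j ⁻¹ᵁ X.basicOpen s := Iff.rfl
  rw [h1, Scheme.preimage_basicOpen]
  have h2 : (Spec Λ).basicOpen ((j.app j.opensRange).hom s) =
      (Spec Λ).basicOpen (pb j (DG.top_le j) s) := by
    have h3 : pb j (DG.top_le j) s = rs (DG.top_le j) ((j.app j.opensRange).hom s) := by
      change (j.appLE j.opensRange ⊤ (DG.top_le j)).hom s = _
      rw [Scheme.Hom.appLE]
      rfl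
    rw [h3]
    have h4 := Scheme.basicOpen_res (Spec Λ) ((j.app j.opensRange).hom s)
      (homOfLE (DG.top_le j)).op
    have h5 : (Spec Λ).basicOpen (rs (DG.top_le j) ((j.app j.opensRange).hom s)) =
        ⊤ ⊓ (Spec Λ).basicOpen ((j.app j.opensRange).hom s) := h4
    rw [h5, top_inf_eq]
  have h6 : (Spec Λ).basicOpen (pb j (DG.top_le j) s) = PrimeSpectrum.basicOpen (csE j s) :=
    basicOpen_eq_of_affine' _
  rw [csE_apply] at *
  change q ∈ (Spec Λ).basicOpen ((j.app j.opensRange).hom s) ↔ _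
  rw [h2, h6]
  rfl

/-- **equations from charts** -/
theorem isEqn_chart {i : D ⟶ X} (j : Spec Λ ⟶ X) [IsOpenImmersion j] (j' : Spec Λ' ⟶ D)
    [IsOpenImmersion j'] (φ : Λ ⟶ Λ') (H : j' ≫ i = Spec.map φ ≫ j)
    (hr : i ⁻¹ᵁ j.opensRange ≤ j'.opensRange) (f h : Γ(X, j.opensRange))
    (h1 : φ.hom (csE j f) = 0)
    (h2 : ∀ s : Λ, φ.hom s = 0 → ∃ r, r * csE j f = csE j h * s)
    (h3 : ∀ r : Λ, r * csE j f = 0 → r * csE j h = 0) {W : X.Opens} (hW : W ≤ j.opensRange)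
    (hWh : IsUnit (rs hW h)) : IsEqn i (rs hW f) := by
  have hle := DG.le_pre i j j' φ H
  have heq : i ⁻¹ᵁ j.opensRange = j'.opensRange := le_antisymm hr hle
  have key : ∀ s : Γ(X, j.opensRange), pb i (le_refl (i ⁻¹ᵁ j.opensRange)) s = 0 ↔
      φ.hom (csE j s) = 0 := by
    intro s
    rw [← csE_pb i j j' φ H hle s, map_eq_zero_iff _ (csE j').injective]
    constructor
    · intro hs
      have := congrArg (rs hle) hs
      rwa [rs_pb, map_zero] at this
    · intro hs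
      have := congrArg (rs hr) hs
      rwa [rs_pb, map_zero] at this
  refine isEqn_of_aff (isAffineOpen_opensRange j) (heq ▸ isAffineOpen_opensRange j') f h
    ((key f).2 h1) (fun s hs => ?_) (fun r hr => ?_) hW hWh
  · obtain ⟨r, hr⟩ := h2 (csE j s) ((key s).1 hs)
    refine ⟨(csE j).symm r, (csE j).injective ?_⟩
    rw [map_mul, map_mul, RingEquiv.apply_symm_apply, hr]
  · have h4 := congrArg (csE j) hr
    rw [map_mul, map_zero] at h4
    have h5 := h3 _ h4
    rw [← map_mul] at h5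
    exact (map_eq_zero_iff _ (csE j).injective).1 h5

end chart

end Fermat.Agent.J25
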