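import Mathlib
import Fermat.Agent.J25.Diag3
import Fermat.Agent.J25.Hub

/-!
# The diagonal of the curve and the class `δ`
-/

set_option autoImplicit false
set_option linter.style.haveILetI false

universe u v w

open CategoryTheory CategoryTheory.Limits AlgebraicGeometry TopologicalSpace Opposite TensorProduct
  NeronModelInfra

noncomputable section

namespace Fermat.Agent.J25

attribute [-instance] HahnSeries.powerSeriesAlgebra

section cd

variable {k : Type u} [Field k] {C : Scheme.{u}} (c : C ⟶ Spec (CommRingCat.of k))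
variable {E : Type u} [CommRing E] [Algebra k E] (j : Spec (CommRingCat.of E) ⟶ C)

theorem DG.w (hj : j ≫ c = sS k E) :
    (Spec.map (CommRingCat.ofHom (Algebra.TensorProduct.includeLeftRingHom : E →+* E ⊗[k] E)) ≫ j)
      ≫ c = (Spec.map (CommRingCat.ofHom
        (Algebra.TensorProduct.includeRight : E →ₐ[k] E ⊗[k] E).toRingHom) ≫ j) ≫ c := by
  rw [Category.assoc, Category.assoc, hj, ← Spec.map_comp, ← Spec.map_comp]
  congr 1
  ext x
  change (algebraMap k E x) ⊗ₜ[k] (1 : E) = (1 : E) ⊗ₜ[k] (algebraMap k E x)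
  rw [Algebra.algebraMap_eq_smul_one, TensorProduct.smul_tmul]

/-- the chart `Spec (E ⊗ E) ⟶ C × C` -/
def jj (hj : j ≫ c = sS k E) : Spec (CommRingCat.of (E ⊗[k] E)) ⟶ pullback c c :=
  pullback.lift
    (Spec.map (CommRingCat.ofHom
      (Algebra.TensorProduct.includeLeftRingHom : E →+* E ⊗[k] E)) ≫ j)
    (Spec.map (CommRingCat.ofHom
      (Algebra.TensorProduct.includeRight : E →ₐ[k] E ⊗[k] E).toRingHom) ≫ j) (DG.w c j hj)

theorem jj_fst (hj : j ≫ c = sS k E) : jj c j hj ≫ pullback.fst c c = Spec.map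
    (CommRingCat.ofHom (Algebra.TensorProduct.includeLeftRingHom : E →+* E ⊗[k] E)) ≫ j :=
  pullback.lift_fst _ _ _

theorem jj_snd (hj : j ≫ c = sS k E) : jj c j hj ≫ pullback.snd c c = Spec.map
    (CommRingCat.ofHom
      (Algebra.TensorProduct.includeRight : E →ₐ[k] E ⊗[k] E).toRingHom) ≫ j :=
  pullback.lift_snd _ _ _

theorem isOpenImmersion_jj [IsOpenImmersion j] (hj : j ≫ c = sS k E) :
    IsOpenImmersion (jj c j hj) := by
  have h1 : jj c j hj = (pullbackSpecIso k E E).inv ≫
      pullback.map (sS k E) (sS k E) c c j j (𝟙 _) (by rw [Category.comp_id, hj])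
        (by rw [Category.comp_id, hj]) := by
    apply pullback.hom_ext
    · rw [jj_fst, Category.assoc, pullback.map, pullback.lift_fst, ← Category.assoc,
        pullbackSpecIso_inv_fst]
    · rw [jj_snd, Category.assoc, pullback.map, pullback.lift_snd, ← Category.assoc,
        pullbackSpecIso_inv_snd]
      rfl
  rw [h1]
  infer_instance

/-- multiplication -/
abbrev DG.mul (k E : Type u) [Field k] [CommRing E] [Algebra k E] :
    CommRingCat.of (E ⊗[k] E) ⟶ CommRingCat.of E :=
  CommRingCat.ofHom (Algebra.TensorProduct.lmul' k : E ⊗[k] E →ₐ[k] E).toRingHom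

theorem jj_diag (hj : j ≫ c = sS k E) :
    j ≫ pullback.diagonal c = Spec.map (DG.mul k E) ≫ jj c j hj := by
  apply pullback.hom_ext
  · rw [Category.assoc, Category.assoc, jj_fst, pullback.diagonal_fst, Category.comp_id,
      ← Category.assoc, ← Spec.map_comp]
    have : (CommRingCat.ofHom (Algebra.TensorProduct.includeLeftRingHom : E →+* E ⊗[k] E)) ≫
        DG.mul k E = 𝟙 _ := by
      ext x
      change Algebra.TensorProduct.lmul' k (x ⊗ₜ[k] (1 : E)) = x
      rw [Algebra.TensorProduct.lmul'_apply_tmul, mul_one]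
    rw [this, Spec.map_id, Category.id_comp]
  · rw [Category.assoc, Category.assoc, jj_snd, pullback.diagonal_snd, Category.comp_id,
      ← Category.assoc, ← Spec.map_comp]
    have : (CommRingCat.ofHom
        (Algebra.TensorProduct.includeRight : E →ₐ[k] E ⊗[k] E).toRingHom) ≫
        DG.mul k E = 𝟙 _ := by
      ext x
      change Algebra.TensorProduct.lmul' k ((1 : E) ⊗ₜ[k] x) = x
      rw [Algebra.TensorProduct.lmul'_apply_tmul, one_mul]
    rw [this, Spec.map_id, Category.id_comp]

/-- equations of the diagonal on a chart -/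
theorem DG.exists_eqn_chart [IsOpenImmersion j] (hj : j ≫ c = sS k E)
    (hI : Module.Invertible (E ⊗[k] E)
      (RingHom.ker (Algebra.TensorProduct.lmul' k : E ⊗[k] E →ₐ[k] E)))
    (y : Spec (CommRingCat.of E)) :
    ∃ e : Eqn (pullback.diagonal c), pullback.diagonal c (j y) ∈ e.W := by
  haveI := isOpenImmersion_jj c j hj
  set q : Spec (CommRingCat.of (E ⊗[k] E)) := Spec.map (DG.mul k E) y with hq
  have hpq : pullback.diagonal c (j y) = jj c j hj q := by
    have := congrArg (fun t : Spec (CommRingCat.of E) ⟶ pullback c c => t y) (jj_diag c j hj)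
    exact this
  -- a sum of values of linear forms
  obtain ⟨t, ht⟩ := hI.bijective.2 1
  obtain ⟨s, rfl⟩ := TensorProduct.exists_finset t
  rw [map_sum] at ht
  have hex : ∃ p ∈ s, (contractLeft (E ⊗[k] E)
      (RingHom.ker (Algebra.TensorProduct.lmul' k : E ⊗[k] E →ₐ[k] E)) (p.1 ⊗ₜ p.2)) ∉
        q.asIdeal := by
    by_contra hcon
    push Not at hcon
    have h1 : (1 : E ⊗[k] E) ∈ q.asIdeal := by
      rw [← ht]
      exact Submodule.sum_mem _ hcon
    exact q.isPrime.ne_top ((Ideal.eq_top_iff_one _).2 h1)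
  obtain ⟨⟨φ, m⟩, -, hm⟩ := hex
  have hm' : φ m ∉ q.asIdeal := hm
  let J := jj c j hj
  let f : Γ(pullback c c, J.opensRange) := (csE J).symm (m : E ⊗[k] E)
  let h : Γ(pullback c c, J.opensRange) := (csE J).symm (φ m)
  have hf : csE J f = (m : E ⊗[k] E) := RingEquiv.apply_symm_apply _ _
  have hh : csE J h = φ m := RingEquiv.apply_symm_apply _ _
  refine ⟨⟨(pullback c c).basicOpen h, rs ((pullback c c).basicOpen_le h) f, ?_⟩, ?_⟩
  · refine isEqn_chart J j (DG.mul k E) (jj_diag c j hj) ?_ f h ?_ ?_ ?_ _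
      ((pullback c c).toRingedSpace.isUnit_res_basicOpen h)
    · rintro x ⟨z, hz⟩
      have h1 : pullback.fst c c (J z) = x := by
        have h2 : pullback.fst c c (pullback.diagonal c x) = x := by
          have := congrArg (fun t : C ⟶ C => t x) (pullback.diagonal_fst c)
          exact this
        rw [← h2]
        exact congrArg _ hz
      refine ⟨Spec.map (CommRingCat.ofHom
        (Algebra.TensorProduct.includeLeftRingHom : E →+* E ⊗[k] E)) z, ?_⟩
      rw [← h1]
      have := congrArg (fun t : Spec (CommRingCat.of (E ⊗[k] E)) ⟶ C => t z) (jj_fst c j hj)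
      exact this.symm
    · rw [hf]
      exact m.2
    · intro s hs
      rw [hf, hh]
      refine ⟨φ ⟨s, hs⟩, ?_⟩
      have h1 : s • φ m = (m : E ⊗[k] E) • φ ⟨s, hs⟩ := by
        rw [← map_smul, ← map_smul]
        congr 1
        apply Subtype.ext
        exact mul_comm _ _
      rw [smul_eq_mul, smul_eq_mul] at h1
      rw [mul_comm (φ m), h1, mul_comm]
    · intro r hr
      rw [hf] at hr
      rw [hh]
      have h1 : r • m = 0 := Subtype.ext hr
      have h2 : r • φ m = 0 := by rw [← map_smul, h1, map_zero]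
      exact h2
  · rw [hpq]
    change J q ∈ (pullback c c).basicOpen h
    rw [mem_basicOpen_csE, hh]
    exact hm'

end cd

section main

variable {k : Type u} [Field k] {C : Scheme.{u}} {c : C ⟶ Spec (CommRingCat.of k)}
    {ε : SchemeHomOver (𝟙 (Spec (CommRingCat.of k))) c}

/-- **the diagonal is locally defined by one equation** -/
theorem Geo.cartier_diag (g : Geo c ε) [IsSeparated c] : Eqn.Cartier (pullback.diagonal c) := by
  intro x
  by_cases hx : x ∈ Set.range (pullback.diagonal c)
  · obtain ⟨y, rfl⟩ := hx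
    rcases g.cover y with ⟨z, rfl⟩ | ⟨z, rfl⟩
    · exact DG.exists_eqn_chart c g.jA g.jA_c g.diag z
    · exact DG.exists_eqn_chart c g.jB g.jB_c g.diagB z
  · have hcl : IsClosed (Set.range (pullback.diagonal c)) :=
      (pullback.diagonal c).isClosedEmbedding.isClosed_range
    refine ⟨⟨⟨(Set.range (pullback.diagonal c))ᶜ, hcl.isOpen_compl⟩, 1, IsEqn.one ?_⟩, hx⟩
    ext y
    constructor
    · intro h
      exact (h ⟨y, rfl⟩).elim
    · intro h
      exact h.elim

/-- **the class `δ` of the diagonal** -/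
def Geo.delta (g : Geo c ε) [IsSeparated c] : PicC (pullback c c) :=
  (Eqn.idl (pullback.diagonal c) g.cartier_diag)⁻¹

end main

end Fermat.Agent.J25
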