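import Mathlib
import Fermat.Agent.J25.Sec

/-!
# Evaluation of sections at points with values in rings
-/

set_option autoImplicit false
set_option linter.unusedSectionVars false

universe u

open CategoryTheory CategoryTheory.Limits AlgebraicGeometry TopologicalSpace Opposite

noncomputable section

namespace Fermat.Agent.J25

variable {X Y : Scheme.{u}} {Λ Λ' : Type u} [CommRing Λ] [CommRing Λ']

/-- evaluation of sections at a point with values in `Λ` -/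
def ev (j : Spec (CommRingCat.of Λ) ⟶ X) {U : X.Opens} (h : ⊤ ≤ j ⁻¹ᵁ U) : Γ(X, U) →+* Λ :=
  (Scheme.ΓSpecIso (CommRingCat.of Λ)).hom.hom.comp (pb j h)

theorem ev_rs (j : Spec (CommRingCat.of Λ) ⟶ X) {U V : X.Opens} (h : ⊤ ≤ j ⁻¹ᵁ V) (h' : V ≤ U)
    (s : Γ(X, U)) : ev j h (rs h' s) = ev j (h.trans (Scheme.Hom.preimage_mono j h')) s :=
  congrArg (Scheme.ΓSpecIso (CommRingCat.of Λ)).hom.hom (pb_rs j h h' s)

theorem ev_pb (j : Spec (CommRingCat.of Λ) ⟶ X) (m : X ⟶ Y) {U : Y.Opens} {V : X.Opens}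
    (h : ⊤ ≤ j ⁻¹ᵁ V) (h' : V ≤ m ⁻¹ᵁ U) (s : Γ(Y, U)) :
    ev j h (pb m h' s) = ev (j ≫ m) (h.trans (Scheme.Hom.preimage_mono j h')) s :=
  congrArg (Scheme.ΓSpecIso (CommRingCat.of Λ)).hom.hom (pb_pb j m h' h s)

theorem ev_congr {j j' : Spec (CommRingCat.of Λ) ⟶ X} (hj : j = j') {U : X.Opens}
    (h : ⊤ ≤ j ⁻¹ᵁ U) (h' : ⊤ ≤ j' ⁻¹ᵁ U) (s : Γ(X, U)) : ev j h s = ev j' h' s := by
  subst hj
  rfl

theorem ev_spec (φ : Λ →+* Λ') (j : Spec (CommRingCat.of Λ) ⟶ X) {U : X.Opens}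
    (h : ⊤ ≤ j ⁻¹ᵁ U) (h' : ⊤ ≤ (Spec.map (CommRingCat.ofHom φ) ≫ j) ⁻¹ᵁ U) (s : Γ(X, U)) :
    ev (Spec.map (CommRingCat.ofHom φ) ≫ j) h' s = φ (ev j h s) := by
  have h1 := pb_pb (Spec.map (CommRingCat.ofHom φ)) j h (le_refl _) s
  have h2 : ev (Spec.map (CommRingCat.ofHom φ) ≫ j) h' s =
      (Scheme.ΓSpecIso (CommRingCat.of Λ')).hom.hom
        (pb (Spec.map (CommRingCat.ofHom φ)) (le_refl _) (pb j h s)) :=
    congrArg (Scheme.ΓSpecIso (CommRingCat.of Λ')).hom.hom h1.symm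
  rw [h2]
  have h3 := Scheme.ΓSpecIso_naturality (CommRingCat.ofHom φ)
  have h4 := congrArg (fun f => f.hom (pb j h s)) h3
  have h5 : pb (Spec.map (CommRingCat.ofHom φ)) (le_refl _) (pb j h s) =
      (Spec.map (CommRingCat.ofHom φ)).appTop.hom (pb j h s) := by
    have h6 : (Spec.map (CommRingCat.ofHom φ)).appLE ⊤ ⊤ (le_refl _) =
        (Spec.map (CommRingCat.ofHom φ)).appTop := Scheme.Hom.appLE_eq_app _
    exact congrArg (fun f => f.hom (pb j h s)) h6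
  rw [h5]
  exact h4

theorem ev_spec' (φ : Λ →+* Λ') (s : Γ(Spec (CommRingCat.of Λ), ⊤))
    (h : ⊤ ≤ (Spec.map (CommRingCat.ofHom φ)) ⁻¹ᵁ ⊤) :
    ev (Spec.map (CommRingCat.ofHom φ)) h s =
      φ ((Scheme.ΓSpecIso (CommRingCat.of Λ)).hom s) := by
  have h3 := Scheme.ΓSpecIso_naturality (CommRingCat.ofHom φ)
  have h4 := congrArg (fun f => f.hom s) h3
  have h6 : (Spec.map (CommRingCat.ofHom φ)).appLE ⊤ ⊤ h =
      (Spec.map (CommRingCat.ofHom φ)).appTop := Scheme.Hom.appLE_eq_app _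
  have h5 : pb (Spec.map (CommRingCat.ofHom φ)) h s =
      (Spec.map (CommRingCat.ofHom φ)).appTop.hom s := congrArg (fun f => f.hom s) h6
  change (Scheme.ΓSpecIso (CommRingCat.of Λ')).hom.hom (pb (Spec.map (CommRingCat.ofHom φ)) h s) = _
  rw [h5]
  exact h4

theorem top_le_of_opensRange (j : Spec (CommRingCat.of Λ) ⟶ X) [IsOpenImmersion j] {U : X.Opens}
    (hU : j.opensRange ≤ U) : ⊤ ≤ j ⁻¹ᵁ U := fun x _ => hU ⟨x, rfl⟩

/-- evaluation along an open immersion is bijective -/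
theorem ev_bijective (j : Spec (CommRingCat.of Λ) ⟶ X) [IsOpenImmersion j] {U : X.Opens}
    (hU : j.opensRange = U) (h : ⊤ ≤ j ⁻¹ᵁ U) : Function.Bijective (ev j h) := by
  subst hU
  have h1 : Function.Bijective (Scheme.ΓSpecIso (CommRingCat.of Λ)).hom.hom :=
    (ConcreteCategory.isIso_iff_bijective (Scheme.ΓSpecIso (CommRingCat.of Λ)).hom).mp
      inferInstance
  have h2 : IsIso (j.appLE j.opensRange ⊤ h) := by
    have h3 : j.appLE j.opensRange ⊤ h = j.app j.opensRange ≫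
        (Spec (CommRingCat.of Λ)).presheaf.map (homOfLE h).op := rfl
    have h4 : IsIso (j.app j.opensRange) := Scheme.Hom.isIso_app j _ le_rfl
    have h5 : IsIso (homOfLE h) := by
      have h6 : j ⁻¹ᵁ j.opensRange ≤ ⊤ := le_top
      exact ⟨homOfLE h6, rfl, rfl⟩
    rw [h3]
    infer_instance
  have h6 : Function.Bijective (pb j h) := (ConcreteCategory.isIso_iff_bijective _).mp h2
  exact h1.comp h6

/-- basic opens in terms of the evaluation -/
theorem mem_basicOpen_ev (j : Spec (CommRingCat.of Λ) ⟶ X) {U : X.Opens} (h : ⊤ ≤ j ⁻¹ᵁ U)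
    (s : Γ(X, U)) (y : PrimeSpectrum Λ) :
    j y ∈ X.basicOpen s ↔ y ∈ PrimeSpectrum.basicOpen (ev j h s) := by
  have h1 : j ⁻¹ᵁ X.basicOpen s = (Spec (CommRingCat.of Λ)).basicOpen (pb j h s) := by
    rw [Scheme.preimage_basicOpen]
    have h2 : pb j h s = (Spec (CommRingCat.of Λ)).presheaf.map (homOfLE h).op (j.app U s) := rfl
    rw [h2, Scheme.basicOpen_res]
    exact (inf_eq_right.mpr le_top).symm
  have h3 : y ∈ j ⁻¹ᵁ X.basicOpen s ↔ y ∈ (Spec (CommRingCat.of Λ)).basicOpen (pb j h s) := by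
    rw [h1]
  rw [basicOpen_eq_of_affine'] at h3
  exact h3

end Fermat.Agent.J25
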