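import Mathlib
import Fermat.Agent.J25.Ev
import Fermat.Agent.J25.Hub

/-!
# Base change of ring valued points of a curve
-/

set_option autoImplicit false
set_option linter.unusedSectionVars false

universe u

open CategoryTheory CategoryTheory.Limits AlgebraicGeometry TopologicalSpace Opposite
open scoped TensorProduct

noncomputable section

namespace Fermat.Agent.J25

attribute [-instance] HahnSeries.powerSeriesAlgebra

variable {k : Type u} [Field k] {C : Scheme.{u}} (c : C ⟶ Spec (CommRingCat.of k))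
  (R : Type u) [CommRing R] [Algebra k R] {E : Type u} [CommRing E] [Algebra k E]
  (j : Spec (CommRingCat.of E) ⟶ C) (hj : j ≫ c = sS k E)

/-- the projection `Spec (R ⊗ E) ⟶ Spec E` -/
abbrev inE (k R E : Type u) [CommRing k] [CommRing R] [Algebra k R] [CommRing E] [Algebra k E] :
    Spec (CommRingCat.of (R ⊗[k] E)) ⟶ Spec (CommRingCat.of E) :=
  Spec.map (CommRingCat.ofHom (Algebra.TensorProduct.includeRight :
    E →ₐ[k] R ⊗[k] E).toRingHom)

/-- the projection `Spec (R ⊗ E) ⟶ Spec R` -/
abbrev inR (k R E : Type u) [CommRing k] [CommRing R] [Algebra k R] [CommRing E] [Algebra k E] :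
    Spec (CommRingCat.of (R ⊗[k] E)) ⟶ Spec (CommRingCat.of R) :=
  Spec.map (CommRingCat.ofHom (Algebra.TensorProduct.includeLeftRingHom : R →+* R ⊗[k] E))

theorem isPullback_tensor (k R E : Type u) [CommRing k] [CommRing R] [Algebra k R] [CommRing E]
    [Algebra k E] : IsPullback (inR k R E) (inE k R E) (sS k R) (sS k E) :=
  isPullback_SpecMap_of_isPushout _ _ _ _ (CommRingCat.isPushout_tensorProduct k R E)

/-- the base change of a point with values in `E` -/
def jR : Spec (CommRingCat.of (R ⊗[k] E)) ⟶ CR c R :=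
  pullback.lift (inE k R E ≫ j) (inR k R E)
    (by rw [Category.assoc, hj]; exact (isPullback_tensor k R E).w.symm)

theorem jR_fst : jR c R j hj ≫ pullback.fst c (sS k R) = inE k R E ≫ j :=
  pullback.lift_fst _ _ _

theorem jR_snd : jR c R j hj ≫ pullback.snd c (sS k R) = inR k R E :=
  pullback.lift_snd _ _ _

theorem isPullback_jR :
    IsPullback (jR c R j hj) (inE k R E) (pullback.fst c (sS k R)) j := by
  refine IsPullback.of_right (h₁₂ := pullback.snd c (sS k R)) (h₂₂ := c) (v₁₃ := sS k R) ?_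
    (jR_fst c R j hj) (IsPullback.of_hasPullback c (sS k R)).flip
  rw [jR_snd, hj]
  exact isPullback_tensor k R E

instance isOpenImmersion_jR [IsOpenImmersion j] : IsOpenImmersion (jR c R j hj) :=
  MorphismProperty.of_isPullback (P := @IsOpenImmersion) (isPullback_jR c R j hj).flip
    inferInstance

theorem opensRange_jR [IsOpenImmersion j] :
    (jR c R j hj).opensRange = (pullback.fst c (sS k R)) ⁻¹ᵁ j.opensRange := by
  have h := isPullback_jR c R j hj
  rw [← Scheme.Hom.opensRange_pullbackFst]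
  refine Opens.ext ?_
  change Set.range (jR c R j hj) = Set.range (pullback.fst (pullback.fst c (sS k R)) j)
  have h1 : jR c R j hj = h.isoPullback.hom ≫ pullback.fst (pullback.fst c (sS k R)) j :=
    h.isoPullback_hom_fst.symm
  rw [h1]
  ext x
  constructor
  · rintro ⟨y, rfl⟩
    exact ⟨h.isoPullback.hom y, (Scheme.Hom.comp_apply _ _ _).symm⟩
  · rintro ⟨y, rfl⟩
    refine ⟨h.isoPullback.inv y, ?_⟩
    rw [← Scheme.Hom.comp_apply, Iso.inv_hom_id_assoc]

/-- compatibility with maps of algebras `E → E'` -/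
theorem jR_map {E' : Type u} [CommRing E'] [Algebra k E'] (φ : E →ₐ[k] E')
    (j' : Spec (CommRingCat.of E') ⟶ C) (hj' : j' ≫ c = sS k E')
    (h : j' = Spec.map (CommRingCat.ofHom (φ : E →+* E')) ≫ j) :
    jR c R j' hj' = Spec.map (CommRingCat.ofHom
      (Algebra.TensorProduct.map (AlgHom.id k R) φ : R ⊗[k] E →ₐ[k] R ⊗[k] E').toRingHom) ≫
      jR c R j hj := by
  have e1 : CommRingCat.ofHom (φ : E →+* E') ≫ CommRingCat.ofHom
      (Algebra.TensorProduct.includeRight : E' →ₐ[k] R ⊗[k] E').toRingHom =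
      CommRingCat.ofHom (Algebra.TensorProduct.includeRight : E →ₐ[k] R ⊗[k] E).toRingHom ≫
      CommRingCat.ofHom (Algebra.TensorProduct.map (AlgHom.id k R) φ :
        R ⊗[k] E →ₐ[k] R ⊗[k] E').toRingHom := by
    ext x
    change (1 : R) ⊗ₜ[k] φ x = Algebra.TensorProduct.map (AlgHom.id k R) φ (1 ⊗ₜ x)
    rw [Algebra.TensorProduct.map_tmul]
    rfl
  have e2 : CommRingCat.ofHom (Algebra.TensorProduct.includeLeftRingHom : R →+* R ⊗[k] E') =
      CommRingCat.ofHom (Algebra.TensorProduct.includeLeftRingHom : R →+* R ⊗[k] E) ≫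
      CommRingCat.ofHom (Algebra.TensorProduct.map (AlgHom.id k R) φ :
        R ⊗[k] E →ₐ[k] R ⊗[k] E').toRingHom := by
    ext x
    change x ⊗ₜ[k] (1 : E') = Algebra.TensorProduct.map (AlgHom.id k R) φ (x ⊗ₜ 1)
    rw [Algebra.TensorProduct.map_tmul, map_one]
    rfl
  apply pullback.hom_ext
  · rw [jR_fst, Category.assoc, jR_fst, h, ← Category.assoc, ← Category.assoc, ← Spec.map_comp,
      ← Spec.map_comp, e1]
  · rw [jR_snd, Category.assoc, jR_snd, ← Spec.map_comp, ← e2]

/-- compatibility with base change -/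
theorem jR_mR {S : Type u} [CommRing S] [Algebra k S] (f : R →ₐ[k] S) :
    jR c S j hj ≫ mR c f = Spec.map (CommRingCat.ofHom
      (Algebra.TensorProduct.map f (AlgHom.id k E) : R ⊗[k] E →ₐ[k] S ⊗[k] E).toRingHom) ≫
      jR c R j hj := by
  have e1 : CommRingCat.ofHom (Algebra.TensorProduct.includeRight : E →ₐ[k] S ⊗[k] E).toRingHom =
      CommRingCat.ofHom (Algebra.TensorProduct.includeRight : E →ₐ[k] R ⊗[k] E).toRingHom ≫
      CommRingCat.ofHom (Algebra.TensorProduct.map f (AlgHom.id k E) :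
        R ⊗[k] E →ₐ[k] S ⊗[k] E).toRingHom := by
    ext x
    change (1 : S) ⊗ₜ[k] x = Algebra.TensorProduct.map f (AlgHom.id k E) (1 ⊗ₜ x)
    rw [Algebra.TensorProduct.map_tmul, map_one]
    rfl
  have e2 : CommRingCat.ofHom (f : R →+* S) ≫
      CommRingCat.ofHom (Algebra.TensorProduct.includeLeftRingHom : S →+* S ⊗[k] E) =
      CommRingCat.ofHom (Algebra.TensorProduct.includeLeftRingHom : R →+* R ⊗[k] E) ≫
      CommRingCat.ofHom (Algebra.TensorProduct.map f (AlgHom.id k E) :
        R ⊗[k] E →ₐ[k] S ⊗[k] E).toRingHom := by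
    ext x
    change f x ⊗ₜ[k] (1 : E) = Algebra.TensorProduct.map f (AlgHom.id k E) (x ⊗ₜ 1)
    rw [Algebra.TensorProduct.map_tmul]
    rfl
  apply pullback.hom_ext
  · have h1 : mR c f ≫ pullback.fst c (sS k R) = pullback.fst c (sS k S) := by
      simp only [RelPicard.baseChangeSnd, pullback.lift_fst, Category.comp_id]
    rw [Category.assoc, h1, jR_fst, Category.assoc, jR_fst, ← Category.assoc, ← Spec.map_comp,
      ← e1]
  · have h1 : mR c f ≫ pullback.snd c (sS k R) = pullback.snd c (sS k S) ≫ (sH f).1 := by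
      simp only [RelPicard.baseChangeSnd, pullback.lift_snd]
    rw [Category.assoc, h1, ← Category.assoc, jR_snd, Category.assoc, jR_snd]
    change inR k S E ≫ Spec.map (CommRingCat.ofHom (f : R →+* S)) = _
    rw [← Spec.map_comp, ← Spec.map_comp, e2]

end Fermat.Agent.J25
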