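import Mathlib
import Fermat.Agent.J25.ToPic

/-!
# The kernel of `toPic`
-/

set_option autoImplicit false

universe u v w

open CategoryTheory CategoryTheory.Limits AlgebraicGeometry TopologicalSpace Opposite Polynomial

noncomputable section

namespace Fermat.Agent.J25

attribute [-instance] HahnSeries.powerSeriesAlgebra

section MN

variable {R : Type u} [CommRing R] {S : Subalgebra R (LaurentSeries R)}

theorem mem_S_of_mem {M : (Submodule S (LaurentSeries R))ˣ} {m n : LaurentSeries R}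
    (hm : m ∈ (M : Submodule S (LaurentSeries R)))
    (hn : n ∈ ((M⁻¹ : (Submodule S (LaurentSeries R))ˣ) : Submodule S (LaurentSeries R))) :
    m * n ∈ S := by
  have h5 : m * n ∈ (M : Submodule S (LaurentSeries R)) *
    ((M⁻¹ : (Submodule S (LaurentSeries R))ˣ) : Submodule S (LaurentSeries R)) :=
    Submodule.mul_mem_mul hm hn
  rw [Units.mul_inv, Submodule.mem_one] at h5
  obtain ⟨f, hf⟩ := h5
  rw [← hf]
  exact f.2

theorem mem_of_mul_inv {N : (Submodule S (LaurentSeries R))ˣ} {c : LaurentSeries R}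
    (hN : ∀ m ∈ ((N⁻¹ : (Submodule S (LaurentSeries R))ˣ) : Submodule S (LaurentSeries R)),
      c * m ∈ S) : c ∈ (N : Submodule S (LaurentSeries R)) := by
  have h3 : (1 : LaurentSeries R) ∈ (N : Submodule S (LaurentSeries R)) *
      ((N⁻¹ : (Submodule S (LaurentSeries R))ˣ) : Submodule S (LaurentSeries R)) := by
    rw [Units.mul_inv]
    exact Submodule.one_le.1 le_rfl
  have h4 : ∀ x ∈ (N : Submodule S (LaurentSeries R)) *
      ((N⁻¹ : (Submodule S (LaurentSeries R))ˣ) : Submodule S (LaurentSeries R)),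
      c * x ∈ (N : Submodule S (LaurentSeries R)) := by
    intro x hx
    induction hx using Submodule.mul_induction_on' with
    | mem_mul_mem m hm n hn =>
      have h5 : c * (m * n) = (⟨_, hN n hn⟩ : S) • m := by
        rw [Subalgebra.smul_def, smul_eq_mul]
        ring
      rw [h5]
      exact Submodule.smul_mem _ _ hm
    | add x _ y _ hx hy =>
      rw [mul_add]
      exact add_mem hx hy
  have h6 := h4 1 h3
  rwa [mul_one] at h6

/-- pairs of elements of `M` and of its inverse -/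
structure MN (M : (Submodule S (LaurentSeries R))ˣ) where
  m : LaurentSeries R
  n : LaurentSeries R
  hm : m ∈ (M : Submodule S (LaurentSeries R))
  hn : n ∈ ((M⁻¹ : (Submodule S (LaurentSeries R))ˣ) : Submodule S (LaurentSeries R))
  f : S
  hf : (f : LaurentSeries R) = m * n

/-- exchange -/
def MN.swap {M : (Submodule S (LaurentSeries R))ˣ} (t : MN M⁻¹) : MN M where
  m := t.n
  n := t.m
  hm := by
    have := t.hn
    rwa [inv_inv] at this
  hn := t.hm
  f := t.f
  hf := by rw [t.hf, mul_comm]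

end MN

namespace XD

variable {R : Type u} [CommRing R] {S : Subalgebra R (LaurentSeries R)} {α : LaurentSeries R}
  {X : Scheme.{u}} (D : XD R S α X)

theorem isUnit_rs_basicOpen {U : X.Opens} (f : Γ(X, U)) {W : X.Opens}
    (hW : W ≤ X.basicOpen f) (h : W ≤ U) : IsUnit (rs h f) := by
  have h1 : IsUnit (rs (X.basicOpen_le f) f) := X.toRingedSpace.isUnit_res_basicOpen f
  have h2 := h1.map (rs hW)
  rwa [rs_rs] at h2

theorem isUnit_rs_pa (P : R[X]) {W : X.Opens} (hW : W ≤ D.W P.reverse) (h : W ≤ D.U) :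
    IsUnit (rs h (D.pa P)) := by
  have hWV : W ≤ D.U ⊓ D.V := le_inf h (hW.trans (D.W_le _))
  have h1 := congrArg (rs hWV) (D.rs_pa P)
  rw [map_mul, map_pow, rs_rs, rs_rs, rs_rs] at h1
  rw [h1]
  have h4 : IsUnit (rs (inf_le_left : D.U ⊓ D.V ≤ D.U) D.a) := IsUnit.of_mul_eq_one _ D.haw
  have h5 := h4.map (rs hWV)
  rw [rs_rs] at h5
  exact (isUnit_rs_basicOpen _ hW _).mul (h5.pow _)

theorem exists_MN (M : (Submodule S (LaurentSeries R))ˣ) {x : X} (hx : x ∈ D.U) :
    ∃ t : MN M, x ∈ X.basicOpen (D.sec t.f) := by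
  obtain ⟨m, n, hm, hn, f, hf, h⟩ := D.exists_finF (M := M) hx
  exact ⟨⟨m, n, hm, hn, f, hf⟩, h⟩

/-- gluing of the multiples of a trivialisation -/
theorem mul_exW_mem {M : (Submodule S (LaurentSeries R))ˣ} {P : R[X]} (hP : P.Monic)
    (h1 : ∀ m ∈ (M : Submodule S (LaurentSeries R)), aeval α P * m ∈ S)
    (h2 : ∀ m ∈ ((M⁻¹ : (Submodule S (LaurentSeries R))ˣ) : Submodule S (LaurentSeries R)),
      aeval α P * m ∈ S)
    (F : ∀ t : MN M, Γ(X, X.basicOpen (D.sec t.f))ˣ) (F' : Γ(X, D.W P.reverse)ˣ)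
    (hFF : ∀ (s t : MN M) (h : S) (_ : (h : LaurentSeries R) = t.m * s.n) (W : X.Opens)
      (hs : W ≤ X.basicOpen (D.sec s.f)) (ht : W ≤ X.basicOpen (D.sec t.f)) (hW : W ≤ D.U),
      rs ht (F t : Γ(X, _)) * rs hW (D.sec s.f) = rs hW (D.sec h) * rs hs (F s : Γ(X, _)))
    (hFG : ∀ (s : MN M) (W : X.Opens) (hs : W ≤ X.basicOpen (D.sec s.f))
      (ht : W ≤ D.W P.reverse) (hW : W ≤ D.U),
      rs ht (F' : Γ(X, _)) * rs hW (D.sec s.f) * rs hW (D.pa P) =
        rs hW (D.sec ⟨aeval α P * s.n, h2 _ s.hn⟩) * rs hs (F s : Γ(X, _)))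
    (x : LaurentSeries R) (hx : x ∈ (M : Submodule S (LaurentSeries R))) :
    x * D.exW (coeff_reverse hP) (rs (D.UW_le_W _) (F' : Γ(X, _))) ∈ S := by
  let xn : MN M → S := fun t => ⟨x * t.n, mem_S_of_mem hx t.hn⟩
  have hu : ∀ t : MN M, IsUnit (rs (X.basicOpen_le (D.sec t.f)) (D.sec t.f)) := fun t =>
    isUnit_rs_basicOpen _ le_rfl _
  choose w hw using fun t => (hu t).exists_left_inv
  obtain ⟨y, hy⟩ := sec_glue (X := X) (W := D.U) (fun t : MN M => X.basicOpen (D.sec t.f))
    (fun t => X.basicOpen_le _) (fun z hz => D.exists_MN M hz)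
    (fun t => rs (X.basicOpen_le _) (D.sec (xn t)) * w t * (F t : Γ(X, _))) (fun s t => by
      have hW : X.basicOpen (D.sec s.f) ⊓ X.basicOpen (D.sec t.f) ≤ D.U :=
        inf_le_left.trans (X.basicOpen_le _)
      have hsu := isUnit_rs_basicOpen (D.sec s.f)
        (inf_le_left : X.basicOpen (D.sec s.f) ⊓ X.basicOpen (D.sec t.f) ≤ _) hW
      have htu := isUnit_rs_basicOpen (D.sec t.f)
        (inf_le_right : X.basicOpen (D.sec s.f) ⊓ X.basicOpen (D.sec t.f) ≤ _) hW
      have hws := congrArg (rs (inf_le_left :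
        X.basicOpen (D.sec s.f) ⊓ X.basicOpen (D.sec t.f) ≤ _)) (hw s)
      have hwt := congrArg (rs (inf_le_right :
        X.basicOpen (D.sec s.f) ⊓ X.basicOpen (D.sec t.f) ≤ _)) (hw t)
      rw [map_mul, map_one, rs_rs] at hws hwt
      rw [map_mul, map_mul, map_mul, map_mul, rs_rs, rs_rs]
      have hFst := hFF s t ⟨t.m * s.n, mem_S_of_mem t.hm s.hn⟩ rfl _ inf_le_left inf_le_right hW
      have e : xn s * t.f = xn t * ⟨t.m * s.n, mem_S_of_mem t.hm s.hn⟩ := by
        apply Subtype.ext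
        rw [Subalgebra.coe_mul, Subalgebra.coe_mul, t.hf]
        change x * s.n * (t.m * t.n) = x * t.n * (t.m * s.n)
        ring
      have e' := congrArg (fun z => rs hW (D.sec z)) e
      simp only [map_mul] at e'
      apply (hsu.mul htu).mul_left_cancel
      generalize rs inf_le_left (w s) = ws at *
      generalize rs inf_le_right (w t) = wt at *
      generalize rs _ (D.sec s.f) = a at *
      generalize rs _ (D.sec t.f) = b at *
      generalize rs _ (D.sec (xn s)) = p at *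
      generalize rs _ (D.sec (xn t)) = q at *
      generalize rs _ (D.sec _) = r at *
      generalize rs _ (F s : Γ(X, X.basicOpen (D.sec s.f))) = A at *
      generalize rs _ (F t : Γ(X, X.basicOpen (D.sec t.f))) = B at *
      linear_combination (p * b * A) * hws + A * e' - (q) * hFst - (q * B * a) * hwt)
  have hfin : rs (D.UW_le_U _) (D.pa P) * rs (D.UW_le_U _) y =
      rs (D.UW_le_U _) (D.sec ⟨_, h1 x hx⟩) *
        rs (D.UW_le_W _) (F' : Γ(X, D.W P.reverse)) := by
    refine sec_ext (fun t : MN M => D.UW P.reverse ⊓ X.basicOpen (D.sec t.f))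
      (fun t => inf_le_left) (fun z hz => ?_) fun t => ?_
    · obtain ⟨t, ht⟩ := D.exists_MN M (D.UW_le_U _ hz)
      exact ⟨t, hz, ht⟩
    · have hWU : D.UW P.reverse ⊓ X.basicOpen (D.sec t.f) ≤ D.U :=
        inf_le_left.trans (D.UW_le_U _)
      have hWW : D.UW P.reverse ⊓ X.basicOpen (D.sec t.f) ≤ D.W P.reverse :=
        inf_le_left.trans (D.UW_le_W _)
      rw [map_mul, map_mul, rs_rs, rs_rs, rs_rs, rs_rs]
      have hyt := congrArg (rs (inf_le_right :
        D.UW P.reverse ⊓ X.basicOpen (D.sec t.f) ≤ _)) (hy t)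
      rw [rs_rs, map_mul, map_mul, rs_rs] at hyt
      have hwt := congrArg (rs (inf_le_right :
        D.UW P.reverse ⊓ X.basicOpen (D.sec t.f) ≤ _)) (hw t)
      rw [map_mul, map_one, rs_rs] at hwt
      have hG := hFG t _ inf_le_right hWW hWU
      have htu := isUnit_rs_basicOpen (D.sec t.f)
        (inf_le_right : D.UW P.reverse ⊓ X.basicOpen (D.sec t.f) ≤ _) hWU
      have hPu := D.isUnit_rs_pa P hWW hWU
      have hcP : D.pa P = D.sec ⟨aeval α P, by rw [← D.exU_pa]; exact D.exU_mem _⟩ :=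
        (D.sec_eq_iff.2 (D.exU_pa P).symm).symm
      have e : (⟨_, h1 x hx⟩ : S) * ⟨aeval α P * t.n, h2 _ t.hn⟩ =
          (⟨aeval α P, by rw [← D.exU_pa]; exact D.exU_mem _⟩ : S) *
            (⟨aeval α P, by rw [← D.exU_pa]; exact D.exU_mem _⟩ : S) * xn t := by
        apply Subtype.ext
        change (aeval α P * x) * (aeval α P * t.n) = aeval α P * aeval α P * (x * t.n)
        ring
      have e' := congrArg (fun z => rs hWU (D.sec z)) e
      simp only [map_mul] at e'
      rw [← hcP] at e'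
      rw [hyt]
      apply (htu.mul hPu).mul_left_cancel
      generalize rs inf_le_right (w t) = wt at *
      generalize rs hWU (D.sec t.f) = b at *
      generalize rs hWU (D.pa P) = c at *
      generalize rs hWU (D.sec (xn t)) = q at *
      generalize rs hWU (D.sec ⟨_, h1 x hx⟩) = r at *
      generalize rs hWU (D.sec ⟨aeval α P * t.n, h2 _ t.hn⟩) = r' at *
      generalize rs inf_le_right (F t : Γ(X, X.basicOpen (D.sec t.f))) = B at *
      generalize rs hWW (F' : Γ(X, D.W P.reverse)) = B' at *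
      linear_combination (c * c * q * B) * hwt - B * e' - r * hG
  have hfin2 := congrArg (D.exW (coeff_reverse hP)) hfin
  rw [map_mul, map_mul, exW_U, exW_U, exW_U, exU_sec, D.exU_pa] at hfin2
  have hPu : IsUnit (aeval α P : LaurentSeries R) := by
    rw [← D.exU_pa]
    exact D.isUnit_exU_pa hP
  rw [mul_assoc] at hfin2
  rw [← hPu.mul_left_cancel hfin2]
  exact D.exU_mem _

/-- **(P3 ⇒)** -/
theorem exists_of_cl_eq_one {M : (Submodule S (LaurentSeries R))ˣ} (hM : GG S α M)
    (h : D.cl M hM = 1) : ∃ u u' : LaurentSeries R, u * u' = 1 ∧ u ∈ LV R 0 ∧ u' ∈ LV R 0 ∧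
      ∀ x, x ∈ (M : Submodule S (LaurentSeries R)) ↔ ∃ y ∈ S, x = u * y := by
  obtain ⟨f, hf⟩ : ∃ f : ∀ t : Frm D.gx M, Γ(X, t.O)ˣ, ∀ (s t : Frm D.gx M) (W : X.Opens)
      (hs : W ≤ s.O) (ht : W ≤ t.O), s.g t W hs ht = (ru hs (f s))⁻¹ * ru ht (f t) :=
    Fam.exists_of_cls_eq_one _ _ h
  have hf' : ∀ (s t : Frm D.gx M) (W : X.Opens) (hs : W ≤ s.O) (ht : W ≤ t.O),
      rs ht (f t : Γ(X, t.O)) = (s.g t W hs ht : Γ(X, W)) * rs hs (f s : Γ(X, s.O)) := by
    intro s t W hs ht
    have h1 : s.g t W hs ht * ru hs (f s) = ru ht (f t) := by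
      rw [hf s t W hs ht, mul_comm, mul_inv_cancel_left]
    exact (congrArg Units.val h1).symm
  obtain ⟨P, hP, h1, h2⟩ := id hM
  obtain ⟨t, hti, htO, htc⟩ := D.exists_infF h1 h2
  have hcP : D.sec t.c = D.pa P := by rw [sec_eq_iff, D.exU_pa, htc]
  -- the trivialisation of `M`
  let fr : MN M → Frm D.gx M := fun s => D.finF s.m s.n s.hm s.hn s.f s.hf
  let F : ∀ s : MN M, Γ(X, X.basicOpen (D.sec s.f))ˣ := fun s => f (fr s)
  let F' : Γ(X, D.W P.reverse)ˣ := ru htO.ge (f t)
  have hFF : ∀ (s s' : MN M) (r : S) (_ : (r : LaurentSeries R) = s'.m * s.n) (W : X.Opens)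
      (hs : W ≤ X.basicOpen (D.sec s.f)) (ht : W ≤ X.basicOpen (D.sec s'.f)) (hW : W ≤ D.U),
      rs ht (F s' : Γ(X, _)) * rs hW (D.sec s.f) = rs hW (D.sec r) * rs hs (F s : Γ(X, _)) := by
    intro s s' r hr W hs ht hW
    have e1 : rs ht (F s' : Γ(X, X.basicOpen (D.sec s'.f))) =
        ((fr s).g (fr s') W hs ht : Γ(X, W)) * rs hs (F s : Γ(X, X.basicOpen (D.sec s.f))) :=
      hf' (fr s) (fr s') W hs ht
    have e2 := Frm.g_spec (fr s) (fr s') hs ht hW (n := s.n) (x := s.f) (y := r)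
      (by change _ = ((1 : S) : LaurentSeries R) * s.m * s.n
          rw [OneMemClass.coe_one, one_mul, s.hf])
      (by change _ = ((1 : S) : LaurentSeries R) * s'.m * s.n
          rw [OneMemClass.coe_one, one_mul, hr])
    have e3 : rs hW (D.sec (1 : S)) = 1 := by rw [map_one, map_one]
    change _ * rs hW (D.sec (1 : S)) * rs hW (D.sec s.f) =
      rs hW (D.sec (1 : S)) * rs hW (D.sec r) at e2
    rw [e3, mul_one, one_mul] at e2
    rw [e1, ← e2]
    ring
  have hFG : ∀ (s : MN M) (W : X.Opens) (hs : W ≤ X.basicOpen (D.sec s.f))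
      (ht : W ≤ D.W P.reverse) (hW : W ≤ D.U),
      rs ht (F' : Γ(X, _)) * rs hW (D.sec s.f) * rs hW (D.pa P) =
        rs hW (D.sec ⟨aeval α P * s.n, h2 _ s.hn⟩) * rs hs (F s : Γ(X, _)) := by
    intro s W hs ht hW
    have e1 : rs (ht.trans htO.ge) (f t : Γ(X, t.O)) =
        ((fr s).g t W hs (ht.trans htO.ge) : Γ(X, W)) *
          rs hs (F s : Γ(X, X.basicOpen (D.sec s.f))) := hf' (fr s) t W hs (ht.trans htO.ge)
    have e2 := Frm.g_spec (fr s) t hs (ht.trans htO.ge) hW (n := s.n) (x := s.f)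
      (y := ⟨aeval α P * s.n, h2 _ s.hn⟩)
      (by change _ = ((1 : S) : LaurentSeries R) * s.m * s.n
          rw [OneMemClass.coe_one, one_mul, s.hf])
      (by rw [(t.one hti).1, htc, mul_one])
    have e3 : rs hW (D.sec (1 : S)) = 1 := by rw [map_one, map_one]
    change _ * rs hW (D.sec t.c) * rs hW (D.sec s.f) =
      rs hW (D.sec (1 : S)) * rs hW (D.sec _) at e2
    rw [e3, one_mul, hcP] at e2
    have e4 : rs ht (F' : Γ(X, _)) = rs (ht.trans htO.ge) (f t : Γ(X, t.O)) := by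
      change rs ht (rs _ (f t : Γ(X, t.O))) = _
      rw [rs_rs]
    rw [e4, e1, ← e2]
    ring
  -- the trivialisation of the inverse
  have hI : ∀ s : MN M⁻¹, IsUnit (rs (X.basicOpen_le (D.sec s.f)) (D.sec s.f)) := fun s =>
    isUnit_rs_basicOpen _ le_rfl _
  let Fs : ∀ s : MN M⁻¹, Γ(X, X.basicOpen (D.sec s.f))ˣ := fun s => F s.swap
  let Fi : ∀ s : MN M⁻¹, Γ(X, X.basicOpen (D.sec s.f))ˣ := fun s => (Fs s)⁻¹ * (hI s).unit
  have hFi : ∀ (s : MN M⁻¹) {W : X.Opens} (hs : W ≤ X.basicOpen (D.sec s.f)) (hW : W ≤ D.U),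
      rs hs (Fs s : Γ(X, _)) * rs hs (Fi s : Γ(X, _)) = rs hW (D.sec s.f) := by
    intro s W hs hW
    rw [← map_mul]
    have : (Fs s : Γ(X, X.basicOpen (D.sec s.f))) * (Fi s : Γ(X, _)) =
        rs (X.basicOpen_le (D.sec s.f)) (D.sec s.f) := by
      change (Fs s : Γ(X, X.basicOpen (D.sec s.f))) *
        (((Fs s)⁻¹ * (hI s).unit : Γ(X, X.basicOpen (D.sec s.f))ˣ) : Γ(X, _)) = _
      rw [← Units.val_mul, mul_inv_cancel_left]
      rfl
    rw [this, rs_rs]
  have hrsF : ∀ (s : MN M⁻¹) {W : X.Opens} (hs : W ≤ X.basicOpen (D.sec s.f)),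
      IsUnit (rs hs (Fs s : Γ(X, X.basicOpen (D.sec s.f)))) := fun s W hs =>
    (Fs s).isUnit.map (rs hs)
  have key := D.mul_exW_mem hP h1 h2 F F' hFF hFG
  have key' := D.mul_exW_mem (M := M⁻¹) hP h2 (by rwa [inv_inv]) Fi F'⁻¹
    (by
      intro s s' r hr W hs ht hW
      have e := hFF s'.swap s.swap r (by rw [hr]; exact mul_comm _ _) W ht hs hW
      change rs hs (Fs s : Γ(X, X.basicOpen (D.sec s.f))) * rs hW (D.sec s'.f) =
        rs hW (D.sec r) * rs ht (Fs s' : Γ(X, X.basicOpen (D.sec s'.f))) at e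
      have e1 := hFi s hs hW
      have e2 := hFi s' ht hW
      apply ((hrsF s hs).mul (hrsF s' ht)).mul_left_cancel
      generalize rs hs (Fs s : Γ(X, X.basicOpen (D.sec s.f))) = A at *
      generalize rs ht (Fs s' : Γ(X, X.basicOpen (D.sec s'.f))) = B at *
      generalize rs hs (Fi s : Γ(X, X.basicOpen (D.sec s.f))) = A' at *
      generalize rs ht (Fi s' : Γ(X, X.basicOpen (D.sec s'.f))) = B' at *
      generalize rs hW (D.sec s.f) = a at *
      generalize rs hW (D.sec s'.f) = b at *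
      generalize rs hW (D.sec r) = q at *
      linear_combination (A * a) * e2 - (q * B) * e1 + a * e)
    (by
      intro s W hs ht hW
      have e := hFG s.swap W hs ht hW
      change rs ht (F' : Γ(X, _)) * rs hW (D.sec s.f) * rs hW (D.pa P) = rs hW (D.sec _) *
        rs hs (Fs s : Γ(X, X.basicOpen (D.sec s.f))) at e
      have e1 := hFi s hs hW
      have e2 : rs ht (F' : Γ(X, _)) * rs ht (↑F'⁻¹ : Γ(X, _)) = 1 := by
        rw [← map_mul, Units.mul_inv, map_one]
      have hsu := isUnit_rs_basicOpen (D.sec s.f) hs hW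
      have hPu := D.isUnit_rs_pa P ht hW
      have hF'u : IsUnit (rs ht (F' : Γ(X, _))) := F'.isUnit.map (rs ht)
      have hcP' : D.pa P = D.sec ⟨aeval α P, by rw [← D.exU_pa]; exact D.exU_mem _⟩ :=
        (D.sec_eq_iff.2 (D.exU_pa P).symm).symm
      have e3 : (⟨aeval α P * s.swap.n, h2 _ s.swap.hn⟩ : S) *
          ⟨aeval α P * s.n, by
            have h5 := s.hn
            rw [inv_inv] at h5
            exact h1 _ h5⟩ =
          (⟨aeval α P, by rw [← D.exU_pa]; exact D.exU_mem _⟩ : S) *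
            (⟨aeval α P, by rw [← D.exU_pa]; exact D.exU_mem _⟩ : S) * s.f := by
        apply Subtype.ext
        change (aeval α P * s.m) * (aeval α P * s.n) =
          aeval α P * aeval α P * (s.f : LaurentSeries R)
        rw [s.hf]
        ring
      have e3' := congrArg (fun z => rs hW (D.sec z)) e3
      simp only [map_mul] at e3'
      rw [← hcP'] at e3'
      apply (((hrsF s hs).mul hF'u).mul hPu).mul_left_cancel
      generalize rs hs (Fs s : Γ(X, X.basicOpen (D.sec s.f))) = A at *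
      generalize rs hs (Fi s : Γ(X, X.basicOpen (D.sec s.f))) = A' at *
      generalize rs ht (F' : Γ(X, D.W P.reverse)) = B at *
      generalize rs ht (↑F'⁻¹ : Γ(X, D.W P.reverse)) = B' at *
      generalize rs hW (D.sec s.f) = a at *
      generalize rs hW (D.pa P) = c at *
      generalize rs hW (D.sec _) = q at *
      generalize rs hW (D.sec _) = q' at *
      linear_combination (A * c * a * c) * e2 - (B * c * q') * e1 - q' * e - A * e3')
  set v := D.exW (coeff_reverse hP) (rs (D.UW_le_W _) (F' : Γ(X, _))) with hv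
  set v' := D.exW (coeff_reverse hP) (rs (D.UW_le_W _) (↑F'⁻¹ : Γ(X, _))) with hv'
  have hvv : v' * v = 1 := by
    rw [hv, hv', ← map_mul, ← map_mul, Units.inv_mul, map_one, map_one]
  have hmem : v' ∈ (M : Submodule S (LaurentSeries R)) :=
    mem_of_mul_inv fun m hm => by
      rw [mul_comm]
      exact key' m hm
  refine ⟨v', v, hvv, D.exW_mem _ _, D.exW_mem _ _, fun x => ⟨fun hx => ?_, ?_⟩⟩
  · refine ⟨x * v, key x hx, ?_⟩
    linear_combination (-x) * hvv
  · rintro ⟨y, hy, rfl⟩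
    have : v' * y = (⟨y, hy⟩ : S) • v' := by
      rw [Subalgebra.smul_def, smul_eq_mul, mul_comm]
    rw [this]
    exact Submodule.smul_mem _ _ hmem

end XD

end Fermat.Agent.J25
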