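import Mathlib
import Fermat.Agent.J25.ToPicKer
import Fermat.Agent.J25.Hub2

/-!
# Assembly of `PicData`
-/

set_option autoImplicit false

universe u v w

open CategoryTheory CategoryTheory.Limits AlgebraicGeometry TopologicalSpace Opposite Polynomial
open NeronModelInfra

noncomputable section

namespace Fermat.Agent.J25

attribute [-instance] HahnSeries.powerSeriesAlgebra

variable {k : Type u} [Field k] {C : Scheme.{u}} {c : C ⟶ Spec (CommRingCat.of k)}
    {ε : SchemeHomOver (𝟙 (Spec (CommRingCat.of k))) c}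

theorem GG_of_G {A : Type u} [CommRing A] [Algebra k A] {e : A →ₐ[k] LaurentSeries k}
    {R : Type u} [CommRing R] [Algebra k R] {a : A}
    {M : (Submodule (AR e R) (LaurentSeries R))ˣ} (hM : M ∈ G e (R := R) a) :
    GG (AR e R) (ex e R a) M := hM

theorem G_of_GG {A : Type u} [CommRing A] [Algebra k A] {e : A →ₐ[k] LaurentSeries k}
    {R : Type u} [CommRing R] [Algebra k R] {a : A}
    {M : (Submodule (AR e R) (LaurentSeries R))ˣ} (hM : GG (AR e R) (ex e R a) M) :
    M ∈ G e (R := R) a := hM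

/-- assembly of the comparison data -/
def PicData.ofXD (g : Geo c ε)
    (xd : ∀ (R : Type u) [CommRing R] [Algebra k R],
      XD R (AR g.e R) (ex g.e R g.a) (CR c R))
    (hσ : ∀ (R : Type u) [CommRing R] [Algebra k R], (xd R).σ = secR c ε R)
    (hU : ∀ (R S : Type u) [CommRing R] [Algebra k R] [CommRing S] [Algebra k S]
      (f : R →ₐ[k] S), (xd S).U = mR c f ⁻¹ᵁ (xd R).U)
    (hex : ∀ (R S : Type u) [CommRing R] [Algebra k R] [CommRing S] [Algebra k S]
      (f : R →ₐ[k] S) (x : Γ(CR c R, (xd R).U)),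
      (xd S).exU (pb (mR c f) (hU R S f).le x) = lmap (f : R →+* S) ((xd R).exU x))
    (surj : ∀ (R : Type u) [CommRing R] [Algebra k R] (l : PicC (CR c R)),
      PicC.map (secR c ε R) l = 1 → ∃ (M : (Submodule (AR g.e R) (LaurentSeries R))ˣ)
        (hM : GG (AR g.e R) (ex g.e R g.a) M), (xd R).cl M hM = l) : PicData g where
  toPic R _ _ := (xd R).toPic (G g.e (R := R) g.a) fun _ h => h
  sec R _ _ M := by
    rw [← hσ]
    exact (xd R).map_σ_cl M.2
  surj R _ _ l hl := by
    obtain ⟨M, hM, h⟩ := surj R l hl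
    exact ⟨⟨M, hM⟩, h⟩
  ker R _ _ M := by
    change (xd R).cl M.1 M.2 = 1 ↔ _
    constructor
    · intro h
      obtain ⟨u, u', huu, hu, hu', hM⟩ := (xd R).exists_of_cl_eq_one M.2 h
      refine ⟨u, ⟨hu, ?_⟩, hM⟩
      have h1 := coeff_mul_bot hu hu'
      rw [huu, add_zero, HahnSeries.coeff_one, if_pos rfl] at h1
      exact IsUnit.of_mul_eq_one _ h1.symm
    · rintro ⟨u, hu, hM⟩
      obtain ⟨v, hv, huv⟩ := hu.exists_inv
      refine (xd R).cl_eq_one M.2 huv hu.1 hv.1 ?_ ?_
      · exact (hM u).2 ⟨1, one_mem _, (mul_one u).symm⟩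
      · refine mem_of_mul_inv fun m hm => ?_
        rw [inv_inv] at hm
        obtain ⟨y, hy, rfl⟩ := (hM m).1 hm
        rwa [← mul_assoc, mul_comm v u, huv, one_mul]
  nat R S _ _ _ _ f M := by
    refine ((xd R).map_cl (xd S) (mR c f) (lmap (f : R →+* S)) (hU R S f) (hex R S f)
      M.2 (bc f M).2 (fun x hx => ?_) fun x hx => ?_).symm
    · rw [bc_val]
      exact Submodule.subset_span ⟨x, hx, rfl⟩
    · have h1 : (((bc f M : G g.e (R := S) g.a) : (Submodule (AR g.e S) (LaurentSeries S))ˣ))⁻¹ =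
          ((bc f M⁻¹ : G g.e (R := S) g.a) : (Submodule (AR g.e S) (LaurentSeries S))ˣ) := by
        rw [map_inv]
        rfl
      rw [h1, bc_val]
      exact Submodule.subset_span ⟨x, hx, rfl⟩

end Fermat.Agent.J25
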