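import Mathlib
import Fermat.Agent.J25.DX2
import Fermat.Agent.J25.DX3
import Fermat.Agent.J25.Diag4
import Fermat.Agent.J25.AJ2
import Fermat.Agent.J25.Mx
import Fermat.Agent.J25.JR
import Fermat.Agent.J25.PicD

/-!
# The class of the diagonal and the classes of points
-/

set_option autoImplicit false

universe u v w

open CategoryTheory CategoryTheory.Limits AlgebraicGeometry TopologicalSpace Opposite
open NeronModelInfra AlgebraicGeometry.RelPicard
open scoped TensorProduct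

noncomputable section

namespace Fermat.Agent.J25.DX

attribute [-instance] HahnSeries.powerSeriesAlgebra

variable {k : Type u} [Field k] {C : Scheme.{u}} {c : C ⟶ Spec (CommRingCat.of k)}
    {ε : SchemeHomOver (𝟙 (Spec (CommRingCat.of k))) c} (g : Geo c ε)
    {R : Type u} [CommRing R] [Algebra k R]

/-- the graph of a point of `U` factors through `U_R` -/
theorem graph_ptA (x : g.A →ₐ[k] R) : graph (AJ.ptA g x) =
    Spec.map (CommRingCat.ofHom (Mx.evx x : R ⊗[k] g.A →+* R)) ≫ jR c R g.jA g.jA_c := by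
  apply pullback.hom_ext
  · rw [graph_fst, Category.assoc, jR_fst, ← Category.assoc, ← Spec.map_comp]
    change Spec.map (CommRingCat.ofHom (x : g.A →+* R)) ≫ g.jA = _
    congr 2
    ext b
    change x b = Mx.evx x (1 ⊗ₜ b)
    rw [Mx.evx_tmul, one_mul]
  · rw [graph_snd, Category.assoc, jR_snd, ← Spec.map_comp, ← Spec.map_id]
    congr 1
    ext r
    change r = Mx.evx x (r ⊗ₜ 1)
    rw [Mx.evx_tmul, map_one, mul_one]

theorem ev_eq_zero_iff {Λ : Type u} [CommRing Λ] {X : Scheme.{u}}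
    (j : Spec (CommRingCat.of Λ) ⟶ X) {U : X.Opens} (h : ⊤ ≤ j ⁻¹ᵁ U) (s : Γ(X, U)) :
    ev j h s = 0 ↔ pb j h s = 0 := by
  have h1 : Function.Injective (Scheme.ΓSpecIso (CommRingCat.of Λ)).hom.hom :=
    ((ConcreteCategory.isIso_iff_bijective (Scheme.ΓSpecIso (CommRingCat.of Λ)).hom).mp
      inferInstance).1
  exact (map_eq_zero_iff _ h1)

/-- **the class of the ideal of a point** -/
theorem cl_mx [IsSeparated c] (D : XD R (AR g.e R) (ex g.e R g.a) (CR c R))
    (hU : ⊤ ≤ jR c R g.jA g.jA_c ⁻¹ᵁ D.U)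
    (hex : ∀ y : Γ(CR c R, D.U), D.exU y = exR g.e R (ev (jR c R g.jA g.jA_c) hU y))
    (x : g.A →ₐ[k] R) :
    D.cl (mx g.mxH x).1 (mx g.mxH x).2 =
      Eqn.idl (graph (AJ.ptA g x)) (cartier_graph g.cartier_diag _) := by
  have hj : graph (AJ.ptA g x) ⁻¹ᵁ D.U = ⊤ := by
    rw [eq_top_iff, graph_ptA]
    exact fun y _ => hU (x := Spec.map (CommRingCat.ofHom (Mx.evx x : R ⊗[k] g.A →+* R)) y) trivial
  refine cl_eq_idl D (graph (AJ.ptA g x)) hj (fun m hm => mem_AR_of_mem_mx (h := g.mxH) (x := x) hm)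
    (fun y => ?_) _ _
  have hj' : ⊤ ≤ graph (AJ.ptA g x) ⁻¹ᵁ D.U := hj.ge
  have h1 : pb (graph (AJ.ptA g x)) (le_refl (graph (AJ.ptA g x) ⁻¹ᵁ D.U)) (D.sec y) = 0 ↔
      ev (graph (AJ.ptA g x)) hj' (D.sec y) = 0 := by
    rw [ev_eq_zero_iff]
    constructor
    · intro h
      have h2 := congrArg (rs hj') h
      rw [rs_pb, map_zero] at h2
      exact h2
    · intro h
      have h2 := congrArg (rs (le_top : graph (AJ.ptA g x) ⁻¹ᵁ D.U ≤ ⊤)) h
      rw [rs_pb, map_zero] at h2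
      exact h2
  have hj'' : ⊤ ≤ (Spec.map (CommRingCat.ofHom (Mx.evx x : R ⊗[k] g.A →+* R)) ≫
      jR c R g.jA g.jA_c) ⁻¹ᵁ D.U := by
    rw [← graph_ptA]
    exact hj'
  rw [h1, ev_congr (graph_ptA g x) hj' hj'', ev_spec _ _ hU]
  change Mx.evx x (ev (jR c R g.jA g.jA_c) hU (D.sec y)) = 0 ↔ _
  have h3 : exR g.e R (ev (jR c R g.jA g.jA_c) hU (D.sec y)) = y := by
    rw [← hex, XD.exU_sec]
  constructor
  · intro h
    exact (mem_mx (h := g.mxH)).mpr ⟨_, h, h3⟩
  · intro h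
    obtain ⟨t, ht, hty⟩ := (mem_mx (h := g.mxH)).mp h
    have h4 : t = ev (jR c R g.jA g.jA_c) hU (D.sec y) :=
      exR_injective (e := g.e) g.mxH.inj (hty.trans h3.symm)
    rw [← h4]
    exact ht

/-- **(δ)**: the diagonal class and the classes of points -/
theorem map_delta [IsSeparated c] (D : XD R (AR g.e R) (ex g.e R g.a) (CR c R))
    (hU : ⊤ ≤ jR c R g.jA g.jA_c ⁻¹ᵁ D.U)
    (hex : ∀ y : Γ(CR c R, D.U), D.exU y = exR g.e R (ev (jR c R g.jA g.jA_c) hU y))
    (x : g.A →ₐ[k] R) :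
    PicC.map (baseChangeSnd c (AJ.ptA g x)) g.delta =
      (D.cl (mx g.mxH x).1 (mx g.mxH x).2)⁻¹ := by
  rw [Geo.delta, map_inv, map_idl_diagonal g.cartier_diag (AJ.ptA g x)
    (cartier_graph g.cartier_diag _), cl_mx g D hU hex x]

end Fermat.Agent.J25.DX
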