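import Mathlib
import Fermat.Agent.J25.JR

/-!
# The geometric datum: opens of the curve
-/

set_option autoImplicit false
set_option linter.unusedSectionVars false

universe u

open CategoryTheory CategoryTheory.Limits AlgebraicGeometry TopologicalSpace Opposite
open scoped TensorProduct
open NeronModelInfra

noncomputable section

namespace Fermat.Agent.J25

attribute [-instance] HahnSeries.powerSeriesAlgebra

/-- the range of an open immersion in a cartesian square -/
theorem opensRange_of_isPullback {P X Y Z : Scheme.{u}} {p : P ⟶ X} {q : P ⟶ Y} {f : X ⟶ Z}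
    {g : Y ⟶ Z} (h : IsPullback p q f g) [IsOpenImmersion g] [IsOpenImmersion p] :
    p.opensRange = f ⁻¹ᵁ g.opensRange := by
  rw [← Scheme.Hom.opensRange_pullbackFst]
  refine Opens.ext ?_
  change Set.range p = Set.range (pullback.fst f g)
  rw [← h.isoPullback_hom_fst]
  ext x
  constructor
  · rintro ⟨y, rfl⟩
    exact ⟨h.isoPullback.hom y, (Scheme.Hom.comp_apply _ _ _).symm⟩
  · rintro ⟨y, rfl⟩
    refine ⟨h.isoPullback.inv y, ?_⟩
    rw [← Scheme.Hom.comp_apply, Iso.inv_hom_id_assoc]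

/-- evaluation along an open immersion as an isomorphism -/
def evE {X : Scheme.{u}} {Λ : Type u} [CommRing Λ] (j : Spec (CommRingCat.of Λ) ⟶ X)
    [IsOpenImmersion j] {U : X.Opens} (hU : j.opensRange = U) : Γ(X, U) ≃+* Λ :=
  RingEquiv.ofBijective (ev j (top_le_of_opensRange j hU.le)) (ev_bijective j hU _)

theorem evE_apply {X : Scheme.{u}} {Λ : Type u} [CommRing Λ] (j : Spec (CommRingCat.of Λ) ⟶ X)
    [IsOpenImmersion j] {U : X.Opens} (hU : j.opensRange = U) (s : Γ(X, U)) :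
    evE j hU s = ev j (top_le_of_opensRange j hU.le) s := rfl

theorem ev_evE_symm {X : Scheme.{u}} {Λ : Type u} [CommRing Λ] (j : Spec (CommRingCat.of Λ) ⟶ X)
    [IsOpenImmersion j] {U : X.Opens} (hU : j.opensRange = U) (h : ⊤ ≤ j ⁻¹ᵁ U) (x : Λ) :
    ev j h ((evE j hU).symm x) = x := (evE j hU).apply_symm_apply x

variable {k : Type u} [Field k] {C : Scheme.{u}} {c : C ⟶ Spec (CommRingCat.of k)}
  {ε : SchemeHomOver (𝟙 (Spec (CommRingCat.of k))) c} (g : Geo c ε)

namespace Geo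

/-- the affine open `C ∖ ∞` -/
def UA : C.Opens := g.jA.opensRange

/-- the affine neighbourhood of `∞` -/
def UB : C.Opens := g.jB.opensRange

/-- the open immersion of the intersection -/
def jD : Spec (CommRingCat.of g.D) ⟶ C :=
  Spec.map (CommRingCat.ofHom (algebraMap g.A g.D)) ≫ g.jA

theorem jD_eq_A : g.jD = Spec.map (CommRingCat.ofHom (algebraMap g.A g.D)) ≫ g.jA := rfl

theorem jD_eq_B : g.jD = Spec.map (CommRingCat.ofHom (algebraMap g.B g.D)) ≫ g.jB := g.pb.w

theorem jD_c : g.jD ≫ c = sS k g.D := by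
  rw [jD_eq_A, Category.assoc, g.jA_c, ← Spec.map_comp, ← CommRingCat.ofHom_comp,
    ← IsScalarTower.algebraMap_eq]

instance oDA : IsOpenImmersion (Spec.map (CommRingCat.ofHom (algebraMap g.A g.D))) :=
  MorphismProperty.of_isPullback (P := @IsOpenImmersion) g.pb.flip inferInstance

instance oDB : IsOpenImmersion (Spec.map (CommRingCat.ofHom (algebraMap g.B g.D))) :=
  MorphismProperty.of_isPullback (P := @IsOpenImmersion) g.pb inferInstance

instance oD : IsOpenImmersion g.jD := by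
  unfold jD
  infer_instance

theorem opensRange_jD : g.jD.opensRange = g.UA ⊓ g.UB := by
  have h := opensRange_of_isPullback g.pb
  refine Opens.ext (Set.ext fun x => ?_)
  constructor
  · rintro ⟨y, rfl⟩
    refine ⟨⟨Spec.map (CommRingCat.ofHom (algebraMap g.A g.D)) y, ?_⟩,
      ⟨Spec.map (CommRingCat.ofHom (algebraMap g.B g.D)) y, ?_⟩⟩
    · rw [jD_eq_A]; rfl
    · rw [jD_eq_B]; rfl
  · rintro ⟨⟨y, rfl⟩, hx⟩
    have h1 : y ∈ g.jA ⁻¹ᵁ g.jB.opensRange := hx
    rw [← h] at h1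
    obtain ⟨z, rfl⟩ := h1
    exact ⟨z, rfl⟩

/-- the function `a` on the curve -/
def aC : Γ(C, g.UA) := (evE g.jA (U := g.UA) rfl).symm g.a

/-- the function `w` on the curve -/
def wC : Γ(C, g.UB) := (evE g.jB (U := g.UB) rfl).symm g.w

theorem ev_aC (h : ⊤ ≤ g.jA ⁻¹ᵁ g.UA) : ev g.jA h g.aC = g.a := ev_evE_symm _ _ _ _

theorem ev_wC (h : ⊤ ≤ g.jB ⁻¹ᵁ g.UB) : ev g.jB h g.wC = g.w := ev_evE_symm _ _ _ _

theorem top_le_UA : ⊤ ≤ g.jA ⁻¹ᵁ g.UA := fun x _ => ⟨x, rfl⟩

theorem top_le_UB : ⊤ ≤ g.jB ⁻¹ᵁ g.UB := fun x _ => ⟨x, rfl⟩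

theorem basicOpen_aC : C.basicOpen g.aC = g.UA ⊓ g.UB := by
  have hr := PrimeSpectrum.localization_away_comap_range g.D g.a
  have hm := mem_basicOpen_ev g.jA g.top_le_UA g.aC
  rw [ev_aC] at hm
  rw [← opensRange_jD]
  refine Opens.ext (Set.ext fun x => ?_)
  constructor
  · intro hx
    have hx' : x ∈ C.basicOpen g.aC := hx
    obtain ⟨y, rfl⟩ := C.basicOpen_le g.aC hx'
    have h1 : y ∈ (PrimeSpectrum.basicOpen g.a : Set (PrimeSpectrum g.A)) := (hm y).mp hx'
    rw [← hr] at h1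
    obtain ⟨z, rfl⟩ := h1
    exact ⟨z, rfl⟩
  · rintro ⟨z, rfl⟩
    have h1 : (PrimeSpectrum.comap (algebraMap g.A g.D) z) ∈
        (PrimeSpectrum.basicOpen g.a : Set (PrimeSpectrum g.A)) := by
      rw [← hr]
      exact ⟨z, rfl⟩
    exact (hm _).mpr h1

theorem basicOpen_wC : C.basicOpen g.wC = g.UA ⊓ g.UB := by
  have hr := PrimeSpectrum.localization_away_comap_range g.D g.w
  have hm := mem_basicOpen_ev g.jB g.top_le_UB g.wC
  rw [ev_wC] at hm
  rw [← opensRange_jD]
  refine Opens.ext (Set.ext fun x => ?_)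
  constructor
  · intro hx
    have hx' : x ∈ C.basicOpen g.wC := hx
    obtain ⟨y, rfl⟩ := C.basicOpen_le g.wC hx'
    have h1 : y ∈ (PrimeSpectrum.basicOpen g.w : Set (PrimeSpectrum g.B)) := (hm y).mp hx'
    rw [← hr] at h1
    obtain ⟨z, rfl⟩ := h1
    change g.jB _ ∈ Set.range g.jD
    rw [jD_eq_B]
    exact ⟨z, rfl⟩
  · intro hx
    change x ∈ Set.range g.jD at hx
    rw [jD_eq_B] at hx
    obtain ⟨z, rfl⟩ := hx
    have h1 : (PrimeSpectrum.comap (algebraMap g.B g.D) z) ∈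
        (PrimeSpectrum.basicOpen g.w : Set (PrimeSpectrum g.B)) := by
      rw [← hr]
      exact ⟨z, rfl⟩
    exact (hm _).mpr h1

theorem UA_sup_UB : g.UA ⊔ g.UB = ⊤ := by
  rw [eq_top_iff]
  intro x _
  rcases g.cover x with h | h
  · exact Or.inl h
  · exact Or.inr h

/-! ## The expansions -/

theorem eD_aw : g.eD (algebraMap g.A g.D g.a) * g.eD (algebraMap g.B g.D g.w) = 1 := by
  rw [← map_mul, g.haw, map_one]

theorem w_expansion : g.eD (algebraMap g.B g.D g.w) ∈ LV k g.d ∧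
    (g.eD (algebraMap g.B g.D g.w)).coeff g.d = 1 := by
  set x := g.eD (algebraMap g.A g.D g.a) with hx
  set y := g.eD (algebraMap g.B g.D g.w) with hy
  have hxy : x * y = 1 := g.eD_aw
  have hx0 : x ≠ 0 := left_ne_zero_of_mul_eq_one hxy
  have hy0 : y ≠ 0 := right_ne_zero_of_mul_eq_one hxy
  have hxo : x.order = -(g.d : ℤ) := by
    apply le_antisymm
    · exact HahnSeries.order_le_of_coeff_ne_zero (by rw [g.ea_coeff]; exact one_ne_zero)
    · by_contra h
      push Not at h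
      have h1 := HahnSeries.leadingCoeff_ne_zero.mpr hx0
      rw [HahnSeries.leadingCoeff_eq] at h1
      exact h1 (g.ea_mem _ h)
  have hyo : y.order = g.d := by
    have h1 := HahnSeries.order_mul hx0 hy0
    rw [hxy, HahnSeries.order_one, hxo] at h1
    linarith
  have h2 : (x * y).coeff (x.order + y.order) = x.leadingCoeff * y.leadingCoeff :=
    HahnSeries.coeff_mul_order_add_order x y
  rw [hxy, hxo, hyo, neg_add_cancel, HahnSeries.coeff_one, if_pos rfl,
    HahnSeries.leadingCoeff_eq, HahnSeries.leadingCoeff_eq, hxo, hyo, g.ea_coeff, one_mul] at h2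
  refine ⟨fun i hi => HahnSeries.coeff_eq_zero_of_lt_order (by rw [hyo]; exact hi), h2.symm⟩

end Geo

end Fermat.Agent.J25
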