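import Mathlib
import Fermat.Agent.J25.GeoC
import Fermat.Agent.J25.XD

/-!
# The relative curve over a ring attached to the geometric datum
-/

set_option autoImplicit false
set_option linter.unusedSectionVars false
set_option linter.style.haveILetI false

universe u

open CategoryTheory CategoryTheory.Limits AlgebraicGeometry TopologicalSpace Opposite Polynomial
open scoped TensorProduct
open NeronModelInfra

noncomputable section

namespace Fermat.Agent.J25

attribute [-instance] HahnSeries.powerSeriesAlgebra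

/-! ## Algebra -/

namespace GX

variable {k : Type u} [Field k] (R : Type u) [CommRing R] [Algebra k R]
  {B : Type u} [CommRing B] [Algebra k B]

/-- the constants and `1 ⊗ w` -/
def phi (w : B) : R[X] →+* R ⊗[k] B :=
  eval₂RingHom (Algebra.TensorProduct.includeLeftRingHom : R →+* R ⊗[k] B) (1 ⊗ₜ w)

theorem phi_map (w : B) (P : k[X]) :
    phi R w (P.map (algebraMap k R)) = (1 : R) ⊗ₜ[k] (aeval w P) := by
  have h : (phi R w).comp (mapRingHom (algebraMap k R)) =
      (Algebra.TensorProduct.includeRight : B →ₐ[k] R ⊗[k] B).toRingHom.comp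
        (aeval (R := k) w).toRingHom := by
    refine Polynomial.ringHom_ext (fun r => ?_) ?_
    · change phi R w ((Polynomial.C r : k[X]).map (algebraMap k R)) =
        (1 : R) ⊗ₜ[k] (aeval (R := k) w (Polynomial.C r))
      rw [map_C, aeval_C, phi, coe_eval₂RingHom, eval₂_C]
      change algebraMap k R r ⊗ₜ[k] (1 : B) = _
      rw [Algebra.algebraMap_eq_smul_one, Algebra.algebraMap_eq_smul_one,
        TensorProduct.smul_tmul]
    · change phi R w ((X : k[X]).map (algebraMap k R)) = (1 : R) ⊗ₜ[k] (aeval (R := k) w X)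
      rw [map_X, aeval_X, phi, coe_eval₂RingHom, eval₂_X]
  exact congrArg (fun f => f P) h

/-- base change of finiteness -/
theorem phi_finite {w : B} (h : (aeval (R := k) w).toRingHom.Finite) : (phi (k := k) R w).Finite := by
  letI := (aeval (R := k) w).toRingHom.toAlgebra
  have hf : Module.Finite k[X] B := h
  obtain ⟨s, hs⟩ := hf.fg_top
  letI := (phi (k := k) R w).toAlgebra
  change Module.Finite R[X] (R ⊗[k] B)
  classical
  refine ⟨⟨s.image (fun b => (1 : R) ⊗ₜ[k] b), ?_⟩⟩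
  rw [eq_top_iff]
  have key : ∀ (b : B) (r : R), r ⊗ₜ[k] b ∈
      Submodule.span R[X] ((s.image (fun b => (1 : R) ⊗ₜ[k] b) : Finset (R ⊗[k] B)) :
        Set (R ⊗[k] B)) := by
    intro b
    have hb : b ∈ Submodule.span k[X] (s : Set B) := by rw [hs]; trivial
    induction hb using Submodule.span_induction with
    | mem b hb =>
      intro r
      have h1 : r ⊗ₜ[k] b = (C r : R[X]) • ((1 : R) ⊗ₜ[k] b) := by
        rw [Algebra.smul_def]
        change _ = phi R w (C r) * _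
        rw [phi, coe_eval₂RingHom, eval₂_C]
        change _ = (r ⊗ₜ[k] (1 : B)) * _
        rw [Algebra.TensorProduct.tmul_mul_tmul, mul_one, one_mul]
      rw [h1]
      refine Submodule.smul_mem _ _ (Submodule.subset_span ?_)
      rw [Finset.coe_image]
      exact ⟨b, hb, rfl⟩
    | zero => intro r; rw [TensorProduct.tmul_zero]; exact zero_mem _
    | add x y _ _ hx hy => intro r; rw [TensorProduct.tmul_add]; exact add_mem (hx r) (hy r)
    | smul P x _ hx =>
      intro r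
      have h1 : r ⊗ₜ[k] (P • x) = (P.map (algebraMap k R) : R[X]) • (r ⊗ₜ[k] x) := by
        rw [Algebra.smul_def, Algebra.smul_def]
        change r ⊗ₜ[k] (aeval w P * x) = phi R w (P.map (algebraMap k R)) * _
        rw [phi_map, Algebra.TensorProduct.tmul_mul_tmul, one_mul]
      rw [h1]
      exact Submodule.smul_mem _ _ (hx r)
  intro t _
  induction t using TensorProduct.induction_on with
  | zero => exact zero_mem _
  | tmul r b => exact key b r
  | add x y hx hy => exact add_mem (hx trivial) (hy trivial)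

variable {R}

theorem exists_basis_repr (x : R ⊗[k] B) : ∃ (s : Finset (Module.Basis.ofVectorSpaceIndex k R))
    (f : Module.Basis.ofVectorSpaceIndex k R → B),
      x = ∑ i ∈ s, (Module.Basis.ofVectorSpace k R i) ⊗ₜ[k] f i := by
  classical
  let b := Module.Basis.ofVectorSpace k R
  refine ⟨(TensorProduct.equivFinsuppOfBasisLeft b x).support,
    TensorProduct.equivFinsuppOfBasisLeft b x, ?_⟩
  conv_lhs => rw [← (TensorProduct.equivFinsuppOfBasisLeft b).symm_apply_apply x]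
  rw [TensorProduct.equivFinsuppOfBasisLeft_symm_apply]
  rfl

/-- divisibility by `w` after base change -/
theorem dvd_of_mem (e : B →ₐ[k] LaurentSeries k) {w : B} {d : ℤ}
    (h : ∀ b : B, e b ∈ LV k d → w ∣ b) {x : R ⊗[k] B} (hx : exR e R x ∈ LV R d) :
    ((1 : R) ⊗ₜ[k] w) ∣ x := by
  obtain ⟨s, f, rfl⟩ := exists_basis_repr x
  refine Finset.dvd_sum fun i hi => ?_
  have h1 : e (f i) ∈ LV k d := by
    intro n hn
    have h2 := hx n hn
    rw [map_sum, HahnSeries.coeff_sum] at h2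
    simp only [exR_tmul, smul_ex_coeff] at h2
    exact linearIndependent_iff'.mp (Module.Basis.ofVectorSpace k R).linearIndependent s _ h2 i hi
  obtain ⟨b, hb⟩ := h _ h1
  rw [hb]
  refine ⟨(Module.Basis.ofVectorSpace k R i) ⊗ₜ[k] b, ?_⟩
  rw [Algebra.TensorProduct.tmul_mul_tmul, one_mul]

theorem exR_mem_LV (e : B →ₐ[k] LaurentSeries k) (h : ∀ b : B, e b ∈ LV k 0) (x : R ⊗[k] B) :
    exR e R x ∈ LV R 0 := by
  induction x using TensorProduct.induction_on with
  | zero => rw [map_zero]; exact zero_mem _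
  | tmul r b => rw [exR_tmul]; exact Submodule.smul_mem _ _ (ex_mem_LV e (h b))
  | add x y hx hy => rw [map_add]; exact add_mem hx hy

theorem exR_comp {D : Type u} [CommRing D] [Algebra k D] (eD : D →ₐ[k] LaurentSeries k)
    (φ : B →ₐ[k] D) (x : R ⊗[k] B) :
    exR eD R (Algebra.TensorProduct.map (AlgHom.id k R) φ x) = exR (eD.comp φ) R x := by
  induction x using TensorProduct.induction_on with
  | zero => simp
  | tmul r b => rw [Algebra.TensorProduct.map_tmul, exR_tmul, exR_tmul]; rfl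
  | add x y hx hy => rw [map_add, map_add, map_add, hx, hy]

/-- the augmentation over `R` -/
def augR (R : Type u) [CommRing R] [Algebra k R] (aug : B →ₐ[k] k) : R ⊗[k] B →ₐ[R] R :=
  Algebra.TensorProduct.lift (AlgHom.id R R) ((Algebra.ofId k R).comp aug)
    fun _ _ => Commute.all _ _

theorem augR_tmul (aug : B →ₐ[k] k) (r : R) (b : B) :
    augR R aug (r ⊗ₜ b) = r * algebraMap k R (aug b) := by
  rw [augR, Algebra.TensorProduct.lift_tmul]
  rfl

theorem augR_eq (e : B →ₐ[k] LaurentSeries k) (aug : B →ₐ[k] k)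
    (h : ∀ b, aug b = (e b).coeff 0) (x : R ⊗[k] B) : augR R aug x = (exR e R x).coeff 0 := by
  induction x using TensorProduct.induction_on with
  | zero => simp
  | tmul r b =>
    rw [augR_tmul, exR_tmul, smul_ex_coeff, h, Algebra.smul_def, mul_comm]
  | add x y hx hy => rw [map_add, map_add, HahnSeries.coeff_add, hx, hy]

end GX

/-! ## Geometry -/

/-- the constants attached to a morphism to `Spec R` -/
def cstM {X : Scheme.{u}} {R : Type u} [CommRing R] (m : X ⟶ Spec (CommRingCat.of R)) :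
    R →+* Γ(X, ⊤) :=
  (pb m (show (⊤ : X.Opens) ≤ m ⁻¹ᵁ ⊤ from fun _ _ => trivial)).comp
    (Scheme.ΓSpecIso (CommRingCat.of R)).inv.hom

theorem ev_cstM {X : Scheme.{u}} {R Λ : Type u} [CommRing R] [CommRing Λ]
    (j : Spec (CommRingCat.of Λ) ⟶ X) (m : X ⟶ Spec (CommRingCat.of R)) (φ : R →+* Λ)
    (hm : j ≫ m = Spec.map (CommRingCat.ofHom φ)) (h : ⊤ ≤ j ⁻¹ᵁ ⊤) (r : R) :
    ev j h (cstM m r) = φ r := by
  have h2 : (Scheme.ΓSpecIso (CommRingCat.of R)).hom
      ((Scheme.ΓSpecIso (CommRingCat.of R)).inv.hom r) = r :=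
    Iso.inv_hom_id_apply (Scheme.ΓSpecIso (CommRingCat.of R)) r
  have h1 := ev_pb j m h (show (⊤ : X.Opens) ≤ m ⁻¹ᵁ ⊤ from fun _ _ => trivial)
    ((Scheme.ΓSpecIso (CommRingCat.of R)).inv.hom r)
  have h3 : (⊤ : (Spec (CommRingCat.of Λ)).Opens) ≤ (Spec.map (CommRingCat.ofHom φ)) ⁻¹ᵁ ⊤ :=
    fun _ _ => trivial
  have h4 := ev_congr hm (show (⊤ : (Spec (CommRingCat.of Λ)).Opens) ≤ (j ≫ m) ⁻¹ᵁ ⊤ from
    fun _ _ => trivial) h3
    ((Scheme.ΓSpecIso (CommRingCat.of R)).inv.hom r)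
  have h5 := ev_spec' φ ((Scheme.ΓSpecIso (CommRingCat.of R)).inv.hom r) h3
  rw [h2] at h5
  exact h1.trans (h4.trans h5)

variable {k : Type u} [Field k] {C : Scheme.{u}} {c : C ⟶ Spec (CommRingCat.of k)}
  {ε : SchemeHomOver (𝟙 (Spec (CommRingCat.of k))) c} (g : Geo c ε)
  (R : Type u) [CommRing R] [Algebra k R]

namespace Geo

/-- the complement of `∞` -/
def UR : (CR c R).Opens := (pullback.fst c (sS k R)) ⁻¹ᵁ g.UA

/-- the neighbourhood of `∞` -/
def VR : (CR c R).Opens := (pullback.fst c (sS k R)) ⁻¹ᵁ g.UB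

theorem opensRange_A : (jR c R g.jA g.jA_c).opensRange = g.UR R := opensRange_jR _ _ _ _

theorem opensRange_B : (jR c R g.jB g.jB_c).opensRange = g.VR R := opensRange_jR _ _ _ _

theorem opensRange_D : (jR c R g.jD g.jD_c).opensRange = g.UR R ⊓ g.VR R := by
  rw [opensRange_jR, opensRange_jD]
  rfl

/-- `Γ(U_R) = R ⊗ A` -/
def evA : Γ(CR c R, g.UR R) ≃+* R ⊗[k] g.A := evE (jR c R g.jA g.jA_c) (g.opensRange_A R)

/-- `Γ(V_R) = R ⊗ B` -/
def evB : Γ(CR c R, g.VR R) ≃+* R ⊗[k] g.B := evE (jR c R g.jB g.jB_c) (g.opensRange_B R)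

/-- `Γ(U_R ∩ V_R) = R ⊗ D` -/
def evD : Γ(CR c R, g.UR R ⊓ g.VR R) ≃+* R ⊗[k] g.D :=
  evE (jR c R g.jD g.jD_c) (g.opensRange_D R)

theorem top_le_A : ⊤ ≤ (jR c R g.jA g.jA_c) ⁻¹ᵁ g.UR R :=
  top_le_of_opensRange _ (g.opensRange_A R).le

theorem top_le_B : ⊤ ≤ (jR c R g.jB g.jB_c) ⁻¹ᵁ g.VR R :=
  top_le_of_opensRange _ (g.opensRange_B R).le

theorem top_le_D : ⊤ ≤ (jR c R g.jD g.jD_c) ⁻¹ᵁ (g.UR R ⊓ g.VR R) :=
  top_le_of_opensRange _ (g.opensRange_D R).le

theorem evA_apply (s : Γ(CR c R, g.UR R)) :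
    g.evA R s = ev (jR c R g.jA g.jA_c) (g.top_le_A R) s := rfl

theorem evB_apply (s : Γ(CR c R, g.VR R)) :
    g.evB R s = ev (jR c R g.jB g.jB_c) (g.top_le_B R) s := rfl

theorem evD_apply (s : Γ(CR c R, g.UR R ⊓ g.VR R)) :
    g.evD R s = ev (jR c R g.jD g.jD_c) (g.top_le_D R) s := rfl

theorem evD_rsA (s : Γ(CR c R, g.UR R)) :
    g.evD R (rs inf_le_left s) =
      Algebra.TensorProduct.map (AlgHom.id k R) (IsScalarTower.toAlgHom k g.A g.D)
        (g.evA R s) := by
  have hj := jR_map c R g.jA g.jA_c (IsScalarTower.toAlgHom k g.A g.D) g.jD g.jD_c rfl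
  rw [evD_apply, evA_apply, ev_rs]
  have h : ⊤ ≤ (Spec.map (CommRingCat.ofHom (Algebra.TensorProduct.map (AlgHom.id k R)
      (IsScalarTower.toAlgHom k g.A g.D) : R ⊗[k] g.A →ₐ[k] R ⊗[k] g.D).toRingHom) ≫
      jR c R g.jA g.jA_c) ⁻¹ᵁ g.UR R := by
    rw [← hj]
    exact (g.top_le_D R).trans (Scheme.Hom.preimage_mono _ inf_le_left)
  rw [ev_congr hj _ h, ev_spec _ _ (g.top_le_A R)]
  rfl

theorem evD_rsB (s : Γ(CR c R, g.VR R)) :
    g.evD R (rs inf_le_right s) =
      Algebra.TensorProduct.map (AlgHom.id k R) (IsScalarTower.toAlgHom k g.B g.D)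
        (g.evB R s) := by
  have hj := jR_map c R g.jB g.jB_c (IsScalarTower.toAlgHom k g.B g.D) g.jD g.jD_c g.jD_eq_B
  rw [evD_apply, evB_apply, ev_rs]
  have h : ⊤ ≤ (Spec.map (CommRingCat.ofHom (Algebra.TensorProduct.map (AlgHom.id k R)
      (IsScalarTower.toAlgHom k g.B g.D) : R ⊗[k] g.B →ₐ[k] R ⊗[k] g.D).toRingHom) ≫
      jR c R g.jB g.jB_c) ⁻¹ᵁ g.VR R := by
    rw [← hj]
    exact (g.top_le_D R).trans (Scheme.Hom.preimage_mono _ inf_le_right)
  rw [ev_congr hj _ h, ev_spec _ _ (g.top_le_B R)]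
  rfl

/-- constants -/
def cstR (c : C ⟶ Spec (CommRingCat.of k)) (R : Type u) [CommRing R] [Algebra k R] :
    R →+* Γ(CR c R, ⊤) :=
  cstM (pullback.snd c (sS k R))

theorem ev_cst {E : Type u} [CommRing E] [Algebra k E] (j : Spec (CommRingCat.of E) ⟶ C)
    (hj : j ≫ c = sS k E) (h : ⊤ ≤ (jR c R j hj) ⁻¹ᵁ ⊤) (r : R) :
    ev (jR c R j hj) h (cstR c R r) = r ⊗ₜ[k] (1 : E) :=
  ev_cstM _ _ _ (jR_snd c R j hj) h r

/-- the function `a` on `U_R` -/
def aR : Γ(CR c R, g.UR R) := J25.pb (pullback.fst c (sS k R)) (le_refl (g.UR R)) g.aC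

/-- the function `w` on `V_R` -/
def wR : Γ(CR c R, g.VR R) := J25.pb (pullback.fst c (sS k R)) (le_refl (g.VR R)) g.wC

theorem evA_aR : g.evA R (g.aR R) = (1 : R) ⊗ₜ[k] g.a := by
  rw [evA_apply, aR]
  have h1 := ev_pb (jR c R g.jA g.jA_c) (pullback.fst c (sS k R)) (g.top_le_A R)
    (le_refl (g.UR R)) g.aC
  have h : ⊤ ≤ (inE k R g.A ≫ g.jA) ⁻¹ᵁ g.UA := fun x _ => g.top_le_UA trivial
  rw [h1, ev_congr (jR_fst c R g.jA g.jA_c) _ h, ev_spec _ _ g.top_le_UA, ev_aC]
  rfl

theorem evB_wR : g.evB R (g.wR R) = (1 : R) ⊗ₜ[k] g.w := by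
  rw [evB_apply, wR]
  have h1 := ev_pb (jR c R g.jB g.jB_c) (pullback.fst c (sS k R)) (g.top_le_B R)
    (le_refl (g.VR R)) g.wC
  have h : ⊤ ≤ (inE k R g.B ≫ g.jB) ⁻¹ᵁ g.UB := fun x _ => g.top_le_UB trivial
  rw [h1, ev_congr (jR_fst c R g.jB g.jB_c) _ h, ev_spec _ _ g.top_le_UB, ev_wC]
  rfl

theorem basicOpen_aR : (CR c R).basicOpen (g.aR R) = g.UR R ⊓ g.VR R := by
  have h1 : g.aR R = (pullback.fst c (sS k R)).app g.UA g.aC := by
    have h2 : (pullback.fst c (sS k R)).appLE g.UA (g.UR R) (le_refl _) =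
        (pullback.fst c (sS k R)).app g.UA := Scheme.Hom.appLE_eq_app _
    exact congrArg (fun f => f.hom g.aC) h2
  rw [h1]
  have h3 := Scheme.preimage_basicOpen (pullback.fst c (sS k R)) g.aC
  rw [g.basicOpen_aC] at h3
  exact h3.symm

theorem basicOpen_wR : (CR c R).basicOpen (g.wR R) = g.UR R ⊓ g.VR R := by
  have h1 : g.wR R = (pullback.fst c (sS k R)).app g.UB g.wC := by
    have h2 : (pullback.fst c (sS k R)).appLE g.UB (g.VR R) (le_refl _) =
        (pullback.fst c (sS k R)).app g.UB := Scheme.Hom.appLE_eq_app _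
    exact congrArg (fun f => f.hom g.wC) h2
  rw [h1]
  have h3 := Scheme.preimage_basicOpen (pullback.fst c (sS k R)) g.wC
  rw [g.basicOpen_wC] at h3
  exact h3.symm

/-- the expansion `B → k((z))` -/
def eB : g.B →ₐ[k] LaurentSeries k := g.eD.comp (IsScalarTower.toAlgHom k g.B g.D)

/-- the expansion on `U_R ∩ V_R` -/
def exD : Γ(CR c R, g.UR R ⊓ g.VR R) →+* LaurentSeries R :=
  (exR g.eD R : R ⊗[k] g.D →+* LaurentSeries R).comp (g.evD R : _ →+* R ⊗[k] g.D)

theorem exD_apply (s : Γ(CR c R, g.UR R ⊓ g.VR R)) : g.exD R s = exR g.eD R (g.evD R s) := rfl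

theorem exD_rsA (s : Γ(CR c R, g.UR R)) :
    g.exD R (rs inf_le_left s) = exR g.e R (g.evA R s) := by
  rw [exD_apply, evD_rsA, GX.exR_comp]
  rfl

theorem exD_rsB (s : Γ(CR c R, g.VR R)) :
    g.exD R (rs inf_le_right s) = exR g.eB R (g.evB R s) := by
  rw [exD_apply, evD_rsB, GX.exR_comp]
  rfl

theorem e_injective : Function.Injective g.e := g.injA

theorem eB_injective : Function.Injective g.eB := g.injB

theorem evA_cst (r : R) : g.evA R (rs le_top (cstR c R r)) = r ⊗ₜ[k] (1 : g.A) := by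
  rw [evA_apply, ev_rs, ev_cst]

theorem evB_cst (r : R) : g.evB R (rs le_top (cstR c R r)) = r ⊗ₜ[k] (1 : g.B) := by
  rw [evB_apply, ev_rs, ev_cst]

theorem evD_cst (r : R) : g.evD R (rs le_top (cstR c R r)) = r ⊗ₜ[k] (1 : g.D) := by
  rw [evD_apply, ev_rs, ev_cst]

/-- the section `∞` factors through `V_R` -/
theorem secR_eq : secR c ε R = Spec.map (CommRingCat.ofHom
    (GX.augR R g.aug : R ⊗[k] g.B →ₐ[R] R).toRingHom) ≫ jR c R g.jB g.jB_c := by
  have e1 : CommRingCat.ofHom (g.aug : g.B →+* k) ≫ CommRingCat.ofHom (algebraMap k R) =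
      CommRingCat.ofHom (Algebra.TensorProduct.includeRight : g.B →ₐ[k] R ⊗[k] g.B).toRingHom ≫
      CommRingCat.ofHom (GX.augR R g.aug : R ⊗[k] g.B →ₐ[R] R).toRingHom := by
    ext x
    change algebraMap k R (g.aug x) = GX.augR R g.aug (1 ⊗ₜ x)
    rw [GX.augR_tmul, one_mul]
  have e2 : CommRingCat.ofHom (Algebra.TensorProduct.includeLeftRingHom : R →+* R ⊗[k] g.B) ≫
      CommRingCat.ofHom (GX.augR R g.aug : R ⊗[k] g.B →ₐ[R] R).toRingHom =
      𝟙 (CommRingCat.of R) := by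
    ext x
    change GX.augR R g.aug (x ⊗ₜ 1) = x
    rw [GX.augR_tmul, map_one, map_one, mul_one]
  apply pullback.hom_ext
  · rw [Category.assoc, jR_fst, ← Category.assoc, ← Spec.map_comp, ← e1, Spec.map_comp,
      Category.assoc, ← g.ε_eq]
    simp only [secR, RelPicard.rigSection, pullback.lift_fst]
  · rw [Category.assoc, jR_snd, ← Spec.map_comp, e2, Spec.map_id]
    simp only [secR, RelPicard.rigSection, pullback.lift_snd]

theorem top_le_secR : ⊤ ≤ (secR c ε R) ⁻¹ᵁ g.VR R := by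
  rw [g.secR_eq R]
  exact fun x _ => g.top_le_B R trivial

theorem ev_secR (b : Γ(CR c R, g.VR R)) :
    ev (secR c ε R) (g.top_le_secR R) b = GX.augR R g.aug (g.evB R b) := by
  have h : ⊤ ≤ (Spec.map (CommRingCat.ofHom
      (GX.augR R g.aug : R ⊗[k] g.B →ₐ[R] R).toRingHom) ≫ jR c R g.jB g.jB_c) ⁻¹ᵁ g.VR R :=
    fun x _ => g.top_le_B R trivial
  rw [ev_congr (g.secR_eq R) _ h, ev_spec _ _ (g.top_le_B R), evB_apply]
  rfl

/-- **The relative curve over `R`** attached to the geometric datum. -/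
def xd : XD R (AR g.e R) (J25.ex g.e R g.a) (CR c R) where
  π := pullback.snd c (sS k R)
  σ := secR c ε R
  hσπ := by simp only [secR, RelPicard.rigSection, pullback.lift_snd]
  U := g.UR R
  V := g.VR R
  hU := by
    rw [← g.opensRange_A R]
    exact isAffineOpen_opensRange _
  hV := by
    rw [← g.opensRange_B R]
    exact isAffineOpen_opensRange _
  cov := by
    have h := g.UA_sup_UB
    rw [eq_top_iff]
    intro x _
    have h1 : (pullback.fst c (sS k R)) x ∈ g.UA ⊔ g.UB := by rw [h]; trivial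
    exact h1
  a := g.aR R
  w := g.wR R
  ha := g.basicOpen_aR R
  hw := g.basicOpen_wR R
  haw := by
    apply (g.evD R).injective
    rw [map_mul, evD_rsA, evD_rsB, evA_aR, evB_wR, Algebra.TensorProduct.map_tmul,
      Algebra.TensorProduct.map_tmul, Algebra.TensorProduct.tmul_mul_tmul, map_one, one_mul,
      map_one]
    change (1 : R) ⊗ₜ[k] (algebraMap g.A g.D g.a * algebraMap g.B g.D g.w) = 1
    rw [g.haw]
    rfl
  cst := cstR c R
  fin := by
    have h1 : eval₂RingHom ((rs (le_top : g.VR R ≤ ⊤)).comp (cstR c R)) (g.wR R) =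
        ((g.evB R).symm : R ⊗[k] g.B →+* _).comp (GX.phi (k := k) R g.w) := by
      refine Polynomial.ringHom_ext (fun r => ?_) ?_
      · apply (g.evB R).injective
        rw [coe_eval₂RingHom, eval₂_C]
        change g.evB R (rs le_top (cstR c R r)) =
          g.evB R ((g.evB R).symm (GX.phi (k := k) R g.w (Polynomial.C r)))
        rw [RingEquiv.apply_symm_apply, evB_cst, GX.phi, coe_eval₂RingHom, eval₂_C]
        rfl
      · apply (g.evB R).injective
        rw [coe_eval₂RingHom, eval₂_X]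
        change _ = g.evB R ((g.evB R).symm (GX.phi (k := k) R g.w Polynomial.X))
        rw [RingEquiv.apply_symm_apply, evB_wR, GX.phi, coe_eval₂RingHom, eval₂_X]
    rw [h1]
    exact RingHom.Finite.comp (RingHom.Finite.of_surjective _ (g.evB R).symm.surjective)
      (GX.phi_finite R g.finB)
  ex := g.exD R
  ex_cst r := by
    rw [exD_apply, evD_cst, exR_tmul, map_one, HahnSeries.C_eq_algebraMap,
      Algebra.algebraMap_eq_smul_one]
  exU_inj f hf := by
    rw [exD_rsA] at hf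
    apply (g.evA R).injective
    rw [map_zero]
    exact exR_injective g.e g.e_injective (by rw [hf, map_zero])
  hS f := by
    constructor
    · rintro ⟨t, rfl⟩
      refine ⟨(g.evA R).symm t, ?_⟩
      rw [exD_rsA, RingEquiv.apply_symm_apply]
      rfl
    · rintro ⟨x, rfl⟩
      rw [exD_rsA]
      exact ⟨g.evA R x, rfl⟩
  hα := by
    rw [exD_rsA, evA_aR, exR_tmul, one_smul]
  d := g.d
  hd := g.hd
  ex_w := by
    rw [exD_rsB, evB_wR, exR_tmul, one_smul]
    exact ex_mem_LV g.eB g.w_expansion.1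
  ex_w' := by
    rw [exD_rsB, evB_wR, exR_tmul, one_smul, ex_coeff]
    change algebraMap k R ((g.eD (algebraMap g.B g.D g.w)).coeff g.d) = 1
    rw [g.w_expansion.2, map_one]
  exV b := by
    rw [exD_rsB]
    exact GX.exR_mem_LV g.eB g.eB_mem _
  exV_inj b hb := by
    rw [exD_rsB] at hb
    apply (g.evB R).injective
    rw [map_zero]
    exact exR_injective g.eB g.eB_injective (by rw [hb, map_zero])
  dvd b hb := by
    rw [exD_rsB] at hb
    obtain ⟨y, hy⟩ := GX.dvd_of_mem g.eB g.eB_dvd hb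
    refine ⟨(g.evB R).symm y, (g.evB R).injective ?_⟩
    rw [map_mul, RingEquiv.apply_symm_apply, evB_wR, hy]
  hσV := g.top_le_secR R
  hσ b := by
    rw [exD_rsB, ← GX.augR_eq g.eB g.aug g.aug_eq]
    exact g.ev_secR R b

end Geo

end Fermat.Agent.J25
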