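import Mathlib
import Fermat.Agent.J25.GeoXD

/-!
# The relative curve over a ring attached to the geometric datum: base change
-/

set_option autoImplicit false
set_option linter.unusedSectionVars false
set_option linter.style.haveILetI false

universe u

open CategoryTheory CategoryTheory.Limits AlgebraicGeometry TopologicalSpace Opposite Polynomial
open scoped TensorProduct
open NeronModelInfra

noncomputable section

namespace Fermat.Agent.J25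

attribute [-instance] HahnSeries.powerSeriesAlgebra

variable {k : Type u} [Field k] {C : Scheme.{u}} {c : C ⟶ Spec (CommRingCat.of k)}
  {ε : SchemeHomOver (𝟙 (Spec (CommRingCat.of k))) c} (g : Geo c ε)
  {R : Type u} [CommRing R] [Algebra k R] {S : Type u} [CommRing S] [Algebra k S]
  (f : R →ₐ[k] S)

theorem mR_fst (c : C ⟶ Spec (CommRingCat.of k)) :
    mR c f ≫ pullback.fst c (sS k R) = pullback.fst c (sS k S) := by
  simp only [RelPicard.baseChangeSnd, pullback.lift_fst, Category.comp_id]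

theorem mR_snd (c : C ⟶ Spec (CommRingCat.of k)) :
    mR c f ≫ pullback.snd c (sS k R) =
      pullback.snd c (sS k S) ≫ Spec.map (CommRingCat.ofHom (f : R →+* S)) := by
  simp only [RelPicard.baseChangeSnd, pullback.lift_snd]
  rfl

namespace Geo

theorem UR_mR : (mR c f) ⁻¹ᵁ g.UR R = g.UR S := by
  unfold UR
  rw [← Scheme.Hom.comp_preimage, mR_fst]

theorem VR_mR : (mR c f) ⁻¹ᵁ g.VR R = g.VR S := by
  unfold VR
  rw [← Scheme.Hom.comp_preimage, mR_fst]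

theorem UVR_mR : (mR c f) ⁻¹ᵁ (g.UR R ⊓ g.VR R) = g.UR S ⊓ g.VR S := by
  rw [Scheme.Hom.preimage_inf, UR_mR, VR_mR]

theorem evA_pb (h : g.UR S ≤ (mR c f) ⁻¹ᵁ g.UR R) (s : Γ(CR c R, g.UR R)) :
    g.evA S (J25.pb (mR c f) h s) =
      Algebra.TensorProduct.map f (AlgHom.id k g.A) (g.evA R s) := by
  have hj := jR_mR c R g.jA g.jA_c f
  have h' : ⊤ ≤ (Spec.map (CommRingCat.ofHom (Algebra.TensorProduct.map f
      (AlgHom.id k g.A) : R ⊗[k] g.A →ₐ[k] S ⊗[k] g.A).toRingHom) ≫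
      jR c R g.jA g.jA_c) ⁻¹ᵁ g.UR R := fun x _ => g.top_le_A R trivial
  rw [evA_apply, evA_apply, ev_pb, ev_congr hj _ h', ev_spec _ _ (g.top_le_A R)]
  rfl

theorem evB_pb (h : g.VR S ≤ (mR c f) ⁻¹ᵁ g.VR R) (s : Γ(CR c R, g.VR R)) :
    g.evB S (J25.pb (mR c f) h s) =
      Algebra.TensorProduct.map f (AlgHom.id k g.B) (g.evB R s) := by
  have hj := jR_mR c R g.jB g.jB_c f
  have h' : ⊤ ≤ (Spec.map (CommRingCat.ofHom (Algebra.TensorProduct.map f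
      (AlgHom.id k g.B) : R ⊗[k] g.B →ₐ[k] S ⊗[k] g.B).toRingHom) ≫
      jR c R g.jB g.jB_c) ⁻¹ᵁ g.VR R := fun x _ => g.top_le_B R trivial
  rw [evB_apply, evB_apply, ev_pb, ev_congr hj _ h', ev_spec _ _ (g.top_le_B R)]
  rfl

theorem evD_pb (h : g.UR S ⊓ g.VR S ≤ (mR c f) ⁻¹ᵁ (g.UR R ⊓ g.VR R))
    (s : Γ(CR c R, g.UR R ⊓ g.VR R)) :
    g.evD S (J25.pb (mR c f) h s) =
      Algebra.TensorProduct.map f (AlgHom.id k g.D) (g.evD R s) := by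
  have hj := jR_mR c R g.jD g.jD_c f
  have h' : ⊤ ≤ (Spec.map (CommRingCat.ofHom (Algebra.TensorProduct.map f
      (AlgHom.id k g.D) : R ⊗[k] g.D →ₐ[k] S ⊗[k] g.D).toRingHom) ≫
      jR c R g.jD g.jD_c) ⁻¹ᵁ (g.UR R ⊓ g.VR R) := fun x _ => g.top_le_D R trivial
  rw [evD_apply, evD_apply, ev_pb, ev_congr hj _ h', ev_spec _ _ (g.top_le_D R)]
  rfl

/-- **base change of the expansion** -/
theorem exD_pb (h : g.UR S ⊓ g.VR S ≤ (mR c f) ⁻¹ᵁ (g.UR R ⊓ g.VR R))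
    (s : Γ(CR c R, g.UR R ⊓ g.VR R)) :
    g.exD S (J25.pb (mR c f) h s) = lmap (f : R →+* S) (g.exD R s) := by
  rw [exD_apply, exD_apply, evD_pb, lmap_exR]

theorem xd_ex_pb (h : (g.xd S).U ⊓ (g.xd S).V ≤ (mR c f) ⁻¹ᵁ ((g.xd R).U ⊓ (g.xd R).V))
    (s : Γ(CR c R, (g.xd R).U ⊓ (g.xd R).V)) :
    (g.xd S).ex (J25.pb (mR c f) h s) = lmap (f : R →+* S) ((g.xd R).ex s) :=
  g.exD_pb f h s

theorem xd_U : (g.xd S).U = (mR c f) ⁻¹ᵁ (g.xd R).U := (g.UR_mR f).symm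

theorem xd_V : (g.xd S).V = (mR c f) ⁻¹ᵁ (g.xd R).V := (g.VR_mR f).symm

theorem pb_aR (h : g.UR S ≤ (mR c f) ⁻¹ᵁ g.UR R) :
    J25.pb (mR c f) h (g.aR R) = g.aR S := by
  apply (g.evA S).injective
  rw [evA_pb, evA_aR, evA_aR, Algebra.TensorProduct.map_tmul, map_one]
  rfl

theorem pb_wR (h : g.VR S ≤ (mR c f) ⁻¹ᵁ g.VR R) :
    J25.pb (mR c f) h (g.wR R) = g.wR S := by
  apply (g.evB S).injective
  rw [evB_pb, evB_wR, evB_wR, Algebra.TensorProduct.map_tmul, map_one]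
  rfl

theorem xd_a (h : (g.xd S).U ≤ (mR c f) ⁻¹ᵁ (g.xd R).U) :
    J25.pb (mR c f) h (g.xd R).a = (g.xd S).a := g.pb_aR f h

theorem xd_w (h : (g.xd S).V ≤ (mR c f) ⁻¹ᵁ (g.xd R).V) :
    J25.pb (mR c f) h (g.xd R).w = (g.xd S).w := g.pb_wR f h

end Geo

/-- base change of constants -/
theorem pb_cstM {X Y : Scheme.{u}} {R S : Type u} [CommRing R] [CommRing S]
    (m : X ⟶ Spec (CommRingCat.of S)) (m' : Y ⟶ Spec (CommRingCat.of R)) (φ : R →+* S)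
    (q : X ⟶ Y) (hq : q ≫ m' = m ≫ Spec.map (CommRingCat.ofHom φ))
    (h : (⊤ : X.Opens) ≤ q ⁻¹ᵁ ⊤) (r : R) : pb q h (cstM m' r) = cstM m (φ r) := by
  have key : ∀ (m₁ m₂ : X ⟶ Spec (CommRingCat.of R)) (_ : m₁ = m₂)
      (h₁ : (⊤ : X.Opens) ≤ m₁ ⁻¹ᵁ ⊤) (h₂ : (⊤ : X.Opens) ≤ m₂ ⁻¹ᵁ ⊤)
      (s : Γ(Spec (CommRingCat.of R), ⊤)), pb m₁ h₁ s = pb m₂ h₂ s := by
    rintro m₁ m₂ rfl h₁ h₂ s
    rfl
  have h1 := pb_pb q m' (show (⊤ : Y.Opens) ≤ m' ⁻¹ᵁ ⊤ from fun _ _ => trivial) h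
    ((Scheme.ΓSpecIso (CommRingCat.of R)).inv.hom r)
  have h2 := key _ _ hq (fun _ _ => trivial) (fun _ _ => trivial)
    ((Scheme.ΓSpecIso (CommRingCat.of R)).inv.hom r)
  have h3 := pb_pb m (Spec.map (CommRingCat.ofHom φ))
    (show (⊤ : (Spec (CommRingCat.of S)).Opens) ≤ (Spec.map (CommRingCat.ofHom φ)) ⁻¹ᵁ ⊤
      from fun _ _ => trivial) (show (⊤ : X.Opens) ≤ m ⁻¹ᵁ ⊤ from fun _ _ => trivial)
    ((Scheme.ΓSpecIso (CommRingCat.of R)).inv.hom r)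
  have h4 : pb (Spec.map (CommRingCat.ofHom φ))
      (show (⊤ : (Spec (CommRingCat.of S)).Opens) ≤ (Spec.map (CommRingCat.ofHom φ)) ⁻¹ᵁ ⊤
      from fun _ _ => trivial) ((Scheme.ΓSpecIso (CommRingCat.of R)).inv.hom r) =
      (Scheme.ΓSpecIso (CommRingCat.of S)).inv.hom (φ r) := by
    have h5 := Scheme.ΓSpecIso_inv_naturality (CommRingCat.ofHom φ)
    have h6 := congrArg (fun f => f.hom r) h5
    have h7 : (Spec.map (CommRingCat.ofHom φ)).appLE ⊤ ⊤ (fun _ _ => trivial) =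
        (Spec.map (CommRingCat.ofHom φ)).appTop := Scheme.Hom.appLE_eq_app _
    exact (congrArg (fun f => f.hom ((Scheme.ΓSpecIso (CommRingCat.of R)).inv.hom r)) h7).trans
      h6.symm
  refine h1.trans (h2.trans (h3.symm.trans ?_))
  rw [h4]
  rfl

theorem Geo.xd_cst (h : (⊤ : (CR c S).Opens) ≤ (mR c f) ⁻¹ᵁ ⊤) (r : R) :
    J25.pb (mR c f) h ((g.xd R).cst r) = (g.xd S).cst (f r) :=
  pb_cstM _ _ (f : R →+* S) (mR c f) (mR_snd f c) h r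

end Fermat.Agent.J25
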