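import Mathlib
import Fermat.Agent.J25.XDF

/-!
# Sections of locally free modules of rank one over affine opens
-/

set_option autoImplicit false
set_option linter.unusedSectionVars false

universe u

open CategoryTheory CategoryTheory.Limits AlgebraicGeometry TopologicalSpace Opposite Polynomial

noncomputable section

namespace Fermat.Agent.J25

namespace QC

variable {X : Scheme.{u}} (L : X.Modules)

/-- `L` has local frames on `O` -/
def LocFr (O : X.Opens) : Prop :=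
  ∀ x ∈ O, ∃ (Z : X.Opens) (_ : x ∈ Z) (e : Γ(L, Z)), IsFrame L e

variable {L}

theorem LocFr.mono {O O' : X.Opens} (hL : LocFr L O) (h : O' ≤ O) : LocFr L O' :=
  fun x hx => hL x (h hx)

/-- finitely many frames on basic opens -/
theorem exists_finset {O : X.Opens} (hO : IsAffineOpen O) (hL : LocFr L O) :
    ∃ s : Finset Γ(X, O), Ideal.span (s : Set Γ(X, O)) = ⊤ ∧
      ∀ f ∈ s, ∃ e : Γ(L, X.basicOpen f), IsFrame L e := by
  have h1 : Ideal.span {f : Γ(X, O) | ∃ e : Γ(L, X.basicOpen f), IsFrame L e} = ⊤ := by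
    rw [← hO.self_le_iSup_basicOpen_iff]
    intro x hx
    obtain ⟨Z, hxZ, e, he⟩ := hL x hx
    obtain ⟨f, hf, hxf⟩ := hO.exists_basicOpen_le ⟨x, hxZ⟩ hx
    exact Opens.mem_iSup.mpr ⟨⟨f, rm L hf e, he.res hf⟩, hxf⟩
  obtain ⟨s, hs, hs'⟩ := (Ideal.span_eq_top_iff_finite _).mp h1
  exact ⟨s, hs', fun f hf => hs hf⟩

theorem cover_of_span {O : X.Opens} (hO : IsAffineOpen O) {s : Finset Γ(X, O)}
    (hs : Ideal.span (s : Set Γ(X, O)) = ⊤) : O ≤ ⨆ f : s, X.basicOpen (f : Γ(X, O)) := by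
  have := (hO.self_le_iSup_basicOpen_iff (s := (s : Set Γ(X, O)))).mpr hs
  exact this

/-- **equality** -/
theorem inj {O : X.Opens} (hO : IsAffineOpen O) (hL : LocFr L O) (b : Γ(X, O)) {O' : X.Opens}
    (h : O' ≤ O) (hb : O' = X.basicOpen b) (t : Γ(L, O)) (ht : rm L h t = 0) :
    ∃ n : ℕ, b ^ n • t = 0 := by
  obtain ⟨s, hs, hfr⟩ := exists_finset hO hL
  have key : ∀ f : s, ∃ n : ℕ, ∀ m, n ≤ m → rm L (X.basicOpen_le (f : Γ(X, O))) (b ^ m • t) = 0 := by
    rintro ⟨f, hf⟩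
    obtain ⟨e, he⟩ := hfr f hf
    obtain ⟨ρ, hρ⟩ := he.surj' (rm L (X.basicOpen_le f) t)
    have h1 : X.basicOpen f ⊓ O' = X.basicOpen (rs (X.basicOpen_le f) b) := by
      rw [basicOpen_rs, hb]
    have h2 : rs (inf_le_left : X.basicOpen f ⊓ O' ≤ X.basicOpen f) ρ = 0 := by
      refine he.inj inf_le_left ?_
      rw [zero_smul, ← rm_smul, hρ, rm_rm]
      have : rm L (inf_le_right : X.basicOpen f ⊓ O' ≤ O') (rm L h t) = 0 := by rw [ht, map_zero]
      rw [rm_rm] at this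
      exact this
    obtain ⟨n, hn⟩ := exists_pow_mul_eq (hO.basicOpen f) (rs (X.basicOpen_le f) b)
      (inf_le_left : X.basicOpen f ⊓ O' ≤ X.basicOpen f) h1 (x := ρ) (y := 0)
      (by rw [h2, map_zero])
    refine ⟨n, fun m hm => ?_⟩
    rw [rm_smul, map_pow, ← hρ, ← mul_smul]
    obtain ⟨j, rfl⟩ := Nat.exists_eq_add_of_le hm
    rw [pow_add, mul_right_comm, hn, mul_zero, zero_mul, zero_smul]
  choose n hn using key
  refine ⟨∑ f : s, n f, ?_⟩
  refine rm_ext L (fun f : s => X.basicOpen (f : Γ(X, O))) (fun f => X.basicOpen_le _)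
    (cover_of_span hO hs) fun f => ?_
  rw [hn f _ (Finset.single_le_sum (f := n) (fun _ _ => Nat.zero_le _) (Finset.mem_univ f)),
    map_zero]

/-- **extension** -/
theorem surj {O : X.Opens} (hO : IsAffineOpen O) (hL : LocFr L O) (b : Γ(X, O)) {O' : X.Opens}
    (h : O' ≤ O) (hb : O' = X.basicOpen b) (t : Γ(L, O')) :
    ∃ (n : ℕ) (T : Γ(L, O)), rm L h T = rs h b ^ n • t := by
  obtain ⟨s, hs, hfr⟩ := exists_finset hO hL
  have hle : ∀ f : s, X.basicOpen (f : Γ(X, O)) ≤ O := fun f => X.basicOpen_le _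
  have key : ∀ f : s, ∃ n : ℕ, ∀ m, n ≤ m → ∃ T : Γ(L, X.basicOpen (f : Γ(X, O))),
      rm L (inf_le_left : X.basicOpen (f : Γ(X, O)) ⊓ O' ≤ _) T =
        rs ((inf_le_right : X.basicOpen (f : Γ(X, O)) ⊓ O' ≤ O').trans h) b ^ m •
          rm L inf_le_right t := by
    rintro ⟨f, hf⟩
    obtain ⟨e, he⟩ := hfr f hf
    obtain ⟨ρ, hρ⟩ := he.surj (inf_le_left : X.basicOpen f ⊓ O' ≤ X.basicOpen f)
      (rm L (inf_le_right : X.basicOpen f ⊓ O' ≤ O') t)
    have h1 : X.basicOpen f ⊓ O' = X.basicOpen (rs (X.basicOpen_le f) b) := by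
      rw [basicOpen_rs, hb]
    obtain ⟨n, y, hy⟩ := exists_pow_mul (hO.basicOpen f) (rs (X.basicOpen_le f) b)
      (inf_le_left : X.basicOpen f ⊓ O' ≤ X.basicOpen f) h1 ρ
    refine ⟨n, fun m hm => ?_⟩
    obtain ⟨j, rfl⟩ := Nat.exists_eq_add_of_le hm
    refine ⟨(rs (X.basicOpen_le f) b ^ j * y) • e, ?_⟩
    rw [rm_smul, map_mul, map_pow, hy, rs_rs, mul_smul, mul_smul, hρ, ← mul_smul, ← pow_add,
      add_comm]
  choose n hn using key
  set N := ∑ f : s, n f with hN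
  have hnN : ∀ f : s, n f ≤ N := fun f =>
    Finset.single_le_sum (f := n) (fun _ _ => Nat.zero_le _) (Finset.mem_univ f)
  have key2 : ∀ f : s, ∃ T : Γ(L, X.basicOpen (f : Γ(X, O))),
      rm L (inf_le_left : X.basicOpen (f : Γ(X, O)) ⊓ O' ≤ _) T =
        rs ((inf_le_right : X.basicOpen (f : Γ(X, O)) ⊓ O' ≤ O').trans h) b ^ N •
          rm L inf_le_right t := fun f => hn f N (hnN f)
  choose T hT using key2
  -- on the overlaps
  have key3 : ∀ p : s × s, ∃ m : ℕ, ∀ m', m ≤ m' →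
      rs ((inf_le_left : X.basicOpen (p.1 : Γ(X, O)) ⊓ X.basicOpen (p.2 : Γ(X, O)) ≤ _).trans
        (hle p.1)) b ^ m' •
        (rm L (inf_le_left : X.basicOpen (p.1 : Γ(X, O)) ⊓ X.basicOpen (p.2 : Γ(X, O)) ≤ _) (T p.1) -
          rm L (inf_le_right : X.basicOpen (p.1 : Γ(X, O)) ⊓ X.basicOpen (p.2 : Γ(X, O)) ≤ _)
            (T p.2)) = 0 := by
    rintro ⟨f, g⟩
    set Z := X.basicOpen (f : Γ(X, O)) ⊓ X.basicOpen (g : Γ(X, O)) with hZ
    have hZO : Z ≤ O := inf_le_left.trans (hle f)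
    have hZaff : IsAffineOpen Z := by
      rw [hZ, ← Scheme.basicOpen_mul]
      exact hO.basicOpen _
    obtain ⟨m, hm⟩ := inj hZaff (hL.mono hZO) (rs hZO b) (inf_le_left : Z ⊓ O' ≤ Z)
      (by rw [basicOpen_rs, hb]) (rm L (inf_le_left : Z ≤ _) (T f) - rm L (inf_le_right : Z ≤ _) (T g))
      (by
        have hf := congrArg (rm L (le_inf (inf_le_left.trans inf_le_left) inf_le_right :
          Z ⊓ O' ≤ X.basicOpen (f : Γ(X, O)) ⊓ O')) (hT f)
        have hg := congrArg (rm L (le_inf (inf_le_left.trans inf_le_right) inf_le_right :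
          Z ⊓ O' ≤ X.basicOpen (g : Γ(X, O)) ⊓ O')) (hT g)
        rw [rm_rm, rm_smul, rm_rm, map_pow, rs_rs] at hf hg
        rw [map_sub, rm_rm, rm_rm, hf, hg, sub_self])
    refine ⟨m, fun m' hm' => ?_⟩
    obtain ⟨j, rfl⟩ := Nat.exists_eq_add_of_le hm'
    rw [add_comm, pow_add, mul_smul]
    have : rs ((inf_le_left : X.basicOpen (f : Γ(X, O)) ⊓ X.basicOpen (g : Γ(X, O)) ≤ _).trans
        (hle f)) b ^ m • (rm L (inf_le_left : Z ≤ _) (T f) - rm L (inf_le_right : Z ≤ _) (T g)) = 0 :=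
      hm
    rw [this, smul_zero]
  choose m hm using key3
  set M := ∑ p : s × s, m p with hM
  have hmM : ∀ p : s × s, m p ≤ M := fun p =>
    Finset.single_le_sum (f := m) (fun _ _ => Nat.zero_le _) (Finset.mem_univ p)
  obtain ⟨T', hT'⟩ := rm_glue L (fun f : s => X.basicOpen (f : Γ(X, O))) hle (cover_of_span hO hs)
    (fun f => rs (hle f) b ^ M • T f) (fun f g => by
      have h1 := hm (f, g) M (hmM _)
      rw [smul_sub, sub_eq_zero] at h1
      rw [rm_smul, rm_smul, map_pow, map_pow, rs_rs, rs_rs]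
      exact h1)
  refine ⟨M + N, T', ?_⟩
  have hcov : O' ≤ ⨆ f : s, X.basicOpen (f : Γ(X, O)) ⊓ O' := by
    rw [← iSup_inf_eq]
    exact le_inf (h.trans (cover_of_span hO hs)) le_rfl
  refine rm_ext L (fun f : s => X.basicOpen (f : Γ(X, O)) ⊓ O') (fun f => inf_le_right) hcov
    fun f => ?_
  have h1 := congrArg (rm L (inf_le_left : X.basicOpen (f : Γ(X, O)) ⊓ O' ≤ _)) (hT' f)
  rw [rm_rm, rm_smul, map_pow, rs_rs, hT f, ← mul_smul, ← pow_add] at h1
  rw [rm_rm, rm_smul, map_pow, rs_rs]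
  exact h1

end QC

end Fermat.Agent.J25
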