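import Mathlib
import Fermat.Agent.J25.QC
import Fermat.Agent.J25.ModOf
import Fermat.Agent.J25.PicC

/-!
# Frames near infinity
-/

set_option autoImplicit false
set_option linter.unusedSectionVars false

universe u

open CategoryTheory CategoryTheory.Limits AlgebraicGeometry TopologicalSpace Opposite Polynomial

noncomputable section

namespace Fermat.Agent.J25

attribute [-instance] HahnSeries.powerSeriesAlgebra

namespace K3

section val

variable {Y : Scheme.{u}} (z : Y)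

/-- the value of a function at a point -/
def val {U : Y.Opens} (hz : z ∈ U) : Γ(Y, U) →+* Y.residueField z :=
  (Y.evaluation U z hz).hom

theorem val_rs {U V : Y.Opens} (hz : z ∈ V) (h : V ≤ U) (s : Γ(Y, U)) :
    val z hz (rs h s) = val z (h hz) s := by
  change Y.residue z (Y.presheaf.germ V z hz (Y.presheaf.map (homOfLE h).op s)) =
    Y.residue z (Y.presheaf.germ U z (h hz) s)
  rw [TopCat.Presheaf.germ_res_apply]

theorem val_ne_zero_iff {U : Y.Opens} (hz : z ∈ U) (s : Γ(Y, U)) :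
    val z hz s ≠ 0 ↔ z ∈ Y.basicOpen s := Y.evaluation_ne_zero_iff_mem_basicOpen z hz s

end val

theorem pu_section {X Y : Scheme.{u}} {σ : Y ⟶ X} {π : X ⟶ Y} (h : σ ≫ π = 𝟙 _) {O : Y.Opens}
    {N : X.Opens} {V : Y.Opens} (hN : N ≤ π ⁻¹ᵁ O) (hV : V ≤ σ ⁻¹ᵁ N) (hVO : V ≤ O)
    (a : Γ(Y, O)ˣ) : pu σ hV (pu π hN a) = ru hVO a := by
  rw [pu_pu]
  have key : ∀ (f : Y ⟶ Y) (hf : f = 𝟙 Y) (hV' : V ≤ f ⁻¹ᵁ O), pu f hV' a = ru hVO a := by
    rintro f rfl hV'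
    exact pu_id _ _
  exact key _ h _

end K3

namespace XD

variable {R : Type u} [CommRing R] {S : Subalgebra R (LaurentSeries R)} {α : LaurentSeries R}
  {X : Scheme.{u}} (D : XD R S α X)

theorem π_σ (y : Spec (CommRingCat.of R)) : D.π (D.σ y) = y := by
  have h1 := congrArg (fun f : Spec (CommRingCat.of R) ⟶ Spec (CommRingCat.of R) => f y) D.hσπ
  exact h1

theorem mem_basicOpen_σ (b : Γ(X, D.V)) (y : Spec (CommRingCat.of R)) :
    D.σ y ∈ X.basicOpen b ↔ D.ev0 b ∉ y.asIdeal := by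
  have h1 := basicOpen_pb D.σ D.hσV b
  have h2 : pb D.σ D.hσV b = (Scheme.ΓSpecIso (CommRingCat.of R)).inv (D.ev0 b) :=
    ((Scheme.ΓSpecIso (CommRingCat.of R)).hom_inv_id_apply _).symm
  have h3 : y ∈ (Spec (CommRingCat.of R)).basicOpen
      ((Scheme.ΓSpecIso (CommRingCat.of R)).inv (D.ev0 b)) ↔ D.ev0 b ∉ y.asIdeal := by
    rw [basicOpen_eq_of_affine]
    exact Iff.rfl
  rw [← h3, ← h2, h1]
  exact ⟨fun h => ⟨trivial, h⟩, fun h => h.2⟩

/-- **(K3)** the frame near infinity -/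
theorem exists_frame (c : Coc X) (hc : PicC.map D.σ (PicC.mk c) = 1) :
    ∃ (p : R[X]) (_ : p.coeff 0 = 1) (e : Γ(modOf c, D.W p)), IsFrame (modOf c) e := by
  classical
  set L := modOf c with hL
  have hloc : QC.LocFr L D.V := fun x _ => ⟨c.U x, c.mem x, fr c x, isFrame_fr c x⟩
  rw [PicC.map_mk, PicC.mk_eq_one] at hc
  let Y := Spec (CommRingCat.of R)
  let O : Y → Y.Opens := fun y => D.σ ⁻¹ᵁ c.U (D.σ y)
  obtain ⟨f, hf⟩ : ∃ f : ∀ y : Y, Γ(Y, O y)ˣ, ∀ (x y : Y) (V : Y.Opens) (hx : V ≤ O x)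
    (hy : V ≤ O y), (c.comap D.σ).gg x y hx hy = (ru hx (f x))⁻¹ * ru hy (f y) := hc
  have mt : ∀ z : Y, z ∈ (⊤ : Y.Opens) := fun z => trivial
  have hb : ∀ y : Y, ∃ b : Γ(X, D.V), X.basicOpen b ≤ c.U (D.σ y) ⊓ D.π ⁻¹ᵁ O y ∧
      D.σ y ∈ X.basicOpen b := by
    intro y
    have h1 : D.σ y ∈ c.U (D.σ y) ⊓ D.π ⁻¹ᵁ O y := by
      refine ⟨c.mem _, ?_⟩
      change D.π (D.σ y) ∈ O y
      rw [D.π_σ]
      exact c.mem _
    have h2 : D.σ y ∈ D.V := D.hσV (show y ∈ (⊤ : Y.Opens) from trivial)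
    exact D.hV.exists_basicOpen_le ⟨D.σ y, h1⟩ h2
  choose b hbN hbσ using hb
  have hNV : ∀ y, X.basicOpen (b y) ≤ D.V := fun y => X.basicOpen_le _
  have hNU : ∀ y, X.basicOpen (b y) ≤ c.U (D.σ y) := fun y => (hbN y).trans inf_le_left
  have hNπ : ∀ y, X.basicOpen (b y) ≤ D.π ⁻¹ᵁ O y := fun y => (hbN y).trans inf_le_right
  obtain ⟨u, hu⟩ : ∃ u : ∀ y, Γ(X, X.basicOpen (b y))ˣ, ∀ y, u y = pu D.π (hNπ y) (f y) :=
    ⟨_, fun y => rfl⟩
  obtain ⟨e', he'⟩ : ∃ e' : ∀ y, Γ(L, X.basicOpen (b y)), ∀ y, e' y =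
      (((u y)⁻¹ : Γ(X, X.basicOpen (b y))ˣ) : Γ(X, X.basicOpen (b y))) •
        rm L (hNU y) (fr c (D.σ y)) := ⟨_, fun y => rfl⟩
  have hfr : ∀ y, IsFrame L (e' y) := by
    intro y
    rw [he']
    exact IsFrame.unit_smul ((isFrame_fr c _).res _) _
  -- the transition functions
  have htr : ∀ (y z : Y) (W : X.Opens) (hy : W ≤ X.basicOpen (b y)) (hz : W ≤ X.basicOpen (b z)),
      ∃ G : Γ(X, W)ˣ, rm L hy (e' y) = (G : Γ(X, W)) • rm L hz (e' z) ∧
        ∀ (V' : Y.Opens) (hV' : V' ≤ D.σ ⁻¹ᵁ W), pu D.σ hV' G = 1 := by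
    intro y z W hy hz
    refine ⟨(ru hy (u y))⁻¹ * c.gg (D.σ z) (D.σ y) (hz.trans (hNU z)) (hy.trans (hNU y)) *
      ru hz (u z), ?_, ?_⟩
    · have h1 := congrArg (rm L (le_inf (hz.trans (hNU z)) (hy.trans (hNU y)) :
        W ≤ c.U (D.σ z) ⊓ c.U (D.σ y))) (fr_trans c (D.σ z) (D.σ y))
      rw [rm_rm, rm_smul, rm_rm] at h1
      rw [he', he', rm_smul, rm_smul, rm_rm, rm_rm, h1, ← mul_smul, ← mul_smul]
      congr 1
      have h2 : rs (le_inf (hz.trans (hNU z)) (hy.trans (hNU y)) :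
        W ≤ c.U (D.σ z) ⊓ c.U (D.σ y)) (c.g (D.σ z) (D.σ y) : Γ(X, _)) =
        (c.gg (D.σ z) (D.σ y) (hz.trans (hNU z)) (hy.trans (hNU y)) : Γ(X, W)) := rfl
      rw [h2, ← coe_ru, ← coe_ru, map_inv, map_inv, ← Units.val_mul, ← Units.val_mul,
        mul_assoc (_ * _), mul_inv_cancel, mul_one]
    · intro V' hV'
      have hVy : V' ≤ O y := hV'.trans (D.σ.preimage_mono (hy.trans (hNU y)))
      have hVz : V' ≤ O z := hV'.trans (D.σ.preimage_mono (hz.trans (hNU z)))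
      have h1 := hf z y V' hVz hVy
      rw [Coc.comap_gg D.σ c z y (V := V') (W := W) hVz hVy hV' (hz.trans (hNU z))
        (hy.trans (hNU y))] at h1
      rw [map_mul, map_mul, map_inv, h1, hu, hu, ru_pu, ru_pu,
        K3.pu_section D.hσπ _ hV' hVy, K3.pu_section D.hσπ _ hV' hVz]
      generalize ru hVy (f y) = A
      generalize ru hVz (f z) = B
      calc A⁻¹ * (B⁻¹ * A) * B = (A⁻¹ * A) * (B⁻¹ * B) := by
            simp only [mul_comm, mul_left_comm, mul_assoc]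
        _ = 1 := by simp
  -- the extensions
  have hT : ∀ y, ∃ (n : ℕ) (T : Γ(L, D.V)), rm L (hNV y) T = rs (hNV y) (b y) ^ n • e' y :=
    fun y => QC.surj D.hV hloc (b y) (hNV y) rfl (e' y)
  choose n T hT using hT
  have hspan : (1 : R) ∈ Ideal.span (Set.range fun y : Y => D.ev0 (b y) ^ (n y + 1)) := by
    rw [← Ideal.eq_top_iff_one]
    by_contra hne
    obtain ⟨𝔪, h𝔪, hle⟩ := Ideal.exists_le_maximal _ hne
    let y : Y := (⟨𝔪, h𝔪.isPrime⟩ : PrimeSpectrum R)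
    have h1 : D.ev0 (b y) ^ (n y + 1) ∈ 𝔪 := hle (Ideal.subset_span ⟨y, rfl⟩)
    have h2 := h𝔪.isPrime.mem_of_pow_mem _ h1
    exact (D.mem_basicOpen_σ (b y) y).mp (hbσ y) h2
  rw [Finsupp.mem_ideal_span_range_iff_exists_finsupp] at hspan
  obtain ⟨ρ, hρ⟩ := hspan
  obtain ⟨E, hE⟩ : ∃ E : Γ(L, D.V), E = ∑ y ∈ ρ.support,
    (rs (le_top : D.V ≤ ⊤) (D.cst (ρ y)) * b y) • T y := ⟨_, rfl⟩
  have hv : ∀ y z : Y, ∃ v : Γ(X, X.basicOpen (b z)), v • e' z = rm L (hNV z) (T y) :=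
    fun y z => (hfr z).surj' _
  choose v hv using hv
  -- the values
  have hval : ∀ (z : Y) (g : Γ(X, D.V)), K3.val z (mt z)
      (pb D.σ D.hσV g) = K3.val z (mt z)
        (pb D.σ D.hσV (rs (le_top : D.V ≤ ⊤) (D.cst (D.ev0 g)))) := by
    intro z g
    congr 1
    have h1 : ∀ g' : Γ(X, D.V), pb D.σ D.hσV g' =
      (Scheme.ΓSpecIso (CommRingCat.of R)).inv (D.ev0 g') := fun g' =>
        ((Scheme.ΓSpecIso (CommRingCat.of R)).hom_inv_id_apply _).symm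
    rw [h1, h1 (rs _ _), D.ev0_cst]
  have hkey : ∀ y z : Y, K3.val z (mt z) (pb D.σ D.hσV (b y)) *
      K3.val z (hbσ z) (pb D.σ (le_rfl : D.σ ⁻¹ᵁ X.basicOpen (b z) ≤ _) (v y z)) =
      K3.val z (mt z) (pb D.σ D.hσV (b y)) ^ (n y + 1) := by
    intro y z
    by_cases hyz : D.σ z ∈ X.basicOpen (b y)
    · rw [pow_succ', mul_right_inj' ?_]
      · obtain ⟨G, hG, hG1⟩ := htr y z (X.basicOpen (b y) ⊓ X.basicOpen (b z)) inf_le_left
          inf_le_right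
        have h1 := congrArg (rm L (inf_le_left : X.basicOpen (b y) ⊓ X.basicOpen (b z) ≤ _)) (hT y)
        have h2 := congrArg (rm L (inf_le_right : X.basicOpen (b y) ⊓ X.basicOpen (b z) ≤ _))
          (hv y z)
        rw [rm_rm, rm_smul, map_pow, rs_rs, hG, ← mul_smul] at h1
        rw [rm_rm, rm_smul, h1] at h2
        have h3 := (hfr z).inj inf_le_right h2
        have h5 := congrArg (fun t => K3.val z (show z ∈ D.σ ⁻¹ᵁ (X.basicOpen (b y) ⊓
          X.basicOpen (b z)) from ⟨hyz, hbσ z⟩) (pb D.σ le_rfl t)) h3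
        have hG2 := congrArg Units.val (hG1 _ le_rfl)
        have hG3 : pb D.σ (le_rfl : D.σ ⁻¹ᵁ (X.basicOpen (b y) ⊓ X.basicOpen (b z)) ≤ _)
          (G : Γ(X, _)) = 1 := hG2
        simp only [map_mul, map_pow] at h5
        rw [hG3, map_one, mul_one, pb_rs, pb_rs] at h5
        have h6 : ∀ (W W' : X.Opens) (hz : z ∈ D.σ ⁻¹ᵁ W) (hz' : z ∈ D.σ ⁻¹ᵁ W')
            (hW : D.σ ⁻¹ᵁ W ≤ D.σ ⁻¹ᵁ W') (hWW : W ≤ W') (g : Γ(X, W')),
            K3.val z hz (pb D.σ hW g) = K3.val z hz' (pb D.σ le_rfl g) := by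
          intro W W' hz hz' hW hWW g
          rw [← K3.val_rs z hz hW, rs_pb]
        have h7 : K3.val z (show z ∈ D.σ ⁻¹ᵁ (X.basicOpen (b y) ⊓
            X.basicOpen (b z)) from ⟨hyz, hbσ z⟩) (pb D.σ (D.σ.preimage_mono
              (inf_le_left.trans (hNV y))) (b y)) =
            K3.val z (mt z) (pb D.σ D.hσV (b y)) := by
          rw [← K3.val_rs z (show z ∈ D.σ ⁻¹ᵁ (X.basicOpen (b y) ⊓
            X.basicOpen (b z)) from ⟨hyz, hbσ z⟩) le_top, rs_pb]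
        rw [← h7, ← h5]
        exact (h6 _ _ _ _ _ inf_le_right _).symm
      · rw [K3.val_ne_zero_iff, basicOpen_pb]
        exact ⟨trivial, hyz⟩
    · have h0 : K3.val z (mt z) (pb D.σ D.hσV (b y)) = 0 := by
        by_contra hne
        rw [← ne_eq, K3.val_ne_zero_iff, basicOpen_pb] at hne
        exact hyz hne.2
      rw [h0, zero_mul, zero_pow (Nat.succ_ne_zero _)]
  -- the coordinates of the section
  obtain ⟨w, hw⟩ : ∃ w : ∀ z, Γ(X, X.basicOpen (b z)), ∀ z, w z = ∑ y ∈ ρ.support,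
    rs (hNV z) (rs (le_top : D.V ≤ ⊤) (D.cst (ρ y)) * b y) * v y z := ⟨_, fun z => rfl⟩
  have hwE : ∀ z, w z • e' z = rm L (hNV z) E := by
    intro z
    rw [hw, hE, map_sum, Finset.sum_smul]
    refine Finset.sum_congr rfl fun y _ => ?_
    rw [mul_smul, hv, rm_smul]
  have hwσ : ∀ z, D.σ z ∈ X.basicOpen (w z) := by
    intro z
    have h1 : K3.val z (hbσ z) (pb D.σ (le_rfl : D.σ ⁻¹ᵁ X.basicOpen (b z) ≤ _) (w z)) = 1 := by
      rw [hw, map_sum, map_sum]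
      have h2 : ∀ y ∈ ρ.support, K3.val z (hbσ z) (pb D.σ
          (le_rfl : D.σ ⁻¹ᵁ X.basicOpen (b z) ≤ _)
          (rs (hNV z) (rs (le_top : D.V ≤ ⊤) (D.cst (ρ y)) * b y) * v y z)) =
          K3.val z (mt z) (pb D.σ D.hσV (rs (le_top : D.V ≤ ⊤)
            (D.cst (ρ y * D.ev0 (b y) ^ (n y + 1))))) := by
        intro y _
        have h3 : ∀ g : Γ(X, D.V), K3.val z (hbσ z) (pb D.σ
          (le_rfl : D.σ ⁻¹ᵁ X.basicOpen (b z) ≤ _) (rs (hNV z) g)) =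
            K3.val z (mt z) (pb D.σ D.hσV g) := by
          intro g
          rw [pb_rs, ← K3.val_rs z (show z ∈ D.σ ⁻¹ᵁ X.basicOpen (b z) from hbσ z) le_top, rs_pb]
        rw [map_mul, map_mul, h3, map_mul, map_mul, mul_assoc, hkey, hval z (b y), ← map_pow,
          ← map_pow, ← map_pow, ← map_pow, ← map_mul, ← map_mul, ← map_mul, ← map_mul]
      rw [Finset.sum_congr rfl h2, ← map_sum, ← map_sum, ← map_sum, ← map_sum]
      have h4 : ∑ y ∈ ρ.support, ρ y * D.ev0 (b y) ^ (n y + 1) = 1 := hρ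
      rw [h4, map_one, map_one, map_one, map_one]
    have h5 := (K3.val_ne_zero_iff z (hbσ z) _).mp (h1.trans_ne one_ne_zero)
    rw [basicOpen_pb] at h5
    exact h5.2
  -- the neighbourhood
  obtain ⟨O', hO'⟩ : ∃ O' : X.Opens, O' = ⨆ z : Y, X.basicOpen (w z) := ⟨_, rfl⟩
  have hO'V : O' ≤ D.V := by
    rw [hO']
    exact iSup_le fun z => (X.basicOpen_le _).trans (hNV z)
  have hle : ∀ z, X.basicOpen (w z) ≤ O' := fun z => by
    rw [hO']
    exact le_iSup (fun z => X.basicOpen (w z)) z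
  have hEfr : IsFrame L (rm L hO'V E) := by
    refine IsFrame.of_local (fun z : Y => X.basicOpen (w z)) hle hO'.le fun z => ?_
    have h1 := congrArg (rm L (X.basicOpen_le (w z))) (hwE z)
    rw [rm_smul, rm_rm] at h1
    rw [rm_rm, ← h1]
    have h2 : IsUnit (rs (X.basicOpen_le (w z)) (w z)) :=
      RingedSpace.isUnit_res_basicOpen X.toRingedSpace (w z)
    obtain ⟨t, ht⟩ := h2
    rw [← ht]
    exact ((hfr z).res _).unit_smul t
  obtain ⟨p, hp, hpO⟩ := D.exists_W_le (O := O') (fun z _ => hle z (hwσ z))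
  exact ⟨p, hp, rm L hpO (rm L hO'V E), hEfr.res hpO⟩

end XD

end Fermat.Agent.J25
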