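import Mathlib
import Fermat.Agent.J25.QC

/-!
# The fractional ideal attached to a module with a frame at infinity
-/

set_option autoImplicit false
set_option linter.unusedSectionVars false

universe u

open CategoryTheory CategoryTheory.Limits AlgebraicGeometry TopologicalSpace Opposite Polynomial

noncomputable section

namespace Fermat.Agent.J25

attribute [-instance] HahnSeries.powerSeriesAlgebra

namespace QC

variable {X : Scheme.{u}} {L : X.Modules}

/-- regular functions are regular on locally framed modules -/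
theorem regular {O : X.Opens} (hO : IsAffineOpen O) (hL : LocFr L O) (b : Γ(X, O))
    (hb : ∀ x, b * x = 0 → x = 0) (t : Γ(L, O)) (ht : b • t = 0) : t = 0 := by
  obtain ⟨s, hs, hfr⟩ := exists_finset hO hL
  refine rm_ext L (fun f : s => X.basicOpen (f : Γ(X, O))) (fun f => X.basicOpen_le _)
    (cover_of_span hO hs) ?_
  rintro ⟨f, hf⟩
  obtain ⟨e, he⟩ := hfr f hf
  obtain ⟨ρ, hρ⟩ := he.surj' (rm L (X.basicOpen_le f) t)
  change rm L (X.basicOpen_le f) t = rm L (X.basicOpen_le f) 0
  have h1 : rs (X.basicOpen_le f) b * ρ = 0 := by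
    refine he.inj' ?_
    rw [mul_smul, hρ, ← rm_smul, ht, map_zero, zero_smul]
  obtain ⟨n, y, hy⟩ := exists_pow_mul hO f (X.basicOpen_le f) rfl ρ
  have h2 : rs (X.basicOpen_le f) (b * y) = rs (X.basicOpen_le f) 0 := by
    rw [map_mul, hy, map_zero, mul_left_comm, h1, mul_zero]
  obtain ⟨m, hm⟩ := exists_pow_mul_eq hO f (X.basicOpen_le f) rfl h2
  rw [mul_zero, mul_left_comm] at hm
  have h3 := hb _ hm
  have h4 : rs (X.basicOpen_le f) f ^ (m + n) * ρ = 0 := by
    rw [pow_add, mul_assoc, ← hy, ← map_pow, ← map_mul, h3, map_zero]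
  have h5 : IsUnit (rs (X.basicOpen_le f) f ^ (m + n)) :=
    (X.toRingedSpace.isUnit_res_basicOpen f).pow _
  have h6 : ρ = 0 := (h5.mul_right_eq_zero).mp h4
  rw [← hρ, h6, zero_smul, map_zero]

end QC

namespace XD

variable {R : Type u} [CommRing R] {S : Subalgebra R (LaurentSeries R)} {α : LaurentSeries R}
  {X : Scheme.{u}} (D : XD R S α X) {L : X.Modules} {p : R[X]} (hp : p.coeff 0 = 1)
  {e : Γ(L, D.W p)} (he : IsFrame L e)

/-- the coordinate of a section over `U` with respect to the frame at infinity -/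
def coR (s : Γ(L, D.U)) : Γ(X, D.UW p) :=
  (he.surj (D.UW_le_W p) (rm L (D.UW_le_U p) s)).choose

theorem coR_spec (s : Γ(L, D.U)) :
    D.coR he s • rm L (D.UW_le_W p) e = rm L (D.UW_le_U p) s :=
  (he.surj (D.UW_le_W p) (rm L (D.UW_le_U p) s)).choose_spec

theorem coR_eq {s : Γ(L, D.U)} {r : Γ(X, D.UW p)}
    (h : r • rm L (D.UW_le_W p) e = rm L (D.UW_le_U p) s) : D.coR he s = r :=
  he.inj (D.UW_le_W p) ((D.coR_spec he s).trans h.symm)

theorem coR_add (s t : Γ(L, D.U)) : D.coR he (s + t) = D.coR he s + D.coR he t :=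
  D.coR_eq he (by rw [add_smul, coR_spec, coR_spec, map_add])

theorem coR_zero : D.coR he (0 : Γ(L, D.U)) = 0 :=
  D.coR_eq he (by rw [zero_smul, map_zero])

theorem coR_smul (x : Γ(X, D.U)) (s : Γ(L, D.U)) :
    D.coR he (x • s) = rs (D.UW_le_U p) x * D.coR he s :=
  D.coR_eq he (by rw [mul_smul, coR_spec, rm_smul])

/-- the expansion of a section over `U` with respect to the frame at infinity -/
def co : Γ(L, D.U) →+ LaurentSeries R where
  toFun s := D.exW hp (D.coR he s)
  map_zero' := by rw [coR_zero, map_zero]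
  map_add' s t := by rw [coR_add, map_add]

theorem co_apply (s : Γ(L, D.U)) : D.co hp he s = D.exW hp (D.coR he s) := rfl

theorem co_smul (x : Γ(X, D.U)) (s : Γ(L, D.U)) :
    D.co hp he (x • s) = D.exU x * D.co hp he s := by
  rw [co_apply, coR_smul, map_mul, D.exW_U, co_apply]

include hp in
theorem coR_injective (hL : QC.LocFr L D.U) : ∀ s : Γ(L, D.U), D.coR he s = 0 → s = 0 := by
  intro s hs
  have h1 := D.coR_spec he s
  rw [hs, zero_smul] at h1
  obtain ⟨n, hn⟩ := QC.inj D.hU hL (D.pa (Polynomial.X * p.reverse)) (D.UW_le_U p)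
    D.UW_eq_U s h1.symm
  rw [← map_pow] at hn
  refine QC.regular D.hU hL _ (fun x hx => D.pa_regular ?_ x hx) s hn
  exact (monic_X.mul (reverse_monic (by assumption))).pow n

theorem co_injective (hL : QC.LocFr L D.U) : Function.Injective (D.co hp he) :=
  (injective_iff_map_eq_zero _).mpr fun s hs =>
    D.coR_injective hp he hL s ((injective_iff_map_eq_zero _).mp (D.exW_injective hp) _ hs)

/-- the fractional ideal of the sections over `U` -/
def Mlat : Submodule S (LaurentSeries R) where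
  carrier := Set.range (D.co hp he)
  zero_mem' := ⟨0, map_zero _⟩
  add_mem' := by
    rintro _ _ ⟨s, rfl⟩ ⟨t, rfl⟩
    exact ⟨s + t, map_add _ _ _⟩
  smul_mem' := by
    rintro ⟨c, hc⟩ _ ⟨s, rfl⟩
    obtain ⟨x, rfl⟩ := (D.mem_S c).mp hc
    exact ⟨x • s, D.co_smul hp he x s⟩

theorem mem_Mlat {f : LaurentSeries R} : f ∈ D.Mlat hp he ↔ ∃ s, D.co hp he s = f := Iff.rfl

end XD

end Fermat.Agent.J25
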