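import Mathlib
import Fermat.Agent.J25.Lat0
import Fermat.Agent.J25.ToPic

/-!
# The fractional ideal attached to a module with a frame at infinity is invertible
-/

set_option autoImplicit false
set_option linter.unusedSectionVars false

universe u

open CategoryTheory CategoryTheory.Limits AlgebraicGeometry TopologicalSpace Opposite Polynomial

noncomputable section

namespace Fermat.Agent.J25

attribute [-instance] HahnSeries.powerSeriesAlgebra

namespace QC

variable {X : Scheme.{u}} {L : X.Modules}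

/-- the sections over an affine open are generated by the extensions of frames -/
theorem span_eq_top {O : X.Opens} (hO : IsAffineOpen O) (hL : LocFr L O) {s : Finset Γ(X, O)}
    (hs : Ideal.span (s : Set Γ(X, O)) = ⊤) (e : ∀ f : s, Γ(L, X.basicOpen (f : Γ(X, O))))
    (he : ∀ f, IsFrame L (e f)) (n : s → ℕ) (t : s → Γ(L, O))
    (ht : ∀ f : s, rm L (X.basicOpen_le (f : Γ(X, O))) (t f) =
      rs (X.basicOpen_le (f : Γ(X, O))) (f : Γ(X, O)) ^ n f • e f) :
    Submodule.span Γ(X, O) (Set.range t) = ⊤ := by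
  rw [eq_top_iff]
  rintro x -
  refine Submodule.mem_of_span_eq_top_of_smul_pow_mem _ _ hs x ?_
  rintro ⟨f, hf⟩
  obtain ⟨ρ, hρ⟩ := (he ⟨f, hf⟩).surj' (rm L (X.basicOpen_le f) x)
  obtain ⟨k, y, hy⟩ := exists_pow_mul hO f (X.basicOpen_le f) rfl ρ
  have h1 : rm L (X.basicOpen_le f) (f ^ (k + n ⟨f, hf⟩) • x - y • t ⟨f, hf⟩) = 0 := by
    have h2 : rm L (X.basicOpen_le f) (t ⟨f, hf⟩) = _ := ht ⟨f, hf⟩
    rw [map_sub, rm_smul, rm_smul, h2, ← hρ, hy, map_pow, ← mul_smul, ← mul_smul, ← sub_smul]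
    convert zero_smul Γ(X, X.basicOpen f) (e ⟨f, hf⟩) using 2
    ring
  obtain ⟨m, hm⟩ := inj hO hL f (X.basicOpen_le f) rfl _ h1
  refine ⟨m + (k + n ⟨f, hf⟩), ?_⟩
  rw [smul_sub, sub_eq_zero, ← mul_smul, ← mul_smul, ← pow_add] at hm
  change f ^ (m + (k + n ⟨f, hf⟩)) • x ∈ _
  rw [hm]
  exact Submodule.smul_mem _ _ (Submodule.subset_span ⟨_, rfl⟩)

end QC

namespace XD

variable {R : Type u} [CommRing R] {S : Subalgebra R (LaurentSeries R)} {α : LaurentSeries R}
  {X : Scheme.{u}} (D : XD R S α X) {L : X.Modules} {p : R[X]} (hp : p.coeff 0 = 1)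
  {e : Γ(L, D.W p)} (he : IsFrame L e)

theorem isAffineOpen_UW (p : R[X]) : IsAffineOpen (D.UW p) :=
  D.UW_eq p ▸ D.isAffineOpen_UV.basicOpen _

/-- the local dual generator -/
theorem exists_dual (f : Γ(X, D.U)) {ef : Γ(L, X.basicOpen f)} (hef : IsFrame L ef) (n : ℕ)
    (t : Γ(L, D.U)) (ht : rm L (X.basicOpen_le f) t = rs (X.basicOpen_le f) f ^ n • ef) :
    ∃ (N : ℕ) (g : Γ(X, D.UW p)), D.coR he t * g = rs (D.UW_le_U p) f ^ N ∧
      ∀ x : Γ(L, D.U), ∃ K : ℕ, ∀ m, K ≤ m → ∃ y : Γ(X, D.U),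
        rs (D.UW_le_U p) y = rs (D.UW_le_U p) f ^ m * (g * D.coR he x) := by
  set Z := X.basicOpen f ⊓ D.UW p with hZ
  have hZf : Z ≤ X.basicOpen f := inf_le_left
  have hZU : Z ≤ D.UW p := inf_le_right
  set b : Γ(X, D.UW p) := rs (D.UW_le_U p) f with hb
  have hZb : Z = X.basicOpen b := by rw [hb, basicOpen_rs, hZ, inf_comm]
  obtain ⟨h, hh⟩ := (he.res (hZU.trans (D.UW_le_W p))).exists_unit (hef.res hZf)
  -- coordinates on `Z`
  have key : ∀ (x : Γ(L, D.U)) (ρ : Γ(X, X.basicOpen f)), rm L (X.basicOpen_le f) x = ρ • ef →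
      rs hZU (D.coR he x) = rs hZf ρ * h := by
    intro x ρ hρ
    refine he.inj (hZU.trans (D.UW_le_W p)) ?_
    have h1 := congrArg (rm L hZU) (D.coR_spec he x)
    have h2 := congrArg (rm L hZf) hρ
    rw [rm_smul, rm_rm, rm_rm] at h1
    rw [rm_smul, rm_rm, hh, ← mul_smul] at h2
    rw [h1, ← h2]
  have hbZ : rs hZU b = rs hZf (rs (X.basicOpen_le f) f) := by rw [hb, rs_rs, rs_rs]
  obtain ⟨k, g, hg⟩ := exists_pow_mul (D.isAffineOpen_UW p) b hZU hZb ((h⁻¹ : Γ(X, Z)ˣ) : Γ(X, Z))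
  have hct : rs hZU (D.coR he t) = rs hZU b ^ n * h := by
    rw [key t _ ht, map_pow, hbZ]
  obtain ⟨j, hj⟩ := exists_pow_mul_eq (D.isAffineOpen_UW p) b hZU hZb
    (x := D.coR he t * g) (y := b ^ (n + k)) (by
      rw [map_mul, hct, hg, map_pow, pow_add]
      have : (h : Γ(X, Z)) * ((h⁻¹ : Γ(X, Z)ˣ) : Γ(X, Z)) = 1 := h.mul_inv
      linear_combination (rs hZU b ^ n * rs hZU b ^ k) * this)
  refine ⟨j + (n + k), b ^ j * g, ?_, fun x => ?_⟩
  · rw [mul_left_comm, hj, ← pow_add]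
  · obtain ⟨ρ, hρ⟩ := hef.surj' (rm L (X.basicOpen_le f) x)
    obtain ⟨K1, y1, hy1⟩ := exists_pow_mul D.hU f (X.basicOpen_le f) rfl ρ
    have hx := key x ρ hρ.symm
    have hyZ : rs hZU (rs (D.UW_le_U p) y1) = rs hZU b ^ K1 * rs hZf ρ := by
      rw [rs_rs, ← rs_rs hZf (X.basicOpen_le f), hy1, map_mul, map_pow, hbZ]
    obtain ⟨K2, hK2⟩ := exists_pow_mul_eq (D.isAffineOpen_UW p) b hZU hZb
      (x := b ^ K1 * (b ^ j * g * D.coR he x)) (y := b ^ (j + k) * rs (D.UW_le_U p) y1) (by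
        simp only [map_mul, map_pow]
        rw [hx, hg, hyZ, pow_add]
        have : (h : Γ(X, Z)) * ((h⁻¹ : Γ(X, Z)ˣ) : Γ(X, Z)) = 1 := h.mul_inv
        linear_combination (rs hZU b ^ K1 * rs hZU b ^ j * rs hZU b ^ k * rs hZf ρ) * this)
    refine ⟨K2 + K1, fun m hm => ?_⟩
    obtain ⟨i, rfl⟩ := Nat.exists_eq_add_of_le hm
    refine ⟨f ^ (i + K2 + (j + k)) * y1, ?_⟩
    rw [map_mul, map_pow, ← hb]
    calc b ^ (i + K2 + (j + k)) * rs (D.UW_le_U p) y1
        = b ^ i * (b ^ K2 * (b ^ (j + k) * rs (D.UW_le_U p) y1)) := by ring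
      _ = b ^ i * (b ^ K2 * (b ^ K1 * (b ^ j * g * D.coR he x))) := by rw [hK2]
      _ = b ^ (K2 + K1 + i) * (b ^ j * g * D.coR he x) := by ring

/-- **(K4)** the fractional ideal attached to a module with a frame at infinity is invertible,
with monic denominators -/
theorem exists_units_Mlat (hL : QC.LocFr L D.U) :
    ∃ M : (Submodule S (LaurentSeries R))ˣ, (M : Submodule S (LaurentSeries R)) = D.Mlat hp he ∧
      ∃ P : R[X], P.Monic ∧
        (∀ m ∈ (M : Submodule S (LaurentSeries R)), aeval α P * m ∈ S) ∧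
        ∀ m ∈ ((M⁻¹ : (Submodule S (LaurentSeries R))ˣ) : Submodule S (LaurentSeries R)),
          aeval α P * m ∈ S := by
  classical
  obtain ⟨s, hs, hfr⟩ := QC.exists_finset D.hU hL
  have hfr' : ∀ f : s, ∃ ef : Γ(L, X.basicOpen (f : Γ(X, D.U))), IsFrame L ef := fun f =>
    hfr f.1 f.2
  choose ef hef using hfr'
  have h1 : ∀ f : s, ∃ (n : ℕ) (t : Γ(L, D.U)), rm L (X.basicOpen_le (f : Γ(X, D.U))) t =
      rs (X.basicOpen_le (f : Γ(X, D.U))) (f : Γ(X, D.U)) ^ n • ef f := fun f =>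
    QC.surj D.hU hL f.1 (X.basicOpen_le f.1) rfl (ef f)
  choose n t ht using h1
  have hspan := QC.span_eq_top D.hU hL hs ef hef n t ht
  have h2 := fun f : s => D.exists_dual he f.1 (hef f) (n f) (t f) (ht f)
  choose N g hN hg using h2
  -- uniform exponents
  have h3 : ∀ f : s, ∃ K : ℕ, ∀ x : Γ(L, D.U), ∃ y : Γ(X, D.U),
      rs (D.UW_le_U p) y = rs (D.UW_le_U p) (f : Γ(X, D.U)) ^ K * (g f * D.coR he x) := by
    intro f
    choose K hK using fun f' : s => hg f (t f')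
    refine ⟨∑ f' : s, K f', fun x => ?_⟩
    have hx : x ∈ Submodule.span Γ(X, D.U) (Set.range t) := by rw [hspan]; trivial
    induction hx using Submodule.span_induction with
    | mem x hx =>
      obtain ⟨f', rfl⟩ := hx
      exact hK f' _ (Finset.single_le_sum (f := K) (fun _ _ => Nat.zero_le _)
        (Finset.mem_univ f'))
    | zero => exact ⟨0, by rw [coR_zero, map_zero, mul_zero, mul_zero]⟩
    | add x x' _ _ hx hx' =>
      obtain ⟨y, hy⟩ := hx
      obtain ⟨y', hy'⟩ := hx'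
      exact ⟨y + y', by rw [coR_add, map_add, hy, hy']; ring⟩
    | smul c x _ hx =>
      obtain ⟨y, hy⟩ := hx
      exact ⟨c * y, by rw [coR_smul, map_mul, hy]; ring⟩
  choose K hK using h3
  set m' : s → LaurentSeries R := fun f =>
    D.exW hp (rs (D.UW_le_U p) (f : Γ(X, D.U)) ^ K f * g f) with hm'
  have hm1 : ∀ (f : s) (x : Γ(L, D.U)), D.co hp he x * m' f ∈ S := by
    intro f x
    obtain ⟨y, hy⟩ := hK f x
    rw [D.mem_S]
    refine ⟨y, ?_⟩
    rw [← D.exW_U hp, hy, hm', co_apply, ← map_mul]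
    congr 1
    ring
  have hm2 : ∀ f : s, D.co hp he (t f) * m' f = D.exU ((f : Γ(X, D.U)) ^ (N f + K f)) := by
    intro f
    rw [← D.exW_U hp, hm', co_apply, ← map_mul, map_pow, pow_add, ← hN f]
    congr 1
    ring
  let M' : Submodule S (LaurentSeries R) := Submodule.span S (Set.range m')
  have hle : D.Mlat hp he * M' ≤ 1 := by
    rw [Submodule.mul_le]
    rintro _ ⟨x, rfl⟩ z hz
    rw [Submodule.mem_one]
    have : D.co hp he x * z ∈ S := by
      induction hz using Submodule.span_induction with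
      | mem z hz =>
        obtain ⟨f, rfl⟩ := hz
        exact hm1 f x
      | zero => rw [mul_zero]; exact zero_mem _
      | add z z' _ _ hz hz' => rw [mul_add]; exact add_mem hz hz'
      | smul c z _ hz =>
        rw [mul_smul_comm]
        exact S.mul_mem c.2 hz
    exact ⟨⟨_, this⟩, rfl⟩
  have hge : 1 ≤ D.Mlat hp he * M' := by
    rw [Submodule.one_le]
    let I : Submodule Γ(X, D.U) Γ(X, D.U) :=
      { carrier := {x | D.exU x ∈ D.Mlat hp he * M'}
        zero_mem' := by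
          change D.exU 0 ∈ D.Mlat hp he * M'
          rw [map_zero]; exact zero_mem _
        add_mem' := fun {x y} hx hy => by
          change D.exU (x + y) ∈ D.Mlat hp he * M'
          rw [map_add]; exact add_mem hx hy
        smul_mem' := fun c x hx => by
          change D.exU (c * x) ∈ D.Mlat hp he * M'
          rw [map_mul]
          exact Submodule.smul_mem _ (⟨D.exU c, D.exU_mem c⟩ : S) hx }
    have h4 : (1 : Γ(X, D.U)) ∈ I := by
      refine Submodule.mem_of_span_eq_top_of_smul_pow_mem I _ hs 1 ?_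
      rintro ⟨f, hf⟩
      refine ⟨N ⟨f, hf⟩ + K ⟨f, hf⟩, ?_⟩
      rw [smul_eq_mul, mul_one]
      change D.exU (f ^ (N ⟨f, hf⟩ + K ⟨f, hf⟩)) ∈ D.Mlat hp he * M'
      rw [← hm2 ⟨f, hf⟩]
      exact Submodule.mul_mem_mul ⟨_, rfl⟩ (Submodule.subset_span ⟨_, rfl⟩)
    have h5 : D.exU 1 ∈ D.Mlat hp he * M' := h4
    rwa [map_one] at h5
  have hMM : D.Mlat hp he * M' = 1 := le_antisymm hle hge
  refine ⟨⟨D.Mlat hp he, M', hMM, by rw [mul_comm]; exact hMM⟩, rfl, ?_⟩
  -- denominators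
  have hden : ∀ z : Γ(X, D.UW p), ∃ P : R[X], P.Monic ∧ aeval α P * D.exW hp z ∈ S := by
    intro z
    obtain ⟨P, y, hP, hy⟩ := D.exists_denom hp z
    refine ⟨P, hP, (D.mem_S _).mpr ⟨y, ?_⟩⟩
    rw [← D.exW_U hp, hy, map_mul, D.exW_U, D.exU_pa]
  choose P1 hP1 hP1' using fun f : s => hden (D.coR he (t f))
  choose P2 hP2 hP2' using fun f : s =>
    hden (rs (D.UW_le_U p) (f : Γ(X, D.U)) ^ K f * g f)
  have hα : ∀ P : R[X], aeval α P ∈ S := fun P => by
    rw [← D.exU_pa]; exact D.exU_mem _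
  have hprod : ∀ (P : s → R[X]) (f : s), ∃ Q : R[X], ∏ f' : s, P f' = Q * P f := fun P f =>
    ⟨_, (Finset.prod_erase_mul _ _ (Finset.mem_univ f)).symm⟩
  refine ⟨(∏ f : s, P1 f) * ∏ f : s, P2 f,
    (monic_prod_of_monic _ _ fun f _ => hP1 f).mul (monic_prod_of_monic _ _ fun f _ => hP2 f),
    ?_, ?_⟩
  · rintro _ ⟨x, rfl⟩
    have hx : x ∈ Submodule.span Γ(X, D.U) (Set.range t) := by rw [hspan]; trivial
    induction hx using Submodule.span_induction with
    | mem x hx =>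
      obtain ⟨f, rfl⟩ := hx
      obtain ⟨Q, hQ⟩ := hprod P1 f
      rw [hQ]
      have : aeval α (Q * P1 f * ∏ f : s, P2 f) * D.co hp he (t f) =
        aeval α (Q * ∏ f : s, P2 f) * (aeval α (P1 f) * D.co hp he (t f)) := by
        simp only [map_mul]; ring
      rw [this]
      exact S.mul_mem (hα _) (hP1' f)
    | zero => rw [map_zero, mul_zero]; exact zero_mem _
    | add x x' _ _ hx hx' => rw [map_add, mul_add]; exact add_mem hx hx'
    | smul c x _ hx =>
      rw [co_smul, mul_left_comm]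
      exact S.mul_mem (D.exU_mem c) hx
  · intro z hz
    have hz' : z ∈ Submodule.span S (Set.range m') := hz
    clear hz
    induction hz' using Submodule.span_induction with
    | mem z hz =>
      obtain ⟨f, rfl⟩ := hz
      obtain ⟨Q, hQ⟩ := hprod P2 f
      rw [hQ]
      have : aeval α ((∏ f : s, P1 f) * (Q * P2 f)) * m' f =
        aeval α ((∏ f : s, P1 f) * Q) * (aeval α (P2 f) * m' f) := by
        simp only [map_mul]; ring
      rw [this]
      exact S.mul_mem (hα _) (hP2' f)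
    | zero => rw [mul_zero]; exact zero_mem _
    | add x x' _ _ hx hx' => rw [mul_add]; exact add_mem hx hx'
    | smul c x _ hx =>
      rw [mul_smul_comm]
      exact S.mul_mem c.2 hx

end XD

end Fermat.Agent.J25
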