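import Mathlib
import Fermat.Agent.J25.Lat0b
import Fermat.Agent.J25.Dict
import Fermat.Agent.J25.PicC

/-!
# Modules with a frame at infinity come from invertible modules of Laurent series
-/

set_option autoImplicit false
set_option linter.unusedSectionVars false

universe u

open CategoryTheory CategoryTheory.Limits AlgebraicGeometry TopologicalSpace Opposite Polynomial

noncomputable section

namespace Fermat.Agent.J25

attribute [-instance] HahnSeries.powerSeriesAlgebra

namespace XD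

variable {R : Type u} [CommRing R] {S : Subalgebra R (LaurentSeries R)} {α : LaurentSeries R}
  {X : Scheme.{u}} (D : XD R S α X) {L : X.Modules} {p : R[X]} (hp : p.coeff 0 = 1)
  {e : Γ(L, D.W p)} (he : IsFrame L e)

/-- sections of `M` are frames where their inverse is defined -/
theorem isFrame_of_mul (hL : QC.LocFr L D.U) {M : (Submodule S (LaurentSeries R))ˣ}
    (hM : (M : Submodule S (LaurentSeries R)) = D.Mlat hp he) {n : LaurentSeries R}
    (hn : n ∈ ((M⁻¹ : (Submodule S (LaurentSeries R))ˣ) : Submodule S (LaurentSeries R)))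
    (τ : Γ(L, D.U)) (f : S) (hf : (f : LaurentSeries R) = D.co hp he τ * n) :
    IsFrame L (rm L (X.basicOpen_le (D.sec f)) τ) := by
  have key : ∀ x : X.basicOpen (D.sec f), ∃ b : Γ(X, D.U), (x : X) ∈ X.basicOpen b ∧
      ∃ h : X.basicOpen b ≤ X.basicOpen (D.sec f),
        IsFrame L (rm L h (rm L (X.basicOpen_le (D.sec f)) τ)) := by
    rintro ⟨x, hx⟩
    obtain ⟨Z, hxZ, e', he'⟩ := hL x (X.basicOpen_le _ hx)
    obtain ⟨b, hb, hxb⟩ := D.hU.exists_basicOpen_le
      (⟨x, ⟨hxZ, hx⟩⟩ : (Z ⊓ X.basicOpen (D.sec f) : X.Opens)) (X.basicOpen_le _ hx)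
    refine ⟨b, hxb, hb.trans inf_le_right, ?_⟩
    rw [rm_rm]
    have hbU : X.basicOpen b ≤ D.U := X.basicOpen_le b
    set e'' := rm L (hb.trans inf_le_left) e' with he''
    have hfr : IsFrame L e'' := he'.res _
    obtain ⟨ρ, hρ⟩ := hfr.surj' (rm L hbU τ)
    obtain ⟨k, τ', hτ'⟩ := QC.surj D.hU hL b hbU rfl e''
    -- the relation between the two sections
    have h1 : D.co hp he τ' * n ∈ S := by
      have h2 : D.co hp he τ' * n ∈ (M : Submodule S (LaurentSeries R)) *
          ((M⁻¹ : (Submodule S (LaurentSeries R))ˣ) : Submodule S (LaurentSeries R)) :=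
        Submodule.mul_mem_mul (by rw [hM]; exact ⟨τ', rfl⟩) hn
      rw [Units.mul_inv, Submodule.mem_one] at h2
      obtain ⟨y, hy⟩ := h2
      rw [← hy]
      exact y.2
    have h3 : D.sec ⟨_, h1⟩ • τ = D.sec f • τ' := by
      apply D.co_injective hp he hL
      rw [co_smul, co_smul, exU_sec, exU_sec, hf]
      change D.co hp he τ' * n * D.co hp he τ = _
      ring
    have h4 := congrArg (rm L hbU) h3
    rw [rm_smul, rm_smul, ← hρ, hτ', ← mul_smul, ← mul_smul] at h4
    have h5 := hfr.inj' h4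
    have h6 : IsUnit (rs hbU (D.sec f) * rs hbU b ^ k) := by
      refine IsUnit.mul ?_ ?_
      · have h7 : IsUnit (rs (X.basicOpen_le (D.sec f)) (D.sec f)) :=
          X.toRingedSpace.isUnit_res_basicOpen (D.sec f)
        have h8 := h7.map (rs (hb.trans inf_le_right : X.basicOpen b ≤ X.basicOpen (D.sec f)))
        rwa [rs_rs] at h8
      · have h7 : IsUnit (rs (X.basicOpen_le b) b) := X.toRingedSpace.isUnit_res_basicOpen b
        exact h7.pow k
    rw [← h5] at h6
    have h7 : IsUnit ρ := isUnit_of_mul_isUnit_right h6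
    rw [← hρ]
    exact hfr.unit_smul h7.unit
  choose b hxb hb hfr using key
  exact IsFrame.of_local (fun x : X.basicOpen (D.sec f) => X.basicOpen (b x)) hb
    (fun x hx => Opens.mem_iSup.mpr ⟨⟨x, hx⟩, hxb ⟨x, hx⟩⟩) hfr

/-- compatibility of a frame with an abstract frame -/
def Good {M : (Submodule S (LaurentSeries R))ˣ} (t : Frm D.gx M) (ε : Γ(L, t.O)) : Prop :=
  (∃ τ : Γ(L, D.U), D.co hp he τ = (t.c : LaurentSeries R) * t.m ∧
    ∀ (V : X.Opens) (hV : V ≤ t.O) (hU : V ≤ D.U),
      rs hU (D.sec t.c) • rm L hV ε = rm L hU τ) ∧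
  (t.inf → ∃ h : t.O ≤ D.W p, ε = rm L h e)

theorem Good.trans (hL : QC.LocFr L D.U) {M : (Submodule S (LaurentSeries R))ˣ}
    {t t' : Frm D.gx M} {ε : Γ(L, t.O)} {ε' : Γ(L, t'.O)} (h : D.Good hp he t ε)
    (h' : D.Good hp he t' ε') (V : X.Opens) (hV : V ≤ t.O) (hV' : V ≤ t'.O) :
    rm L hV' ε' = (t.g t' V hV hV' : Γ(X, V)) • rm L hV ε := by
  by_cases hi : t.inf ∧ t'.inf
  · obtain ⟨h1, h2⟩ := h.2 hi.1
    obtain ⟨h3, h4⟩ := h'.2 hi.2
    rw [Frm.g_of_inf t t' hV hV' hi.1 hi.2, Units.val_one, one_smul, h2, h4, rm_rm, rm_rm]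
  · have hU : V ≤ D.U := by
      rw [not_and_or] at hi
      rcases hi with hi | hi
      · exact hV.trans (t.fin hi)
      · exact hV'.trans (t'.fin hi)
    obtain ⟨τ, hτ, h1⟩ := h.1
    obtain ⟨τ', hτ', h2⟩ := h'.1
    have h3 : D.sec (t.tr t') • τ = D.sec (t.c * t.c * t.f) • τ' := by
      apply D.co_injective hp he hL
      rw [co_smul, co_smul, exU_sec, exU_sec, hτ, hτ', Frm.tr_coe]
      push_cast
      rw [t.hf]
      ring
    have h4 := congrArg (rm L hU) h3
    rw [rm_smul, rm_smul, ← h1 V hV hU, ← h2 V hV' hU, ← mul_smul, ← mul_smul] at h4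
    rw [Frm.g_eq_gU t t' hV hV' hU]
    have h5 : rs hU (D.sec (t.tr t')) = (Frm.gU t t' hV hV' hU : Γ(X, V)) * rs hU (D.sec t.c) *
      rs hU (D.sec t'.c) * rs hU (D.sec t.f) := Frm.gU_eq t t' hV hV' hU
    have hc : IsUnit (rs hU (D.sec t.c)) := t.hc V hV hU
    have hc' : IsUnit (rs hU (D.sec t'.c)) := t'.hc V hV' hU
    have hf : IsUnit (rs hU (D.sec t.f)) := t.hfu V hV hU
    have hu := ((hc.mul hc).mul hf).mul hc'
    apply hu.smul_left_cancel.mp
    rw [map_mul, map_mul, map_mul, map_mul] at h4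
    rw [← h4, h5, ← mul_smul]
    congr 1
    ring

/-- **(R3)** the class of a module with a frame at infinity -/
theorem cl_eq_of_hasCoc (hL : QC.LocFr L D.U) {M : (Submodule S (LaurentSeries R))ˣ}
    (hM : (M : Submodule S (LaurentSeries R)) = D.Mlat hp he) (hG : GG S α M) {c : Coc X}
    (hc : HasCoc L c) : D.cl M hG = PicC.mk c := by
  have key : ∀ x : X, ∃ (t : Frm D.gx M) (_ : x ∈ t.O) (ε : Γ(L, t.O)),
      IsFrame L ε ∧ D.Good hp he t ε := by
    intro x
    by_cases hx : x ∈ D.U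
    · obtain ⟨m, n, hm, hn, f, hf, hxf⟩ := D.exists_finF (M := M) hx
      have hm' := hm
      rw [hM] at hm'
      obtain ⟨τ, hτ⟩ := hm'
      refine ⟨D.finF m n hm hn f hf, hxf, rm L (X.basicOpen_le (D.sec f)) τ,
        D.isFrame_of_mul hp he hL hM hn τ f (by rw [hf, hτ]), ⟨τ, ?_, fun V hV hU => ?_⟩,
        fun h => h.elim⟩
      · rw [hτ]
        change m = ((1 : S) : LaurentSeries R) * m
        rw [OneMemClass.coe_one, one_mul]
      · change rs hU (D.sec 1) • rm L hV (rm L (X.basicOpen_le (D.sec f)) τ) = _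
        rw [map_one, map_one, one_smul]
        exact rm_rm L _ _ _
    · obtain ⟨P, hP, h1, h2⟩ := id hG
      obtain ⟨s, hsi, hsO, hsc⟩ := D.exists_infF h1 h2
      have hle : D.W (p * P.reverse) ≤ s.O := by
        rw [hsO, D.W_mul]; exact inf_le_right
      have hle' : D.W (p * P.reverse) ≤ D.W p := by
        rw [D.W_mul]; exact inf_le_left
      have hcoeff : (p * P.reverse).coeff 0 = 1 := by
        rw [mul_coeff_zero, hp, coeff_reverse hP, one_mul]
      let t : Frm D.gx M :=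
        { s with
          O := D.W (p * P.reverse)
          hc := fun W hW => s.hc W (hW.trans hle)
          hfu := fun W hW => s.hfu W (hW.trans hle)
          fin := fun h => (h hsi).elim }
      have htm : t.m = 1 := (s.one hsi).1
      have hmem : ((t.c : S) : LaurentSeries R) ∈ (M : Submodule S (LaurentSeries R)) := by
        have := s.hm
        rw [(s.one hsi).1, mul_one] at this
        exact this
      rw [hM] at hmem
      obtain ⟨τ, hτ⟩ := hmem
      refine ⟨t, D.mem_W hcoeff hx, rm L hle' e, he.res _, ⟨τ, ?_, fun V hV hU => ?_⟩,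
        fun _ => ⟨hle', rfl⟩⟩
      · rw [hτ, htm, mul_one]
      · have h3 : D.coR he τ = rs (D.UW_le_U p) (D.sec t.c) := by
          apply D.exW_injective hp
          rw [D.exW_U, exU_sec]
          exact hτ
        have h4 := D.coR_spec he τ
        rw [h3] at h4
        have hVp : V ≤ D.UW p := le_inf hU (hV.trans hle')
        have h5 := congrArg (rm L hVp) h4
        rw [rm_smul, rm_rm, rm_rm, rs_rs] at h5
        rw [← h5, rm_rm]
  choose t ht ε hε hg using key
  rw [cl, (Frm.fam D.gx M).cls_eq (D.fam_cov hG) t ht, PicC.mk_eq_mk]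
  refine HasCoc.rel (L := L) ⟨fun x => ε x, fun x => hε x, fun x y => ?_⟩ hc
  exact Good.trans D hp he hL (hg x) (hg y) _ _ _

end XD

theorem locFr_modOf {X : Scheme.{u}} (c : Coc X) (O : X.Opens) : QC.LocFr (modOf c) O :=
  fun x _ => ⟨c.U x, c.mem x, fr c x, isFrame_fr c x⟩

theorem XD.exists_cl_of_frame {R : Type u} [CommRing R] {S : Subalgebra R (LaurentSeries R)}
    {α : LaurentSeries R} {X : Scheme.{u}} (D : XD R S α X) (c : Coc X) {p : R[X]}
    (hp : p.coeff 0 = 1) {e : Γ(modOf c, D.W p)} (he : IsFrame (modOf c) e) :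
    ∃ (M : (Submodule S (LaurentSeries R))ˣ) (hG : GG S α M), D.cl M hG = PicC.mk c := by
  obtain ⟨M, hM, hG⟩ := D.exists_units_Mlat hp he (locFr_modOf c D.U)
  exact ⟨M, hG, D.cl_eq_of_hasCoc hp he (locFr_modOf c D.U) hM hG (hasCoc_modOf c)⟩

/-- **(P2)**, from the existence of a frame at infinity -/
theorem XD.exists_cl {R : Type u} [CommRing R] {S : Subalgebra R (LaurentSeries R)}
    {α : LaurentSeries R} {X : Scheme.{u}} (D : XD R S α X)
    (K3 : ∀ c : Coc X, PicC.map D.σ (PicC.mk c) = 1 → ∃ (p : R[X]) (_ : p.coeff 0 = 1)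
      (e : Γ(modOf c, D.W p)), IsFrame (modOf c) e) (ℓ : PicC X) (hℓ : PicC.map D.σ ℓ = 1) :
    ∃ (M : (Submodule S (LaurentSeries R))ˣ) (hG : GG S α M), D.cl M hG = ℓ := by
  obtain ⟨c, rfl⟩ := PicC.mk_surjective ℓ
  obtain ⟨p, hp, e, he⟩ := K3 c hℓ
  exact D.exists_cl_of_frame c hp he

end Fermat.Agent.J25
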