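import Mathlib
import Fermat.Agent.J25.SurjP2
import Fermat.Agent.J25.K3

/-!
# Every class which is trivial along infinity comes from an invertible module of Laurent series
-/

set_option autoImplicit false

universe u

open CategoryTheory CategoryTheory.Limits AlgebraicGeometry TopologicalSpace Opposite Polynomial

namespace Fermat.Agent.J25

attribute [-instance] HahnSeries.powerSeriesAlgebra

/-- **(P2)** -/
theorem XD.exists_cl_of_map_σ {R : Type u} [CommRing R] {S : Subalgebra R (LaurentSeries R)}
    {α : LaurentSeries R} {X : Scheme.{u}} (D : XD R S α X) (ℓ : PicC X)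
    (hℓ : PicC.map D.σ ℓ = 1) :
    ∃ (M : (Submodule S (LaurentSeries R))ˣ) (hG : GG S α M), D.cl M hG = ℓ :=
  D.exists_cl (fun c hc => D.exists_frame c hc) ℓ hℓ

end Fermat.Agent.J25
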