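import Mathlib
import Fermat.Agent.J25.PicD
import Fermat.Agent.J25.SurjP2b

/-!
# Assembly of `PicData`, with surjectivity
-/

set_option autoImplicit false

universe u v w

open CategoryTheory CategoryTheory.Limits AlgebraicGeometry TopologicalSpace Opposite Polynomial
open NeronModelInfra

noncomputable section

namespace Fermat.Agent.J25

attribute [-instance] HahnSeries.powerSeriesAlgebra

variable {k : Type u} [Field k] {C : Scheme.{u}} {c : C ⟶ Spec (CommRingCat.of k)}
    {ε : SchemeHomOver (𝟙 (Spec (CommRingCat.of k))) c}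

/-- assembly of the comparison data -/
def PicData.ofXD' (g : Geo c ε)
    (xd : ∀ (R : Type u) [CommRing R] [Algebra k R],
      XD R (AR g.e R) (ex g.e R g.a) (CR c R))
    (hσ : ∀ (R : Type u) [CommRing R] [Algebra k R], (xd R).σ = secR c ε R)
    (hU : ∀ (R S : Type u) [CommRing R] [Algebra k R] [CommRing S] [Algebra k S]
      (f : R →ₐ[k] S), (xd S).U = mR c f ⁻¹ᵁ (xd R).U)
    (hex : ∀ (R S : Type u) [CommRing R] [Algebra k R] [CommRing S] [Algebra k S]
      (f : R →ₐ[k] S) (x : Γ(CR c R, (xd R).U)),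
      (xd S).exU (pb (mR c f) (hU R S f).le x) = lmap (f : R →+* S) ((xd R).exU x)) :
    PicData g :=
  PicData.ofXD g xd hσ hU hex fun R _ _ l hl =>
    (xd R).exists_cl_of_map_σ l (by rw [hσ]; exact hl)

end Fermat.Agent.J25
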