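import Mathlib
import Fermat.Agent.J25.GeoXD2
import Fermat.Agent.J25.PicD2

/-!
# The comparison data attached to the geometric datum
-/

set_option autoImplicit false

universe u

open CategoryTheory CategoryTheory.Limits AlgebraicGeometry TopologicalSpace Opposite Polynomial
open NeronModelInfra

noncomputable section

namespace Fermat.Agent.J25

attribute [-instance] HahnSeries.powerSeriesAlgebra

variable {k : Type u} [Field k] {C : Scheme.{u}} {c : C ⟶ Spec (CommRingCat.of k)}
    {ε : SchemeHomOver (𝟙 (Spec (CommRingCat.of k))) c}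

theorem Geo.xd_exU (g : Geo c ε) {R S : Type u} [CommRing R] [Algebra k R] [CommRing S]
    [Algebra k S] (f : R →ₐ[k] S) (h : (g.xd S).U ≤ mR c f ⁻¹ᵁ (g.xd R).U)
    (x : Γ(CR c R, (g.xd R).U)) :
    (g.xd S).exU (J25.pb (mR c f) h x) = lmap (f : R →+* S) ((g.xd R).exU x) := by
  change g.exD S (rs inf_le_left (J25.pb (mR c f) h x)) =
    lmap (f : R →+* S) (g.exD R (rs inf_le_left x))
  rw [g.exD_rsA, g.exD_rsA, lmap_exR]
  exact congrArg _ (g.evA_pb f h x)

/-- **The comparison data.** -/
def Geo.picData (g : Geo c ε) : PicData g :=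
  PicData.ofXD' g (fun R _ _ => g.xd R) (fun _ _ _ => rfl) (fun _ _ _ _ _ _ f => g.xd_U f)
    fun _ _ _ _ _ _ f x => g.xd_exU f (g.xd_U f).le x

end Fermat.Agent.J25
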