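import Mathlib
import Fermat.Agent.J25.DX4
import Fermat.Agent.J25.PicG

/-!
# The class of the diagonal, for the comparison data of the curve
-/

set_option autoImplicit false

universe u v w

open CategoryTheory CategoryTheory.Limits AlgebraicGeometry TopologicalSpace Opposite
open NeronModelInfra AlgebraicGeometry.RelPicard
open scoped TensorProduct

noncomputable section

namespace Fermat.Agent.J25.DX

attribute [-instance] HahnSeries.powerSeriesAlgebra

variable {k : Type u} [Field k] {C : Scheme.{u}} {c : C ⟶ Spec (CommRingCat.of k)}
    {ε : SchemeHomOver (𝟙 (Spec (CommRingCat.of k))) c} (g : Geo c ε)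

/-- **(δ)** for the comparison data of the curve -/
theorem picData_delta [IsSeparated c] (R : Type u) [CommRing R] [Algebra k R]
    (x : g.A →ₐ[k] R) : PicC.map (baseChangeSnd c (AJ.ptA g x)) g.delta =
      (g.picData.toPic R (mx g.mxH x))⁻¹ :=
  map_delta g (g.xd R) (g.top_le_A R) (fun y => g.exD_rsA R y) x

end Fermat.Agent.J25.DX
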