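import Mathlib
import Fermat.Agent.H20.Coord
import Fermat.Agent.H20.Integral

/-!
# Smooth proper connected schemes over an algebraically closed field are integral
-/

set_option autoImplicit false

universe u

open CategoryTheory CategoryTheory.Limits AlgebraicGeometry TopologicalSpace Opposite

noncomputable section

namespace Fermat.Agent.J25.Cut

theorem isStandardSmooth_exists_dim {R S : Type u} [CommRing R] [CommRing S] (f : R →+* S)
    (h : f.IsStandardSmooth) : ∃ n, f.IsStandardSmoothOfRelativeDimension n := by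
  algebraize [f]
  obtain ⟨ι, σ, _, _, ⟨P⟩⟩ := (show Algebra.IsStandardSmooth R S from h).out
  exact ⟨P.dimension, ⟨ι, σ, inferInstance, inferInstance, P, rfl⟩⟩

theorem exists_smoothOfRelativeDimension {X Y : Scheme.{u}} (f : X ⟶ Y) [Smooth f] (x : X) :
    ∃ (V : X.Opens) (_ : x ∈ V) (n : ℕ), SmoothOfRelativeDimension n (V.ι ≫ f) := by
  obtain ⟨U, hU, V, hV, hx, e, hs⟩ := Smooth.exists_isStandardSmooth f x
  obtain ⟨n, hn⟩ := isStandardSmooth_exists_dim _ hs
  refine ⟨V, hx, n, ⟨fun y => ⟨U, hU, ⊤, ?_, trivial, ?_, ?_⟩⟩⟩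
  · have : IsAffine V.toScheme := hV
    exact isAffineOpen_top _
  · intro z _
    exact e z.2
  · have h1 : f.appLE U V e ≫ V.ι.appLE V ⊤ (fun z _ => z.2) =
        (V.ι ≫ f).appLE U ⊤ (fun z _ => e z.2) := Scheme.Hom.appLE_comp_appLE _ _ _ _ _ _ _
    have h2 : IsIso (V.ι.appLE V ⊤ (fun z _ => z.2)) := by
      rw [Scheme.Opens.ι_appLE]
      have h3 : V.ι ''ᵁ ⊤ = V := V.ι_image_top
      have h4 : ∀ (W : X.Opens) (h : W ≤ V), W = V →
          IsIso (X.presheaf.map (homOfLE h).op) := by
        rintro W h rfl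
        have : (homOfLE h).op = 𝟙 (op W) := rfl
        rw [this]
        infer_instance
      exact h4 _ _ h3
    rw [← h1]
    exact (RingHom.isStandardSmoothOfRelativeDimension_respectsIso (n := n)).cancel_right_isIso
      (f.appLE U V e) (V.ι.appLE V ⊤ (fun z _ => z.2)) |>.mpr hn

variable {k : Type u} [Field k] [IsAlgClosed k]

theorem stalk_isDomain {P : Scheme.{u}} (p : P ⟶ Spec (CommRingCat.of k)) [Smooth p] (x : P) :
    IsDomain (P.presheaf.stalk x) := by
  obtain ⟨V, hx, n, hn⟩ := exists_smoothOfRelativeDimension p x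
  let _ : H20.KSch k V.toScheme := ⟨V.ι ≫ p⟩
  have : SmoothOfRelativeDimension n (H20.pK k V.toScheme) := hn
  obtain ⟨h, -⟩ := H20.stalk_ufm (X := V.toScheme) k n ⟨x, hx⟩
  have e : V.toScheme.presheaf.stalk (⟨x, hx⟩ : V.toScheme) ≃+* P.presheaf.stalk x :=
    (asIso (V.ι.stalkMap (⟨x, hx⟩ : V.toScheme))).commRingCatIsoToRingEquiv.symm
  exact e.symm.injective.isDomain e.symm.toRingHom

/-- smooth proper connected schemes over an algebraically closed field are integral -/
theorem isIntegral_of_smooth {P : Scheme.{u}} (p : P ⟶ Spec (CommRingCat.of k)) [Smooth p]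
    [QuasiCompact p] [GeometricallyConnected p] : IsIntegral P := by
  have hconn : ConnectedSpace P := GeometricallyConnected.connectedSpace_of_subsingleton p
  have hnoeth : IsNoetherian P :=
    { toIsLocallyNoetherian := LocallyOfFiniteType.isLocallyNoetherian p
      toCompactSpace := QuasiCompact.compactSpace_of_compactSpace p }
  exact H20.isIntegral_of_stalk_isDomain P fun x => stalk_isDomain p x

end Fermat.Agent.J25.Cut
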