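import Mathlib
import Fermat.Agent.J25.CutA0
import Fermat.Agent.J25.SmInt
import Fermat.Agent.J25.Glob
import Fermat.Prelude.Def_AlgebraicGeometry_RepresentsRelSubPic

/-!
# From a representing object of the degree zero functor to the Jacobian
-/

set_option autoImplicit false

universe u

open CategoryTheory CategoryTheory.Limits AlgebraicGeometry TopologicalSpace Opposite
open AlgebraicGeometry.RelPicard NeronModelInfra GoodReductionJacobian

noncomputable section

namespace Fermat.Agent.J25.Cut

variable {k : Type u} [Field k] [IsAlgClosed k] {C : Scheme.{u}} {c : C ⟶ Spec (CommRingCat.of k)}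
  {ε : SchemeHomOver (𝟙 (Spec (CommRingCat.of k))) c}

/-- **S25 from a representing object of the degree zero part.** -/
theorem exists_represents
    (Dg : ∀ {T : Scheme.{u}} (t : T ⟶ Spec (CommRingCat.of k)), PicC (pullback c t) → Prop)
    (hone : ∀ {T : Scheme.{u}} (t : T ⟶ Spec (CommRingCat.of k)), Dg t 1)
    (hres : ∀ {T T' : Scheme.{u}} {t : T ⟶ Spec (CommRingCat.of k)}
      {t' : T' ⟶ Spec (CommRingCat.of k)} (φ : SchemeHomOver t' t) (l : PicC (pullback c t)),
      Dg t l → Dg t' (rst c φ l))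
    (hgeom : ∀ {T : Scheme.{u}} (t : T ⟶ Spec (CommRingCat.of k)) (l : PicC (pullback c t)),
      (∀ (K : Type u) [Field K] [IsAlgClosed K] (s : Spec (CommRingCat.of K) ⟶ T),
        Dg (s ≫ t) (rst c (⟨s, rfl⟩ : SchemeHomOver (s ≫ t) t) l)) → Dg t l)
    (hconn : ∀ (T : Scheme.{u}) [ConnectedSpace T] (t : T ⟶ Spec (CommRingCat.of k))
      (l : PicC (pullback c t)) (K : Type u) [Field K] [IsAlgClosed K]
      (σ : Spec (CommRingCat.of K) ⟶ Spec (CommRingCat.of k)) (s₀ s₁ : SchemeHomOver σ t),
      Dg σ (rst c s₀ l) → Dg σ (rst c s₁ l))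
    (P : Scheme.{u}) (p : P ⟶ Spec (CommRingCat.of k)) (hsm : Smooth p) (hpr : IsProper p)
    (hgc : GeometricallyConnected p) (u : PicC (pullback c p))
    (hu : PicC.map (rigSection c p ε) u = 1) (huD : Dg p u)
    (huniv : ∀ {T : Scheme.{u}} (t : T ⟶ Spec (CommRingCat.of k)) (l : PicC (pullback c t)),
      PicC.map (rigSection c t ε) l = 1 → Dg t l → ∃! g : SchemeHomOver t p, rst c g u = l) :
    ∃ D : RelativePic0Designation k c,
      Nonempty (RepresentsRelSubPic c ε (algEquivZeroCut c ε) D) ∧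
        Smooth D.toBase ∧ IsProper D.toBase ∧ GeometricallyConnected D.toBase := by
  have hint : IsIntegral P := isIntegral_of_smooth p
  have hgi : GeometricallyIntegral p := Glb.geometricallyIntegral_of_isAlgClosed p
  obtain ⟨e, he, -⟩ := huniv (𝟙 (Spec (CommRingCat.of k))) 1 (map_one _) (hone _)
  have hcut : ∀ {T : Scheme.{u}} {t : T ⟶ Spec (CommRingCat.of k)}
      (M : RigidifiedLineBundle c ε t), FibrewiseAlgEquivZero M ↔ Dg t (rcls M) := by
    intro T t M
    rw [fibrewiseAlgEquivZero_iff (fun K _ _ σ l => Dg σ l) (fun K _ _ σ => hone σ)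
      hconn P p e u he (fun K _ _ σ l hl => (huniv σ l (PicC.eq_one_of_subsingleton _) hl).exists) M]
    exact ⟨fun h => hgeom t _ h, fun h K _ _ s => hres _ _ h⟩
  obtain ⟨Mu, hMu⟩ := exists_rcls (ε := ε) u hu
  refine ⟨⟨P, p, e.1, e.2⟩, ⟨?_⟩, hsm, hpr, hgc⟩
  exact
    { poincare := Mu
      poincare_mem := (hcut Mu).mpr (by rw [hMu]; exact huD)
      univ := by
        intro T t M hM
        have hM' : Dg t (rcls M) := (hcut M).mp hM
        obtain ⟨g, hg, hg'⟩ := huniv t (rcls M) (rcls_rig M) hM'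
        refine ⟨g, ?_, fun g' hgg => hg' g' ?_⟩
        · change Nonempty _
          rw [← rcls_eq_iff, rcls_pullbackAlong, hMu]
          exact hg
        · have h1 : rcls (Mu.pullbackAlong g') = rcls M := rcls_eq_iff.mpr hgg
          rw [rcls_pullbackAlong, hMu] at h1
          exact h1
      zero := by
        rw [← rcls_eq_iff, rcls_pullbackAlong, hMu, rcls_unit]
        exact he }

end Fermat.Agent.J25.Cut
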