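import Mathlib
import Fermat.Agent.J25.Hub2
import Fermat.Agent.J25.AJ2
import Fermat.Agent.J25.Mx

/-!
# The Abel–Jacobi morphism
-/

set_option autoImplicit false

universe u

open AlgebraicGeometry CategoryTheory CategoryTheory.Limits TopologicalSpace NeronModelInfra
open AlgebraicGeometry.RelPicard

namespace Fermat.Agent.J25.AJ

attribute [-instance] HahnSeries.powerSeriesAlgebra

noncomputable section

variable {k : Type u} [Field k] {C : Scheme.{u}} {c : C ⟶ Spec (CommRingCat.of k)}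
    {ε : SchemeHomOver (𝟙 (Spec (CommRingCat.of k))) c} {g : Geo c ε}

theorem bc_ofId_self (M : G g.e (R := k) g.a) : bc (Algebra.ofId k k) M = M := by
  apply G.ext
  rw [bc_sub]
  have h : ∀ x : LaurentSeries k, lmap ((Algebra.ofId k k : k →ₐ[k] k) : k →+* k) x = x := by
    intro x
    ext i
    rw [lmap_coeff]
    rfl
  have h2 : lmap ((Algebra.ofId k k : k →ₐ[k] k) : k →+* k) '' (G.sub M : Set (LaurentSeries k)) =
      (G.sub M : Set (LaurentSeries k)) := by
    ext x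
    simp only [Set.mem_image, h, exists_eq_right]
  rw [h2, Submodule.span_eq]

/-- Deg0 over a point -/
theorem degZ_of_deg0 [IsAlgClosed k] (D : PicData g) (l : PicC (CR c k)) (h : D.Deg0 (sS k k) l) :
    D.DegZ l := by
  have h1 := h k (⟨𝟙 _, Category.id_comp _⟩ : SchemeHomOver (sS k k) (sS k k))
  rwa [baseChangeSnd_id, PicC.map_id_apply] at h1

theorem map_over (D : PicData g) {P T : Scheme.{u}} (x : PicData.FPt D P)
    {t : T ⟶ Spec (CommRingCat.of k)} (φ : SchemeHomOver t x.t)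
    (h1 : PicC.map (rigSection c t ε) (PicC.map (baseChangeSnd c φ) x.l) = 1)
    (h2 : D.Deg0 t (PicC.map (baseChangeSnd c φ) x.l)) :
    x.map φ.1 = ⟨t, PicC.map (baseChangeSnd c φ) x.l, h1, h2⟩ := by
  obtain ⟨φ, rfl⟩ := φ
  rfl

theorem rig_over (D : PicData g) {P T : Scheme.{u}} (x : PicData.FPt D P)
    {t : T ⟶ Spec (CommRingCat.of k)} (φ : SchemeHomOver t x.t) :
    PicC.map (rigSection c t ε) (PicC.map (baseChangeSnd c φ) x.l) = 1 := by
  rw [← PicC.map_comp_apply, rigSection_baseChangeSnd, PicC.map_comp_apply, x.rig, map_one]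

/-- classes of degree zero give morphisms -/
theorem exists_of_univ (D : PicData g) {P : Scheme.{u}} (x : PicData.FPt D P)
    (huniv : ∀ (T : Scheme.{u}) (y : PicData.FPt D T), ∃! φ : T ⟶ P, x.map φ = y)
    {T : Scheme.{u}} (t : T ⟶ Spec (CommRingCat.of k)) (ℓ : PicC (pullback c t))
    (h1 : PicC.map (rigSection c t ε) ℓ = 1) (h2 : D.Deg0 t ℓ) :
    ∃ φ : SchemeHomOver t x.t, PicC.map (baseChangeSnd c φ) x.l = ℓ := by
  obtain ⟨φ, hφ, -⟩ := huniv T ⟨t, ℓ, h1, h2⟩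
  have ht : φ ≫ x.t = t := congrArg PicData.FPt.t hφ
  subst ht
  refine ⟨⟨φ, rfl⟩, ?_⟩
  injection hφ

/-- morphisms to `P` are determined by the pullback of the universal class -/
theorem eq_of_univ (D : PicData g) {P : Scheme.{u}} (x : PicData.FPt D P)
    (huniv : ∀ (T : Scheme.{u}) (y : PicData.FPt D T), ∃! φ : T ⟶ P, x.map φ = y)
    {T : Scheme.{u}} {t : T ⟶ Spec (CommRingCat.of k)} (φ ψ : SchemeHomOver t x.t)
    (h : PicC.map (baseChangeSnd c φ) x.l = PicC.map (baseChangeSnd c ψ) x.l) : φ = ψ := by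
  have h1 := map_over D x φ (rig_over D x φ) (x.deg.pullback D φ)
  have h2 := map_over D x ψ (rig_over D x ψ) (x.deg.pullback D ψ)
  have h3 : x.map φ.1 = x.map ψ.1 := by
    rw [h1, h2]
    congr 1
  exact Subtype.ext ((huniv T _).unique rfl h3.symm)

/-- **The Abel–Jacobi morphism is surjective on points.** -/
theorem exists_ajMor_of [IsAlgClosed k] [IsIntegral C] (D : PicData g) {P : Scheme.{u}}
    (x : PicData.FPt D P)
    (huniv : ∀ (T : Scheme.{u}) (y : PicData.FPt D T), ∃! φ : T ⟶ P, x.map φ = y)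
    (hcon : ∀ {T : Scheme.{u}} (t : T ⟶ Spec (CommRingCat.of k)) (_ : IsIntegral T)
      (ℓ : PicC (pullback c t)) (_ : PicC.map (rigSection c t ε) ℓ = 1)
      (s : SchemeHomOver (sS k k) t), D.DegZ (PicC.map (baseChangeSnd c s) ℓ) → D.Deg0 t ℓ)
    (δ : PicC (pullback c c))
    (hδ : ∀ y : g.A →ₐ[k] k,
      PicC.map (baseChangeSnd c (ptA g y)) δ = (D.toPic k (mx g.mxH y))⁻¹)
    (N : ℕ) (η : G g.e (R := k) g.a)
    (h3b : ∀ M : G g.e (R := k) g.a, IsDegZero M → ∃ y : Fin N → (g.A →ₐ[k] k),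
      D.toPic k M = D.toPic k (η * ∏ i, (mx g.mxH (y i))⁻¹)) :
    ∃ q : Tow.T c N ⟶ P, q ≫ x.t = Tow.tp c N ∧
      ∀ y : Spec (CommRingCat.of k) ⟶ P, y ≫ x.t = 𝟙 _ →
        ∃ z : Spec (CommRingCat.of k) ⟶ Tow.T c N, z ≫ q = y := by
  have hone : D.DegZ (1 : PicC (CR c k)) := by
    rw [← map_one (D.toPic k), D.degZ_toPic]
    exact rfl
  refine exists_ajMor ε (alp g D.toPic η) δ D.Deg0
    (fun t hT ℓ h1 s h2 => hcon t hT ℓ h1 s (by rw [h2]; exact hone)) x.t x.l x.rig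
    (fun φ => x.deg.pullback D φ) (fun t ℓ h1 h2 => exists_of_univ D x huniv t ℓ h1 h2)
    (fun φ ψ h => eq_of_univ D x huniv φ ψ h) ?_ N ?_
  · refine hcon _ inferInstance _ (map_one _) (⟨𝟙 _, Category.id_comp _⟩) ?_
    rw [map_one]
    exact hone
  · intro ℓ h1 h2
    obtain ⟨M, rfl, hM⟩ := degZ_of_deg0 D ℓ h2
    obtain ⟨y, hy⟩ := h3b M hM
    refine ⟨fun i => ptA g (y i), ?_⟩
    rw [aj_eq_toPic g D.toPic D.sec (fun R S _ _ _ _ f M => (D.nat R S f M).symm) δ η k y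
      (fun i => (mx g.mxH (y i))⁻¹) (fun i => by rw [hδ, map_inv]), bc_ofId_self, hy]

end

end Fermat.Agent.J25.AJ
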