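import Mathlib
import Fermat.Agent.J25.Glob

/-!
# S25, (8c): the abstract end game
-/

set_option autoImplicit false

universe u

open CategoryTheory CategoryTheory.Limits TopologicalSpace AlgebraicGeometry

namespace Fermat.Agent.J25.E

open AlgebraicGeometry.Scheme AlgebraicGeometry.Scheme.Pullback

section sep

variable {k : Type u} [Field k] [IsAlgClosed k] {X : Scheme.{u}}

/-- an open set containing all closed points of a Jacobson space is everything -/
lemma open_eq_top {T : Type*} [TopologicalSpace T] [JacobsonSpace T] {U : Set T} (hU : IsOpen U)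
    (h : ∀ x : T, IsClosed {x} → x ∈ U) : U = Set.univ := by
  have h1 : IsLocallyClosed (Uᶜ) := hU.isClosed_compl.isLocallyClosed
  have h2 := JacobsonSpace.closure_inter_closedPoints_eq_closure h1
  have h3 : Uᶜ ∩ closedPoints T = ∅ := by
    ext x
    simp only [Set.mem_inter_iff, Set.mem_compl_iff, Set.mem_empty_iff_false, iff_false, not_and]
    intro hx hc
    exact hx (h x hc)
  rw [h3, closure_empty, hU.isClosed_compl.closure_eq] at h2
  rw [← compl_compl U, ← h2, Set.compl_empty]

/-- `k`-points are closed -/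
lemma isClosed_point (f : X ⟶ Spec (.of k)) [LocallyOfFiniteType f]
    (p : Spec (.of k) ⟶ X) (hp : p ≫ f = 𝟙 _) :
    IsClosed {p (IsLocalRing.closedPoint k)} :=
  (pointEquivClosedPoint f ⟨p, hp⟩).2

/-- the diagonal is closed over an affine open chart -/
lemma closed_diag_chart {Y S : Scheme.{u}} (f : X ⟶ S) (j : Y ⟶ X) [Mono j] [IsAffine Y] :
    IsClosed ((pullback.map (j ≫ f) (j ≫ f) f f j j (𝟙 _) (by simp) (by simp)) ⁻¹'
      Set.range (pullback.diagonal f)) := by
  set g := pullback.map (j ≫ f) (j ≫ f) f f j j (𝟙 _) (by simp) (by simp) with hg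
  have hg1 : g ≫ pullback.fst f f = pullback.fst (j ≫ f) (j ≫ f) ≫ j := by
    rw [hg]; exact pullback.lift_fst _ _ _
  have hg2 : g ≫ pullback.snd f f = pullback.snd (j ≫ f) (j ≫ f) ≫ j := by
    rw [hg]; exact pullback.lift_snd _ _ _
  let e := equalizer.ι (pullback.fst (j ≫ f) (j ≫ f)) (pullback.snd (j ≫ f) (j ≫ f))
  have hce : IsClosedImmersion e := inferInstance
  have key : g ⁻¹' Set.range (pullback.diagonal f) = Set.range e := by
    apply Set.eq_of_subset_of_subset
    · rw [← Scheme.Pullback.range_snd]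
      have h1 : pullback.snd (pullback.diagonal f) g ≫ pullback.fst (j ≫ f) (j ≫ f) =
          pullback.snd (pullback.diagonal f) g ≫ pullback.snd (j ≫ f) (j ≫ f) := by
        rw [← cancel_mono j, Category.assoc, Category.assoc, ← hg1, ← hg2,
          ← pullback.condition_assoc, ← pullback.condition_assoc]
        simp
      have h2 : pullback.snd (pullback.diagonal f) g = equalizer.lift _ h1 ≫ e :=
        (equalizer.lift_ι _ _).symm
      rw [h2]
      rintro _ ⟨z, rfl⟩
      exact ⟨equalizer.lift _ h1 z, (Scheme.Hom.comp_apply _ _ _).symm⟩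
    · rintro _ ⟨z, rfl⟩
      refine ⟨(e ≫ pullback.fst (j ≫ f) (j ≫ f) ≫ j) z, ?_⟩
      have h3 : (e ≫ pullback.fst (j ≫ f) (j ≫ f) ≫ j) ≫ pullback.diagonal f = e ≫ g := by
        apply pullback.hom_ext
        · simp only [Category.assoc, pullback.diagonal_fst, Category.comp_id, hg1]
        · simp only [Category.assoc, pullback.diagonal_snd, Category.comp_id, hg2]
          have h5 : e ≫ pullback.fst (j ≫ f) (j ≫ f) = e ≫ pullback.snd (j ≫ f) (j ≫ f) :=
            equalizer.condition _ _
          rw [← Category.assoc, h5, Category.assoc]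
      rw [← Scheme.Hom.comp_apply, h3, Scheme.Hom.comp_apply]
  rw [key]
  exact hce.isClosedEmbedding.isClosed_range

theorem isSeparated_of_pairs (f : X ⟶ Spec (.of k)) [LocallyOfFiniteType f]
    {ι : Type*} (U : ι → Scheme.{u}) (j : ∀ i, U i ⟶ X) [∀ i, IsOpenImmersion (j i)]
    [∀ i, IsAffine (U i)]
    (h : ∀ x y : X, IsClosed {x} → IsClosed {y} → ∃ i, x ∈ Set.range (j i) ∧
      y ∈ Set.range (j i)) : IsSeparated f := by
  constructor
  apply IsClosedImmersion.of_isPreimmersion
  let g := fun i => pullback.map (j i ≫ f) (j i ≫ f) f f (j i) (j i) (𝟙 _) (by simp) (by simp)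
  have hg : ∀ i, IsOpenImmersion (g i) := fun i => inferInstance
  have hfin : LocallyOfFiniteType (pullback.fst f f ≫ f) := inferInstance
  have hjac : JacobsonSpace ↥(pullback f f) :=
    LocallyOfFiniteType.jacobsonSpace (pullback.fst f f ≫ f)
  have hcov : (⋃ i, Set.range (g i)) = Set.univ := by
    apply open_eq_top
    · exact isOpen_iUnion fun i => (g i).isOpenEmbedding.isOpen_range
    · intro x hx
      obtain ⟨p, hp⟩ := (pointEquivClosedPoint (pullback.fst f f ≫ f)).surjective ⟨x, hx⟩
      have hpx : p.1 (IsLocalRing.closedPoint k) = x := congrArg Subtype.val hp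
      have c1 := isClosed_point f (p.1 ≫ pullback.fst f f) (by rw [Category.assoc]; exact p.2)
      have c2 := isClosed_point f (p.1 ≫ pullback.snd f f) (by
        rw [Category.assoc, ← pullback.condition]; exact p.2)
      have e1 : (p.1 ≫ pullback.fst f f) (IsLocalRing.closedPoint k) = pullback.fst f f x := by
        rw [← hpx]; rfl
      have e2 : (p.1 ≫ pullback.snd f f) (IsLocalRing.closedPoint k) = pullback.snd f f x := by
        rw [← hpx]; rfl
      rw [e1] at c1
      rw [e2] at c2
      obtain ⟨i, h1, h2⟩ := h _ _ c1 c2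
      rw [Set.mem_iUnion]
      refine ⟨i, ?_⟩
      have h3 : Set.range (g i) = pullback.fst f f ⁻¹' Set.range (j i) ∩
          pullback.snd f f ⁻¹' Set.range (j i) := Scheme.Pullback.range_map _ _ _ _ _ _ _ _ _
      rw [h3]
      exact ⟨h1, h2⟩
  rw [← isOpen_compl_iff, isOpen_iff_forall_mem_open]
  intro x hx
  obtain ⟨i, w, hw⟩ := Set.mem_iUnion.1 (hcov.symm ▸ Set.mem_univ x)
  refine ⟨g i '' ((g i) ⁻¹' (Set.range (pullback.diagonal f))ᶜ), ?_, ?_, ⟨w, ?_, hw⟩⟩
  · rintro _ ⟨z, hz, rfl⟩; exact hz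
  · apply (g i).isOpenEmbedding.isOpenMap
    rw [Set.preimage_compl]
    exact (closed_diag_chart f (j i)).isOpen_compl
  · rw [Set.mem_preimage, hw]; exact hx

end sep

section final

variable {k : Type u} [Field k] [IsAlgClosed k] {X : Scheme.{u}}

omit [IsAlgClosed k] in
/-- a continuous closed map whose range contains all closed points of a Jacobson space is
surjective -/
lemma surjective_of_closed_points {Z : Scheme.{u}} (q : Z ⟶ X) (f : X ⟶ Spec (.of k))
    [LocallyOfFiniteType f] [IsSeparated f] [UniversallyClosed (q ≫ f)]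
    (hq : ∀ x : X, IsClosed {x} → x ∈ Set.range q) : Surjective q := by
  have h1 : UniversallyClosed q := UniversallyClosed.of_comp_of_isSeparated q f
  have h2 : JacobsonSpace X := LocallyOfFiniteType.jacobsonSpace f
  have h3 : IsClosed (Set.range q) := q.isClosedMap.isClosed_range
  refine ⟨fun x => ?_⟩
  have h4 := JacobsonSpace.closure_inter_closedPoints_eq_closure
    (isClosed_univ (X := X)).isLocallyClosed
  rw [Set.univ_inter, closure_univ] at h4
  have h5 : closure (closedPoints X) ⊆ Set.range q :=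
    h3.closure_subset_iff.2 fun y hy => hq y hy
  exact h5 (h4 ▸ Set.mem_univ x)

omit [IsAlgClosed k] in
/-- smoothness can be checked on charts -/
lemma smooth_of_charts (f : X ⟶ Spec (.of k)) {ι : Type*} (U : ι → Scheme.{u})
    (j : ∀ i, U i ⟶ X) [∀ i, IsOpenImmersion (j i)] (hsm : ∀ i, Smooth (j i ≫ f))
    (hcov : ∀ x : X, ∃ i, x ∈ Set.range (j i)) : Smooth f := by
  have hloc : IsZariskiLocalAtSource (@Smooth.{u}) :=
    HasRingHomProperty.instIsZariskiLocalAtSource (Q := RingHom.Smooth)
  refine (IsZariskiLocalAtSource.iff_of_iSup_eq_top (P := @Smooth.{u})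
    (fun i => (j i).opensRange) ?_).2 fun i => ?_
  · rw [eq_top_iff]
    rintro x -
    obtain ⟨i, hi⟩ := hcov x
    exact Opens.mem_iSup.2 ⟨i, hi⟩
  · have h1 : (j i).opensRange.ι ≫ f = (j i).isoOpensRange.inv ≫ (j i ≫ f) := by
      rw [← Category.assoc, Scheme.Hom.isoOpensRange_inv_comp]
    have h2 := hsm i
    have h3 : Smooth (j i).isoOpensRange.inv := inferInstance
    rw [h1]
    exact smooth_comp _ _

/-- **The end game of S25.**  A scheme covered by affine open charts, smooth over `k`, such that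
any two closed points lie in a common chart, whose closed points are in the image of an integral
proper scheme, is smooth, proper and geometrically connected. -/
theorem end_game (f : X ⟶ Spec (.of k)) {ι : Type*} (U : ι → Scheme.{u}) (j : ∀ i, U i ⟶ X)
    [∀ i, IsOpenImmersion (j i)] [∀ i, IsAffine (U i)] (hsm : ∀ i, Smooth (j i ≫ f))
    (hcov : ∀ x : X, ∃ i, x ∈ Set.range (j i))
    (hpair : ∀ x y : X, IsClosed {x} → IsClosed {y} → ∃ i, x ∈ Set.range (j i) ∧
      y ∈ Set.range (j i))
    {Z : Scheme.{u}} [IsIntegral Z] (q : Z ⟶ X) [IsProper (q ≫ f)]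
    (hq : ∀ x : X, IsClosed {x} → x ∈ Set.range q) :
    Smooth f ∧ IsProper f ∧ GeometricallyConnected f := by
  have hsmooth : Smooth f := smooth_of_charts f U j hsm hcov
  have hsep : IsSeparated f := isSeparated_of_pairs f U j hpair
  have hsur : Surjective q := surjective_of_closed_points q f hq
  have hprop : IsProper f := Glb.isProper_of_surjective q f
  have hgi : GeometricallyIntegral (q ≫ f) := Glb.geometricallyIntegral_of_isAlgClosed (q ≫ f)
  have hgc : GeometricallyConnected (q ≫ f) := by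
    refine ⟨fun K _ y Z' fst snd h => ?_⟩
    have h1 : IrreducibleSpace Z' :=
      GeometricallyIrreducible.geometrically_irreducibleSpace (f := q ≫ f) y fst snd h
    exact (inferInstance : ConnectedSpace Z')
  exact ⟨hsmooth, hprop, Glb.geometricallyConnected_of_surjective q f⟩

/-- **The end game of S25, with `k`-points.** -/
theorem end_game_points (f : X ⟶ Spec (.of k)) {ι : Type*} (U : ι → Scheme.{u})
    (j : ∀ i, U i ⟶ X) [∀ i, IsOpenImmersion (j i)] [∀ i, IsAffine (U i)]
    (hsm : ∀ i, Smooth (j i ≫ f)) (hcov : ∀ x : X, ∃ i, x ∈ Set.range (j i))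
    (hpair : ∀ p p' : Spec (.of k) ⟶ X, p ≫ f = 𝟙 _ → p' ≫ f = 𝟙 _ →
      ∃ i, (∃ a, a ≫ j i = p) ∧ ∃ a', a' ≫ j i = p')
    {Z : Scheme.{u}} [IsIntegral Z] (q : Z ⟶ X) [IsProper (q ≫ f)]
    (hq : ∀ p : Spec (.of k) ⟶ X, p ≫ f = 𝟙 _ → ∃ z, z ≫ q = p) :
    Smooth f ∧ IsProper f ∧ GeometricallyConnected f := by
  have hsmooth : Smooth f := smooth_of_charts f U j hsm hcov
  have hpt : ∀ x : X, IsClosed {x} →
      ∃ p : Spec (.of k) ⟶ X, p ≫ f = 𝟙 _ ∧ p (IsLocalRing.closedPoint k) = x := by
    intro x hx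
    obtain ⟨p, hp⟩ := (pointEquivClosedPoint f).surjective ⟨x, hx⟩
    exact ⟨p.1, p.2, congrArg Subtype.val hp⟩
  refine end_game f U j hsm hcov (fun x y hx hy => ?_) q (fun x hx => ?_)
  · obtain ⟨p, hp, rfl⟩ := hpt x hx
    obtain ⟨p', hp', rfl⟩ := hpt y hy
    obtain ⟨i, ⟨a, rfl⟩, ⟨a', rfl⟩⟩ := hpair p p' hp hp'
    exact ⟨i, ⟨a (IsLocalRing.closedPoint k), (Scheme.Hom.comp_apply _ _ _).symm⟩,
      ⟨a' (IsLocalRing.closedPoint k), (Scheme.Hom.comp_apply _ _ _).symm⟩⟩
  · obtain ⟨p, hp, rfl⟩ := hpt x hx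
    obtain ⟨z, rfl⟩ := hq p hp
    exact ⟨z (IsLocalRing.closedPoint k), (Scheme.Hom.comp_apply _ _ _).symm⟩

end final

end Fermat.Agent.J25.E
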