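import Mathlib
import Fermat.Agent.J25.AJ3
import Fermat.Agent.J25.EndGame

/-!
# WP8: the representing scheme is smooth, proper and geometrically connected
-/

set_option autoImplicit false

universe u

open AlgebraicGeometry CategoryTheory CategoryTheory.Limits TopologicalSpace NeronModelInfra
open AlgebraicGeometry.RelPicard

namespace Fermat.Agent.J25.AJ

attribute [-instance] HahnSeries.powerSeriesAlgebra

variable {k : Type u} [Field k] {C : Scheme.{u}} {c : C ⟶ Spec (CommRingCat.of k)}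
    {ε : SchemeHomOver (𝟙 (Spec (CommRingCat.of k))) c} {g : Geo c ε}

/-- **WP8.** -/
theorem smooth_proper_connected [IsAlgClosed k] [IsIntegral C] [IsProper c] (D : PicData g)
    {P : Scheme.{u}} (x : PicData.FPt D P)
    (huniv : ∀ (T : Scheme.{u}) (y : PicData.FPt D T), ∃! φ : T ⟶ P, x.map φ = y)
    (hcon : ∀ {T : Scheme.{u}} (t : T ⟶ Spec (CommRingCat.of k)) (_ : IsIntegral T)
      (ℓ : PicC (pullback c t)) (_ : PicC.map (rigSection c t ε) ℓ = 1)
      (s : SchemeHomOver (sS k k) t), D.DegZ (PicC.map (baseChangeSnd c s) ℓ) → D.Deg0 t ℓ)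
    (δ : PicC (pullback c c))
    (hδ : ∀ y : g.A →ₐ[k] k,
      PicC.map (baseChangeSnd c (ptA g y)) δ = (D.toPic k (mx g.mxH y))⁻¹)
    (N : ℕ) (η : G g.e (R := k) g.a)
    (h3b : ∀ M : G g.e (R := k) g.a, IsDegZero M → ∃ y : Fin N → (g.A →ₐ[k] k),
      D.toPic k M = D.toPic k (η * ∏ i, (mx g.mxH (y i))⁻¹))
    {ι : Type*} (U : ι → Scheme.{u}) (j : ∀ i, U i ⟶ P) [∀ i, IsOpenImmersion (j i)]
    [∀ i, IsAffine (U i)] (hsm : ∀ i, Smooth (j i ≫ x.t)) (hcov : ∀ y : P, ∃ i, y ∈ Set.range (j i))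
    (hpair : ∀ p p' : Spec (.of k) ⟶ P, p ≫ x.t = 𝟙 _ → p' ≫ x.t = 𝟙 _ →
      ∃ i, (∃ a, a ≫ j i = p) ∧ ∃ a', a' ≫ j i = p') :
    Smooth x.t ∧ IsProper x.t ∧ GeometricallyConnected x.t := by
  obtain ⟨q, hq, hq'⟩ := exists_ajMor_of D x huniv hcon δ hδ N η h3b
  have h1 : IsProper (q ≫ x.t) := by
    rw [hq]
    infer_instance
  exact E.end_game_points x.t U j hsm hcov hpair q hq'

end Fermat.Agent.J25.AJ
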