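import Mathlib
import Fermat.Agent.J25.CutA
import Fermat.Agent.J25.FinalA
import Fermat.Agent.J25.WP8

/-!
# S25 from a representing object of the functor `F`
-/

set_option autoImplicit false

universe u

open CategoryTheory CategoryTheory.Limits AlgebraicGeometry TopologicalSpace Opposite
open AlgebraicGeometry.RelPicard NeronModelInfra GoodReductionJacobian

noncomputable section

namespace Fermat.Agent.J25.Cut

attribute [-instance] HahnSeries.powerSeriesAlgebra

variable {k : Type u} [Field k] {C : Scheme.{u}} {c : C ⟶ Spec (CommRingCat.of k)}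
    {ε : SchemeHomOver (𝟙 (Spec (CommRingCat.of k))) c} {g : Geo c ε} (D : PicData g)

theorem degZ_one (K : Type u) [Field K] [Algebra k K] : D.DegZ (1 : PicC (CR c K)) :=
  ⟨1, map_one _, rfl⟩

theorem deg0_one {T : Scheme.{u}} (t : T ⟶ Spec (CommRingCat.of k)) : D.Deg0 t 1 := by
  intro K _ _ _ s
  rw [map_one]
  exact degZ_one D K

/-- the degree is checked at the geometric points -/
theorem deg0_of_geometric {T : Scheme.{u}} (t : T ⟶ Spec (CommRingCat.of k))
    (l : PicC (pullback c t))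
    (h : ∀ (K : Type u) [Field K] [IsAlgClosed K] (s : Spec (CommRingCat.of K) ⟶ T),
        D.Deg0 (s ≫ t) (rst c (⟨s, rfl⟩ : SchemeHomOver (s ≫ t) t) l)) : D.Deg0 t l := by
  intro K _ _ _ s
  have h1 := h K s.1 K (⟨𝟙 _, by rw [Category.id_comp, s.2]⟩ : SchemeHomOver (sS k K) (s.1 ≫ t))
  rw [rst, ← PicC.map_comp_apply, baseChangeSnd_comp] at h1
  have h2 : postComp (⟨s.1, rfl⟩ : SchemeHomOver (s.1 ≫ t) t)
      (⟨𝟙 _, by rw [Category.id_comp, s.2]⟩ : SchemeHomOver (sS k K) (s.1 ≫ t)) = s :=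
    Subtype.ext (Category.id_comp _)
  rwa [h2] at h1

/-- local constancy over a field, in the form needed by the cut -/
theorem deg0_conn (h6 : H6b g) (T : Scheme.{u}) [ConnectedSpace T]
    (t : T ⟶ Spec (CommRingCat.of k))
    (l : PicC (pullback c t)) (K : Type u) [Field K] [IsAlgClosed K]
    (σ : Spec (CommRingCat.of K) ⟶ Spec (CommRingCat.of k)) (s₀ s₁ : SchemeHomOver σ t)
    (h : D.Deg0 σ (rst c s₀ l)) : D.Deg0 σ (rst c s₁ l) := by
  obtain ⟨i, rfl⟩ := exists_algebra (k := k) K σ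
  have h1 : D.DegZ (PicC.map (baseChangeSnd c s₀) l) := by
    have := h K (⟨𝟙 _, Category.id_comp _⟩ : SchemeHomOver (sS k K) (sS k K))
    rwa [baseChangeSnd_id, PicC.map_id_apply] at this
  exact (deg0_of_connected D l h6 s₀ h1).pullback D s₁

/-- the connectedness input of WP8 -/
theorem hcon (h6 : H6b g) [IsAlgClosed k] {T : Scheme.{u}} (t : T ⟶ Spec (CommRingCat.of k))
    (_ : IsIntegral T) (l : PicC (pullback c t)) (_ : PicC.map (rigSection c t ε) l = 1)
    (s : SchemeHomOver (sS k k) t) (h : D.DegZ (PicC.map (baseChangeSnd c s) l)) : D.Deg0 t l :=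
  deg0_of_connected D l h6 s h

/-- **S25 from a representing object of `F`.** -/
theorem s25_of_rep [IsAlgClosed k] (h6 : H6b g) {P : Scheme.{u}} (x : PicData.FPt D P)
    (huniv : ∀ (T : Scheme.{u}) (y : PicData.FPt D T), ∃! φ : T ⟶ P, x.map φ = y)
    (hP : Smooth x.t ∧ IsProper x.t ∧ GeometricallyConnected x.t) :
    ∃ D : RelativePic0Designation k c,
      Nonempty (RepresentsRelSubPic c ε (algEquivZeroCut c ε) D) ∧
        Smooth D.toBase ∧ IsProper D.toBase ∧ GeometricallyConnected D.toBase := by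
  refine exists_represents (ε := ε) (fun t l => D.Deg0 t l) (fun t => deg0_one D t)
    (fun φ l h => h.pullback D φ) (fun t l h => deg0_of_geometric D t l h)
    (fun T _ t l K _ _ σ s₀ s₁ h => deg0_conn D h6 T t l K σ s₀ s₁ h) P x.t hP.1 hP.2.1 hP.2.2
    x.l x.rig x.deg ?_
  intro T t l h1 h2
  obtain ⟨φ, hφ⟩ := AJ.exists_of_univ D x huniv t l h1 h2
  exact ⟨φ, hφ, fun ψ hψ => AJ.eq_of_univ D x huniv ψ φ (hψ.trans hφ.symm)⟩

/-- **S25 from the outputs of all the packages.** -/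
theorem s25_of_all [IsAlgClosed k] [IsIntegral C] [IsProper c] (h6 : H6b g) {P : Scheme.{u}}
    (x : PicData.FPt D P)
    (huniv : ∀ (T : Scheme.{u}) (y : PicData.FPt D T), ∃! φ : T ⟶ P, x.map φ = y)
    (δ : PicC (pullback c c))
    (hδ : ∀ y : g.A →ₐ[k] k,
      PicC.map (baseChangeSnd c (AJ.ptA g y)) δ = (D.toPic k (mx g.mxH y))⁻¹)
    (N : ℕ) (η : G g.e (R := k) g.a)
    (h3b : ∀ M : G g.e (R := k) g.a, IsDegZero M → ∃ y : Fin N → (g.A →ₐ[k] k),
      D.toPic k M = D.toPic k (η * ∏ i, (mx g.mxH (y i))⁻¹))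
    {ι : Type*} (U : ι → Scheme.{u}) (j : ∀ i, U i ⟶ P) [∀ i, IsOpenImmersion (j i)]
    [∀ i, IsAffine (U i)] (hsm : ∀ i, Smooth (j i ≫ x.t)) (hcov : ∀ y : P, ∃ i, y ∈ Set.range (j i))
    (hpair : ∀ p p' : Spec (.of k) ⟶ P, p ≫ x.t = 𝟙 _ → p' ≫ x.t = 𝟙 _ →
      ∃ i, (∃ a, a ≫ j i = p) ∧ ∃ a', a' ≫ j i = p') :
    ∃ D : RelativePic0Designation k c,
      Nonempty (RepresentsRelSubPic c ε (algEquivZeroCut c ε) D) ∧
        Smooth D.toBase ∧ IsProper D.toBase ∧ GeometricallyConnected D.toBase :=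
  s25_of_rep D h6 x huniv (AJ.smooth_proper_connected D x huniv (fun t h1 l h2 s h3 =>
    hcon D h6 t h1 l h2 s h3) δ hδ N η h3b U j hsm hcov hpair)

end Fermat.Agent.J25.Cut
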