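import Mathlib
import Fermat.Agent.H20.Dim
import Fermat.Agent.H20.Global
import Fermat.Agent.H20.Valuative
import Fermat.Agent.H20.DivExist
import Fermat.Agent.H20.FinS

/-!
# Smooth curves: local rings are discrete valuation rings
-/

set_option autoImplicit false

universe u

open AlgebraicGeometry CategoryTheory CategoryTheory.Limits TopologicalSpace TensorProduct
open Fermat.Agent.H20 IsLocalRing

namespace Fermat.Agent.J25.G

noncomputable section

section alg

variable (K : Type u) [Field K]

lemma dimLEOne_mvPolynomial {s : ℕ} (hs : s ≤ 1) :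
    Ring.DimensionLEOne (MvPolynomial (Fin s) K) := by
  obtain rfl | rfl : s = 0 ∨ s = 1 := by omega
  · exact Ring.DimensionLEOne.of_ringEquiv
      (MvPolynomial.isEmptyAlgEquiv K (Fin 0)).toRingEquiv
  · exact Ring.DimensionLEOne.of_ringEquiv
      ((MvPolynomial.renameEquiv K (Equiv.ofUnique (Fin 1) PUnit.{1})).trans
        (MvPolynomial.pUnitAlgEquiv K)).toRingEquiv

/-- affine curves have dimension at most one -/
theorem dimLEOne_of_trdeg (A : Type u) [CommRing A] [IsDomain A] [Algebra K A]
    [Algebra.FiniteType K A] (h : Algebra.trdeg K A ≤ 1) : Ring.DimensionLEOne A := by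
  obtain ⟨s, g, hg, hfin⟩ := exists_finite_inj_algHom_of_fg K A
  have hs : s ≤ 1 := by
    have h1 := trdeg_le_of_injective g hg
    rw [MvPolynomial.trdeg_of_isDomain] at h1
    have h2 := h1.trans h
    simpa using h2
  algebraize [g.toRingHom]
  have : Module.Finite (MvPolynomial (Fin s) K) A := hfin
  have := dimLEOne_mvPolynomial K hs
  have : Algebra.IsIntegral (MvPolynomial (Fin s) K) A := Algebra.IsIntegral.of_finite _ _
  exact Ring.DimensionLEOne.of_isIntegral (MvPolynomial (Fin s) K) A

end alg

section curve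

variable (K : Type u) [Field K] (X : Scheme.{u}) [KSch K X] [IsIntegral X]
  [hs : SmoothOfRelativeDimension 1 (pK K X)]

include K hs in
lemma locallyOfFiniteType_pK : LocallyOfFiniteType (pK K X) := by
  have := hs.smooth
  infer_instance

include K hs in
lemma isNoetherianRing_sec {U : X.Opens} (hU : IsAffineOpen U) : IsNoetherianRing Γ(X, U) := by
  have := locallyOfFiniteType_pK K X
  have := finiteType_sec K X hU
  exact Algebra.FiniteType.isNoetherianRing K _

include K hs in
/-- affine opens of curves have dimension at most one -/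
lemma dimLEOne_sec {U : X.Opens} (hU : IsAffineOpen U) [Nonempty U] :
    Ring.DimensionLEOne Γ(X, U) := by
  have := locallyOfFiniteType_pK K X
  have := finiteType_sec K X hU
  refine dimLEOne_of_trdeg K _ ?_
  have h1 := trdeg_le_of_injective
    ((IsScalarTower.toAlgHom K (sec K U) X.functionField).comp (secEquiv K U).toAlgHom)
    (Subtype.val_injective.comp (secEquiv K U).injective)
  refine h1.trans (le_of_eq ?_)
  simpa using trdeg_functionField K X 1

omit [KSch K X] hs in
variable {X} in
lemma primeIdealOf_ne_bot {U : X.Opens} (hU : IsAffineOpen U) {x : X} (hx : x ∈ U)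
    (hne : x ≠ genericPoint X) : (hU.primeIdealOf ⟨x, hx⟩).asIdeal ≠ ⊥ := by
  intro h
  have : Nonempty U := ⟨⟨x, hx⟩⟩
  have h1 := hU.primeIdealOf_genericPoint
  rw [genericPoint_eq_bot_of_affine] at h1
  have h2 := h1.trans (PrimeSpectrum.ext h.symm : _ = hU.primeIdealOf ⟨x, hx⟩)
  have h3 := congrArg hU.fromSpec h2
  rw [hU.fromSpec_primeIdealOf, hU.fromSpec_primeIdealOf] at h3
  exact hne h3.symm

include K hs in
variable {X} in
lemma primeIdealOf_isMaximal {U : X.Opens} (hU : IsAffineOpen U) {x : X} (hx : x ∈ U)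
    (hne : x ≠ genericPoint X) : (hU.primeIdealOf ⟨x, hx⟩).asIdeal.IsMaximal := by
  have : Nonempty U := ⟨⟨x, hx⟩⟩
  have := dimLEOne_sec K X hU
  exact Ring.DimensionLEOne.maximalOfPrime (primeIdealOf_ne_bot hU hx hne)
    (hU.primeIdealOf ⟨x, hx⟩).isPrime

include K hs in
/-- points different from the generic point are closed -/
lemma isClosed_of_ne {x : X} (hne : x ≠ genericPoint X) : IsClosed {x} := by
  have := locallyOfFiniteType_pK K X
  have : JacobsonSpace X := LocallyOfFiniteType.jacobsonSpace (pK K X)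
  obtain ⟨U, hU, hx, -⟩ := exists_isAffineOpen_mem_and_subset (U := (⊤ : X.Opens)) (x := x) trivial
  apply isClosed_singleton_of_isLocallyClosed_singleton
  have h1 : ({x} : Set X) = (U : Set X) ∩ closure {x} := by
    apply Set.Subset.antisymm
    · rintro _ rfl
      exact ⟨hx, subset_closure rfl⟩
    · rintro y ⟨hyU, hy⟩
      have hsp : x ⤳ y := specializes_iff_mem_closure.2 hy
      have h2 : hU.fromSpec (hU.primeIdealOf ⟨x, hx⟩) ⤳ hU.fromSpec (hU.primeIdealOf ⟨y, hyU⟩) := by
        rw [hU.fromSpec_primeIdealOf, hU.fromSpec_primeIdealOf]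
        exact hsp
      have h3 := (hU.fromSpec.isOpenEmbedding.toIsInducing.specializes_iff).1 h2
      have h4 : (hU.primeIdealOf ⟨x, hx⟩).asIdeal ≤ (hU.primeIdealOf ⟨y, hyU⟩).asIdeal :=
        (PrimeSpectrum.le_iff_specializes _ _).2 h3
      have h5 := (primeIdealOf_isMaximal K hU hx hne).eq_of_le
        (hU.primeIdealOf ⟨y, hyU⟩).isPrime.ne_top h4
      have h6 := congrArg hU.fromSpec (PrimeSpectrum.ext h5)
      rw [hU.fromSpec_primeIdealOf, hU.fromSpec_primeIdealOf] at h6
      exact h6.symm
  rw [h1]
  exact U.isOpen.isLocallyClosed.inter isClosed_closure.isLocallyClosed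

variable {X} in
include K hs in
/-- The local rings of a smooth curve over an algebraically closed field are valuation rings. -/
lemma valuationRing_stalk [IsAlgClosed K] (x : X) : ValuationRing (X.presheaf.stalk x) ∧
    IsDedekindDomain (X.presheaf.stalk x) := by
  obtain ⟨U, hU, hx, -⟩ := exists_isAffineOpen_mem_and_subset (U := (⊤ : X.Opens)) (x := x) trivial
  have : Nonempty U := ⟨⟨x, hx⟩⟩
  have h1 := isNoetherianRing_sec K X hU
  have h2 := dimLEOne_sec K X hU
  obtain ⟨_, h3⟩ := stalk_ufm K 1 x
  let _ := TopCat.Presheaf.algebra_section_stalk X.presheaf (⟨x, hx⟩ : U)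
  have hloc := hU.isLocalization_stalk ⟨x, hx⟩
  have h4 : IsNoetherianRing (X.presheaf.stalk x) :=
    IsLocalization.isNoetherianRing (hU.primeIdealOf ⟨x, hx⟩).asIdeal.primeCompl _ h1
  have h5 : Ring.DimensionLEOne (X.presheaf.stalk x) :=
    Ring.DimensionLEOne.localization (M := (hU.primeIdealOf ⟨x, hx⟩).asIdeal.primeCompl)
      (R := Γ(X, U)) _ (Ideal.primeCompl_le_nonZeroDivisors _)
  have h6 : IsDedekindDomain (X.presheaf.stalk x) := { }
  have h7 := (tfae_of_isNoetherianRing_of_isLocalRing_of_isDomain (X.presheaf.stalk x)).out 2 1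
  exact ⟨h7.1 h6, h6⟩

variable {X} in
include K hs in
/-- a rational function or its inverse is regular at `x` -/
lemma mem_or_inv_mem [IsAlgClosed K] (x : X) (f : X.functionField) :
    f ∈ stk X x ∨ f⁻¹ ∈ stk X x := by
  obtain ⟨h, -⟩ := valuationRing_stalk K x
  exact ValuationRing.isInteger_or_isInteger (X.presheaf.stalk x) f

end curve

end

end Fermat.Agent.J25.G
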