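import Mathlib
import Fermat.Agent.J25.GA1

/-!
# Curves: finite closed subsets, the domain of a rational function
-/

set_option autoImplicit false

universe u

open AlgebraicGeometry CategoryTheory CategoryTheory.Limits TopologicalSpace TensorProduct
open Fermat.Agent.H20 IsLocalRing

namespace Fermat.Agent.J25.G

noncomputable section

section curve

variable (K : Type u) [Field K] (X : Scheme.{u}) [KSch K X] [IsIntegral X]
  [hs : SmoothOfRelativeDimension 1 (pK K X)]

include K hs in
lemma isNoetherian_of_compact [CompactSpace X] : IsNoetherian X := by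
  have := locallyOfFiniteType_pK K X
  have h1 : IsLocallyNoetherian X := LocallyOfFiniteType.isLocallyNoetherian (pK K X)
  exact { }

include K hs in
/-- Proper closed subsets of a curve are finite. -/
lemma finite_of_isClosed [CompactSpace X] {Z : Set X} (hZ : IsClosed Z)
    (hne : genericPoint X ∉ Z) : Z.Finite := by
  have := isNoetherian_of_compact K X
  have hN : NoetherianSpace X := inferInstance
  obtain ⟨S, hS, hSi, hSc, hSU⟩ := NoetherianSpace.exists_finite_set_isClosed_irreducible hZ
  rw [hSU]
  refine hS.sUnion fun W hW => ?_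
  obtain ⟨w, hw⟩ := QuasiSober.sober (hSc W hW) (hSi W hW)
  have hwZ : w ∈ Z := by
    rw [hSU]
    exact ⟨W, hW, hw.mem⟩
  have hwne : w ≠ genericPoint X := fun h => hne (h ▸ hwZ)
  have h1 := isClosed_of_ne K X hwne
  rw [← hw.def, h1.closure_eq]
  exact Set.finite_singleton w

end curve

section reg

variable {X : Scheme.{u}} [IsIntegral X]

/-- the domain of definition of a rational function -/
def reg (f : X.functionField) : X.Opens := ⟨{x | f ∈ stk X x}, isOpen_mem_stk f⟩

lemma mem_reg {f : X.functionField} {x : X} : x ∈ reg f ↔ f ∈ stk X x := Iff.rfl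

lemma generic_mem_reg (f : X.functionField) : genericPoint X ∈ reg f := stk_genericPoint f

instance nonempty_reg (f : X.functionField) : Nonempty (reg f) := ⟨⟨_, generic_mem_reg f⟩⟩

lemma exists_secOf (f : X.functionField) :
    ∃ s : Γ(X, reg f), X.germToFunctionField (reg f) s = f :=
  exists_section_of_forall_mem_stk fun _ hx => hx

/-- the section defined by a rational function -/
def secOf (f : X.functionField) : Γ(X, reg f) := (exists_secOf f).choose

@[simp] lemma germ_secOf (f : X.functionField) : X.germToFunctionField (reg f) (secOf f) = f :=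
  (exists_secOf f).choose_spec

/-- a section over `U` is invertible at `x` iff its inverse is regular at `x` -/
lemma mem_basicOpen_iff {U : X.Opens} [Nonempty U] (s : Γ(X, U)) {x : X} (hx : x ∈ U) :
    x ∈ X.basicOpen s ↔ X.germToFunctionField U s ≠ 0 ∧
      (X.germToFunctionField U s)⁻¹ ∈ stk X x := by
  rw [Scheme.mem_basicOpen _ _ _ hx]
  have e := X.algebraMap_germ_eq_germToFunctionField hx s
  rw [← e]
  constructor
  · rintro ⟨b, hb⟩
    rw [← hb]
    have h2 : algebraMap (X.presheaf.stalk x) X.functionField (b : X.presheaf.stalk x) *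
      algebraMap (X.presheaf.stalk x) X.functionField ((b⁻¹ : (X.presheaf.stalk x)ˣ)) = 1 := by
      rw [← map_mul, Units.mul_inv, map_one]
    refine ⟨left_ne_zero_of_mul_eq_one h2, ?_⟩
    rw [inv_eq_of_mul_eq_one_right h2]
    exact ⟨_, rfl⟩
  · rintro ⟨h0, c, hc⟩
    refine IsUnit.of_mul_eq_one c ?_
    apply algebraMap_stalk_injective x
    rw [map_mul, hc, map_one, mul_inv_cancel₀ h0]

variable (K : Type u) [Field K] [KSch K X]

/-- the morphism to the affine line defined by a rational function on its domain -/
def toA1 (f : X.functionField) : (reg f).toScheme ⟶ Spec (CommRingCat.of (Polynomial K)) :=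
  (reg f).toSpecΓ ≫
    Spec.map (CommRingCat.ofHom (Polynomial.aeval (R := K) (secOf f)).toRingHom)

end reg

end

end Fermat.Agent.J25.G
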