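import Mathlib
import Fermat.Agent.J25.GA2

/-!
# Curves: the map to the affine line defined by a rational function is finite
-/

set_option autoImplicit false

universe u

open AlgebraicGeometry CategoryTheory CategoryTheory.Limits TopologicalSpace TensorProduct
open Fermat.Agent.H20 IsLocalRing

namespace Fermat.Agent.J25.G

noncomputable section

section gen

variable {X : Scheme.{u}}

lemma topIso_inv_appTop {T : Scheme.{u}} (U : X.Opens) (ψ : T ⟶ U.toScheme)
    (h : ⊤ ≤ (ψ ≫ U.ι) ⁻¹ᵁ U) : U.topIso.inv ≫ ψ.appTop = (ψ ≫ U.ι).appLE U ⊤ h := by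
  have h1 : (⊤ : U.toScheme.Opens) ≤ U.ι ⁻¹ᵁ U := by simp
  have h2 := Scheme.Hom.appLE_comp_appLE ψ U.ι U ⊤ ⊤ h1 le_top
  rw [← h2]
  have h3 : U.ι.appLE U ⊤ h1 = U.topIso.inv := by
    rw [Scheme.Opens.ι_appLE]
    rfl
  have h4 : ψ.appLE ⊤ ⊤ le_top = ψ.appTop := by
    simp [Scheme.Hom.appLE]
  rw [h3, h4]

variable [IsIntegral X]

lemma secOf_mul {f : X.functionField} (hf : f ≠ 0) :
    X.presheaf.map (homOfLE (inf_le_left : reg f ⊓ reg f⁻¹ ≤ reg f)).op (secOf f) *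
      X.presheaf.map (homOfLE (inf_le_right : reg f ⊓ reg f⁻¹ ≤ reg f⁻¹)).op (secOf f⁻¹) = 1 := by
  have : Nonempty (reg f ⊓ reg f⁻¹ : X.Opens) :=
    ⟨⟨genericPoint X, generic_mem_reg f, generic_mem_reg f⁻¹⟩⟩
  apply X.germToFunctionField_injective (reg f ⊓ reg f⁻¹)
  rw [map_mul, map_one, germToFunctionField_res, germToFunctionField_res, germ_secOf, germ_secOf,
    mul_inv_cancel₀ hf]

lemma appLE_mul {T : Scheme.{u}} (φ : T ⟶ X) {f : X.functionField} (hf : f ≠ 0)
    (h1 : ⊤ ≤ φ ⁻¹ᵁ reg f) (h2 : ⊤ ≤ φ ⁻¹ᵁ reg f⁻¹) :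
    φ.appLE (reg f) ⊤ h1 (secOf f) * φ.appLE (reg f⁻¹) ⊤ h2 (secOf f⁻¹) = 1 := by
  have h3 : ⊤ ≤ φ ⁻¹ᵁ (reg f ⊓ reg f⁻¹) := fun x hx => ⟨h1 hx, h2 hx⟩
  have e1 := Scheme.Hom.map_appLE φ h3 (homOfLE (inf_le_left : reg f ⊓ reg f⁻¹ ≤ reg f)).op
  have e2 := Scheme.Hom.map_appLE φ h3 (homOfLE (inf_le_right : reg f ⊓ reg f⁻¹ ≤ reg f⁻¹)).op
  rw [← e1, ← e2]
  have := congrArg (φ.appLE (reg f ⊓ reg f⁻¹) ⊤ h3) (secOf_mul hf)
  rw [map_mul, map_one] at this
  exact this

variable (K : Type u) [Field K] [KSch K X]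

lemma toA1_coord {T : Scheme.{u}} (f : X.functionField) (ψ : T ⟶ (reg f).toScheme)
    (h : ⊤ ≤ (ψ ≫ (reg f).ι) ⁻¹ᵁ reg f) :
    (ψ ≫ toA1 K f).appTop ((Scheme.ΓSpecIso (CommRingCat.of (Polynomial K))).inv
      (Polynomial.X : Polynomial K)) = (ψ ≫ (reg f).ι).appLE (reg f) ⊤ h (secOf f) := by
  rw [← topIso_inv_appTop]
  have e1 : (Scheme.ΓSpecIso (CommRingCat.of (Polynomial K))).inv ≫ (ψ ≫ toA1 K f).appTop =
      CommRingCat.ofHom (Polynomial.aeval (R := K) (secOf f)).toRingHom ≫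
        (reg f).topIso.inv ≫ ψ.appTop := by
    rw [toA1, Scheme.Hom.comp_appTop, Scheme.Hom.comp_appTop, Scheme.Opens.toSpecΓ_appTop]
    have e2 := Scheme.ΓSpecIso_inv_naturality
      (CommRingCat.ofHom (Polynomial.aeval (R := K) (secOf f)).toRingHom)
    rw [← Category.assoc, ← Category.assoc, ← e2]
    simp only [Category.assoc]
    erw [Iso.inv_hom_id_assoc]
  have e3 := congrArg (fun g => g.hom (Polynomial.X : Polynomial K)) e1
  refine e3.trans ?_
  change ((reg f).topIso.inv ≫ ψ.appTop).hom ((Polynomial.aeval (R := K) (secOf f))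
    Polynomial.X) = _
  rw [Polynomial.aeval_X]

lemma toA1_comp (f : X.functionField) : toA1 K f ≫
    Spec.map (CommRingCat.ofHom (algebraMap K (Polynomial K))) = (reg f).ι ≫ pK K X := by
  rw [toA1, Category.assoc, ← Spec.map_comp, ← CommRingCat.ofHom_comp]
  have e1 : (Polynomial.aeval (R := K) (secOf f)).toRingHom.comp (algebraMap K (Polynomial K)) =
      algebraMap K Γ(X, reg f) := (Polynomial.aeval (R := K) (secOf f)).comp_algebraMap
  rw [e1]
  have e2 : CommRingCat.ofHom (algebraMap K Γ(X, reg f)) = kSec K (reg f) := rfl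
  rw [e2, kSec, Spec.map_comp, Scheme.Opens.toSpecΓ_SpecMap_appLE_assoc,
    Scheme.Opens.toSpecΓ_top, Category.assoc, toSpecΓ_SpecMap_ΓSpecIso_inv]
  simp

end gen

section val

variable {X : Scheme.{u}} [IsIntegral X] (K : Type u) [Field K] [KSch K X]

/-- the key step of the valuative criterion: the closed point lands in the domain of `f` -/
lemma closedPoint_mem_reg {R : Type u} [CommRing R] [IsDomain R] [ValuationRing R] {L : Type u}
    [Field L] [Algebra R L] [IsFractionRing R L] {f : X.functionField}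
    (hval : ∀ x : X, f ∈ stk X x ∨ f⁻¹ ∈ stk X x)
    (i₁ : Spec (.of L) ⟶ (reg f).toScheme) (i₂ : Spec (.of R) ⟶ Spec (.of (Polynomial K)))
    (hc : i₁ ≫ toA1 K f = Spec.map (CommRingCat.ofHom (algebraMap R L)) ≫ i₂)
    (l : Spec (.of R) ⟶ X)
    (hl : Spec.map (CommRingCat.ofHom (algebraMap R L)) ≫ l = i₁ ≫ (reg f).ι) :
    l (closedPoint R) ∈ reg f := by
  by_contra hcon
  have hf0 : f ≠ 0 := by
    rintro rfl
    exact hcon (zero_mem (stk X _))
  have hV : l (closedPoint R) ∈ reg f⁻¹ := (hval _).resolve_left hcon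
  have hVtop : ⊤ ≤ l ⁻¹ᵁ reg f⁻¹ := by
    intro y _
    exact (specializes_closedPoint y).mem_open (l ⁻¹ᵁ reg f⁻¹).isOpen hV
  set w := l.appLE (reg f⁻¹) ⊤ hVtop (secOf f⁻¹) with hw
  set t := i₂.appTop ((Scheme.ΓSpecIso (CommRingCat.of (Polynomial K))).inv
      (Polynomial.X : Polynomial K)) with ht
  have h1 : ⊤ ≤ (i₁ ≫ (reg f).ι) ⁻¹ᵁ reg f := by
    intro y _
    exact (i₁ y).2
  have h2 : ⊤ ≤ (i₁ ≫ (reg f).ι) ⁻¹ᵁ reg f⁻¹ := by
    rw [← hl]
    intro y _
    exact hVtop (x := Spec.map (CommRingCat.ofHom (algebraMap R L)) y) trivial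
  have key := appLE_mul (i₁ ≫ (reg f).ι) hf0 h1 h2
  rw [← toA1_coord K f i₁ h1] at key
  set q := Spec.map (CommRingCat.ofHom (algebraMap R L)) with hq
  have e1 : (i₁ ≫ toA1 K f).appTop ((Scheme.ΓSpecIso (CommRingCat.of (Polynomial K))).inv
      (Polynomial.X : Polynomial K)) = q.appTop t := by
    rw [hc, Scheme.Hom.comp_appTop]
    rfl
  have e2 : (i₁ ≫ (reg f).ι).appLE (reg f⁻¹) ⊤ h2 (secOf f⁻¹) = q.appTop w := by
    have h3 : ∀ (φ : Spec (.of L) ⟶ X) (hφ : φ = q ≫ l) (h4 : ⊤ ≤ φ ⁻¹ᵁ reg f⁻¹),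
        φ.appLE (reg f⁻¹) ⊤ h4 = l.appLE (reg f⁻¹) ⊤ hVtop ≫ q.appTop := by
      rintro _ rfl h4
      rw [← Scheme.Hom.appLE_comp_appLE q l (reg f⁻¹) ⊤ ⊤ hVtop le_top]
      congr 1
    rw [h3 _ hl.symm h2]
    rfl
  rw [e1, e2, ← map_mul] at key
  have hinj : Function.Injective q.appTop := by
    have h3 := Scheme.ΓSpecIso_inv_naturality (CommRingCat.ofHom (algebraMap R L))
    have h4 : q.appTop = (Scheme.ΓSpecIso (CommRingCat.of R)).hom ≫
      CommRingCat.ofHom (algebraMap R L) ≫ (Scheme.ΓSpecIso (CommRingCat.of L)).inv := by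
      rw [h3, Iso.hom_inv_id_assoc]
    rw [h4]
    intro a b hab
    have h5 : (Scheme.ΓSpecIso (CommRingCat.of L)).inv
        (algebraMap R L ((Scheme.ΓSpecIso (CommRingCat.of R)).hom a)) =
        (Scheme.ΓSpecIso (CommRingCat.of L)).inv
        (algebraMap R L ((Scheme.ΓSpecIso (CommRingCat.of R)).hom b)) := hab
    have h6 := (ConcreteCategory.bijective_of_isIso (Scheme.ΓSpecIso (CommRingCat.of L)).inv).1 h5
    have h7 := IsFractionRing.injective R L h6
    exact (ConcreteCategory.bijective_of_isIso (Scheme.ΓSpecIso (CommRingCat.of R)).hom).1 h7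
  have htw : t * w = 1 := hinj (key.trans (map_one _).symm)
  have hwu : IsUnit w := IsUnit.of_mul_eq_one t (by rw [mul_comm]; exact htw)
  have h3 : closedPoint R ∈ (Spec (CommRingCat.of R)).basicOpen w := by
    rw [Scheme.basicOpen_of_isUnit _ hwu]
    trivial
  rw [hw, Scheme.basicOpen_appLE] at h3
  have h4 := ((mem_basicOpen_iff (secOf f⁻¹) hV).1 h3.2).2
  rw [germ_secOf, inv_inv] at h4
  exact hcon h4

lemma existence_toA1 [IsProper (pK K X)] {f : X.functionField}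
    (hval : ∀ x : X, f ∈ stk X x ∨ f⁻¹ ∈ stk X x) :
    ValuativeCriterion.Existence (toA1 K f) := by
  intro S
  have hvalX : ValuativeCriterion.Existence (pK K X) := by
    have h : IsProper (pK K X) := inferInstance
    rw [IsProper.eq_valuativeCriterion] at h
    exact h.1.1.1.existence
  let SX : ValuativeCommSq (pK K X) :=
    { R := S.R
      K := S.K
      i₁ := S.i₁ ≫ (reg f).ι
      i₂ := S.i₂ ≫ Spec.map (CommRingCat.ofHom (algebraMap K (Polynomial K)))
      commSq := ⟨by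
        rw [Category.assoc, ← toA1_comp, reassoc_of% S.commSq.w]⟩ }
  obtain ⟨⟨l, hl1, hl2⟩⟩ := (hvalX SX).exists_lift
  change Spec (CommRingCat.of S.R) ⟶ X at l
  change Spec.map (CommRingCat.ofHom (algebraMap S.R S.K)) ≫ l = S.i₁ ≫ (reg f).ι at hl1
  have hmem := closedPoint_mem_reg K hval S.i₁ S.i₂ S.commSq.w l hl1
  have hrange : Set.range l ⊆ Set.range (reg f).ι := by
    rintro _ ⟨y, rfl⟩
    rw [Scheme.Opens.range_ι]
    exact (specializes_closedPoint y).mem_open (l ⁻¹ᵁ reg f).isOpen hmem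
  let l' := IsOpenImmersion.lift (reg f).ι l hrange
  have hl' : l' ≫ (reg f).ι = l := IsOpenImmersion.lift_fac _ _ _
  have e1 : Spec.map (CommRingCat.ofHom (algebraMap S.R S.K)) ≫ l' = S.i₁ := by
    rw [← cancel_mono (reg f).ι, Category.assoc, hl', hl1]
  refine ⟨⟨l', e1, ?_⟩⟩
  have e2 : Spec.map (CommRingCat.ofHom (algebraMap S.R S.K)) ≫ l' ≫ toA1 K f =
      Spec.map (CommRingCat.ofHom (algebraMap S.R S.K)) ≫ S.i₂ := by
    rw [← Category.assoc, e1, S.commSq.w]
  obtain ⟨α, hα⟩ := Spec.map_surjective (l' ≫ toA1 K f)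
  obtain ⟨β, hβ⟩ := Spec.map_surjective S.i₂
  rw [← hα, ← hβ, ← Spec.map_comp, ← Spec.map_comp] at e2
  rw [← hα, ← hβ]
  congr 1
  apply CommRingCat.hom_ext
  apply RingHom.ext
  intro x
  have e3 := congrArg (fun g => g.hom x) (Spec.map_injective e2)
  exact IsFractionRing.injective S.R S.K e3

theorem isProper_toA1 [IsProper (pK K X)] [IsNoetherian X] {f : X.functionField}
    (hval : ∀ x : X, f ∈ stk X x ∨ f⁻¹ ∈ stk X x) : IsProper (toA1 K f) := by
  have hcomp := toA1_comp K f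
  have h1 : IsSeparated (toA1 K f ≫
      Spec.map (CommRingCat.ofHom (algebraMap K (Polynomial K)))) := by
    rw [hcomp]
    infer_instance
  have h2 : IsSeparated (toA1 K f) := IsSeparated.of_comp (toA1 K f)
    (Spec.map (CommRingCat.ofHom (algebraMap K (Polynomial K))))
  have h3 : LocallyOfFiniteType (toA1 K f ≫
      Spec.map (CommRingCat.ofHom (algebraMap K (Polynomial K)))) := by
    rw [hcomp]
    infer_instance
  have h4 : LocallyOfFiniteType (toA1 K f) := locallyOfFiniteType_of_comp (toA1 K f)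
    (Spec.map (CommRingCat.ofHom (algebraMap K (Polynomial K))))
  have hN : NoetherianSpace (reg f).toScheme :=
    (reg f).ι.isOpenEmbedding.toIsInducing.noetherianSpace
  have h5 : QuasiCompact (toA1 K f) := inferInstance
  have h6 : QuasiSeparated (toA1 K f) := inferInstance
  refine IsProper.of_valuativeCriterion _ (ValuativeCriterion.iff.2 ⟨existence_toA1 K hval, ?_⟩)
  exact IsSeparated.valuativeCriterion (toA1 K f)

end val

end

end Fermat.Agent.J25.G
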