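import Mathlib
import Fermat.Agent.J25.GA3

/-!
# Curves: rational functions define finite maps to the affine line
-/

set_option autoImplicit false

universe u

open AlgebraicGeometry CategoryTheory CategoryTheory.Limits TopologicalSpace TensorProduct
open Fermat.Agent.H20 IsLocalRing

namespace Fermat.Agent.J25.G

noncomputable section

section

variable (K : Type u) [Field K] [IsAlgClosed K] (X : Scheme.{u}) [KSch K X] [IsIntegral X]

variable {X} in
/-- values of regular functions at closed points -/
lemma exists_const [LocallyOfFiniteType (pK K X)] {x : X} (hx : IsClosed {x})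
    {g : X.functionField} (hg : g ∈ stk X x) : ∃ c : K,
    ¬ (g - algebraMap K X.functionField c ≠ 0 ∧ (g - algebraMap K X.functionField c)⁻¹ ∈ stk X x) := by
  let p := pointOfClosedPoint (pK K X) x hx
  have hp : IsKHom K p := by
    unfold IsKHom
    rw [pointOfClosedPoint_comp, pK_spec]
    exact (Spec.map_id _).symm
  have hpx : p (ptK K) = x := pointOfClosedPoint_apply _ _ _ _
  have hU : p (ptK K) ∈ reg g := by rw [hpx]; exact hg
  refine ⟨evS K p (reg g) hU (secOf g), fun h => ?_⟩
  set c := evS K p (reg g) hU (secOf g) with hc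
  have h1 : evS K p (reg g) hU (secOf g - algebraMap K Γ(X, reg g) c) = 0 := by
    rw [map_sub, ← hc, algebraMap_sec, evS_kSec K p hp, sub_self]
  have h2 : X.germToFunctionField (reg g) (secOf g - algebraMap K Γ(X, reg g) c) =
      g - algebraMap K X.functionField c := by
    rw [map_sub, germ_secOf, ← algebraMap_fun' K (reg g)]
  have h3 : p (ptK K) ∈ X.basicOpen (secOf g - algebraMap K Γ(X, reg g) c) := by
    rw [mem_basicOpen_iff _ hU, h2, hpx]
    exact h
  exact (evS_ne_zero_iff K p (reg g) hU _).2 h3 h1

end

section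

variable {X : Scheme.{u}} [IsIntegral X] (K : Type u) [Field K] [KSch K X]

lemma germ_aeval (f : X.functionField) (P : Polynomial K) :
    X.germToFunctionField (reg f) (Polynomial.aeval (secOf f) P) = Polynomial.aeval f P := by
  have h := isScalarTower_fun K X (reg f)
  have h1 := Polynomial.aeval_algebraMap_apply X.functionField (secOf f) P
  have h2 : algebraMap Γ(X, reg f) X.functionField (secOf f) = f := germ_secOf f
  rw [h2] at h1
  exact h1.symm

lemma notMem_toA1_iff (f : X.functionField) (u : reg f) (P : Polynomial K) :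
    P ∉ (toA1 K f u).asIdeal ↔
      Polynomial.aeval f P ≠ 0 ∧ (Polynomial.aeval f P)⁻¹ ∈ stk X u.1 := by
  have h1 := mem_basicOpen_iff (Polynomial.aeval (secOf f) P) u.2
  rw [germ_aeval] at h1
  rw [← h1]
  have h2 := Scheme.Opens.toSpecΓ_preimage_basicOpen (reg f) (Polynomial.aeval (secOf f) P)
  have h3 : u ∈ (reg f).toSpecΓ ⁻¹ᵁ PrimeSpectrum.basicOpen (Polynomial.aeval (secOf f) P) ↔
      u ∈ (reg f).ι ⁻¹ᵁ X.basicOpen (Polynomial.aeval (secOf f) P) := by rw [h2]
  have h4 : (reg f).ι u = u.1 := rfl
  rw [← h4]
  refine Iff.trans ?_ h3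
  rw [toA1]
  exact Iff.rfl

variable [IsAlgClosed K]

omit [IsAlgClosed K] in
lemma algebraMap_fun_injective : Function.Injective (algebraMap K X.functionField) :=
  (algebraMap K X.functionField).injective

lemma aeval_ne_zero {f : X.functionField} (hf : ∀ c : K, f ≠ algebraMap K X.functionField c)
    {P : Polynomial K} (hP : P ≠ 0) : Polynomial.aeval f P ≠ 0 := by
  intro h
  have h0 : IsAlgebraic K f := ⟨P, hP, h⟩
  have h1 : IsIntegral K f := h0.isIntegral
  obtain ⟨c, hc⟩ := minpoly.mem_range_of_degree_eq_one K f
    (IsAlgClosed.degree_eq_one_of_irreducible K (minpoly.irreducible h1))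
  exact hf c hc.symm

/-- the generic point is mapped to the generic point -/
lemma toA1_generic {f : X.functionField} (hf : ∀ c : K, f ≠ algebraMap K X.functionField c)
    (u : reg f) (hu : u.1 = genericPoint X) : (toA1 K f u).asIdeal = ⊥ := by
  rw [eq_bot_iff]
  intro P hP
  by_contra hP0
  refine (notMem_toA1_iff K f u P).2 ⟨aeval_ne_zero K hf hP0, ?_⟩ hP
  rw [hu]
  exact stk_genericPoint _

lemma toA1_closed [LocallyOfFiniteType (pK K X)] {f : X.functionField}
    (u : reg f) (hu : IsClosed {u.1}) : (toA1 K f u).asIdeal ≠ ⊥ := by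
  obtain ⟨c, hc⟩ := exists_const K hu u.2
  intro h
  have h1 : (Polynomial.X - Polynomial.C c : Polynomial K) ∈ (toA1 K f u).asIdeal := by
    by_contra h2
    rw [notMem_toA1_iff] at h2
    rw [map_sub, Polynomial.aeval_X, Polynomial.aeval_C] at h2
    exact hc h2
  rw [h] at h1
  exact Polynomial.X_sub_C_ne_zero c h1

/-- the fibres of a nonconstant function are finite -/
lemma finite_fibre [CompactSpace X] [hs : SmoothOfRelativeDimension 1 (pK K X)]
    {f : X.functionField} (hf : ∀ c : K, f ≠ algebraMap K X.functionField c)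
    (y : Spec (CommRingCat.of (Polynomial K))) : (toA1 K f ⁻¹' {y}).Finite := by
  have hft := locallyOfFiniteType_pK K X
  by_cases hy : y.asIdeal = ⊥
  · refine Set.Subsingleton.finite ?_
    have h1 : ∀ u ∈ toA1 K f ⁻¹' {y}, u.1 = genericPoint X := by
      intro u hu
      by_contra hne
      refine toA1_closed K u (isClosed_of_ne K X hne) ?_
      rw [show toA1 K f u = y from hu, hy]
    intro u hu v hv
    exact Subtype.ext ((h1 u hu).trans (h1 v hv).symm)
  · have hmax : ∀ z : PrimeSpectrum (Polynomial K), z.asIdeal ≠ ⊥ → z.asIdeal.IsMaximal :=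
      fun z hz => Ring.DimensionLEOne.maximalOfPrime hz z.isPrime
    have hyc : IsClosed {y} :=
      (PrimeSpectrum.isClosed_singleton_iff_isMaximal (R := Polynomial K) y).2 (hmax y hy)
    have h1 : IsClosed (toA1 K f ⁻¹' {y}) := hyc.preimage (toA1 K f).continuous
    have h2 : IsClosed ((((reg f).ι '' (toA1 K f ⁻¹' {y})ᶜ : Set X))ᶜ) := by
      rw [isClosed_compl_iff]
      exact (reg f).ι.isOpenEmbedding.isOpenMap _ h1.isOpen_compl
    have h3 := finite_of_isClosed K X h2 ?_
    · refine Set.Finite.of_finite_image (f := (reg f).ι) (h3.subset ?_)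
        (reg f).ι.isOpenEmbedding.injective.injOn
      rintro _ ⟨u, hu, rfl⟩ ⟨v, hv, huv⟩
      rw [(reg f).ι.isOpenEmbedding.injective huv] at hv
      exact hv hu
    · intro h
      refine h ⟨⟨genericPoint X, generic_mem_reg f⟩, ?_, rfl⟩
      intro h4
      apply hy
      rw [← show toA1 K f ⟨genericPoint X, generic_mem_reg f⟩ = y from h4]
      exact toA1_generic K hf _ rfl

/-- **A nonconstant rational function on a complete smooth curve defines a finite morphism from
its domain to the affine line.** -/
theorem isFinite_toA1 [IsProper (pK K X)] [hs : SmoothOfRelativeDimension 1 (pK K X)]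
    {f : X.functionField} (hf : ∀ c : K, f ≠ algebraMap K X.functionField c) :
    IsFinite (toA1 K f) := by
  have hcpt : CompactSpace X := by
    exact QuasiCompact.compactSpace_of_compactSpace (pK K X)
  have hN := isNoetherian_of_compact K X
  have hprop := isProper_toA1 K (f := f) fun x => mem_or_inv_mem K x f
  have : LocallyQuasiFinite (toA1 K f) := LocallyQuasiFinite.of_finite_preimage_singleton _
    fun y => finite_fibre K hf y
  exact IsFinite.of_isProper_of_locallyQuasiFinite _

end

end

end Fermat.Agent.J25.G
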