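import Mathlib
import Fermat.Agent.J25.GA4

/-!
# Curves: domains of nonconstant functions are affine and finite over the affine line
-/

set_option autoImplicit false

universe u

open AlgebraicGeometry CategoryTheory CategoryTheory.Limits TopologicalSpace TensorProduct
open Fermat.Agent.H20 IsLocalRing

namespace Fermat.Agent.J25.G

noncomputable section

variable {X : Scheme.{u}} [IsIntegral X] (K : Type u) [Field K] [KSch K X] [IsAlgClosed K]
  [IsProper (pK K X)] [hs : SmoothOfRelativeDimension 1 (pK K X)]

include K hs in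
/-- the domain of a nonconstant function is affine -/
theorem isAffineOpen_reg {f : X.functionField}
    (hf : ∀ c : K, f ≠ algebraMap K X.functionField c) : IsAffineOpen (reg f) := by
  have := isFinite_toA1 K hf
  exact isAffine_of_isAffineHom (toA1 K f)

include hs in
/-- the functions on the domain of `f` are a finite module over `K[f]` -/
theorem finite_aeval {f : X.functionField}
    (hf : ∀ c : K, f ≠ algebraMap K X.functionField c) :
    (Polynomial.aeval (R := K) (secOf f)).toRingHom.Finite := by
  have h1 := isFinite_toA1 K hf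
  have h2 : IsAffineOpen (reg f) := isAffineOpen_reg K hf
  have h3 : IsFinite (Spec.map
      (CommRingCat.ofHom (Polynomial.aeval (R := K) (secOf f)).toRingHom)) := by
    have e : Spec.map (CommRingCat.ofHom (Polynomial.aeval (R := K) (secOf f)).toRingHom) =
      h2.isoSpec.inv ≫ toA1 K f := by
      rw [toA1, ← Category.assoc, h2.isoSpec_inv_toSpecΓ, Category.id_comp]
    rw [e]
    infer_instance
  exact (IsFinite.SpecMap_iff _).1 h3

omit [IsProper (pK K X)] hs [KSch K X] [IsAlgClosed K] [Field K] in
lemma basicOpen_secOf {f : X.functionField} (hf : f ≠ 0) :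
    X.basicOpen (secOf f) = reg f ⊓ reg f⁻¹ := by
  ext x
  constructor
  · intro hx
    have h1 := X.basicOpen_le (secOf f) hx
    refine ⟨h1, ?_⟩
    have h2 := ((mem_basicOpen_iff (secOf f) h1).1 hx).2
    rwa [germ_secOf] at h2
  · rintro ⟨h1, h2⟩
    refine (mem_basicOpen_iff (secOf f) h1).2 ?_
    rw [germ_secOf]
    exact ⟨hf, h2⟩

omit [IsAlgClosed K] [IsProper (pK K X)] hs in
lemma ne_zero_of_nonconst {f : X.functionField}
    (hf : ∀ c : K, f ≠ algebraMap K X.functionField c) : f ≠ 0 := by
  have := hf 0
  rwa [map_zero] at this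

omit [IsAlgClosed K] [IsProper (pK K X)] hs in
lemma inv_nonconst {f : X.functionField}
    (hf : ∀ c : K, f ≠ algebraMap K X.functionField c) (c : K) :
    f⁻¹ ≠ algebraMap K X.functionField c := by
  intro h
  refine hf c⁻¹ ?_
  rw [map_inv₀, ← h, inv_inv]

include hs in
/-- functions on the intersection of the domains of `f` and `f⁻¹` have denominators `f ^ n` -/
theorem exists_pow_mul_mem {f : X.functionField}
    (hf : ∀ c : K, f ≠ algebraMap K X.functionField c) {g : X.functionField}
    (hg : ∀ x : X, f ∈ stk X x → f⁻¹ ∈ stk X x → g ∈ stk X x) :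
    ∃ n : ℕ, ∀ x : X, f ∈ stk X x → f ^ n * g ∈ stk X x := by
  have hf0 := ne_zero_of_nonconst K hf
  have hU : IsAffineOpen (reg f) := isAffineOpen_reg K hf
  have hloc := hU.isLocalization_basicOpen (secOf f)
  have hne : Nonempty (X.basicOpen (secOf f)) := by
    rw [basicOpen_secOf hf0]
    exact ⟨⟨genericPoint X, generic_mem_reg f, generic_mem_reg f⁻¹⟩⟩
  obtain ⟨s, hs'⟩ := exists_section_of_forall_mem_stk (U := X.basicOpen (secOf f)) (f := g)
    (fun x hx => by
      rw [basicOpen_secOf hf0] at hx
      exact hg x hx.1 hx.2)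
  obtain ⟨⟨t, ⟨_, n, rfl⟩⟩, ht⟩ := IsLocalization.surj (Submonoid.powers (secOf f)) s
  refine ⟨n, fun x hx => ?_⟩
  have h1 : ∀ r : Γ(X, reg f), X.germToFunctionField (X.basicOpen (secOf f))
      (algebraMap Γ(X, reg f) Γ(X, X.basicOpen (secOf f)) r) =
      X.germToFunctionField (reg f) r :=
    fun r => germToFunctionField_res (homOfLE (X.basicOpen_le (secOf f))) r
  have h2 := congrArg (X.germToFunctionField (X.basicOpen (secOf f))) ht
  dsimp only at h2
  rw [map_mul, h1, h1, hs', map_pow, germ_secOf] at h2
  rw [mul_comm, h2]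
  exact germ_mem_stk hx t

include hs in
/-- generators of the functions on the domain of `f` over `K[f]` -/
theorem exists_gens {f : X.functionField}
    (hf : ∀ c : K, f ≠ algebraMap K X.functionField c) :
    ∃ E : Finset X.functionField, (∀ e ∈ E, ∀ x : X, f ∈ stk X x → e ∈ stk X x) ∧
      ∀ g : X.functionField, (∀ x : X, f ∈ stk X x → g ∈ stk X x) →
        ∃ c : X.functionField → Polynomial K, g = ∑ e ∈ E, Polynomial.aeval f (c e) * e := by
  classical
  have h1 := finite_aeval K hf
  algebraize [(Polynomial.aeval (R := K) (secOf f)).toRingHom]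
  have h2 : Module.Finite (Polynomial K) Γ(X, reg f) := h1
  obtain ⟨S, hS⟩ := h2.fg_top
  have hinj := X.germToFunctionField_injective (reg f)
  refine ⟨S.image (X.germToFunctionField (reg f)), ?_, ?_⟩
  · intro e he x hx
    obtain ⟨s, -, rfl⟩ := Finset.mem_image.1 he
    exact germ_mem_stk hx s
  · intro g hg
    obtain ⟨s, hs'⟩ := exists_section_of_forall_mem_stk (U := reg f) (f := g) hg
    have h3 : s ∈ Submodule.span (Polynomial K) (S : Set Γ(X, reg f)) := by
      rw [hS]; trivial
    obtain ⟨c, -, hc⟩ := Submodule.mem_span_finset.1 h3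
    refine ⟨fun e => if h : ∃ s, X.germToFunctionField (reg f) s = e then c h.choose else 0, ?_⟩
    rw [Finset.sum_image fun a _ b _ hab => hinj hab, ← hs', ← hc, map_sum]
    refine Finset.sum_congr rfl fun a _ => ?_
    have h4 : ∃ s, X.germToFunctionField (reg f) s = X.germToFunctionField (reg f) a := ⟨a, rfl⟩
    have h5 : h4.choose = a := hinj h4.choose_spec
    dsimp only
    rw [dif_pos h4, h5, ← germ_aeval, ← map_mul]
    congr 1

end

end Fermat.Agent.J25.G
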