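import Mathlib
import Fermat.Agent.J25.GA5

/-!
# Curves: a rational function whose only pole is a given point
-/

set_option autoImplicit false

universe u

open AlgebraicGeometry CategoryTheory CategoryTheory.Limits TopologicalSpace TensorProduct
open Fermat.Agent.H20 IsLocalRing

namespace Fermat.Agent.J25.G

noncomputable section

section basic

variable {X : Scheme.{u}} [IsIntegral X]

/-- membership in the prime of a point -/
lemma notMem_prime_iff {U : X.Opens} [Nonempty U] (hU : IsAffineOpen U) {x : X} (hx : x ∈ U)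
    (b : Γ(X, U)) : b ∉ (hU.primeIdealOf ⟨x, hx⟩).asIdeal ↔
      X.germToFunctionField U b ≠ 0 ∧ (X.germToFunctionField U b)⁻¹ ∈ stk X x := by
  rw [← mem_basicOpen_iff b hx, Scheme.mem_basicOpen _ _ _ hx]
  let _ := TopCat.Presheaf.algebra_section_stalk X.presheaf (⟨x, hx⟩ : U)
  have := hU.isLocalization_stalk ⟨x, hx⟩
  exact (IsLocalization.AtPrime.isUnit_to_map_iff (X.presheaf.stalk x)
    (hU.primeIdealOf ⟨x, hx⟩).asIdeal b).symm

/-- a point different from the generic point has a nonzero regular function vanishing at it -/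
lemma exists_nonunit {x : X} (hne : x ≠ genericPoint X) :
    ∃ z : X.functionField, z ≠ 0 ∧ z ∈ stk X x ∧ z⁻¹ ∉ stk X x := by
  obtain ⟨U, hU, hx, -⟩ := exists_isAffineOpen_mem_and_subset (U := (⊤ : X.Opens)) (x := x) trivial
  have : Nonempty U := ⟨⟨x, hx⟩⟩
  obtain ⟨b, hb, hb0⟩ := Submodule.exists_mem_ne_zero_of_ne_bot (primeIdealOf_ne_bot hU hx hne)
  have h0 : X.germToFunctionField U b ≠ 0 := by
    intro h
    apply hb0
    apply X.germToFunctionField_injective U
    rw [h, map_zero]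
  refine ⟨X.germToFunctionField U b, h0, germ_mem_stk hx b, fun h => ?_⟩
  exact (notMem_prime_iff hU hx b).2 ⟨h0, h⟩ hb

end basic

section curve

variable {X : Scheme.{u}} [IsIntegral X] (K : Type u) [Field K] [KSch K X] [IsAlgClosed K]
  [hs : SmoothOfRelativeDimension 1 (pK K X)]

omit [IsAlgClosed K] in
include K hs in
/-- separation of points in an affine open -/
lemma exists_separate {U : X.Opens} (hU : IsAffineOpen U) {x y : X} (hx : x ∈ U) (hy : y ∈ U)
    (hxg : x ≠ genericPoint X) (hxy : x ≠ y) :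
    ∃ h : X.functionField, (∀ u ∈ U, h ∈ stk X u) ∧ ¬ (h ≠ 0 ∧ h⁻¹ ∈ stk X x) ∧
      h ≠ 0 ∧ h⁻¹ ∈ stk X y := by
  have : Nonempty U := ⟨⟨x, hx⟩⟩
  have h1 := primeIdealOf_isMaximal K hU hx hxg
  have h2 : ¬ (hU.primeIdealOf ⟨x, hx⟩).asIdeal ≤ (hU.primeIdealOf ⟨y, hy⟩).asIdeal := by
    intro h
    have h3 := h1.eq_of_le (hU.primeIdealOf ⟨y, hy⟩).isPrime.ne_top h
    have h6 := congrArg hU.fromSpec (PrimeSpectrum.ext h3)
    rw [hU.fromSpec_primeIdealOf, hU.fromSpec_primeIdealOf] at h6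
    exact hxy h6
  obtain ⟨b, hb, hb'⟩ := SetLike.not_le_iff_exists.1 h2
  refine ⟨X.germToFunctionField U b, fun u hu => germ_mem_stk hu b, fun h => ?_, ?_⟩
  · exact (notMem_prime_iff hU hx b).2 h hb
  · exact (notMem_prime_iff hU hy b).1 hb'

include K hs in
/-- high powers of functions vanishing at `x` are divisible by a given function -/
lemma exists_pow_div_mem {x : X} {z h : X.functionField} (hz : z ≠ 0) (hzx : z ∈ stk X x)
    (hh : h ∈ stk X x) (hn : ¬ (h ≠ 0 ∧ h⁻¹ ∈ stk X x)) : ∃ n : ℕ, h ^ n / z ∈ stk X x := by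
  obtain ⟨-, h1⟩ := valuationRing_stalk K x
  have h2 := ((tfae_of_isNoetherianRing_of_isLocalRing_of_isDomain (X.presheaf.stalk x)).out 2 6).1 h1
  obtain ⟨z', rfl⟩ := hzx
  obtain ⟨h', rfl⟩ := hh
  have hz' : z' ≠ 0 := by
    rintro rfl
    exact hz (map_zero _)
  obtain ⟨n, hn'⟩ := h2 (Ideal.span {z'}) (by simpa using hz')
  have h3 : h' ∈ maximalIdeal (X.presheaf.stalk x) := by
    rw [mem_maximalIdeal, mem_nonunits_iff]
    rintro ⟨b, hb⟩
    apply hn
    rw [← hb]
    have h4 : algebraMap (X.presheaf.stalk x) X.functionField (b : X.presheaf.stalk x) *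
      algebraMap (X.presheaf.stalk x) X.functionField ((b⁻¹ : (X.presheaf.stalk x)ˣ)) = 1 := by
      rw [← map_mul, Units.mul_inv, map_one]
    refine ⟨left_ne_zero_of_mul_eq_one h4, ?_⟩
    rw [inv_eq_of_mul_eq_one_right h4]
    exact ⟨_, rfl⟩
  have h4 : h' ^ n ∈ Ideal.span {z'} := by
    rw [hn']
    exact Ideal.pow_mem_pow h3 n
  obtain ⟨c, hc⟩ := Ideal.mem_span_singleton.1 h4
  refine ⟨n, c, ?_⟩
  rw [eq_div_iff hz, ← map_mul, ← map_pow, hc, mul_comm]

omit [IsAlgClosed K] hs in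
lemma nonconst_of_notMem {x : X} {f : X.functionField} (hf : f ∉ stk X x) (c : K) :
    f ≠ algebraMap K X.functionField c := by
  rintro rfl
  exact hf (algebraMap_mem_stk K x c)

omit [IsAlgClosed K] hs in
lemma nonconst_of_inv_notMem {x : X} {f : X.functionField} (hf : f⁻¹ ∉ stk X x) (c : K) :
    f ≠ algebraMap K X.functionField c := by
  rintro rfl
  apply hf
  rw [← map_inv₀]
  exact algebraMap_mem_stk K x _

include K hs in
/-- a function with a pole at `x₀` but regular at the other points of the domain of `z` -/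
lemma exists_f1 [IsProper (pK K X)] {x₀ : X} (hx₀ : x₀ ≠ genericPoint X) {z : X.functionField}
    (hz0 : z ≠ 0) (hz : z ∈ stk X x₀) (hzi : z⁻¹ ∉ stk X x₀) :
    ∃ f : X.functionField, f ∉ stk X x₀ ∧ ∀ x : X, z ∈ stk X x → x ≠ x₀ → f ∈ stk X x := by
  classical
  have hcpt : CompactSpace X := QuasiCompact.compactSpace_of_compactSpace (pK K X)
  have hnc := nonconst_of_inv_notMem K hzi
  have hU : IsAffineOpen (reg z) := isAffineOpen_reg K hnc
  have hfin : ({x : X | z⁻¹ ∉ stk X x}).Finite := by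
    apply finite_of_isClosed K X (isClosed_compl_iff.2 (isOpen_mem_stk z⁻¹))
    exact fun h => h (stk_genericPoint _)
  set Z := hfin.toFinset.erase x₀ with hZ
  have hmem : ∀ Q ∈ Z, Q ≠ x₀ ∧ z⁻¹ ∉ stk X Q := by
    intro Q hQ
    rw [hZ, Finset.mem_erase, Set.Finite.mem_toFinset] at hQ
    exact hQ
  have hreg : ∀ Q ∈ Z, z ∈ stk X Q := fun Q hQ =>
    (mem_or_inv_mem K Q z).resolve_right (hmem Q hQ).2
  have hgen : ∀ Q ∈ Z, Q ≠ genericPoint X := by
    rintro Q hQ rfl
    exact (hmem _ hQ).2 (stk_genericPoint _)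
  have h1 : ∀ Q : X, ∃ h : X.functionField, Q ∈ Z → ((∀ u ∈ reg z, h ∈ stk X u) ∧
      ¬ (h ≠ 0 ∧ h⁻¹ ∈ stk X Q) ∧ h ≠ 0 ∧ h⁻¹ ∈ stk X x₀) := by
    intro Q
    by_cases hQ : Q ∈ Z
    · obtain ⟨h, hh⟩ := exists_separate K hU (hreg Q hQ) hz (hgen Q hQ) (hmem Q hQ).1
      exact ⟨h, fun _ => hh⟩
    · exact ⟨0, fun h => absurd h hQ⟩
  choose h hh using h1
  set g := ∏ Q ∈ Z, h Q with hg
  have hg1 : ∀ u : X, z ∈ stk X u → g ∈ stk X u := fun u hu =>
    prod_mem fun Q hQ => (hh Q hQ).1 u hu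
  have hg0 : g ≠ 0 := Finset.prod_ne_zero_iff.2 fun Q hQ => (hh Q hQ).2.2.1
  have hgx₀ : g⁻¹ ∈ stk X x₀ := by
    rw [hg, ← Finset.prod_inv_distrib]
    exact prod_mem fun Q hQ => (hh Q hQ).2.2.2
  have hgQ : ∀ Q ∈ Z, g⁻¹ ∉ stk X Q := by
    intro Q hQ hin
    apply (hh Q hQ).2.1
    refine ⟨(hh Q hQ).2.2.1, ?_⟩
    have h2 : (h Q)⁻¹ = g⁻¹ * ∏ R ∈ Z.erase Q, h R := by
      rw [hg, ← Finset.mul_prod_erase Z h hQ, mul_inv]
      have h3 : ∏ R ∈ Z.erase Q, h R ≠ 0 :=
        Finset.prod_ne_zero_iff.2 fun R hR => (hh R (Finset.mem_of_mem_erase hR)).2.2.1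
      field_simp
    rw [h2]
    exact mul_mem hin (prod_mem fun R hR => (hh R (Finset.mem_of_mem_erase hR)).1 Q (hreg Q hQ))
  have h4 : ∀ Q : X, ∃ n : ℕ, Q ∈ Z → g ^ n / z ∈ stk X Q := by
    intro Q
    by_cases hQ : Q ∈ Z
    · obtain ⟨n, hn⟩ := exists_pow_div_mem K hz0 (hreg Q hQ) (hg1 Q (hreg Q hQ))
        (fun h => hgQ Q hQ h.2)
      exact ⟨n, fun _ => hn⟩
    · exact ⟨0, fun h => absurd h hQ⟩
  choose n hn using h4
  set N := Z.sup n with hN
  have h5 : ∀ Q ∈ Z, g ^ N / z ∈ stk X Q := by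
    intro Q hQ
    have h6 : n Q ≤ N := Finset.le_sup hQ
    have h7 : g ^ N / z = g ^ (N - n Q) * (g ^ n Q / z) := by
      rw [← mul_div_assoc, ← pow_add, Nat.sub_add_cancel h6]
    rw [h7]
    exact mul_mem (pow_mem (hg1 Q (hreg Q hQ)) _) (hn Q hQ)
  refine ⟨g ^ N / z, fun hcon => hzi ?_, fun x hx hxx => ?_⟩
  · have h6 : z⁻¹ = (g ^ N / z) * (g⁻¹) ^ N := by
      rw [inv_pow]
      field_simp
    rw [h6]
    exact mul_mem hcon (pow_mem hgx₀ _)
  · by_cases hxZ : z⁻¹ ∈ stk X x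
    · rw [div_eq_mul_inv]
      exact mul_mem (pow_mem (hg1 x hx) _) hxZ
    · refine h5 x ?_
      rw [hZ, Finset.mem_erase, Set.Finite.mem_toFinset]
      exact ⟨hxx, hxZ⟩

include hs in
/-- polynomials in a function with a pole have a pole -/
lemma aeval_notMem {x : X} {f : X.functionField} (hf : f ∉ stk X x) {q : Polynomial K}
    (hq : 0 < q.natDegree) : Polynomial.aeval f q ∉ stk X x := by
  intro hcon
  apply hf
  have hufd : ∀ y : X, UniqueFactorizationMonoid (X.presheaf.stalk y) := fun y =>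
    (stalk_ufm K 1 y).choose_spec
  apply mem_stk_of_isIntegral hufd x f
  have hq0 : q ≠ 0 := by
    rintro rfl
    simp at hq
  have hlc : q.leadingCoeff ≠ 0 := Polynomial.leadingCoeff_ne_zero.2 hq0
  let φ : K →+* stk X x := (algebraMap K X.functionField).codRestrict (stk X x)
    fun c => algebraMap_mem_stk K x c
  let q' : Polynomial K := Polynomial.C q.leadingCoeff⁻¹ * q
  have hq' : q'.Monic := by
    rw [Polynomial.Monic, Polynomial.leadingCoeff_mul, Polynomial.leadingCoeff_C,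
      inv_mul_cancel₀ hlc]
  have hdeg : q'.degree = q.degree := by
    rw [Polynomial.degree_mul, Polynomial.degree_C (inv_ne_zero hlc), zero_add]
  let s : stk X x := φ q.leadingCoeff⁻¹ * ⟨_, hcon⟩
  refine ⟨q'.map φ - Polynomial.C s, ?_, ?_⟩
  · refine (hq'.map φ).sub_of_left ?_
    rw [(hq'.degree_map φ), hdeg]
    exact lt_of_le_of_lt Polynomial.degree_C_le (Polynomial.natDegree_pos_iff_degree_pos.1 hq)
  · rw [Polynomial.eval₂_sub, Polynomial.eval₂_map, Polynomial.eval₂_C]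
    have h1 : (algebraMap (stk X x) X.functionField).comp φ = algebraMap K X.functionField := rfl
    rw [h1, Polynomial.eval₂_mul, Polynomial.eval₂_C]
    change _ - algebraMap K X.functionField q.leadingCoeff⁻¹ * Polynomial.aeval f q = 0
    rw [Polynomial.aeval_def, sub_self]

end curve

end

end Fermat.Agent.J25.G
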