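import Mathlib
import Fermat.Agent.J25.GA6

/-!
# Curves: finiteness of the first cohomology group, functions with a single pole
-/

set_option autoImplicit false

universe u

open AlgebraicGeometry CategoryTheory CategoryTheory.Limits TopologicalSpace TensorProduct
open Fermat.Agent.H20 IsLocalRing

namespace Fermat.Agent.J25.G

noncomputable section

variable {X : Scheme.{u}} [IsIntegral X] (K : Type u) [Field K] [KSch K X] [IsAlgClosed K]
  [hs : SmoothOfRelativeDimension 1 (pK K X)] [IsProper (pK K X)]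

include K hs in
/-- **Finiteness of `H¹`.** -/
theorem exists_H1 {z : X.functionField} (hz : ∀ c : K, z ≠ algebraMap K X.functionField c) :
    ∃ E : Finset X.functionField, ∀ g : X.functionField,
      (∀ x : X, z ∈ stk X x → z⁻¹ ∈ stk X x → g ∈ stk X x) →
      g ∈ Subalgebra.toSubmodule (sec K (reg z)) ⊔ Subalgebra.toSubmodule (sec K (reg z⁻¹)) ⊔
        Submodule.span K (E : Set X.functionField) := by
  classical
  have hz0 := ne_zero_of_nonconst K hz
  obtain ⟨E, hE, hgen⟩ := exists_gens K hz
  have h1 : ∀ e : X.functionField, ∃ n : ℕ, e ∈ E → ∀ x : X, z⁻¹ ∈ stk X x →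
      z⁻¹ ^ n * e ∈ stk X x := by
    intro e
    by_cases he : e ∈ E
    · obtain ⟨n, hn⟩ := exists_pow_mul_mem K (f := z⁻¹) (inv_nonconst K hz) (g := e)
        (fun x _ hx => hE e he x (by rwa [inv_inv] at hx))
      exact ⟨n, fun _ => hn⟩
    · exact ⟨0, fun h => absurd h he⟩
  choose n hn using h1
  set N := E.sup n with hN
  set E' : Finset X.functionField :=
    (Finset.range N ×ˢ E).image fun p => z⁻¹ ^ p.1 * p.2 with hE'
  refine ⟨E', fun g hg => ?_⟩
  set S := Subalgebra.toSubmodule (sec K (reg z)) ⊔ Subalgebra.toSubmodule (sec K (reg z⁻¹)) ⊔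
        Submodule.span K (E' : Set X.functionField) with hS
  have hS1 : Subalgebra.toSubmodule (sec K (reg z)) ≤ S := le_sup_left.trans le_sup_left
  have hS2 : Subalgebra.toSubmodule (sec K (reg z⁻¹)) ≤ S := le_sup_right.trans le_sup_left
  have hS3 : Submodule.span K (E' : Set X.functionField) ≤ S := le_sup_right
  have hpos : ∀ e ∈ E, ∀ i : ℕ, z ^ i * e ∈ S := by
    intro e he i
    apply hS1
    intro x hx
    replace hx : z ∈ stk X x := hx
    exact mul_mem (pow_mem hx i) (hE e he x hx)
  have hneg : ∀ e ∈ E, ∀ i : ℕ, z⁻¹ ^ i * e ∈ S := by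
    intro e he i
    by_cases hi : i < N
    · apply hS3
      apply Submodule.subset_span
      rw [hE', Finset.mem_coe, Finset.mem_image]
      exact ⟨(i, e), by simp [hi, he], rfl⟩
    · apply hS2
      intro x hx
      replace hx : z⁻¹ ∈ stk X x := hx
      have h2 : n e ≤ i := (Finset.le_sup (f := n) he).trans (not_lt.1 hi)
      have h3 : z⁻¹ ^ i * e = z⁻¹ ^ (i - n e) * (z⁻¹ ^ n e * e) := by
        rw [← mul_assoc, ← pow_add, Nat.sub_add_cancel h2]
      rw [h3]
      exact mul_mem (pow_mem hx _) (hn e he x hx)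
  obtain ⟨m, hm⟩ := exists_pow_mul_mem K hz hg
  obtain ⟨c, hc⟩ := hgen _ hm
  have h4 : g = ∑ e ∈ E, ∑ i ∈ Finset.range ((c e).natDegree + 1),
      (c e).coeff i • (z ^ i * (z⁻¹ ^ m * e)) := by
    have h5 : g = z⁻¹ ^ m * (z ^ m * g) := by
      rw [← mul_assoc, ← mul_pow, inv_mul_cancel₀ hz0, one_pow, one_mul]
    rw [h5, hc, Finset.mul_sum]
    refine Finset.sum_congr rfl fun e _ => ?_
    rw [Polynomial.aeval_eq_sum_range, Finset.sum_mul, Finset.mul_sum]
    refine Finset.sum_congr rfl fun i _ => ?_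
    rw [smul_mul_assoc, mul_smul_comm]
    congr 1
    ring
  rw [h4]
  refine Submodule.sum_mem _ fun e he => Submodule.sum_mem _ fun i _ => Submodule.smul_mem _ _ ?_
  rcases le_total m i with hmi | hmi
  · have h5 : z ^ i * (z⁻¹ ^ m * e) = z ^ (i - m) * e := by
      rw [← Nat.sub_add_cancel hmi, pow_add, Nat.add_sub_cancel, inv_pow]
      field_simp
    rw [h5]
    exact hpos e he _
  · have h5 : z ^ i * (z⁻¹ ^ m * e) = z⁻¹ ^ (m - i) * e := by
      rw [← Nat.sub_add_cancel hmi, pow_add, Nat.add_sub_cancel, inv_pow, inv_pow]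
      field_simp
    rw [h5]
    exact hneg e he _

include K hs in
/-- **A rational function whose only pole is `x₀`.** -/
theorem exists_one_pole {x₀ : X} (hx₀ : x₀ ≠ genericPoint X) :
    ∃ a : X.functionField, ∀ x : X, a ∈ stk X x ↔ x ≠ x₀ := by
  classical
  obtain ⟨z, hz0, hz, hzi⟩ := exists_nonunit hx₀
  have hnc := nonconst_of_inv_notMem K hzi
  obtain ⟨f, hf, hfr⟩ := exists_f1 K hx₀ hz0 hz hzi
  obtain ⟨E, hE⟩ := exists_H1 K hnc
  set S := Subalgebra.toSubmodule (sec K (reg z)) ⊔ Subalgebra.toSubmodule (sec K (reg z⁻¹))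
    with hS
  have hfp : ∀ n : ℕ, f ^ n ∈ S ⊔ Submodule.span K (E : Set X.functionField) := by
    intro n
    apply hE
    intro x h1 h2
    refine pow_mem (hfr x h1 ?_) n
    rintro rfl
    exact hzi h2
  -- the images of the powers of `f` in `F / S` are linearly dependent
  let T : Submodule K (X.functionField ⧸ S) := (Submodule.span K (E : Set X.functionField)).map S.mkQ
  have hT : Module.Finite K T := by
    have : Module.Finite K (Submodule.span K (E : Set X.functionField)) :=
      Module.Finite.span_finset K E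
    infer_instance
  have hv : ∀ n : ℕ, S.mkQ (f ^ (n + 1)) ∈ T := by
    intro n
    obtain ⟨s, hs', t, ht, hst⟩ := Submodule.mem_sup.1 (hfp (n + 1))
    refine ⟨t, ht, ?_⟩
    rw [← hst, map_add]
    have : S.mkQ s = 0 := by simpa using hs'
    rw [this, zero_add]
  let v : ℕ → T := fun n => ⟨S.mkQ (f ^ (n + 1)), hv n⟩
  have hdep : ¬ LinearIndependent K v := by
    intro h
    have := h.finite
    exact not_finite ℕ
  rw [not_linearIndependent_iff] at hdep
  obtain ⟨s, c, hsum, i, hi, hci⟩ := hdep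
  let q : Polynomial K := ∑ j ∈ s, Polynomial.C (c j) * Polynomial.X ^ (j + 1)
  have hqi : q.coeff (i + 1) = c i := by
    simp only [q, Polynomial.finsetSum_coeff, Polynomial.coeff_C_mul, Polynomial.coeff_X_pow]
    rw [Finset.sum_eq_single i]
    · simp
    · intro j _ hj
      rw [if_neg (by omega), mul_zero]
    · exact fun h => absurd hi h
  have hqd : 0 < q.natDegree := by
    have : i + 1 ≤ q.natDegree := Polynomial.le_natDegree_of_ne_zero (by rw [hqi]; exact hci)
    omega
  have hqS : Polynomial.aeval f q ∈ S := by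
    rw [← Submodule.Quotient.mk_eq_zero, ← Submodule.mkQ_apply]
    have h1 := congrArg Subtype.val hsum
    simp only [q, map_sum, map_mul, Polynomial.aeval_C, Polynomial.aeval_X_pow]
    simp only [Submodule.coe_sum, Submodule.coe_smul, Submodule.coe_zero, v] at h1
    rw [← h1]
    refine Finset.sum_congr rfl fun j _ => ?_
    rw [← Algebra.smul_def, map_smul]
  obtain ⟨m₁, hm₁, m₂, hm₂, hm⟩ := Submodule.mem_sup.1 hqS
  have hpole := aeval_notMem K hf hqd
  refine ⟨m₂, fun x => ⟨fun hx => ?_, fun hx => ?_⟩⟩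
  · rintro rfl
    apply hpole
    rw [← hm]
    exact add_mem (hm₁ x hz) hx
  · rcases mem_or_inv_mem K x z with h | h
    · have h1 : m₂ = Polynomial.aeval f q - m₁ := by rw [← hm]; ring
      rw [h1]
      refine sub_mem ?_ (hm₁ x h)
      rw [Polynomial.aeval_eq_sum_range]
      refine sum_mem fun j _ => ?_
      rw [Algebra.smul_def]
      exact mul_mem (algebraMap_mem_stk K x _) (pow_mem (hfr x h hx) j)
    · exact hm₂ x h

end

end Fermat.Agent.J25.G
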