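import Mathlib
import Fermat.Agent.J25.GA7
import Fermat.Agent.J25.Hub

/-!
# Curves: scheme-theoretic part of the geometric datum
-/

set_option autoImplicit false

universe u

open AlgebraicGeometry CategoryTheory CategoryTheory.Limits TopologicalSpace TensorProduct
open Fermat.Agent.H20 IsLocalRing

namespace Fermat.Agent.J25.G

noncomputable section

section pb

variable {X : Scheme.{u}}

/-- the intersection of two affine opens -/
lemma isPullback_fromSpec {U V : X.Opens} (hU : IsAffineOpen U) (hV : IsAffineOpen V)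
    (hUV : IsAffineOpen (U ⊓ V)) :
    IsPullback (Spec.map (X.presheaf.map (homOfLE (inf_le_left : U ⊓ V ≤ U)).op))
      (Spec.map (X.presheaf.map (homOfLE (inf_le_right : U ⊓ V ≤ V)).op))
      hU.fromSpec hV.fromSpec := by
  refine (isPullback_opens_inf U V).of_iso hUV.isoSpec hU.isoSpec hV.isoSpec (Iso.refl _)
    ?_ ?_ ?_ ?_
  · rw [IsAffineOpen.isoSpec_hom, IsAffineOpen.isoSpec_hom,
      Scheme.Opens.toSpecΓ_SpecMap_presheaf_map]
  · rw [IsAffineOpen.isoSpec_hom, IsAffineOpen.isoSpec_hom,
      Scheme.Opens.toSpecΓ_SpecMap_presheaf_map]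
  · rw [IsAffineOpen.isoSpec_hom, IsAffineOpen.toSpecΓ_fromSpec, Iso.refl_hom, Category.comp_id]
  · rw [IsAffineOpen.isoSpec_hom, IsAffineOpen.toSpecΓ_fromSpec, Iso.refl_hom, Category.comp_id]

/-- a `K`-point in an affine open -/
lemma point_factor {K : Type u} [Field K] (p : Spec (CommRingCat.of K) ⟶ X) {U : X.Opens}
    (hU : IsAffineOpen U) (h : p (ptK K) ∈ U) :
    p = Spec.map (CommRingCat.ofHom (evS K p U h)) ≫ hU.fromSpec := by
  have hle : ⊤ ≤ p ⁻¹ᵁ U := fun y _ => by
    rw [specK_eq K y (ptK K)]; exact h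
  have h1 := IsAffineOpen.SpecMap_appLE_fromSpec p hU (isAffineOpen_top _) hle
  have h2 : CommRingCat.ofHom (evS K p U h) = p.appLE U ⊤ hle ≫ (Scheme.ΓSpecIso (.of K)).hom := rfl
  rw [h2, Spec.map_comp, Category.assoc, h1, IsAffineOpen.fromSpec_top]
  have h3 : (Spec (CommRingCat.of K)).isoSpec.inv = Spec.map (Scheme.ΓSpecIso (.of K)).inv := by
    rw [← cancel_epi (Spec (CommRingCat.of K)).isoSpec.hom, Iso.hom_inv_id,
      Scheme.isoSpec_Spec_hom, ← Spec.map_comp, Iso.inv_hom_id, Spec.map_id]
  rw [h3, ← Category.assoc, ← Spec.map_comp, Iso.inv_hom_id, Spec.map_id, Category.id_comp]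

end pb

section pt

variable {X : Scheme.{u}} [IsIntegral X] (K : Type u) [Field K] [KSch K X] [IsAlgClosed K]
  [hs : SmoothOfRelativeDimension 1 (pK K X)] [IsProper (pK K X)]

include hs in
/-- rational points are closed and different from the generic point -/
lemma ne_generic (p : Spec (CommRingCat.of K) ⟶ X) (hp : IsKHom K p) :
    p (ptK K) ≠ genericPoint X := by
  intro h
  have h1 : ∀ f : X.functionField, ∃ c : K, f = algebraMap K X.functionField c := by
    intro f
    by_contra hcon
    push Not at hcon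
    have hU : p (ptK K) ∈ reg f := by rw [h]; exact generic_mem_reg f
    set c := evS K p (reg f) hU (secOf f) with hc
    have h1 : evS K p (reg f) hU (secOf f - algebraMap K Γ(X, reg f) c) = 0 := by
      rw [map_sub, ← hc, algebraMap_sec, evS_kSec K p hp, sub_self]
    refine (evS_ne_zero_iff K p (reg f) hU _).2 ?_ h1
    have h2 : X.germToFunctionField (reg f) (secOf f - algebraMap K Γ(X, reg f) c) =
        f - algebraMap K X.functionField c := by
      rw [map_sub, germ_secOf, ← algebraMap_fun' K (reg f)]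
    rw [mem_basicOpen_iff _ hU, h2, h]
    exact ⟨sub_ne_zero.2 (hcon c), stk_genericPoint _⟩
  have h2 := trdeg_functionField K X 1
  have h3 : Algebra.IsAlgebraic K X.functionField := ⟨fun f => by
    obtain ⟨c, rfl⟩ := h1 f
    exact isAlgebraic_algebraMap c⟩
  rw [trdeg_eq_zero] at h2
  simp at h2

end pt

end

end Fermat.Agent.J25.G
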