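import Mathlib
import Fermat.Agent.J25.Laur

/-!
# Expansions in a discrete valuation ring with residue field contained in it
-/

set_option autoImplicit false
set_option linter.style.haveILetI false
set_option linter.unusedSectionVars false

noncomputable section

namespace Fermat.Agent.J25.G

attribute [-instance] HahnSeries.powerSeriesAlgebra

open IsLocalRing PowerSeries

section rel

variable {k : Type*} [Field k] {O : Type*} [CommRing O] [IsDomain O] [IsDiscreteValuationRing O]
  [Algebra k O] {ϖ : O}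

/-- `f` is the expansion of `g` -/
def Rel (ϖ : O) (g : O) (f : k⟦X⟧) : Prop :=
  ∀ n : ℕ, g - Polynomial.aeval ϖ (trunc n f) ∈ maximalIdeal O ^ n

theorem aeval_mem_of_dvd (hϖ : ϖ ∈ maximalIdeal O) {n : ℕ} {P : Polynomial k}
    (h : Polynomial.X ^ n ∣ P) : Polynomial.aeval ϖ P ∈ maximalIdeal O ^ n := by
  obtain ⟨Q, rfl⟩ := h
  rw [map_mul, map_pow, Polynomial.aeval_X]
  exact Ideal.mul_mem_right _ _ (Ideal.pow_mem_pow hϖ n)

theorem Rel.add {g g' : O} {f f' : k⟦X⟧} (h : Rel ϖ g f) (h' : Rel ϖ g' f') :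
    Rel ϖ (g + g') (f + f') := by
  intro n
  rw [map_add, map_add]
  have := add_mem (h n) (h' n)
  convert this using 1
  ring

theorem Rel.mul (hϖ : ϖ ∈ maximalIdeal O) {g g' : O} {f f' : k⟦X⟧} (h : Rel ϖ g f)
    (h' : Rel ϖ g' f') : Rel ϖ (g * g') (f * f') := by
  intro n
  have h1 : Polynomial.aeval ϖ (trunc n f * trunc n f' - trunc n (f * f')) ∈
      maximalIdeal O ^ n := by
    refine aeval_mem_of_dvd hϖ (Polynomial.X_pow_dvd_iff.mpr fun d hd => ?_)
    rw [Polynomial.coeff_sub, PowerSeries.coeff_trunc, if_pos hd,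
      PowerSeries.coeff_mul_eq_coeff_trunc_mul_trunc f f' hd, sub_eq_zero,
      ← Polynomial.coe_mul, Polynomial.coeff_coe]
  rw [map_sub, map_mul] at h1
  have h2 : g * g' - Polynomial.aeval ϖ (trunc n (f * f')) =
      g * (g' - Polynomial.aeval ϖ (trunc n f')) +
      (g - Polynomial.aeval ϖ (trunc n f)) * Polynomial.aeval ϖ (trunc n f') +
      (Polynomial.aeval ϖ (trunc n f) * Polynomial.aeval ϖ (trunc n f') -
        Polynomial.aeval ϖ (trunc n (f * f'))) := by ring
  rw [h2]
  exact add_mem (add_mem (Ideal.mul_mem_left _ _ (h' n)) (Ideal.mul_mem_right _ _ (h n))) h1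

theorem rel_C (ϖ : O) (c : k) : Rel ϖ (algebraMap k O c) (C c) := by
  intro n
  rcases n with _ | n
  · rw [pow_zero, Ideal.one_eq_top]; exact Submodule.mem_top
  · rw [PowerSeries.trunc_C, Polynomial.aeval_C, sub_self]
    exact zero_mem _

theorem rel_X (hϖ : ϖ ∈ maximalIdeal O) : Rel (k := k) ϖ ϖ (X : k⟦X⟧) := by
  intro n
  rcases n with _ | _ | n
  · rw [pow_zero, Ideal.one_eq_top]; exact Submodule.mem_top
  · have h1 : (trunc 1 (X : k⟦X⟧)) = 0 := by
      ext d
      rw [PowerSeries.coeff_trunc, Polynomial.coeff_zero]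
      split_ifs with h
      · rw [PowerSeries.coeff_X, if_neg (by omega)]
      · rfl
    rw [h1, map_zero, sub_zero, pow_one]
    exact hϖ
  · rw [PowerSeries.trunc_X, Polynomial.aeval_X, sub_self]
    exact zero_mem _

theorem algebraMap_isUnit {c : k} (hc : c ≠ 0) : IsUnit (algebraMap k O c) :=
  (isUnit_iff_ne_zero.mpr hc).map _

theorem pow_mem_iff (hϖ : Irreducible ϖ) {n : ℕ} {g : O} :
    g ∈ maximalIdeal O ^ n ↔ ϖ ^ n ∣ g := by
  rw [hϖ.maximalIdeal_eq, Ideal.span_singleton_pow, Ideal.mem_span_singleton]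

theorem Rel.unique (hϖ : Irreducible ϖ) {g : O} {f f' : k⟦X⟧} (h : Rel ϖ g f) (h' : Rel ϖ g f') :
    f = f' := by
  ext n
  induction n using Nat.strong_induction_on with
  | _ n ih =>
    have h1 := sub_mem (h' (n + 1)) (h (n + 1))
    have h2 : trunc (n + 1) f - trunc (n + 1) f' =
        Polynomial.C (coeff n f - coeff n f') * Polynomial.X ^ n := by
      ext d
      rw [Polynomial.coeff_sub, PowerSeries.coeff_trunc, PowerSeries.coeff_trunc,
        Polynomial.coeff_C_mul, Polynomial.coeff_X_pow]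
      rcases lt_trichotomy d n with hd | hd | hd
      · rw [if_pos (by omega), if_pos (by omega), if_neg (by omega), ih d hd, sub_self, mul_zero]
      · subst hd
        rw [if_pos (by omega), if_pos (by omega), if_pos rfl, mul_one]
      · rw [if_neg (by omega), if_neg (by omega), if_neg (by omega), sub_self, mul_zero]
    have h3 : g - Polynomial.aeval ϖ (trunc (n + 1) f') -
        (g - Polynomial.aeval ϖ (trunc (n + 1) f)) =
        algebraMap k O (coeff n f - coeff n f') * ϖ ^ n := by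
      rw [sub_sub_sub_cancel_left, ← map_sub, h2, map_mul, Polynomial.aeval_C, map_pow,
        Polynomial.aeval_X]
    rw [h3] at h1
    by_contra hne
    have hu := algebraMap_isUnit (O := O) (sub_ne_zero.mpr hne)
    have h4 : ϖ ^ (n + 1) ∣ ϖ ^ n := (pow_mem_iff hϖ).mp ((Ideal.unit_mul_mem_iff_mem _ hu).mp h1)
    rw [pow_succ] at h4
    have h5 : ϖ ∣ 1 := by
      obtain ⟨c, hc⟩ := h4
      refine ⟨c, mul_left_cancel₀ (pow_ne_zero n hϖ.ne_zero) ?_⟩
      rw [mul_one, ← mul_assoc]
      exact hc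
    exact hϖ.not_isUnit (isUnit_of_dvd_one h5)

theorem exists_rel (hϖ : Irreducible ϖ)
    (hres : ∀ g : O, ∃ c : k, g - algebraMap k O c ∈ maximalIdeal O) (g : O) :
    ∃ f : k⟦X⟧, Rel ϖ g f := by
  have h1 : ∀ g : O, ∃ (c : k) (q : O), g = algebraMap k O c + ϖ * q := by
    intro g
    obtain ⟨c, hc⟩ := hres g
    rw [hϖ.maximalIdeal_eq, Ideal.mem_span_singleton] at hc
    obtain ⟨q, hq⟩ := hc
    exact ⟨c, q, by rw [← hq]; ring⟩
  choose r q hq using h1
  refine ⟨PowerSeries.mk fun n => r (q^[n] g), fun n => ?_⟩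
  have h2 : ∀ n : ℕ, g = Polynomial.aeval ϖ (trunc n (PowerSeries.mk fun n => r (q^[n] g))) +
      ϖ ^ n * q^[n] g := by
    intro n
    induction n with
    | zero => simp
    | succ n ih =>
      rw [PowerSeries.trunc_succ, map_add, Polynomial.aeval_monomial, PowerSeries.coeff_mk]
      conv_lhs => rw [ih, hq (q^[n] g)]
      rw [Function.iterate_succ_apply', pow_succ]
      ring
  rw [pow_mem_iff hϖ]
  exact ⟨q^[n] g, sub_eq_of_eq_add' (h2 n)⟩

end rel

section expansion

variable {k : Type*} [Field k] {O : Type*} [CommRing O] [IsDomain O] [IsDiscreteValuationRing O]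
  [Algebra k O]

/-- The expansion of the elements of a discrete valuation ring containing its residue field. -/
theorem exists_expansion₀ (hres : ∀ g : O, ∃ c : k, g - algebraMap k O c ∈ maximalIdeal O) :
    ∃ ι : O →+* k⟦X⟧, (∀ c : k, ι (algebraMap k O c) = C c) ∧
      (∀ (n : ℕ) (g : O), X ^ n ∣ ι g ↔ g ∈ maximalIdeal O ^ n) ∧
      ∀ (n : ℕ) (f : k⟦X⟧), ∃ g : O, X ^ n ∣ f - ι g := by
  obtain ⟨ϖ, hϖ⟩ := IsDiscreteValuationRing.exists_irreducible O
  have hm : ϖ ∈ maximalIdeal O := (mem_maximalIdeal _).mpr hϖ.not_isUnit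
  choose ι hι using exists_rel hϖ hres
  have hu : ∀ {g : O} {f : k⟦X⟧}, Rel ϖ g f → ι g = f := fun h => (hι _).unique hϖ h
  let ι' : O →+* k⟦X⟧ :=
    { toFun := ι
      map_one' := hu (by simpa using rel_C (k := k) ϖ 1)
      map_mul' := fun g g' => hu ((hι g).mul hm (hι g'))
      map_zero' := hu (by simpa using rel_C (k := k) ϖ 0)
      map_add' := fun g g' => hu ((hι g).add (hι g')) }
  have hX : ι' ϖ = X := hu (rel_X hm)
  have hC : ∀ c : k, ι' (algebraMap k O c) = C c := fun c => hu (rel_C ϖ c)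
  refine ⟨ι', hC, fun n g => ⟨fun h => ?_, fun h => ?_⟩, fun n f => ?_⟩
  · have h1 := hι g n
    have h2 : trunc n (ι g) = 0 := by
      ext d
      rw [PowerSeries.coeff_trunc, Polynomial.coeff_zero]
      split_ifs with hd
      · exact (PowerSeries.X_pow_dvd_iff.mp h) d hd
      · rfl
    rwa [h2, map_zero, sub_zero] at h1
  · obtain ⟨c, rfl⟩ := (pow_mem_iff hϖ).mp h
    rw [map_mul, map_pow, hX]
    exact dvd_mul_right _ _
  · refine ⟨Polynomial.aeval ϖ (trunc n f), ?_⟩
    have h1 : ι' (Polynomial.aeval ϖ (trunc n f)) = (trunc n f : k⟦X⟧) := by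
      rw [Polynomial.aeval_def, Polynomial.hom_eval₂, hX]
      have h2 : ι'.comp (algebraMap k O) = C := RingHom.ext hC
      rw [h2]
      exact Polynomial.eval₂_C_X_eq_coe
    rw [h1, PowerSeries.X_pow_dvd_iff]
    intro d hd
    rw [map_sub, Polynomial.coeff_coe, PowerSeries.coeff_trunc, if_pos hd, sub_self]

/-- power series as Laurent series -/
def psL (k : Type*) [Field k] : k⟦X⟧ →+* LaurentSeries k := HahnSeries.ofPowerSeries ℤ k

theorem psL_coeff (f : k⟦X⟧) (n : ℕ) : (psL k f).coeff (n : ℤ) = coeff n f :=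
  HahnSeries.ofPowerSeries_apply_coeff f n

theorem psL_coeff_neg (f : k⟦X⟧) {n : ℤ} (hn : n < 0) : (psL k f).coeff n = 0 := by
  rw [psL, HahnSeries.ofPowerSeries_apply, HahnSeries.embDomain_of_notMem_range]
  rintro ⟨m, hm⟩
  have h1 : (m : ℤ) = n := hm
  omega

theorem psL_C (c : k) : psL k (C c) = algebraMap k (LaurentSeries k) c :=
  HahnSeries.ofPowerSeries_C c

theorem psL_mem_LV {f : k⟦X⟧} {n : ℕ} : psL k f ∈ LV k n ↔ X ^ n ∣ f := by
  rw [PowerSeries.X_pow_dvd_iff]
  constructor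
  · intro h d hd
    rw [← psL_coeff]
    exact h d (by exact_mod_cast hd)
  · intro h i hi
    rcases lt_or_ge i 0 with h0 | h0
    · exact psL_coeff_neg f h0
    · obtain ⟨d, rfl⟩ := Int.eq_ofNat_of_zero_le h0
      rw [psL_coeff]
      exact h d (by exact_mod_cast hi)

theorem psL_injective : Function.Injective (psL k) := HahnSeries.ofPowerSeries_injective

theorem exists_psL {f : LaurentSeries k} (hf : f ∈ LV k 0) : ∃ g, psL k g = f := by
  refine ⟨PowerSeries.mk fun n => f.coeff n, ?_⟩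
  ext i
  rcases lt_or_ge i 0 with h0 | h0
  · rw [psL_coeff_neg _ h0, hf i h0]
  · obtain ⟨d, rfl⟩ := Int.eq_ofNat_of_zero_le h0
    rw [psL_coeff, coeff_mk]

variable {F : Type*} [Field F] [Algebra O F] [IsFractionRing O F] [Algebra k F]
  [IsScalarTower k O F]

variable (O) in
/-- **Expansions at a point of a curve.** -/
theorem exists_expansion (hres : ∀ g : O, ∃ c : k, g - algebraMap k O c ∈ maximalIdeal O) :
    ∃ ι : F →ₐ[k] LaurentSeries k, (∀ f : F, ι f ∈ LV k 0 ↔ ∃ g : O, algebraMap O F g = f) ∧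
      (∀ (n : ℕ) (g : O), ι (algebraMap O F g) ∈ LV k n ↔ g ∈ maximalIdeal O ^ n) ∧
      (∀ (n : ℤ) (f : LaurentSeries k), f ∈ LV k 0 →
        ∃ g : O, f - ι (algebraMap O F g) ∈ LV k n) := by
  obtain ⟨ι₀, hC, hm, hap⟩ := exists_expansion₀ hres
  have hinj₀ : Function.Injective ι₀ := by
    rw [injective_iff_map_eq_zero]
    intro g hg
    have h1 : g ∈ (⨅ n : ℕ, maximalIdeal O ^ n : Ideal O) := by
      rw [Ideal.mem_iInf]
      intro n
      rw [← hm, hg]
      exact dvd_zero _
    rwa [Ideal.iInf_pow_eq_bot_of_isLocalRing _ (maximalIdeal.isMaximal O).ne_top] at h1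
  let ι₁ : O →+* LaurentSeries k := (psL k).comp ι₀
  have hinj : Function.Injective ι₁ := psL_injective.comp hinj₀
  let ι₂ : F →+* LaurentSeries k := IsFractionRing.lift (A := O) hinj
  have hι : ∀ g : O, ι₂ (algebraMap O F g) = psL k (ι₀ g) := fun g =>
    IsFractionRing.lift_algebraMap hinj g
  let ι : F →ₐ[k] LaurentSeries k :=
    { ι₂ with
      commutes' := fun c => by
        change ι₂ (algebraMap k F c) = _
        rw [IsScalarTower.algebraMap_apply k O F, hι, hC, psL_C] }
  have hι' : ∀ g : O, ι (algebraMap O F g) = psL k (ι₀ g) := hι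
  refine ⟨ι, fun f => ⟨fun hf => ?_, ?_⟩, fun n g => ?_, fun n f hf => ?_⟩
  · by_contra hne
    obtain ⟨h, hh⟩ : ∃ h : O, algebraMap O F h = f⁻¹ := by
      rcases ValuationRing.isInteger_or_isInteger O f with h | h
      · exact absurd h hne
      · exact h
    have h1 : h ∈ maximalIdeal O := by
      rw [mem_maximalIdeal]
      intro hu
      apply hne
      obtain ⟨u, rfl⟩ := hu
      refine ⟨(↑u⁻¹ : O), ?_⟩
      have h2 : algebraMap O F (u : O) * algebraMap O F (↑u⁻¹ : O) = 1 := by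
        rw [← map_mul, Units.mul_inv, map_one]
      rw [hh] at h2
      have hf0 : f ≠ 0 := by
        rintro rfl
        rw [inv_zero, zero_mul] at h2
        exact zero_ne_one h2
      field_simp at h2
      exact h2
    have h2 : ι f⁻¹ ∈ LV k (1 : ℕ) := by
      rw [← hh, hι', psL_mem_LV, hm, pow_one]
      exact h1
    have hf0 : f ≠ 0 := by
      rintro rfl
      exact hne ⟨0, map_zero _⟩
    have h3 := mul_mem_LV hf h2
    rw [← map_mul, mul_inv_cancel₀ hf0, map_one] at h3
    have h4 := h3 0 (by norm_num)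
    rw [HahnSeries.coeff_one, if_pos rfl] at h4
    exact one_ne_zero h4
  · rintro ⟨g, rfl⟩
    rw [hι']
    have := (psL_mem_LV (f := ι₀ g) (n := 0)).mpr (by rw [pow_zero]; exact one_dvd _)
    exact_mod_cast this
  · rw [hι', psL_mem_LV, hm]
  · obtain ⟨f, rfl⟩ := exists_psL hf
    obtain ⟨g, hg⟩ := hap n.toNat f
    refine ⟨g, ?_⟩
    rw [hι', ← map_sub]
    exact LV_mono (Int.self_le_toNat n) (psL_mem_LV.mpr hg)

end expansion

end Fermat.Agent.J25.G
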