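import Mathlib
import Fermat.Agent.H20.TensorDomain

/-!
# Dedekind domains: étale algebras and localisation
-/

set_option autoImplicit false
set_option linter.style.haveILetI false

noncomputable section

namespace Fermat.Agent.J25.G

open IsLocalRing Polynomial
open scoped nonZeroDivisors

/-- A domain unramified and of finite type over a Dedekind domain is a Dedekind domain. -/
theorem isDedekindDomainDvr_of_unramified (A B : Type*) [CommRing A] [CommRing B] [Algebra A B]
    [Algebra.FiniteType A B] [IsDedekindDomain A] [IsDomain B] [Algebra.FormallyUnramified A B] :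
    IsDedekindDomainDvr B where
  __ := Algebra.FiniteType.isNoetherianRing A B
  is_dvr_at_nonzero_prime := by
    intro q hq hqp
    let p := q.under A
    haveI : p.IsPrime := inferInstance
    let := Localization.AtPrime.algebraOfLiesOver p q
    have h1 : p.map (algebraMap A (Localization.AtPrime q)) =
        maximalIdeal (Localization.AtPrime q) :=
      ((Algebra.isUnramifiedAt_iff_map_eq A p q).mp inferInstance).2
    haveI : IsNoetherianRing B := Algebra.FiniteType.isNoetherianRing A B
    suffices (maximalIdeal (Localization.AtPrime q)).IsPrincipal from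
      ((IsDiscreteValuationRing.TFAE (Localization.AtPrime q)
      (IsLocalization.AtPrime.not_isField B hq (Localization.AtPrime q))).out 4 0).mp this
    rw [← h1, IsScalarTower.algebraMap_eq A (Localization.AtPrime p) (Localization.AtPrime q),
      ← Ideal.map_map]
    have h2 : (p.map (algebraMap A (Localization.AtPrime p))).IsPrincipal := by
      rw [Localization.AtPrime.map_eq_maximalIdeal]
      by_cases hp : p = ⊥
      · have h3 : maximalIdeal (Localization.AtPrime p) = ⊥ := by
          rw [← Localization.AtPrime.map_eq_maximalIdeal]
          have h4 : ∀ I : Ideal A, I = ⊥ → I.map (algebraMap A (Localization.AtPrime p)) = ⊥ := by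
            rintro I rfl
            exact Ideal.map_bot
          exact h4 p hp
        rw [h3]
        infer_instance
      · haveI : IsDiscreteValuationRing (Localization.AtPrime p) :=
          @IsDedekindDomainDvr.is_dvr_at_nonzero_prime A _ inferInstance inferInstance p hp
            inferInstance
        infer_instance
    infer_instance

/-- Being a Dedekind domain is local. -/
theorem isDedekindDomainDvr_of_cover (R : Type*) [CommRing R] [IsDomain R] [IsNoetherianRing R]
    (h : ∀ q : Ideal R, q.IsPrime → q ≠ ⊥ → ∃ f : R, f ∉ q ∧ ∃ (S : Type _) (_ : CommRing S)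
      (_ : IsDomain S) (_ : Algebra R S) (_ : IsLocalization.Away f S), IsDedekindDomainDvr S) :
    IsDedekindDomainDvr R where
  __ := (inferInstance : IsNoetherianRing R)
  is_dvr_at_nonzero_prime := by
    intro q hq hqp
    obtain ⟨f, hfq, S, i1, i2, i3, i4, i5⟩ := h q hqp hq
    have hf0 : f ≠ 0 := fun h => hfq (h ▸ q.zero_mem)
    let q' : Ideal S := q.map (algebraMap R S)
    have hdisj : Disjoint (Submonoid.powers f : Set R) (q : Set R) := by
      rw [Set.disjoint_left]
      rintro _ ⟨n, rfl⟩ hn
      exact hfq (hqp.mem_of_pow_mem n hn)
    have hq'p : q'.IsPrime := IsLocalization.isPrime_of_isPrime_disjoint (Submonoid.powers f) S q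
      hqp hdisj
    have hc : q'.comap (algebraMap R S) = q :=
      IsLocalization.under_map_of_isPrime_disjoint (Submonoid.powers f) S hqp hdisj
    have hq'0 : q' ≠ ⊥ := by
      intro h0
      rw [h0] at hc
      apply hq
      rw [← hc, Ideal.comap_bot_of_injective]
      exact IsLocalization.injective S (powers_le_nonZeroDivisors_of_noZeroDivisors hf0)
    haveI := IsDedekindDomainDvr.is_dvr_at_nonzero_prime q' hq'0 hq'p
    have h1 := IsLocalization.isLocalization_isLocalization_atPrime_isLocalization
      (Submonoid.powers f) (Localization.AtPrime q') q'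
    have h2 : IsLocalization.AtPrime (Localization.AtPrime q') q := by
      have key : ∀ (I : Ideal R) (hI : I.IsPrime), I = q →
          IsLocalization.AtPrime (Localization.AtPrime q') I →
          IsLocalization.AtPrime (Localization.AtPrime q') q := by
        rintro I hI rfl h
        exact h
      exact key _ inferInstance hc h1
    exact IsDiscreteValuationRing.RingEquivClass.isDiscreteValuationRing
      (IsLocalization.algEquiv q.primeCompl (Localization.AtPrime q')
        (Localization.AtPrime q))

instance isPrincipalIdealRing_mvPoly (κ : Type*) [Field κ] :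
    IsPrincipalIdealRing (MvPolynomial (Fin 1) κ) :=
  IsPrincipalIdealRing.of_surjective (MvPolynomial.uniqueAlgEquiv κ (Fin 1)).symm
    (MvPolynomial.uniqueAlgEquiv κ (Fin 1)).symm.surjective

/-- Smooth curves over a field are Dedekind. -/
theorem isDedekindDomainDvr_of_standardSmooth (κ S : Type*) [Field κ] [CommRing S] [Algebra κ S]
    [IsDomain S] [Algebra.IsStandardSmoothOfRelativeDimension 1 κ S] : IsDedekindDomainDvr S := by
  obtain ⟨g, hg⟩ :=
    Algebra.IsStandardSmoothOfRelativeDimension.exists_etale_mvPolynomial (n := 1) κ S
  algebraize [g.toRingHom]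
  haveI : Algebra.Etale (MvPolynomial (Fin 1) κ) S := hg
  exact isDedekindDomainDvr_of_unramified (MvPolynomial (Fin 1) κ) S

section

open TensorProduct

variable (k : Type*) [Field k] [IsAlgClosed k] (A : Type*) [CommRing A] [IsDomain A] [Algebra k A]
  [Algebra.FiniteType k A]

/-- A smooth curve stays a Dedekind domain after every extension of the base field. -/
theorem isDedekindDomain_baseChange
    (hA : ∀ q : Ideal A, q.IsPrime → ∃ f : A, f ∉ q ∧
      Algebra.IsStandardSmoothOfRelativeDimension 1 k (Localization.Away f))
    (κ : Type*) [Field κ] [Algebra k κ] :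
    letI : IsDomain (κ ⊗[k] A) := Fermat.Agent.H20.tensor_isDomain κ A
    IsDedekindDomain (κ ⊗[k] A) := by
  letI : IsDomain (κ ⊗[k] A) := Fermat.Agent.H20.tensor_isDomain κ A
  haveI : IsNoetherianRing (κ ⊗[k] A) := Algebra.FiniteType.isNoetherianRing κ _
  haveI := isDedekindDomainDvr_of_cover (κ ⊗[k] A) (fun q hq hq0 => by
    obtain ⟨f, hf, hsm⟩ := hA (q.comap Algebra.TensorProduct.includeRight) inferInstance
    have hf' : (1 : κ) ⊗ₜ[k] f ∉ q := hf
    have hf0 : (1 : κ) ⊗ₜ[k] f ≠ 0 := fun h => hf' (h ▸ q.zero_mem)
    haveI : IsDomain (Localization.Away ((1 : κ) ⊗ₜ[k] f)) :=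
      IsLocalization.isDomain_localization (powers_le_nonZeroDivisors_of_noZeroDivisors hf0)
    refine ⟨_, hf', Localization.Away ((1 : κ) ⊗ₜ[k] f), inferInstance, inferInstance,
      inferInstance, inferInstance, ?_⟩
    haveI : Algebra.IsStandardSmoothOfRelativeDimension 1 κ
        (Localization.Away ((1 : κ) ⊗ₜ[k] f)) :=
      Algebra.IsStandardSmoothOfRelativeDimension.of_algEquiv 1
        (IsLocalization.Away.tensorProductEquivTMulRight k κ f (Localization.Away f))
    exact isDedekindDomainDvr_of_standardSmooth κ _)
  infer_instance

end

end Fermat.Agent.J25.G
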