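import Mathlib
import Fermat.Agent.H20.TensorDomain

/-!
# The diagonal of a smooth curve is a Cartier divisor
-/

set_option autoImplicit false
set_option linter.style.haveILetI false

noncomputable section

namespace Fermat.Agent.J25.G

open IsLocalRing TensorProduct
open scoped nonZeroDivisors

section inv

/-- a locally principal ideal of a domain is invertible -/
theorem invertible_of_locally_principal {S : Type*} [CommRing S] [IsDomain S] (I : Ideal S)
    (hI : I ≠ ⊥)
    (h : ∀ Q : Ideal S, Q.IsMaximal → ∃ g ∈ I, ∃ s : S, s ∉ Q ∧ ∀ x ∈ I, ∃ c, s * x = c * g) :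
    Module.Invertible S I := by
  let F := FractionRing S
  let M : Submodule S F := Submodule.map (Algebra.linearMap S F) I
  let e : I ≃ₗ[S] M := Submodule.equivMapOfInjective (Algebra.linearMap S F)
    (IsFractionRing.injective S F) I
  let N : Submodule S F :=
    { carrier := {y | ∀ x ∈ I, ∃ c : S, y * algebraMap S F x = algebraMap S F c}
      add_mem' := by
        intro y z hy hz x hx
        obtain ⟨c, hc⟩ := hy x hx
        obtain ⟨d, hd⟩ := hz x hx
        exact ⟨c + d, by rw [add_mul, hc, hd, map_add]⟩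
      zero_mem' := fun x hx => ⟨0, by rw [zero_mul, map_zero]⟩
      smul_mem' := by
        intro r y hy x hx
        obtain ⟨c, hc⟩ := hy x hx
        exact ⟨r * c, by rw [smul_mul_assoc, hc, Algebra.smul_def, map_mul]⟩ }
  have hMN : M * N = 1 := by
    apply le_antisymm
    · rw [Submodule.mul_le]
      rintro _ ⟨x, hx, rfl⟩ y hy
      obtain ⟨c, hc⟩ := hy x hx
      rw [Submodule.mem_one]
      refine ⟨c, ?_⟩
      rw [← hc, mul_comm]
      rfl
    · -- the ideal of all elements in `M * N`
      let J : Ideal S := Submodule.comap (Algebra.linearMap S F) (M * N)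
      have hJ : J = ⊤ := by
        by_contra hne
        obtain ⟨Q, hQ, hJQ⟩ := Ideal.exists_le_maximal J hne
        obtain ⟨g, hg, s, hs, hc⟩ := h Q hQ
        have hs0 : s ≠ 0 := fun h => hs (h ▸ Q.zero_mem)
        have hg0 : g ≠ 0 := by
          rintro rfl
          apply hI
          rw [eq_bot_iff]
          intro x hx
          obtain ⟨c, hc⟩ := hc x hx
          rw [mul_zero] at hc
          exact (mul_eq_zero.mp hc).resolve_left hs0
        have hg0' : algebraMap S F g ≠ 0 := by
          rwa [Ne, IsFractionRing.to_map_eq_zero_iff]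
        apply hs
        apply hJQ
        change algebraMap S F s ∈ M * N
        have h1 : algebraMap S F s = algebraMap S F g * (algebraMap S F s / algebraMap S F g) := by
          rw [mul_div_cancel₀ _ hg0']
        rw [h1]
        refine Submodule.mul_mem_mul ⟨g, hg, rfl⟩ fun x hx => ?_
        obtain ⟨c, hc⟩ := hc x hx
        refine ⟨c, ?_⟩
        rw [div_mul_eq_mul_div, ← map_mul, hc, map_mul, mul_div_assoc, div_self hg0', mul_one]
      rw [Submodule.one_le]
      have h2 : (1 : S) ∈ J := hJ ▸ Submodule.mem_top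
      have h3 : algebraMap S F 1 ∈ M * N := h2
      rwa [map_one] at h3
  let u : (Submodule S F)ˣ := ⟨M, N, hMN, by rw [mul_comm]; exact hMN⟩
  haveI : FaithfulSMul S F :=
    (faithfulSMul_iff_algebraMap_injective S F).mpr (IsFractionRing.injective S F)
  have hu : Module.Invertible S (u : Submodule S F) :=
    Module.Invertible.left (Submodule.tensorInvEquiv u)
  exact Module.Invertible.congr e.symm

end inv

section nak

variable {S : Type*} [CommRing S]

/-- a form of Nakayama's lemma -/
theorem exists_notMem_smul_le {I Q : Ideal S} [hQ : Q.IsPrime] (hfg : I.FG) (hIQ : I ≤ Q)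
    {f g : S} (hf : f ∉ Q) (h : ∀ x ∈ I, ∃ (m : ℕ) (c : S), f ^ m * x - c * g ∈ I ^ 2) :
    ∃ s : S, s ∉ Q ∧ ∀ x ∈ I, ∃ c, s * x = c * g := by
  let L := Localization.AtPrime Q
  have hu : ∀ s : S, s ∉ Q → IsUnit (algebraMap S L s) := fun s hs =>
    IsLocalization.map_units L (⟨s, hs⟩ : Q.primeCompl)
  have h1 : I.map (algebraMap S L) ≤ Ideal.span {algebraMap S L g} := by
    refine Submodule.le_of_le_smul_of_le_jacobson_bot (I := maximalIdeal L)
      (Ideal.FG.map hfg _) ?_ ?_
    · rw [IsLocalRing.jacobson_eq_maximalIdeal _ bot_ne_top]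
    · rw [Ideal.map_le_iff_le_comap]
      intro x hx
      rw [Ideal.mem_comap]
      obtain ⟨m, c, hc⟩ := h x hx
      obtain ⟨v, hv⟩ := hu (f ^ m) (fun h => hf (hQ.mem_of_pow_mem m h))
      have h2 : algebraMap S L x = (↑v⁻¹ : L) * (algebraMap S L c) * algebraMap S L g +
          (↑v⁻¹ : L) * algebraMap S L (f ^ m * x - c * g) := by
        rw [map_sub, map_mul, map_mul, ← hv, mul_sub, ← mul_assoc, Units.inv_mul, one_mul]
        ring
      rw [h2]
      refine Submodule.add_mem_sup (Ideal.mul_mem_left _ _ (Ideal.mem_span_singleton_self _)) ?_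
      refine Submodule.smul_mem _ _ ?_
      rw [pow_two] at hc
      have h3 : algebraMap S L (f ^ m * x - c * g) ∈ (I * I).map (algebraMap S L) :=
        Ideal.mem_map_of_mem _ hc
      rw [Ideal.map_mul] at h3
      refine Submodule.smul_mono_left ?_ h3
      rw [← Localization.AtPrime.map_eq_maximalIdeal]
      exact Ideal.map_mono hIQ
  obtain ⟨t, ht⟩ := hfg
  have h2 : ∀ x ∈ t, ∃ s : S, s ∉ Q ∧ ∃ c, s * x = c * g := by
    intro x hx
    have hxI : x ∈ I := ht ▸ Ideal.subset_span hx
    obtain ⟨y, hy⟩ := Ideal.mem_span_singleton'.mp (h1 (Ideal.mem_map_of_mem _ hxI))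
    obtain ⟨⟨a, s⟩, hs⟩ := IsLocalization.surj Q.primeCompl y
    have h3 : algebraMap S L ((s : S) * x) = algebraMap S L (a * g) := by
      rw [map_mul, map_mul, ← hs, ← hy]
      ring
    obtain ⟨r, hr⟩ := (IsLocalization.eq_iff_exists Q.primeCompl L).mp h3
    exact ⟨(r : S) * s, hQ.mul_notMem r.2 s.2, (r : S) * a, by rw [mul_assoc, hr, mul_assoc]⟩
  choose! s hs c hc using h2
  classical
  refine ⟨∏ x ∈ t, s x, ?_, fun x hx => ?_⟩
  · rw [hQ.prod_mem_iff]
    rintro ⟨x, hx, h3⟩
    exact hs x hx h3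
  · rw [← ht] at hx
    induction hx using Submodule.span_induction with
    | mem x hx =>
      rw [← Finset.prod_erase_mul t s hx, mul_assoc, hc x hx]
      exact ⟨(∏ y ∈ t.erase x, s y) * c x, by ring⟩
    | zero => exact ⟨0, by rw [mul_zero, zero_mul]⟩
    | add x y _ _ hx hy =>
      obtain ⟨a, ha⟩ := hx
      obtain ⟨b, hb⟩ := hy
      exact ⟨a + b, by rw [mul_add, ha, hb, add_mul]⟩
    | smul r x _ hx =>
      obtain ⟨a, ha⟩ := hx
      exact ⟨r * a, by rw [smul_eq_mul, mul_left_comm, ha, mul_assoc]⟩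

end nak

section diag

variable (k : Type*) [Field k] (A : Type*) [CommRing A] [Algebra k A]

/-- a local generator of the differentials -/
theorem exists_local_gen (f : A)
    [Algebra.IsStandardSmoothOfRelativeDimension 1 k (Localization.Away f)] :
    ∃ g ∈ KaehlerDifferential.ideal k A, ∀ x ∈ KaehlerDifferential.ideal k A,
      ∃ (m : ℕ) (c : A ⊗[k] A), (f ⊗ₜ[k] 1) ^ m * x - c * g ∈ KaehlerDifferential.ideal k A ^ 2 := by
  let Af := Localization.Away f
  obtain ⟨b, hb⟩ : ∃ b : Ω[Af⁄k], ∀ y : Ω[Af⁄k], ∃ c : Af, y = c • b := by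
    cases subsingleton_or_nontrivial Af
    · haveI : Subsingleton Ω[Af⁄k] := Module.subsingleton Af _
      exact ⟨0, fun y => ⟨0, Subsingleton.elim _ _⟩⟩
    · haveI : Algebra.IsStandardSmooth k Af :=
        Algebra.IsStandardSmoothOfRelativeDimension.isStandardSmooth 1
      have h1 : Module.rank Af Ω[Af⁄k] = 1 := by
        have := Algebra.IsStandardSmoothOfRelativeDimension.rank_kaehlerDifferential
          (R := k) (S := Af) 1
        simpa using this
      have h2 : Module.finrank Af Ω[Af⁄k] = 1 := Module.finrank_eq_of_rank_eq (by simpa using h1)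
      obtain ⟨b, -, hb⟩ := finrank_eq_one_iff'.mp h2
      exact ⟨b, fun y => (hb y).imp fun c hc => hc.symm⟩
  let φ : Ω[A⁄k] →ₗ[A] Ω[Af⁄k] := KaehlerDifferential.map k k A Af
  haveI : IsLocalizedModule (Submonoid.powers f) φ := inferInstance
  obtain ⟨⟨ω, s⟩, hω⟩ := IsLocalizedModule.surj (Submonoid.powers f) φ b
  obtain ⟨g, hg⟩ := KaehlerDifferential.fromIdeal_surjective k A ω
  refine ⟨g, g.2, fun x hx => ?_⟩
  obtain ⟨c, hc⟩ := hb (φ (KaehlerDifferential.fromIdeal k A ⟨x, hx⟩))
  obtain ⟨⟨a, s'⟩, hs'⟩ := IsLocalization.surj (Submonoid.powers f) c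
  set η := KaehlerDifferential.fromIdeal k A ⟨x, hx⟩ with hη
  have h1 : φ (((s : A) * (s' : A)) • η) = φ (a • ω) := by
    have h2 : ((s' : A)) • φ η = a • b := by
      rw [hc, ← algebraMap_smul Af (s' : A), smul_smul, mul_comm, hs', algebraMap_smul]
    have h3 : ((s : A)) • b = φ ω := hω
    rw [map_smul, map_smul, mul_smul, h2, smul_comm, h3]
  obtain ⟨t, ht⟩ := (IsLocalizedModule.eq_iff_exists (Submonoid.powers f) φ).mp h1
  obtain ⟨m, hm⟩ : ∃ m : ℕ, f ^ m = (t : A) * ((s : A) * (s' : A)) := by
    have : (t : A) * ((s : A) * (s' : A)) ∈ Submonoid.powers f :=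
      mul_mem t.2 (mul_mem s.2 s'.2)
    exact this
  have h4 : (f ^ m) • η = ((t : A) * a) • ω := by
    rw [hm, mul_smul (t : A), mul_smul (t : A) a]
    exact ht
  refine ⟨m, (((t : A) * a) ⊗ₜ[k] 1), ?_⟩
  have h5 : ∀ (r : A) (y : Ω[A⁄k]), r • y = (r ⊗ₜ[k] (1 : A)) • y := by
    intro r y
    rw [← algebraMap_smul (A ⊗[k] A) r y]
    rfl
  rw [h5, h5, ← hg, hη, ← map_smul, ← map_smul] at h4
  have h6 := (Ideal.toCotangent_eq _).mp h4
  have h7 : ((f ^ m) ⊗ₜ[k] (1 : A)) = (f ⊗ₜ[k] (1 : A)) ^ m := by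
    rw [Algebra.TensorProduct.tmul_pow, one_pow]
  rw [← h7]
  exact h6

variable [Algebra.FiniteType k A]

/-- **The diagonal of a smooth curve is a Cartier divisor.** -/
theorem invertible_diag [IsAlgClosed k] [IsDomain A]
    (hA : ∀ q : Ideal A, q.IsPrime → ∃ f : A, f ∉ q ∧
      Algebra.IsStandardSmoothOfRelativeDimension 1 k (Localization.Away f)) :
    Module.Invertible (A ⊗[k] A) (KaehlerDifferential.ideal k A) := by
  haveI : IsDomain (A ⊗[k] A) := Fermat.Agent.H20.tensor_isDomain A A
  have hfg : (KaehlerDifferential.ideal k A).FG := KaehlerDifferential.ideal_fg k A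
  refine invertible_of_locally_principal _ ?_ fun Q hQ => ?_
  · intro h0
    obtain ⟨f, hf, hsm⟩ := hA ⊥ Ideal.isPrime_bot
    haveI : Nontrivial (Localization.Away f) := by
      have hf0 : f ≠ 0 := fun h => hf (by rw [h]; exact Ideal.zero_mem _)
      exact (IsLocalization.injective (Localization.Away f)
        (powers_le_nonZeroDivisors_of_noZeroDivisors hf0)).nontrivial
    haveI : Subsingleton Ω[A⁄k] := by
      refine ⟨fun x y => ?_⟩
      obtain ⟨x, rfl⟩ := KaehlerDifferential.fromIdeal_surjective k A x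
      obtain ⟨y, rfl⟩ := KaehlerDifferential.fromIdeal_surjective k A y
      have key : ∀ z : KaehlerDifferential.ideal k A, z = 0 := fun z => by
        apply Subtype.ext
        exact (Submodule.mem_bot _).mp (h0.le z.2)
      rw [key x, key y]
    have h1 : Module.rank (Localization.Away f) Ω[Localization.Away f⁄k] = 1 := by
      have := Algebra.IsStandardSmoothOfRelativeDimension.rank_kaehlerDifferential
        (R := k) (S := Localization.Away f) 1
      simpa using this
    have h2 : Subsingleton Ω[Localization.Away f⁄k] := by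
      refine ⟨fun x y => ?_⟩
      let φ : Ω[A⁄k] →ₗ[A] Ω[Localization.Away f⁄k] := KaehlerDifferential.map k k A _
      haveI : IsLocalizedModule (Submonoid.powers f) φ := inferInstance
      have key : ∀ z : Ω[Localization.Away f⁄k], z = 0 := by
        intro z
        obtain ⟨⟨m, s⟩, hz⟩ := IsLocalizedModule.surj (Submonoid.powers f) φ z
        have h3 : s • z = 0 := by
          rw [hz, Subsingleton.elim m 0, map_zero]
        have h4 := (Module.End.isUnit_iff _).mp (IsLocalizedModule.map_units φ s)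
        exact h4.1 (by rw [map_zero]; exact h3)
      rw [key x, key y]
    rw [rank_subsingleton'] at h1
    exact zero_ne_one h1
  by_cases hQI : KaehlerDifferential.ideal k A ≤ Q
  · obtain ⟨f, hf, hsm⟩ := hA (Q.comap (Algebra.TensorProduct.includeLeft (R := k) (S := k)))
      inferInstance
    obtain ⟨g, hg, hgx⟩ := exists_local_gen k A f
    exact ⟨g, hg, exists_notMem_smul_le hfg hQI hf hgx⟩
  · obtain ⟨g, hg, hgQ⟩ := SetLike.not_le_iff_exists.mp hQI
    exact ⟨g, hg, g, hgQ, fun x _ => ⟨x, mul_comm _ _⟩⟩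

end diag

end Fermat.Agent.J25.G
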