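import Mathlib
import Fermat.Agent.H20.KSch
import Fermat.Agent.J25.WP2b1
import Fermat.Agent.J25.WP2b2

/-!
# Smooth curves: local structure of the coordinate rings
-/

set_option autoImplicit false
set_option linter.style.haveILetI false
set_option linter.unusedSectionVars false

noncomputable section

universe u

namespace Fermat.Agent.J25.G

open AlgebraicGeometry CategoryTheory CategoryTheory.Limits TopologicalSpace TensorProduct
open Fermat.Agent.H20

variable (K : Type u) [Field K] {X : Scheme.{u}} [KSch K X]
  [hsm : SmoothOfRelativeDimension 1 (pK K X)]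

/-- the coordinate rings are locally standard smooth of relative dimension one -/
theorem exists_standardSmooth {U : X.Opens} (hU : IsAffineOpen U) (q : Ideal Γ(X, U))
    (hq : q.IsPrime) : ∃ f : Γ(X, U), f ∉ q ∧
      Algebra.IsStandardSmoothOfRelativeDimension 1 K (Localization.Away f) := by
  have h1 : RingHom.Locally (RingHom.IsStandardSmoothOfRelativeDimension 1)
      ((pK K X).appLE ⊤ U le_top).hom :=
    HasRingHomProperty.appLE (P := @SmoothOfRelativeDimension 1) (pK K X) hsm
      ⟨⊤, isAffineOpen_top _⟩ ⟨U, hU⟩ le_top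
  obtain ⟨s, hs, h2⟩ := h1
  obtain ⟨f, hf, hfq⟩ : ∃ f ∈ s, f ∉ q := by
    by_contra hcon
    push Not at hcon
    exact hq.ne_top (top_le_iff.mp (hs ▸ Ideal.span_le.mpr hcon))
  refine ⟨f, hfq, ?_⟩
  have h3 := h2 f hf
  have h4 : (algebraMap K (Localization.Away f)) =
      ((algebraMap Γ(X, U) (Localization.Away f)).comp ((pK K X).appLE ⊤ U le_top).hom).comp
        (Scheme.ΓSpecIso (.of K)).inv.hom := by
    rw [IsScalarTower.algebraMap_eq K Γ(X, U) (Localization.Away f), algebraMap_sec, kSec,
      CommRingCat.hom_comp, RingHom.comp_assoc]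
  have h5 : ((Scheme.ΓSpecIso (.of K)).inv.hom).IsStandardSmoothOfRelativeDimension 0 :=
    RingHom.IsStandardSmoothOfRelativeDimension.equiv (Scheme.ΓSpecIso (.of K)).symm.commRingCatIsoToRingEquiv
  have h6 := h3.comp h5
  rw [← h4] at h6
  exact (RingHom.isStandardSmoothOfRelativeDimension_algebraMap 1).mp h6

variable [IsAlgClosed K] [IsIntegral X]

/-- the coordinate rings are finitely generated -/
theorem finiteType_sec {U : X.Opens} (hU : IsAffineOpen U) : Algebra.FiniteType K Γ(X, U) := by
  haveI : Smooth (pK K X) := SmoothOfRelativeDimension.smooth 1 _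
  have h1 : ((pK K X).appLE ⊤ U le_top).hom.FiniteType :=
    HasRingHomProperty.appLE (P := @LocallyOfFiniteType) (pK K X) inferInstance
      ⟨⊤, isAffineOpen_top _⟩ ⟨U, hU⟩ le_top
  have h2 : (algebraMap K Γ(X, U)).FiniteType := by
    rw [algebraMap_sec, kSec, CommRingCat.hom_comp]
    exact h1.comp (RingHom.FiniteType.of_surjective _
      (Scheme.ΓSpecIso (.of K)).symm.commRingCatIsoToRingEquiv.surjective)
  exact (RingHom.finiteType_algebraMap).mp h2

include K hsm in
/-- the coordinate rings are Dedekind domains -/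
theorem isDedekindDomainDvr_sec {U : X.Opens} (hU : IsAffineOpen U) [Nonempty U] :
    IsDedekindDomainDvr Γ(X, U) := by
  haveI : Algebra.FiniteType K Γ(X, U) := finiteType_sec K hU
  haveI : IsNoetherianRing Γ(X, U) := Algebra.FiniteType.isNoetherianRing K _
  refine isDedekindDomainDvr_of_cover Γ(X, U) fun q hq hq0 => ?_
  obtain ⟨f, hf, hsm⟩ := exists_standardSmooth K hU q hq
  have hf0 : f ≠ 0 := fun h => hf (h ▸ q.zero_mem)
  haveI : IsDomain (Localization.Away f) :=
    IsLocalization.isDomain_localization (powers_le_nonZeroDivisors_of_noZeroDivisors hf0)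
  exact ⟨f, hf, Localization.Away f, inferInstance, inferInstance, inferInstance, inferInstance,
    isDedekindDomainDvr_of_standardSmooth K _⟩

/-- the diagonal is a Cartier divisor -/
theorem invertible_diag_sec {U : X.Opens} (hU : IsAffineOpen U) [Nonempty U] :
    Module.Invertible (Γ(X, U) ⊗[K] Γ(X, U)) (KaehlerDifferential.ideal K Γ(X, U)) := by
  haveI : Algebra.FiniteType K Γ(X, U) := finiteType_sec K hU
  exact invertible_diag K Γ(X, U) (fun q hq => exists_standardSmooth K hU q hq)

end Fermat.Agent.J25.G
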