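import Mathlib
import Fermat.Agent.J25.WP2b3
import Fermat.Agent.J25.WP2b4

/-!
# Smooth curves: expansions of the rational functions at a closed point
-/

set_option autoImplicit false
set_option linter.style.haveILetI false
set_option linter.unusedSectionVars false

noncomputable section

universe u

namespace Fermat.Agent.J25.G

attribute [-instance] HahnSeries.powerSeriesAlgebra

open AlgebraicGeometry CategoryTheory CategoryTheory.Limits TopologicalSpace TensorProduct
open Fermat.Agent.H20 IsLocalRing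

variable (K : Type u) [Field K] [IsAlgClosed K]

/-- points of an algebra of finite type -/
theorem exists_sub_mem {B : Type*} [CommRing B] [Algebra K B] [Algebra.FiniteType K B]
    {P : Ideal B} (hP : P.IsMaximal) (b : B) : ∃ c : K, b - algebraMap K B c ∈ P := by
  letI : Field (B ⧸ P) := Ideal.Quotient.field P
  haveI : Algebra.FiniteType K (B ⧸ P) := inferInstance
  haveI : Module.Finite K (B ⧸ P) := finite_of_finite_type_of_isJacobsonRing K (B ⧸ P)
  haveI : Algebra.IsIntegral K (B ⧸ P) := inferInstance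
  obtain ⟨c, hc⟩ := (IsAlgClosed.algebraMap_bijective_of_isIntegral (k := K) (K := B ⧸ P)).2
    (Ideal.Quotient.mk P b)
  refine ⟨c, ?_⟩
  rw [← Ideal.Quotient.eq, ← hc]
  rfl

variable {X : Scheme.{u}} [KSch K X] [hsm : SmoothOfRelativeDimension 1 (pK K X)] [IsIntegral X]

/-- the coordinate rings stay Dedekind domains after base change -/
theorem ded_sec {U : X.Opens} (hU : IsAffineOpen U) [Nonempty U] (κ : Type*) [Field κ]
    [Algebra K κ] : IsDedekindDomain (κ ⊗[K] Γ(X, U)) := by
  haveI : Algebra.FiniteType K Γ(X, U) := finiteType_sec K hU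
  exact isDedekindDomain_baseChange K Γ(X, U) (fun q hq => exists_standardSmooth K hU q hq) κ

/-- the diagonal is a Cartier divisor -/
theorem diag_sec {U : X.Opens} (hU : IsAffineOpen U) [Nonempty U] :
    Module.Invertible (Γ(X, U) ⊗[K] Γ(X, U))
      (RingHom.ker (Algebra.TensorProduct.lmul' K : Γ(X, U) ⊗[K] Γ(X, U) →ₐ[K] Γ(X, U))) :=
  invertible_diag_sec K hU

/-- **Expansions of the rational functions at a closed point.** -/
theorem exists_eF {V : X.Opens} (hV : IsAffineOpen V) [hne : Nonempty V] {x : X} (hx : x ∈ V)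
    (hmax : (hV.primeIdealOf ⟨x, hx⟩).asIdeal.IsMaximal)
    (hne0 : (hV.primeIdealOf ⟨x, hx⟩).asIdeal ≠ ⊥) :
    ∃ ι : X.functionField →ₐ[K] LaurentSeries K,
      (∀ f, ι f ∈ LV K 0 ↔ f ∈ stk X x) ∧
      (∀ (n : ℕ) (b : Γ(X, V)), ι (X.germToFunctionField V b) ∈ LV K n ↔
        b ∈ (hV.primeIdealOf ⟨x, hx⟩).asIdeal ^ n) ∧
      (∀ (b : Γ(X, V)) (c : K), b - algebraMap K Γ(X, V) c ∈ (hV.primeIdealOf ⟨x, hx⟩).asIdeal →
        (ι (X.germToFunctionField V b)).coeff 0 = c) ∧
      (∀ (n : ℤ) (f : LaurentSeries K), f ∈ LV K 0 →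
        ∃ b : Γ(X, V), f - ι (X.germToFunctionField V b) ∈ LV K n) := by
  set P : Ideal Γ(X, V) := (hV.primeIdealOf ⟨x, hx⟩).asIdeal with hPdef
  haveI : Algebra.FiniteType K Γ(X, V) := finiteType_sec K hV
  haveI := isDedekindDomainDvr_sec K hV
  let O := X.presheaf.stalk x
  letI : Algebra Γ(X, V) O := X.presheaf.algebra_section_stalk ⟨x, hx⟩
  haveI hloc : IsLocalization.AtPrime O P := hV.isLocalization_stalk ⟨x, hx⟩
  haveI : IsDiscreteValuationRing (Localization.AtPrime P) :=
    IsDedekindDomainDvr.is_dvr_at_nonzero_prime P hne0 inferInstance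
  haveI : IsDiscreteValuationRing O :=
    IsDiscreteValuationRing.RingEquivClass.isDiscreteValuationRing
      (IsLocalization.algEquiv P.primeCompl (Localization.AtPrime P) O)
  letI : Algebra K O := ((algebraMap Γ(X, V) O).comp (algebraMap K Γ(X, V))).toAlgebra
  haveI : IsScalarTower K Γ(X, V) O := IsScalarTower.of_algebraMap_eq' rfl
  have hgerm : ∀ b : Γ(X, V), algebraMap O X.functionField (algebraMap Γ(X, V) O b) =
      X.germToFunctionField V b := fun b => X.algebraMap_germ_eq_germToFunctionField hx b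
  haveI : IsScalarTower K O X.functionField := IsScalarTower.of_algebraMap_eq fun c => by
    rw [algebraMap_fun' K V c, ← hgerm]
    rfl
  have hPm : ∀ b : Γ(X, V), algebraMap Γ(X, V) O b ∈ maximalIdeal O ↔ b ∈ P := fun b =>
    IsLocalization.AtPrime.to_map_mem_maximal_iff O P b
  have hmap : P.map (algebraMap Γ(X, V) O) = maximalIdeal O :=
    IsLocalization.AtPrime.map_eq_maximalIdeal P O
  have hu : ∀ s : Γ(X, V), s ∉ P → IsUnit (algebraMap Γ(X, V) O s) := fun s hs =>
    IsLocalization.map_units O (⟨s, hs⟩ : P.primeCompl)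
  -- approximation of the elements of the local ring
  have happ : ∀ (n : ℕ) (g : O), ∃ b : Γ(X, V), g - algebraMap Γ(X, V) O b ∈
      maximalIdeal O ^ n := by
    intro n g
    obtain ⟨⟨b, s⟩, hs⟩ := IsLocalization.surj P.primeCompl g
    obtain ⟨t, p, hp, htp⟩ : ∃ (t p : Γ(X, V)), p ∈ P ^ n ∧ t * s + p = 1 := by
      have h1 : Ideal.span {(s : Γ(X, V))} ⊔ P = ⊤ :=
        by
          by_contra hne
          have h2 := hmax.eq_of_le hne le_sup_right
          have h3 : (s : Γ(X, V)) ∈ Ideal.span {(s : Γ(X, V))} ⊔ P :=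
            (le_sup_left : Ideal.span {(s : Γ(X, V))} ≤ _) (Ideal.mem_span_singleton_self _)
          rw [← h2] at h3
          exact s.2 h3
      have h3 : IsCoprime (Ideal.span {(s : Γ(X, V))}) (P ^ n) :=
        (Ideal.isCoprime_iff_sup_eq.mpr h1).pow_right
      obtain ⟨y, hy, p, hp, h4⟩ := Ideal.isCoprime_iff_exists.mp h3
      obtain ⟨t, rfl⟩ := Ideal.mem_span_singleton'.mp hy
      exact ⟨t, p, hp, h4⟩
    refine ⟨b * t, ?_⟩
    have h5 : g - algebraMap Γ(X, V) O (b * t) = g * algebraMap Γ(X, V) O p := by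
      have h6 : algebraMap Γ(X, V) O (t * s + p) = 1 := by rw [htp, map_one]
      rw [map_add, map_mul] at h6
      rw [map_mul, ← hs]
      linear_combination -g * h6
    rw [h5, ← hmap, ← Ideal.map_pow]
    exact Ideal.mul_mem_left _ _ (Ideal.mem_map_of_mem _ hp)
  have hpow : ∀ (n : ℕ) (b : Γ(X, V)), algebraMap Γ(X, V) O b ∈ maximalIdeal O ^ n ↔
      b ∈ P ^ n := by
    intro n b
    constructor
    · intro h
      rw [← hmap, ← Ideal.map_pow] at h
      obtain ⟨⟨⟨c, hc⟩, s⟩, h1⟩ := (IsLocalization.mem_map_algebraMap_iff P.primeCompl O).mp h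
      have h2 : b * (s : Γ(X, V)) = c := by
        apply IsLocalization.injective O P.primeCompl_le_nonZeroDivisors
        rw [map_mul]
        exact h1
      have h3 : (P ^ n).IsPrimary ∨ n = 0 := by
        rcases Nat.eq_zero_or_pos n with rfl | hn
        · exact Or.inr rfl
        · exact Or.inl (Ideal.isPrimary_of_isMaximal_radical (by
            rw [Ideal.radical_pow _ hn.ne', hmax.isPrime.radical]; exact hmax))
      rcases h3 with h3 | rfl
      · have h4 : b * (s : Γ(X, V)) ∈ P ^ n := h2 ▸ hc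
        rcases (Ideal.isPrimary_iff.mp h3).2 h4 with h5 | h5
        · exact h5
        · exfalso
          apply s.2
          have h6 := Ideal.radical_mono (Ideal.pow_le_self (I := P) ?_) h5
          · rwa [hmax.isPrime.radical] at h6
          · rintro rfl
            exact h3.1 (by rw [pow_zero, Ideal.one_eq_top])
      · rw [pow_zero, Ideal.one_eq_top]; exact Submodule.mem_top
    · intro h
      rw [← hmap, ← Ideal.map_pow]
      exact Ideal.mem_map_of_mem _ h
  have hres : ∀ g : O, ∃ c : K, g - algebraMap K O c ∈ maximalIdeal O := by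
    intro g
    obtain ⟨b, hb⟩ := happ 1 g
    rw [pow_one] at hb
    obtain ⟨c, hc⟩ := exists_sub_mem K hmax b
    refine ⟨c, ?_⟩
    have h1 := add_mem hb ((hPm _).mpr hc)
    rw [map_sub, ← IsScalarTower.algebraMap_apply] at h1
    simpa using h1
  obtain ⟨ι, h0, h1, h2⟩ := exists_expansion (F := X.functionField) O hres
  have hbn : ∀ (n : ℕ) (b : Γ(X, V)), ι (X.germToFunctionField V b) ∈ LV K n ↔ b ∈ P ^ n := by
    intro n b
    rw [← hgerm, h1, hpow]
  refine ⟨ι, fun f => ?_, hbn, fun b c hc => ?_, fun n f hf => ?_⟩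
  · rw [h0]
    rfl
  · have h3 := (hbn 1 (b - algebraMap K Γ(X, V) c)).mpr (by rw [pow_one]; exact hc)
    rw [map_sub, ← algebraMap_fun' K V c, map_sub, AlgHom.commutes] at h3
    have h4 := h3 0 (by norm_num)
    rw [HahnSeries.coeff_sub] at h4
    have h5 : (algebraMap K (LaurentSeries K) c).coeff 0 = c := by
      change (HahnSeries.single (0 : ℤ) c).coeff 0 = c
      rw [HahnSeries.coeff_single, if_pos rfl]
    rw [h5] at h4
    exact sub_eq_zero.mp h4
  · obtain ⟨g, hg⟩ := h2 n f hf
    obtain ⟨b, hb⟩ := happ n.toNat g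
    refine ⟨b, ?_⟩
    have h3 : ι (algebraMap O X.functionField (g - algebraMap Γ(X, V) O b)) ∈ LV K n :=
      LV_mono (Int.self_le_toNat n) ((h1 _ _).mpr hb)
    rw [map_sub, map_sub, hgerm] at h3
    have h4 := add_mem hg h3
    simpa using h4

end Fermat.Agent.J25.G
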