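import Mathlib
import Fermat.Agent.J25.GA8
import Fermat.Agent.J25.WP2b5

/-!
# Curves: the function with a single pole and the expansion
-/

set_option autoImplicit false

universe u

open AlgebraicGeometry CategoryTheory CategoryTheory.Limits TopologicalSpace TensorProduct
open Fermat.Agent.H20 IsLocalRing

namespace Fermat.Agent.J25.G

attribute [-instance] HahnSeries.powerSeriesAlgebra

noncomputable section

section laurent

variable {K : Type*} [Field K]

lemma mem_LV_iff_order {x : LaurentSeries K} (hx : x ≠ 0) {n : ℤ} : x ∈ LV K n ↔ n ≤ x.order := by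
  constructor
  · intro h
    by_contra hcon
    exact mt HahnSeries.coeff_order_eq_zero.1 hx (h _ (not_le.1 hcon))
  · intro h i hi
    exact HahnSeries.coeff_eq_zero_of_lt_order (lt_of_lt_of_le hi h)

lemma order_inv' {x : LaurentSeries K} (hx : x ≠ 0) : (x⁻¹).order = - x.order := by
  have h1 := HahnSeries.order_mul hx (inv_ne_zero hx)
  rw [mul_inv_cancel₀ hx, HahnSeries.order_one] at h1
  omega

end laurent

section data

variable (K : Type u) [Field K] [IsAlgClosed K] {X : Scheme.{u}} [KSch K X] [IsIntegral X]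
  [hs : SmoothOfRelativeDimension 1 (pK K X)] [IsProper (pK K X)]

omit hs [IsAlgClosed K] [IsProper (pK K X)] in
lemma smul_mem_stk_iff {x : X} {c : K} (hc : c ≠ 0) {f : X.functionField} :
    c • f ∈ stk X x ↔ f ∈ stk X x := by
  have h : ∀ (c : K) (f : X.functionField), f ∈ stk X x → c • f ∈ stk X x := by
    intro c f hf
    rw [Algebra.smul_def]
    exact mul_mem (algebraMap_mem_stk K x c) hf
  refine ⟨fun h1 => ?_, h c f⟩
  have h2 := h c⁻¹ _ h1
  rwa [smul_smul, inv_mul_cancel₀ hc, one_smul] at h2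

/-- the function with a single pole, and the expansion at this pole -/
lemma exists_data {x₀ : X} (hx₀ : x₀ ≠ genericPoint X) :
    ∃ (a : X.functionField) (ι : X.functionField →ₐ[K] LaurentSeries K) (d : ℕ),
      (∀ x : X, a ∈ stk X x ↔ x ≠ x₀) ∧ 0 < d ∧ ι a ∈ LV K (-(d : ℤ)) ∧
      (ι a).coeff (-(d : ℤ)) = 1 ∧ (∀ f, ι f ∈ LV K 0 ↔ f ∈ stk X x₀) ∧
      (∀ (n : ℤ) (f : LaurentSeries K), f ∈ LV K 0 → ∃ b : X.functionField,
        (∀ x : X, a⁻¹ ∈ stk X x → b ∈ stk X x) ∧ f - ι b ∈ LV K n) := by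
  obtain ⟨a, ha⟩ := exists_one_pole K hx₀
  have hax : a ∉ stk X x₀ := fun h => (ha x₀).1 h rfl
  have hnc : ∀ c : K, a ≠ algebraMap K X.functionField c := nonconst_of_notMem K hax
  have ha0 : a ≠ 0 := ne_zero_of_nonconst K hnc
  have hV : IsAffineOpen (reg a⁻¹) := isAffineOpen_reg K (inv_nonconst K hnc)
  have hxV : x₀ ∈ reg a⁻¹ := (mem_or_inv_mem K x₀ a).resolve_left hax
  obtain ⟨ι, h1, -, -, h2⟩ := exists_eF K hV hxV (primeIdealOf_isMaximal K hV hxV hx₀)
    (primeIdealOf_ne_bot hV hxV hx₀)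
  have hι0 : ι a ≠ 0 := (map_ne_zero ι).2 ha0
  set o := (ι a).order with ho
  have ho0 : o < 0 := by
    by_contra hcon
    exact hax ((h1 a).1 ((mem_LV_iff_order hι0).2 (not_lt.1 hcon)))
  have hc : (ι a).coeff o ≠ 0 := mt HahnSeries.coeff_order_eq_zero.1 hι0
  set c := (ι a).coeff o with hcdef
  have hd : -((-o).toNat : ℤ) = o := by omega
  refine ⟨c⁻¹ • a, ι, (-o).toNat, fun x => ?_, by omega, ?_, ?_, h1, fun n f hf => ?_⟩
  · rw [smul_mem_stk_iff K (inv_ne_zero hc), ha]
  · rw [hd, map_smul]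
    exact Submodule.smul_mem _ _ ((mem_LV_iff_order hι0).2 le_rfl)
  · rw [hd, map_smul, HahnSeries.coeff_smul, smul_eq_mul, ← hcdef, inv_mul_cancel₀ hc]
  · obtain ⟨b, hb⟩ := h2 n f hf
    refine ⟨X.germToFunctionField (reg a⁻¹) b, fun x hx => ?_, hb⟩
    refine germ_mem_stk ?_ b
    have h3 : (c⁻¹ • a)⁻¹ = c • a⁻¹ := by
      rw [Algebra.smul_def, Algebra.smul_def, mul_inv, ← map_inv₀, inv_inv]
    rw [h3, smul_mem_stk_iff K hc] at hx
    exact hx

omit hs [IsAlgClosed K] [IsProper (pK K X)] in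
/-- the constant term of the expansion is the value -/
lemma coeff_zero_eq {x₀ : X} {ι : X.functionField →ₐ[K] LaurentSeries K}
    (hι : ∀ f, ι f ∈ LV K 0 ↔ f ∈ stk X x₀) {f : X.functionField} (hf : f ∈ stk X x₀) {c : K}
    (hc : ¬ (f - algebraMap K X.functionField c ≠ 0 ∧
      (f - algebraMap K X.functionField c)⁻¹ ∈ stk X x₀)) : (ι f).coeff 0 = c := by
  by_contra hcon
  have h1 : ι f - algebraMap K (LaurentSeries K) c = ι (f - algebraMap K X.functionField c) := by
    rw [map_sub, AlgHom.commutes]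
  have h2 : (ι f - algebraMap K (LaurentSeries K) c).coeff 0 ≠ 0 := by
    rw [HahnSeries.coeff_sub]
    have : (algebraMap K (LaurentSeries K) c).coeff 0 = c := by
      change (HahnSeries.single 0 c : LaurentSeries K).coeff 0 = c
      exact HahnSeries.coeff_single_same _ _
    rw [this]
    exact sub_ne_zero.2 hcon
  rw [h1] at h2
  have h3 : ι (f - algebraMap K X.functionField c) ≠ 0 := by
    intro h
    rw [h] at h2
    exact h2 rfl
  have h4 : f - algebraMap K X.functionField c ≠ 0 := fun h => h3 (by rw [h, map_zero])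
  apply hc
  refine ⟨h4, (hι _).1 ?_⟩
  rw [map_inv₀, mem_LV_iff_order (inv_ne_zero h3), order_inv' h3]
  have h5 : (ι (f - algebraMap K X.functionField c)).order ≤ 0 :=
    HahnSeries.order_le_of_coeff_ne_zero h2
  omega

end data

end

end Fermat.Agent.J25.G
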