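import Mathlib
import Fermat.Agent.J25.Laur

/-!
# Curves: finiteness of `k((z)) / (A + z k[[z]])` (field `H1` of `Geo`)
-/

set_option autoImplicit false

noncomputable section

universe u

namespace Fermat.Agent.J25.GB

attribute [-instance] HahnSeries.powerSeriesAlgebra

variable {k : Type u} [Field k]

theorem inv_mem_LV {x y : LaurentSeries k} {d : ℤ} (hx : x ∈ LV k (-d)) (hx1 : x.coeff (-d) = 1)
    (hxy : x * y = 1) : y ∈ LV k d := by
  have hx0 : x ≠ 0 := by
    rintro rfl
    rw [HahnSeries.coeff_zero] at hx1
    exact zero_ne_one hx1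
  have hy0 : y ≠ 0 := by
    rintro rfl
    rw [mul_zero] at hxy
    exact zero_ne_one hxy
  have h1 : x.order = -d := by
    apply le_antisymm
    · exact HahnSeries.order_le_of_coeff_ne_zero (by rw [hx1]; exact one_ne_zero)
    · by_contra h
      exact hx0 (HahnSeries.coeff_order_eq_zero.mp (hx _ (not_le.mp h)))
  have h2 : x.order + y.order = 0 := by
    rw [← HahnSeries.order_mul hx0 hy0, hxy, HahnSeries.order_one]
  intro i hi
  apply HahnSeries.coeff_eq_zero_of_lt_order
  omega

theorem pow_mem_LV {x : LaurentSeries k} {d : ℤ} (hx : x ∈ LV k d) (n : ℕ) :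
    x ^ n ∈ LV k (n * d) := by
  induction n with
  | zero =>
    rw [pow_zero, Nat.cast_zero, zero_mul]
    exact one_mem_LV
  | succ n ih =>
    rw [pow_succ]
    have := mul_mem_LV ih hx
    rwa [show ((n + 1 : ℕ) : ℤ) * d = n * d + d by push_cast; ring]

variable {A B D : Type u} [CommRing A] [CommRing B] [CommRing D] [Algebra k A] [Algebra k B]
  [Algebra k D] [Algebra A D] [Algebra B D] [IsScalarTower k A D] [IsScalarTower k B D]

/-- **Finiteness of `k((z)) / (A + z k[[z]])`** -/
theorem finite_quot (a : A) (w : B) [IsLocalization.Away a D]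
    (haw : algebraMap A D a * algebraMap B D w = 1) (eD : D →ₐ[k] LaurentSeries k)
    (eB_mem : ∀ b : B, eD (algebraMap B D b) ∈ LV k 0)
    (approx : ∀ (n : ℤ) (f : LaurentSeries k), f ∈ LV k 0 →
      ∃ b : B, f - eD (algebraMap B D b) ∈ LV k n)
    (d : ℕ) (hd : 0 < d)
    (ea_mem : eD (algebraMap A D a) ∈ LV k (-(d : ℤ)))
    (ea_coeff : (eD (algebraMap A D a)).coeff (-(d : ℤ)) = 1)
    (finB : (Polynomial.aeval (R := k) w).toRingHom.Finite) :
    Module.Finite k (LaurentSeries k ⧸
      (LinearMap.range (eD.comp (IsScalarTower.toAlgHom k A D)).toLinearMap ⊔ LV k 1)) := by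
  classical
  have hmul : eD (algebraMap A D a) * eD (algebraMap B D w) = 1 := by
    rw [← map_mul, haw, map_one]
  have hw : eD (algebraMap B D w) ∈ LV k d := inv_mem_LV ea_mem ea_coeff hmul
  have hwp : ∀ n : ℕ, eD (algebraMap B D w) ^ n ∈ LV k n := fun n =>
    LV_mono (by nlinarith) (pow_mem_LV hw n)
  have hap : ∀ n : ℕ, eD (algebraMap A D a) ^ n ∈ LV k (-(n * d : ℤ)) := fun n => by
    have := pow_mem_LV ea_mem n
    rwa [mul_neg] at this
  -- generators of `B`
  algebraize [(Polynomial.aeval (R := k) w).toRingHom]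
  have h2 : Module.Finite (Polynomial k) B := finB
  obtain ⟨S, hS⟩ := h2.fg_top
  -- denominators
  have hden : ∀ x : D, ∃ (N : ℕ) (y : A), algebraMap A D a ^ N * x = algebraMap A D y := by
    intro x
    obtain ⟨⟨y, ⟨_, N, rfl⟩⟩, hy⟩ := IsLocalization.surj (Submonoid.powers a) x
    refine ⟨N, y, ?_⟩
    rw [← hy, mul_comm]
    dsimp only
    rw [map_pow]
  choose N y hy using hden
  set M : ℕ := S.sup (fun b => N (algebraMap B D b)) with hM
  set F : Finset (LaurentSeries k) :=
    (Finset.range (M + 1) ×ˢ S).image fun p => eD (algebraMap A D a ^ p.1 * algebraMap B D p.2)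
    with hF
  set Q : Submodule k (LaurentSeries k) :=
    LinearMap.range (eD.comp (IsScalarTower.toAlgHom k A D)).toLinearMap ⊔ LV k 1 with hQ
  have hQA : ∀ x : A, eD (algebraMap A D x) ∈ Q := fun x =>
    (le_sup_left : _ ≤ Q) ⟨x, rfl⟩
  have hQL : LV k 1 ≤ Q := le_sup_right
  set T : Submodule k (LaurentSeries k) := Q ⊔ Submodule.span k (F : Set (LaurentSeries k))
    with hT
  have hTQ : Q ≤ T := le_sup_left
  have hTF : ∀ p : ℕ, p ≤ M → ∀ b ∈ S, eD (algebraMap A D a ^ p * algebraMap B D b) ∈ T := by
    intro p hp b hb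
    apply (le_sup_right : _ ≤ T)
    apply Submodule.subset_span
    rw [hF, Finset.coe_image]
    refine ⟨(p, b), ?_, rfl⟩
    rw [Finset.mem_coe, Finset.mem_product]
    exact ⟨Finset.mem_range.mpr (by dsimp only; omega), hb⟩
  have hpos : ∀ p : ℕ, ∀ b ∈ S, eD (algebraMap A D a ^ p * algebraMap B D b) ∈ T := by
    intro p b hb
    by_cases hp : p ≤ M
    · exact hTF p hp b hb
    · apply hTQ
      have h3 : N (algebraMap B D b) ≤ M := Finset.le_sup (f := fun b => N (algebraMap B D b)) hb
      have h4 : algebraMap A D a ^ p * algebraMap B D b =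
          algebraMap A D (a ^ (p - N (algebraMap B D b)) * y (algebraMap B D b)) := by
        rw [map_mul, ← hy, map_pow, ← mul_assoc, ← pow_add]
        congr 2
        omega
      rw [h4]
      exact hQA _
  have hneg : ∀ p : ℕ, 0 < p → ∀ b : B, eD (algebraMap B D w ^ p * algebraMap B D b) ∈ T := by
    intro p hp b
    apply hTQ
    apply hQL
    rw [map_mul, map_pow]
    have := mul_mem_LV (hwp p) (eB_mem b)
    exact LV_mono (by omega) this
  have haw' : ∀ i j : ℕ, algebraMap A D a ^ (i + j) * algebraMap B D w ^ j =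
      algebraMap A D a ^ i := by
    intro i j
    rw [pow_add, mul_assoc, ← mul_pow, haw, one_pow, mul_one]
  have haw'' : ∀ i j : ℕ, algebraMap A D a ^ i * algebraMap B D w ^ (i + j) =
      algebraMap B D w ^ j := by
    intro i j
    rw [pow_add, ← mul_assoc, ← mul_pow, haw, one_pow, one_mul]
  have hmon : ∀ n m : ℕ, ∀ b ∈ S,
      eD (algebraMap A D a ^ n * (algebraMap B D w ^ m * algebraMap B D b)) ∈ T := by
    intro n m b hb
    rcases le_or_gt m n with h | h
    · obtain ⟨i, rfl⟩ := Nat.exists_eq_add_of_le h
      rw [← mul_assoc, add_comm m i, haw']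
      exact hpos i b hb
    · obtain ⟨j, rfl⟩ := Nat.exists_eq_add_of_le h.le
      rw [← mul_assoc, haw'']
      exact hneg j (by omega) b
  have hall : ∀ (n : ℕ) (b : B), eD (algebraMap A D a ^ n * algebraMap B D b) ∈ T := by
    intro n b
    have h3 : b ∈ Submodule.span (Polynomial k) (S : Set B) := by
      rw [hS]; trivial
    induction h3 using Submodule.span_induction with
    | mem x hx =>
      have := hmon n 0 x hx
      rwa [pow_zero, one_mul] at this
    | zero =>
      rw [map_zero, mul_zero, map_zero]
      exact zero_mem _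
    | add x y _ _ hx hy =>
      rw [map_add, mul_add, map_add]
      exact add_mem hx hy
    | smul P x hx0 ih =>
      clear ih
      induction hx0 using Submodule.span_induction generalizing P with
      | mem x hx =>
        induction P using Polynomial.induction_on' with
        | add P Q hP hQ =>
          rw [add_smul, map_add, mul_add, map_add]
          exact add_mem hP hQ
        | monomial m c =>
          have h4 : (Polynomial.monomial m c : Polynomial k) • x = c • (w ^ m * x) := by
            change (Polynomial.aeval (R := k) w (Polynomial.monomial m c)) * x = _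
            rw [Polynomial.aeval_monomial, Algebra.smul_def, mul_assoc]
          rw [h4, ← IsScalarTower.coe_toAlgHom' k B D, map_smul, mul_smul_comm, map_smul]
          apply Submodule.smul_mem
          rw [IsScalarTower.coe_toAlgHom' k B D, map_mul (algebraMap B D), map_pow (algebraMap B D)]
          exact hmon n m x hx
      | zero =>
        rw [smul_zero, map_zero, mul_zero, map_zero]
        exact zero_mem _
      | add x y _ _ hx hy =>
        rw [smul_add, map_add, mul_add, map_add]
        exact add_mem (hx P) (hy P)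
      | smul P' x _ ih' =>
        rw [smul_smul]
        exact ih' _
  have htop : T = ⊤ := by
    rw [eq_top_iff]
    intro f _
    obtain ⟨n, hn⟩ := exists_mem_LV f
    have h5 : f * eD (algebraMap B D w) ^ n ∈ LV k 0 := by
      have := mul_mem_LV hn (hwp n)
      exact LV_mono (by omega) this
    obtain ⟨b, hb⟩ := approx (n * d + 1) _ h5
    have h6 : f = (f * eD (algebraMap B D w) ^ n - eD (algebraMap B D b)) *
        eD (algebraMap A D a) ^ n + eD (algebraMap A D a ^ n * algebraMap B D b) := by
      have h7 : eD (algebraMap B D w) ^ n * eD (algebraMap A D a) ^ n = 1 := by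
        rw [← mul_pow, mul_comm, hmul, one_pow]
      rw [sub_mul, mul_assoc, h7, mul_one, map_mul, map_pow]
      ring
    rw [h6]
    refine add_mem ?_ (hall n b)
    apply hTQ
    apply hQL
    have := mul_mem_LV hb (hap n)
    exact LV_mono (by omega) this
  -- conclusion
  refine ⟨?_⟩
  refine ⟨F.image (Submodule.mkQ Q), ?_⟩
  rw [Finset.coe_image, ← Submodule.map_span, eq_top_iff]
  intro x _
  obtain ⟨f, rfl⟩ := Submodule.mkQ_surjective Q x
  have hf : f ∈ T := by rw [htop]; trivial
  obtain ⟨q, hq, s, hs, rfl⟩ := Submodule.mem_sup.mp hf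
  refine ⟨s, hs, ?_⟩
  rw [map_add, (Submodule.Quotient.mk_eq_zero Q).mpr hq |> fun h => (show Q.mkQ q = 0 from h),
    zero_add]

end Fermat.Agent.J25.GB
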