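import Mathlib
import Fermat.Agent.J25.GA9
import Fermat.Agent.J25.GB22

/-!
# The geometric datum of a pointed curve
-/

set_option autoImplicit false

universe u

open AlgebraicGeometry CategoryTheory CategoryTheory.Limits TopologicalSpace TensorProduct
open AlgebraicGeometry.RelPicard NeronModelInfra
open Fermat.Agent.H20 IsLocalRing

namespace Fermat.Agent.J25.G

attribute [-instance] HahnSeries.powerSeriesAlgebra

noncomputable section

section

variable (K : Type u) [Field K] {X : Scheme.{u}} [KSch K X] [IsIntegral X]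

/-- sections as rational functions -/
def gF (U : X.Opens) [Nonempty U] : Γ(X, U) →ₐ[K] X.functionField :=
  { (X.germToFunctionField U).hom with
    commutes' := fun c => (algebraMap_fun' K U c).symm }

lemma gF_apply (U : X.Opens) [Nonempty U] (s : Γ(X, U)) :
    gF K U s = X.germToFunctionField U s := rfl

lemma gF_injective (U : X.Opens) [Nonempty U] : Function.Injective (gF K U) :=
  X.germToFunctionField_injective U

lemma gF_res {U V : X.Opens} [Nonempty U] [Nonempty V] (i : U ⟶ V) (s : Γ(X, V)) :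
    gF K U (X.presheaf.map i.op s) = gF K V s := germToFunctionField_res i s

variable [IsAlgClosed K] [hs : SmoothOfRelativeDimension 1 (pK K X)] [IsProper (pK K X)]

set_option maxHeartbeats 1000000 in
/-- **The geometric datum.** -/
theorem exists_geo (ε : SchemeHomOver (𝟙 (Spec (CommRingCat.of K))) (pK K X)) :
    Nonempty (Geo (pK K X) ε) := by
  have hεK : IsKHom K ε.1 := by
    unfold IsKHom
    rw [ε.2, pK_spec]
    exact (Spec.map_id _).symm
  set x₀ : X := ε.1 (ptK K) with hx₀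
  have hne : x₀ ≠ genericPoint X := ne_generic K ε.1 hεK
  obtain ⟨a, ι, d, ha, hd, had, had1, hι, happ⟩ := exists_data K hne
  have hax : a ∉ stk X x₀ := fun h => (ha x₀).1 h rfl
  have hnc : ∀ c : K, a ≠ algebraMap K X.functionField c := nonconst_of_notMem K hax
  have ha0 : a ≠ 0 := ne_zero_of_nonconst K hnc
  have hU : IsAffineOpen (reg a) := isAffineOpen_reg K hnc
  have hV : IsAffineOpen (reg a⁻¹) := isAffineOpen_reg K (inv_nonconst K hnc)
  have hUV : IsAffineOpen (reg a ⊓ reg a⁻¹) := isAffineOpen_inf K X hU hV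
  have hxV : x₀ ∈ reg a⁻¹ := (mem_or_inv_mem K x₀ a).resolve_left hax
  have hneUV : Nonempty (reg a ⊓ reg a⁻¹ : X.Opens) :=
    ⟨⟨genericPoint X, generic_mem_reg a, generic_mem_reg a⁻¹⟩⟩
  let iA : reg a ⊓ reg a⁻¹ ⟶ reg a := homOfLE inf_le_left
  let iB : reg a ⊓ reg a⁻¹ ⟶ reg a⁻¹ := homOfLE inf_le_right
  letI alAD : Algebra Γ(X, reg a) Γ(X, reg a ⊓ reg a⁻¹) := (X.presheaf.map iA.op).hom.toAlgebra
  letI alBD : Algebra Γ(X, reg a⁻¹) Γ(X, reg a ⊓ reg a⁻¹) := (X.presheaf.map iB.op).hom.toAlgebra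
  have tA : IsScalarTower K Γ(X, reg a) Γ(X, reg a ⊓ reg a⁻¹) :=
    IsScalarTower.of_algebraMap_eq' (congrArg (fun g => g.hom) (kSec_map K iA)).symm
  have tB : IsScalarTower K Γ(X, reg a⁻¹) Γ(X, reg a ⊓ reg a⁻¹) :=
    IsScalarTower.of_algebraMap_eq' (congrArg (fun g => g.hom) (kSec_map K iB)).symm
  have locA : IsLocalization.Away (secOf a) Γ(X, reg a ⊓ reg a⁻¹) :=
    hU.isLocalization_of_eq_basicOpen (secOf a) iA (basicOpen_secOf ha0).symm
  have locB : IsLocalization.Away (secOf a⁻¹) Γ(X, reg a ⊓ reg a⁻¹) :=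
    hV.isLocalization_of_eq_basicOpen (secOf a⁻¹) iB (by
      rw [basicOpen_secOf (inv_ne_zero ha0), inv_inv, inf_comm])
  have hgA : ∀ s : Γ(X, reg a), gF K (reg a ⊓ reg a⁻¹) (algebraMap _ _ s) = gF K (reg a) s :=
    fun s => gF_res K iA s
  have hgB : ∀ s : Γ(X, reg a⁻¹), gF K (reg a ⊓ reg a⁻¹) (algebraMap _ _ s) =
    gF K (reg a⁻¹) s := fun s => gF_res K iB s
  have hga : gF K (reg a) (secOf a) = a := germ_secOf a
  have hgw : gF K (reg a⁻¹) (secOf a⁻¹) = a⁻¹ := germ_secOf a⁻¹
  have heB_mem : ∀ b : Γ(X, reg a⁻¹),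
      (ι.comp (gF K (reg a ⊓ reg a⁻¹))) (algebraMap _ Γ(X, reg a ⊓ reg a⁻¹) b) ∈ LV K 0 := by
    intro b
    rw [AlgHom.comp_apply, hgB, hι]
    exact germ_mem_stk hxV b
  have happrox : ∀ (n : ℤ) (f : LaurentSeries K), f ∈ LV K 0 → ∃ b : Γ(X, reg a⁻¹),
      f - (ι.comp (gF K (reg a ⊓ reg a⁻¹))) (algebraMap _ Γ(X, reg a ⊓ reg a⁻¹) b) ∈ LV K n := by
    intro n f hf
    obtain ⟨b, hb, hb'⟩ := happ n f hf
    obtain ⟨s, hs'⟩ := exists_section_of_forall_mem_stk (U := reg a⁻¹) (f := b) hb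
    refine ⟨s, ?_⟩
    rw [AlgHom.comp_apply, hgB, gF_apply, hs']
    exact hb'
  have hea_mem : (ι.comp (gF K (reg a ⊓ reg a⁻¹)))
      (algebraMap _ Γ(X, reg a ⊓ reg a⁻¹) (secOf a)) ∈ LV K (-(d : ℤ)) := by
    rw [AlgHom.comp_apply, hgA, hga]
    exact had
  have hea_coeff : ((ι.comp (gF K (reg a ⊓ reg a⁻¹)))
      (algebraMap _ Γ(X, reg a ⊓ reg a⁻¹) (secOf a))).coeff (-(d : ℤ)) = 1 := by
    rw [AlgHom.comp_apply, hgA, hga]
    exact had1
  refine ⟨{
    A := Γ(X, reg a)
    B := Γ(X, reg a⁻¹)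
    D := Γ(X, reg a ⊓ reg a⁻¹)
    crA := inferInstance
    crB := inferInstance
    crD := inferInstance
    alA := inferInstance
    alB := inferInstance
    alD := inferInstance
    alAD := alAD
    alBD := alBD
    tA := tA
    tB := tB
    a := secOf a
    w := secOf a⁻¹
    locA := locA
    locB := locB
    haw := secOf_mul ha0
    jA := hU.fromSpec
    jB := hV.fromSpec
    oA := inferInstance
    oB := inferInstance
    jA_c := fromSpec_str K hU
    jB_c := fromSpec_str K hV
    pb := isPullback_fromSpec hU hV hUV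
    cover := ?_
    eD := ι.comp (gF K (reg a ⊓ reg a⁻¹))
    injA := ?_
    injB := ?_
    eB_mem := heB_mem
    approx := happrox
    d := d
    hd := hd
    ea_mem := hea_mem
    ea_coeff := hea_coeff
    eB_dvd := ?_
    finA := finite_aeval K hnc
    finB := finite_aeval K (inv_nonconst K hnc)
    H0 := ?_
    H1 := ?_
    diag := diag_sec K hU
    diagB := diag_sec K hV
    ded := fun κ _ _ => ded_sec K hU κ
    aug := { evS K ε.1 (reg a⁻¹) hxV with commutes' := fun c => evS_kSec K ε.1 hεK _ hxV c }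
    aug_eq := ?_
    ε_eq := point_factor ε.1 hV hxV }⟩
  · intro x
    rcases mem_or_inv_mem K x a with h | h
    · left
      rw [hU.range_fromSpec]
      exact h
    · right
      rw [hV.range_fromSpec]
      exact h
  · intro x y hxy
    have h1 : gF K (reg a) x = gF K (reg a) y := by
      rw [← hgA, ← hgA]
      exact ι.toRingHom.injective hxy
    exact gF_injective K _ h1
  · intro x y hxy
    have h1 : gF K (reg a⁻¹) x = gF K (reg a⁻¹) y := by
      rw [← hgB, ← hgB]
      exact ι.toRingHom.injective hxy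
    exact gF_injective K _ h1
  · intro b hb
    rw [AlgHom.comp_apply, hgB] at hb
    have h1 : gF K (reg a⁻¹) b * a ∈ stk X x₀ := by
      rw [← hι, map_mul]
      have h2 := mul_mem_LV hb had
      rwa [add_neg_cancel] at h2
    obtain ⟨s, hs'⟩ := exists_section_of_forall_mem_stk (U := reg a⁻¹)
      (f := gF K (reg a⁻¹) b * a) (fun x hx => by
        by_cases hxx : x = x₀
        · rw [hxx]; exact h1
        · exact mul_mem (germ_mem_stk hx b) ((ha x).2 hxx))
    refine ⟨s, ?_⟩
    apply gF_injective K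
    rw [map_mul, hgw, gF_apply K _ s, hs', mul_comm, mul_assoc, mul_inv_cancel₀ ha0, mul_one]
  · intro x hx
    rw [AlgHom.comp_apply, hgA, hι] at hx
    have h1 : gF K (reg a) x ∈ sec K (⊤ : X.Opens) := by
      intro y _
      by_cases hy : y = x₀
      · rw [hy]; exact hx
      · exact germ_mem_stk ((ha y).2 hy) x
    rw [sec_top_eq_bot K X, Algebra.mem_bot] at h1
    obtain ⟨r, hr⟩ := h1
    refine ⟨r, gF_injective K _ ?_⟩
    rw [AlgHom.commutes, hr]
  · exact GB.finite_quot (secOf a) (secOf a⁻¹) (secOf_mul ha0) _ heB_mem happrox d hd hea_mem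
      hea_coeff (finite_aeval K (inv_nonconst K hnc))
  · intro b
    rw [AlgHom.comp_apply, hgB]
    refine (coeff_zero_eq K hι (germ_mem_stk hxV b) ?_).symm
    intro h
    set c := evS K ε.1 (reg a⁻¹) hxV b with hc
    have h1 : evS K ε.1 (reg a⁻¹) hxV (b - algebraMap K Γ(X, reg a⁻¹) c) = 0 := by
      rw [map_sub, ← hc, algebraMap_sec, evS_kSec K ε.1 hεK, sub_self]
    refine (evS_ne_zero_iff K ε.1 (reg a⁻¹) hxV _).2 ?_ h1
    have h2 : X.germToFunctionField (reg a⁻¹) (b - algebraMap K Γ(X, reg a⁻¹) c) =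
        gF K (reg a⁻¹) b - algebraMap K X.functionField c := by
      rw [← gF_apply K, map_sub, AlgHom.commutes]
    rw [mem_basicOpen_iff _ hxV, h2]
    exact h

end

/-- **The geometric datum of a pointed smooth complete curve.** -/
theorem geo (k : Type u) [Field k] [IsAlgClosed k] {C : Scheme.{u}}
    (c : C ⟶ Spec (CommRingCat.of k)) [hp : IsProper c] [hs : SmoothOfRelativeDimension 1 c]
    [IsIntegral C] (ε : SchemeHomOver (𝟙 (Spec (CommRingCat.of k))) c) : Nonempty (Geo c ε) := by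
  letI : KSch k C := ⟨c⟩
  haveI : IsProper (pK k C) := hp
  haveI : SmoothOfRelativeDimension 1 (pK k C) := hs
  exact exists_geo k ε

end

end Fermat.Agent.J25.G
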