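import Mathlib
import Fermat.Agent.J25.Lat3

set_option autoImplicit false
set_option linter.style.haveILetI false
set_option linter.unusedSectionVars false

/-!
# Sections of invertible lattices and their divisors
-/

namespace Fermat.Agent.J25.Lat

attribute [-instance] HahnSeries.powerSeriesAlgebra

open Module HahnSeries

universe u

variable {K : Type u} [Field K] {A : Type u} [CommRing A] [Algebra K A]
  [Algebra A (LaurentSeries K)] [IsScalarTower K A (LaurentSeries K)]

theorem eq_of_rd_eq_zero {V : Type*} [AddCommGroup V] [Module K V] {X Y : Submodule K V}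
    (h : X ≤ Y) (hf : fd X Y) (h0 : rd X Y = 0) : X = Y := by
  haveI : FiniteDimensional K (Y.map X.mkQ) := hf
  have h1 : Y.map X.mkQ = ⊥ := Submodule.finrank_eq_zero.1 h0
  refine le_antisymm h fun y hy => ?_
  have h2 : X.mkQ y ∈ Y.map X.mkQ := ⟨y, hy, rfl⟩
  rw [h1, Submodule.mem_bot, Submodule.mkQ_apply, Submodule.Quotient.mk_eq_zero] at h2
  exact h2

variable (hinj : Function.Injective (algebraMap A (LaurentSeries K)))

include hinj

/-- principal ideals have finite codimension -/
theorem finite_quot (h1 : Ad (LV K 0) (rs (1 : Submodule A (LaurentSeries K))))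
    {b : A} (hb : b ≠ 0) : Module.Finite K (A ⧸ Ideal.span {b}) := by
  have hs : algebraMap A (LaurentSeries K) b ≠ 0 := fun h => hb (hinj (by rw [h, map_zero]))
  have hle : rs (sp A (algebraMap A (LaurentSeries K) b)) ≤
      rs (1 : Submodule A (LaurentSeries K)) :=
    rs_mono (sp_le_iff.2 (Submodule.mem_one.2 ⟨b, rfl⟩))
  have h2 : fd (rs (sp A (algebraMap A (LaurentSeries K) b)))
      (rs (1 : Submodule A (LaurentSeries K))) := (ad_sp h1 hs).fd_of_le hle h1
  -- the quotient is finite dimensional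
  let g : A →ₗ[K] (LaurentSeries K ⧸ rs (sp A (algebraMap A (LaurentSeries K) b))) :=
    (rs (sp A (algebraMap A (LaurentSeries K) b))).mkQ.comp
      ((Algebra.linearMap A (LaurentSeries K)).restrictScalars K)
  have hker : LinearMap.ker g = (Ideal.span {b}).restrictScalars K := by
    ext a
    rw [LinearMap.mem_ker, Submodule.restrictScalars_mem, Ideal.mem_span_singleton]
    change (Submodule.Quotient.mk (algebraMap A (LaurentSeries K) a) : _ ⧸ _) = 0 ↔ _
    rw [Submodule.Quotient.mk_eq_zero, mem_rs, sp, Submodule.mem_span_singleton]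
    constructor
    · rintro ⟨c, hc⟩
      refine ⟨c, hinj ?_⟩
      rw [← hc, map_mul, Algebra.smul_def, mul_comm]
    · rintro ⟨c, rfl⟩
      exact ⟨c, by rw [map_mul, Algebra.smul_def, mul_comm]⟩
  have hrange : LinearMap.range g ≤ (rs (1 : Submodule A (LaurentSeries K))).map
      (rs (sp A (algebraMap A (LaurentSeries K) b))).mkQ := by
    rintro _ ⟨a, rfl⟩
    exact ⟨algebraMap A (LaurentSeries K) a, Submodule.mem_one.2 ⟨a, rfl⟩, rfl⟩
  haveI : FiniteDimensional K ((rs (1 : Submodule A (LaurentSeries K))).map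
      (rs (sp A (algebraMap A (LaurentSeries K) b))).mkQ) := h2
  haveI : FiniteDimensional K (LinearMap.range g) := fd_mono hrange
  haveI : FiniteDimensional K (A ⧸ LinearMap.ker g) :=
    Module.Finite.equiv g.quotKerEquivRange.symm
  rw [hker] at this
  exact this

/-- proper nonzero ideals have zeros -/
theorem exists_zero [IsAlgClosed K] (h1 : Ad (LV K 0) (rs (1 : Submodule A (LaurentSeries K))))
    {I : Ideal A} (hI : I ≠ ⊤) {b : A} (hb : b ≠ 0) (hbI : b ∈ I) :
    ∃ φ : A →ₐ[K] K, ∀ a ∈ I, φ a = 0 := by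
  obtain ⟨𝔪, h𝔪, hle⟩ := Ideal.exists_le_maximal I hI
  haveI := finite_quot hinj h1 hb
  have hle2 : Ideal.span {b} ≤ 𝔪 := (Ideal.span_singleton_le_iff_mem 𝔪).2 (hle hbI)
  haveI : Module.Finite K (A ⧸ 𝔪) := Module.Finite.of_surjective
    ((Ideal.Quotient.factorₐ K hle2).toLinearMap) (Ideal.Quotient.factor_surjective hle2)
  letI := Ideal.Quotient.field 𝔪
  haveI : Algebra.IsAlgebraic K (A ⧸ 𝔪) := Algebra.IsAlgebraic.of_finite K _
  let ψ : (A ⧸ 𝔪) →ₐ[K] K := IsAlgClosed.lift
  refine ⟨ψ.comp (Ideal.Quotient.mkₐ K 𝔪), fun a ha => ?_⟩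
  rw [AlgHom.comp_apply, Ideal.Quotient.mkₐ_eq_mk, Ideal.Quotient.eq_zero_iff_mem.2 (hle ha),
    map_zero]

/-- **the divisor of a section** -/
theorem exists_chain [IsAlgClosed K] (h1 : Ad (LV K 0) (rs (1 : Submodule A (LaurentSeries K))))
    (hpp : ∀ φ : A →ₐ[K] K, ∃ U : (Submodule A (LaurentSeries K))ˣ,
      (U : Submodule A (LaurentSeries K)) = pp φ) :
    ∀ (m : ℕ) (L : (Submodule A (LaurentSeries K))ˣ) (s : LaurentSeries K),
      s ∈ (L : Submodule A (LaurentSeries K)) → s ≠ 0 →
      rd (rs (sp A s)) (rs (L : Submodule A (LaurentSeries K))) = m →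
      ∃ φ : Fin m → (A →ₐ[K] K), sp A s = (∏ i, pp (φ i)) * (L : Submodule A (LaurentSeries K)) := by
  intro m
  induction m with
  | zero =>
    intro L s hs hs0 hr
    have hle : rs (sp A s) ≤ rs (L : Submodule A (LaurentSeries K)) := rs_mono (sp_le_iff.2 hs)
    have hf := (ad_sp (n := 0) h1 hs0).fd_of_le hle (ad_unit h1 L)
    refine ⟨Fin.elim0, ?_⟩
    rw [Fin.prod_univ_zero, one_mul]
    exact Submodule.restrictScalars_injective K _ _ (eq_of_rd_eq_zero hle hf hr)
  | succ m ih =>
    intro L s hs hs0 hr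
    have hle : rs (sp A s) ≤ rs (L : Submodule A (LaurentSeries K)) := rs_mono (sp_le_iff.2 hs)
    have hf := (ad_sp (n := 0) h1 hs0).fd_of_le hle (ad_unit h1 L)
    obtain ⟨t, ht, ht0⟩ := unit_exists_ne L⁻¹
    have hone : sp A s * (L⁻¹ : (Submodule A (LaurentSeries K))ˣ) ≤
        (1 : Submodule A (LaurentSeries K)) := by
      rw [← Units.mul_inv L]
      exact mul_le_mul_left (sp_le_iff.2 hs) _
    let I : Ideal A := Submodule.comap (Algebra.linearMap A (LaurentSeries K))
      (sp A s * (L⁻¹ : (Submodule A (LaurentSeries K))ˣ))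
    have hmemI : ∀ a : A, a ∈ I ↔ algebraMap A (LaurentSeries K) a ∈
      sp A s * ((L⁻¹ : (Submodule A (LaurentSeries K))ˣ) : Submodule A (LaurentSeries K)) :=
      fun a => Iff.rfl
    have hst : s * t ∈ sp A s * ((L⁻¹ : (Submodule A (LaurentSeries K))ˣ) :
        Submodule A (LaurentSeries K)) :=
      Submodule.mul_mem_mul (Submodule.mem_span_singleton_self s) ht
    obtain ⟨b, hb⟩ := Submodule.mem_one.1 (hone hst)
    have hb0 : b ≠ 0 := by
      rintro rfl
      rw [map_zero] at hb
      exact mul_ne_zero hs0 ht0 hb.symm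
    have hbI : b ∈ I := by rw [hmemI, hb]; exact hst
    have hItop : I ≠ ⊤ := by
      intro h
      have h2 : (1 : A) ∈ I := h ▸ Submodule.mem_top
      rw [hmemI, map_one] at h2
      have h3 : (L : Submodule A (LaurentSeries K)) ≤ sp A s := by
        intro x hx
        have h4 := Submodule.mul_mem_mul h2 hx
        rwa [one_mul, mul_assoc, Units.inv_mul, mul_one] at h4
      have h5 : rs (sp A s) = rs (L : Submodule A (LaurentSeries K)) := le_antisymm hle h3
      rw [h5, rd, Submodule.mkQ_map_self, finrank_bot] at hr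
      omega
    obtain ⟨φ, hφ⟩ := exists_zero hinj h1 hItop hb0 hbI
    obtain ⟨U, hU⟩ := hpp φ
    have hle2 : sp A s * ((L⁻¹ : (Submodule A (LaurentSeries K))ˣ) :
        Submodule A (LaurentSeries K)) ≤ pp φ := by
      intro x hx
      obtain ⟨a, rfl⟩ := Submodule.mem_one.1 (hone hx)
      exact (alg_mem_pp hinj).2 (hφ a hx)
    have hs' : s ∈ ((U * L : (Submodule A (LaurentSeries K))ˣ) :
        Submodule A (LaurentSeries K)) := by
      rw [Units.val_mul, hU, ← sp_le_iff]
      calc sp A s = sp A s * ((L⁻¹ : (Submodule A (LaurentSeries K))ˣ) :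
          Submodule A (LaurentSeries K)) * L := by rw [mul_assoc, Units.inv_mul, mul_one]
        _ ≤ pp φ * L := mul_le_mul_left hle2 _
    have hle3 : rs (sp A s) ≤ rs ((U * L : (Submodule A (LaurentSeries K))ˣ) :
        Submodule A (LaurentSeries K)) := rs_mono (sp_le_iff.2 hs')
    have hle4 : rs ((U * L : (Submodule A (LaurentSeries K))ˣ) :
        Submodule A (LaurentSeries K)) ≤ rs (L : Submodule A (LaurentSeries K)) := by
      rw [Units.val_mul, hU]
      exact rs_mono (pp_mul_le φ _)
    have h6 := rd_add hle3 hle4 hf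
    have h7 : rd (rs ((U * L : (Submodule A (LaurentSeries K))ˣ) :
        Submodule A (LaurentSeries K))) (rs (L : Submodule A (LaurentSeries K))) = 1 := by
      rw [Units.val_mul, hU]
      exact rd_pp_mul hinj φ L
    rw [h7, hr] at h6
    obtain ⟨φ', hφ'⟩ := ih (U * L) s hs' hs0 (by omega)
    refine ⟨Fin.cons φ φ', ?_⟩
    rw [Fin.prod_univ_succ, Fin.cons_zero, hφ', Units.val_mul, hU]
    simp only [Fin.cons_succ]
    rw [mul_comm (pp φ) (∏ i, pp (φ' i)), mul_assoc]

end Fermat.Agent.J25.Lat
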