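import Mathlib
import Fermat.Agent.J25.Pts1
import Fermat.Agent.J25.Lat4

set_option autoImplicit false
set_option linter.style.haveILetI false
set_option linter.unusedSectionVars false

/-!
# Lattices of degree zero and sums of points
-/

namespace Fermat.Agent.J25.Lat

attribute [-instance] HahnSeries.powerSeriesAlgebra

open Module HahnSeries

universe u

variable {K : Type u} [Field K] {A : Type u} [CommRing A] [Algebra K A]
  [Algebra A (LaurentSeries K)] [IsScalarTower K A (LaurentSeries K)]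

/-- multiplication by a series of nonnegative order -/
theorem sp_sup_eq_top {s : LaurentSeries K} (hs : s ≠ 0) {m n : ℤ} (hmn : m + s.order = n)
    {L : Submodule A (LaurentSeries K)} (h : rs L ⊔ LV K m = ⊤) : rs (sp A s * L) ⊔ LV K n = ⊤ := by
  rw [← hmn, rs_sp_mul hs, ← map_mulE_LV s hs, ← Submodule.map_sup, h, Submodule.map_top,
    LinearEquiv.range]

/-- **uniform vanishing** for invertible lattices of degree zero -/
theorem sup_eq_top_of_deg_zero
    (h1 : Ad (LV K 0) (rs (1 : Submodule A (LaurentSeries K)))) {N1 : ℤ}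
    (hN1 : rs (1 : Submodule A (LaurentSeries K)) ⊔ LV K N1 = ⊤) {g : ℕ}
    (hg : 1 ≤ chi (LV K 0) (rs (1 : Submodule A (LaurentSeries K))) + g)
    (M : (Submodule A (LaurentSeries K))ˣ)
    (hM : chi (LV K 0) (rs (M : Submodule A (LaurentSeries K))) =
      chi (LV K 0) (rs (1 : Submodule A (LaurentSeries K)))) {n : ℤ} (hn : n ≤ N1 - g) :
    rs (M : Submodule A (LaurentSeries K)) ⊔ LV K n = ⊤ := by
  have h2 := chi_shift (m := -(g : ℤ)) (ad_unit (n := 0) h1 M)
  rw [hM, zero_sub, neg_neg] at h2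
  obtain ⟨s, hs, hs0⟩ : ∃ s ∈ (rs (M : Submodule A (LaurentSeries K)) ⊓ LV K (-(g : ℤ)) :
      Submodule K _), s ≠ 0 := by
    by_contra hcon
    push Not at hcon
    have h5 : (rs (M : Submodule A (LaurentSeries K)) ⊓ LV K (-(g : ℤ)) : Submodule K _) = ⊥ := by
      rw [Submodule.eq_bot_iff]
      exact hcon
    rw [chi, h5, finrank_bot] at h2
    omega
  have hord : -(g : ℤ) ≤ s.order := by
    have h3 := mem_LV_iff.1 hs.2
    exact h3.resolve_left hs0
  have h4 : rs (1 : Submodule A (LaurentSeries K)) ⊔ LV K (n - s.order) = ⊤ := by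
    rw [eq_top_iff, ← hN1]
    exact sup_le_sup_left (LV_anti (by omega)) _
  have h5 := sp_sup_eq_top hs0 (n := n) (sub_add_cancel n s.order) h4
  rw [mul_one] at h5
  have h6 : sp A s ≤ (M : Submodule A (LaurentSeries K)) := sp_le_iff.2 hs.1
  rw [eq_top_iff, ← h5]
  exact sup_le_sup_right (rs_mono h6) _

/-- a section with value one at infinity -/
theorem exists_section {L : Submodule A (LaurentSeries K)} (h : rs L ⊔ LV K 1 = ⊤) :
    ∃ s ∈ L, s ≠ 0 ∧ s ∈ LV K 0 ∧ s.coeff 0 = 1 ∧ s.order = 0 := by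
  have h1 : (1 : LaurentSeries K) ∈ rs L ⊔ LV K 1 := by rw [h]; exact Submodule.mem_top
  obtain ⟨s, hs, t, ht, hst⟩ := Submodule.mem_sup.1 h1
  have hs1 : s = 1 - t := by rw [← hst, add_sub_cancel_right]
  have hc : s.coeff 0 = 1 := by
    rw [hs1, HahnSeries.coeff_sub, ht 0 (by norm_num), sub_zero, ← HahnSeries.single_zero_one,
      HahnSeries.coeff_single_same]
  have hV : s ∈ LV K 0 := by
    rw [hs1]
    exact (LV K 0).sub_mem one_mem_LV (LV_anti (by norm_num) ht)
  have hs0 : s ≠ 0 := by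
    rintro rfl
    rw [HahnSeries.coeff_zero] at hc
    exact zero_ne_one hc
  refine ⟨s, hs, hs0, hV, hc, le_antisymm ?_ ((mem_LV_iff.1 hV).resolve_left hs0)⟩
  exact HahnSeries.order_le_of_coeff_ne_zero (by rw [hc]; exact one_ne_zero)

variable (hinj : Function.Injective (algebraMap A (LaurentSeries K)))
include hinj

/-- **invertible lattices of degree zero and sums of points** -/
theorem exists_points [IsAlgClosed K]
    (h1 : Ad (LV K 0) (rs (1 : Submodule A (LaurentSeries K))))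
    (hpp : ∀ φ : A →ₐ[K] K, ∃ U : (Submodule A (LaurentSeries K))ˣ,
      (U : Submodule A (LaurentSeries K)) = pp φ) {N1 : ℤ}
    (hN1 : rs (1 : Submodule A (LaurentSeries K)) ⊔ LV K N1 = ⊤) {g : ℕ}
    (hg : 1 ≤ chi (LV K 0) (rs (1 : Submodule A (LaurentSeries K))) + g)
    {w : LaurentSeries K} (hw : w ≠ 0) {d : ℕ} (hd : w.order = d) {n : ℕ}
    (hn : 1 - (n * d : ℕ) ≤ N1 - g) (M : (Submodule A (LaurentSeries K))ˣ)
    (hM : chi (LV K 1) (rs (M : Submodule A (LaurentSeries K))) =
      chi (LV K 1) (rs (1 : Submodule A (LaurentSeries K)))) :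
    ∃ (φ : Fin (n * d) → (A →ₐ[K] K)) (s : LaurentSeries K), s ≠ 0 ∧ s ∈ LV K 0 ∧
      s.coeff 0 = 1 ∧
      sp A s = (∏ i, pp (φ i)) * (((spu A w hw) ^ n * M : (Submodule A (LaurentSeries K))ˣ) :
        Submodule A (LaurentSeries K)) := by
  have hM0 : chi (LV K 0) (rs (M : Submodule A (LaurentSeries K))) =
      chi (LV K 0) (rs (1 : Submodule A (LaurentSeries K))) := by
    have h2 := chi_shift (m := 1) (ad_unit (n := 0) h1 M)
    have h3 := chi_shift (m := 1) h1
    omega
  have h2 := sup_eq_top_of_deg_zero h1 hN1 hg M hM0 hn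
  have hwn : w ^ n ≠ 0 := pow_ne_zero n hw
  have hord : (w ^ n).order = (n * d : ℕ) := by
    rw [order_pow', hd]
    push_cast
    ring
  have h3 : rs (((spu A w hw) ^ n * M : (Submodule A (LaurentSeries K))ˣ) :
      Submodule A (LaurentSeries K)) ⊔ LV K 1 = ⊤ := by
    rw [rs_spu_pow_mul, ← rs_sp_mul]
    exact sp_sup_eq_top hwn (by rw [hord]; ring) h2
  obtain ⟨s, hs, hs0, hs1, hs2, hs3⟩ := exists_section h3
  have h4 : chi (LV K 1) (rs (((spu A w hw) ^ n * M : (Submodule A (LaurentSeries K))ˣ) :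
      Submodule A (LaurentSeries K))) = chi (LV K 1) (rs (1 : Submodule A (LaurentSeries K))) +
        (n * d : ℕ) := by
    rw [rs_spu_pow_mul, chi_mul (ad_unit h1 M), hM, hord]
  have h5 : chi (LV K 1) (rs (sp A s)) =
      chi (LV K 1) (rs (1 : Submodule A (LaurentSeries K))) := by
    have h6 := chi_sp_mul (n := 1) h1.shift hs0
    rwa [mul_one, hs3, add_zero] at h6
  have hle : rs (sp A s) ≤ rs (((spu A w hw) ^ n * M : (Submodule A (LaurentSeries K))ˣ) :
      Submodule A (LaurentSeries K)) := rs_mono (sp_le_iff.2 hs)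
  have h6 := chi_add (P := LV K 1) hle (ad_sp h1 hs0) (ad_unit h1 _)
  rw [h4, h5] at h6
  obtain ⟨φ, hφ⟩ := exists_chain hinj h1 hpp (n * d) _ s hs hs0 (by omega)
  exact ⟨φ, s, hs0, hs1, hs2, hφ⟩

end Fermat.Agent.J25.Lat
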