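import Mathlib
import Fermat.Agent.J25.Pts2
import Fermat.Agent.J25.PrG
import Fermat.Agent.J25.Hub2

set_option autoImplicit false
set_option linter.style.haveILetI false
set_option linter.unusedSectionVars false

/-!
# Lattices of degree zero and sums of points: elements of `G(K)`
-/

noncomputable section

namespace Fermat.Agent.J25

attribute [-instance] HahnSeries.powerSeriesAlgebra

universe u

section

variable {k : Type u} [Field k] {A : Type u} [CommRing A] [Algebra k A]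
  {e : A →ₐ[k] LaurentSeries k} {a : A} {K : Type u} [Field K] [Algebra k K]

theorem Pts.grp {Γ : Type*} [CommGroup Γ] (X Y M : Γ) (n : ℕ) :
    X * (Y⁻¹ ^ n * M) * (Y ^ n * X⁻¹) = M := by
  rw [inv_pow]
  have e8 : X * ((Y ^ n)⁻¹ * M) * (Y ^ n * X⁻¹) = M * (X * X⁻¹) * ((Y ^ n)⁻¹ * Y ^ n) := by
    ac_rfl
  rw [e8, mul_inv_cancel, inv_mul_cancel, mul_one, mul_one]

theorem Pts.hinj : Function.Injective (algebraMap (AR e K) (LaurentSeries K)) :=
  Subtype.val_injective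

theorem Pts.pp_phiX (h : MxH e a) (x : A →ₐ[k] K) : Lat.pp (phiX h x) =
    ((mx h x : (Submodule (AR e K) (LaurentSeries K))ˣ) :
      Submodule (AR e K) (LaurentSeries K)) := (mx_eq_map h x).symm

theorem Pts.order_ex {d : ℕ} (h1 : e a ∈ LV k (-(d : ℤ)))
    (h2 : (e a).coeff (-(d : ℤ)) ≠ 0) : (ex e K a).order = -(d : ℤ) ∧ ex e K a ≠ 0 := by
  have hc : (ex e K a).coeff (-(d : ℤ)) ≠ 0 := by
    rw [ex_coeff]
    exact fun h => h2 ((algebraMap k K).injective (by rw [h, map_zero]))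
  have h0 : ex e K a ≠ 0 := by
    intro h
    rw [h, HahnSeries.coeff_zero] at hc
    exact hc rfl
  have hV : ex e K a ∈ LV K (-(d : ℤ)) := by
    intro i hi
    rw [ex_coeff, h1 i hi, map_zero]
  exact ⟨le_antisymm (HahnSeries.order_le_of_coeff_ne_zero hc)
    ((Lat.mem_LV_iff.1 hV).resolve_left h0), h0⟩

theorem Pts.isDegZero_iff {M : G e (R := K) a} : IsDegZero M ↔
    Lat.chi (LV K 1) (Lat.rs ((M : (Submodule (AR e K) (LaurentSeries K))ˣ) :
      Submodule (AR e K) (LaurentSeries K))) =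
    Lat.chi (LV K 1) (Lat.rs (1 : Submodule (AR e K) (LaurentSeries K))) := Iff.rfl

theorem Pts.coe_aG_inv (h : MxH e a) (hw : (ex e K a)⁻¹ ≠ 0) :
    (((aG K h)⁻¹ : G e (R := K) a) : (Submodule (AR e K) (LaurentSeries K))ˣ) =
      Lat.spu (AR e K) (ex e K a)⁻¹ hw := by
  have h0 : ex e K a ≠ 0 := fun h0 => hw (by rw [h0, inv_zero])
  have h1 : ((aG K h : G e (R := K) a) : (Submodule (AR e K) (LaurentSeries K))ˣ) *
      Lat.spu (AR e K) (ex e K a)⁻¹ hw = 1 := by
    apply Units.ext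
    rw [Units.val_mul, Units.val_one, aG, prG_val, Lat.coe_spu]
    change Submodule.span (AR e K) {((aUnit K h : (LaurentSeries K)ˣ) : LaurentSeries K)} *
      Submodule.span (AR e K) {(ex e K a)⁻¹} = 1
    rw [coe_aUnit]
    exact (Lat.sp_mul_sp _ _).trans (by rw [mul_inv_cancel₀ h0, Lat.sp_one])
  rw [InvMemClass.coe_inv, inv_eq_of_mul_eq_one_right h1]

theorem Pts.sub_spu_mul {s : LaurentSeries K} (hs : s ≠ 0)
    (N : (Submodule (AR e K) (LaurentSeries K))ˣ) :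
    Lat.rs ((Lat.spu (AR e K) s hs * N : (Submodule (AR e K) (LaurentSeries K))ˣ) :
      Submodule (AR e K) (LaurentSeries K)) =
    (Lat.rs (N : Submodule (AR e K) (LaurentSeries K))).map
      (Lat.mulE s hs : LaurentSeries K →ₗ[K] LaurentSeries K) := by
  rw [Units.val_mul, Lat.coe_spu, Lat.rs_sp_mul]

/-- **(3b)**: an element of `G(K)` of degree zero is, up to a unit series, `aⁿ ∏ 𝔪_{xᵢ}⁻¹`. -/
theorem exists_points_G [IsAlgClosed K] (h : MxH e a) {d : ℕ} (h1 : e a ∈ LV k (-(d : ℤ)))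
    (h2 : (e a).coeff (-(d : ℤ)) ≠ 0)
    (hA : Lat.Ad (LV K 0) (Lat.rs (1 : Submodule (AR e K) (LaurentSeries K)))) {N1 : ℤ}
    (hN1 : Lat.rs (1 : Submodule (AR e K) (LaurentSeries K)) ⊔ LV K N1 = ⊤) {g : ℕ}
    (hg : 1 ≤ Lat.chi (LV K 0) (Lat.rs (1 : Submodule (AR e K) (LaurentSeries K))) + g) {n : ℕ}
    (hn : 1 - (n * d : ℕ) ≤ N1 - g) (M : G e (R := K) a) (hM : IsDegZero M) :
    ∃ (x : Fin (n * d) → (A →ₐ[k] K)) (u : LaurentSeries K) (hu : IsU u),
      G.sub M = (G.sub (aG K h ^ n * (∏ i, mx h (x i))⁻¹)).map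
        (hu.equiv : LaurentSeries K →ₗ[K] LaurentSeries K) := by
  obtain ⟨h3, h4⟩ := Pts.order_ex (K := K) h1 h2
  have hw : (ex e K a)⁻¹ ≠ 0 := inv_ne_zero h4
  have hwd : ((ex e K a)⁻¹).order = d := by
    have h5 := HahnSeries.order_mul h4 hw
    rw [mul_inv_cancel₀ h4, HahnSeries.order_one, h3] at h5
    omega
  obtain ⟨φ, s, hs0, hs1, hs2, hs⟩ := Lat.exists_points (A := AR e K) Pts.hinj hA
    (fun φ => by
      obtain ⟨x, rfl⟩ := exists_eq_phiX h φ
      exact ⟨_, (Pts.pp_phiX h x).symm⟩) hN1 hg hw hwd hn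
    (M : (Submodule (AR e K) (LaurentSeries K))ˣ) (Pts.isDegZero_iff.1 hM)
  choose x hx using fun i => exists_eq_phiX h (φ i)
  have e1 : Lat.spu (AR e K) s hs0 = (((∏ i, mx h (x i)) * ((aG K h)⁻¹ ^ n * M) :
      G e (R := K) a) : (Submodule (AR e K) (LaurentSeries K))ˣ) := by
    have e0 : ((∏ i, mx h (x i) : G e (R := K) a) : (Submodule (AR e K) (LaurentSeries K))ˣ).val =
        ∏ i, Lat.pp (φ i) := by
      have e00 := map_prod ((Units.coeHom (Submodule (AR e K) (LaurentSeries K))).comp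
        (G e (R := K) a).subtype) (fun i => mx h (x i)) Finset.univ
      refine e00.trans (Finset.prod_congr rfl fun i _ => ?_)
      rw [hx i, Pts.pp_phiX]
      rfl
    have e6 : Lat.spu (AR e K) (ex e K a)⁻¹ hw ^ n * (M : (Submodule (AR e K) (LaurentSeries K))ˣ) =
        (((aG K h)⁻¹ ^ n * M : G e (R := K) a) : (Submodule (AR e K) (LaurentSeries K))ˣ) := by
      rw [Subgroup.coe_mul, Subgroup.coe_pow, Pts.coe_aG_inv h hw]
    apply Units.ext
    rw [Lat.coe_spu, hs, e6, ← e0]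
    rfl
  have e2 : ((M : G e (R := K) a) : (Submodule (AR e K) (LaurentSeries K))ˣ) =
      Lat.spu (AR e K) s hs0 * ((aG K h ^ n * (∏ i, mx h (x i))⁻¹ : G e (R := K) a) :
        (Submodule (AR e K) (LaurentSeries K))ˣ) := by
    rw [e1, ← Subgroup.coe_mul]
    refine congrArg Subtype.val ?_
    exact (Pts.grp (∏ i, mx h (x i)) (aG K h) M n).symm
  refine ⟨x, s, ⟨hs1, by rw [hs2]; exact isUnit_one⟩, ?_⟩
  have e3 : G.sub M = Lat.rs (((M : G e (R := K) a) :
    (Submodule (AR e K) (LaurentSeries K))ˣ) : Submodule (AR e K) (LaurentSeries K)) := rfl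
  rw [e3, e2, Pts.sub_spu_mul]
  rfl

end

end Fermat.Agent.J25
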