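import Mathlib
import Fermat.Agent.J25.Pts3

set_option autoImplicit false
set_option linter.style.haveILetI false
set_option linter.unusedSectionVars false

/-!
# Lattices of degree zero and sums of points: the geometric case
-/

noncomputable section

namespace Fermat.Agent.J25

attribute [-instance] HahnSeries.powerSeriesAlgebra

universe u

open CategoryTheory AlgebraicGeometry NeronModelInfra TensorProduct

variable {k : Type u} [Field k] {C : Scheme.{u}} {c : C ⟶ Spec (CommRingCat.of k)}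
    {ε : SchemeHomOver (𝟙 (Spec (CommRingCat.of k))) c}

theorem Pts.ex_self {A : Type u} [CommRing A] [Algebra k A] (e : A →ₐ[k] LaurentSeries k) (x : A) :
    ex e k x = e x := by
  ext i
  rw [ex_coeff]
  rfl

theorem Pts.mem_AR_self {A : Type u} [CommRing A] [Algebra k A] {e : A →ₐ[k] LaurentSeries k}
    {y : LaurentSeries k} : y ∈ AR e k ↔ ∃ x : A, e x = y := by
  constructor
  · rintro ⟨t, rfl⟩
    induction t using TensorProduct.induction_on with
    | zero => exact ⟨0, by rw [map_zero, map_zero]⟩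
    | tmul r x =>
      refine ⟨r • x, ?_⟩
      change e (r • x) = exR e k (r ⊗ₜ x)
      rw [exR_tmul, Pts.ex_self, map_smul]
    | add s t hs ht =>
      obtain ⟨x, hx⟩ := hs
      obtain ⟨y, hy⟩ := ht
      exact ⟨x + y, by rw [map_add, map_add, hx, hy]⟩
  · rintro ⟨x, rfl⟩
    rw [← Pts.ex_self e x]
    exact ex_mem_AR e k x

/-- finiteness for the affine curve -/
theorem Geo.ad_self (g : Geo c ε) :
    Lat.Ad (LV k 0) (Lat.rs (1 : Submodule (AR g.e k) (LaurentSeries k))) := by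
  have hmem : ∀ y, y ∈ Lat.rs (1 : Submodule (AR g.e k) (LaurentSeries k)) ↔
      ∃ x : g.A, g.e x = y := by
    intro y
    rw [Lat.mem_rs, Submodule.mem_one, ← Pts.mem_AR_self]
    exact ⟨fun ⟨z, hz⟩ => hz ▸ z.2, fun h => ⟨⟨y, h⟩, rfl⟩⟩
  refine ⟨?_, ?_⟩
  · have hle : Lat.rs (1 : Submodule (AR g.e k) (LaurentSeries k)) ⊓ LV k 0 ≤
        Submodule.span k {(1 : LaurentSeries k)} := by
      rintro y ⟨h1, h2⟩
      obtain ⟨x, rfl⟩ := (hmem y).1 h1
      obtain ⟨r, rfl⟩ := g.H0 x h2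
      rw [AlgHom.commutes, Algebra.algebraMap_eq_smul_one]
      exact Submodule.smul_mem _ _ (Submodule.mem_span_singleton_self _)
    exact Lat.fd_mono hle
  · haveI := g.H1
    have hle : LinearMap.range (g.eD.comp (IsScalarTower.toAlgHom k g.A g.D)).toLinearMap ⊔
        LV k 1 ≤ Lat.rs (1 : Submodule (AR g.e k) (LaurentSeries k)) ⊔ LV k 0 := by
      refine sup_le_sup ?_ (LV_mono (by norm_num))
      rintro _ ⟨x, rfl⟩
      exact (hmem _).2 ⟨x, rfl⟩
    exact Module.Finite.of_surjective (Submodule.factor hle) (Submodule.factor_surjective hle)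

/-- **(3b) over the base field** -/
theorem Geo.exists_points_self [IsAlgClosed k] (g : Geo c ε) :
    ∃ n0 : ℕ, ∀ n ≥ n0, ∀ M : G g.e (R := k) g.a, IsDegZero M →
      ∃ (x : Fin (n * g.d) → (g.A →ₐ[k] k)) (u : LaurentSeries k) (hu : IsU u),
        G.sub M = (G.sub (aG k g.mxH ^ n * (∏ i, mx g.mxH (x i))⁻¹)).map
          (hu.equiv : LaurentSeries k →ₗ[k] LaurentSeries k) := by
  obtain ⟨N1, hN1⟩ := Lat.exists_sup_eq_top g.ad_self
  obtain ⟨b, hb⟩ : ∃ b : ℕ, 1 ≤ Lat.chi (LV k 0)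
      (Lat.rs (1 : Submodule (AR g.e k) (LaurentSeries k))) + b :=
    ⟨(1 - Lat.chi (LV k 0) (Lat.rs (1 : Submodule (AR g.e k) (LaurentSeries k)))).toNat, by
      have := Int.self_le_toNat
        (1 - Lat.chi (LV k 0) (Lat.rs (1 : Submodule (AR g.e k) (LaurentSeries k))))
      omega⟩
  refine ⟨(1 - (N1 - b)).toNat, fun n hn M hM => ?_⟩
  refine exists_points_G g.mxH g.ea_mem (by
    change (g.eD (algebraMap g.A g.D g.a)).coeff (-(g.d : ℤ)) ≠ 0
    rw [g.ea_coeff]; exact one_ne_zero) g.ad_self (hN1 N1 le_rfl) hb ?_ M hM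
  have h1 := Int.self_le_toNat (1 - (N1 - (b : ℤ)))
  have h2 : n ≤ n * g.d := Nat.le_mul_of_pos_right n g.hd
  omega

/-- **(3b) in terms of classes** -/
theorem PicData.h3b [IsAlgClosed k] {g : Geo c ε} (D : PicData g) :
    ∃ (N : ℕ) (η : G g.e (R := k) g.a), ∀ M : G g.e (R := k) g.a, IsDegZero M →
      ∃ y : Fin N → (g.A →ₐ[k] k),
        D.toPic k M = D.toPic k (η * ∏ i, (mx g.mxH (y i))⁻¹) := by
  obtain ⟨n, hn⟩ := g.exists_points_self
  refine ⟨n * g.d, aG k g.mxH ^ n, fun M hM => ?_⟩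
  obtain ⟨x, u, hu, h⟩ := hn n le_rfl M hM
  refine ⟨x, ?_⟩
  have e1 : D.toPic k M = D.toPic k (aG k g.mxH ^ n * (∏ i, mx g.mxH (x i))⁻¹) :=
    (D.toPic_eq_iff _ _).2 ⟨u, hu, h⟩
  rw [e1]
  refine congrArg (fun z => D.toPic k (aG k g.mxH ^ n * z)) ?_
  exact (Finset.prod_inv_distrib (fun i => mx g.mxH (x i))).symm

end Fermat.Agent.J25
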