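import Fermat.Agent.H02J.Inv8
import Fermat.Agent.J25.Hub2

/-!
# Normalisation of lattices: the chart of the relative Picard functor (7r-1)
-/

set_option autoImplicit false

noncomputable section

namespace Fermat.Agent.J25.CN

attribute [-instance] HahnSeries.powerSeriesAlgebra

open HahnSeries Function Polynomial AlgebraicGeometry CategoryTheory CategoryTheory.Limits
open scoped TensorProduct
open NeronModelInfra AlgebraicGeometry.RelPicard

universe u

section alg

variable {k : Type u} [Field k] {A : Type u} [CommRing A] [Algebra k A]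
  {e : A →ₐ[k] LaurentSeries k} {R : Type u} [CommRing R] [Algebra k R]
  {S : Type u} [CommRing S] [Algebra k S] {a : A}

/-- a series congruent to `1` is an invertible series -/
theorem isU_of_sub {s : LaurentSeries R} (hs : s - 1 ∈ LV R 1) : IsU s := by
  constructor
  · have h := add_mem (LV_mono (by norm_num) hs : s - 1 ∈ LV R 0) (one_mem_LV (R := R))
    rwa [sub_add_cancel] at h
  · have h := hs 0 (by norm_num)
    rw [HahnSeries.coeff_sub, HahnSeries.coeff_one, if_pos rfl, sub_eq_zero] at h
    rw [h]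
    exact isUnit_one

/-- the normalised section of a lattice complementary to `z R[[z]]` -/
theorem exists_sec {N : Submodule R (LaurentSeries R)} (hN : IsCompl N (LV R 1)) :
    ∃ s ∈ N, s - 1 ∈ LV R 1 := by
  have h : (1 : LaurentSeries R) ∈ N ⊔ LV R 1 := by
    rw [hN.sup_eq_top]
    exact Submodule.mem_top
  obtain ⟨s, hs, t, ht, hst⟩ := Submodule.mem_sup.1 h
  refine ⟨s, hs, ?_⟩
  rw [← hst, sub_add_cancel_left]
  exact neg_mem ht

variable (N : G e (R := R) a) (hN : IsCompl (G.sub N) (LV R 1))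

/-- the normalising series `s ∈ N`, `s = 1 + ...` -/
def nser : LaurentSeries R := (exists_sec hN).choose

theorem nser_mem : nser N hN ∈ G.sub N := (exists_sec hN).choose_spec.1

theorem nser_sub : nser N hN - 1 ∈ LV R 1 := (exists_sec hN).choose_spec.2

theorem nser_isU : IsU (nser N hN) := isU_of_sub (nser_sub N hN)

/-- the inverse of the normalising series -/
def ninv : LaurentSeries R := (nser_isU N hN).exists_inv.choose

theorem ninv_isU : IsU (ninv N hN) := (nser_isU N hN).exists_inv.choose_spec.1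

theorem nser_mul_ninv : nser N hN * ninv N hN = 1 := (nser_isU N hN).exists_inv.choose_spec.2

/-- **(N1)** the normalisation `s⁻¹ N` of `N`, a point of the chart -/
def normW : WPt e R where
  M := (G.sub N).map ((ninv_isU N hN).equiv : LaurentSeries R →ₗ[R] LaurentSeries R)
  stab x m hm := by
    obtain ⟨n, hn, rfl⟩ := hm
    refine ⟨ex e R x * n, G.smul_mem (ex_mem_AR e R x) hn, ?_⟩
    change ninv N hN * (ex e R x * n) = ex e R x * (ninv N hN * n)
    ring
  one_mem := ⟨nser N hN, nser_mem N hN, by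
    change ninv N hN * nser N hN = 1
    rw [mul_comm, nser_mul_ninv]⟩
  compl := ((ninv_isU N hN).isCompl_iff 1 _).2 hN

theorem mem_normW {x : LaurentSeries R} : x ∈ (normW N hN).M ↔ nser N hN * x ∈ G.sub N := by
  constructor
  · rintro ⟨n, hn, rfl⟩
    change nser N hN * (ninv N hN * n) ∈ _
    rwa [← mul_assoc, nser_mul_ninv, one_mul]
  · intro h
    refine ⟨_, h, ?_⟩
    change ninv N hN * (nser N hN * x) = x
    rw [← mul_assoc, mul_comm (ninv N hN), nser_mul_ninv, one_mul]

theorem sub_eq_map : G.sub N = (normW N hN).M.map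
    ((nser_isU N hN).equiv : LaurentSeries R →ₗ[R] LaurentSeries R) := by
  ext x
  constructor
  · intro hx
    refine ⟨ninv N hN * x, (mem_normW N hN).2 ?_, ?_⟩
    · rwa [← mul_assoc, nser_mul_ninv, one_mul]
    · change nser N hN * (ninv N hN * x) = x
      rw [← mul_assoc, nser_mul_ninv, one_mul]
  · rintro ⟨y, hy, rfl⟩
    exact (mem_normW N hN).1 hy

/-- points of the chart which differ by an invertible series are equal -/
theorem eq_of_map {P Q : WPt e R} {u : LaurentSeries R} (hu : IsU u)
    (h : P.M = Q.M.map (hu.equiv : LaurentSeries R →ₗ[R] LaurentSeries R)) : P = Q := by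
  have h1 : u ∈ P.M := by
    rw [h]
    exact ⟨1, Q.one_mem, mul_one u⟩
  have h2 : u = u.coeff 0 • (1 : LaurentSeries R) := by
    refine P.eq_of_sub_mem h1 (P.M.smul_mem _ P.one_mem) fun i hi => ?_
    rw [HahnSeries.coeff_sub, HahnSeries.coeff_smul, HahnSeries.coeff_one]
    rcases (Int.lt_add_one_iff.1 (by simpa using hi) : i ≤ 0).lt_or_eq with hi' | rfl
    · rw [if_neg hi'.ne, smul_zero, sub_zero]
      exact hu.1 i hi'
    · rw [if_pos rfl, smul_eq_mul, mul_one, sub_self]
  apply WPt.ext
  rw [h]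
  ext x
  constructor
  · rintro ⟨y, hy, rfl⟩
    change u * y ∈ Q.M
    rw [h2, smul_mul_assoc, one_mul]
    exact Q.M.smul_mem _ hy
  · intro hx
    obtain ⟨r, hr⟩ := hu.2
    refine ⟨((r⁻¹ : Rˣ) : R) • x, Q.M.smul_mem _ hx, ?_⟩
    change u * (((r⁻¹ : Rˣ) : R) • x) = x
    rw [h2, smul_mul_assoc, one_mul, ← hr, smul_smul, Units.mul_inv, one_smul]

/-- base change is transitive -/
theorem bc_bc {T : Type u} [CommRing T] [Algebra k T] (f : R →ₐ[k] S) (h : S →ₐ[k] T)
    (M : G e (R := R) a) : bc h (bc f M) = bc (h.comp f) M := by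
  apply G.ext
  rw [bc_sub, bc_sub, bc_sub]
  apply le_antisymm
  · rw [Submodule.span_le]
    rintro _ ⟨x, hx, rfl⟩
    refine Submodule.span_induction (p := fun x _ => lmap (h : S →+* T) x ∈
      Submodule.span T (lmap ((h.comp f : R →ₐ[k] T) : R →+* T) '' (G.sub M))) ?_ ?_ ?_ ?_ hx
    · rintro _ ⟨y, hy, rfl⟩
      exact Submodule.subset_span ⟨y, hy, rfl⟩
    · rw [map_zero]
      exact zero_mem _
    · intro x y _ _ hx hy
      rw [map_add]
      exact add_mem hx hy
    · intro r x _ hx
      rw [lmap_smul]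
      exact Submodule.smul_mem _ _ hx
  · rw [Submodule.span_le]
    rintro _ ⟨x, hx, rfl⟩
    exact Submodule.subset_span ⟨lmap (f : R →+* S) x, Submodule.subset_span ⟨x, hx, rfl⟩, rfl⟩

theorem bc_ofId (f : R →ₐ[k] S) (η : G e (R := k) a) :
    bc f (bc (Algebra.ofId k R) η) = bc (Algebra.ofId k S) η := by
  rw [bc_bc, Subsingleton.elim (f.comp (Algebra.ofId k R)) (Algebra.ofId k S)]

end alg

section geom

variable {k : Type u} [Field k] {C : Scheme.{u}} {c : C ⟶ Spec (CommRingCat.of k)}
    {ε : SchemeHomOver (𝟙 (Spec (CommRingCat.of k))) c}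

/-- the hypotheses of WP4 for the curve -/
theorem hyp (g : Geo c ε) : I.Hyp g.e g.a g.d where
  inj := g.injA
  ded κ _ _ _ := g.ded κ
  fin := g.finA
  pos := g.hd
  mem := g.ea_mem
  coeff := g.ea_coeff
  H1 := g.H1

variable {g : Geo c ε} (D : PicData g) {R : Type u} [CommRing R] [Algebra k R]

/-- **(N2)** the class of the normalisation -/
theorem toPic_normW (N : G g.e (R := R) g.a) (hN : IsCompl (G.sub N) (LV R 1)) :
    D.toPic R (I.toG (hyp g) (normW N hN)) = D.toPic R N := by
  symm
  rw [D.toPic_eq_iff]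
  exact ⟨nser N hN, nser_isU N hN, sub_eq_map N hN⟩

/-- **(N3)** points of the chart are determined by their class -/
theorem toPic_toG_injective {P Q : WPt g.e R}
    (h : D.toPic R (I.toG (hyp g) P) = D.toPic R (I.toG (hyp g) Q)) : P = Q := by
  obtain ⟨u, hu, h⟩ := (D.toPic_eq_iff _ _).1 h
  exact eq_of_map hu h

/-- the universal lattice on the chart -/
def univG (g : Geo c ε) : G g.e (R := Buniv g.e) g.a := I.toG (hyp g) (uniW g.e)

theorem bc_univG (f : Buniv g.e →ₐ[k] R) :
    bc f (univG g) = I.toG (hyp g) ((uniW g.e).map f) := I.toG_bc _ _ _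

/-- the class on `C × W` of the chart `W_η` -/
def lη (η : G g.e (R := k) g.a) : PicC (CR c (Buniv g.e)) :=
  D.toPic _ (univG g * (bc (Algebra.ofId k (Buniv g.e)) η)⁻¹)

theorem map_lη (η : G g.e (R := k) g.a) (f : Buniv g.e →ₐ[k] R) :
    PicC.map (mR c f) (lη D η) = D.toPic R (I.toG (hyp g) ((uniW g.e).map f)) *
      (D.toPic R (bc (Algebra.ofId k R) η))⁻¹ := by
  rw [lη, ← D.nat, map_mul, map_inv, bc_univG, bc_ofId, map_mul, map_inv]

theorem sec_lη (η : G g.e (R := k) g.a) :
    PicC.map (secR c ε (Buniv g.e)) (lη D η) = 1 := D.sec _ _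

/-- **(N4)** = (7r-1): the chart `W_η` represents the classes of the lattices `M` such that
`M η` is complementary to `z R[[z]]` -/
theorem existsUnique_map (η : G g.e (R := k) g.a) (M : G g.e (R := R) g.a)
    (hM : IsCompl (G.sub (M * bc (Algebra.ofId k R) η)) (LV R 1)) :
    ∃! f : Buniv g.e →ₐ[k] R, PicC.map (mR c f) (lη D η) = D.toPic R M := by
  have key : ∀ f : Buniv g.e →ₐ[k] R, PicC.map (mR c f) (lη D η) = D.toPic R M ↔
      (uniW g.e).map f = normW _ hM := by
    intro f
    rw [map_lη, mul_inv_eq_iff_eq_mul, ← map_mul, ← toPic_normW D _ hM]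
    exact ⟨fun h => toPic_toG_injective D h, fun h => by rw [h]⟩
  refine ⟨(normW _ hM).cl, (key _).2 (normW _ hM).map_cl, fun f hf => ?_⟩
  rw [← cl_map f, (key f).1 hf]

/-- classes on the chart are classes of lattices `M` with `M η` complementary to `z R[[z]]` -/
theorem isCompl_of_map (η : G g.e (R := k) g.a) (M : G g.e (R := R) g.a)
    {f : Buniv g.e →ₐ[k] R} (h : PicC.map (mR c f) (lη D η) = D.toPic R M) :
    IsCompl (G.sub (M * bc (Algebra.ofId k R) η)) (LV R 1) := by
  rw [map_lη, mul_inv_eq_iff_eq_mul, ← map_mul] at h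
  rw [← D.isCompl_iff h 1]
  exact ((uniW g.e).map f).compl

/-- two points of the chart with the same class are equal -/
theorem hom_ext (η : G g.e (R := k) g.a) {f f' : Buniv g.e →ₐ[k] R}
    (h : PicC.map (mR c f) (lη D η) = PicC.map (mR c f') (lη D η)) : f = f' := by
  rw [map_lη, map_lη] at h
  rw [← cl_map f, toPic_toG_injective D (mul_right_cancel h), cl_map]

/-- (7r-1) for classes on `C_R` -/
theorem existsUnique_map' (η : G g.e (R := k) g.a) (l : PicC (CR c R))
    (hl : ∃ M : G g.e (R := R) g.a, D.toPic R M = l ∧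
      IsCompl (G.sub (M * bc (Algebra.ofId k R) η)) (LV R 1)) :
    ∃! f : Buniv g.e →ₐ[k] R, PicC.map (mR c f) (lη D η) = l := by
  obtain ⟨M, rfl, hM⟩ := hl
  exact existsUnique_map D η M hM

end geom

end Fermat.Agent.J25.CN
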