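import Mathlib
import Fermat.Agent.J25.Hub

/-!
# Points of an affine curve over an algebraically closed field
-/

set_option autoImplicit false
set_option linter.style.haveILetI false

noncomputable section

namespace Fermat.Agent.J25.CV

attribute [-instance] HahnSeries.powerSeriesAlgebra

open Polynomial

universe u v

variable {k : Type u} [Field k] [IsAlgClosed k] {A : Type v} [CommRing A] [Algebra k A]

/-- points with given first coordinate -/
theorem exists_point {a : A} (hfin : (aeval (R := k) a).toRingHom.IsIntegral)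
    (hinj : Function.Injective (aeval (R := k) a)) (c : k) : ∃ φ : A →ₐ[k] k, φ a = c := by
  letI : Algebra k[X] A := (aeval (R := k) a).toRingHom.toAlgebra
  haveI : Algebra.IsIntegral k[X] A := ⟨hfin⟩
  have hker : RingHom.ker (algebraMap k[X] A) = ⊥ := (RingHom.injective_iff_ker_eq_bot _).1 hinj
  haveI hmax : (Ideal.span {(X - C c : k[X])}).IsMaximal :=
    PrincipalIdealRing.isMaximal_of_irreducible (irreducible_X_sub_C c)
  obtain ⟨Q, hQ, hQc⟩ := Ideal.exists_ideal_over_maximal_of_isIntegral
    (S := A) (Ideal.span {(X - C c : k[X])}) (by rw [hker]; exact bot_le)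
  haveI := hQ
  letI : Field (A ⧸ Q) := Ideal.Quotient.field Q
  have hmem : ∀ p : k[X], aeval a p - algebraMap k A (p.eval c) ∈ Q := by
    intro p
    have h1 : p - C (p.eval c) ∈ Ideal.span {(X - C c : k[X])} := by
      rw [Ideal.mem_span_singleton]
      exact X_sub_C_dvd_sub_C_eval
    rw [← hQc, Ideal.mem_comap] at h1
    have h2 : algebraMap k[X] A (p - C (p.eval c)) = aeval a p - algebraMap k A (p.eval c) := by
      change aeval a (p - C (p.eval c)) = _
      rw [map_sub, aeval_C]
    rwa [h2] at h1
  have hcomp : (Ideal.Quotient.mk Q).comp (aeval (R := k) a).toRingHom =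
      (algebraMap k (A ⧸ Q)).comp (evalRingHom c) := by
    refine RingHom.ext fun p => ?_
    change Ideal.Quotient.mk Q (aeval a p) = Ideal.Quotient.mk Q (algebraMap k A (p.eval c))
    exact Ideal.Quotient.eq.2 (hmem p)
  have hint : (algebraMap k (A ⧸ Q)).IsIntegral := by
    refine RingHom.IsIntegral.tower_top (evalRingHom c) _ ?_
    rw [← hcomp]
    exact RingHom.IsIntegral.trans _ _ hfin (RingHom.isIntegral_of_surjective _
      Ideal.Quotient.mk_surjective)
  haveI : Algebra.IsIntegral k (A ⧸ Q) := ⟨hint⟩
  have hbij := IsAlgClosed.algebraMap_bijective_of_isIntegral (k := k) (K := A ⧸ Q)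
  let E : k ≃ₐ[k] (A ⧸ Q) := AlgEquiv.ofBijective (Algebra.ofId k (A ⧸ Q)) hbij
  refine ⟨(E.symm : (A ⧸ Q) →ₐ[k] k).comp (Ideal.Quotient.mkₐ k Q), ?_⟩
  change E.symm (Ideal.Quotient.mk Q a) = c
  rw [AlgEquiv.symm_apply_eq]
  change Ideal.Quotient.mk Q a = Ideal.Quotient.mk Q (algebraMap k A c)
  rw [Ideal.Quotient.eq]
  have := hmem X
  rwa [aeval_X, eval_X] at this

/-- there are infinitely many points -/
theorem infinite_points {a : A} (hfin : (aeval (R := k) a).toRingHom.IsIntegral)
    (hinj : Function.Injective (aeval (R := k) a)) : Infinite (A →ₐ[k] k) := by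
  haveI : Infinite k := inferInstance
  choose φ hφ using exists_point hfin hinj
  exact Infinite.of_injective φ fun c c' h => by rw [← hφ c, ← hφ c', h]

omit [IsAlgClosed k] in
/-- a series with a pole is transcendental over the constants -/
theorem aeval_injective_of_pole [IsAlgClosed k] {x : LaurentSeries k} {d : ℕ} (hd : 0 < d)
    (hx : x.coeff (-(d : ℤ)) ≠ 0) : Function.Injective (aeval (R := k) x) := by
  rw [injective_iff_map_eq_zero]
  intro p hp
  by_contra hp0
  have hint : IsIntegral k x := (show IsAlgebraic k x from ⟨p, hp0, hp⟩).isIntegral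
  have h1 := IsAlgClosed.degree_eq_one_of_irreducible k (minpoly.irreducible hint)
  obtain ⟨c, hc⟩ := minpoly.mem_range_of_degree_eq_one k x h1
  apply hx
  rw [← hc]
  change (HahnSeries.C c).coeff (-(d : ℤ)) = 0
  rw [HahnSeries.C_apply, HahnSeries.coeff_single_of_ne (by omega)]

omit [IsAlgClosed k] in
theorem aeval_injective [IsAlgClosed k] (e : A →ₐ[k] LaurentSeries k) {a : A} {d : ℕ} (hd : 0 < d)
    (ha : (e a).coeff (-(d : ℤ)) ≠ 0) : Function.Injective (aeval (R := k) a) := by
  intro p q h
  refine aeval_injective_of_pole hd ha ?_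
  rw [Polynomial.aeval_algHom_apply, Polynomial.aeval_algHom_apply, h]

/-- **there are infinitely many points** -/
theorem infinite_points' (e : A →ₐ[k] LaurentSeries k) {a : A} {d : ℕ} (hd : 0 < d)
    (ha : (e a).coeff (-(d : ℤ)) ≠ 0) (hfin : (aeval (R := k) a).toRingHom.Finite) :
    Infinite (A →ₐ[k] k) :=
  infinite_points hfin.to_isIntegral (aeval_injective e hd ha)

end Fermat.Agent.J25.CV
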