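import Mathlib
import Fermat.Agent.J25.PrG
import Fermat.Agent.J25.Lat4
import Fermat.Agent.J25.CvPts

/-!
# Covering: generic twists by points over the ground field
-/

set_option autoImplicit false
set_option linter.style.haveILetI false

noncomputable section

namespace Fermat.Agent.J25.CV

attribute [-instance] HahnSeries.powerSeriesAlgebra

open HahnSeries TensorProduct Fermat.Agent.J25.Lat

universe u

variable {k : Type u} [Field k] {A : Type u} [CommRing A] [Algebra k A]

/-- a lattice of degree zero over an extension field -/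
structure FD (e : A →ₐ[k] LaurentSeries k) (a : A) where
  K : Type u
  [fld : Field K]
  [alg : Algebra k K]
  M : G e (R := K) a
  deg : IsDegZero M

attribute [instance] FD.fld FD.alg

variable {e : A →ₐ[k] LaurentSeries k} {a : A} (h : MxH e a)

/-- the order of the inverse of `a` -/
theorem order_inv {K : Type u} [Field K] [Algebra k K] {d : ℕ} (h1 : e a ∈ LV k (-(d : ℤ)))
    (h2 : (e a).coeff (-(d : ℤ)) ≠ 0) :
    (((aUnit K h)⁻¹ : (LaurentSeries K)ˣ) : LaurentSeries K).order = d := by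
  have hne : ex e K a ≠ 0 := by
    rw [← coe_aUnit (R := K) h]
    exact Units.ne_zero _
  have h3 : (ex e K a).order = -(d : ℤ) := by
    apply le_antisymm
    · apply HahnSeries.order_le_of_coeff_ne_zero
      rw [ex_coeff]
      exact fun h0 => h2 ((map_eq_zero_iff _ (algebraMap k K).injective).1 h0)
    · have h4 : ex e K a ∈ LV K (-(d : ℤ)) := fun i hi => by
        rw [ex_coeff, h1 i hi, map_zero]
      rcases mem_LV_iff.1 h4 with h0 | h0
      · exact absurd h0 hne
      · exact h0
  have h5 : ex e K a * (((aUnit K h)⁻¹ : (LaurentSeries K)ˣ) : LaurentSeries K) = 1 := by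
    rw [← coe_aUnit (R := K) h, Units.mul_inv]
  have h6 := HahnSeries.order_mul hne (Units.ne_zero (aUnit K h)⁻¹)
  rw [h5, HahnSeries.order_one, h3] at h6
  omega

theorem coe_aG_inv (K : Type u) [Field K] [Algebra k K] :
    (((aG K h)⁻¹ : G e (R := K) a) : (Submodule (AR e K) (LaurentSeries K))ˣ) =
      spu (AR e K) (((aUnit K h)⁻¹ : (LaurentSeries K)ˣ) : LaurentSeries K) (Units.ne_zero _) := by
  rw [aG, prG_inv]
  apply Units.ext
  rfl

/-- the twist attached to points -/
def etaG (n : ℕ) (l : List (A →ₐ[k] k)) : G e (R := k) a :=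
  (l.map (mx h)).prod * (aG k h)⁻¹ ^ n

theorem bc_etaG (n : ℕ) (l : List (A →ₐ[k] k)) (K : Type u) [Field K] [Algebra k K] :
    bc (Algebra.ofId k K) (etaG h n l) =
      (l.map fun x => mx h ((Algebra.ofId k K).comp x)).prod * (aG K h)⁻¹ ^ n := by
  rw [etaG, map_mul, bc_aG_inv_pow, map_list_prod, List.map_map]
  congr 3
  funext x
  exact bc_mx h x _

/-- **generic twists** -/
theorem exists_eta_aux [Infinite (A →ₐ[k] k)]
    (hAd : ∀ (K : Type u) [Field K] [Algebra k K],
      Ad (LV K 0) (rs (1 : Submodule (AR e K) (LaurentSeries K)))) {c0 : ℤ}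
    (hchi : ∀ (K : Type u) [Field K] [Algebra k K], J25.chi (G.sub (1 : G e (R := K) a)) = c0)
    {J : Type*} [Finite J] (F : J → FD e a) : ∃ n0 : ℕ, ∀ n ≥ n0, ∃ l : List (A →ₐ[k] k),
      ∀ j, IsCompl (G.sub ((F j).M * bc (Algebra.ofId k (F j).K) (etaG h n l)))
        (LV (F j).K 1) := by
  classical
  obtain ⟨d, hd, h1, h2⟩ := h.pole
  cases nonempty_fintype J
  -- the twists
  have htw : ∀ j, ∃ n0 : ℕ, ∀ n ≥ n0, ∀ r : ℕ, c0 + n * (d : ℤ) = r →
      Pn r ((((aG (F j).K h)⁻¹ ^ n * (F j).M : G e (R := (F j).K) a)) :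
        (Submodule (AR e (F j).K) (LaurentSeries (F j).K))ˣ) := by
    intro j
    obtain ⟨n0, hn0⟩ := exists_twist (hAd (F j).K) (F j).M.1
      (w := (((aUnit (F j).K h)⁻¹ : (LaurentSeries (F j).K)ˣ) : LaurentSeries (F j).K))
      (Units.ne_zero _) (by rw [order_inv h h1 h2]; exact_mod_cast hd)
    refine ⟨n0, fun n hn r hr => ?_⟩
    have h3 := hn0 n hn r (by
      rw [order_inv h h1 h2, ← hr]
      congr 1
      exact ((F j).deg).trans (hchi _))
    rw [Subgroup.coe_mul, Subgroup.coe_pow, coe_aG_inv]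
    exact h3
  choose n0 hn0 using htw
  refine ⟨∑ j, n0 j + c0.natAbs, fun n hn => ?_⟩
  have hn' : ∀ j, n0 j ≤ n := fun j =>
    ((Finset.single_le_sum (fun i _ => Nat.zero_le (n0 i)) (Finset.mem_univ j)).trans
      (Nat.le_add_right _ _)).trans hn
  have hr0 : 0 ≤ c0 + n * (d : ℤ) := by
    have h3 : (n : ℤ) ≤ n * (d : ℤ) := le_mul_of_one_le_right (by positivity) (by omega)
    have h4 : (c0.natAbs : ℤ) ≤ n := by
      exact_mod_cast (Nat.le_add_left _ _).trans hn
    omega
  obtain ⟨l, -, hl⟩ := exists_list (Φ := A →ₐ[k] k) (J := J)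
    (X := fun j => (Submodule (AR e (F j).K) (LaurentSeries (F j).K))ˣ)
    (fun j x L => ((mx h ((Algebra.ofId k (F j).K).comp x) : G e (R := (F j).K) a) :
      (Submodule (AR e (F j).K) (LaurentSeries (F j).K))ˣ) * L) (fun _ => Pn)
    (fun j m L hL => pn_step' (A := AR e (F j).K) Subtype.val_injective (hAd (F j).K)
      (fun x : A →ₐ[k] k => phiX h ((Algebra.ofId k (F j).K).comp x))
      (fun x y hxy => by
        have h3 := phiX_injective h hxy
        ext b
        exact (algebraMap k (F j).K).injective (DFunLike.congr_fun h3 b))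
      (fun x => ((mx h ((Algebra.ofId k (F j).K).comp x) : G e (R := (F j).K) a) :
        (Submodule (AR e (F j).K) (LaurentSeries (F j).K))ˣ))
      (fun x => mx_eq_map h _) hL)
    (c0 + n * (d : ℤ)).toNat (fun j => (((aG (F j).K h)⁻¹ ^ n * (F j).M :
      G e (R := (F j).K) a) : (Submodule (AR e (F j).K) (LaurentSeries (F j).K))ˣ))
    (fun j => hn0 j n (hn' j) _ (Int.toNat_of_nonneg hr0).symm)
  refine ⟨l, fun j => ?_⟩
  have h5 := (hl j).isCompl
  have h6 := foldr_mul (fun x : A →ₐ[k] k =>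
    ((mx h ((Algebra.ofId k (F j).K).comp x) : G e (R := (F j).K) a) :
      (Submodule (AR e (F j).K) (LaurentSeries (F j).K))ˣ))
    (((aG (F j).K h)⁻¹ ^ n * (F j).M : G e (R := (F j).K) a) :
      (Submodule (AR e (F j).K) (LaurentSeries (F j).K))ˣ) l
  rw [h6] at h5
  have e2 : ((((F j).M * bc (Algebra.ofId k (F j).K) (etaG h n l) : G e (R := (F j).K) a)) :
      (Submodule (AR e (F j).K) (LaurentSeries (F j).K))ˣ) =
      (l.map fun x => ((mx h ((Algebra.ofId k (F j).K).comp x) : G e (R := (F j).K) a) :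
        (Submodule (AR e (F j).K) (LaurentSeries (F j).K))ˣ)).prod *
        (((aG (F j).K h)⁻¹ ^ n * (F j).M : G e (R := (F j).K) a) :
          (Submodule (AR e (F j).K) (LaurentSeries (F j).K))ˣ) := by
    rw [bc_etaG, Subgroup.coe_mul, Subgroup.coe_mul, Subgroup.coe_mul, Subgroup.val_list_prod,
      List.map_map]
    have hcomm : ∀ x y z : (Submodule (AR e (F j).K) (LaurentSeries (F j).K))ˣ,
        x * (y * z) = y * (z * x) := fun x y z => by rw [mul_comm x, mul_assoc]
    exact hcomm _ _ _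
  change IsCompl (rs ((((F j).M * bc (Algebra.ofId k (F j).K) (etaG h n l) :
    G e (R := (F j).K) a) : (Submodule (AR e (F j).K) (LaurentSeries (F j).K))ˣ) :
      Submodule (AR e (F j).K) (LaurentSeries (F j).K))) _
  rw [e2]
  exact h5

/-! ### Degrees -/

section Chi

variable {K : Type u} [Field K] [Algebra k K]
  (hAd : Ad (LV K 0) (rs (1 : Submodule (AR e K) (LaurentSeries K))))
include hAd

theorem chi_mx_mul (x : A →ₐ[k] K) (M : G e (R := K) a) :
    J25.chi (G.sub (mx h x * M)) = J25.chi (G.sub M) - 1 := by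
  have h1 := chi_pp_mul (n := 1) (A := AR e K) Subtype.val_injective hAd (phiX h x) M.1
  have h2 : G.sub (mx h x * M) = rs (pp (phiX h x) * (M.1 : Submodule (AR e K) (LaurentSeries K))) := by
    have h3 : (((mx h x * M : G e (R := K) a) : (Submodule (AR e K) (LaurentSeries K))ˣ) :
        Submodule (AR e K) (LaurentSeries K)) = pp (phiX h x) *
          (M.1 : Submodule (AR e K) (LaurentSeries K)) := by
      rw [Subgroup.coe_mul, Units.val_mul, mx_eq_map]
      rfl
    exact congrArg (Submodule.restrictScalars K) h3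
  rw [h2]
  exact h1

theorem chi_aG_inv_mul {d : ℕ} (h1 : e a ∈ LV k (-(d : ℤ)))
    (h2 : (e a).coeff (-(d : ℤ)) ≠ 0) (M : G e (R := K) a) :
    J25.chi (G.sub ((aG K h)⁻¹ * M)) = J25.chi (G.sub M) + d := by
  have h3 := chi_sp_mul (A := AR e K) (n := 1) (ad_unit (n := 1) hAd M.1)
    (Units.ne_zero (aUnit K h)⁻¹)
  rw [order_inv h h1 h2] at h3
  have h4 : G.sub ((aG K h)⁻¹ * M) = rs (sp (AR e K) (((aUnit K h)⁻¹ : (LaurentSeries K)ˣ) :
      LaurentSeries K) * (M.1 : Submodule (AR e K) (LaurentSeries K))) := by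
    have h5 : ((((aG K h)⁻¹ * M : G e (R := K) a) : (Submodule (AR e K) (LaurentSeries K))ˣ) :
        Submodule (AR e K) (LaurentSeries K)) = sp (AR e K)
          (((aUnit K h)⁻¹ : (LaurentSeries K)ˣ) : LaurentSeries K) *
          (M.1 : Submodule (AR e K) (LaurentSeries K)) := by
      rw [Subgroup.coe_mul, coe_aG_inv, Units.val_mul]
      rfl
    exact congrArg (Submodule.restrictScalars K) h5
  rw [h4]
  exact h3

/-- multiplication by the twist changes the degree by a constant -/
theorem chi_bc_etaG {d : ℕ} (h1 : e a ∈ LV k (-(d : ℤ)))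
    (h2 : (e a).coeff (-(d : ℤ)) ≠ 0) (n : ℕ) (l : List (A →ₐ[k] k)) (M : G e (R := K) a) :
    J25.chi (G.sub (bc (Algebra.ofId k K) (etaG h n l) * M)) =
      J25.chi (G.sub M) + (n * (d : ℤ) - l.length) := by
  rw [bc_etaG, mul_assoc]
  have e1 : J25.chi (G.sub ((aG K h)⁻¹ ^ n * M)) = J25.chi (G.sub M) + n * (d : ℤ) := by
    induction n with
    | zero => rw [pow_zero, one_mul]; simp
    | succ n ih =>
      rw [pow_succ', mul_assoc, chi_aG_inv_mul h hAd h1 h2, ih]
      push_cast
      ring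
  have e2 : ∀ (l : List (A →ₐ[k] k)) (N : G e (R := K) a),
      J25.chi (G.sub ((l.map fun x => mx h ((Algebra.ofId k K).comp x)).prod * N)) =
        J25.chi (G.sub N) - l.length := by
    intro l N
    induction l with
    | nil => rw [List.map_nil, List.prod_nil, one_mul]; simp
    | cons x l ih =>
      rw [List.map_cons, List.prod_cons, mul_assoc, chi_mx_mul h hAd, ih, List.length_cons]
      push_cast
      ring
  rw [e2, e1]
  ring

omit hAd [Algebra k K] in
theorem chi_of_isCompl {M : Submodule K (LaurentSeries K)} (hM : IsCompl M (LV K 1)) :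
    J25.chi M = 0 := by
  have e1 : hZ M = 0 := by
    rw [hZ, hM.inf_eq_bot]
    exact finrank_bot K _
  have e2 : hI M = 0 := by
    rw [hI, hM.sup_eq_top]
    haveI : Subsingleton (LaurentSeries K ⧸ (⊤ : Submodule K (LaurentSeries K))) :=
      Submodule.Quotient.subsingleton_iff.2 rfl
    exact Module.finrank_zero_of_subsingleton
  rw [J25.chi, e1, e2]
  simp

end Chi

/-! ### The final form -/

/-- twists by `η` take lattices without cohomology to lattices of degree zero -/
def Good (η : G e (R := k) a) : Prop :=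
  ∀ (K : Type u) [Field K] [IsAlgClosed K] [Algebra k K] (N : G e (R := K) a),
    IsCompl (G.sub N) (LV K 1) → IsDegZero (N * (bc (Algebra.ofId k K) η)⁻¹)

include h in
/-- **generic twists** -/
theorem exists_eta' [Infinite (A →ₐ[k] k)]
    (hAd : ∀ (K : Type u) [Field K] [Algebra k K],
      Ad (LV K 0) (rs (1 : Submodule (AR e K) (LaurentSeries K)))) {c0 : ℤ}
    (hchi : ∀ (K : Type u) [Field K] [Algebra k K], J25.chi (G.sub (1 : G e (R := K) a)) = c0)
    {J : Type*} [Finite J] [Nonempty J] (F : J → FD e a) : ∃ η : G e (R := k) a, Good η ∧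
      ∀ j, IsCompl (G.sub ((F j).M * bc (Algebra.ofId k (F j).K) η)) (LV (F j).K 1) := by
  obtain ⟨d, hd, h1, h2⟩ := h.pole
  obtain ⟨n, hn⟩ := exists_eta_aux h hAd hchi F
  obtain ⟨l, hl⟩ := hn n le_rfl
  refine ⟨etaG h n l, ?_, hl⟩
  obtain ⟨j⟩ := ‹Nonempty J›
  have hc : ∀ (K : Type u) [Field K] [Algebra k K] (M N : G e (R := K) a), M * N = N * M := by
    intro K _ _ M N
    apply Subtype.ext
    exact mul_comm (M : (Submodule (AR e K) (LaurentSeries K))ˣ) N
  have h3 := chi_bc_etaG h (hAd (F j).K) h1 h2 n l (F j).M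
  rw [← hc, chi_of_isCompl (hl j), show J25.chi (G.sub (F j).M) = c0 from
    ((F j).deg).trans (hchi _)] at h3
  intro K _ _ _ N hN
  have h4 := chi_bc_etaG h (hAd K) h1 h2 n l (N * (bc (Algebra.ofId k K) (etaG h n l))⁻¹)
  have h5 : bc (Algebra.ofId k K) (etaG h n l) * (N * (bc (Algebra.ofId k K) (etaG h n l))⁻¹) =
      N := by rw [hc, mul_assoc, inv_mul_cancel, mul_one]
  rw [h5, chi_of_isCompl hN] at h4
  have h6 := hchi K
  rw [IsDegZero]
  omega

end Fermat.Agent.J25.CV
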