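import Mathlib
import Fermat.Agent.J25.Cover
import Fermat.Agent.J25.Lat5

/-!
# Covering: the curve
-/

set_option autoImplicit false
set_option linter.style.haveILetI false

noncomputable section

namespace Fermat.Agent.J25.CV

attribute [-instance] HahnSeries.powerSeriesAlgebra

open HahnSeries TensorProduct Fermat.Agent.J25.Lat CategoryTheory AlgebraicGeometry NeronModelInfra

universe u

section Alg

variable {k : Type u} [Field k] {A : Type u} [CommRing A] [Algebra k A]
  {e : A →ₐ[k] LaurentSeries k} {a : A}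

theorem mem_AR_self {x : LaurentSeries k} : x ∈ AR e k ↔ ∃ b, e b = x := by
  constructor
  · rintro ⟨t, rfl⟩
    change ∃ b, e b = exR e k t
    induction t using TensorProduct.induction_on with
    | zero => exact ⟨0, by rw [map_zero, map_zero]⟩
    | tmul r b =>
      refine ⟨r • b, ?_⟩
      rw [exR_tmul, map_smul]
      congr 1
    | add x y hx hy =>
      obtain ⟨b, hb⟩ := hx
      obtain ⟨b', hb'⟩ := hy
      exact ⟨b + b', by rw [map_add, map_add, hb, hb']⟩
  · rintro ⟨b, rfl⟩
    exact ex_mem_AR e k b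

theorem sub_one_self : G.sub (1 : G e (R := k) a) = LinearMap.range e.toLinearMap := by
  ext x
  rw [G.mem_one, mem_AR_self]
  rfl

theorem sub_one_bc (K : Type u) [Field K] [Algebra k K] :
    G.sub (1 : G e (R := K) a) = bcV (algebraMap k K) (G.sub (1 : G e (R := k) a)) := by
  have h1 := bc_sub (Algebra.ofId k K) (1 : G e (R := k) a)
  rw [map_one] at h1
  exact h1

theorem ad_one (a : A) (h : Ad (LV k 0) (LinearMap.range e.toLinearMap)) (K : Type u) [Field K]
    [Algebra k K] : Ad (LV K 0) (rs (1 : Submodule (AR e K) (LaurentSeries K))) := by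
  have h1 : Ad (LV K 0) (G.sub (1 : G e (R := K) a)) := by
    rw [sub_one_bc, ad_bcV, sub_one_self]
    exact h
  exact h1

theorem chi_one (K : Type u) [Field K] [Algebra k K] :
    J25.chi (G.sub (1 : G e (R := K) a)) = J25.chi (G.sub (1 : G e (R := k) a)) := by
  rw [sub_one_bc]
  exact chi_bcV _ 1

end Alg

section Geom

variable {k : Type u} [Field k] {C : Scheme.{u}} {c : C ⟶ Spec (CommRingCat.of k)}
    {ε : SchemeHomOver (𝟙 (Spec (CommRingCat.of k))) c} (g : Geo c ε)

theorem ad_geo : Ad (LV k 0) (LinearMap.range g.e.toLinearMap) := by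
  constructor
  · -- constants
    have h1 : (LinearMap.range g.e.toLinearMap ⊓ LV k 0 : Submodule k (LaurentSeries k)) ≤
        Submodule.span k {1} := by
      rintro _ ⟨⟨x, rfl⟩, hx⟩
      obtain ⟨r, rfl⟩ := g.H0 x hx
      rw [Submodule.mem_span_singleton]
      refine ⟨r, ?_⟩
      change r • (1 : LaurentSeries k) = g.e (algebraMap k g.A r)
      rw [AlgHom.commutes, Algebra.algebraMap_eq_smul_one]
    exact Submodule.finiteDimensional_of_le h1
  · haveI : Module.Finite k (LaurentSeries k ⧸ (LinearMap.range g.e.toLinearMap ⊔ LV k 1)) := g.H1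
    exact Module.Finite.of_surjective (Submodule.factor (sup_le_sup_left (LV_anti (by norm_num))
      (LinearMap.range g.e.toLinearMap) :
        LinearMap.range g.e.toLinearMap ⊔ LV k 1 ≤ LinearMap.range g.e.toLinearMap ⊔ LV k 0))
      (Submodule.factor_surjective _)

/-- finiteness over all extension fields -/
theorem ad_geo' (K : Type u) [Field K] [Algebra k K] :
    Ad (LV K 0) (rs (1 : Submodule (AR g.e K) (LaurentSeries K))) := ad_one g.a (ad_geo g) K

theorem infinite_geo [IsAlgClosed k] : Infinite (g.A →ₐ[k] k) := by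
  refine infinite_points' g.e g.hd (a := g.a) ?_ g.finA
  change (g.eD (algebraMap g.A g.D g.a)).coeff (-(g.d : ℤ)) ≠ 0
  rw [g.ea_coeff]
  exact one_ne_zero

/-- **generic twists** for finitely many lattices of degree zero -/
theorem exists_eta_fin [IsAlgClosed k] {J : Type*} [Finite J] [Nonempty J] (F : J → FD g.e g.a) :
    ∃ η : G g.e (R := k) g.a, Good η ∧
      ∀ j, IsCompl (G.sub ((F j).M * bc (Algebra.ofId k (F j).K) η)) (LV (F j).K 1) := by
  haveI := infinite_geo g
  exact exists_eta' g.mxH (ad_geo' g) (chi_one (e := g.e) (a := g.a)) F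

/-- **generic twists** for two lattices of degree zero -/
theorem exists_eta [IsAlgClosed k] {K₁ K₂ : Type u} [Field K₁] [Field K₂] [Algebra k K₁]
    [Algebra k K₂] (M₁ : G g.e (R := K₁) g.a) (M₂ : G g.e (R := K₂) g.a) (h₁ : IsDegZero M₁)
    (h₂ : IsDegZero M₂) : ∃ η : G g.e (R := k) g.a, Good η ∧
      IsCompl (G.sub (M₁ * bc (Algebra.ofId k K₁) η)) (LV K₁ 1) ∧
      IsCompl (G.sub (M₂ * bc (Algebra.ofId k K₂) η)) (LV K₂ 1) := by
  obtain ⟨η, hη, h⟩ := exists_eta_fin g
    (fun b : Bool => if b then (⟨K₁, M₁, h₁⟩ : FD g.e g.a) else ⟨K₂, M₂, h₂⟩)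
  exact ⟨η, hη, h true, h false⟩

end Geom

end Fermat.Agent.J25.CV
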