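import Mathlib
import Fermat.Agent.J25.PicC

/-!
# Cocycles of units on arbitrary covers and their classes
-/

set_option autoImplicit false

universe u v w v' w'

open CategoryTheory CategoryTheory.Limits AlgebraicGeometry TopologicalSpace Opposite

noncomputable section

namespace Fermat.Agent.J25

/-- A cocycle of units on a cover indexed by `ι` (convention `e j = g i j • e i`). -/
structure CocI (X : Scheme.{u}) (ι : Type v) where
  U : ι → X.Opens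
  cov : ∀ x, ∃ i, x ∈ U i
  g : ∀ i j, Γ(X, U i ⊓ U j)ˣ
  cocycle : ∀ (i j k : ι) (V : X.Opens) (hi : V ≤ U i) (hj : V ≤ U j) (hk : V ≤ U k),
    ru (le_inf hi hj) (g i j) * ru (le_inf hj hk) (g j k) = ru (le_inf hi hk) (g i k)

namespace CocI

variable {X Y Z : Scheme.{u}} {ι : Type v} {κ : Type w} {μ : Type v'}

/-- the transition unit on a small open -/
def gg (c : CocI X ι) (i j : ι) {V : X.Opens} (hi : V ≤ c.U i) (hj : V ≤ c.U j) : Γ(X, V)ˣ :=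
  ru (le_inf hi hj) (c.g i j)

theorem gg_mul (c : CocI X ι) (i j k : ι) {V : X.Opens} (hi : V ≤ c.U i) (hj : V ≤ c.U j)
    (hk : V ≤ c.U k) : c.gg i j hi hj * c.gg j k hj hk = c.gg i k hi hk :=
  c.cocycle i j k V hi hj hk

theorem ru_gg (c : CocI X ι) (i j : ι) {V W : X.Opens} (hi : V ≤ c.U i) (hj : V ≤ c.U j)
    (h : W ≤ V) : ru h (c.gg i j hi hj) = c.gg i j (h.trans hi) (h.trans hj) :=
  ru_ru _ _ _

theorem gg_le (c : CocI X ι) (i j : ι) : c.gg i j inf_le_left inf_le_right = c.g i j :=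
  ru_self _ _

theorem gg_self (c : CocI X ι) (i : ι) {V : X.Opens} (hi hi' : V ≤ c.U i) :
    c.gg i i hi hi' = 1 := by
  have h : c.gg i i hi hi * c.gg i i hi hi = c.gg i i hi hi := c.gg_mul i i i hi hi hi
  exact mul_eq_left.mp h

theorem gg_inv (c : CocI X ι) (i j : ι) {V : X.Opens} (hi : V ≤ c.U i) (hj : V ≤ c.U j) :
    (c.gg i j hi hj)⁻¹ = c.gg j i hj hi := by
  rw [inv_eq_iff_mul_eq_one, c.gg_mul i j i hi hj hi, c.gg_self]

/-- the class of a cocycle -/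
def cls (c : CocI X ι) : PicC X := PicC.ofCover c.U c.cov c.g c.cocycle

/-- the point-indexed cocycle attached to a choice function -/
def toCoc (c : CocI X ι) (σ : X → ι) (hσ : ∀ x, x ∈ c.U (σ x)) : Coc X :=
  Coc.ofCover c.U σ hσ c.g c.cocycle

theorem toCoc_gg (c : CocI X ι) (σ : X → ι) (hσ : ∀ x, x ∈ c.U (σ x)) (x y : X) {V : X.Opens}
    (hx : V ≤ c.U (σ x)) (hy : V ≤ c.U (σ y)) :
    (c.toCoc σ hσ).gg x y hx hy = c.gg (σ x) (σ y) hx hy := rfl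

theorem mk_toCoc (c : CocI X ι) (σ : X → ι) (hσ : ∀ x, x ∈ c.U (σ x)) :
    PicC.mk (c.toCoc σ hσ) = c.cls := PicC.mk_ofCover _ _ _ _ _ _

/-- every point-indexed cocycle as a cover-indexed cocycle -/
def ofCoc (c : Coc X) : CocI X X where
  U := c.U
  cov x := ⟨x, c.mem x⟩
  g := c.g
  cocycle := c.cocycle

theorem cls_ofCoc (c : Coc X) : (ofCoc c).cls = PicC.mk c :=
  ((ofCoc c).mk_toCoc id c.mem).symm

/-- comparison of cocycles on two covers -/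
theorem cls_eq (c : CocI X ι) (d : CocI X κ) (f : ∀ i k, Γ(X, c.U i ⊓ d.U k)ˣ)
    (hf : ∀ (i j : ι) (k l : κ) (V : X.Opens) (hi : V ≤ c.U i) (hj : V ≤ c.U j) (hk : V ≤ d.U k)
      (hl : V ≤ d.U l), c.gg i j hi hj * ru (le_inf hj hl) (f j l) =
        ru (le_inf hi hk) (f i k) * d.gg k l hk hl) : c.cls = d.cls := by
  choose σ hσ using c.cov
  choose τ hτ using d.cov
  rw [← c.mk_toCoc σ hσ, ← d.mk_toCoc τ hτ, PicC.mk_eq_mk]
  refine ⟨fun x => c.U (σ x) ⊓ d.U (τ x), fun x => ⟨hσ x, hτ x⟩, fun x => inf_le_left,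
    fun x => inf_le_right, fun x => f (σ x) (τ x), fun x y V hx hy => ?_⟩
  have h := hf (σ x) (σ y) (τ x) (τ y) V (hx.trans inf_le_left) (hy.trans inf_le_left)
    (hx.trans inf_le_right) (hy.trans inf_le_right)
  rw [toCoc_gg, toCoc_gg, mul_assoc, eq_inv_mul_iff_mul_eq]
  exact h.symm

/-- comparison: refinement and twist by a coboundary -/
theorem cls_eq_of_map (c : CocI X ι) (d : CocI X κ) (σ : κ → ι) (hσ : ∀ k, d.U k ≤ c.U (σ k))
    (f : ∀ k, Γ(X, d.U k)ˣ)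
    (hf : ∀ (k l : κ) (V : X.Opens) (hk : V ≤ d.U k) (hl : V ≤ d.U l),
      d.gg k l hk hl = (ru hk (f k))⁻¹ * c.gg (σ k) (σ l) (hk.trans (hσ k)) (hl.trans (hσ l)) *
        ru hl (f l)) : d.cls = c.cls := by
  symm
  refine cls_eq c d (fun i k => c.gg i (σ k) inf_le_left (inf_le_right.trans (hσ k)) *
    ru inf_le_right (f k)) fun i j k l V hi hj hk hl => ?_
  rw [map_mul, map_mul, ru_ru, ru_ru, ru_gg, ru_gg, hf k l V hk hl, ← mul_assoc, c.gg_mul,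
    ← mul_assoc, ← mul_assoc, mul_inv_cancel_right, c.gg_mul]

/-- comparison: refinement -/
theorem cls_eq_of_refine (c : CocI X ι) (d : CocI X κ) (σ : κ → ι)
    (hσ : ∀ k, d.U k ≤ c.U (σ k))
    (hf : ∀ (k l : κ) (V : X.Opens) (hk : V ≤ d.U k) (hl : V ≤ d.U l),
      d.gg k l hk hl = c.gg (σ k) (σ l) (hk.trans (hσ k)) (hl.trans (hσ l))) :
    d.cls = c.cls :=
  cls_eq_of_map c d σ hσ (fun _ => 1) fun k l V hk hl => by
    rw [hf k l V hk hl]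
    simp

/-- refinement of a cocycle -/
def refine (c : CocI X ι) (σ : κ → ι) (U' : κ → X.Opens) (hU : ∀ k, U' k ≤ c.U (σ k))
    (cov : ∀ x, ∃ k, x ∈ U' k) : CocI X κ where
  U := U'
  cov := cov
  g k l := c.gg (σ k) (σ l) (inf_le_left.trans (hU k)) (inf_le_right.trans (hU l))
  cocycle k l m V hk hl hm := by
    rw [ru_gg, ru_gg, ru_gg]
    exact c.gg_mul _ _ _ _ _ _

theorem refine_gg (c : CocI X ι) (σ : κ → ι) (U' : κ → X.Opens) (hU : ∀ k, U' k ≤ c.U (σ k))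
    (cov : ∀ x, ∃ k, x ∈ U' k) (k l : κ) {V : X.Opens} (hk : V ≤ U' k) (hl : V ≤ U' l) :
    (c.refine σ U' hU cov).gg k l hk hl =
      c.gg (σ k) (σ l) (hk.trans (hU k)) (hl.trans (hU l)) :=
  c.ru_gg (σ k) (σ l) (inf_le_left.trans (hU k)) (inf_le_right.trans (hU l)) (le_inf hk hl)

theorem cls_refine (c : CocI X ι) (σ : κ → ι) (U' : κ → X.Opens) (hU : ∀ k, U' k ≤ c.U (σ k))
    (cov : ∀ x, ∃ k, x ∈ U' k) : (c.refine σ U' hU cov).cls = c.cls :=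
  cls_eq_of_refine c _ σ hU fun k l _ hk hl => c.refine_gg σ U' hU cov k l hk hl

theorem cls_eq_one_iff (c : CocI X ι) : c.cls = 1 ↔
    ∃ f : ∀ i, Γ(X, c.U i)ˣ, ∀ (i j : ι) (V : X.Opens) (hi : V ≤ c.U i) (hj : V ≤ c.U j),
      c.gg i j hi hj = (ru hi (f i))⁻¹ * ru hj (f j) :=
  PicC.ofCover_eq_one_iff _ _ _ _

/-- the class is multiplicative (general form, with refinements) -/
theorem cls_mul_of_map (c : CocI X ι) (d : CocI X κ) (e : CocI X μ) (σ : μ → ι) (τ : μ → κ)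
    (hσ : ∀ m, e.U m ≤ c.U (σ m)) (hτ : ∀ m, e.U m ≤ d.U (τ m))
    (h : ∀ (m n : μ) (V : X.Opens) (hm : V ≤ e.U m) (hn : V ≤ e.U n),
      e.gg m n hm hn = c.gg (σ m) (σ n) (hm.trans (hσ m)) (hn.trans (hσ n)) *
        d.gg (τ m) (τ n) (hm.trans (hτ m)) (hn.trans (hτ n))) : e.cls = c.cls * d.cls := by
  choose ρ hρ using e.cov
  rw [← e.mk_toCoc ρ hρ, ← c.mk_toCoc (fun x => σ (ρ x)) (fun x => hσ _ (hρ x)),
    ← d.mk_toCoc (fun x => τ (ρ x)) (fun x => hτ _ (hρ x)), ← PicC.mk_mul, PicC.mk_eq_mk]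
  refine ⟨fun x => e.U (ρ x), hρ, fun x => le_rfl, fun x => le_inf (hσ _) (hτ _), fun _ => 1,
    fun x y V hx hy => ?_⟩
  refine (Coc.mul_gg _ _ _ _ _ _).trans ?_
  rw [toCoc_gg, toCoc_gg, map_one, map_one, inv_one, one_mul, mul_one, toCoc_gg]
  exact (h (ρ x) (ρ y) V hx hy).symm

/-- the trivial cocycle on a cover -/
def oneOf (U : ι → X.Opens) (cov : ∀ x, ∃ i, x ∈ U i) : CocI X ι where
  U := U
  cov := cov
  g _ _ := 1
  cocycle i j k V hi hj hk := by simp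

theorem cls_eq_one_of (c : CocI X ι)
    (h : ∀ (i j : ι) (V : X.Opens) (hi : V ≤ c.U i) (hj : V ≤ c.U j), c.gg i j hi hj = 1) :
    c.cls = 1 :=
  (cls_eq_one_iff c).mpr ⟨fun _ => 1, fun i j V hi hj => by rw [h i j V hi hj]; simp⟩

theorem cls_oneOf (U : ι → X.Opens) (cov : ∀ x, ∃ i, x ∈ U i) : (oneOf U cov).cls = 1 :=
  cls_eq_one_of _ fun _ _ _ _ _ => map_one _

theorem cls_eq_one_of_coboundary (c : CocI X ι) (f : ∀ i, Γ(X, c.U i)ˣ)
    (h : ∀ (i j : ι) (V : X.Opens) (hi : V ≤ c.U i) (hj : V ≤ c.U j),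
      c.gg i j hi hj = (ru hi (f i))⁻¹ * ru hj (f j)) : c.cls = 1 :=
  (cls_eq_one_iff c).mpr ⟨f, h⟩

/-- the inverse cocycle -/
protected def inv (c : CocI X ι) : CocI X ι where
  U := c.U
  cov := c.cov
  g i j := (c.g i j)⁻¹
  cocycle i j k V hi hj hk := by
    have h := c.cocycle i j k V hi hj hk
    rw [map_inv, map_inv, map_inv, ← h, mul_inv]

theorem inv_gg (c : CocI X ι) (i j : ι) {V : X.Opens} (hi : V ≤ c.U i) (hj : V ≤ c.U j) :
    c.inv.gg i j hi hj = (c.gg i j hi hj)⁻¹ := map_inv _ _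

theorem cls_inv (c : CocI X ι) : c.inv.cls = (c.cls)⁻¹ := by
  refine eq_inv_of_mul_eq_one_left ?_
  refine (cls_mul_of_map c.inv c (oneOf c.U c.cov) id id (fun _ => le_rfl) (fun _ => le_rfl)
    fun m n V hm hn => ?_).symm.trans (cls_oneOf _ _)
  refine (map_one _).trans ?_
  have h := c.inv_gg m n hm hn
  exact (inv_mul_cancel _).symm.trans (congrArg (fun t => t * c.gg m n hm hn) h.symm)

/-- the product on the same cover -/
def mulOf (U : ι → X.Opens) (cov : ∀ x, ∃ i, x ∈ U i) (c : CocI X κ) (d : CocI X μ)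
    (σ : ι → κ) (τ : ι → μ) (hσ : ∀ i, U i ≤ c.U (σ i)) (hτ : ∀ i, U i ≤ d.U (τ i)) :
    CocI X ι where
  U := U
  cov := cov
  g i j := c.gg (σ i) (σ j) (inf_le_left.trans (hσ i)) (inf_le_right.trans (hσ j)) *
    d.gg (τ i) (τ j) (inf_le_left.trans (hτ i)) (inf_le_right.trans (hτ j))
  cocycle i j k V hi hj hk := by
    rw [map_mul, map_mul, map_mul, ru_gg, ru_gg, ru_gg, ru_gg, ru_gg, ru_gg, mul_mul_mul_comm,
      gg_mul, gg_mul]

theorem mulOf_gg (U : ι → X.Opens) (cov : ∀ x, ∃ i, x ∈ U i) (c : CocI X κ) (d : CocI X μ)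
    (σ : ι → κ) (τ : ι → μ) (hσ : ∀ i, U i ≤ c.U (σ i)) (hτ : ∀ i, U i ≤ d.U (τ i)) (i j : ι)
    {V : X.Opens} (hi : V ≤ U i) (hj : V ≤ U j) :
    (mulOf U cov c d σ τ hσ hτ).gg i j hi hj =
      c.gg (σ i) (σ j) (hi.trans (hσ i)) (hj.trans (hσ j)) *
        d.gg (τ i) (τ j) (hi.trans (hτ i)) (hj.trans (hτ j)) := by
  have h := map_mul (ru (le_inf hi hj))
    (c.gg (σ i) (σ j) (inf_le_left.trans (hσ i)) (inf_le_right.trans (hσ j)))
    (d.gg (τ i) (τ j) (inf_le_left.trans (hτ i)) (inf_le_right.trans (hτ j)))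
  rw [ru_gg, ru_gg] at h
  exact h

theorem cls_mulOf (U : ι → X.Opens) (cov : ∀ x, ∃ i, x ∈ U i) (c : CocI X κ) (d : CocI X μ)
    (σ : ι → κ) (τ : ι → μ) (hσ : ∀ i, U i ≤ c.U (σ i)) (hτ : ∀ i, U i ≤ d.U (τ i)) :
    (mulOf U cov c d σ τ hσ hτ).cls = c.cls * d.cls :=
  cls_mul_of_map c d _ σ τ hσ hτ fun m n _ hm hn => mulOf_gg U cov c d σ τ hσ hτ m n hm hn

/-- pullback of cocycles -/
def comap (f : X ⟶ Y) (c : CocI Y ι) : CocI X ι where
  U i := f ⁻¹ᵁ c.U i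
  cov x := c.cov (f x)
  g i j := pu f (show f ⁻¹ᵁ c.U i ⊓ f ⁻¹ᵁ c.U j ≤ f ⁻¹ᵁ (c.U i ⊓ c.U j) from le_rfl) (c.g i j)
  cocycle i j k V hi hj hk := by
    have h1 : V ≤ f ⁻¹ᵁ (c.U i ⊓ c.U j ⊓ c.U k) := le_inf (le_inf hi hj) hk
    have h := congrArg (pu f h1) (c.cocycle i j k (c.U i ⊓ c.U j ⊓ c.U k)
      (inf_le_left.trans inf_le_left) (inf_le_left.trans inf_le_right) inf_le_right)
    rw [map_mul, pu_ru, pu_ru, pu_ru] at h
    rw [ru_pu, ru_pu, ru_pu]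
    exact h

theorem comap_U (f : X ⟶ Y) (c : CocI Y ι) (i : ι) : (c.comap f).U i = f ⁻¹ᵁ c.U i := rfl

theorem comap_gg (f : X ⟶ Y) (c : CocI Y ι) (i j : ι) {V : X.Opens} {W : Y.Opens}
    (hi : V ≤ f ⁻¹ᵁ c.U i) (hj : V ≤ f ⁻¹ᵁ c.U j) (hV : V ≤ f ⁻¹ᵁ W)
    (hi' : W ≤ c.U i) (hj' : W ≤ c.U j) :
    (c.comap f).gg i j hi hj = pu f hV (c.gg i j hi' hj') := by
  unfold gg
  rw [pu_ru]
  exact ru_pu f _ _ _

theorem comap_g (f : X ⟶ Y) (c : CocI Y ι) (i j : ι) {V : X.Opens}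
    (hi : V ≤ f ⁻¹ᵁ c.U i) (hj : V ≤ f ⁻¹ᵁ c.U j) :
    (c.comap f).gg i j hi hj = pu f (le_inf hi hj) (c.g i j) :=
  ru_pu f _ _ _

/-- pullback of the class of a cocycle -/
theorem cls_comap (f : X ⟶ Y) (c : CocI Y ι) : (c.comap f).cls = PicC.map f c.cls := by
  choose σ hσ using c.cov
  rw [← c.mk_toCoc σ hσ, ← (c.comap f).mk_toCoc (fun x => σ (f x)) (fun x => hσ (f x)),
    PicC.map_mk]
  refine congrArg PicC.mk ?_
  rfl

end CocI

end Fermat.Agent.J25
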