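import Mathlib
import Fermat.Agent.J25.PicI

/-!
# Zariski descent of classes, normalised along a section
-/

set_option autoImplicit false

universe u v w v' w'

open CategoryTheory CategoryTheory.Limits AlgebraicGeometry TopologicalSpace Opposite

noncomputable section

namespace Fermat.Agent.J25

/-! ### Isomorphisms of cocycles on the same opens -/

namespace CocI

variable {X Y Z : Scheme.{u}} {ι : Type v} {κ : Type w}

/-- the converse of `cls_eq` -/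
theorem exists_of_cls_eq (c : CocI X ι) (d : CocI X κ) (h : c.cls = d.cls) :
    ∃ f : ∀ i k, Γ(X, c.U i ⊓ d.U k)ˣ, ∀ (i j : ι) (k l : κ) (V : X.Opens) (hi : V ≤ c.U i)
      (hj : V ≤ c.U j) (hk : V ≤ d.U k) (hl : V ≤ d.U l),
      c.gg i j hi hj * ru (le_inf hj hl) (f j l) =
        ru (le_inf hi hk) (f i k) * d.gg k l hk hl := by
  have h1 := cls_mulOf (fun z : ι × κ => c.U z.1 ⊓ d.U z.2)
    (fun x => by
      obtain ⟨i, hi⟩ := c.cov x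
      obtain ⟨k, hk⟩ := d.cov x
      exact ⟨(i, k), hi, hk⟩) c d.inv Prod.fst Prod.snd (fun _ => inf_le_left)
    (fun _ => inf_le_right)
  rw [cls_inv, h, mul_inv_cancel, cls_eq_one_iff] at h1
  obtain ⟨F, hF⟩ := h1
  refine ⟨fun i k => (F (i, k))⁻¹, fun i j k l V hi hj hk hl => ?_⟩
  have h2 := hF (i, k) (j, l) V (le_inf hi hk) (le_inf hj hl)
  rw [mulOf_gg, inv_gg] at h2
  have h3 : c.gg i j hi hj * (d.gg k l hk hl)⁻¹ =
    (ru (le_inf hi hk) (show Γ(X, c.U i ⊓ d.U k)ˣ from F (i, k)))⁻¹ *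
      ru (le_inf hj hl) (show Γ(X, c.U j ⊓ d.U l)ˣ from F (j, l)) := h2
  rw [map_inv, map_inv, ← mul_inv_eq_iff_eq_mul, mul_right_comm]
  exact (congrArg (fun t => t * _) h3).trans (mul_inv_cancel_right _ _)

end CocI

/-! ### Sections along open immersions -/

section OI

variable {X Y : Scheme.{u}} (f : Y ⟶ X) [IsOpenImmersion f]

theorem pb_bijective {V : X.Opens} (hV : V ≤ f.opensRange) :
    Function.Bijective (pb f (le_refl (f ⁻¹ᵁ V))) := by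
  have : IsIso (f.app V) := f.isIso_app V hV
  have h : f.appLE V (f ⁻¹ᵁ V) le_rfl = f.app V := Scheme.Hom.appLE_eq_app f
  rw [pb, h]
  exact ConcreteCategory.bijective_of_isIso (f.app V)

/-- descent of units along an open immersion -/
theorem exists_pu {V : X.Opens} (hV : V ≤ f.opensRange) {W : Y.Opens} (hW : f ⁻¹ᵁ V ≤ W)
    (s : Γ(Y, W)ˣ) : ∃ t : Γ(X, V)ˣ, pu f (le_refl (f ⁻¹ᵁ V)) t = ru hW s := by
  have hb := pb_bijective f hV
  let e := RingEquiv.ofBijective _ hb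
  refine ⟨Units.map e.symm.toRingHom.toMonoidHom (ru hW s), Units.ext ?_⟩
  exact e.apply_symm_apply _

theorem pu_injective {V : X.Opens} (hV : V ≤ f.opensRange) {W : Y.Opens} (hW : W ≤ f ⁻¹ᵁ V)
    (hW' : f ⁻¹ᵁ V ≤ W) {s t : Γ(X, V)ˣ} (h : pu f hW s = pu f hW t) : s = t := by
  obtain rfl : W = f ⁻¹ᵁ V := le_antisymm hW hW'
  exact Units.ext ((pb_bijective f hV).1 (congrArg Units.val h))

end OI

/-- gluing of units from a family of opens which covers -/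
theorem unit_glue' {X : Scheme.{u}} {ζ : Type*} {V : X.Opens} (W : ζ → X.Opens)
    (hc : ∀ x ∈ V, ∃ z, x ∈ W z) (u : ∀ z, Γ(X, V ⊓ W z)ˣ)
    (h : ∀ (z z' : ζ) (W' : X.Opens) (hV : W' ≤ V) (hz : W' ≤ W z) (hz' : W' ≤ W z'),
      ru (le_inf hV hz) (u z) = ru (le_inf hV hz') (u z')) :
    ∃ r : Γ(X, V)ˣ, ∀ (z : ζ) (W' : X.Opens) (hV : W' ≤ V) (hz : W' ≤ W z),
      ru hV r = ru (le_inf hV hz) (u z) := by
  obtain ⟨r, hr⟩ := unit_glue (fun z => V ⊓ W z) (fun z => inf_le_left)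
    (fun x hx => by
      obtain ⟨z, hz⟩ := hc x hx
      exact ⟨z, hx, hz⟩) u
    (fun z z' => h z z' _ (inf_le_left.trans inf_le_left) (inf_le_left.trans inf_le_right)
      (inf_le_right.trans inf_le_right))
  refine ⟨r, fun z W' hV hz => ?_⟩
  rw [← hr z, ru_ru]

/-! ### Partial cocycles -/

/-- a cocycle of units on a family of opens (which need not cover) -/
structure CP (X : Scheme.{u}) (ι : Type v) where
  U : ι → X.Opens
  g : ∀ i j, Γ(X, U i ⊓ U j)ˣ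
  cocycle : ∀ (i j k : ι) (V : X.Opens) (hi : V ≤ U i) (hj : V ≤ U j) (hk : V ≤ U k),
    ru (le_inf hi hj) (g i j) * ru (le_inf hj hk) (g j k) = ru (le_inf hi hk) (g i k)

namespace CP

variable {X Y Z : Scheme.{u}} {ι : Type v} {κ : Type w}

/-- the transition unit on a small open -/
def gg (c : CP X ι) (i j : ι) {V : X.Opens} (hi : V ≤ c.U i) (hj : V ≤ c.U j) : Γ(X, V)ˣ :=
  ru (le_inf hi hj) (c.g i j)

theorem gg_mul (c : CP X ι) (i j k : ι) {V : X.Opens} (hi : V ≤ c.U i) (hj : V ≤ c.U j)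
    (hk : V ≤ c.U k) : c.gg i j hi hj * c.gg j k hj hk = c.gg i k hi hk :=
  c.cocycle i j k V hi hj hk

theorem ru_gg (c : CP X ι) (i j : ι) {V W : X.Opens} (hi : V ≤ c.U i) (hj : V ≤ c.U j)
    (h : W ≤ V) : ru h (c.gg i j hi hj) = c.gg i j (h.trans hi) (h.trans hj) :=
  ru_ru _ _ _

theorem gg_self (c : CP X ι) (i : ι) {V : X.Opens} (hi hi' : V ≤ c.U i) :
    c.gg i i hi hi' = 1 := by
  have h : c.gg i i hi hi * c.gg i i hi hi = c.gg i i hi hi := c.gg_mul i i i hi hi hi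
  exact mul_eq_left.mp h

/-- Isomorphisms between two partial cocycles over an open. -/
structure IsoOn (c : CP X ι) (d : CP X κ) (V : X.Opens) where
  s : ∀ i k, Γ(X, V ⊓ (c.U i ⊓ d.U k))ˣ
  comm : ∀ (i j : ι) (k l : κ) (W : X.Opens) (hV : W ≤ V) (hi : W ≤ c.U i) (hj : W ≤ c.U j)
    (hk : W ≤ d.U k) (hl : W ≤ d.U l),
    c.gg i j hi hj * ru (le_inf hV (le_inf hj hl)) (s j l) =
      ru (le_inf hV (le_inf hi hk)) (s i k) * d.gg k l hk hl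

/-- the value on a small open -/
def IsoOn.ss {c : CP X ι} {d : CP X κ} {V : X.Opens} (φ : IsoOn c d V) (i : ι) (k : κ)
    {W : X.Opens} (hV : W ≤ V) (hi : W ≤ c.U i) (hk : W ≤ d.U k) : Γ(X, W)ˣ :=
  ru (le_inf hV (le_inf hi hk)) (φ.s i k)

theorem IsoOn.ru_ss {c : CP X ι} {d : CP X κ} {V : X.Opens} (φ : IsoOn c d V) (i : ι) (k : κ)
    {W W' : X.Opens} (hV : W ≤ V) (hi : W ≤ c.U i) (hk : W ≤ d.U k) (h : W' ≤ W) :
    ru h (φ.ss i k hV hi hk) = φ.ss i k (h.trans hV) (h.trans hi) (h.trans hk) :=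
  ru_ru _ _ _

theorem IsoOn.comm' {c : CP X ι} {d : CP X κ} {V : X.Opens} (φ : IsoOn c d V) (i j : ι) (k l : κ)
    {W : X.Opens} (hV : W ≤ V) (hi : W ≤ c.U i) (hj : W ≤ c.U j)
    (hk : W ≤ d.U k) (hl : W ≤ d.U l) :
    c.gg i j hi hj * φ.ss j l hV hj hl = φ.ss i k hV hi hk * d.gg k l hk hl :=
  φ.comm i j k l W hV hi hj hk hl

/-- pullback of partial cocycles -/
@[reducible] def comap (f : X ⟶ Y) (c : CP Y ι) : CP X ι where
  U i := f ⁻¹ᵁ c.U i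
  g i j := pu f (show f ⁻¹ᵁ c.U i ⊓ f ⁻¹ᵁ c.U j ≤ f ⁻¹ᵁ (c.U i ⊓ c.U j) from le_rfl) (c.g i j)
  cocycle i j k V hi hj hk := by
    have h1 : V ≤ f ⁻¹ᵁ (c.U i ⊓ c.U j ⊓ c.U k) := le_inf (le_inf hi hj) hk
    have h := congrArg (pu f h1) (c.cocycle i j k (c.U i ⊓ c.U j ⊓ c.U k)
      (inf_le_left.trans inf_le_left) (inf_le_left.trans inf_le_right) inf_le_right)
    rw [map_mul, pu_ru, pu_ru, pu_ru] at h
    rw [ru_pu, ru_pu, ru_pu]
    exact h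

theorem comap_gg (f : X ⟶ Y) (c : CP Y ι) (i j : ι) {V : X.Opens}
    (hi : V ≤ f ⁻¹ᵁ c.U i) (hj : V ≤ f ⁻¹ᵁ c.U j) :
    (c.comap f).gg i j hi hj = pu f (le_inf hi hj) (c.g i j) :=
  ru_pu f _ _ _

/-- the partial cocycle of a cocycle -/
@[reducible] def ofI (c : CocI X ι) : CP X ι := ⟨c.U, c.g, c.cocycle⟩

/-- Isomorphisms of partial cocycles from units on an open subscheme. -/
theorem IsoOn.exists_ofPull (h : Z ⟶ X) [IsOpenImmersion h] (V : X.Opens) (hV : V ≤ h.opensRange)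
    (c : CP X ι) (d : CP X κ) (f : ∀ i k, Γ(Z, h ⁻¹ᵁ c.U i ⊓ h ⁻¹ᵁ d.U k)ˣ)
    (comm : ∀ (i j : ι) (k l : κ) (W : Z.Opens) (hi : W ≤ h ⁻¹ᵁ c.U i) (hj : W ≤ h ⁻¹ᵁ c.U j)
      (hk : W ≤ h ⁻¹ᵁ d.U k) (hl : W ≤ h ⁻¹ᵁ d.U l),
      pu h (le_inf hi hj) (c.g i j) * ru (le_inf hj hl) (f j l) =
        ru (le_inf hi hk) (f i k) * pu h (le_inf hk hl) (d.g k l)) :
    ∃ φ : IsoOn c d V, ∀ (i : ι) (k : κ) (W : X.Opens) (W' : Z.Opens) (hW : W ≤ V)
      (hi : W ≤ c.U i) (hk : W ≤ d.U k) (hW' : W' ≤ h ⁻¹ᵁ W),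
      pu h hW' (φ.ss i k hW hi hk) =
        ru (le_inf (hW'.trans (Scheme.Hom.preimage_mono h hi))
          (hW'.trans (Scheme.Hom.preimage_mono h hk))) (f i k) := by
  have hpre : ∀ i k, h ⁻¹ᵁ (V ⊓ (c.U i ⊓ d.U k)) ≤ h ⁻¹ᵁ c.U i ⊓ h ⁻¹ᵁ d.U k := fun i k =>
    Scheme.Hom.preimage_mono h (inf_le_right : V ⊓ (c.U i ⊓ d.U k) ≤ c.U i ⊓ d.U k)
  have key : ∀ i k, ∃ t : Γ(X, V ⊓ (c.U i ⊓ d.U k))ˣ,
      pu h (le_refl (h ⁻¹ᵁ (V ⊓ (c.U i ⊓ d.U k)))) t = ru (hpre i k) (f i k) :=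
    fun i k => exists_pu h (inf_le_left.trans hV) (hpre i k) (f i k)
  choose t ht using key
  have ht' : ∀ (i : ι) (k : κ) (W' : Z.Opens) (hW' : W' ≤ h ⁻¹ᵁ (V ⊓ (c.U i ⊓ d.U k))),
      pu h hW' (t i k) = ru (hW'.trans (hpre i k)) (f i k) := by
    intro i k W' hW'
    have := congrArg (ru hW') (ht i k)
    rw [ru_pu, ru_ru] at this
    exact this
  refine ⟨⟨t, fun i j k l W hW hi hj hk hl => ?_⟩, fun i k W W' hW hi hk hW' => ?_⟩
  · refine pu_injective h (hW.trans hV) le_rfl le_rfl ?_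
    rw [map_mul, map_mul, pu_ru, pu_ru, ht', ht', gg, gg, pu_ru, pu_ru]
    exact comm i j k l (h ⁻¹ᵁ W) (Scheme.Hom.preimage_mono h hi) (Scheme.Hom.preimage_mono h hj)
      (Scheme.Hom.preimage_mono h hk) (Scheme.Hom.preimage_mono h hl)
  · rw [IsoOn.ss, pu_ru]
    exact ht' i k W' _

/-- the cocycle of an open subscheme, as a partial cocycle -/
theorem exists_push (f : Y ⟶ X) [IsOpenImmersion f] (c : CocI Y ι) :
    ∃ P : CP X ι, (∀ i, P.U i = f ''ᵁ c.U i) ∧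
      ∀ (i j : ι) (W : Y.Opens) (hi : W ≤ c.U i) (hj : W ≤ c.U j)
        (h : W ≤ f ⁻¹ᵁ (P.U i ⊓ P.U j)), pu f h (P.g i j) = c.gg i j hi hj := by
  have hpre : ∀ i j, f ⁻¹ᵁ (f ''ᵁ c.U i ⊓ f ''ᵁ c.U j) ≤ c.U i ⊓ c.U j := fun i j =>
    le_inf ((Scheme.Hom.preimage_mono f inf_le_left).trans (f.preimage_image_eq _).le)
      ((Scheme.Hom.preimage_mono f inf_le_right).trans (f.preimage_image_eq _).le)
  have hran : ∀ i j, f ''ᵁ c.U i ⊓ f ''ᵁ c.U j ≤ f.opensRange := fun i j =>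
    inf_le_left.trans (f.image_le_opensRange _)
  have key : ∀ i j, ∃ t : Γ(X, f ''ᵁ c.U i ⊓ f ''ᵁ c.U j)ˣ,
      pu f (le_refl (f ⁻¹ᵁ (f ''ᵁ c.U i ⊓ f ''ᵁ c.U j))) t = ru (hpre i j) (c.g i j) :=
    fun i j => exists_pu f (hran i j) (hpre i j) (c.g i j)
  choose t ht using key
  have ht' : ∀ (i j : ι) (W : Y.Opens) (hW : W ≤ f ⁻¹ᵁ (f ''ᵁ c.U i ⊓ f ''ᵁ c.U j)),
      pu f hW (t i j) = ru (hW.trans (hpre i j)) (c.g i j) := by
    intro i j W hW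
    have := congrArg (ru hW) (ht i j)
    rw [ru_pu, ru_ru] at this
    exact this
  have hle : ∀ {V : X.Opens} {i : ι}, V ≤ f ''ᵁ c.U i → f ⁻¹ᵁ V ≤ c.U i := fun {V i} h =>
    (Scheme.Hom.preimage_mono f h).trans (f.preimage_image_eq _).le
  refine ⟨⟨fun i => f ''ᵁ c.U i, t, fun i j k V hi hj hk => ?_⟩, fun i => rfl,
    fun i j W hi hj h => ht' i j W h⟩
  refine pu_injective f (hi.trans (f.image_le_opensRange _)) le_rfl le_rfl ?_
  rw [map_mul, pu_ru, pu_ru, pu_ru, ht', ht', ht']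
  exact c.cocycle i j k (f ⁻¹ᵁ V) (hle hi) (hle hj) (hle hk)

end CP

/-! ### Sections determined along a section of the structure map -/

theorem pu_congr {X Y : Scheme.{u}} {f g : X ⟶ Y} (e : f = g) {U : Y.Opens} {V : X.Opens}
    (h : V ≤ f ⁻¹ᵁ U) (h' : V ≤ g ⁻¹ᵁ U) (a : Γ(Y, U)ˣ) : pu f h a = pu g h' a := by
  subst e
  rfl

/-- `ε` is a section of `π`, and functions on `π⁻¹ U` are determined along `ε`. -/
structure SecInj {X T : Scheme.{u}} (π : X ⟶ T) (ε : T ⟶ X) : Prop where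
  sec : ε ≫ π = 𝟙 T
  inj : ∀ (U : T.Opens) (h : U ≤ ε ⁻¹ᵁ (π ⁻¹ᵁ U)),
    Function.Injective (pb ε h : Γ(X, π ⁻¹ᵁ U) → Γ(T, U))

namespace SecInj

variable {X T : Scheme.{u}} {π : X ⟶ T} {ε : T ⟶ X} (H : SecInj π ε)

include H

theorem pre (U : T.Opens) : ε ⁻¹ᵁ (π ⁻¹ᵁ U) = U := by
  rw [← Scheme.Hom.comp_preimage, H.sec]
  rfl

theorem pu_pu_eq {U W : T.Opens} {V : X.Opens} (hV : V ≤ π ⁻¹ᵁ U) (hW : W ≤ ε ⁻¹ᵁ V)
    (v : Γ(T, U)ˣ) : pu ε hW (pu π hV v) =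
      ru (hW.trans ((Scheme.Hom.preimage_mono ε hV).trans (H.pre U).le)) v := by
  have h1 : W ≤ (𝟙 T : T ⟶ T) ⁻¹ᵁ U :=
    hW.trans ((Scheme.Hom.preimage_mono ε hV).trans (H.pre U).le)
  rw [pu_pu, pu_congr H.sec _ h1, pu_id]

theorem eq_one {U : T.Opens} (r : Γ(X, π ⁻¹ᵁ U)ˣ) {ζ : Type*} (W : ζ → X.Opens)
    (hc : ∀ x ∈ π ⁻¹ᵁ U, ∃ z, x ∈ W z)
    (h : ∀ (z : ζ) (T' : T.Opens) (hU : T' ≤ ε ⁻¹ᵁ (π ⁻¹ᵁ U)) (_ : T' ≤ ε ⁻¹ᵁ W z),
      pu ε hU r = 1) : r = 1 := by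
  have h1 : pu ε (H.pre U).ge r = 1 := by
    refine unit_ext (fun z => U ⊓ ε ⁻¹ᵁ W z) (fun z => inf_le_left) (fun x hx => ?_) fun z => ?_
    · obtain ⟨z, hz⟩ := hc (ε x) ((H.pre U).ge hx)
      exact ⟨z, hx, hz⟩
    · rw [ru_pu, map_one]
      exact h z _ _ inf_le_right
  refine Units.ext (H.inj U (H.pre U).ge ?_)
  have h2 := congrArg Units.val h1
  rw [Units.val_one, map_one]
  exact h2

end SecInj

/-! ### Gluing -/

section aux

theorem dAux1 {G : Type*} [AddCommGroup G] {a a' b b' p p' m ga gb : G} (h1 : m + b' = b + gb)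
    (h2 : m + a' = a + ga) (h3 : ga + p' = p + gb) :
    b + -a + -p = b' + -a' + -p' := by
  have e1 : b' = b + gb - m := by rw [← h1]; abel
  have e2 : a' = a + ga - m := by rw [← h2]; abel
  have e3 : p' = p + gb - ga := by rw [← h3]; abel
  rw [e1, e2, e3]
  abel

theorem dAux1' {G : Type*} [CommGroup G] {a a' b b' p p' m ga gb : G} (h1 : m * b' = b * gb)
    (h2 : m * a' = a * ga) (h3 : ga * p' = p * gb) :
    b * a⁻¹ * p⁻¹ = b' * a'⁻¹ * p'⁻¹ :=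
  dAux1 (G := Additive G) h1 h2 h3

theorem dAux2 {G : Type*} [AddCommGroup G] {x x' y y' z z' ga gb gc : G} (h1 : ga + x' = x + gb)
    (h2 : gb + y' = y + gc) (h3 : ga + z' = z + gc) :
    x + y + -z = x' + y' + -z' := by
  have e1 : x' = x + gb - ga := by rw [← h1]; abel
  have e2 : y' = y + gc - gb := by rw [← h2]; abel
  have e3 : z' = z + gc - ga := by rw [← h3]; abel
  rw [e1, e2, e3]
  abel

theorem dAux2' {G : Type*} [CommGroup G] {x x' y y' z z' ga gb gc : G} (h1 : ga * x' = x * gb)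
    (h2 : gb * y' = y * gc) (h3 : ga * z' = z * gc) :
    x * y * z⁻¹ = x' * y' * z'⁻¹ :=
  dAux2 (G := Additive G) h1 h2 h3

theorem dAux3 {G : Type*} [AddCommGroup G] {a b c x y z : G} (h1 : a + x = b) (h2 : b + y = c)
    (h3 : a + z = c) : x + y + -z = 0 := by
  have e1 : x = b - a := by rw [← h1]; abel
  have e2 : y = c - b := by rw [← h2]; abel
  have e3 : z = c - a := by rw [← h3]; abel
  rw [e1, e2, e3]
  abel

theorem dAux3' {G : Type*} [CommGroup G] {a b c x y z : G} (h1 : a * x = b) (h2 : b * y = c)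
    (h3 : a * z = c) : x * y * z⁻¹ = 1 :=
  dAux3 (G := Additive G) h1 h2 h3

end aux

namespace CP

variable {X T : Scheme.{u}} {π : X ⟶ T} {ε : T ⟶ X} {κ : Type v} {α : Type w} {β : Type v'}
  {γ : Type w'}

/-- the value of an isomorphism along `ε` -/
theorem IsoOn.pu_comm {P : CP X α} {Q : CP X β} {V : X.Opens} (φ : IsoOn P Q V) (i i' : α)
    (j j' : β) {W : T.Opens} (hV : W ≤ ε ⁻¹ᵁ V) (hi : W ≤ ε ⁻¹ᵁ P.U i) (hi' : W ≤ ε ⁻¹ᵁ P.U i')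
    (hj : W ≤ ε ⁻¹ᵁ Q.U j) (hj' : W ≤ ε ⁻¹ᵁ Q.U j') :
    pu ε (le_inf hi hi') (P.g i i') *
      pu ε (show W ≤ ε ⁻¹ᵁ (V ⊓ (P.U i' ⊓ Q.U j')) from le_inf hV (le_inf hi' hj')) (φ.s i' j') =
    pu ε (show W ≤ ε ⁻¹ᵁ (V ⊓ (P.U i ⊓ Q.U j)) from le_inf hV (le_inf hi hj)) (φ.s i j) *
      pu ε (le_inf hj hj') (Q.g j j') := by
  have h := congrArg (pu ε (show W ≤ ε ⁻¹ᵁ (V ⊓ ((P.U i ⊓ P.U i') ⊓ (Q.U j ⊓ Q.U j'))) from
    le_inf hV (le_inf (le_inf hi hi') (le_inf hj hj'))))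
    (φ.comm i i' j j' (V ⊓ ((P.U i ⊓ P.U i') ⊓ (Q.U j ⊓ Q.U j'))) inf_le_left
      (inf_le_right.trans (inf_le_left.trans inf_le_left))
      (inf_le_right.trans (inf_le_left.trans inf_le_right))
      (inf_le_right.trans (inf_le_right.trans inf_le_left))
      (inf_le_right.trans (inf_le_right.trans inf_le_right)))
  rw [map_mul, map_mul, pu_ru, pu_ru, gg, gg, pu_ru, pu_ru] at h
  exact h

/-- normalisation of an isomorphism along the section -/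
theorem IsoOn.exists_normal (H : SecInj π ε) {P : CP X α} {Q : CP X β} {m : CocI T κ}
    {U U₁ U₂ : T.Opens} (hU₁ : U ≤ U₁) (hU₂ : U ≤ U₂)
    (hP : ∀ x ∈ π ⁻¹ᵁ U, ∃ i, x ∈ P.U i) (hQ : ∀ x ∈ π ⁻¹ᵁ U, ∃ i, x ∈ Q.U i)
    (θ : IsoOn (ofI m) (P.comap ε) U₁) (θ' : IsoOn (ofI m) (Q.comap ε) U₂)
    (ψ : IsoOn P Q (π ⁻¹ᵁ U)) :
    ∃ φ : IsoOn P Q (π ⁻¹ᵁ U), ∀ (t : κ) (i : α) (j : β) (W : T.Opens) (hW : W ≤ U)
      (ht : W ≤ m.U t) (hi : W ≤ ε ⁻¹ᵁ P.U i) (hj : W ≤ ε ⁻¹ᵁ Q.U j),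
      θ.ss t i (hW.trans hU₁) ht hi * pu ε (show W ≤ ε ⁻¹ᵁ (π ⁻¹ᵁ U ⊓ (P.U i ⊓ Q.U j)) from
        le_inf (hW.trans (H.pre U).ge) (le_inf hi hj)) (φ.s i j) =
      θ'.ss t j (hW.trans hU₂) ht hj := by
  have hε : ∀ {i : α} {j : β} {W : T.Opens}, W ≤ U → W ≤ ε ⁻¹ᵁ P.U i → W ≤ ε ⁻¹ᵁ Q.U j →
      W ≤ ε ⁻¹ᵁ (π ⁻¹ᵁ U ⊓ (P.U i ⊓ Q.U j)) := fun hW hi hj =>
    le_inf (hW.trans (H.pre U).ge) (le_inf hi hj)
  obtain ⟨v, hv⟩ := unit_glue' (V := U)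
    (fun z : κ × α × β => m.U z.1 ⊓ (ε ⁻¹ᵁ P.U z.2.1 ⊓ ε ⁻¹ᵁ Q.U z.2.2))
    (fun x hx => by
      obtain ⟨t, ht⟩ := m.cov x
      obtain ⟨i, hi⟩ := hP (ε x) ((H.pre U).ge hx)
      obtain ⟨j, hj⟩ := hQ (ε x) ((H.pre U).ge hx)
      exact ⟨(t, i, j), ht, hi, hj⟩)
    (fun z => θ'.ss z.1 z.2.2 (inf_le_left.trans hU₂) (inf_le_right.trans inf_le_left)
        (inf_le_right.trans (inf_le_right.trans inf_le_right)) *
      (θ.ss z.1 z.2.1 (inf_le_left.trans hU₁) (inf_le_right.trans inf_le_left)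
        (inf_le_right.trans (inf_le_right.trans inf_le_left)))⁻¹ *
      (pu ε (hε inf_le_left (inf_le_right.trans (inf_le_right.trans inf_le_left))
        (inf_le_right.trans (inf_le_right.trans inf_le_right))) (ψ.s z.2.1 z.2.2))⁻¹)
    (fun z z' W' hV hz hz' => by
      rw [map_mul, map_mul, map_mul, map_mul, map_inv, map_inv, map_inv, map_inv, ru_pu, ru_pu,
        IsoOn.ru_ss, IsoOn.ru_ss, IsoOn.ru_ss, IsoOn.ru_ss]
      exact dAux1'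
        (θ'.comm' z.1 z'.1 z.2.2 z'.2.2 (hV.trans hU₂) (hz.trans inf_le_left)
          (hz'.trans inf_le_left) (hz.trans (inf_le_right.trans inf_le_right))
          (hz'.trans (inf_le_right.trans inf_le_right)))
        (θ.comm' z.1 z'.1 z.2.1 z'.2.1 (hV.trans hU₁) (hz.trans inf_le_left)
          (hz'.trans inf_le_left) (hz.trans (inf_le_right.trans inf_le_left))
          (hz'.trans (inf_le_right.trans inf_le_left)))
        (by
          rw [comap_gg, comap_gg]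
          exact ψ.pu_comm z.2.1 z'.2.1 z.2.2 z'.2.2 (hV.trans (H.pre U).ge)
            (hz.trans (inf_le_right.trans inf_le_left))
            (hz'.trans (inf_le_right.trans inf_le_left))
            (hz.trans (inf_le_right.trans inf_le_right))
            (hz'.trans (inf_le_right.trans inf_le_right))))
  refine ⟨⟨fun i j => pu π inf_le_left v * ψ.s i j, fun i i' j j' W hV hi hi' hj hj' => ?_⟩,
    fun t i j W hW ht hi hj => ?_⟩
  · rw [map_mul, map_mul, ru_pu, ru_pu, mul_left_comm, ψ.comm i i' j j' W hV hi hi' hj hj',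
      mul_assoc]
  · rw [map_mul, H.pu_pu_eq, hv (t, i, j) W hW (le_inf ht (le_inf hi hj)), map_mul, map_mul,
      map_inv, map_inv, ru_pu, IsoOn.ru_ss, IsoOn.ru_ss]
    rw [inv_mul_cancel_right, mul_comm, inv_mul_cancel_right]

/-- the cocycle condition of normalised isomorphisms -/
theorem IsoOn.cocycle_of_normal (H : SecInj π ε) {P : CP X α} {Q : CP X β} {R : CP X γ}
    {m : CocI T κ} {U₁ U₂ U₃ : T.Opens}
    (hP : ∀ i, P.U i ≤ π ⁻¹ᵁ U₁) (hQ : ∀ i, Q.U i ≤ π ⁻¹ᵁ U₂) (hR : ∀ i, R.U i ≤ π ⁻¹ᵁ U₃)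
    (hP' : ∀ x ∈ π ⁻¹ᵁ U₁, ∃ i, x ∈ P.U i) (hQ' : ∀ x ∈ π ⁻¹ᵁ U₂, ∃ i, x ∈ Q.U i)
    (hR' : ∀ x ∈ π ⁻¹ᵁ U₃, ∃ i, x ∈ R.U i)
    (θ : IsoOn (ofI m) (P.comap ε) U₁) (θ' : IsoOn (ofI m) (Q.comap ε) U₂)
    (θ'' : IsoOn (ofI m) (R.comap ε) U₃)
    (φ : IsoOn P Q (π ⁻¹ᵁ (U₁ ⊓ U₂))) (φ' : IsoOn Q R (π ⁻¹ᵁ (U₂ ⊓ U₃)))
    (φ'' : IsoOn P R (π ⁻¹ᵁ (U₁ ⊓ U₃)))
    (h : ∀ (t : κ) (i : α) (j : β) (W : T.Opens) (hW : W ≤ U₁ ⊓ U₂)
      (ht : W ≤ m.U t) (hi : W ≤ ε ⁻¹ᵁ P.U i) (hj : W ≤ ε ⁻¹ᵁ Q.U j),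
      θ.ss t i (hW.trans inf_le_left) ht hi * pu ε (show W ≤ ε ⁻¹ᵁ (π ⁻¹ᵁ (U₁ ⊓ U₂) ⊓
        (P.U i ⊓ Q.U j)) from le_inf (hW.trans (H.pre _).ge) (le_inf hi hj)) (φ.s i j) =
      θ'.ss t j (hW.trans inf_le_right) ht hj)
    (h' : ∀ (t : κ) (i : β) (j : γ) (W : T.Opens) (hW : W ≤ U₂ ⊓ U₃)
      (ht : W ≤ m.U t) (hi : W ≤ ε ⁻¹ᵁ Q.U i) (hj : W ≤ ε ⁻¹ᵁ R.U j),
      θ'.ss t i (hW.trans inf_le_left) ht hi * pu ε (show W ≤ ε ⁻¹ᵁ (π ⁻¹ᵁ (U₂ ⊓ U₃) ⊓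
        (Q.U i ⊓ R.U j)) from le_inf (hW.trans (H.pre _).ge) (le_inf hi hj)) (φ'.s i j) =
      θ''.ss t j (hW.trans inf_le_right) ht hj)
    (h'' : ∀ (t : κ) (i : α) (j : γ) (W : T.Opens) (hW : W ≤ U₁ ⊓ U₃)
      (ht : W ≤ m.U t) (hi : W ≤ ε ⁻¹ᵁ P.U i) (hj : W ≤ ε ⁻¹ᵁ R.U j),
      θ.ss t i (hW.trans inf_le_left) ht hi * pu ε (show W ≤ ε ⁻¹ᵁ (π ⁻¹ᵁ (U₁ ⊓ U₃) ⊓
        (P.U i ⊓ R.U j)) from le_inf (hW.trans (H.pre _).ge) (le_inf hi hj)) (φ''.s i j) =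
      θ''.ss t j (hW.trans inf_le_right) ht hj)
    (i : α) (j : β) (k : γ) (W : X.Opens) (hi : W ≤ P.U i) (hj : W ≤ Q.U j) (hk : W ≤ R.U k) :
    φ.ss i j (le_inf (hi.trans (hP i)) (hj.trans (hQ j))) hi hj *
      φ'.ss j k (le_inf (hj.trans (hQ j)) (hk.trans (hR k))) hj hk =
      φ''.ss i k (le_inf (hi.trans (hP i)) (hk.trans (hR k))) hi hk := by
  set V : T.Opens := U₁ ⊓ U₂ ⊓ U₃ with hVdef
  have v12 : π ⁻¹ᵁ V ≤ π ⁻¹ᵁ (U₁ ⊓ U₂) := Scheme.Hom.preimage_mono π inf_le_left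
  have v23 : π ⁻¹ᵁ V ≤ π ⁻¹ᵁ (U₂ ⊓ U₃) := Scheme.Hom.preimage_mono π
    (le_inf (inf_le_left.trans inf_le_right) inf_le_right)
  have v13 : π ⁻¹ᵁ V ≤ π ⁻¹ᵁ (U₁ ⊓ U₃) := Scheme.Hom.preimage_mono π
    (le_inf (inf_le_left.trans inf_le_left) inf_le_right)
  obtain ⟨r, hr⟩ := unit_glue' (V := π ⁻¹ᵁ V)
    (fun z : α × β × γ => P.U z.1 ⊓ (Q.U z.2.1 ⊓ R.U z.2.2))
    (fun x hx => by
      obtain ⟨i, hi⟩ := hP' x hx.1.1
      obtain ⟨j, hj⟩ := hQ' x hx.1.2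
      obtain ⟨k, hk⟩ := hR' x hx.2
      exact ⟨(i, j, k), hi, hj, hk⟩)
    (fun z => φ.ss z.1 z.2.1 (inf_le_left.trans v12) (inf_le_right.trans inf_le_left)
        (inf_le_right.trans (inf_le_right.trans inf_le_left)) *
      φ'.ss z.2.1 z.2.2 (inf_le_left.trans v23)
        (inf_le_right.trans (inf_le_right.trans inf_le_left))
        (inf_le_right.trans (inf_le_right.trans inf_le_right)) *
      (φ''.ss z.1 z.2.2 (inf_le_left.trans v13) (inf_le_right.trans inf_le_left)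
        (inf_le_right.trans (inf_le_right.trans inf_le_right)))⁻¹)
    (fun z z' W' hV hz hz' => by
      rw [map_mul, map_mul, map_mul, map_mul, map_inv, map_inv, IsoOn.ru_ss, IsoOn.ru_ss,
        IsoOn.ru_ss, IsoOn.ru_ss, IsoOn.ru_ss, IsoOn.ru_ss]
      exact dAux2'
        (φ.comm' z.1 z'.1 z.2.1 z'.2.1 (hV.trans v12) (hz.trans inf_le_left)
          (hz'.trans inf_le_left) (hz.trans (inf_le_right.trans inf_le_left))
          (hz'.trans (inf_le_right.trans inf_le_left)))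
        (φ'.comm' z.2.1 z'.2.1 z.2.2 z'.2.2 (hV.trans v23)
          (hz.trans (inf_le_right.trans inf_le_left))
          (hz'.trans (inf_le_right.trans inf_le_left))
          (hz.trans (inf_le_right.trans inf_le_right))
          (hz'.trans (inf_le_right.trans inf_le_right)))
        (φ''.comm' z.1 z'.1 z.2.2 z'.2.2 (hV.trans v13) (hz.trans inf_le_left)
          (hz'.trans inf_le_left) (hz.trans (inf_le_right.trans inf_le_right))
          (hz'.trans (inf_le_right.trans inf_le_right))))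
  have hone : r = 1 := by
    refine H.eq_one r (fun z : κ × α × β × γ =>
      π ⁻¹ᵁ V ⊓ (π ⁻¹ᵁ m.U z.1 ⊓ (P.U z.2.1 ⊓ (Q.U z.2.2.1 ⊓ R.U z.2.2.2)))) (fun x hx => ?_)
      (fun z T' hU hz => ?_)
    · obtain ⟨t, ht⟩ := m.cov (π x)
      obtain ⟨i, hi⟩ := hP' x hx.1.1
      obtain ⟨j, hj⟩ := hQ' x hx.1.2
      obtain ⟨k, hk⟩ := hR' x hx.2
      exact ⟨(t, i, j, k), hx, ht, hi, hj, hk⟩
    · obtain ⟨t, i, j, k⟩ := z
      have h0 : T' ≤ ε ⁻¹ᵁ (π ⁻¹ᵁ V ⊓ (P.U i ⊓ (Q.U j ⊓ R.U k))) := by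
        refine hz.trans (Scheme.Hom.preimage_mono ε ?_)
        exact le_inf inf_le_left (inf_le_right.trans inf_le_right)
      have hi : T' ≤ ε ⁻¹ᵁ P.U i := h0.trans (Scheme.Hom.preimage_mono ε
        (inf_le_right.trans inf_le_left))
      have hj : T' ≤ ε ⁻¹ᵁ Q.U j := h0.trans (Scheme.Hom.preimage_mono ε
        (inf_le_right.trans (inf_le_right.trans inf_le_left)))
      have hk : T' ≤ ε ⁻¹ᵁ R.U k := h0.trans (Scheme.Hom.preimage_mono ε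
        (inf_le_right.trans (inf_le_right.trans inf_le_right)))
      have ht : T' ≤ m.U t := (hz.trans (Scheme.Hom.preimage_mono ε
        (inf_le_right.trans inf_le_left))).trans (H.pre _).le
      have hV : T' ≤ V := hU.trans (H.pre _).le
      have h1 := congrArg (pu ε h0) (hr (i, j, k) (π ⁻¹ᵁ V ⊓ (P.U i ⊓ (Q.U j ⊓ R.U k)))
        inf_le_left inf_le_right)
      rw [pu_ru] at h1
      refine h1.trans ?_
      rw [pu_ru, map_mul, map_mul, map_inv, IsoOn.ss, IsoOn.ss, IsoOn.ss, pu_ru, pu_ru, pu_ru]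
      exact dAux3' (h t i j T' (hV.trans inf_le_left) ht hi hj)
        (h' t j k T' (hV.trans (le_inf (inf_le_left.trans inf_le_right) inf_le_right)) ht hj hk)
        (h'' t i k T' (hV.trans (le_inf (inf_le_left.trans inf_le_left) inf_le_right)) ht hi hk)
  have hWV : W ≤ π ⁻¹ᵁ V :=
    le_inf (le_inf (hi.trans (hP i)) (hj.trans (hQ j))) (hk.trans (hR k))
  have h2 := hr (i, j, k) W hWV (le_inf hi (le_inf hj hk))
  rw [hone, map_one, map_mul, map_mul, map_inv, IsoOn.ru_ss, IsoOn.ru_ss, IsoOn.ru_ss] at h2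
  exact (mul_inv_eq_one.mp h2.symm)

/-- gluing of partial cocycles -/
theorem exists_glue (H : SecInj π ε) {A : Type w} {ι : A → Type v'} (U : A → T.Opens)
    (hU : ∀ t, ∃ a, t ∈ U a) (P : ∀ a, CP X (ι a)) (hP : ∀ a i, (P a).U i ≤ π ⁻¹ᵁ U a)
    (hcov : ∀ a, ∀ x ∈ π ⁻¹ᵁ U a, ∃ i, x ∈ (P a).U i) (m : CocI T κ)
    (θ : ∀ a, IsoOn (ofI m) ((P a).comap ε) (U a))
    (ψ : ∀ a b, IsoOn (P a) (P b) (π ⁻¹ᵁ (U a ⊓ U b))) :
    ∃ D : CocI X (Σ a, ι a), (∀ x, D.U x = (P x.1).U x.2) ∧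
      (∀ (a : A) (i j : ι a) (W : X.Opens) (hi : W ≤ D.U ⟨a, i⟩) (hj : W ≤ D.U ⟨a, j⟩)
        (hi' : W ≤ (P a).U i) (hj' : W ≤ (P a).U j),
        D.gg ⟨a, i⟩ ⟨a, j⟩ hi hj = (P a).gg i j hi' hj') ∧
      PicC.map ε D.cls = m.cls := by
  have key := fun a b => IsoOn.exists_normal H (P := P a) (Q := P b) (m := m) (U := U a ⊓ U b)
    (U₁ := U a) (U₂ := U b) inf_le_left inf_le_right (fun x hx => hcov a x hx.1)
    (fun x hx => hcov b x hx.2) (θ a) (θ b) (ψ a b)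
  choose φ hφ using key
  have hc := fun a b c => IsoOn.cocycle_of_normal H (hP a) (hP b) (hP c) (hcov a) (hcov b)
    (hcov c) (θ a) (θ b) (θ c) (φ a b) (φ b c) (φ a c) (hφ a b) (hφ b c) (hφ a c)
  let D : CocI X (Σ a, ι a) :=
    { U := fun x => (P x.1).U x.2
      cov := fun x => by
        obtain ⟨a, ha⟩ := hU (π x)
        obtain ⟨i, hi⟩ := hcov a x ha
        exact ⟨⟨a, i⟩, hi⟩
      g := fun x y => (φ x.1 y.1).ss x.2 y.2 (le_inf (inf_le_left.trans (hP _ _))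
        (inf_le_right.trans (hP _ _))) inf_le_left inf_le_right
      cocycle := fun x y z V hx hy hz => by
        rw [IsoOn.ru_ss, IsoOn.ru_ss, IsoOn.ru_ss]
        exact hc x.1 y.1 z.1 x.2 y.2 z.2 V hx hy hz }
  have hgg : ∀ (x y : Σ a, ι a) (W : X.Opens) (hx : W ≤ (P x.1).U x.2) (hy : W ≤ (P y.1).U y.2),
      D.gg x y hx hy = (φ x.1 y.1).ss x.2 y.2 (le_inf (hx.trans (hP _ _))
        (hy.trans (hP _ _))) hx hy := fun x y W hx hy =>
    (φ x.1 y.1).ru_ss x.2 y.2 (W := (P x.1).U x.2 ⊓ (P y.1).U y.2)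
      (le_inf (inf_le_left.trans (hP _ _)) (inf_le_right.trans (hP _ _))) inf_le_left
      inf_le_right (le_inf hx hy)
  refine ⟨D, fun x => rfl, fun a i j W hi hj hi' hj' => ?_, ?_⟩
  · rw [hgg]
    have hW : W ≤ π ⁻¹ᵁ (U a ⊓ U a) := le_inf (hi.trans (hP _ _)) (hi.trans (hP _ _))
    have h1 : (φ a a).ss i i hW hi hi = 1 := mul_eq_left.mp (hc a a a i i i W hi hi hi)
    have h2 := (φ a a).comm' i i i j hW hi hi hi hj
    rw [gg_self, one_mul, h1, one_mul] at h2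
    exact h2
  · rw [← CocI.cls_comap]
    symm
    have hle : ∀ (t : κ) (x : Σ a, ι a), m.U t ⊓ ε ⁻¹ᵁ (P x.1).U x.2 ≤ U x.1 := fun t x =>
      inf_le_right.trans ((Scheme.Hom.preimage_mono ε (hP x.1 x.2)).trans (H.pre _).le)
    refine CocI.cls_eq m (D.comap ε) (fun t x => (θ x.1).ss t x.2 (hle t x) inf_le_left
      inf_le_right) (fun t t' x y V ht ht' hx hy => ?_)
    have hx' : V ≤ U x.1 := hx.trans ((Scheme.Hom.preimage_mono ε (hP x.1 x.2)).trans (H.pre _).le)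
    have hy' : V ≤ U y.1 := hy.trans ((Scheme.Hom.preimage_mono ε (hP y.1 y.2)).trans (H.pre _).le)
    rw [IsoOn.ru_ss, IsoOn.ru_ss, CocI.comap_g]
    have h1 := (θ y.1).comm' t t' y.2 y.2 hy' ht ht' hy hy
    rw [gg_self, mul_one] at h1
    refine (Eq.trans ?_ h1).trans ?_
    · rfl
    · have h2 := hφ x.1 y.1 t x.2 y.2 V (le_inf hx' hy') ht hx hy
      rw [← h2]
      congr 1
      exact (pu_ru ε (le_inf hx hy) (le_inf (le_inf (inf_le_left.trans (hP x.1 x.2))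
        (inf_le_right.trans (hP y.1 y.2))) le_rfl) ((φ x.1 y.1).s x.2 y.2)).symm

end CP

/-! ### Descent of classes -/

section Main

variable {X T : Scheme.{u}} {π : X ⟶ T} {ε : T ⟶ X}

/-- **Zariski descent of classes (existence)**. -/
theorem SecInj.exists_glue (H : SecInj π ε) {A : Type w} (U : A → T.Opens)
    (hU : ∀ t, ∃ a, t ∈ U a) (Y : A → Scheme.{u}) (f : ∀ a, Y a ⟶ X)
    [∀ a, IsOpenImmersion (f a)] (hf : ∀ a, (f a).opensRange = π ⁻¹ᵁ U a)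
    (e : ∀ a, (U a : Scheme.{u}) ⟶ Y a) (he : ∀ a, e a ≫ f a = (U a).ι ≫ ε)
    (Y2 : A → A → Scheme.{u}) (p : ∀ a b, Y2 a b ⟶ Y a) (q : ∀ a b, Y2 a b ⟶ Y b)
    (hpq : ∀ a b, p a b ≫ f a = q a b ≫ f b) [∀ a b, IsOpenImmersion (p a b ≫ f a)]
    (hp : ∀ a b, (p a b ≫ f a).opensRange = π ⁻¹ᵁ (U a ⊓ U b))
    (l : ∀ a, PicC (Y a)) (hl : ∀ a b, PicC.map (p a b) (l a) = PicC.map (q a b) (l b))
    (μ : PicC T) (hμ : ∀ a, PicC.map (e a) (l a) = PicC.map (U a).ι μ) :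
    ∃ L : PicC X, (∀ a, PicC.map (f a) L = l a) ∧ PicC.map ε L = μ := by
  have hl' : ∀ a, ∃ c : CocI (Y a) (Y a), c.cls = l a := fun a => by
    obtain ⟨c, hc⟩ := PicC.mk_surjective (l a)
    exact ⟨CocI.ofCoc c, (CocI.cls_ofCoc c).trans hc⟩
  choose c hc using hl'
  obtain ⟨m, hm⟩ : ∃ m : CocI T T, m.cls = μ := by
    obtain ⟨m, hm⟩ := PicC.mk_surjective μ
    exact ⟨CocI.ofCoc m, (CocI.cls_ofCoc m).trans hm⟩
  choose P hPU hPg using fun a => CP.exists_push (f a) (c a)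
  have hPU' : ∀ a i, (c a).U i ≤ f a ⁻¹ᵁ (P a).U i := fun a i => by
    rw [hPU, (f a).preimage_image_eq]
  have hPU'' : ∀ a i, f a ⁻¹ᵁ (P a).U i ≤ (c a).U i := fun a i => by
    rw [hPU, (f a).preimage_image_eq]
  have hPle : ∀ a i, (P a).U i ≤ π ⁻¹ᵁ U a := fun a i => by
    rw [hPU, ← hf]
    exact (f a).image_le_opensRange _
  have hcov : ∀ a, ∀ x ∈ π ⁻¹ᵁ U a, ∃ i, x ∈ (P a).U i := by
    intro a x hx
    rw [← hf] at hx
    obtain ⟨y, rfl⟩ := hx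
    obtain ⟨i, hi⟩ := (c a).cov y
    exact ⟨i, hPU' a i hi⟩
  have hθ : ∀ a, Nonempty (CP.IsoOn (CP.ofI m) ((P a).comap ε) (U a)) := by
    intro a
    have h1 : (m.comap (U a).ι).cls = ((c a).comap (e a)).cls := by
      rw [CocI.cls_comap, CocI.cls_comap, hc, hm, hμ]
    obtain ⟨F, hF⟩ := CocI.exists_of_cls_eq _ _ h1
    have hpre : ∀ i, (U a).ι ⁻¹ᵁ (ε ⁻¹ᵁ (P a).U i) ≤ e a ⁻¹ᵁ (c a).U i := by
      intro i
      rw [← Scheme.Hom.comp_preimage, ← he, Scheme.Hom.comp_preimage]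
      exact Scheme.Hom.preimage_mono _ (hPU'' a i)
    obtain ⟨φ, -⟩ := CP.IsoOn.exists_ofPull (U a).ι (U a) (by simp) (CP.ofI m)
      ((P a).comap ε) (fun t i => ru (inf_le_inf le_rfl (hpre i)) (F t i))
      (fun t t' i j W ht ht' hi hj => by
        have h2 := hF t t' i j W ht ht' (hi.trans (hpre i)) (hj.trans (hpre j))
        rw [CocI.comap_g, CocI.comap_g] at h2
        rw [ru_ru, ru_ru]
        refine (Eq.trans ?_ h2).trans ?_
        · rfl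
        · congr 1
          rw [pu_pu, pu_congr (he a).symm _ (by
            rw [Scheme.Hom.comp_preimage]
            exact (le_inf (hi.trans (hpre i)) (hj.trans (hpre j))).trans
              (Scheme.Hom.preimage_mono (e a) (le_inf (inf_le_left.trans (hPU' a i))
                (inf_le_right.trans (hPU' a j)))))]
          rw [← pu_pu (e a) (f a) (U := (P a).U i ⊓ (P a).U j)
            (V := (c a).U i ⊓ (c a).U j) (le_inf (inf_le_left.trans (hPU' a i))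
                (inf_le_right.trans (hPU' a j))) (le_inf (hi.trans (hpre i)) (hj.trans (hpre j))),
            hPg a i j ((c a).U i ⊓ (c a).U j) inf_le_left inf_le_right, CocI.gg_le])
    exact ⟨φ⟩
  have hψ : ∀ a b, Nonempty (CP.IsoOn (P a) (P b) (π ⁻¹ᵁ (U a ⊓ U b))) := by
    intro a b
    have h1 : ((c a).comap (p a b)).cls = ((c b).comap (q a b)).cls := by
      rw [CocI.cls_comap, CocI.cls_comap, hc, hc, hl]
    obtain ⟨F, hF⟩ := CocI.exists_of_cls_eq _ _ h1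
    have hprea : ∀ i, (p a b ≫ f a) ⁻¹ᵁ ((P a).U i) ≤ p a b ⁻¹ᵁ (c a).U i := by
      intro i
      rw [Scheme.Hom.comp_preimage]
      exact Scheme.Hom.preimage_mono _ (hPU'' a i)
    have hpreb : ∀ i, (p a b ≫ f a) ⁻¹ᵁ ((P b).U i) ≤ q a b ⁻¹ᵁ (c b).U i := by
      intro i
      rw [hpq, Scheme.Hom.comp_preimage]
      exact Scheme.Hom.preimage_mono _ (hPU'' b i)
    obtain ⟨φ, -⟩ := CP.IsoOn.exists_ofPull (p a b ≫ f a) (π ⁻¹ᵁ (U a ⊓ U b)) (hp a b).ge (P a)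
      (P b) (fun i k => ru (inf_le_inf (hprea i) (hpreb k)) (F i k))
      (fun i j k l W hi hj hk hl => by
        have h2 := hF i j k l W (hi.trans (hprea i)) (hj.trans (hprea j)) (hk.trans (hpreb k))
          (hl.trans (hpreb l))
        rw [CocI.comap_g, CocI.comap_g] at h2
        rw [ru_ru, ru_ru]
        refine (Eq.trans ?_ h2).trans ?_
        · congr 1
          rw [← pu_pu (p a b) (f a) (U := (P a).U i ⊓ (P a).U j)
            (V := (c a).U i ⊓ (c a).U j) (le_inf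
            (inf_le_left.trans (hPU' a i)) (inf_le_right.trans (hPU' a j)))
            (le_inf (hi.trans (hprea i)) (hj.trans (hprea j))),
            hPg a i j ((c a).U i ⊓ (c a).U j) inf_le_left inf_le_right, CocI.gg_le]
        · congr 1
          rw [pu_congr (hpq a b) _ (by
            rw [Scheme.Hom.comp_preimage]
            exact (le_inf (hk.trans (hpreb k)) (hl.trans (hpreb l))).trans
              (Scheme.Hom.preimage_mono (q a b) (le_inf (inf_le_left.trans (hPU' b k))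
                (inf_le_right.trans (hPU' b l)))))]
          rw [← pu_pu (q a b) (f b) (U := (P b).U k ⊓ (P b).U l)
            (V := (c b).U k ⊓ (c b).U l) (le_inf
            (inf_le_left.trans (hPU' b k)) (inf_le_right.trans (hPU' b l)))
            (le_inf (hk.trans (hpreb k)) (hl.trans (hpreb l))),
            hPg b k l ((c b).U k ⊓ (c b).U l) inf_le_left inf_le_right, CocI.gg_le])
    exact ⟨φ⟩
  obtain ⟨D, hDU, hDg, hDm⟩ := CP.exists_glue H U hU P hPle hcov m (fun a => (hθ a).some)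
    (fun a b => (hψ a b).some)
  refine ⟨D.cls, fun a => ?_, hDm.trans hm⟩
  rw [← CocI.cls_comap, ← hc a]
  symm
  have hσ : ∀ k, (c a).U k ≤ f a ⁻¹ᵁ D.U ⟨a, k⟩ := fun k => by
    rw [hDU]
    exact hPU' a k
  refine CocI.cls_eq_of_refine (D.comap (f a)) (c a) (fun i => ⟨a, i⟩) hσ
    (fun k l V hk hl => ?_)
  rw [CocI.comap_gg (f a) D ⟨a, k⟩ ⟨a, l⟩ (W := (P a).U k ⊓ (P a).U l) _ _
    (le_inf (hk.trans (hPU' a k)) (hl.trans (hPU' a l)))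
    (by rw [hDU]; exact inf_le_left) (by rw [hDU]; exact inf_le_right),
    hDg a k l _ _ _ inf_le_left inf_le_right, CP.gg, ru_self]
  exact (hPg a k l V hk hl _).symm

/-- **Zariski descent of classes (uniqueness)**. -/
theorem SecInj.eq_one_of_local (H : SecInj π ε) {A : Type w} (U : A → T.Opens)
    (hU : ∀ t, ∃ a, t ∈ U a) (Y : A → Scheme.{u}) (f : ∀ a, Y a ⟶ X)
    [∀ a, IsOpenImmersion (f a)] (hf : ∀ a, (f a).opensRange = π ⁻¹ᵁ U a)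
    (L : PicC X) (hL : ∀ a, PicC.map (f a) L = 1) (hε : PicC.map ε L = 1) : L = 1 := by
  obtain ⟨c, rfl⟩ : ∃ c : CocI X X, c.cls = L := by
    obtain ⟨c, hc⟩ := PicC.mk_surjective L
    exact ⟨CocI.ofCoc c, (CocI.cls_ofCoc c).trans hc⟩
  -- trivialisations on the pieces
  have h1 : ∀ a, ∃ s : ∀ i, Γ(X, π ⁻¹ᵁ U a ⊓ c.U i)ˣ, ∀ (i j : X) (W : X.Opens)
      (hW : W ≤ π ⁻¹ᵁ U a) (hi : W ≤ c.U i) (hj : W ≤ c.U j),
      ru (le_inf hW hi) (s i) * c.gg i j hi hj = ru (le_inf hW hj) (s j) := by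
    intro a
    have h2 := hL a
    rw [← CocI.cls_comap, CocI.cls_eq_one_iff] at h2
    obtain ⟨F, hF⟩ := h2
    have hpre : ∀ i, f a ⁻¹ᵁ (π ⁻¹ᵁ U a ⊓ c.U i) ≤ f a ⁻¹ᵁ c.U i := fun i =>
      Scheme.Hom.preimage_mono (f a) inf_le_right
    have hran : ∀ i, π ⁻¹ᵁ U a ⊓ c.U i ≤ (f a).opensRange := fun i => by
      rw [hf]
      exact inf_le_left
    choose s hs using fun i => exists_pu (f a) (hran i) (hpre i) (F i)
    have hs' : ∀ (i : X) (W : (Y a).Opens) (hW : W ≤ f a ⁻¹ᵁ (π ⁻¹ᵁ U a ⊓ c.U i)),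
        pu (f a) hW (s i) = ru (hW.trans (hpre i)) (F i) := by
      intro i W hW
      have := congrArg (ru hW) (hs i)
      rw [ru_pu, ru_ru] at this
      exact this
    refine ⟨s, fun i j W hW hi hj => ?_⟩
    refine pu_injective (f a) (by rw [hf]; exact hW) le_rfl le_rfl ?_
    rw [map_mul, pu_ru, pu_ru, hs', hs', CocI.gg, pu_ru]
    have h3 := hF i j (f a ⁻¹ᵁ W) (Scheme.Hom.preimage_mono (f a) hi)
      (Scheme.Hom.preimage_mono (f a) hj)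
    rw [CocI.comap_g] at h3
    exact mul_eq_of_eq_inv_mul h3
  choose s hs using h1
  -- trivialisation along the section
  rw [← CocI.cls_comap, CocI.cls_eq_one_iff] at hε
  obtain ⟨G, hG'⟩ : ∃ G : ∀ i, Γ(T, ε ⁻¹ᵁ c.U i)ˣ, ∀ (i j : X) (W : T.Opens)
      (hi : W ≤ ε ⁻¹ᵁ c.U i) (hj : W ≤ ε ⁻¹ᵁ c.U j),
      ru hi (G i) * pu ε (le_inf hi hj) (c.g i j) = ru hj (G j) := by
    obtain ⟨G, hG⟩ := hε
    refine ⟨G, fun i j W hi hj => ?_⟩
    have h3 := hG i j W hi hj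
    rw [CocI.comap_g] at h3
    exact mul_eq_of_eq_inv_mul h3
  have hcov : ∀ x : X, ∃ i, x ∈ c.U i := c.cov
  have hεs : ∀ (a : A) (i j : X) (W : T.Opens) (hW : W ≤ U a) (hi : W ≤ ε ⁻¹ᵁ c.U i)
      (hj : W ≤ ε ⁻¹ᵁ c.U j),
      pu ε (show W ≤ ε ⁻¹ᵁ (π ⁻¹ᵁ U a ⊓ c.U i) from le_inf (hW.trans (H.pre _).ge) hi) (s a i) *
        pu ε (le_inf hi hj) (c.g i j) =
      pu ε (show W ≤ ε ⁻¹ᵁ (π ⁻¹ᵁ U a ⊓ c.U j) from le_inf (hW.trans (H.pre _).ge) hj)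
        (s a j) := by
    intro a i j W hW hi hj
    have h3 := congrArg (pu ε (show W ≤ ε ⁻¹ᵁ (π ⁻¹ᵁ U a ⊓ (c.U i ⊓ c.U j)) from
      le_inf (hW.trans (H.pre _).ge) (le_inf hi hj)))
      (hs a i j (π ⁻¹ᵁ U a ⊓ (c.U i ⊓ c.U j)) inf_le_left (inf_le_right.trans inf_le_left)
        (inf_le_right.trans inf_le_right))
    rw [map_mul, pu_ru, pu_ru, CocI.gg, pu_ru] at h3
    exact h3
  -- normalised trivialisations
  have h2 : ∀ a, ∃ s' : ∀ i, Γ(X, π ⁻¹ᵁ U a ⊓ c.U i)ˣ, (∀ (i j : X) (W : X.Opens)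
      (hW : W ≤ π ⁻¹ᵁ U a) (hi : W ≤ c.U i) (hj : W ≤ c.U j),
      ru (le_inf hW hi) (s' i) * c.gg i j hi hj = ru (le_inf hW hj) (s' j)) ∧
      ∀ (i : X) (W : T.Opens) (hW : W ≤ U a) (hi : W ≤ ε ⁻¹ᵁ c.U i),
        pu ε (show W ≤ ε ⁻¹ᵁ (π ⁻¹ᵁ U a ⊓ c.U i) from le_inf (hW.trans (H.pre _).ge) hi) (s' i) =
          ru hi (G i) := by
    intro a
    obtain ⟨v, hv⟩ := unit_glue' (V := U a) (fun i : X => ε ⁻¹ᵁ c.U i)
      (fun x _ => hcov (ε x))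
      (fun i => ru inf_le_right (G i) *
        (pu ε (show U a ⊓ ε ⁻¹ᵁ c.U i ≤ ε ⁻¹ᵁ (π ⁻¹ᵁ U a ⊓ c.U i) from
          le_inf (inf_le_left.trans (H.pre _).ge) inf_le_right) (s a i))⁻¹)
      (fun i j W hV hi hj => by
        rw [map_mul, map_mul, map_inv, map_inv, ru_pu, ru_pu, ru_ru, ru_ru, ← hG' i j W hi hj,
          ← hεs a i j W hV hi hj, mul_inv, mul_mul_mul_comm, mul_inv_cancel, mul_one])
    refine ⟨fun i => pu π inf_le_left v * s a i, fun i j W hW hi hj => ?_, fun i W hW hi => ?_⟩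
    · rw [map_mul, map_mul, ru_pu, ru_pu, mul_assoc, hs a i j W hW hi hj]
    · rw [map_mul, H.pu_pu_eq, hv i W hW hi, map_mul, map_inv, ru_pu, ru_ru,
        inv_mul_cancel_right]
  choose s' hs' hn using h2
  -- agreement on overlaps
  have h3 : ∀ (a b : A) (i : X) (W : X.Opens) (ha : W ≤ π ⁻¹ᵁ U a) (hb : W ≤ π ⁻¹ᵁ U b)
      (hi : W ≤ c.U i), ru (le_inf ha hi) (s' a i) = ru (le_inf hb hi) (s' b i) := by
    intro a b i W ha hb hi
    have va : π ⁻¹ᵁ (U a ⊓ U b) ≤ π ⁻¹ᵁ U a := Scheme.Hom.preimage_mono π inf_le_left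
    have vb : π ⁻¹ᵁ (U a ⊓ U b) ≤ π ⁻¹ᵁ U b := Scheme.Hom.preimage_mono π inf_le_right
    obtain ⟨r, hr⟩ := unit_glue' (V := π ⁻¹ᵁ (U a ⊓ U b)) (fun i : X => c.U i)
      (fun x _ => hcov x)
      (fun i => ru (le_inf (inf_le_left.trans va) inf_le_right) (s' a i) *
        (ru (le_inf (inf_le_left.trans vb) inf_le_right) (s' b i))⁻¹)
      (fun i j W hV hi hj => by
        rw [map_mul, map_mul, map_inv, map_inv, ru_ru, ru_ru, ru_ru, ru_ru,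
          ← hs' a i j W (hV.trans va) hi hj, ← hs' b i j W (hV.trans vb) hi hj, mul_inv,
          mul_mul_mul_comm, mul_inv_cancel, mul_one])
    have hone : r = 1 := by
      refine H.eq_one r (fun i => π ⁻¹ᵁ (U a ⊓ U b) ⊓ c.U i) (fun x hx => ?_)
        (fun i T' hT hi => ?_)
      · obtain ⟨i, hi⟩ := hcov x
        exact ⟨i, hx, hi⟩
      · have h4 := congrArg (pu ε hi) (hr i (π ⁻¹ᵁ (U a ⊓ U b) ⊓ c.U i) inf_le_left inf_le_right)
        rw [pu_ru] at h4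
        have hi' : T' ≤ ε ⁻¹ᵁ c.U i := hi.trans (Scheme.Hom.preimage_mono ε inf_le_right)
        have hT' : T' ≤ U a ⊓ U b := hT.trans (H.pre _).le
        refine h4.trans ?_
        rw [pu_ru, map_mul, map_inv, pu_ru, pu_ru, mul_inv_eq_one]
        exact (hn a i T' (hT'.trans inf_le_left) hi').trans
          (hn b i T' (hT'.trans inf_le_right) hi').symm
    have hW : W ≤ π ⁻¹ᵁ (U a ⊓ U b) := le_inf ha hb
    have h5 := hr i W hW hi
    rw [hone, map_one, map_mul, map_inv, ru_ru, ru_ru] at h5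
    exact mul_inv_eq_one.mp h5.symm
  have h4 : ∀ i, ∃ S : Γ(X, c.U i)ˣ, ∀ (a : A) (W : X.Opens) (hi : W ≤ c.U i)
      (hW : W ≤ π ⁻¹ᵁ U a), ru hi S = ru (le_inf hi hW)
        (ru (show c.U i ⊓ π ⁻¹ᵁ U a ≤ π ⁻¹ᵁ U a ⊓ c.U i from le_inf inf_le_right inf_le_left)
          (s' a i)) := by
    intro i
    obtain ⟨S, hS⟩ := unit_glue' (V := c.U i) (fun a => π ⁻¹ᵁ U a) (fun x _ => hU (π x))
      (fun a => ru (show c.U i ⊓ π ⁻¹ᵁ U a ≤ π ⁻¹ᵁ U a ⊓ c.U i from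
        le_inf inf_le_right inf_le_left) (s' a i))
      (fun a b W hi ha hb => by
        rw [ru_ru, ru_ru]
        exact h3 a b i W ha hb hi)
    exact ⟨S, fun a W hi hW => hS a W hi hW⟩
  choose S hS using h4
  refine CocI.cls_eq_one_of_coboundary c S (fun i j V hi hj => ?_)
  refine unit_ext (fun a => V ⊓ π ⁻¹ᵁ U a) (fun a => inf_le_left) (fun x hx => ?_) fun a => ?_
  · obtain ⟨a, ha⟩ := hU (π x)
    exact ⟨a, hx, ha⟩
  · rw [map_mul, map_inv, ru_ru, ru_ru, CocI.ru_gg,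
      hS i a (V ⊓ π ⁻¹ᵁ U a) (inf_le_left.trans hi) inf_le_right,
      hS j a (V ⊓ π ⁻¹ᵁ U a) (inf_le_left.trans hj) inf_le_right, ru_ru, ru_ru, eq_inv_mul_iff_mul_eq]
    exact hs' a i j (V ⊓ π ⁻¹ᵁ U a) inf_le_right (inf_le_left.trans hi) (inf_le_left.trans hj)

/-- **Zariski descent of classes (uniqueness)**, for two classes. -/
theorem SecInj.ext_local (H : SecInj π ε) {A : Type w} (U : A → T.Opens)
    (hU : ∀ t, ∃ a, t ∈ U a) (Y : A → Scheme.{u}) (f : ∀ a, Y a ⟶ X)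
    [∀ a, IsOpenImmersion (f a)] (hf : ∀ a, (f a).opensRange = π ⁻¹ᵁ U a)
    (L L' : PicC X) (hL : ∀ a, PicC.map (f a) L = PicC.map (f a) L')
    (hε : PicC.map ε L = PicC.map ε L') : L = L' := by
  have h := H.eq_one_of_local U hU Y f hf (L * L'⁻¹) (fun a => by
    rw [map_mul, map_inv, hL, mul_inv_cancel]) (by rw [map_mul, map_inv, hε, mul_inv_cancel])
  exact mul_inv_eq_one.mp h

end Main

end Fermat.Agent.J25
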