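import Mathlib
import Fermat.Agent.J25.Hub
import Fermat.Agent.J25.Sec

/-!
# The affine charts of `C_R`, and the base change squares
-/

set_option autoImplicit false

noncomputable section

universe u v w

open CategoryTheory CategoryTheory.Limits AlgebraicGeometry TensorProduct NeronModelInfra
  TopologicalSpace Opposite

namespace Fermat.Agent.J25.CRG

attribute [-instance] HahnSeries.powerSeriesAlgebra

section cover

variable {X Y : Scheme.{u}}

theorem pb_top (j : Y ⟶ X) (h : (⊤ : Y.Opens) ≤ j ⁻¹ᵁ ⊤) (f : Γ(X, ⊤)) :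
    pb j h f = j.appTop.hom f :=
  congrArg (fun φ : Γ(X, ⊤) ⟶ Γ(Y, ⊤) => φ.hom f) (Scheme.Hom.appLE_eq_app j)

theorem pb_congr {j j' : Y ⟶ X} (e : j = j') {U : X.Opens} {V : Y.Opens} (h : V ≤ j ⁻¹ᵁ U)
    (h' : V ≤ j' ⁻¹ᵁ U) (f : Γ(X, U)) : pb j h f = pb j' h' f := by
  subst e
  rfl

/-- pullback of sections along an open immersion is injective if the range contains the open -/
theorem pb_inj_of_range (j : Y ⟶ X) [IsOpenImmersion j] {V : X.Opens} {V' : Y.Opens}
    (h : V' ≤ j ⁻¹ᵁ V) (h' : ∀ x ∈ V, ∃ y ∈ V', j y = x) : Function.Injective (pb j h) := by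
  obtain rfl : V' = j ⁻¹ᵁ V := le_antisymm h fun y hy => by
    obtain ⟨y', hy', he⟩ := h' (j y) hy
    rwa [j.isOpenEmbedding.injective he] at hy'
  have hV : V ≤ j.opensRange := fun x hx => by
    obtain ⟨y, -, hy⟩ := h' x hx
    exact ⟨y, hy⟩
  have h1 : IsIso (j.app V) := j.isIso_app V hV
  have h2 : Function.Injective (j.app V).hom := (ConcreteCategory.bijective_of_isIso (j.app V)).1
  have h3 : j.appLE V (j ⁻¹ᵁ V) h = j.app V := Scheme.Hom.appLE_eq_app j
  unfold pb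
  rw [h3]
  exact h2

/-- sections are determined by their pullbacks to a cover by open immersions -/
theorem sec_ext_cover {ι : Type*} (Y : ι → Scheme.{u}) (j : ∀ i, Y i ⟶ X)
    [∀ i, IsOpenImmersion (j i)] {W : X.Opens} (V : ∀ i, (Y i).Opens)
    (hV : ∀ i, V i ≤ (j i) ⁻¹ᵁ W) (hc : ∀ x ∈ W, ∃ i, ∃ y ∈ V i, j i y = x) {a b : Γ(X, W)}
    (h : ∀ i, pb (j i) (hV i) a = pb (j i) (hV i) b) : a = b := by
  refine sec_ext (fun i => (j i) ''ᵁ (V i)) (fun i => ?_) (fun x hx => ?_) fun i => ?_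
  · rintro _ ⟨y, hy, rfl⟩
    exact hV i hy
  · obtain ⟨i, y, hy, rfl⟩ := hc x hx
    exact ⟨i, y, hy, rfl⟩
  · have hle : V i ≤ (j i) ⁻¹ᵁ ((j i) ''ᵁ (V i)) := fun y hy => ⟨y, hy, rfl⟩
    apply pb_inj_of_range (j i) hle (by rintro _ ⟨y, hy, rfl⟩; exact ⟨y, hy, rfl⟩)
    rw [pb_rs, pb_rs]
    exact h i

/-- sections are determined by their pullbacks to two open immersions covering -/
theorem sec_ext_two {Y₁ Y₂ : Scheme.{u}} (j₁ : Y₁ ⟶ X) (j₂ : Y₂ ⟶ X) [IsOpenImmersion j₁]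
    [IsOpenImmersion j₂] {W : X.Opens} (V₁ : Y₁.Opens) (V₂ : Y₂.Opens) (h₁ : V₁ ≤ j₁ ⁻¹ᵁ W)
    (h₂ : V₂ ≤ j₂ ⁻¹ᵁ W) (hc : ∀ x ∈ W, (∃ y ∈ V₁, j₁ y = x) ∨ ∃ y ∈ V₂, j₂ y = x)
    {a b : Γ(X, W)} (e₁ : pb j₁ h₁ a = pb j₁ h₁ b) (e₂ : pb j₂ h₂ a = pb j₂ h₂ b) : a = b := by
  refine sec_ext (ι := Bool) (fun i => cond i (j₁ ''ᵁ V₁) (j₂ ''ᵁ V₂)) (fun i => ?_)
    (fun x hx => ?_) fun i => ?_
  · cases i
    · rintro _ ⟨y, hy, rfl⟩
      exact h₂ hy
    · rintro _ ⟨y, hy, rfl⟩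
      exact h₁ hy
  · rcases hc x hx with ⟨y, hy, rfl⟩ | ⟨y, hy, rfl⟩
    · exact ⟨true, y, hy, rfl⟩
    · exact ⟨false, y, hy, rfl⟩
  · cases i
    · have hle : V₂ ≤ j₂ ⁻¹ᵁ (j₂ ''ᵁ V₂) := fun y hy => ⟨y, hy, rfl⟩
      apply pb_inj_of_range j₂ hle (by rintro _ ⟨y, hy, rfl⟩; exact ⟨y, hy, rfl⟩)
      dsimp only [cond]
      rw [pb_rs, pb_rs]
      exact e₂
    · have hle : V₁ ≤ j₁ ⁻¹ᵁ (j₁ ''ᵁ V₁) := fun y hy => ⟨y, hy, rfl⟩
      apply pb_inj_of_range j₁ hle (by rintro _ ⟨y, hy, rfl⟩; exact ⟨y, hy, rfl⟩)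
      dsimp only [cond]
      rw [pb_rs, pb_rs]
      exact e₁

end cover

section baseChange

variable {R : Type u} [CommRing R] {C T T' : Scheme.{u}} (c : C ⟶ Spec (CommRingCat.of R))
    {t : T ⟶ Spec (CommRingCat.of R)} {t' : T' ⟶ Spec (CommRingCat.of R)}
    (s : SchemeHomOver t' t)

@[reassoc]
theorem baseChangeSnd_fst :
    RelPicard.baseChangeSnd c s ≫ pullback.fst c t = pullback.fst c t' := by
  unfold RelPicard.baseChangeSnd
  rw [pullback.map, pullback.lift_fst, Category.comp_id]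

@[reassoc]
theorem baseChangeSnd_snd :
    RelPicard.baseChangeSnd c s ≫ pullback.snd c t = pullback.snd c t' ≫ s.1 := by
  unfold RelPicard.baseChangeSnd
  rw [pullback.map, pullback.lift_snd]

theorem isPullback_baseChangeSnd :
    IsPullback (RelPicard.baseChangeSnd c s) (pullback.snd c t') (pullback.snd c t) s.1 := by
  refine IsPullback.of_right (h₁₂ := pullback.fst c t) (h₂₂ := t) (v₁₃ := c) ?_
    (baseChangeSnd_snd c s) (IsPullback.of_hasPullback c t)
  rw [baseChangeSnd_fst, s.2]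
  exact IsPullback.of_hasPullback c t'

instance isOpenImmersion_baseChangeSnd [IsOpenImmersion s.1] :
    IsOpenImmersion (RelPicard.baseChangeSnd c s) :=
  MorphismProperty.of_isPullback (P := @IsOpenImmersion) (isPullback_baseChangeSnd c s).flip
    inferInstance

theorem mem_range_baseChangeSnd {x : (pullback c t : Scheme.{u})}
    (h : pullback.snd c t x ∈ Set.range s.1) :
    x ∈ Set.range (RelPicard.baseChangeSnd c s) := by
  obtain ⟨y, hy⟩ := h
  obtain ⟨z, hz, -⟩ := Scheme.exists_preimage_of_isPullback (isPullback_baseChangeSnd c s) x y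
    hy.symm
  exact ⟨z, hz⟩

end baseChange

section chart

variable {k : Type u} [Field k] {C : Scheme.{u}} (c : C ⟶ Spec (CommRingCat.of k))
variable (R : Type u) [CommRing R] [Algebra k R]
variable {E : Type u} [CommRing E] [Algebra k E] (j : Spec (CommRingCat.of E) ⟶ C)
  (hj : j ≫ c = sS k E)

variable (k E) in
/-- `Spec (R ⊗ E) ⟶ Spec E` -/
abbrev pE : Spec (CommRingCat.of (R ⊗[k] E)) ⟶ Spec (CommRingCat.of E) :=
  Spec.map (CommRingCat.ofHom (Algebra.TensorProduct.includeRight : E →ₐ[k] R ⊗[k] E).toRingHom)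

variable (k E) in
/-- `Spec (R ⊗ E) ⟶ Spec R` -/
abbrev pR : Spec (CommRingCat.of (R ⊗[k] E)) ⟶ Spec (CommRingCat.of R) :=
  Spec.map (CommRingCat.ofHom (Algebra.TensorProduct.includeLeftRingHom : R →+* R ⊗[k] E))

variable (k E) in
theorem isPullback_tensor : IsPullback (pR k R E) (pE k R E) (sS k R) (sS k E) :=
  isPullback_SpecMap_of_isPushout _ _ _ _ (CommRingCat.isPushout_tensorProduct k R E)

include hj in
theorem jR_w : (pE k R E ≫ j) ≫ c = pR k R E ≫ sS k R := by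
  rw [Category.assoc, hj, (isPullback_tensor k R E).w]

/-- the chart `Spec (R ⊗ E) ⟶ C_R` attached to a chart `Spec E ⟶ C` -/
def jR : Spec (CommRingCat.of (R ⊗[k] E)) ⟶ CR c R :=
  pullback.lift (pE k R E ≫ j) (pR k R E) (jR_w c R j hj)

@[reassoc (attr := simp)]
theorem jR_fst : jR c R j hj ≫ pullback.fst c (sS k R) = pE k R E ≫ j := pullback.lift_fst _ _ _

@[reassoc (attr := simp)]
theorem jR_snd : jR c R j hj ≫ pullback.snd c (sS k R) = pR k R E := pullback.lift_snd _ _ _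

theorem isPullback_jR : IsPullback (jR c R j hj) (pE k R E) (pullback.fst c (sS k R)) j := by
  refine IsPullback.of_right (h₁₂ := pullback.snd c (sS k R)) (h₂₂ := c) (v₁₃ := sS k R) ?_
    (jR_fst c R j hj) (IsPullback.of_hasPullback c (sS k R)).flip
  rw [jR_snd, hj]
  exact isPullback_tensor k R E

instance isOpenImmersion_jR [IsOpenImmersion j] : IsOpenImmersion (jR c R j hj) :=
  MorphismProperty.of_isPullback (P := @IsOpenImmersion) (isPullback_jR c R j hj).flip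
    inferInstance

theorem mem_range_jR {x : CR c R} (h : pullback.fst c (sS k R) x ∈ Set.range j) :
    x ∈ Set.range (jR c R j hj) := by
  obtain ⟨y, hy⟩ := h
  obtain ⟨z, hz, -⟩ := Scheme.exists_preimage_of_isPullback (isPullback_jR c R j hj) x y
    hy.symm
  exact ⟨z, hz⟩

theorem mem_range_jR_iff {x : CR c R} :
    x ∈ Set.range (jR c R j hj) ↔ pullback.fst c (sS k R) x ∈ Set.range j := by
  refine ⟨?_, mem_range_jR c R j hj⟩
  rintro ⟨y, rfl⟩
  refine ⟨pE k R E y, ?_⟩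
  rw [← Scheme.Hom.comp_apply, ← Scheme.Hom.comp_apply, jR_fst]

variable {E' : Type u} [CommRing E'] [Algebra k E'] (j' : Spec (CommRingCat.of E') ⟶ C)
  (hj' : j' ≫ c = sS k E')

/-- change of chart -/
theorem map_jR (φ : E →ₐ[k] E') (h : Spec.map (CommRingCat.ofHom (φ : E →+* E')) ≫ j = j') :
    Spec.map (CommRingCat.ofHom
      (Algebra.TensorProduct.map (AlgHom.id R R) φ : R ⊗[k] E →+* R ⊗[k] E')) ≫ jR c R j hj =
      jR c R j' hj' := by
  subst h
  apply pullback.hom_ext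
  · rw [Category.assoc, jR_fst, jR_fst, ← Category.assoc, ← Category.assoc, ← Spec.map_comp,
      ← Spec.map_comp]
    congr 2
  · rw [Category.assoc, jR_snd, jR_snd, ← Spec.map_comp]
    congr 1
    ext x
    simp

/-- sections of `C_R` given by maps `R ⊗ E → R` -/
theorem map_jR_sec (φ : R ⊗[k] E →ₐ[R] R) (f : Spec (CommRingCat.of k) ⟶ C) (α : E →ₐ[k] k)
    (hf : f = Spec.map (CommRingCat.ofHom (α : E →+* k)) ≫ j)
    (hα : ∀ x : E, φ (1 ⊗ₜ x) = algebraMap k R (α x)) (hfc : f ≫ c = 𝟙 _) :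
    Spec.map (CommRingCat.ofHom (φ : R ⊗[k] E →+* R)) ≫ jR c R j hj =
      pullback.lift (sS k R ≫ f) (𝟙 _) (by
        rw [Category.assoc, hfc, Category.comp_id, Category.id_comp]) := by
  subst hf
  apply pullback.hom_ext
  · rw [Category.assoc, jR_fst, pullback.lift_fst, ← Category.assoc, ← Category.assoc,
      ← Spec.map_comp, ← Spec.map_comp]
    congr 2
    ext x
    exact hα x
  · rw [Category.assoc, jR_snd, pullback.lift_snd, ← Spec.map_comp, ← Spec.map_id]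
    congr 1
    ext x
    change φ (x ⊗ₜ 1) = x
    have := φ.commutes x
    rwa [Algebra.TensorProduct.algebraMap_apply] at this

/-- restriction of global sections of `C_R` to a chart -/
def resC (f : Γ(CR c R, ⊤)) : R ⊗[k] E :=
  (Scheme.ΓSpecIso (CommRingCat.of (R ⊗[k] E))).hom.hom ((jR c R j hj).appTop.hom f)

/-- restriction of global sections of `C_R` to a chart, as a ring homomorphism -/
def resCHom : Γ(CR c R, ⊤) →+* R ⊗[k] E :=
  (Scheme.ΓSpecIso (CommRingCat.of (R ⊗[k] E))).hom.hom.comp (jR c R j hj).appTop.hom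

theorem resCHom_apply (f : Γ(CR c R, ⊤)) : resCHom c R j hj f = resC c R j hj f := rfl

/-- compatibility of the restrictions to charts with ring homomorphisms -/
theorem resC_of_eq {P : Type u} [CommRing P] (ψ : R ⊗[k] E →+* P)
    (f : Γ(CR c R, ⊤)) : ψ (resC c R j hj f) =
      (Scheme.ΓSpecIso (CommRingCat.of P)).hom.hom
        ((Spec.map (CommRingCat.ofHom ψ) ≫ jR c R j hj).appTop.hom f) := by
  have h := Scheme.ΓSpecIso_naturality (CommRingCat.ofHom ψ)
  have h2 := congrArg (fun φ => φ.hom ((jR c R j hj).appTop.hom f)) h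
  simp only [CommRingCat.hom_comp, RingHom.comp_apply] at h2
  rw [Scheme.Hom.comp_appTop]
  exact h2.symm

theorem resC_map (φ : E →ₐ[k] E') (h : Spec.map (CommRingCat.ofHom (φ : E →+* E')) ≫ j = j')
    (f : Γ(CR c R, ⊤)) :
    Algebra.TensorProduct.map (AlgHom.id R R) φ (resC c R j hj f) = resC c R j' hj' f := by
  have h1 := resC_of_eq c R j hj
    (Algebra.TensorProduct.map (AlgHom.id R R) φ : R ⊗[k] E →+* R ⊗[k] E') f
  rw [map_jR c R j hj j' hj' φ h] at h1
  exact h1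

end chart

end Fermat.Agent.J25.CRG
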