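import Mathlib
import Fermat.Agent.J25.ChartR

/-!
# `Γ(C_T, O) = Γ(T, O)`
-/

set_option autoImplicit false

noncomputable section

universe u v w

open CategoryTheory CategoryTheory.Limits AlgebraicGeometry TensorProduct NeronModelInfra
  TopologicalSpace Opposite

namespace Fermat.Agent.J25.CRG

attribute [-instance] HahnSeries.powerSeriesAlgebra

section alg

variable {k : Type u} [Field k] {A : Type u} [CommRing A] [Algebra k A]
  (e : A →ₐ[k] LaurentSeries k) {R : Type u} [CommRing R] [Algebra k R]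

/-- `A_R ∩ R[[z]] = R` -/
theorem exists_of_exR_mem_LV (H0 : ∀ x : A, e x ∈ LV k 0 → ∃ r : k, x = algebraMap k A r)
    {x : R ⊗[k] A} (hx : exR e R x ∈ LV R 0) : ∃ r : R, x = r ⊗ₜ 1 := by
  classical
  let b := Module.Basis.ofVectorSpace k R
  obtain ⟨s, c, rfl⟩ : ∃ (s : Finset _) (c : _ → A), x = ∑ i ∈ s, b i ⊗ₜ[k] c i := by
    refine ⟨(TensorProduct.equivFinsuppOfBasisLeft b x).support,
      TensorProduct.equivFinsuppOfBasisLeft b x, ?_⟩
    conv_lhs => rw [← (TensorProduct.equivFinsuppOfBasisLeft b).symm_apply_apply x]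
    rw [TensorProduct.equivFinsuppOfBasisLeft_symm_apply]
    rfl
  have h : ∀ n : ℤ, n < 0 → ∑ i ∈ s, (e (c i)).coeff n • b i = 0 := by
    intro n hn
    have h1 := hx n hn
    rw [map_sum, HahnSeries.coeff_sum] at h1
    simp only [exR_tmul, smul_ex_coeff] at h1
    exact h1
  have h2 : ∀ i ∈ s, ∃ r : k, c i = algebraMap k A r := fun i hi =>
    H0 _ fun n hn => linearIndependent_iff'.mp b.linearIndependent s _ (h n hn) i hi
  choose! r hr using h2
  refine ⟨∑ i ∈ s, r i • b i, ?_⟩
  rw [TensorProduct.sum_tmul]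
  refine Finset.sum_congr rfl fun i hi => ?_
  rw [hr i hi, Algebra.algebraMap_eq_smul_one, TensorProduct.tmul_smul, TensorProduct.smul_tmul']

variable {D : Type u} [CommRing D] [Algebra k D] (φ : A →ₐ[k] D) (eD : D →ₐ[k] LaurentSeries k)

theorem exR_map (x : R ⊗[k] A) :
    exR eD R (Algebra.TensorProduct.map (AlgHom.id R R) φ x) = exR (eD.comp φ) R x := by
  induction x using TensorProduct.induction_on with
  | zero => simp
  | tmul r a =>
    rw [Algebra.TensorProduct.map_tmul, exR_tmul, exR_tmul]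
    rfl
  | add x y hx hy => rw [map_add, map_add, map_add, hx, hy]

/-- the value at infinity -/
def augR (α : A →ₐ[k] k) (R : Type u) [CommRing R] [Algebra k R] : R ⊗[k] A →ₐ[R] R :=
  Algebra.TensorProduct.lift (AlgHom.id R R) ((Algebra.ofId k R).comp α) fun _ _ =>
    Commute.all _ _

theorem augR_tmul (α : A →ₐ[k] k) (r : R) (x : A) :
    augR α R (r ⊗ₜ x) = r * algebraMap k R (α x) := by
  rw [augR, Algebra.TensorProduct.lift_tmul]
  rfl

theorem coeff_zero_exR (α : A →ₐ[k] k) (hα : ∀ x, α x = (e x).coeff 0) (y : R ⊗[k] A) :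
    (exR e R y).coeff 0 = augR α R y := by
  induction y using TensorProduct.induction_on with
  | zero => simp
  | tmul r a =>
    rw [exR_tmul, smul_ex_coeff, augR_tmul, hα, Algebra.smul_def, mul_comm]
  | add x y hx hy => rw [map_add, map_add, HahnSeries.coeff_add, hx, hy]

end alg

section geo

variable {k : Type u} [Field k] {C : Scheme.{u}} {c : C ⟶ Spec (CommRingCat.of k)}
    {ε : SchemeHomOver (𝟙 (Spec (CommRingCat.of k))) c} (g : Geo c ε)
    (R : Type u) [CommRing R] [Algebra k R]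

/-- `A → D` -/
abbrev gAD : g.A →ₐ[k] g.D := IsScalarTower.toAlgHom k g.A g.D

/-- `B → D` -/
abbrev gBD : g.B →ₐ[k] g.D := IsScalarTower.toAlgHom k g.B g.D

/-- the chart `Spec D ⟶ C` -/
def jD : Spec (CommRingCat.of g.D) ⟶ C :=
  Spec.map (CommRingCat.ofHom (gAD g : g.A →+* g.D)) ≫ g.jA

theorem jD_A : Spec.map (CommRingCat.ofHom (gAD g : g.A →+* g.D)) ≫ g.jA = jD g := rfl

theorem jD_B : Spec.map (CommRingCat.ofHom (gBD g : g.B →+* g.D)) ≫ g.jB = jD g :=
  g.pb.w.symm

theorem jD_c : jD g ≫ c = sS k g.D := by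
  rw [jD, Category.assoc, g.jA_c, ← Spec.map_comp, ← CommRingCat.ofHom_comp]
  congr 2
  exact (gAD g).comp_algebraMap

/-- the charts of `C_R` -/
abbrev jAR : Spec (CommRingCat.of (R ⊗[k] g.A)) ⟶ CR c R := jR c R g.jA g.jA_c

/-- the charts of `C_R` -/
abbrev jBR : Spec (CommRingCat.of (R ⊗[k] g.B)) ⟶ CR c R := jR c R g.jB g.jB_c

theorem cover_R (x : CR c R) :
    x ∈ Set.range (jAR g R) ∨ x ∈ Set.range (jBR g R) :=
  (g.cover (pullback.fst c (sS k R) x)).imp (mem_range_jR c R g.jA g.jA_c)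
    (mem_range_jR c R g.jB g.jB_c)

theorem aug_jBR : Spec.map (CommRingCat.ofHom (augR g.aug R : R ⊗[k] g.B →+* R)) ≫ jBR g R =
    secR c ε R := by
  refine (map_jR_sec c R g.jB g.jB_c (augR g.aug R) ε.1 g.aug g.ε_eq (fun x => ?_) ε.2).trans ?_
  · rw [augR_tmul, one_mul]
  · rfl

include g in
/-- a global section of `C_R` which vanishes at infinity is zero -/
theorem eq_zero_of_secR (f : Γ(CR c R, ⊤)) (hf : (secR c ε R).appTop.hom f = 0) : f = 0 := by
  have hAD := resC_map c R g.jA g.jA_c (jD g) (jD_c g) (gAD g) (jD_A g) f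
  have hBD := resC_map c R g.jB g.jB_c (jD g) (jD_c g) (gBD g) (jD_B g) f
  have hB0 : augR g.aug R (resC c R g.jB g.jB_c f) = 0 := by
    have h1 := resC_of_eq c R g.jB g.jB_c (augR g.aug R : R ⊗[k] g.B →+* R) f
    rw [aug_jBR, hf, map_zero] at h1
    exact h1
  have hex : exR g.e R (resC c R g.jA g.jA_c f) =
      exR (g.eD.comp (gBD g)) R (resC c R g.jB g.jB_c f) := by
    rw [← exR_map (gBD g) g.eD, hBD, ← hAD, exR_map]
    rfl
  have hBmem : ∀ y : R ⊗[k] g.B, exR (g.eD.comp (gBD g)) R y ∈ LV R 0 := by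
    intro y
    induction y using TensorProduct.induction_on with
    | zero => rw [map_zero]; exact zero_mem _
    | tmul r a =>
      rw [exR_tmul]
      exact Submodule.smul_mem _ _ (ex_mem_LV _ (g.eB_mem a))
    | add x y hx hy => rw [map_add]; exact add_mem hx hy
  have hc0 := coeff_zero_exR (g.eD.comp (gBD g)) g.aug g.aug_eq (resC c R g.jB g.jB_c f)
  obtain ⟨r, hr⟩ := exists_of_exR_mem_LV g.e g.H0 (x := resC c R g.jA g.jA_c f)
    (by rw [hex]; exact hBmem _)
  have hr0 : r = 0 := by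
    rw [← hex, hB0, hr, exR_tmul, map_one] at hc0
    have : (r • (1 : LaurentSeries R)).coeff 0 = r := by
      rw [HahnSeries.coeff_smul, HahnSeries.coeff_one, if_pos rfl, smul_eq_mul, mul_one]
    rwa [this] at hc0
  have hA0 : resC c R g.jA g.jA_c f = 0 := by rw [hr, hr0, TensorProduct.zero_tmul]
  have hB0' : resC c R g.jB g.jB_c f = 0 := by
    apply exR_injective (g.eD.comp (gBD g)) g.injB
    rw [← hex, hA0, map_zero, map_zero]
  have hA1 : (jAR g R).appTop.hom f = 0 := by
    have h := hA0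
    unfold resC at h
    have hinj : Function.Injective
        (Scheme.ΓSpecIso (CommRingCat.of (R ⊗[k] g.A))).hom.hom :=
      (ConcreteCategory.bijective_of_isIso
        (Scheme.ΓSpecIso (CommRingCat.of (R ⊗[k] g.A))).hom).1
    exact hinj (h.trans (map_zero _).symm)
  have hB1 : (jBR g R).appTop.hom f = 0 := by
    have h := hB0'
    unfold resC at h
    have hinj : Function.Injective
        (Scheme.ΓSpecIso (CommRingCat.of (R ⊗[k] g.B))).hom.hom :=
      (ConcreteCategory.bijective_of_isIso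
        (Scheme.ΓSpecIso (CommRingCat.of (R ⊗[k] g.B))).hom).1
    exact hinj (h.trans (map_zero _).symm)
  refine sec_ext_two (jAR g R) (jBR g R) ⊤ ⊤ le_top le_top (fun x _ => ?_) ?_ ?_
  · rcases cover_R g R x with ⟨y, hy⟩ | ⟨y, hy⟩
    · exact Or.inl ⟨y, trivial, hy⟩
    · exact Or.inr ⟨y, trivial, hy⟩
  · rw [pb_top, hA1, map_zero]
  · rw [pb_top, hB1, map_zero]

end geo

section inj

variable {k : Type u} [Field k] {C : Scheme.{u}} {c : C ⟶ Spec (CommRingCat.of k)}
    {ε : SchemeHomOver (𝟙 (Spec (CommRingCat.of k))) c} (g : Geo c ε)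
    {T : Scheme.{u}} (t : T ⟶ Spec (CommRingCat.of k))

@[reassoc (attr := simp)]
theorem rigSection_snd : RelPicard.rigSection c t ε ≫ pullback.snd c t = 𝟙 T :=
  pullback.lift_snd _ _ _

theorem le_rigSection (U : T.Opens) :
    U ≤ (RelPicard.rigSection c t ε) ⁻¹ᵁ (pullback.snd c t ⁻¹ᵁ U) := by
  rw [← Scheme.Hom.comp_preimage, rigSection_snd]
  exact le_rfl

include g in
/-- sections on `C_W` which vanish along `ε` are zero, `W` affine -/
theorem eq_zero_of_affine {W : T.Opens} (hW : IsAffineOpen W)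
    (f : Γ(pullback c t, pullback.snd c t ⁻¹ᵁ W))
    (hf : pb (RelPicard.rigSection c t ε) (le_rigSection t W) f = 0) : f = 0 := by
  let φ : CommRingCat.of k ⟶ Γ(T, W) := Spec.preimage (hW.fromSpec ≫ t)
  let _ : Algebra k Γ(T, W) := φ.hom.toAlgebra
  have hφ : Spec.map φ = hW.fromSpec ≫ t := Spec.map_preimage _
  let s : SchemeHomOver (sS k Γ(T, W)) t := ⟨hW.fromSpec, hφ.symm⟩
  have : IsOpenImmersion s.1 := inferInstanceAs (IsOpenImmersion hW.fromSpec)
  let m := RelPicard.baseChangeSnd c s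
  have hm : ∀ x, pullback.snd c t (m x) = hW.fromSpec (pullback.snd c (sS k Γ(T, W)) x) := by
    intro x
    rw [← Scheme.Hom.comp_apply, ← Scheme.Hom.comp_apply, baseChangeSnd_snd c s]
  have hle : (⊤ : (CR c Γ(T, W)).Opens) ≤ m ⁻¹ᵁ (pullback.snd c t ⁻¹ᵁ W) := by
    intro x _
    change pullback.snd c t (m x) ∈ W
    rw [hm]
    have : hW.fromSpec (pullback.snd c (sS k Γ(T, W)) x) ∈ Set.range hW.fromSpec := ⟨_, rfl⟩
    rw [hW.range_fromSpec] at this
    exact this
  have hinj : Function.Injective (pb m hle) := by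
    refine pb_inj_of_range m hle fun x hx => ?_
    have h1 : pullback.snd c t x ∈ Set.range hW.fromSpec := by
      rw [hW.range_fromSpec]
      exact hx
    obtain ⟨y, hy⟩ := mem_range_baseChangeSnd c s h1
    exact ⟨y, trivial, hy⟩
  apply hinj
  rw [map_zero]
  apply eq_zero_of_secR g Γ(T, W)
  have hle2 : (⊤ : (Spec (CommRingCat.of Γ(T, W))).Opens) ≤
      (secR c ε Γ(T, W)) ⁻¹ᵁ (⊤ : (CR c Γ(T, W)).Opens) := le_top
  have hle3 : (⊤ : (Spec (CommRingCat.of Γ(T, W))).Opens) ≤ hW.fromSpec ⁻¹ᵁ W :=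
    hW.fromSpec_preimage_self.ge
  have hcomp : secR c ε Γ(T, W) ≫ m = hW.fromSpec ≫ RelPicard.rigSection c t ε :=
    RelPicard.rigSection_baseChangeSnd c ε s
  rw [← pb_top (secR c ε Γ(T, W)) hle2, pb_pb, pb_congr hcomp _
    (hle3.trans (Scheme.Hom.preimage_mono _ (le_rigSection t W))),
    ← pb_pb hW.fromSpec (RelPicard.rigSection c t ε) (le_rigSection t W) hle3, hf, map_zero]

include g in
/-- **`ε^* : Γ(C_U, O) → Γ(U, O)` is injective** -/
theorem eps_injective (U : T.Opens) :
    Function.Injective (pb (RelPicard.rigSection c t ε) (le_rigSection t U)) := by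
  rw [injective_iff_map_eq_zero]
  intro f hf
  refine sec_ext (ι := {W : T.Opens // IsAffineOpen W ∧ W ≤ U})
    (fun W => pullback.snd c t ⁻¹ᵁ W.1) (fun W => Scheme.Hom.preimage_mono _ W.2.2)
    (fun x hx => ?_) fun W => ?_
  · obtain ⟨W, hW, hxW, hWU⟩ := exists_isAffineOpen_mem_and_subset (x := pullback.snd c t x)
      (U := U) hx
    exact ⟨⟨W, hW, hWU⟩, hxW⟩
  · rw [map_zero]
    apply eq_zero_of_affine g t W.2.1
    rw [pb_rs]
    have := congrArg (rs W.2.2) hf
    rw [rs_pb, map_zero] at this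
    exact this

include g in
/-- pullback by the second projection is inverse to pullback by `ε` -/
theorem eps_bijective (U : T.Opens) :
    Function.Bijective (pb (RelPicard.rigSection c t ε) (le_rigSection t U)) := by
  refine ⟨eps_injective g t U, fun a => ⟨pb (pullback.snd c t) le_rfl a, ?_⟩⟩
  rw [pb_pb, pb_congr (rigSection_snd t) _ (show U ≤ 𝟙 T ⁻¹ᵁ U from le_rfl), pb_id, rs_self]

include g in
/-- every section on `C_U` comes from the base -/
theorem eq_snd_of_section (U : T.Opens) (f : Γ(pullback c t, pullback.snd c t ⁻¹ᵁ U)) :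
    f = pb (pullback.snd c t) le_rfl
      (pb (RelPicard.rigSection c t ε) (le_rigSection t U) f) := by
  apply eps_injective g t U
  rw [pb_pb, pb_congr (rigSection_snd t) _ (show U ≤ 𝟙 T ⁻¹ᵁ U from le_rfl), pb_id, rs_self]

include g in
/-- the same for units -/
theorem eps_injective_units (U : T.Opens) :
    Function.Injective (pu (RelPicard.rigSection c t ε) (le_rigSection t U)) :=
  Units.map_injective (eps_injective g t U)

end inj

end Fermat.Agent.J25.CRG
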