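import Fermat.Agent.J25.LocRep

/-!
# Local representability, absolute form, with charts tested on affine schemes and on fields
-/

set_option autoImplicit false

universe u

open CategoryTheory CategoryTheory.Limits AlgebraicGeometry Opposite

namespace Fermat.Agent.J25

/-- a contravariant functor on schemes, in elementary form -/
structure AFun where
  obj : Scheme.{u} → Type u
  map : ∀ {T T' : Scheme.{u}} (_ : T' ⟶ T), obj T → obj T'
  map_id : ∀ {T : Scheme.{u}} (x : obj T), map (𝟙 T) x = x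
  map_comp : ∀ {T T' T'' : Scheme.{u}} (g : T' ⟶ T) (g' : T'' ⟶ T') (x : obj T),
    map (g' ≫ g) x = map g' (map g x)

namespace AFun

variable (F : AFun.{u})

/-- Zariski sheaf condition -/
structure IsSheaf : Prop where
  sep : ∀ {T : Scheme.{u}} {ι : Type u} (U : ι → T.Opens) (_ : ∀ y : T, ∃ i, y ∈ U i)
    (l l' : F.obj T), (∀ i, F.map (U i).ι l = F.map (U i).ι l') → l = l'
  glue : ∀ {T : Scheme.{u}} {ι : Type u} (U : ι → T.Opens)
    (_ : ∀ y : T, ∃ i, y ∈ U i) (l : ∀ i, F.obj (U i)),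
    (∀ i j, F.map (T.homOfLE (inf_le_left : U i ⊓ U j ≤ U i)) (l i) =
      F.map (T.homOfLE (inf_le_right : U i ⊓ U j ≤ U j)) (l j)) →
    ∃ l₀ : F.obj T, ∀ i, F.map (U i).ι l₀ = l i

/-- the associated functor over the terminal scheme -/
def toZ : ZFun (⊤_ Scheme.{u}) where
  obj {T} _ := F.obj T
  map g _ x := F.map g x
  map_id x := F.map_id x
  map_comp g _ g' _ x := (F.map_comp g g' x).symm

variable {F}

theorem IsSheaf.toZ (hF : F.IsSheaf) : F.toZ.IsSheaf where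
  sep {_} _ {_} U hU l l' h := hF.sep U hU l l' h
  glue {_} _ {_} U hU l h := hF.glue U hU l h

/-- separatedness for open covers -/
theorem IsSheaf.sep_cover (hF : F.IsSheaf) {T : Scheme.{u}} (𝓤 : Scheme.OpenCover.{u} T)
    {a b : F.obj T} (h : ∀ i, F.map (𝓤.f i) a = F.map (𝓤.f i) b) : a = b := by
  refine hF.sep (fun i => (𝓤.f i).opensRange) (fun y => ⟨𝓤.idx y, 𝓤.covers y⟩) a b fun i => ?_
  obtain ⟨e, he⟩ : ∃ e : ((𝓤.f i).opensRange : Scheme.{u}) ⟶ 𝓤.X i,
      e ≫ 𝓤.f i = (𝓤.f i).opensRange.ι :=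
    ⟨IsOpenImmersion.lift (𝓤.f i) _ (by rw [Scheme.Opens.range_ι]; exact subset_rfl),
      IsOpenImmersion.lift_fac _ _ _⟩
  rw [← he, F.map_comp, F.map_comp, h]

variable (F) in
/-- data of charts, tested on affine schemes and on fields -/
structure Charts (ι : Type u) where
  X : ι → Scheme.{u}
  x : ∀ i, F.obj (X i)
  /-- the condition defining the chart on points with values in fields -/
  Q : ι → ∀ (K : Type u) [Field K], F.obj (Spec (.of K)) → Prop
  ext_iff : ∀ (i : ι) (K K' : Type u) [Field K] [Field K'] (f : K →+* K')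
    (y : F.obj (Spec (.of K))),
    Q i K' (F.map (Spec.map (CommRingCat.ofHom f)) y) ↔ Q i K y
  isOpen : ∀ (i : ι) (R : Type u) [CommRing R] (y : F.obj (Spec (.of R))) (z : PrimeSpectrum R),
    Q i z.asIdeal.ResidueField
      (F.map (Spec.map (CommRingCat.ofHom (algebraMap R z.asIdeal.ResidueField))) y) →
    ∃ f ∉ z.asIdeal, ∀ z' : PrimeSpectrum R, f ∉ z'.asIdeal →
      Q i z'.asIdeal.ResidueField
        (F.map (Spec.map (CommRingCat.ofHom (algebraMap R z'.asIdeal.ResidueField))) y)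
  Q_x : ∀ (i : ι) (K : Type u) [Field K] (s : Spec (.of K) ⟶ X i), Q i K (F.map s (x i))
  rep : ∀ (i : ι) (R : Type u) [CommRing R] (y : F.obj (Spec (.of R))),
    (∀ z : PrimeSpectrum R, Q i z.asIdeal.ResidueField
      (F.map (Spec.map (CommRingCat.ofHom (algebraMap R z.asIdeal.ResidueField))) y)) →
    ∃! h : Spec (.of R) ⟶ X i, F.map h (x i) = y
  cov : ∀ (K : Type u) [Field K] (y : F.obj (Spec (.of K))), ∃ i, Q i K y

namespace Charts

variable {ι : Type u} (K : Charts F ι)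

/-- the condition at a point of a scheme -/
def at' (i : ι) {T : Scheme.{u}} (y : F.obj T) (z : T) : Prop :=
  K.Q i (T.residueField z) (F.map (T.fromSpecResidueField z) y)

theorem at_iff (i : ι) {T : Scheme.{u}} (y : F.obj T) (L : Type u) [Field L]
    (s : Spec (.of L) ⟶ T) (z : T) (hz : ∀ o, s o = z) : K.at' i y z ↔ K.Q i L (F.map s y) := by
  obtain rfl : s (IsLocalRing.closedPoint L) = z := hz _
  have h := Scheme.descResidueField_stalkClosedPointTo_fromSpecResidueField L T s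
  have h1 := K.ext_iff i (T.residueField (s (IsLocalRing.closedPoint L))) L
    (Scheme.descResidueField (Scheme.stalkClosedPointTo s)).hom
    (F.map (T.fromSpecResidueField _) y)
  have h2 : F.map s y = F.map (Spec.map (Scheme.descResidueField (Scheme.stalkClosedPointTo s)))
    (F.map (T.fromSpecResidueField _) y) := by
    rw [← F.map_comp, h]
  rw [h2]
  exact h1.symm

/-- the point of `Spec L` as a point of a scheme mapping to it -/
theorem at_comp (i : ι) {T T' : Scheme.{u}} (y : F.obj T) (g : T' ⟶ T) (z : T') :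
    K.at' i (F.map g y) z ↔ K.at' i y (g z) := by
  have h1 := K.at_iff i y (T'.residueField z) (T'.fromSpecResidueField z ≫ g) (g z) (fun o => by
    rw [Scheme.Hom.comp_apply]
    exact congrArg g (Scheme.fromSpecResidueField_apply z o))
  rw [h1, F.map_comp]
  rfl

theorem at_x (i : ι) (z : K.X i) : K.at' i (K.x i) z := K.Q_x i _ _

theorem at_spec (i : ι) {R : Type u} [CommRing R] (y : F.obj (Spec (.of R)))
    (z : PrimeSpectrum R) : K.at' i y (z : Spec (CommRingCat.of R)) ↔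
      K.Q i z.asIdeal.ResidueField
        (F.map (Spec.map (CommRingCat.ofHom (algebraMap R z.asIdeal.ResidueField))) y) := by
  refine K.at_iff i y z.asIdeal.ResidueField _ z fun o => ?_
  apply PrimeSpectrum.ext
  change (PrimeSpectrum.comap (algebraMap R z.asIdeal.ResidueField) o).asIdeal = z.asIdeal
  obtain rfl : o = IsLocalRing.closedPoint _ := Subsingleton.elim _ _
  rw [PrimeSpectrum.comap_asIdeal]
  ext r
  rw [Ideal.mem_comap]
  change algebraMap R z.asIdeal.ResidueField r ∈ IsLocalRing.maximalIdeal _ ↔ _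
  rw [IsLocalRing.mem_maximalIdeal, mem_nonunits_iff, isUnit_iff_ne_zero, not_not,
    Ideal.algebraMap_residueField_eq_zero]

theorem isOpen_at (i : ι) {T : Scheme.{u}} (y : F.obj T) : IsOpen {z : T | K.at' i y z} := by
  rw [isOpen_iff_forall_mem_open]
  intro z hz
  obtain ⟨W, hW, hzW, -⟩ := exists_isAffineOpen_mem_and_subset (X := T) (x := z) (U := ⊤) trivial
  obtain ⟨R, _, w, _, z₁, hz₁⟩ : ∃ (R : Type u) (_ : CommRing R)
      (w : Spec (CommRingCat.of R) ⟶ T) (_ : IsOpenImmersion w), ∃ z₂, w z₂ = z := by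
    refine ⟨Γ(T, W), inferInstance, hW.fromSpec, inferInstance, ?_⟩
    have : z ∈ Set.range hW.fromSpec := by
      rw [hW.range_fromSpec]
      exact hzW
    exact this
  subst hz₁
  have h1 := (K.at_spec i (F.map w y) z₁).1 ((K.at_comp i y w z₁).2 hz)
  obtain ⟨f, hf, h2⟩ := K.isOpen i R _ z₁ h1
  refine ⟨w '' (PrimeSpectrum.basicOpen f : Set (PrimeSpectrum R)), ?_, ?_, ?_⟩
  · rintro _ ⟨z', hz', rfl⟩
    refine (K.at_comp i y w z').1 ((K.at_spec i (F.map w y) z').2 (h2 z' ?_))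
    exact hz'
  · exact w.isOpenEmbedding.isOpenMap _ (PrimeSpectrum.isOpen_basicOpen)
  · exact ⟨z₁, hf, rfl⟩

/-- the open subset attached to a chart -/
def V {T : Scheme.{u}} (y : F.obj T) (i : ι) : T.Opens := ⟨{z : T | K.at' i y z}, K.isOpen_at i y⟩

theorem mem_V {T : Scheme.{u}} {y : F.obj T} {i : ι} {z : T} : z ∈ K.V y i ↔ K.at' i y z :=
  Iff.rfl

theorem map_V {T T' : Scheme.{u}} (y : F.obj T) (i : ι) (g : T' ⟶ T) (z : T') :
    z ∈ K.V (F.map g y) i ↔ g z ∈ K.V y i := K.at_comp i y g z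

/-- affine open cover -/
theorem exists_specCover (T : Scheme.{u}) : ∃ (𝓤 : Scheme.OpenCover.{u} T)
    (R : 𝓤.I₀ → CommRingCat.{u}) (e : ∀ i, 𝓤.X i ⟶ Spec (R i)) (e' : ∀ i, Spec (R i) ⟶ 𝓤.X i),
      (∀ i, e i ≫ e' i = 𝟙 _) ∧ ∀ i, e' i ≫ e i = 𝟙 _ := by
  refine ⟨T.affineCover, fun i => Γ(T.affineCover.X i, ⊤), fun i => (T.affineCover.X i).isoSpec.hom,
    fun i => (T.affineCover.X i).isoSpec.inv, fun i => ?_, fun i => ?_⟩
  · exact Iso.hom_inv_id _
  · exact Iso.inv_hom_id _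

theorem hom_ext (i : ι) {T : Scheme.{u}} {h h' : T ⟶ K.X i} (e : F.map h (K.x i) = F.map h' (K.x i)) :
    h = h' := by
  obtain ⟨𝓤, R, ee, e', h1, h2⟩ := exists_specCover T
  refine 𝓤.hom_ext _ _ fun j => ?_
  have h3 : e' j ≫ 𝓤.f j ≫ h = e' j ≫ 𝓤.f j ≫ h' := by
    obtain ⟨a, ha, hu⟩ := K.rep i (R j) (F.map (e' j ≫ 𝓤.f j ≫ h) (K.x i)) (fun z => by
      rw [← K.at_spec, K.at_comp]
      exact K.at_x i _)
    rw [hu (e' j ≫ 𝓤.f j ≫ h) rfl]
    refine (hu (e' j ≫ 𝓤.f j ≫ h') ?_).symm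
    change F.map (e' j ≫ 𝓤.f j ≫ h') (K.x i) = F.map (e' j ≫ 𝓤.f j ≫ h) (K.x i)
    rw [← Category.assoc, ← Category.assoc, F.map_comp h', ← e, ← F.map_comp]
  calc 𝓤.f j ≫ h = ee j ≫ e' j ≫ 𝓤.f j ≫ h := by rw [reassoc_of% (h1 j)]
    _ = ee j ≫ e' j ≫ 𝓤.f j ≫ h' := by rw [h3]
    _ = _ := by rw [reassoc_of% (h1 j)]

theorem exists_hom (hF : F.IsSheaf) (i : ι) {T : Scheme.{u}} (y : F.obj T)
    (hy : ∀ z, z ∈ K.V y i) : ∃ h : T ⟶ K.X i, F.map h (K.x i) = y := by
  obtain ⟨𝓤, R, ee, e', h1, h2⟩ := exists_specCover T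
  have h3 : ∀ j, ∃ a : Spec (R j) ⟶ K.X i, F.map a (K.x i) = F.map (e' j ≫ 𝓤.f j) y := by
    intro j
    obtain ⟨a, ha, hu⟩ := K.rep i (R j) (F.map (e' j ≫ 𝓤.f j) y) (fun z => by
      rw [← K.at_spec, K.at_comp]
      exact hy _)
    exact ⟨a, ha⟩
  choose a ha using h3
  have h4 : ∀ j, F.map (ee j ≫ a j) (K.x i) = F.map (𝓤.f j) y := by
    intro j
    rw [F.map_comp, ha, ← F.map_comp, reassoc_of% (h1 j)]
  refine ⟨𝓤.glueMorphisms (fun j => ee j ≫ a j) fun j j' => ?_, ?_⟩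
  · apply K.hom_ext
    rw [F.map_comp, F.map_comp (ee j' ≫ a j'), h4, h4, ← F.map_comp, ← F.map_comp,
      pullback.condition]
  · refine hF.sep_cover 𝓤 fun j => ?_
    rw [← F.map_comp, 𝓤.ι_glueMorphisms, h4]

theorem V_iff (hF : F.IsSheaf) (i : ι) {T T' : Scheme.{u}} (y : F.obj T) (g : T' ⟶ T) :
    (∀ z, g z ∈ K.V y i) ↔ ∃ h : T' ⟶ K.X i, F.map h (K.x i) = F.map g y := by
  constructor
  · intro h
    exact K.exists_hom hF i _ fun z => (K.map_V y i g z).2 (h z)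
  · rintro ⟨h, hh⟩ z
    rw [← K.map_V, ← hh, K.map_V]
    exact K.at_x i _

/-- the charts as charts over the terminal scheme -/
noncomputable def toZ (hF : F.IsSheaf) : ZFun.Charts F.toZ ι where
  X := K.X
  s i := terminal.from _
  x := K.x
  V _ y i := K.V y i
  hV t y i g := by
    refine (K.V_iff hF i y g).trans ?_
    exact ⟨fun ⟨h, hh⟩ => ⟨h, terminal.hom_ext _ _, hh⟩, fun ⟨h, _, hh⟩ => ⟨h, hh⟩⟩
  hM i h h' _ _ e := K.hom_ext i e
  cov t y z := K.cov _ _

/-- **local representability** -/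
theorem exists_rep (hF : F.IsSheaf) : ∃ (P : Scheme.{u}) (u : F.obj P),
    (∀ {T : Scheme.{u}} (y : F.obj T), ∃! g : T ⟶ P, F.map g u = y) ∧
    ∃ j : ∀ i, K.X i ⟶ P, (∀ i, IsOpenImmersion (j i)) ∧ (∀ i, F.map (j i) u = K.x i) ∧
      (∀ i z, z ∈ Set.range (j i) ↔ K.at' i u z) ∧ ∀ z, ∃ i, z ∈ Set.range (j i) := by
  obtain ⟨P, p, v, h1, h2⟩ := (K.toZ hF).exists_rep hF.toZ
  obtain ⟨v, rfl⟩ : ∃ v' : F.obj P, v' = v := ⟨v, rfl⟩
  have h2 : ∀ i, ∃ j : K.X i ⟶ P, F.map j v = K.x i ∧ IsOpenImmersion j ∧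
      Set.range j = (K.V v i : Set P) := fun i => by
    obtain ⟨j, _, hj⟩ := h2 i
    exact ⟨j, hj⟩
  choose j hj' using h2
  refine ⟨P, v, fun {T} y => ?_, j, fun i => (hj' i).2.1, fun i => (hj' i).1, fun i z => ?_,
    fun z => ?_⟩
  · obtain ⟨g, ⟨hg, hg1⟩, hu⟩ := h1 (terminal.from T) y
    exact ⟨g, hg1, fun g' hg' => hu g' ⟨terminal.hom_ext _ _, hg'⟩⟩
  · rw [(hj' i).2.2]
    exact Iff.rfl
  · obtain ⟨i, hi⟩ := K.cov (P.residueField z) (F.map (P.fromSpecResidueField z) v)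
    refine ⟨i, ?_⟩
    rw [(hj' i).2.2]
    exact hi

end Charts

end AFun

end Fermat.Agent.J25
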