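import Mathlib
import Fermat.Agent.J25.Desc
import Fermat.Agent.J25.EpsInj
import Fermat.Agent.J25.Hub2
import Fermat.Agent.J25.LocRepA

/-!
# The functor `F` is a Zariski sheaf
-/

set_option autoImplicit false
set_option linter.style.haveILetI false

noncomputable section

universe u v w

open CategoryTheory CategoryTheory.Limits AlgebraicGeometry TensorProduct NeronModelInfra
  TopologicalSpace Opposite
open AlgebraicGeometry.RelPicard

namespace Fermat.Agent.J25

attribute [-instance] HahnSeries.powerSeriesAlgebra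

variable {k : Type u} [Field k] {C : Scheme.{u}} {c : C ⟶ Spec (CommRingCat.of k)}
    {ε : SchemeHomOver (𝟙 (Spec (CommRingCat.of k))) c} {g : Geo c ε}

/-- the structure map of `C_T` and its section -/
theorem Geo.secInj (g : Geo c ε) {T : Scheme.{u}} (t : T ⟶ Spec (CommRingCat.of k)) :
    SecInj (pullback.snd c t) (rigSection c t ε) :=
  ⟨CRG.rigSection_snd t, fun U _ => CRG.eps_injective g t U⟩

/-- the range of the base change of an open immersion -/
theorem opensRange_baseChangeSnd {T T' : Scheme.{u}} {t : T ⟶ Spec (CommRingCat.of k)}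
    {t' : T' ⟶ Spec (CommRingCat.of k)} (s : SchemeHomOver t' t) [IsOpenImmersion s.1] :
    (baseChangeSnd c s).opensRange = pullback.snd c t ⁻¹ᵁ s.1.opensRange := by
  ext x
  constructor
  · rintro ⟨y, rfl⟩
    refine ⟨pullback.snd c t' y, ?_⟩
    have h := CRG.baseChangeSnd_snd c s
    have h2 := congrArg (fun m : pullback c t' ⟶ T => m y) h
    rw [Scheme.Hom.comp_apply, Scheme.Hom.comp_apply] at h2
    exact h2.symm
  · intro h
    exact CRG.mem_range_baseChangeSnd c s h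

variable {D : PicData g}

namespace PicData

theorem FPt.l_eq {T : Scheme.{u}} {x y : FPt D T} (h : x = y) :
    x.l = PicC.map (baseChangeSnd c (⟨𝟙 T, by rw [Category.id_comp, h]⟩ :
      SchemeHomOver x.t y.t)) y.l := by
  subst h
  rw [baseChangeSnd_id, PicC.map_id_apply]

theorem FPt.t_eq {T : Scheme.{u}} {x y : FPt D T} (h : x = y) : x.t = y.t := by rw [h]

theorem map_bcs_id {T : Scheme.{u}} {t : T ⟶ Spec (CommRingCat.of k)}
    (h : 𝟙 T ≫ t = t) (l : PicC (pullback c t)) :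
    PicC.map (baseChangeSnd c (⟨𝟙 T, h⟩ : SchemeHomOver t t)) l = l := by
  rw [baseChangeSnd_id, PicC.map_id_apply]

theorem FPt.exists_eq {T : Scheme.{u}} {t : T ⟶ Spec (CommRingCat.of k)} (y : FPt D T)
    (h : t = y.t) : ∃ (l : PicC (pullback c t)) (r : PicC.map (rigSection c t ε) l = 1)
      (d : D.Deg0 t l), y = ⟨t, l, r, d⟩ := by
  obtain ⟨t', l, r, d⟩ := y
  obtain rfl : t = t' := h
  exact ⟨l, r, d, rfl⟩

theorem FPt.map_l_eq {T₁ T₂ T' : Scheme.{u}} (y₁ : FPt D T₁) (y₂ : FPt D T₂) (φ₁ : T' ⟶ T₁)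
    (φ₂ : T' ⟶ T₂) (h : y₁.map φ₁ = y₂.map φ₂) {t' : T' ⟶ Spec (CommRingCat.of k)}
    (h₁ : φ₁ ≫ y₁.t = t') (h₂ : φ₂ ≫ y₂.t = t') :
    PicC.map (baseChangeSnd c (⟨φ₁, h₁⟩ : SchemeHomOver t' y₁.t)) y₁.l =
      PicC.map (baseChangeSnd c (⟨φ₂, h₂⟩ : SchemeHomOver t' y₂.t)) y₂.l := by
  subst h₁
  refine (FPt.l_eq h).trans ((PicC.map_comp_apply _ _ _).symm.trans ?_)
  refine congrArg (fun m => PicC.map m y₂.l) ?_
  exact (baseChangeSnd_comp c _ _).trans
    (congrArg (baseChangeSnd c) (Subtype.ext (Category.id_comp φ₂)))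

/-- morphisms which agree on an open cover -/
theorem hom_ext_opens {T Z : Scheme.{u}} {ι : Type u} (U : ι → T.Opens)
    (hU : ∀ y : T, ∃ i, y ∈ U i) {a b : T ⟶ Z} (h : ∀ i, (U i).ι ≫ a = (U i).ι ≫ b) : a = b := by
  have hU' : IsOpenCover U := by
    rw [IsOpenCover, eq_top_iff]
    intro y _
    obtain ⟨i, hi⟩ := hU y
    exact Opens.mem_iSup.mpr ⟨i, hi⟩
  exact Scheme.Cover.hom_ext (T.openCoverOfIsOpenCover U hU') _ _ h

/-- gluing of morphisms on an open cover -/
theorem exists_glue_opens {T Z : Scheme.{u}} {ι : Type u} (U : ι → T.Opens)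
    (hU : ∀ y : T, ∃ i, y ∈ U i) (a : ∀ i, (U i : Scheme.{u}) ⟶ Z)
    (h : ∀ i j, T.homOfLE (inf_le_left : U i ⊓ U j ≤ U i) ≫ a i =
      T.homOfLE (inf_le_right : U i ⊓ U j ≤ U j) ≫ a j) :
    ∃ b : T ⟶ Z, ∀ i, (U i).ι ≫ b = a i := by
  have hU' : IsOpenCover U := by
    rw [IsOpenCover, eq_top_iff]
    intro y _
    obtain ⟨i, hi⟩ := hU y
    exact Opens.mem_iSup.mpr ⟨i, hi⟩
  refine ⟨(T.openCoverOfIsOpenCover U hU').glueMorphisms a (fun i j => ?_),
    fun i => (T.openCoverOfIsOpenCover U hU').ι_glueMorphisms a _ i⟩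
  change pullback.fst (U i).ι (U j).ι ≫ a i = pullback.snd (U i).ι (U j).ι ≫ a j
  let m : pullback (U i).ι (U j).ι ⟶ (U i ⊓ U j : T.Opens) :=
    IsOpenImmersion.lift (U i ⊓ U j).ι (pullback.fst (U i).ι (U j).ι ≫ (U i).ι) (by
      rw [Scheme.Opens.range_ι]
      rintro _ ⟨y, rfl⟩
      refine ⟨?_, ?_⟩
      · rw [Scheme.Hom.comp_apply]
        exact (pullback.fst (U i).ι (U j).ι y).2
      · rw [pullback.condition, Scheme.Hom.comp_apply]
        exact (pullback.snd (U i).ι (U j).ι y).2)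
  have hm : m ≫ (U i ⊓ U j).ι = pullback.fst (U i).ι (U j).ι ≫ (U i).ι :=
    IsOpenImmersion.lift_fac _ _ _
  have h1 : pullback.fst (U i).ι (U j).ι = m ≫ T.homOfLE inf_le_left := by
    rw [← cancel_mono (U i).ι, Category.assoc, Scheme.homOfLE_ι, hm]
  have h2 : pullback.snd (U i).ι (U j).ι = m ≫ T.homOfLE inf_le_right := by
    rw [← cancel_mono (U j).ι, Category.assoc, Scheme.homOfLE_ι, hm, pullback.condition]
  rw [h1, h2, Category.assoc, Category.assoc, h i j]

/-- **separatedness of `F`** -/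
theorem FPt.sep {T : Scheme.{u}} {ι : Type u} (U : ι → T.Opens) (hU : ∀ y : T, ∃ i, y ∈ U i)
    (x y : FPt D T) (h : ∀ i, x.map (U i).ι = y.map (U i).ι) : x = y := by
  have ht : x.t = y.t := hom_ext_opens U hU fun i => FPt.t_eq (h i)
  obtain ⟨t, l, hr, hd⟩ := x
  obtain ⟨t', l', hr', hd'⟩ := y
  obtain rfl : t = t' := ht
  have hl : l = l' := by
    refine (g.secInj t).ext_local U hU (fun i => pullback c ((U i).ι ≫ t))
      (fun i => baseChangeSnd c (⟨(U i).ι, rfl⟩ : SchemeHomOver ((U i).ι ≫ t) t))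
      (fun i => ?_) l l' (fun i => ?_) (hr.trans hr'.symm)
    · rw [opensRange_baseChangeSnd]
      simp
    · have h1 := FPt.l_eq (h i)
      exact h1.trans (map_bcs_id _ _)
  subst hl
  rfl

/-- **gluing for `F`** -/
theorem FPt.exists_glue {T : Scheme.{u}} {ι : Type u} (U : ι → T.Opens)
    (hU : ∀ y : T, ∃ i, y ∈ U i) (x : ∀ i, FPt D (U i))
    (h : ∀ i j, (x i).map (T.homOfLE (inf_le_left : U i ⊓ U j ≤ U i)) =
      (x j).map (T.homOfLE (inf_le_right : U i ⊓ U j ≤ U j))) :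
    ∃ y : FPt D T, ∀ i, y.map (U i).ι = x i := by
  obtain ⟨t, ht⟩ := exists_glue_opens U hU (fun i => (x i).t) (fun i j => FPt.t_eq (h i j))
  -- normal form of the local data
  choose l r d hx using fun i => FPt.exists_eq (x i) (ht i)
  obtain ⟨L, hL, hL1⟩ := (g.secInj t).exists_glue U hU (fun i => pullback c ((U i).ι ≫ t))
    (fun i => baseChangeSnd c (⟨(U i).ι, rfl⟩ : SchemeHomOver ((U i).ι ≫ t) t))
    (fun i => by
      rw [opensRange_baseChangeSnd]
      simp)
    (fun i => rigSection c ((U i).ι ≫ t) ε)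
    (fun i => rigSection_baseChangeSnd c ε _)
    (fun i j => pullback c ((U i ⊓ U j).ι ≫ t))
    (fun i j => baseChangeSnd c (⟨T.homOfLE (inf_le_left : U i ⊓ U j ≤ U i), by
      rw [← Category.assoc, Scheme.homOfLE_ι]⟩ : SchemeHomOver ((U i ⊓ U j).ι ≫ t)
        ((U i).ι ≫ t)))
    (fun i j => baseChangeSnd c (⟨T.homOfLE (inf_le_right : U i ⊓ U j ≤ U j), by
      rw [← Category.assoc, Scheme.homOfLE_ι]⟩ : SchemeHomOver ((U i ⊓ U j).ι ≫ t)
        ((U j).ι ≫ t)))
    (fun i j => by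
      rw [baseChangeSnd_comp, baseChangeSnd_comp]
      refine congrArg (baseChangeSnd c) (Subtype.ext ?_)
      exact (T.homOfLE_ι (inf_le_left : U i ⊓ U j ≤ U i)).trans
        (T.homOfLE_ι (inf_le_right : U i ⊓ U j ≤ U j)).symm)
    (fun i j => by
      have h1 : baseChangeSnd c (⟨T.homOfLE (inf_le_left : U i ⊓ U j ≤ U i), by
          rw [← Category.assoc, Scheme.homOfLE_ι]⟩ : SchemeHomOver ((U i ⊓ U j).ι ≫ t)
            ((U i).ι ≫ t)) ≫
          baseChangeSnd c (⟨(U i).ι, rfl⟩ : SchemeHomOver ((U i).ι ≫ t) t) =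
          baseChangeSnd c (⟨(U i ⊓ U j).ι, rfl⟩ : SchemeHomOver ((U i ⊓ U j).ι ≫ t) t) := by
        rw [baseChangeSnd_comp]
        congr 1
        apply Subtype.ext
        exact T.homOfLE_ι (inf_le_left : U i ⊓ U j ≤ U i)
      have h2 : (baseChangeSnd c (⟨T.homOfLE (inf_le_left : U i ⊓ U j ≤ U i), by
          rw [← Category.assoc, Scheme.homOfLE_ι]⟩ : SchemeHomOver ((U i ⊓ U j).ι ≫ t)
            ((U i).ι ≫ t)) ≫
          baseChangeSnd c (⟨(U i).ι, rfl⟩ : SchemeHomOver ((U i).ι ≫ t) t)).opensRange =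
          (baseChangeSnd c (⟨(U i ⊓ U j).ι, rfl⟩ :
            SchemeHomOver ((U i ⊓ U j).ι ≫ t) t)).opensRange := by
        apply TopologicalSpace.Opens.ext
        change Set.range _ = Set.range _
        rw [h1]
      rw [h2, opensRange_baseChangeSnd]
      simp)
    l
    (fun i j => by
      have h1 := h i j
      rw [hx i, hx j] at h1
      exact FPt.map_l_eq _ _ _ _ h1 _ _)
    1 (fun i => by rw [r, map_one])
  refine ⟨⟨t, L, hL1, ?_⟩, fun i => ?_⟩
  · intro K _ _ _ s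
    -- the point factors through a member of the cover
    obtain ⟨i, hi⟩ := hU (s.1 (IsLocalRing.closedPoint K))
    have hr : Set.range s.1 ⊆ Set.range (U i).ι := by
      rw [Scheme.Opens.range_ι]
      rintro _ ⟨z, rfl⟩
      obtain rfl : z = IsLocalRing.closedPoint K := Subsingleton.elim _ _
      exact hi
    let s' : Spec (CommRingCat.of K) ⟶ (U i : Scheme.{u}) := IsOpenImmersion.lift (U i).ι s.1 hr
    have hs' : s' ≫ (U i).ι = s.1 := IsOpenImmersion.lift_fac _ _ _
    have h1 := d i K (⟨s', by rw [← Category.assoc, hs', s.2]⟩ :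
      SchemeHomOver (sS k K) ((U i).ι ≫ t))
    rw [← hL i, ← PicC.map_comp_apply, baseChangeSnd_comp] at h1
    have h2 : postComp (⟨(U i).ι, rfl⟩ : SchemeHomOver ((U i).ι ≫ t) t)
      (⟨s', by rw [← Category.assoc, hs', s.2]⟩ : SchemeHomOver (sS k K) ((U i).ι ≫ t)) = s :=
      Subtype.ext hs'
    rwa [h2] at h1
  · rw [hx i]
    refine FPt.ext' rfl ?_
    exact (hL i).trans (map_bcs_id _ _).symm

/-- the functor `F`, in elementary form -/
@[reducible] def fptA (D : PicData g) : AFun.{u} where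
  obj T := FPt D T
  map φ x := x.map φ
  map_id x := x.map_id
  map_comp φ ψ x := x.map_comp φ ψ

/-- **`F` is a Zariski sheaf** -/
theorem fptA_isSheaf (D : PicData g) : (fptA D).IsSheaf where
  sep U hU x y h := FPt.sep U hU x y h
  glue U hU x h := FPt.exists_glue U hU x h

end PicData

end Fermat.Agent.J25
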