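import Mathlib
import Fermat.Agent.J25.Hub

/-!
# Finiteness of the kernel and of the cokernel (S25, WP6)
-/

set_option autoImplicit false

noncomputable section

universe u v w

namespace Fermat.Agent.J25.KF

attribute [-instance] HahnSeries.powerSeriesAlgebra

open HahnSeries TensorProduct

section Units

variable {R : Type u} [CommRing R]

theorem ofPS_mem (p : PowerSeries R) : (ofPowerSeries ℤ R p) ∈ LV R 0 := by
  intro i hi
  rw [ofPowerSeries_apply]
  refine embDomain_of_notMem_range ?_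
  rintro ⟨j, hj⟩
  have : (j : ℤ) = i := hj
  omega

theorem single_mul_mem {n m : ℤ} {x : LaurentSeries R} (hx : x ∈ LV R n) :
    single m (1 : R) * x ∈ LV R (m + n) := mul_mem_LV (single_mem_LV m 1) hx

theorem exists_ofPS {x : LaurentSeries R} (hx : x ∈ LV R 0) :
    ∃ p : PowerSeries R, ofPowerSeries ℤ R p = x ∧ PowerSeries.constantCoeff p = x.coeff 0 := by
  refine ⟨PowerSeries.mk fun i => x.coeff i, ?_, ?_⟩
  · ext i
    rcases lt_or_ge i 0 with hi | hi
    · rw [hx i hi, ofPS_mem _ i hi]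
    · obtain ⟨j, rfl⟩ := Int.eq_ofNat_of_zero_le hi
      rw [ofPowerSeries_apply_coeff, PowerSeries.coeff_mk]
  · rw [← PowerSeries.coeff_zero_eq_constantCoeff_apply, PowerSeries.coeff_mk]
    rfl

/-- a series with invertible leading coefficient is invertible -/
theorem exists_inv_LV {n : ℤ} {x : LaurentSeries R} (hx : x ∈ LV R n) (h : IsUnit (x.coeff n)) :
    ∃ y ∈ LV R (-n), x * y = 1 := by
  have h1 : single (-n) (1 : R) * x ∈ LV R 0 := by
    have := single_mul_mem (m := -n) hx
    rwa [neg_add_cancel] at this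
  obtain ⟨p, hp, hp0⟩ := exists_ofPS h1
  have h2 : (single (-n) (1 : R) * x).coeff 0 = x.coeff n := by
    have := coeff_mul_bot (single_mem_LV (-n) (1 : R)) hx
    rwa [neg_add_cancel, coeff_single_same, one_mul] at this
  have h3 : IsUnit p := by
    rw [PowerSeries.isUnit_iff_constantCoeff, hp0, h2]
    exact h
  obtain ⟨q, hq⟩ := h3.exists_right_inv
  refine ⟨ofPowerSeries ℤ R q * single (-n) 1, ?_, ?_⟩
  · have := mul_mem_LV (ofPS_mem q) (single_mem_LV (-n) (1 : R))
    rwa [zero_add] at this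
  · have h4 : x = single n (1 : R) * ofPowerSeries ℤ R p := by
      rw [hp, ← mul_assoc, single_mul_single, add_neg_cancel, one_mul, single_zero_one, one_mul]
    have h5 : ofPowerSeries ℤ R p * ofPowerSeries ℤ R q = 1 := by rw [← map_mul, hq, map_one]
    rw [h4, mul_assoc, ← mul_assoc (ofPowerSeries ℤ R p), h5, one_mul,
      single_mul_single, add_neg_cancel, one_mul, single_zero_one]

/-- multiplication by a series with invertible leading coefficient shifts the filtration -/
theorem mul_mem_LV_iff {n j : ℤ} {x v : LaurentSeries R} (hx : x ∈ LV R n)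
    (h : IsUnit (x.coeff n)) : x * v ∈ LV R (n + j) ↔ v ∈ LV R j := by
  constructor
  · intro hv
    obtain ⟨y, hy, hxy⟩ := exists_inv_LV hx h
    have h1 := mul_mem_LV hy hv
    have h2 : y * (x * v) = v := by rw [← mul_assoc, mul_comm y x, hxy, one_mul]
    rw [h2] at h1
    have h3 : -n + (n + j) = j := by ring
    rwa [h3] at h1
  · intro hv
    exact mul_mem_LV hx hv

end Units

section Pev

variable {k : Type u} [Field k] {A : Type u} [CommRing A] [Algebra k A]
  {e : A →ₐ[k] LaurentSeries k} {R : Type u} [CommRing R] [Algebra k R] {a : A} {d : ℕ}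

theorem exa_mem (ha : e a ∈ LV k (-(d : ℤ))) : ex e R a ∈ LV R (-(d : ℤ)) := by
  intro i hi
  rw [ex_coeff, ha i hi, map_zero]

theorem exa_coeff (ha1 : (e a).coeff (-(d : ℤ)) = 1) : (ex e R a).coeff (-(d : ℤ)) = 1 := by
  rw [ex_coeff, ha1, map_one]

theorem exa_pow_mem (ha : e a ∈ LV k (-(d : ℤ))) (ha1 : (e a).coeff (-(d : ℤ)) = 1) (i : ℕ) :
    ex e R a ^ i ∈ LV R (-((d * i : ℕ) : ℤ)) ∧
      (ex e R a ^ i).coeff (-((d * i : ℕ) : ℤ)) = 1 := by
  induction i with
  | zero =>
    rw [pow_zero, mul_zero, Nat.cast_zero, neg_zero]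
    refine ⟨one_mem_LV, ?_⟩
    rw [← single_zero_one, coeff_single_same]
  | succ i ih =>
    have h : -((d * (i + 1) : ℕ) : ℤ) = -((d * i : ℕ) : ℤ) + -(d : ℤ) := by push_cast; ring
    rw [pow_succ, h]
    refine ⟨mul_mem_LV ih.1 (exa_mem ha), ?_⟩
    rw [coeff_mul_bot ih.1 (exa_mem ha), ih.2, exa_coeff ha1, one_mul]

/-- the value at `a` of a monic polynomial has leading coefficient `1` -/
theorem pev_mem (ha : e a ∈ LV k (-(d : ℤ))) (ha1 : (e a).coeff (-(d : ℤ)) = 1) (hd : 0 < d)
    {P : Polynomial R} (hP : P.Monic) :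
    pev e R a P ∈ LV R (-((d * P.natDegree : ℕ) : ℤ)) ∧
      (pev e R a P).coeff (-((d * P.natDegree : ℕ) : ℤ)) = 1 := by
  have h1 : pev e R a P = ex e R a ^ P.natDegree + ∑ i ∈ Finset.range P.natDegree,
      P.coeff i • ex e R a ^ i := by
    rw [pev, Polynomial.aeval_eq_sum_range, Finset.sum_range_succ, hP.coeff_natDegree, one_smul,
      add_comm]
  have h2 : (∑ i ∈ Finset.range P.natDegree, P.coeff i • ex e R a ^ i) ∈
      LV R (-((d * P.natDegree : ℕ) : ℤ) + 1) := by
    refine Submodule.sum_mem _ fun i hi => Submodule.smul_mem _ _ ?_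
    refine LV_mono ?_ (exa_pow_mem ha ha1 i).1
    rw [Finset.mem_range] at hi
    have : d * i + 1 ≤ d * P.natDegree := by
      calc d * i + 1 ≤ d * i + d := by omega
        _ = d * (i + 1) := by ring
        _ ≤ d * P.natDegree := Nat.mul_le_mul_left d hi
    have h3 : ((d * i + 1 : ℕ) : ℤ) ≤ ((d * P.natDegree : ℕ) : ℤ) := by exact_mod_cast this
    push_cast at h3 ⊢
    linarith
  rw [h1]
  refine ⟨Submodule.add_mem _ (exa_pow_mem ha ha1 _).1 (LV_mono (by linarith) h2), ?_⟩
  rw [HahnSeries.coeff_add, (exa_pow_mem ha ha1 _).2, h2 _ (by linarith), add_zero]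

end Pev

section Fin

variable {k : Type u} [Field k] {A : Type u} [CommRing A] [Algebra k A]
  (e : A →ₐ[k] LaurentSeries k) (R : Type u) [CommRing R] [Algebra k R]

/-- the elements of `A` with bounded pole -/
def Abd (j : ℤ) : Submodule k A := (LV k j).comap e.toLinearMap

theorem mem_Abd {j : ℤ} {x : A} : x ∈ Abd e j ↔ e x ∈ LV k j := Iff.rfl

theorem finite_Abd (H0 : ∀ x : A, e x ∈ LV k 0 → ∃ r : k, x = algebraMap k A r) (j : ℤ) :
    Module.Finite k (Abd e j) := by
  obtain ⟨n, hn⟩ : ∃ n : ℕ, -(n : ℤ) ≤ j := ⟨(-j).toNat, by omega⟩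
  let c : Abd e j →ₗ[k] (Fin (n + 1) → k) :=
    { toFun := fun x i => (e (x : A)).coeff ((i : ℤ) - n)
      map_add' := fun x y => by
        funext i
        change (e ((x : A) + y)).coeff _ = _
        rw [map_add]
        rfl
      map_smul' := fun r x => by
        funext i
        change (e (r • (x : A))).coeff _ = _
        rw [map_smul]
        rfl }
  refine Module.Finite.of_injective c ?_
  rw [← LinearMap.ker_eq_bot, LinearMap.ker_eq_bot']
  intro x hx
  have h1 : ∀ i : ℤ, i ≤ 0 → (e (x : A)).coeff i = 0 := by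
    intro i hi
    rcases lt_or_ge i (-n) with h | h
    · exact x.2 i (by omega)
    · have h2 := congrFun hx ⟨(i + n).toNat, by omega⟩
      change (e (x : A)).coeff ((((i + n).toNat : ℕ) : ℤ) - n) = 0 at h2
      have h3 : (((i + n).toNat : ℕ) : ℤ) - n = i := by omega
      rwa [h3] at h2
  obtain ⟨r, hr⟩ := H0 x fun i hi => h1 i hi.le
  have h2 := h1 0 le_rfl
  rw [hr, AlgHom.commutes] at h2
  have h3 : (algebraMap k (LaurentSeries k) r).coeff 0 = r := by
    change (single 0 r : LaurentSeries k).coeff 0 = r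
    rw [coeff_single_same]
  rw [h3] at h2
  apply Subtype.ext
  rw [hr, h2, map_zero]
  rfl

variable {R} in
/-- the elements of `A_R` with bounded pole come from the elements of `A` with bounded pole -/
theorem AR_inf_LV (j : ℤ) : Subalgebra.toSubmodule (AR e R) ⊓ LV R j =
    Submodule.span R (ex e R '' (Abd e j : Set A)) := by
  classical
  apply le_antisymm
  · rintro _ ⟨⟨x, rfl⟩, hx⟩
    let b := Module.Basis.ofVectorSpace k R
    obtain ⟨s, c, hc⟩ : ∃ (s : Finset _) (c : _ → A), x = ∑ i ∈ s, b i ⊗ₜ[k] c i := by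
      refine ⟨(TensorProduct.equivFinsuppOfBasisLeft b x).support,
        TensorProduct.equivFinsuppOfBasisLeft b x, ?_⟩
      conv_lhs => rw [← (TensorProduct.equivFinsuppOfBasisLeft b).symm_apply_apply x]
      rw [TensorProduct.equivFinsuppOfBasisLeft_symm_apply]
      rfl
    have hcoeff : ∀ (r : R) (y : A) (i : ℤ), (r • ex e R y).coeff i = (e y).coeff i • r := by
      intro r y i
      rw [HahnSeries.coeff_smul, ex_coeff, smul_eq_mul, mul_comm, Algebra.smul_def]
    have h1 : exR e R x = ∑ i ∈ s, b i • ex e R (c i) := by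
      rw [hc, map_sum]
      exact Finset.sum_congr rfl fun i _ => exR_tmul e _ _
    have h : ∀ n : ℤ, n < j → ∑ i ∈ s, (e (c i)).coeff n • b i = 0 := by
      intro n hn
      have h1 : (exR e R x).coeff n = 0 := hx n hn
      rw [hc, map_sum, HahnSeries.coeff_sum] at h1
      simp only [exR_tmul, hcoeff] at h1
      exact h1
    change exR e R x ∈ _
    rw [h1]
    refine Submodule.sum_mem _ fun i hi => Submodule.smul_mem _ _ (Submodule.subset_span ⟨c i, ?_, rfl⟩)
    intro n hn
    exact linearIndependent_iff'.mp b.linearIndependent s _ (h n hn) i hi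
  · rw [Submodule.span_le]
    rintro _ ⟨x, hx, rfl⟩
    refine ⟨ex_mem_AR e R x, fun i hi => ?_⟩
    have h1 : (e x).coeff i = 0 := hx i hi
    rw [ex_coeff, h1, map_zero]

/-- **(K1)** the elements of `A_R` with bounded pole form a finitely generated module -/
theorem fg_AR_inf (H0 : ∀ x : A, e x ∈ LV k 0 → ∃ r : k, x = algebraMap k A r) (j : ℤ) :
    (Subalgebra.toSubmodule (AR e R) ⊓ LV R j).FG := by
  obtain ⟨s, hs⟩ := Module.Finite.iff_fg.mp (finite_Abd e H0 j)
  classical
  refine ⟨s.image (ex e R), ?_⟩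
  rw [AR_inf_LV, Finset.coe_image]
  apply le_antisymm
  · exact Submodule.span_mono (Set.image_mono (by
      rw [← hs]; exact Submodule.subset_span))
  · rw [Submodule.span_le]
    rintro _ ⟨x, hx, rfl⟩
    rw [← hs] at hx
    refine Submodule.span_induction (p := fun x _ => ex e R x ∈
      Submodule.span R (ex e R '' (s : Set A))) ?_ ?_ ?_ ?_ hx
    · intro x hx
      exact Submodule.subset_span ⟨x, hx, rfl⟩
    · rw [map_zero]; exact zero_mem _
    · intro x y _ _ hx hy
      rw [map_add]; exact add_mem hx hy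
    · intro r x _ hx
      rw [map_smul, ← algebraMap_smul R r]
      exact Submodule.smul_mem _ _ hx

/-- `A_R ∩ R[[z]] = R` -/
theorem AR_inf_LV_zero (H0 : ∀ x : A, e x ∈ LV k 0 → ∃ r : k, x = algebraMap k A r)
    {x : LaurentSeries R} (hx : x ∈ AR e R) (hx0 : x ∈ LV R 0) :
    ∃ r : R, x = algebraMap R (LaurentSeries R) r := by
  have h : x ∈ Subalgebra.toSubmodule (AR e R) ⊓ LV R 0 := ⟨hx, hx0⟩
  rw [AR_inf_LV] at h
  refine Submodule.span_induction (p := fun x _ => ∃ r : R, x = algebraMap R (LaurentSeries R) r)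
    ?_ ?_ ?_ ?_ h
  · rintro _ ⟨y, hy, rfl⟩
    obtain ⟨r, rfl⟩ := H0 y hy
    refine ⟨algebraMap k R r, ?_⟩
    rw [AlgHom.commutes, ← IsScalarTower.algebraMap_apply]
  · exact ⟨0, (map_zero _).symm⟩
  · rintro _ _ _ _ ⟨r, rfl⟩ ⟨s, rfl⟩
    exact ⟨r + s, (map_add _ _ _).symm⟩
  · rintro c _ _ ⟨r, rfl⟩
    exact ⟨c * r, by rw [map_mul, Algebra.smul_def]⟩

end Fin

section Coker

variable {R : Type u} [CommRing R]

/-- a series is a finite sum of monomials up to `LV R n` -/
theorem sub_sum_mem {x : LaurentSeries R} {m n : ℤ} (hx : x ∈ LV R m) :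
    x - ∑ i ∈ Finset.Ico m n, x.coeff i • single i (1 : R) ∈ LV R n := by
  intro l hl
  rw [HahnSeries.coeff_sub, HahnSeries.coeff_sum]
  rcases lt_or_ge l m with h | h
  · rw [hx l h, Finset.sum_eq_zero, sub_zero]
    intro i hi
    rw [Finset.mem_Ico] at hi
    rw [HahnSeries.coeff_smul, coeff_single_of_ne (by omega), smul_zero]
  · rw [Finset.sum_eq_single l]
    · rw [HahnSeries.coeff_smul, coeff_single_same, smul_eq_mul, mul_one, sub_self]
    · intro i _ hi
      rw [HahnSeries.coeff_smul, coeff_single_of_ne (Ne.symm hi), smul_zero]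
    · intro h'
      exact absurd (Finset.mem_Ico.mpr ⟨h, hl⟩) h'

theorem finite_quotient {N : Submodule R (LaurentSeries R)} {J : ℤ}
    (h : ∀ x : LaurentSeries R, ∃ m ∈ N, x - m ∈ LV R J) (n : ℤ) :
    Module.Finite R (LaurentSeries R ⧸ (N ⊔ LV R n)) := by
  classical
  refine ⟨⟨(Finset.Ico J n).image fun i => (N ⊔ LV R n).mkQ (single i 1), ?_⟩⟩
  rw [eq_top_iff]
  intro q _
  obtain ⟨x, rfl⟩ := Submodule.mkQ_surjective _ q
  obtain ⟨m, hm, hxm⟩ := h x
  have h1 := sub_sum_mem (n := n) hxm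
  have h2 : (N ⊔ LV R n).mkQ x = ∑ i ∈ Finset.Ico J n, (x - m).coeff i •
      (N ⊔ LV R n).mkQ (single i 1) := by
    simp only [← map_smul]
    rw [← map_sum, ← sub_eq_zero, ← map_sub, Submodule.mkQ_apply, Submodule.Quotient.mk_eq_zero]
    have h3 : x - ∑ i ∈ Finset.Ico J n, (x - m).coeff i • single i (1 : R) =
        m + (x - m - ∑ i ∈ Finset.Ico J n, (x - m).coeff i • single i (1 : R)) := by abel
    rw [h3]
    exact Submodule.add_mem_sup hm h1
  rw [h2]
  refine Submodule.sum_mem _ fun i hi => Submodule.smul_mem _ _ (Submodule.subset_span ?_)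
  rw [Finset.coe_image]
  exact ⟨i, Finset.mem_coe.mpr hi, rfl⟩

end Coker

section CokerG

variable {k : Type u} [Field k] {A : Type u} [CommRing A] [Algebra k A]
  {e : A →ₐ[k] LaurentSeries k} {R : Type u} [CommRing R] [Algebra k R] {a : A} {d : ℕ}

/-- `A` fills up `k((z))` up to bounded poles -/
theorem exists_bound (H1 : Module.Finite k
    (LaurentSeries k ⧸ (LinearMap.range e.toLinearMap ⊔ LV k 1))) :
    ∃ N : ℕ, ∀ x : LaurentSeries k, ∃ s : A, x - e s ∈ LV k (-(N : ℤ)) := by
  classical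
  obtain ⟨t, ht⟩ := Module.Finite.iff_fg.mp
    (Module.Finite.equiv (Submodule.topEquiv (R := k)
      (M := LaurentSeries k ⧸ (LinearMap.range e.toLinearMap ⊔ LV k 1))).symm)
  choose g hg using Submodule.mkQ_surjective (LinearMap.range e.toLinearMap ⊔ LV k 1)
  choose b hb using fun x : LaurentSeries k => exists_mem_LV x
  refine ⟨t.sup fun q => b (g q), fun x => ?_⟩
  set N : ℕ := t.sup fun q => b (g q) with hN
  have key : ∀ q ∈ Submodule.span k (t : Set (LaurentSeries k ⧸
      (LinearMap.range e.toLinearMap ⊔ LV k 1))), ∀ x : LaurentSeries k,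
      (LinearMap.range e.toLinearMap ⊔ LV k 1).mkQ x = q → ∃ s : A, x - e s ∈ LV k (-(N : ℤ)) := by
    intro q hq
    refine Submodule.span_induction (p := fun q _ => ∀ x : LaurentSeries k,
      (LinearMap.range e.toLinearMap ⊔ LV k 1).mkQ x = q → ∃ s : A, x - e s ∈ LV k (-(N : ℤ)))
      ?_ ?_ ?_ ?_ hq
    · intro q hq x hx
      have h1 : x - g q ∈ LinearMap.range e.toLinearMap ⊔ LV k 1 := by
        rw [← Submodule.Quotient.mk_eq_zero, ← Submodule.mkQ_apply, map_sub, hx, hg, sub_self]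
      obtain ⟨_, ⟨s, rfl⟩, v, hv, hsv⟩ := Submodule.mem_sup.mp h1
      refine ⟨s, ?_⟩
      have h2 : x - e s = g q + v := by
        have : (e s : LaurentSeries k) + v = x - g q := hsv
        linear_combination -this
      rw [h2]
      refine Submodule.add_mem _ (LV_mono ?_ (hb (g q))) (LV_mono (by omega) hv)
      have : b (g q) ≤ N := Finset.le_sup (f := fun q => b (g q)) (Finset.mem_coe.mp hq)
      omega
    · intro x hx
      rw [Submodule.mkQ_apply, Submodule.Quotient.mk_eq_zero] at hx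
      obtain ⟨_, ⟨s, rfl⟩, v, hv, hsv⟩ := Submodule.mem_sup.mp hx
      refine ⟨s, ?_⟩
      have h2 : x - e s = v := by
        have : (e s : LaurentSeries k) + v = x := hsv
        linear_combination -this
      rw [h2]
      exact LV_mono (by omega) hv
    · intro q q' _ _ hq hq' x hx
      obtain ⟨s, hs⟩ := hq (g q) (hg q)
      obtain ⟨s', hs'⟩ := hq' (x - g q) (by rw [map_sub, hx, hg, add_sub_cancel_left])
      refine ⟨s + s', ?_⟩
      have : x - e (s + s') = (g q - e s) + (x - g q - e s') := by rw [map_add]; abel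
      rw [this]
      exact Submodule.add_mem _ hs hs'
    · intro c q _ hq x hx
      rcases eq_or_ne c 0 with rfl | hc
      · rw [zero_smul, Submodule.mkQ_apply, Submodule.Quotient.mk_eq_zero] at hx
        obtain ⟨_, ⟨s, rfl⟩, v, hv, hsv⟩ := Submodule.mem_sup.mp hx
        refine ⟨s, ?_⟩
        have h2 : x - e s = v := by
          have : (e s : LaurentSeries k) + v = x := hsv
          linear_combination -this
        rw [h2]
        exact LV_mono (by omega) hv
      · obtain ⟨s, hs⟩ := hq (c⁻¹ • x) (by rw [map_smul, hx, smul_smul, inv_mul_cancel₀ hc, one_smul])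
        refine ⟨c • s, ?_⟩
        have : x - e (c • s) = c • (c⁻¹ • x - e s) := by
          rw [smul_sub, smul_smul, mul_inv_cancel₀ hc, one_smul, map_smul]
        rw [this]
        exact Submodule.smul_mem _ _ hs
  exact key _ (by rw [ht]; trivial) x rfl

theorem exists_bound_R {N : ℕ} (hN : ∀ x : LaurentSeries k, ∃ s : A, x - e s ∈ LV k (-(N : ℤ)))
    (x : LaurentSeries R) : ∃ s ∈ AR e R, x - s ∈ LV R (-(N : ℤ)) := by
  classical
  obtain ⟨n, hn⟩ := exists_mem_LV x
  choose s hs using fun i : ℤ => hN (single i 1)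
  refine ⟨∑ i ∈ Finset.Ico (-(n : ℤ)) 0, x.coeff i • ex e R (s i),
    Subalgebra.sum_mem _ fun i _ => Subalgebra.smul_mem _ (ex_mem_AR e R _) _, ?_⟩
  have h1 : x - ∑ i ∈ Finset.Ico (-(n : ℤ)) 0, x.coeff i • ex e R (s i) =
      (x - ∑ i ∈ Finset.Ico (-(n : ℤ)) 0, x.coeff i • single i (1 : R)) +
      ∑ i ∈ Finset.Ico (-(n : ℤ)) 0, x.coeff i • (single i (1 : R) - ex e R (s i)) := by
    simp only [smul_sub, Finset.sum_sub_distrib]
    abel
  rw [h1]
  refine Submodule.add_mem _ (LV_mono (by omega) (sub_sum_mem hn))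
    (Submodule.sum_mem _ fun i _ => Submodule.smul_mem _ _ ?_)
  have h2 : (single i (1 : R) - ex e R (s i) : LaurentSeries R) =
      lmap (algebraMap k R) (single i 1 - e (s i)) := by
    rw [map_sub, lmap_single, map_one (algebraMap k R)]
    rfl
  rw [h2]
  exact lmap_mem_LV _ (hs i)

/-- `P(a) ∈ M` if `P(a) M⁻¹ ≤ A_R` -/
theorem pev_mem_G (M : G e (R := R) a) {P : Polynomial R}
    (h : ∀ m ∈ ((M.1⁻¹ : (Submodule (AR e R) (LaurentSeries R))ˣ) :
      Submodule (AR e R) (LaurentSeries R)), pev e R a P * m ∈ AR e R) {s : LaurentSeries R}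
    (hs : s ∈ AR e R) : pev e R a P * s ∈ G.sub M := by
  have h1 : (1 : LaurentSeries R) ∈ (M.1 : Submodule (AR e R) (LaurentSeries R)) *
      ((M.1⁻¹ : (Submodule (AR e R) (LaurentSeries R))ˣ) :
      Submodule (AR e R) (LaurentSeries R)) := by
    rw [Units.mul_inv]
    exact Submodule.one_le.mp le_rfl
  have h2 : ∀ y ∈ (M.1 : Submodule (AR e R) (LaurentSeries R)) *
      ((M.1⁻¹ : (Submodule (AR e R) (LaurentSeries R))ˣ) :
      Submodule (AR e R) (LaurentSeries R)), pev e R a P * y ∈ G.sub M := by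
    intro y hy
    induction hy using Submodule.mul_induction_on' with
    | mem_mul_mem m hm n hn =>
      rw [mul_left_comm, mul_comm]
      exact G.smul_mem (h n hn) hm
    | add x _ y _ hx hy =>
      rw [mul_add]
      exact add_mem hx hy
  have h3 := G.smul_mem hs (h2 1 h1)
  rwa [mul_one, mul_comm] at h3

/-- **(K2)** elements of `G(R)` fill up `R((z))` up to bounded poles -/
theorem exists_bound_G (ha : e a ∈ LV k (-(d : ℤ))) (ha1 : (e a).coeff (-(d : ℤ)) = 1) (hd : 0 < d)
    (H1 : Module.Finite k (LaurentSeries k ⧸ (LinearMap.range e.toLinearMap ⊔ LV k 1)))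
    (M : G e (R := R) a) :
    ∃ J : ℤ, ∀ x : LaurentSeries R, ∃ m ∈ G.sub M, x - m ∈ LV R J := by
  obtain ⟨N, hN⟩ := exists_bound H1
  obtain ⟨P, hP, -, hM'⟩ := M.2
  obtain ⟨h1, h2⟩ := pev_mem (R := R) ha ha1 hd hP
  obtain ⟨y, -, hy⟩ := exists_inv_LV h1 (by rw [h2]; exact isUnit_one)
  refine ⟨-((d * P.natDegree : ℕ) : ℤ) + -(N : ℤ), fun x => ?_⟩
  obtain ⟨s, hs, hsx⟩ := exists_bound_R hN (y * x)
  refine ⟨pev e R a P * s, pev_mem_G M hM' hs, ?_⟩
  have h3 : x - pev e R a P * s = pev e R a P * (y * x - s) := by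
    rw [mul_sub, ← mul_assoc, hy, one_mul]
  rw [h3]
  exact mul_mem_LV h1 hsx

/-- **(K2)** the cokernel is finitely generated -/
theorem finite_coker (ha : e a ∈ LV k (-(d : ℤ))) (ha1 : (e a).coeff (-(d : ℤ)) = 1) (hd : 0 < d)
    (H1 : Module.Finite k (LaurentSeries k ⧸ (LinearMap.range e.toLinearMap ⊔ LV k 1)))
    (M : G e (R := R) a) (n : ℤ) : Module.Finite R (LaurentSeries R ⧸ (G.sub M ⊔ LV R n)) := by
  obtain ⟨J, hJ⟩ := exists_bound_G ha ha1 hd H1 M
  exact finite_quotient hJ n

end CokerG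

end Fermat.Agent.J25.KF
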