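import Mathlib
import Fermat.Agent.J25.KerFG

/-!
# Finiteness of the kernel (S25, WP6, K3)
-/

set_option autoImplicit false
set_option linter.style.haveILetI false

noncomputable section

universe u v w

namespace Fermat.Agent.J25.KF

attribute [-instance] HahnSeries.powerSeriesAlgebra

open HahnSeries TensorProduct Polynomial

variable {k : Type u} [Field k] {A : Type u} [CommRing A] [Algebra k A]
  {e : A →ₐ[k] LaurentSeries k} {R : Type u} [CommRing R] [Algebra k R] {a : A} {d : ℕ}

theorem aeval_tmul (g : k[X]) : (1 : R) ⊗ₜ[k] (aeval a g) =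
    aeval ((1 : R) ⊗ₜ[k] a) (g.map (algebraMap k R)) := by
  rw [aeval_map_algebraMap]
  have : (Algebra.TensorProduct.includeRight : A →ₐ[k] R ⊗[k] A) (aeval a g) =
      aeval ((Algebra.TensorProduct.includeRight : A →ₐ[k] R ⊗[k] A) a) g := by
    rw [aeval_algHom_apply]
  exact this

/-- quotients of `R ⊗ A` by ideals containing a monic polynomial in `a` are finite over `R` -/
theorem finite_quot_of_monic (finA : (aeval (R := k) a).toRingHom.Finite)
    {I : Ideal (R ⊗[k] A)} {Q : R[X]} (hQ : Q.Monic)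
    (hI : aeval ((1 : R) ⊗ₜ[k] a) Q ∈ I) : Module.Finite R ((R ⊗[k] A) ⧸ I) := by
  classical
  letI : Algebra k[X] A := (aeval (R := k) a).toRingHom.toAlgebra
  haveI hfin : Module.Finite k[X] A := finA
  obtain ⟨s, hs⟩ := hfin.fg_top
  let q : R ⊗[k] A →ₐ[R] (R ⊗[k] A) ⧸ I := Ideal.Quotient.mkₐ R I
  let x₀ : R ⊗[k] A := (1 : R) ⊗ₜ[k] a
  let W : Submodule R ((R ⊗[k] A) ⧸ I) := Submodule.span R
    (((Finset.range (Q.natDegree + 1)) ×ˢ s).image
      fun jb => q (x₀ ^ jb.1 * (1 : R) ⊗ₜ[k] jb.2) : Finset _)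
  have key1 : ∀ (f : R[X]) (b : A), b ∈ s → q (aeval x₀ f * (1 : R) ⊗ₜ[k] b) ∈ W := by
    intro f b hb
    have h1 : q (aeval x₀ f * (1 : R) ⊗ₜ[k] b) = q (aeval x₀ (f %ₘ Q) * (1 : R) ⊗ₜ[k] b) := by
      have h3 : aeval x₀ f * (1 : R) ⊗ₜ[k] b = aeval x₀ (f %ₘ Q) * (1 : R) ⊗ₜ[k] b +
          aeval x₀ Q * aeval x₀ (f /ₘ Q) * (1 : R) ⊗ₜ[k] b := by
        rw [← add_mul, ← map_mul (aeval x₀), ← map_add (aeval x₀), modByMonic_add_div]
      rw [h3, map_add q]
      have h2 : q (aeval x₀ Q * aeval x₀ (f /ₘ Q) * (1 : R) ⊗ₜ[k] b) = 0 := by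
        apply Ideal.Quotient.eq_zero_iff_mem.mpr
        rw [mul_assoc]
        exact I.mul_mem_right _ hI
      rw [h2, add_zero]
    rw [h1, aeval_eq_sum_range' (n := Q.natDegree + 1)
      (lt_of_le_of_lt (natDegree_modByMonic_le f hQ) (Nat.lt_succ_self _)), Finset.sum_mul, map_sum]
    refine Submodule.sum_mem _ fun j hj => ?_
    rw [smul_mul_assoc, map_smul]
    refine Submodule.smul_mem _ _ (Submodule.subset_span ?_)
    rw [Finset.coe_image]
    exact ⟨(j, b), Finset.mem_coe.mpr (Finset.mk_mem_product hj hb), rfl⟩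
  have key2 : ∀ (x : A) (f : R[X]), q (aeval x₀ f * (1 : R) ⊗ₜ[k] x) ∈ W := by
    intro x
    have hx : x ∈ Submodule.span k[X] (s : Set A) := by rw [hs]; trivial
    refine Submodule.span_induction (p := fun x _ => ∀ f : R[X],
      q (aeval x₀ f * (1 : R) ⊗ₜ[k] x) ∈ W) ?_ ?_ ?_ ?_ hx
    · intro x hx f
      exact key1 f x hx
    · intro f
      rw [tmul_zero, mul_zero, map_zero]
      exact zero_mem _
    · intro x y _ _ hx hy f
      rw [tmul_add, mul_add, map_add]
      exact add_mem (hx f) (hy f)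
    · intro g x _ hx f
      have h1 : (1 : R) ⊗ₜ[k] (g • x) = aeval x₀ (g.map (algebraMap k R)) * (1 : R) ⊗ₜ[k] x := by
        rw [← aeval_tmul, Algebra.TensorProduct.tmul_mul_tmul, one_mul]
        rfl
      rw [h1, ← mul_assoc, ← map_mul]
      exact hx _
  refine ⟨⟨((Finset.range (Q.natDegree + 1)) ×ˢ s).image
      fun jb => q (x₀ ^ jb.1 * (1 : R) ⊗ₜ[k] jb.2), ?_⟩⟩
  rw [eq_top_iff]
  rintro y -
  change y ∈ W
  obtain ⟨t, rfl⟩ := Ideal.Quotient.mk_surjective y
  change q t ∈ W
  induction t using TensorProduct.induction_on with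
  | zero => rw [map_zero]; exact zero_mem _
  | tmul r x =>
    have h1 : r ⊗ₜ[k] x = r • (aeval x₀ (1 : R[X]) * (1 : R) ⊗ₜ[k] x) := by
      rw [map_one, one_mul, smul_tmul', smul_eq_mul, mul_one]
    rw [h1, map_smul]
    exact Submodule.smul_mem _ _ (key2 x 1)
  | add x y hx hy =>
    rw [map_add]
    exact add_mem hx hy

theorem finiteType_of_finite (finA : (aeval (R := k) a).toRingHom.Finite) :
    Algebra.FiniteType k A := by
  letI : Algebra k[X] A := (aeval (R := k) a).toRingHom.toAlgebra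
  haveI : IsScalarTower k k[X] A := IsScalarTower.of_algebraMap_eq fun c => by
    change algebraMap k A c = aeval a (C c)
    rw [aeval_C]
  haveI hfin : Module.Finite k[X] A := finA
  exact Algebra.FiniteType.trans (S := k[X]) inferInstance inferInstance

/-- the quotient by a finitely generated ideal containing a monic polynomial in `a` is a
finitely presented module -/
theorem fp_quot (finA : (aeval (R := k) a).toRingHom.Finite)
    {I : Ideal (R ⊗[k] A)} (hI : I.FG) {Q : R[X]} (hQ : Q.Monic)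
    (hQI : aeval ((1 : R) ⊗ₜ[k] a) Q ∈ I) :
    Module.FinitePresentation R ((R ⊗[k] A) ⧸ I) := by
  haveI := finite_quot_of_monic finA hQ hQI
  haveI : Algebra.FiniteType k A := finiteType_of_finite finA
  haveI : Algebra.FinitePresentation k A := Algebra.FinitePresentation.of_finiteType.mp inferInstance
  haveI : Algebra.FinitePresentation R (R ⊗[k] A) := inferInstance
  haveI : Algebra.FinitePresentation R ((R ⊗[k] A) ⧸ I) := Algebra.FinitePresentation.quotient hI
  exact Module.FinitePresentation.of_finite_of_finitePresentation R _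

/-- **(K3)** if there is no cokernel, the kernel is finitely generated -/
theorem fg_ker (he : Function.Injective e)
    (ha : e a ∈ LV k (-(d : ℤ))) (ha1 : (e a).coeff (-(d : ℤ)) = 1) (hd : 0 < d)
    (finA : (aeval (R := k) a).toRingHom.Finite)
    (H0 : ∀ x : A, e x ∈ LV k 0 → ∃ r : k, x = algebraMap k A r)
    (M : G e (R := R) a) (n : ℤ) (h : G.sub M ⊔ LV R n = ⊤) :
    (G.sub M ⊓ LV R n).FG := by
  classical
  have hinj : Function.Injective (exR e R) := exR_injective e he
  obtain ⟨P, hP, hM, hM'⟩ := M.2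
  obtain ⟨h1, h2⟩ := pev_mem (R := R) ha ha1 hd hP
  set N : ℤ := -((d * P.natDegree : ℕ) : ℤ) with hN
  obtain ⟨y, hyN, hy⟩ := exists_inv_LV h1 (by rw [h2]; exact isUnit_one)
  set p := pev e R a P with hp
  have hev : ∀ Q : R[X], exR e R (aeval ((1 : R) ⊗ₜ[k] a) Q) = pev e R a Q := by
    intro Q
    rw [← aeval_algHom_apply, exR_tmul, one_smul]
    rfl
  -- the ideal
  let I : Ideal (R ⊗[k] A) :=
    { carrier := {t | ∃ m ∈ G.sub M, exR e R t = p * m}
      zero_mem' := ⟨0, zero_mem _, by rw [map_zero, mul_zero]⟩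
      add_mem' := by
        rintro s t ⟨m, hm, hs⟩ ⟨m', hm', ht⟩
        exact ⟨m + m', add_mem hm hm', by rw [map_add, hs, ht, mul_add]⟩
      smul_mem' := by
        rintro c t ⟨m, hm, ht⟩
        exact ⟨exR e R c * m, G.smul_mem ⟨c, rfl⟩ hm, by
          rw [smul_eq_mul, map_mul, ht, mul_left_comm]⟩ }
  have hmemI : ∀ t, t ∈ I ↔ ∃ m ∈ G.sub M, exR e R t = p * m := fun t => Iff.rfl
  have hIfg : I.FG := by
    obtain ⟨s, hs⟩ := Submodule.fg_of_isUnit (M.1.isUnit)
    have hsM : ∀ m ∈ s, m ∈ G.sub M := by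
      intro m hm
      rw [G.mem_sub, ← hs]
      exact Submodule.subset_span hm
    choose! τ hτ using fun (m : LaurentSeries R) (hm : m ∈ G.sub M) => hM m hm
    refine ⟨s.image τ, ?_⟩
    apply le_antisymm
    · rw [Submodule.span_le, Finset.coe_image]
      rintro _ ⟨m, hm, rfl⟩
      exact ⟨m, hsM m hm, hτ m (hsM m hm)⟩
    · rintro t ⟨m, hm, ht⟩
      rw [G.mem_sub, ← hs] at hm
      have key : ∀ m ∈ Submodule.span (AR e R) (s : Set (LaurentSeries R)), ∀ t,
          exR e R t = p * m → t ∈ Submodule.span (R ⊗[k] A) ((s.image τ : Finset _) : Set _) := by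
        intro m hm
        refine Submodule.span_induction (p := fun m _ => ∀ t,
          exR e R t = p * m → t ∈ Submodule.span (R ⊗[k] A) ((s.image τ : Finset _) : Set _))
          ?_ ?_ ?_ ?_ hm
        · intro m hm t ht
          have : t = τ m := hinj (by rw [ht]; exact (hτ m (hsM m hm)).symm)
          rw [this]
          refine Submodule.subset_span ?_
          rw [Finset.coe_image]
          exact ⟨m, hm, rfl⟩
        · intro t ht
          rw [mul_zero] at ht
          have : t = 0 := hinj (by rw [ht, map_zero])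
          rw [this]
          exact zero_mem _
        · intro m m' hm hm' ih ih' t ht
          obtain ⟨u, hu⟩ : ∃ u, exR e R u = p * m := hM m (by rw [← hs]; exact hm)
          have h3 : exR e R (t - u) = p * m' := by
            rw [map_sub, ht, hu]
            ring
          have h4 : t = u + (t - u) := by abel
          rw [h4]
          exact add_mem (ih u hu) (ih' _ h3)
        · rintro ⟨_, c, rfl⟩ m hm ih t ht
          obtain ⟨u, hu⟩ : ∃ u, exR e R u = p * m := hM m (by rw [← hs]; exact hm)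
          have h3 : t = c * u := by
            apply hinj
            rw [ht, map_mul, hu, Subalgebra.smul_def, smul_eq_mul, mul_left_comm]
            rfl
          rw [h3]
          exact Submodule.smul_mem _ c (ih u hu)
      exact key m hm t ht
  have hQI : aeval ((1 : R) ⊗ₜ[k] a) (P * P) ∈ I := by
    refine ⟨p * 1, pev_mem_G M hM' (one_mem _), ?_⟩
    rw [hev, pev, map_mul, mul_one]
    rfl
  haveI hfp := fp_quot finA hIfg (hP.mul hP) hQI
  -- the source
  let F : Submodule R (R ⊗[k] A) := (LV R (N + n)).comap (exR e R).toLinearMap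
  have hF : F.FG := by
    refine Submodule.fg_of_fg_map_injective (exR e R).toLinearMap hinj ?_
    have : F.map (exR e R).toLinearMap = Subalgebra.toSubmodule (AR e R) ⊓ LV R (N + n) := by
      ext x
      constructor
      · rintro ⟨t, ht, rfl⟩
        exact ⟨⟨t, rfl⟩, ht⟩
      · rintro ⟨⟨t, rfl⟩, ht⟩
        exact ⟨t, ht, rfl⟩
    rw [this]
    exact fg_AR_inf e R H0 _
  haveI : Module.Finite R F := Module.Finite.iff_fg.mpr hF
  let l : F →ₗ[R] (R ⊗[k] A) ⧸ I := (Ideal.Quotient.mkₐ R I).toLinearMap ∘ₗ F.subtype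
  have hl : Function.Surjective l := by
    intro z
    obtain ⟨t, rfl⟩ := Ideal.Quotient.mk_surjective z
    have h3 : y * exR e R t ∈ G.sub M ⊔ LV R n := by rw [h]; trivial
    obtain ⟨m, hm, v, hv, hmv⟩ := Submodule.mem_sup.mp h3
    obtain ⟨u, hu⟩ : ∃ u, exR e R u = p * m := hM m hm
    have h4 : exR e R (t - u) = p * v := by
      rw [map_sub, hu, eq_comm, ← sub_eq_iff_eq_add'.mpr hmv.symm]
      rw [mul_sub, ← mul_assoc, hy, one_mul]
    refine ⟨⟨t - u, ?_⟩, ?_⟩
    · change exR e R (t - u) ∈ LV R (N + n)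
      rw [h4]
      exact mul_mem_LV h1 hv
    · change Ideal.Quotient.mk I (t - u) = Ideal.Quotient.mk I t
      rw [map_sub, (Ideal.Quotient.eq_zero_iff_mem (I := I) (a := u)).mpr ⟨m, hm, hu⟩, sub_zero]
  have hker := Module.FinitePresentation.fg_ker l hl
  let ψ : F →ₗ[R] LaurentSeries R :=
    (LinearMap.mulLeft R y) ∘ₗ (exR e R).toLinearMap ∘ₗ F.subtype
  have hψ : (LinearMap.ker l).map ψ = G.sub M ⊓ LV R n := by
    ext x
    constructor
    · rintro ⟨⟨t, ht⟩, htl, rfl⟩
      have h3 : Ideal.Quotient.mk I t = 0 := htl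
      obtain ⟨m, hm, hmt⟩ := (Ideal.Quotient.eq_zero_iff_mem).mp h3
      have h4 : ψ ⟨t, ht⟩ = m := by
        change y * exR e R t = m
        rw [hmt, ← mul_assoc, mul_comm y p, hy, one_mul]
      rw [h4]
      refine ⟨hm, ?_⟩
      have h5 : exR e R t ∈ LV R (N + n) := ht
      rw [hmt] at h5
      exact (mul_mem_LV_iff h1 (by rw [h2]; exact isUnit_one)).mp h5
    · rintro ⟨hxM, hxn⟩
      obtain ⟨t, ht⟩ : ∃ t, exR e R t = p * x := hM x hxM
      refine ⟨⟨t, ?_⟩, ?_, ?_⟩
      · change exR e R t ∈ LV R (N + n)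
        rw [ht]
        exact mul_mem_LV h1 hxn
      · change Ideal.Quotient.mk I t = 0
        exact Ideal.Quotient.eq_zero_iff_mem.mpr ⟨x, hxM, ht⟩
      · change y * exR e R t = x
        rw [ht, ← mul_assoc, mul_comm y p, hy, one_mul]
  rw [← hψ]
  exact hker.map ψ

end Fermat.Agent.J25.KF
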