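import Mathlib

/-!
# Openness of the vanishing of the cohomology (algebra)

`φ : M → Q` is a linear map of projective modules with finitely generated cokernel. If it is
surjective at a point, it is surjective near this point; if moreover the fibres of `φ` have Euler
characteristic zero, it is bijective near this point.
-/

set_option autoImplicit false
set_option linter.style.haveILetI false

universe u v w

open TensorProduct

namespace Fermat.Agent.J25

section Bass

variable {R : Type u} [CommRing R] {P : Type v} [AddCommGroup P] [Module R P]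

/-- a version of the lemma of Bass: a direct summand `P` of a free module, all of whose elements
have coordinates in all maximal ideals, is zero -/
theorem eq_zero_of_retract {ι : Type w} (s : P →ₗ[R] (ι →₀ R)) (π : (ι →₀ R) →ₗ[R] P)
    (hs : ∀ x, π (s x) = x)
    (h : ∀ (m : Ideal R), m.IsMaximal → ∀ (x : P) (i : ι), s x i ∈ m) (x : P) : x = 0 := by
  classical
  -- the finite set of the coordinates of `x`
  set S : Finset ι := (s x).support with hS
  let a : S → R := fun i => s x i
  let C : Matrix S S R := fun i j => s (π (Finsupp.single (i : ι) 1)) j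
  have hx : s x = ∑ i : S, a i • Finsupp.single (i : ι) (1 : R) := by
    conv_lhs => rw [← Finsupp.sum_single (s x)]
    rw [Finsupp.sum, ← hS, ← Finset.sum_coe_sort S]
    refine Finset.sum_congr rfl fun i _ => ?_
    rw [Finsupp.smul_single, smul_eq_mul, mul_one]
  have hx2 : x = ∑ i : S, a i • π (Finsupp.single (i : ι) (1 : R)) := by
    conv_lhs => rw [← hs x, hx, map_sum]
    refine Finset.sum_congr rfl fun i _ => ?_
    rw [map_smul]
  have ha : Matrix.vecMul a (1 - C) = 0 := by
    ext j
    rw [Matrix.vecMul_sub, Matrix.vecMul_one, Pi.sub_apply, Pi.zero_apply, sub_eq_zero]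
    have h1 : a j = s x j := rfl
    rw [h1]
    conv_lhs => rw [hx2, map_sum]
    rw [Finsupp.finsetSum_apply]
    simp only [Matrix.vecMul, dotProduct]
    refine Finset.sum_congr rfl fun i _ => ?_
    rw [map_smul, Finsupp.smul_apply, smul_eq_mul]
  have hdet : IsUnit (1 - C).det := by
    by_contra hu
    obtain ⟨m, hm, hmem⟩ := exists_max_ideal_of_mem_nonunits hu
    have hmap : (Ideal.Quotient.mk m).mapMatrix (1 - C) = 1 := by
      rw [map_sub, map_one, sub_eq_self]
      ext i j
      rw [RingHom.mapMatrix_apply, Matrix.map_apply, Matrix.zero_apply,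
        Ideal.Quotient.eq_zero_iff_mem]
      exact h m hm _ _
    have h1 : Ideal.Quotient.mk m (1 - C).det = 1 := by
      rw [RingHom.map_det, hmap, Matrix.det_one]
    rw [Ideal.Quotient.eq_zero_iff_mem.mpr hmem] at h1
    have : Nontrivial (R ⧸ m) := Ideal.Quotient.nontrivial_iff.mpr hm.ne_top
    exact zero_ne_one h1
  have ha0 : a = 0 := by
    have h2 := congrArg (fun v => Matrix.vecMul v (1 - C)⁻¹) ha
    simpa [Matrix.vecMul_vecMul, Matrix.mul_nonsing_inv _ hdet] using h2
  rw [hx2, ha0]
  simp

/-- **Lemma of Bass**: a projective module (of any rank) with trivial fibres is trivial. -/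
theorem subsingleton_of_projective [Module.Projective R P]
    (h : ∀ m : Ideal R, m.IsMaximal → m • (⊤ : Submodule R P) = ⊤) : Subsingleton P := by
  obtain ⟨s, hs⟩ := Module.projective_def'.mp (inferInstance : Module.Projective R P)
  have hs' : ∀ x, Finsupp.linearCombination R id (s x) = x := fun x => LinearMap.congr_fun hs x
  refine ⟨fun x y => ?_⟩
  have key : ∀ x : P, x = 0 := eq_zero_of_retract s _ hs' fun m hm x i => by
    have hx : x ∈ m • (⊤ : Submodule R P) := by rw [h m hm]; trivial
    refine Submodule.smul_induction_on (p := fun x => s x i ∈ m) hx ?_ ?_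
    · intro r hr n _
      rw [map_smul, Finsupp.smul_apply, smul_eq_mul]
      exact Ideal.mul_mem_right _ _ hr
    · intro x y hx hy
      rw [map_add, Finsupp.add_apply]
      exact m.add_mem hx hy
  rw [key x, key y]

/-- the fibre criterion with residue fields -/
theorem subsingleton_of_projective' [Module.Projective R P]
    (h : ∀ m : Ideal R, m.IsMaximal → Subsingleton ((R ⧸ m) ⊗[R] P)) : Subsingleton P := by
  refine subsingleton_of_projective (R := R) fun m hm => ?_
  have := h m hm
  have e := TensorProduct.quotTensorEquivQuotSMul P m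
  have h2 : Subsingleton (P ⧸ m • (⊤ : Submodule R P)) := e.symm.toEquiv.subsingleton
  exact Submodule.Quotient.subsingleton_iff.mp h2

end Bass

section Coker

variable {R : Type u} [CommRing R]

/-- Nakayama's lemma: a finitely generated module with trivial fibre at a point is killed by a
function which does not vanish at this point. -/
theorem exists_smul_eq_zero {N : Type v} [AddCommGroup N] [Module R N] [Module.Finite R N]
    (K : Type w) [Field K] [Algebra R K] (h : Subsingleton (K ⊗[R] N)) :
    ∃ f : R, algebraMap R K f ≠ 0 ∧ ∀ n : N, f • n = 0 := by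
  have hprime : (RingHom.ker (algebraMap R K)).IsPrime := RingHom.ker_isPrime _
  obtain ⟨t, ht⟩ : ∃ t : PrimeSpectrum R, t.asIdeal = RingHom.ker (algebraMap R K) :=
    ⟨⟨_, hprime⟩, rfl⟩
  by_contra hcon
  push Not at hcon
  -- `t` is in the support
  have hsupp : t ∈ Module.support R N := by
    rw [Module.support_eq_zeroLocus, PrimeSpectrum.mem_zeroLocus]
    intro f hf
    rw [SetLike.mem_coe, ht, RingHom.mem_ker]
    by_contra hf0
    obtain ⟨n, hn⟩ := hcon f hf0
    exact hn (Module.mem_annihilator.mp hf n)
  rw [Module.mem_support_iff_nontrivial_residueField_tensorProduct] at hsupp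
  -- the residue field maps to `K`
  let g : t.asIdeal.ResidueField →+* K := Ideal.ResidueField.lift t.asIdeal (algebraMap R K)
    (fun a ha => by rw [ht, RingHom.mem_ker] at ha; exact ha)
    (fun a ha => by
      rw [Submonoid.mem_comap, IsUnit.mem_submonoid_iff, isUnit_iff_ne_zero]
      intro h0
      exact ha (by rw [SetLike.mem_coe, ht, RingHom.mem_ker]; exact h0))
  letI : Algebra t.asIdeal.ResidueField K := g.toAlgebra
  haveI : IsScalarTower R t.asIdeal.ResidueField K := IsScalarTower.of_algebraMap_eq fun r => by
    rw [RingHom.algebraMap_toAlgebra, Ideal.ResidueField.lift_algebraMap]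
  have e := TensorProduct.AlgebraTensorModule.cancelBaseChange R t.asIdeal.ResidueField K K N
  have h1 : Subsingleton (K ⊗[t.asIdeal.ResidueField] (t.asIdeal.ResidueField ⊗[R] N)) :=
    e.toEquiv.subsingleton
  have h2 : Nontrivial (K ⊗[t.asIdeal.ResidueField] (t.asIdeal.ResidueField ⊗[R] N)) :=
    inferInstance
  exact not_subsingleton _ h1

variable {M : Type v} {Q : Type w} [AddCommGroup M] [Module R M] [AddCommGroup Q] [Module R Q]
  (φ : M →ₗ[R] Q)

/-- base change and cokernels -/
theorem surjective_baseChange_iff (S : Type*) [CommRing S] [Algebra R S] :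
    Function.Surjective (φ.baseChange S) ↔ Subsingleton (S ⊗[R] (Q ⧸ LinearMap.range φ)) := by
  have hex : Function.Exact (LinearMap.lTensor S φ)
      (LinearMap.lTensor S (LinearMap.range φ).mkQ) :=
    lTensor_exact S (LinearMap.exact_map_mkQ_range φ) (Submodule.mkQ_surjective _)
  have hsurj : Function.Surjective (LinearMap.lTensor S (LinearMap.range φ).mkQ) :=
    LinearMap.lTensor_surjective S (Submodule.mkQ_surjective _)
  have h0 : ∀ x, φ.baseChange S x = LinearMap.lTensor S φ x := fun x => rfl
  constructor
  · intro h
    refine ⟨fun x y => ?_⟩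
    have key : ∀ z : S ⊗[R] (Q ⧸ LinearMap.range φ), z = 0 := by
      intro z
      obtain ⟨q, rfl⟩ := hsurj z
      obtain ⟨m, rfl⟩ := h q
      rw [h0]
      exact hex.apply_apply_eq_zero m
    rw [key x, key y]
  · intro h q
    obtain ⟨m, hm⟩ := (hex q).mp (Subsingleton.elim _ _)
    exact ⟨m, hm⟩

/-- **(6b)** if the cokernel is finitely generated, surjectivity is an open condition. -/
theorem exists_surjective_baseChange [Module.Finite R (Q ⧸ LinearMap.range φ)]
    (K : Type*) [Field K] [Algebra R K] (h : Function.Surjective (φ.baseChange K)) :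
    ∃ f : R, algebraMap R K f ≠ 0 ∧ ∀ (S : Type*) [CommRing S] [Algebra R S],
      IsUnit (algebraMap R S f) → Function.Surjective (φ.baseChange S) := by
  obtain ⟨f, hf, hf2⟩ := exists_smul_eq_zero (N := Q ⧸ LinearMap.range φ) K
    ((surjective_baseChange_iff φ K).mp h)
  refine ⟨f, hf, fun S _ _ hu => (surjective_baseChange_iff φ S).mpr ⟨fun x y => ?_⟩⟩
  have key : ∀ z : S ⊗[R] (Q ⧸ LinearMap.range φ), z = 0 := by
    intro z
    induction z with
    | zero => rfl
    | tmul s n =>
      obtain ⟨u, hu⟩ := hu
      have h1 : s = f • ((↑u⁻¹ : S) * s) := by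
        rw [Algebra.smul_def, ← mul_assoc, ← hu, Units.mul_inv, one_mul]
      rw [h1, TensorProduct.smul_tmul, hf2, TensorProduct.tmul_zero]
    | add x y hx hy => rw [hx, hy, add_zero]
  rw [key x, key y]

end Coker

section Split

variable {R : Type u} [CommRing R] {M : Type v} {Q : Type w} [AddCommGroup M] [Module R M]
  [AddCommGroup Q] [Module R Q] (φ : M →ₗ[R] Q)

/-- the kernel of a surjection onto a projective module commutes with base change -/
theorem subsingleton_ker_of_split {s : Q →ₗ[R] M} (hs : φ ∘ₗ s = LinearMap.id)
    (S : Type*) [CommRing S] [Algebra R S] (h : Function.Injective (φ.baseChange S)) :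
    Subsingleton (S ⊗[R] LinearMap.ker φ) := by
  -- the projection onto the kernel
  let π : M →ₗ[R] LinearMap.ker φ := (LinearMap.id - s ∘ₗ φ).codRestrict _ fun m => by
    rw [LinearMap.mem_ker, LinearMap.sub_apply, LinearMap.id_apply, LinearMap.comp_apply, map_sub,
      sub_eq_zero]
    exact (LinearMap.congr_fun hs (φ m)).symm
  have hπ : π ∘ₗ (LinearMap.ker φ).subtype = LinearMap.id := by
    ext x
    change (x : M) - s (φ x) = x
    rw [LinearMap.mem_ker.mp x.2, map_zero, sub_zero]
  have h1 : φ ∘ₗ (LinearMap.ker φ).subtype = 0 := by
    ext x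
    exact x.2
  refine ⟨fun x y => ?_⟩
  have key : ∀ z : S ⊗[R] LinearMap.ker φ, z = 0 := by
    intro z
    have h2 : φ.baseChange S ((LinearMap.ker φ).subtype.baseChange S z) = 0 := by
      rw [← LinearMap.comp_apply, ← LinearMap.baseChange_comp, h1, LinearMap.baseChange_zero,
        LinearMap.zero_apply]
    have h3 : (LinearMap.ker φ).subtype.baseChange S z = 0 :=
      h (h2.trans (map_zero _).symm)
    have h4 : π.baseChange S ((LinearMap.ker φ).subtype.baseChange S z) = z := by
      rw [← LinearMap.comp_apply, ← LinearMap.baseChange_comp, hπ, LinearMap.baseChange_id,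
        LinearMap.id_apply]
    rw [← h4, h3, map_zero]
  rw [key x, key y]

/-- **(6c), over the base**: a surjection of projective modules which is injective in all fibres
is bijective. -/
theorem bijective_of_fibres [Module.Projective R M] [Module.Projective R Q]
    (hsurj : Function.Surjective φ)
    (h : ∀ m : Ideal R, m.IsMaximal → Function.Injective (φ.baseChange (R ⧸ m))) :
    Function.Bijective φ := by
  obtain ⟨s, hs⟩ := φ.exists_rightInverse_of_surjective (LinearMap.range_eq_top.mpr hsurj)
  have hproj : Module.Projective R (LinearMap.ker φ) := by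
    let π : M →ₗ[R] LinearMap.ker φ := (LinearMap.id - s ∘ₗ φ).codRestrict _ fun m => by
      rw [LinearMap.mem_ker, LinearMap.sub_apply, LinearMap.id_apply, LinearMap.comp_apply, map_sub,
        sub_eq_zero]
      exact (LinearMap.congr_fun hs (φ m)).symm
    refine Module.Projective.of_split (LinearMap.ker φ).subtype π ?_
    ext x
    change (x : M) - s (φ x) = x
    rw [LinearMap.mem_ker.mp x.2, map_zero, sub_zero]
  have hsub : Subsingleton (LinearMap.ker φ) :=
    subsingleton_of_projective' fun m hm => subsingleton_ker_of_split φ hs (R ⧸ m) (h m hm)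
  refine ⟨?_, hsurj⟩
  rw [← LinearMap.ker_eq_bot]
  exact (Submodule.subsingleton_iff_eq_bot).mp hsub

end Split

section Tower

variable {R : Type*} [CommRing R] {M Q : Type*} [AddCommGroup M] [Module R M]
  [AddCommGroup Q] [Module R Q] (φ : M →ₗ[R] Q)
  (S : Type*) [CommRing S] [Algebra R S] (T : Type*) [CommRing T] [Algebra R T] [Algebra S T]
  [IsScalarTower R S T]

/-- transitivity of base change -/
theorem cancelBaseChange_baseChange (x : T ⊗[S] (S ⊗[R] M)) :
    TensorProduct.AlgebraTensorModule.cancelBaseChange R S T T Q
      ((φ.baseChange S).baseChange T x) =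
    φ.baseChange T (TensorProduct.AlgebraTensorModule.cancelBaseChange R S T T M x) := by
  induction x with
  | zero => simp only [map_zero]
  | add x y hx hy => simp only [map_add, hx, hy]
  | tmul t y =>
    induction y with
    | zero => simp only [TensorProduct.tmul_zero, map_zero]
    | add x y hx hy => simp only [TensorProduct.tmul_add, map_add, hx, hy]
    | tmul s m =>
      simp only [LinearMap.baseChange_tmul,
        TensorProduct.AlgebraTensorModule.cancelBaseChange_tmul]

theorem injective_baseChange_baseChange_iff :
    Function.Injective ((φ.baseChange S).baseChange T) ↔ Function.Injective (φ.baseChange T) := by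
  let e := TensorProduct.AlgebraTensorModule.cancelBaseChange R S T T M
  let e' := TensorProduct.AlgebraTensorModule.cancelBaseChange R S T T Q
  have h : ∀ x, e' ((φ.baseChange S).baseChange T x) = φ.baseChange T (e x) :=
    cancelBaseChange_baseChange φ S T
  constructor
  · intro H x y hxy
    obtain ⟨x, rfl⟩ := e.surjective x
    obtain ⟨y, rfl⟩ := e.surjective y
    rw [← h, ← h] at hxy
    rw [H (e'.injective hxy)]
  · intro H x y hxy
    apply e.injective
    apply H
    rw [← h, ← h, hxy]

theorem surjective_baseChange_baseChange_iff :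
    Function.Surjective ((φ.baseChange S).baseChange T) ↔
      Function.Surjective (φ.baseChange T) := by
  let e := TensorProduct.AlgebraTensorModule.cancelBaseChange R S T T M
  let e' := TensorProduct.AlgebraTensorModule.cancelBaseChange R S T T Q
  have h : ∀ x, e' ((φ.baseChange S).baseChange T x) = φ.baseChange T (e x) :=
    cancelBaseChange_baseChange φ S T
  constructor
  · intro H y
    obtain ⟨x, hx⟩ := H (e'.symm y)
    exact ⟨e x, by rw [← h, hx, e'.apply_symm_apply]⟩
  · intro H y
    obtain ⟨x, hx⟩ := H (e' y)
    exact ⟨e.symm x, e'.injective (by rw [h, e.apply_symm_apply, hx])⟩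

theorem surjective_baseChange_of_surjective (h : Function.Surjective φ) :
    Function.Surjective (φ.baseChange S) :=
  LinearMap.lTensor_surjective S h

theorem bijective_baseChange_of_bijective (h : Function.Bijective φ) :
    Function.Bijective (φ.baseChange S) :=
  (LinearEquiv.baseChange R S _ _ (LinearEquiv.ofBijective φ h)).bijective

end Tower

section Open

variable {R : Type u} [CommRing R] {M : Type v} {Q : Type w} [AddCommGroup M] [Module R M]
  [AddCommGroup Q] [Module R Q] (φ : M →ₗ[R] Q)

/-- **(6c)** openness of bijectivity, the fibres having Euler characteristic zero. -/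
theorem exists_bijective_baseChange [Module.Projective R M] [Module.Projective R Q]
    [Module.Finite R (Q ⧸ LinearMap.range φ)] (K : Type*) [Field K] [Algebra R K]
    (h : Function.Surjective (φ.baseChange K))
    (hfib : ∀ (L : Type u) [Field L] [IsAlgClosed L] [Algebra R L],
      Function.Surjective (φ.baseChange L) → Function.Injective (φ.baseChange L)) :
    ∃ f : R, algebraMap R K f ≠ 0 ∧ ∀ (S : Type*) [CommRing S] [Algebra R S],
      IsUnit (algebraMap R S f) → Function.Bijective (φ.baseChange S) := by
  obtain ⟨f, hf, hf2⟩ := exists_surjective_baseChange φ K h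
  -- over `R_f`
  have key : Function.Bijective (φ.baseChange (Localization.Away f)) := by
    have hs := hf2 (Localization.Away f) (IsLocalization.Away.algebraMap_isUnit f)
    refine bijective_of_fibres (φ.baseChange (Localization.Away f)) hs fun m hm => ?_
    letI : Field (Localization.Away f ⧸ m) := Ideal.Quotient.field m
    have h1 := hfib (AlgebraicClosure (Localization.Away f ⧸ m)) (by
      have h2 := surjective_baseChange_of_surjective
        ((φ.baseChange (Localization.Away f))) (Localization.Away f ⧸ m) hs
      rw [surjective_baseChange_baseChange_iff] at h2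
      have h3 := surjective_baseChange_of_surjective (φ.baseChange (Localization.Away f ⧸ m))
        (AlgebraicClosure (Localization.Away f ⧸ m)) h2
      rwa [surjective_baseChange_baseChange_iff] at h3)
    rw [injective_baseChange_baseChange_iff]
    rw [← injective_baseChange_baseChange_iff φ (Localization.Away f ⧸ m)] at h1
    exact (Module.FaithfullyFlat.lTensor_injective_iff_injective (Localization.Away f ⧸ m)
      (AlgebraicClosure (Localization.Away f ⧸ m)) _).mp h1
  refine ⟨f, hf, fun S _ _ hu => ?_⟩
  letI : Algebra (Localization.Away f) S := (IsLocalization.Away.lift f hu).toAlgebra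
  haveI : IsScalarTower R (Localization.Away f) S :=
    IsScalarTower.of_algebraMap_eq fun r => (IsLocalization.Away.lift_eq f hu r).symm
  have h1 := bijective_baseChange_of_bijective (φ.baseChange (Localization.Away f)) S key
  exact ⟨(injective_baseChange_baseChange_iff φ (Localization.Away f) S).mp h1.1,
    (surjective_baseChange_baseChange_iff φ (Localization.Away f) S).mp h1.2⟩

end Open

end Fermat.Agent.J25
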