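import Fermat.Agent.J25.KerBC
import Fermat.Agent.J25.KerFG2
import Fermat.Agent.J25.Open

/-!
# The vanishing locus is open

`IsCompl M (z^n R[[z]])` for `M ∈ G(R)`: openness, the criterion by fibres, base change and
descent along extensions of fields.
-/

set_option autoImplicit false
set_option linter.style.haveILetI false

noncomputable section

namespace Fermat.Agent.J25.KF

attribute [-instance] HahnSeries.powerSeriesAlgebra

open HahnSeries
open scoped TensorProduct

universe u v w

section General

variable {R : Type u} [CommRing R] {M : Type v} {Q : Type w} [AddCommGroup M] [Module R M]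
  [AddCommGroup Q] [Module R Q] (φ : M →ₗ[R] Q)

/-- a surjection whose kernel is killed by `f` is bijective where `f` is invertible -/
theorem bijective_baseChange_of_ker (hs : Function.Surjective φ) (f : R)
    (hf : ∀ x : LinearMap.ker φ, f • x = 0) (S : Type*) [CommRing S] [Algebra R S]
    (hu : IsUnit (algebraMap R S f)) : Function.Bijective (φ.baseChange S) := by
  refine ⟨?_, surjective_baseChange_of_surjective φ S hs⟩
  have hex : Function.Exact (LinearMap.lTensor S (LinearMap.ker φ).subtype)
      (LinearMap.lTensor S φ) := lTensor_exact S (LinearMap.exact_subtype_ker_map φ) hs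
  rw [injective_iff_map_eq_zero]
  intro z hz
  obtain ⟨y, rfl⟩ := (hex z).mp hz
  have key : ∀ y : S ⊗[R] LinearMap.ker φ, y = 0 := by
    intro y
    induction y with
    | zero => rfl
    | tmul s n =>
      obtain ⟨u, hu⟩ := hu
      have h1 : s = f • ((↑u⁻¹ : S) * s) := by
        rw [Algebra.smul_def, ← mul_assoc, ← hu, Units.mul_inv, one_mul]
      rw [h1, TensorProduct.smul_tmul, hf, TensorProduct.tmul_zero]
    | add x y hx hy => rw [hx, hy, add_zero]
  rw [key y, map_zero]

/-- openness of bijectivity, if the kernel is finitely generated where the map is surjective -/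
theorem exists_bijective_of_fg [Module.Projective R Q]
    [Module.Finite R (Q ⧸ LinearMap.range φ)]
    (hker : ∀ f : R, Function.Surjective (φ.baseChange (Localization.Away f)) →
      Module.Finite (Localization.Away f) (LinearMap.ker (φ.baseChange (Localization.Away f))))
    (K : Type u) [Field K] [Algebra R K] (h : Function.Bijective (φ.baseChange K)) :
    ∃ f : R, algebraMap R K f ≠ 0 ∧ ∀ (S : Type u) [CommRing S] [Algebra R S],
      IsUnit (algebraMap R S f) → Function.Bijective (φ.baseChange S) := by
  obtain ⟨f, hf, hf2⟩ := exists_surjective_baseChange.{u} φ K h.2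
  have hs := hf2 (Localization.Away f) (IsLocalization.Away.algebraMap_isUnit f)
  have hu : IsUnit (algebraMap R K f) := isUnit_iff_ne_zero.mpr hf
  letI : Algebra (Localization.Away f) K := (IsLocalization.Away.lift f hu).toAlgebra
  haveI : IsScalarTower R (Localization.Away f) K :=
    IsScalarTower.of_algebraMap_eq fun r => (IsLocalization.Away.lift_eq f hu r).symm
  have hinj := (injective_baseChange_baseChange_iff φ (Localization.Away f) K).mpr h.1
  obtain ⟨s, hs'⟩ := (φ.baseChange (Localization.Away f)).exists_rightInverse_of_surjective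
    (LinearMap.range_eq_top.mpr hs)
  have h1 := subsingleton_ker_of_split (φ.baseChange (Localization.Away f)) hs' K hinj
  haveI := hker f hs
  obtain ⟨g, hg, hg2⟩ := exists_smul_eq_zero (R := Localization.Away f)
    (N := LinearMap.ker (φ.baseChange (Localization.Away f))) K h1
  obtain ⟨n, g', hg'⟩ := IsLocalization.Away.surj f g
  refine ⟨f * g', ?_, fun S _ _ hS => ?_⟩
  · rw [map_mul]
    refine mul_ne_zero hf ?_
    rw [IsScalarTower.algebraMap_apply R (Localization.Away f) K, ← hg', map_mul, map_pow,
      ← IsScalarTower.algebraMap_apply]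
    exact mul_ne_zero hg (pow_ne_zero _ hf)
  · rw [map_mul] at hS
    have hSf : IsUnit (algebraMap R S f) := isUnit_of_mul_isUnit_left hS
    have hSg : IsUnit (algebraMap R S g') := isUnit_of_mul_isUnit_right hS
    letI : Algebra (Localization.Away f) S := (IsLocalization.Away.lift f hSf).toAlgebra
    haveI : IsScalarTower R (Localization.Away f) S :=
      IsScalarTower.of_algebraMap_eq fun r => (IsLocalization.Away.lift_eq f hSf r).symm
    have h2 := bijective_baseChange_of_ker (φ.baseChange (Localization.Away f)) hs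
      (algebraMap R (Localization.Away f) g') (fun x => by
        rw [← hg', mul_comm, mul_smul, hg2, smul_zero]) S (by
        rwa [← IsScalarTower.algebraMap_apply])
    exact ⟨(injective_baseChange_baseChange_iff φ (Localization.Away f) S).mp h2.1,
      (surjective_baseChange_baseChange_iff φ (Localization.Away f) S).mp h2.2⟩

/-- the criterion by fibres -/
theorem bijective_of_residueField [Module.Projective R M] [Module.Projective R Q]
    [Module.Finite R (Q ⧸ LinearMap.range φ)]
    (h : ∀ x : PrimeSpectrum R, Function.Bijective (φ.baseChange x.asIdeal.ResidueField)) :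
    Function.Bijective φ := by
  have hs : Function.Surjective φ := by
    have h1 : Module.support R (Q ⧸ LinearMap.range φ) = ∅ := by
      rw [Set.eq_empty_iff_forall_notMem]
      intro x hx
      rw [Module.mem_support_iff_nontrivial_residueField_tensorProduct] at hx
      exact not_nontrivial_iff_subsingleton.mpr ((surjective_baseChange_iff φ _).mp (h x).2) hx
    rw [Module.support_eq_empty_iff] at h1
    rw [← LinearMap.range_eq_top]
    exact Submodule.Quotient.subsingleton_iff.mp h1
  refine bijective_of_fibres φ hs fun m hm => ?_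
  letI : Field (R ⧸ m) := Ideal.Quotient.field m
  have h1 := (h ⟨m, hm.isPrime⟩).1
  have h2 := (injective_baseChange_baseChange_iff φ (R ⧸ m) m.ResidueField).mpr h1
  exact (Module.FaithfullyFlat.lTensor_injective_iff_injective (R ⧸ m) m.ResidueField _).mp h2

end General

section Lattice

variable {k : Type u} [Field k] {A : Type u} [CommRing A] [Algebra k A]
  {e : A →ₐ[k] LaurentSeries k} {a : A} {d : ℕ} {R : Type u} [CommRing R] [Algebra k R]

theorem finite_coker_ppM (ha : e a ∈ LV k (-(d : ℤ))) (ha1 : (e a).coeff (-(d : ℤ)) = 1)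
    (hd : 0 < d)
    (H1 : Module.Finite k (LaurentSeries k ⧸ (LinearMap.range e.toLinearMap ⊔ LV k 1)))
    (M : G e (R := R) a) (n : ℤ) :
    Module.Finite R ((ℕ →₀ R) ⧸ LinearMap.range (KB.ppM (G.sub M) n)) := by
  haveI := finite_coker ha ha1 hd H1 M n
  exact Module.Finite.equiv (KB.cokE (G.sub M) n)

/-- the kernel of the base change of the principal part map -/
theorem ker_baseChange_ppM (he : Function.Injective e) (T : Type u) [CommRing T] [Algebra k T]
    [Algebra R T] [IsScalarTower k R T] (M : G e (R := R) a) (n : ℤ) :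
    LinearMap.ker ((KB.ppM (G.sub M) n).baseChange T) =
      (LinearMap.ker (KB.ppM (G.sub (bc (IsScalarTower.toAlgHom k R T) M)) n)).comap
        (KB.bcE T M he).toLinearMap := by
  ext z
  rw [Submodule.mem_comap, LinearMap.mem_ker, LinearMap.mem_ker, LinearEquiv.coe_coe,
    KB.ppM_bcE, LinearEquiv.map_eq_zero_iff]

theorem finite_ker_baseChange (he : Function.Injective e) (T : Type u) [CommRing T] [Algebra k T]
    [Algebra R T] [IsScalarTower k R T] (M : G e (R := R) a) (n : ℤ)
    (h : (G.sub (bc (IsScalarTower.toAlgHom k R T) M) ⊓ LV T n).FG) :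
    Module.Finite T (LinearMap.ker ((KB.ppM (G.sub M) n).baseChange T)) := by
  rw [← Module.Finite.iff_fg] at h
  have h2 := Module.Finite.equiv (KB.kerE (G.sub (bc (IsScalarTower.toAlgHom k R T) M)) n).symm
  rw [Module.Finite.iff_fg] at h2 ⊢
  rw [ker_baseChange_ppM he, Submodule.comap_equiv_eq_map_symm]
  exact h2.map _

/-- **(I2 c)**: base change -/
theorem isCompl_bc (he : Function.Injective e) {S : Type u} [CommRing S] [Algebra k S]
    (f : R →ₐ[k] S) (M : G e (R := R) a) {n : ℤ} (h : IsCompl (G.sub M) (LV R n)) :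
    IsCompl (G.sub (bc f M)) (LV S n) := by
  letI : Algebra R S := f.toRingHom.toAlgebra
  haveI : IsScalarTower k R S := IsScalarTower.of_algebraMap_eq fun r => (f.commutes r).symm
  have hf : IsScalarTower.toAlgHom k R S = f := by ext x; rfl
  rw [← hf, ← KB.bijective_ppM_iff, KB.bijective_ppM_bc_iff S M he]
  exact bijective_baseChange_of_bijective _ S ((KB.bijective_ppM_iff _ _).mpr h)

/-- **(I2 d)**: descent along faithfully flat maps, in particular extensions of fields -/
theorem isCompl_of_bc' (he : Function.Injective e) (S : Type u) [CommRing S] [Algebra k S]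
    [Algebra R S] [IsScalarTower k R S] [Module.FaithfullyFlat R S]
    (M : G e (R := R) a) {n : ℤ}
    (h : IsCompl (G.sub (bc (IsScalarTower.toAlgHom k R S) M)) (LV S n)) :
    IsCompl (G.sub M) (LV R n) := by
  rw [← KB.bijective_ppM_iff, KB.bijective_ppM_bc_iff S M he] at h
  rw [← KB.bijective_ppM_iff]
  exact (Module.FaithfullyFlat.lTensor_bijective_iff_bijective R S _).mp h

/-- **(I2 d)**: descent along extensions of fields -/
theorem isCompl_of_bc (he : Function.Injective e) {K K' : Type u} [Field K] [Field K']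
    [Algebra k K] [Algebra k K'] (f : K →ₐ[k] K') (M : G e (R := K) a) {n : ℤ}
    (h : IsCompl (G.sub (bc f M)) (LV K' n)) : IsCompl (G.sub M) (LV K n) := by
  letI : Algebra K K' := f.toRingHom.toAlgebra
  haveI : IsScalarTower k K K' := IsScalarTower.of_algebraMap_eq fun r => (f.commutes r).symm
  have hf : IsScalarTower.toAlgHom k K K' = f := by ext x; rfl
  rw [← hf] at h
  exact isCompl_of_bc' he K' M h

theorem isCompl_bc_iff (he : Function.Injective e) {K K' : Type u} [Field K] [Field K']
    [Algebra k K] [Algebra k K'] (f : K →ₐ[k] K') (M : G e (R := K) a) {n : ℤ} :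
    IsCompl (G.sub (bc f M)) (LV K' n) ↔ IsCompl (G.sub M) (LV K n) :=
  ⟨isCompl_of_bc he f M, isCompl_bc he f M⟩

/-- **(I2 b)**: the criterion by fibres -/
theorem isCompl_of_fibres (he : Function.Injective e)
    (ha : e a ∈ LV k (-(d : ℤ))) (ha1 : (e a).coeff (-(d : ℤ)) = 1) (hd : 0 < d)
    (H1 : Module.Finite k (LaurentSeries k ⧸ (LinearMap.range e.toLinearMap ⊔ LV k 1)))
    (M : G e (R := R) a) {n : ℤ}
    (h : ∀ x : PrimeSpectrum R, IsCompl
      (G.sub (bc (IsScalarTower.toAlgHom k R x.asIdeal.ResidueField) M))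
      (LV x.asIdeal.ResidueField n)) :
    IsCompl (G.sub M) (LV R n) := by
  haveI := finite_coker_ppM ha ha1 hd H1 M n
  haveI := KB.projective_sub he M
  rw [← KB.bijective_ppM_iff]
  refine bijective_of_residueField _ fun x => ?_
  rw [← KB.bijective_ppM_bc_iff _ M he, KB.bijective_ppM_iff]
  exact h x

/-- **(6a)**: the condition `H^* = 0` is open -/
theorem exists_isCompl (he : Function.Injective e)
    (ha : e a ∈ LV k (-(d : ℤ))) (ha1 : (e a).coeff (-(d : ℤ)) = 1) (hd : 0 < d)
    (finA : (Polynomial.aeval (R := k) a).toRingHom.Finite)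
    (H0 : ∀ x : A, e x ∈ LV k 0 → ∃ r : k, x = algebraMap k A r)
    (H1 : Module.Finite k (LaurentSeries k ⧸ (LinearMap.range e.toLinearMap ⊔ LV k 1)))
    (M : G e (R := R) a) {n : ℤ} (K : Type u) [Field K] [Algebra k K] [Algebra R K]
    [IsScalarTower k R K]
    (h : IsCompl (G.sub (bc (IsScalarTower.toAlgHom k R K) M)) (LV K n)) :
    ∃ f : R, algebraMap R K f ≠ 0 ∧ ∀ (S : Type u) [CommRing S] [Algebra k S] [Algebra R S]
      [IsScalarTower k R S], IsUnit (algebraMap R S f) →
      IsCompl (G.sub (bc (IsScalarTower.toAlgHom k R S) M)) (LV S n) := by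
  haveI := finite_coker_ppM ha ha1 hd H1 M n
  obtain ⟨f, hf, hf2⟩ := exists_bijective_of_fg (KB.ppM (G.sub M) n) (fun f hs => by
    rw [← KB.surjective_ppM_bc_iff _ M he, KB.surjective_ppM_iff] at hs
    have h1 := fg_ker he ha ha1 hd finA H0 _ n hs
    exact finite_ker_baseChange he (Localization.Away f) M n h1) K (by rwa [← KB.bijective_ppM_bc_iff K M he, KB.bijective_ppM_iff])
  refine ⟨f, hf, fun S _ _ _ _ hu => ?_⟩
  rw [← KB.bijective_ppM_iff, KB.bijective_ppM_bc_iff S M he]
  exact hf2 S hu

end Lattice

/-! ### the same for `Geo` -/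

section Geom

open CategoryTheory CategoryTheory.Limits AlgebraicGeometry NeronModelInfra

variable {k : Type u} [Field k] {C : Scheme.{u}} {c : C ⟶ Spec (CommRingCat.of k)}
    {ε : SchemeHomOver (𝟙 (Spec (CommRingCat.of k))) c} (g : Geo c ε)
  {R : Type u} [CommRing R] [Algebra k R]

theorem geo_inj : Function.Injective g.e := g.injA

/-- **(6a)**, strong form -/
theorem geo_open' (M : G g.e (R := R) g.a) (n : ℤ) (K : Type u) [Field K] [Algebra k K]
    [Algebra R K] [IsScalarTower k R K]
    (h : IsCompl (G.sub (bc (IsScalarTower.toAlgHom k R K) M)) (LV K n)) :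
    ∃ f : R, algebraMap R K f ≠ 0 ∧ ∀ (S : Type u) [CommRing S] [Algebra k S] [Algebra R S]
      [IsScalarTower k R S], IsUnit (algebraMap R S f) →
      IsCompl (G.sub (bc (IsScalarTower.toAlgHom k R S) M)) (LV S n) :=
  exists_isCompl (e := g.e) (a := g.a) (d := g.d) g.injA g.ea_mem g.ea_coeff g.hd g.finA g.H0
    g.H1 M K h

/-- **(I2 a)** -/
theorem geo_open (M : G g.e (R := R) g.a) (x : PrimeSpectrum R)
    (h : IsCompl (G.sub (bc (IsScalarTower.toAlgHom k R x.asIdeal.ResidueField) M))
      (LV x.asIdeal.ResidueField 1)) :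
    ∃ f ∉ x.asIdeal, ∀ y : PrimeSpectrum R, f ∉ y.asIdeal →
      IsCompl (G.sub (bc (IsScalarTower.toAlgHom k R y.asIdeal.ResidueField) M))
        (LV y.asIdeal.ResidueField 1) := by
  obtain ⟨f, hf, hf2⟩ := geo_open' g M 1 _ h
  refine ⟨f, fun h1 => hf ?_, fun y hy => hf2 _ (isUnit_iff_ne_zero.mpr fun h1 => hy ?_)⟩
  · rwa [Ideal.algebraMap_residueField_eq_zero]
  · rwa [Ideal.algebraMap_residueField_eq_zero] at h1

/-- **(I2 b)** -/
theorem geo_fibres (M : G g.e (R := R) g.a) (n : ℤ)
    (h : ∀ x : PrimeSpectrum R, IsCompl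
      (G.sub (bc (IsScalarTower.toAlgHom k R x.asIdeal.ResidueField) M))
      (LV x.asIdeal.ResidueField n)) :
    IsCompl (G.sub M) (LV R n) :=
  isCompl_of_fibres (e := g.e) (a := g.a) (d := g.d) g.injA g.ea_mem g.ea_coeff g.hd g.H1 M h

/-- **(I2 c)** -/
theorem geo_bc {S : Type u} [CommRing S] [Algebra k S] (f : R →ₐ[k] S)
    (M : G g.e (R := R) g.a) {n : ℤ} (h : IsCompl (G.sub M) (LV R n)) :
    IsCompl (G.sub (bc f M)) (LV S n) :=
  isCompl_bc g.injA f M h

/-- **(I2 d)** -/
theorem geo_descent {K K' : Type u} [Field K] [Field K'] [Algebra k K] [Algebra k K']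
    (f : K →ₐ[k] K') (M : G g.e (R := K) g.a) {n : ℤ}
    (h : IsCompl (G.sub (bc f M)) (LV K' n)) : IsCompl (G.sub M) (LV K n) :=
  isCompl_of_bc g.injA f M h

/-- regular functions -/
theorem geo_H0 {x : LaurentSeries R} (hx : x ∈ AR g.e R) (h0 : x ∈ LV R 0) :
    ∃ r : R, x = algebraMap R (LaurentSeries R) r :=
  AR_inf_LV_zero (e := g.e) R g.H0 hx h0

theorem geo_finite (M : G g.e (R := R) g.a) (n : ℤ) :
    Module.Finite R (LaurentSeries R ⧸ (G.sub M ⊔ LV R n)) :=
  finite_coker (e := g.e) (a := g.a) (d := g.d) g.ea_mem g.ea_coeff g.hd g.H1 M n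

end Geom

end Fermat.Agent.J25.KF
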