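import Fermat.Agent.J25.ChartF
import Fermat.Agent.J25.CoverG
import Fermat.Agent.J25.KerOpen
import Fermat.Agent.J25.ChartN
import Fermat.Agent.J25.DescF

/-!
# WP7: the universal point, without hypotheses
-/

set_option autoImplicit false

universe u

open CategoryTheory CategoryTheory.Limits AlgebraicGeometry TopologicalSpace Opposite
open AlgebraicGeometry.RelPicard NeronModelInfra

noncomputable section

namespace Fermat.Agent.J25.CF

attribute [-instance] HahnSeries.powerSeriesAlgebra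

variable {k : Type u} [Field k] {C : Scheme.{u}} {c : C ⟶ Spec (CommRingCat.of k)}
    {ε : SchemeHomOver (𝟙 (Spec (CommRingCat.of k))) c} {g : Geo c ε}

theorem chIn [IsAlgClosed k] (D : PicData g) : ChIn D where
  H := CN.hyp g
  sheaf := PicData.fptA_isSheaf D
  isOpen R _ _ N x h := KF.geo_open g N x h
  fib R _ _ N h := KF.geo_fibres g N 1 h
  cls R _ _ η M h := CN.existsUnique_map D η M h
  eta K₁ K₂ _ _ _ _ _ _ M₁ M₂ h₁ h₂ := CV.exists_eta g M₁ M₂ h₁ h₂

/-- **WP7** -/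
theorem wp7 [IsAlgClosed k] (D : PicData g) : ∃ (P : Scheme.{u}) (x : PicData.FPt D P),
    (∀ (T : Scheme.{u}) (y : PicData.FPt D T), ∃! φ : T ⟶ P, x.map φ = y) ∧
    ∃ (ι : Type u) (j : ι → (Spec (CommRingCat.of (Buniv g.e)) ⟶ P)),
      (∀ i, IsOpenImmersion (j i)) ∧ (∀ i, j i ≫ x.t = sS k (Buniv g.e)) ∧
      (∀ y : P, ∃ i, y ∈ Set.range (j i)) ∧
      ∀ p p' : Spec (CommRingCat.of k) ⟶ P, p ≫ x.t = 𝟙 _ → p' ≫ x.t = 𝟙 _ →
        ∃ i, (∃ a, a ≫ j i = p) ∧ ∃ a', a' ≫ j i = p' :=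
  exists_univ (chIn D)

end Fermat.Agent.J25.CF
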