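import Mathlib
import Fermat.Agent.J25.Chart

/-!
# The chart is of finite type
-/

set_option autoImplicit false

noncomputable section

namespace Fermat.Agent.J25

attribute [-instance] HahnSeries.powerSeriesAlgebra

open HahnSeries

universe u

section CoeffIn

variable {k : Type u} [Field k] {R : Type u} [CommRing R] [Algebra k R]

/-- the Laurent series with coefficients in a subalgebra -/
def coeffIn (R' : Subalgebra k R) : Subring (LaurentSeries R) where
  carrier := {x | ∀ i, x.coeff i ∈ R'}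
  mul_mem' := by
    intro x y hx hy i
    obtain ⟨m, hm⟩ := exists_mem_LV x
    obtain ⟨n, hn⟩ := exists_mem_LV y
    rw [coeff_mul_of_mem hm hn]
    exact Subalgebra.sum_mem _ fun s _ => R'.mul_mem (hx _) (hy _)
  one_mem' := by
    intro i
    rw [← single_zero_one, coeff_single]
    split_ifs
    · exact R'.one_mem
    · exact R'.zero_mem
  add_mem' := fun hx hy i => by
    rw [HahnSeries.coeff_add]
    exact R'.add_mem (hx i) (hy i)
  zero_mem' := fun i => R'.zero_mem
  neg_mem' := fun hx i => by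
    rw [HahnSeries.coeff_neg]
    exact R'.neg_mem (hx i)

end CoeffIn

variable {k : Type u} [Field k] {A : Type u} [CommRing A] [Algebra k A]
  {e : A →ₐ[k] LaurentSeries k}

/-- finitely many gaps -/
theorem exists_gaps (hfin : Module.Finite k (LaurentSeries k ⧸
    (LinearMap.range e.toLinearMap ⊔ LV k 1))) :
    ∃ G : Finset ℕ, ∀ l : ℕ, ∃ (α : A) (κ : ℕ → k),
      single (-(l : ℤ)) 1 - (e α + ∑ j ∈ G, κ j • single (-(j : ℤ)) 1) ∈ LV k 1 := by
  classical
  let N : Submodule k (LaurentSeries k) := LinearMap.range e.toLinearMap ⊔ LV k 1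
  let v : ℕ → LaurentSeries k ⧸ N := fun l => N.mkQ (single (-(l : ℤ)) 1)
  have hspan : Submodule.span k (Set.range v) = ⊤ := by
    rw [eq_top_iff]
    intro q _
    obtain ⟨x, rfl⟩ := N.mkQ_surjective q
    obtain ⟨n, hn⟩ := exists_mem_LV x
    have h1 := sub_sum_single_mem hn
    have h2 : N.mkQ x = N.mkQ (∑ j ∈ Finset.range (n + 1),
        single (-(j : ℤ)) (x.coeff (-(j : ℤ)))) := by
      rw [← sub_eq_zero, ← map_sub, Submodule.mkQ_apply, Submodule.Quotient.mk_eq_zero]
      exact (le_sup_right : LV k 1 ≤ N) h1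
    rw [h2, map_sum]
    refine Submodule.sum_mem _ fun j _ => ?_
    rw [← smul_single_one, map_smul]
    exact Submodule.smul_mem _ _ (Submodule.subset_span ⟨j, rfl⟩)
  have hfg : (Submodule.span k (Set.range v)).FG := by
    rw [hspan]
    exact hfin.fg_top
  obtain ⟨s, hs, hs'⟩ := (Submodule.fg_span_iff_fg_span_finset_subset _).mp hfg
  obtain ⟨G, hG⟩ : ∃ G : Finset ℕ, s = G.image v := by
    have : ∀ x ∈ s, ∃ l, v l = x := fun x hx => hs hx
    choose! g hg using this
    refine ⟨s.image g, ?_⟩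
    rw [Finset.image_image]
    conv_lhs => rw [← Finset.image_id (s := s)]
    exact Finset.image_congr fun x hx => (hg x hx).symm
  refine ⟨G, fun l => ?_⟩
  have h1 : v l ∈ Submodule.span k ((G.image v : Finset _) : Set (LaurentSeries k ⧸ N)) := by
    rw [← hG, ← hs', hspan]
    trivial
  rw [Finset.coe_image, Submodule.mem_span_image_finset_iff_exists_fun] at h1
  obtain ⟨κ', hκ'⟩ := h1
  obtain ⟨κ, hκ⟩ : ∃ κ : ℕ → k, ∑ j ∈ G, κ j • v j = v l := by
    refine ⟨fun j => if h : j ∈ G then κ' ⟨j, h⟩ else 0, ?_⟩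
    rw [← Finset.sum_coe_sort, ← hκ']
    refine Finset.sum_congr rfl fun j _ => ?_
    beta_reduce
    rw [dif_pos j.2]
  have h2 : single (-(l : ℤ)) 1 - ∑ j ∈ G, κ j • single (-(j : ℤ)) (1 : k) ∈ N := by
    rw [← Submodule.Quotient.mk_eq_zero, ← Submodule.mkQ_apply, map_sub, map_sum, sub_eq_zero]
    simp only [map_smul]
    exact hκ.symm
  obtain ⟨y, hy, w, hw, hyw⟩ := Submodule.mem_sup.mp h2
  obtain ⟨α, rfl⟩ := hy
  refine ⟨α, κ, ?_⟩
  have : single (-(l : ℤ)) 1 - (e α + ∑ j ∈ G, κ j • single (-(j : ℤ)) (1 : k)) = w := by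
    rw [eq_comm, ← sub_eq_iff_eq_add'] at hyw
    rw [← hyw]
    change _ = _ - e α
    ring
  rw [this]
  exact hw

section Main

variable {R : Type u} [CommRing R] [Algebra k R] (P : WPt e R)

theorem WPt.ex_mem (α : A) : ex e R α ∈ P.M := by
  have := P.stab α 1 P.one_mem
  rwa [mul_one] at this

theorem lmap_smul_alg (κ : k) (x : LaurentSeries k) :
    lmap (algebraMap k R) (κ • x) = κ • lmap (algebraMap k R) x := by
  rw [lmap_smul, algebraMap_smul]

/-- expression of the basis by finitely many of its elements -/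
theorem WPt.wb_eq {G : Finset ℕ} {l : ℕ} {α : A} {κ : ℕ → k}
    (h : single (-(l : ℤ)) 1 - (e α + ∑ j ∈ G, κ j • single (-(j : ℤ)) 1) ∈ LV k 1) :
    P.wb l = ex e R α + ∑ j ∈ G, κ j • P.wb j := by
  refine P.eq_of_sub_mem (P.wb_mem l) (P.M.add_mem (P.ex_mem α) (Submodule.sum_mem _ fun j _ => ?_))
    ?_
  · rw [← algebraMap_smul R (κ j)]
    exact P.M.smul_mem _ (P.wb_mem j)
  · have h1 := lmap_mem_LV (algebraMap k R) h
    rw [map_sub, map_add, map_sum, lmap_single, map_one] at h1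
    simp only [lmap_smul_alg, lmap_single, map_one] at h1
    have h2 := P.wb_sub l
    have h3 : ∑ j ∈ G, κ j • (P.wb j - single (-(j : ℤ)) 1) ∈ LV R 1 :=
      Submodule.sum_mem _ fun j _ => by
        rw [← algebraMap_smul R (κ j)]
        exact Submodule.smul_mem _ _ (P.wb_sub j)
    have h4 := (LV R 1).sub_mem ((LV R 1).add_mem h1 h2) h3
    convert h4 using 1
    simp only [smul_sub, Finset.sum_sub_distrib]
    rw [ex_apply]
    ring

theorem coeff_smul_alg (κ : k) (x : LaurentSeries R) (i : ℤ) :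
    (κ • x).coeff i = κ • x.coeff i := by
  rw [HahnSeries.coeff_smul]

theorem ex_mem_coeffIn (R' : Subalgebra k R) (α : A) : ex e R α ∈ coeffIn R' := by
  intro i
  rw [ex_apply, lmap_coeff]
  exact R'.algebraMap_mem _

/-- all coefficients lie in the subalgebra generated by finitely many -/
theorem WPt.cf_mem {a : A} {d : ℕ} (hd : 0 < d) (had : e a ∈ LV k (-(d : ℤ))) (ha : e a ≠ 0)
    (hinv : (e a)⁻¹ ∈ LV k (d : ℤ)) {G : Finset ℕ}
    (hG : ∀ l : ℕ, ∃ (α : A) (κ : ℕ → k),
      single (-(l : ℤ)) 1 - (e α + ∑ j ∈ G, κ j • single (-(j : ℤ)) 1) ∈ LV k 1)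
    (R' : Subalgebra k R) (hR' : ∀ j ∈ G, ∀ i < d, P.cf j i ∈ R') (l : ℕ) (i : ℤ) :
    (P.wb l).coeff i ∈ R' := by
  -- reduction to the elements of `G`
  have key : ∀ i : ℤ, (∀ j ∈ G, (P.wb j).coeff i ∈ R') → ∀ l, (P.wb l).coeff i ∈ R' := by
    intro i h l
    obtain ⟨α, κ, hακ⟩ := hG l
    rw [P.wb_eq hακ, HahnSeries.coeff_add, HahnSeries.coeff_sum]
    refine R'.add_mem (ex_mem_coeffIn R' α i) (Subalgebra.sum_mem _ fun j hj => ?_)
    rw [coeff_smul_alg]
    exact R'.smul_mem (h j hj) _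
  have hneg : ∀ j, ∀ i : ℤ, i ≤ 0 → (P.wb j).coeff i ∈ R' := by
    intro j i hi
    have h1 := P.wb_coeff j (-i).toNat
    have h2 : -(((-i).toNat : ℕ) : ℤ) = i := by omega
    rw [h2] at h1
    rw [h1]
    split_ifs
    · exact R'.one_mem
    · exact R'.zero_mem
  have hsmall : ∀ j ∈ G, ∀ i : ℤ, i ≤ d → (P.wb j).coeff i ∈ R' := by
    intro j hj i hi
    by_cases h : i ≤ 0
    · exact hneg j i h
    · have h1 := hR' j hj (i - 1).toNat (by omega)
      rw [WPt.cf] at h1
      have h2 : (((i - 1).toNat : ℕ) : ℤ) + 1 = i := by omega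
      rwa [h2] at h1
  -- the coefficients of the multiplication by `a`
  have hu : ∀ j ∈ G, ∀ l : ℕ, (ex e R a * P.wb j).coeff (-(l : ℤ)) ∈ R' := by
    intro j hj l
    rw [coeff_mul_of_mem (ex_mem_LV e had) (P.wb_mem_LV j)]
    refine Subalgebra.sum_mem _ fun s hs => R'.mul_mem (ex_mem_coeffIn R' a s)
      (hsmall j hj _ ?_)
    rw [Finset.mem_Icc] at hs
    omega
  have hmain : ∀ n : ℕ, ∀ i : ℤ, i ≤ n → ∀ j ∈ G, (P.wb j).coeff i ∈ R' := by
    intro n
    induction n with
    | zero => exact fun i hi j _ => hneg j i (by exact_mod_cast hi)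
    | succ n ih =>
      intro i hi j hj
      by_cases h : i ≤ n
      · exact ih i h j hj
      have hi' : i = n + 1 := by push_cast at hi; omega
      -- `wb j = a⁻¹ (a wb j)`
      have e1 : P.wb j = lmap (algebraMap k R) (e a)⁻¹ * (ex e R a * P.wb j) := by
        rw [ex_apply, ← mul_assoc, ← map_mul, inv_mul_cancel₀ ha, map_one, one_mul]
      have e2 : ex e R a * P.wb j = ∑ l ∈ Finset.range (d + j + 1),
          (ex e R a * P.wb j).coeff (-(l : ℤ)) • P.wb l := by
        refine P.eq_sum (P.stab a _ (P.wb_mem j)) ?_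
        have h := mul_mem_LV (ex_mem_LV e (R := R) had) (P.wb_mem_LV j)
        have e1 : -((d + j : ℕ) : ℤ) = -(d : ℤ) + -(j : ℤ) := by push_cast; ring
        rw [e1]
        exact h
      have h3 : ex e R a * P.wb j ∈ LV R (-(d : ℤ) + -(j : ℤ)) :=
        mul_mem_LV (ex_mem_LV e (R := R) had) (P.wb_mem_LV j)
      rw [e1, coeff_mul_of_mem (lmap_mem_LV _ hinv) h3]
      refine Subalgebra.sum_mem _ fun s hs => R'.mul_mem ?_ ?_
      · rw [lmap_coeff]
        exact R'.algebraMap_mem _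
      · rw [Finset.mem_Icc] at hs
        rw [e2, HahnSeries.coeff_sum]
        refine Subalgebra.sum_mem _ fun l _ => ?_
        rw [HahnSeries.coeff_smul, smul_eq_mul]
        exact R'.mul_mem (hu j hj l) (key _ (fun j' hj' => ih _ (by omega) j' hj') l)
  exact key i (fun j hj => hmain i.toNat i (Int.self_le_toNat i) j hj) l

end Main

/-- the coordinate ring of the chart is generated by the coefficients -/
theorem adjoin_cf : Algebra.adjoin k {x | ∃ j i, x = (uniW e).cf j i} = ⊤ := by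
  rw [eq_top_iff]
  intro x _
  obtain ⟨y, rfl⟩ := qu_surjective e x
  have h : (qu e).range ≤ Algebra.adjoin k {x | ∃ j i, x = (uniW e).cf j i} := by
    rw [← Algebra.map_top, ← MvPolynomial.adjoin_range_X, AlgHom.map_adjoin]
    apply Algebra.adjoin_mono
    rintro _ ⟨_, ⟨⟨j, i⟩, rfl⟩, rfl⟩
    exact ⟨j, i, (uniW_cf e j i).symm⟩
  exact h ⟨y, rfl⟩

/-- **the chart is of finite type** -/
theorem Buniv_finiteType {a : A} {d : ℕ} (hd : 0 < d) (had : e a ∈ LV k (-(d : ℤ)))
    (ha : (e a).coeff (-(d : ℤ)) ≠ 0)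
    (hfin : Module.Finite k (LaurentSeries k ⧸ (LinearMap.range e.toLinearMap ⊔ LV k 1))) :
    Algebra.FiniteType k (Buniv e) := by
  classical
  obtain ⟨G, hG⟩ := exists_gaps hfin
  have ha0 : e a ≠ 0 := by
    intro h
    rw [h] at ha
    exact ha rfl
  have hinv : (e a)⁻¹ ∈ LV k (d : ℤ) := by
    by_contra hcon
    rw [mem_LV] at hcon
    push Not at hcon
    -- the order of the inverse
    obtain ⟨n, hn⟩ := exists_mem_LV (e a)⁻¹
    have h1 : ∃ m : ℕ, (e a)⁻¹.coeff (-(n : ℤ) + m) ≠ 0 := by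
      obtain ⟨i, hi, hi'⟩ := hcon
      refine ⟨(i + n).toNat, ?_⟩
      have : -(n : ℤ) ≤ i := by
        by_contra hlt
        exact hi' (hn i (by omega))
      have h2 : -(n : ℤ) + ((i + n).toNat : ℕ) = i := by omega
      rw [h2]
      exact hi'
    let m := Nat.find h1
    have hm : (e a)⁻¹.coeff (-(n : ℤ) + m) ≠ 0 := Nat.find_spec h1
    have hlt : -(n : ℤ) + m < d := by
      obtain ⟨i, hi, hi'⟩ := hcon
      have : -(n : ℤ) ≤ i := by
        by_contra hlt
        exact hi' (hn i (by omega))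
      have h2 : -(n : ℤ) + ((i + n).toNat : ℕ) = i := by omega
      have h3 : m ≤ (i + n).toNat := Nat.find_min' h1 (by rw [h2]; exact hi')
      omega
    have hmem : (e a)⁻¹ ∈ LV k (-(n : ℤ) + m) := by
      intro i hi
      by_cases h : i < -(n : ℤ)
      · exact hn i h
      · by_contra hne
        have h2 : -(n : ℤ) + ((i + n).toNat : ℕ) = i := by omega
        have h3 : m ≤ (i + n).toNat := Nat.find_min' h1 (by rw [h2]; exact hne)
        omega
    have h4 := coeff_mul_bot had hmem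
    rw [mul_inv_cancel₀ ha0, ← single_zero_one, coeff_single, if_neg (by omega)] at h4
    exact mul_ne_zero ha hm h4.symm
  let s : Finset (Buniv e) := (G ×ˢ Finset.range d).image fun ji => (uniW e).cf ji.1 ji.2
  refine ⟨⟨s, ?_⟩⟩
  rw [eq_top_iff, ← adjoin_cf (e := e), Algebra.adjoin_le_iff]
  rintro _ ⟨j, i, rfl⟩
  refine (uniW e).cf_mem hd had ha0 hinv hG (Algebra.adjoin k (s : Set (Buniv e)))
    (fun j hj i hi => Algebra.subset_adjoin ?_) j _
  rw [Finset.mem_coe, Finset.mem_image]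
  exact ⟨(j, i), Finset.mem_product.mpr ⟨hj, Finset.mem_range.mpr hi⟩, rfl⟩

end Fermat.Agent.J25
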