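import Mathlib
import Fermat.Agent.J25.WP8
import Fermat.Agent.J25.ChartFT

/-!
# WP8 in terms of the output of WP7
-/

set_option autoImplicit false

universe u

open AlgebraicGeometry CategoryTheory CategoryTheory.Limits TopologicalSpace NeronModelInfra
open AlgebraicGeometry.RelPicard

namespace Fermat.Agent.J25.AJ

attribute [-instance] HahnSeries.powerSeriesAlgebra

variable {k : Type u} [Field k]

theorem smooth_sS (B : Type u) [CommRing B] [Algebra k B] [Algebra.FiniteType k B]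
    [Algebra.FormallySmooth k B] : Smooth (sS k B) := by
  have h1 : Algebra.FinitePresentation k B := Algebra.FinitePresentation.of_finiteType.mp inferInstance
  have h2 : Algebra.Smooth k B := {}
  rw [HasRingHomProperty.Spec_iff (P := @Smooth)]
  change RingHom.Smooth (algebraMap k B)
  rwa [RingHom.smooth_algebraMap]

variable {C : Scheme.{u}} {c : C ⟶ Spec (CommRingCat.of k)}
    {ε : SchemeHomOver (𝟙 (Spec (CommRingCat.of k))) c} {g : Geo c ε}

theorem Buniv_ft (g : Geo c ε) : Algebra.FiniteType k (Buniv g.e) :=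
  Buniv_finiteType (a := g.a) g.hd g.ea_mem (by
    change (g.eD (algebraMap g.A g.D g.a)).coeff (-(g.d : ℤ)) ≠ 0
    rw [g.ea_coeff]
    exact one_ne_zero) g.H1

/-- **WP8**, in terms of the output of WP7 (charts `Spec (Buniv g.e)`). -/
theorem smooth_proper_connected_of_charts [IsAlgClosed k] [IsIntegral C] [IsProper c]
    (D : PicData g) (hfs : Algebra.FormallySmooth k (Buniv g.e))
    {P : Scheme.{u}} (x : PicData.FPt D P)
    (huniv : ∀ (T : Scheme.{u}) (y : PicData.FPt D T), ∃! φ : T ⟶ P, x.map φ = y)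
    (hcon : ∀ {T : Scheme.{u}} (t : T ⟶ Spec (CommRingCat.of k)) (_ : IsIntegral T)
      (ℓ : PicC (pullback c t)) (_ : PicC.map (rigSection c t ε) ℓ = 1)
      (s : SchemeHomOver (sS k k) t), D.DegZ (PicC.map (baseChangeSnd c s) ℓ) → D.Deg0 t ℓ)
    (δ : PicC (pullback c c))
    (hδ : ∀ y : g.A →ₐ[k] k,
      PicC.map (baseChangeSnd c (ptA g y)) δ = (D.toPic k (mx g.mxH y))⁻¹)
    (N : ℕ) (η : G g.e (R := k) g.a)
    (h3b : ∀ M : G g.e (R := k) g.a, IsDegZero M → ∃ y : Fin N → (g.A →ₐ[k] k),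
      D.toPic k M = D.toPic k (η * ∏ i, (mx g.mxH (y i))⁻¹))
    {ι : Type u} (j : ι → (Spec (CommRingCat.of (Buniv g.e)) ⟶ P))
    (hj : ∀ i, IsOpenImmersion (j i))
    (ht : ∀ i, j i ≫ x.t = sS k (Buniv g.e)) (hcov : ∀ y : P, ∃ i, y ∈ Set.range (j i))
    (hpair : ∀ p p' : Spec (.of k) ⟶ P, p ≫ x.t = 𝟙 _ → p' ≫ x.t = 𝟙 _ →
      ∃ i, (∃ a, a ≫ j i = p) ∧ ∃ a', a' ≫ j i = p') :
    Smooth x.t ∧ IsProper x.t ∧ GeometricallyConnected x.t :=
  have hft := Buniv_ft g
  smooth_proper_connected D x huniv hcon δ hδ N η h3b (fun _ => Spec (CommRingCat.of (Buniv g.e)))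
    j (fun i => by rw [ht]; exact smooth_sS _) hcov hpair

end Fermat.Agent.J25.AJ
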