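import Mathlib
import Fermat.Agent.J25.ChartFT
import Fermat.Agent.J25.Basic

/-!
# Bounds and base change for the points of the chart
-/

set_option autoImplicit false

noncomputable section

namespace Fermat.Agent.J25

attribute [-instance] HahnSeries.powerSeriesAlgebra

open HahnSeries Polynomial
open scoped TensorProduct

universe u

variable {k : Type u} [Field k] {A : Type u} [CommRing A] [Algebra k A]
  {e : A →ₐ[k] LaurentSeries k} {R : Type u} [CommRing R] [Algebra k R] (P : WPt e R)

section Bound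

/-- the submodule generated by `1` -/
def WPt.unitSub : Submodule (R ⊗[k] A) P.Carrier :=
  LinearMap.range (LinearMap.toSpanSingleton (R ⊗[k] A) P.Carrier (P.elt 1 P.one_mem))

theorem WPt.mem_unitSub {x : P.Carrier} : x ∈ P.unitSub ↔ ∃ y : R ⊗[k] A, exR e R y = P.incl x := by
  constructor
  · rintro ⟨y, rfl⟩
    refine ⟨y, ?_⟩
    rw [LinearMap.toSpanSingleton_apply, P.incl_smul, P.incl_elt, mul_one]
  · rintro ⟨y, hy⟩
    refine ⟨y, P.incl_injective ?_⟩
    rw [LinearMap.toSpanSingleton_apply, P.incl_smul, P.incl_elt, mul_one, hy]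

/-- `M / A_R` is finite over `R` -/
theorem WPt.finite_quot (hfin : Module.Finite k (LaurentSeries k ⧸
    (LinearMap.range e.toLinearMap ⊔ LV k 1))) : Module.Finite R (P.Carrier ⧸ P.unitSub) := by
  classical
  obtain ⟨G, hG⟩ := exists_gaps hfin
  refine ⟨⟨G.image fun j => Submodule.Quotient.mk (p := P.unitSub) (P.basis j), ?_⟩⟩
  rw [eq_top_iff]
  intro q _
  obtain ⟨x, rfl⟩ := Submodule.Quotient.mk_surjective P.unitSub q
  have h1 : ∀ l, Submodule.Quotient.mk (p := P.unitSub) (P.basis l) ∈ Submodule.span R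
      ((G.image fun j => Submodule.Quotient.mk (p := P.unitSub) (P.basis j) : Finset _) :
        Set (P.Carrier ⧸ P.unitSub)) := by
    intro l
    obtain ⟨α, κ, h⟩ := hG l
    have h2 := P.wb_eq h
    have h3 : P.basis l = P.elt (ex e R α) (P.ex_mem α) +
        ∑ j ∈ G, algebraMap k R (κ j) • P.basis j := by
      apply P.incl_injective
      rw [map_add, map_sum, P.incl_elt, P.incl_basis, h2]
      congr 1
      refine Finset.sum_congr rfl fun j _ => ?_
      rw [map_smul, P.incl_basis, algebraMap_smul]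
    have h4 : Submodule.Quotient.mk (p := P.unitSub) (P.elt (ex e R α) (P.ex_mem α)) = 0 := by
      rw [Submodule.Quotient.mk_eq_zero, P.mem_unitSub]
      exact ⟨1 ⊗ₜ α, by rw [exR_tmul, one_smul, P.incl_elt]⟩
    rw [h3, Submodule.Quotient.mk_add, h4, zero_add, ← Submodule.mkQ_apply, map_sum]
    refine Submodule.sum_mem _ fun j hj => ?_
    rw [Submodule.mkQ_apply, Submodule.Quotient.mk_smul]
    refine Submodule.smul_mem _ _ (Submodule.subset_span ?_)
    rw [Finset.mem_coe, Finset.mem_image]
    exact ⟨j, hj, rfl⟩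
  have h5 : x ∈ Submodule.span R (Set.range P.basis) := by
    rw [P.basis.span_eq]
    trivial
  induction h5 using Submodule.span_induction with
  | mem x h =>
    obtain ⟨l, rfl⟩ := h
    exact h1 l
  | zero => rw [Submodule.Quotient.mk_zero]; exact Submodule.zero_mem _
  | add x y _ _ hx hy => rw [Submodule.Quotient.mk_add]; exact Submodule.add_mem _ (hx trivial) (hy trivial)
  | smul r x _ hx => rw [Submodule.Quotient.mk_smul]; exact Submodule.smul_mem _ _ (hx trivial)

theorem exR_aeval (a : A) (Q : R[X]) :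
    exR e R (aeval ((1 : R) ⊗ₜ[k] a) Q) = aeval (ex e R a) Q := by
  rw [← Polynomial.aeval_algHom_apply, exR_tmul, one_smul]

/-- **the bound**: a monic polynomial in `a` maps `M` into `A_R` -/
theorem WPt.exists_bound (hfin : Module.Finite k (LaurentSeries k ⧸
    (LinearMap.range e.toLinearMap ⊔ LV k 1))) (a : A) :
    ∃ Q : R[X], Q.Monic ∧ ∀ m ∈ P.M, ∃ y : R ⊗[k] A, exR e R y = aeval (ex e R a) Q * m := by
  have := P.finite_quot hfin
  obtain ⟨Q, hQ, h⟩ := LinearMap.exists_monic_and_aeval_eq_zero R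
    (Algebra.lsmul R R (P.Carrier ⧸ P.unitSub) ((1 : R) ⊗ₜ[k] a))
  refine ⟨Q, hQ, fun m hm => ?_⟩
  rw [Polynomial.aeval_algHom_apply] at h
  have h1 := DFunLike.congr_fun h (Submodule.Quotient.mk (p := P.unitSub) (P.elt m hm))
  rw [Algebra.lsmul_coe, LinearMap.zero_apply] at h1
  beta_reduce at h1
  rw [← Submodule.Quotient.mk_smul, Submodule.Quotient.mk_eq_zero, P.mem_unitSub] at h1
  obtain ⟨y, hy⟩ := h1
  refine ⟨y, ?_⟩
  rw [hy, P.incl_smul, P.incl_elt, exR_aeval]

end Bound

section BaseChange

variable {S : Type u} [CommRing S] [Algebra k S] [Algebra R S] [IsScalarTower k R S]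

/-- the base change of a point of the chart, as a tensor product -/
def WPt.bcEquiv : S ⊗[R] P.Carrier ≃ₗ[S] (P.map (IsScalarTower.toAlgHom k R S)).Carrier :=
  (P.basis.baseChange S).equiv (P.map (IsScalarTower.toAlgHom k R S)).basis (Equiv.refl ℕ)

theorem WPt.bcEquiv_tmul (s : S) (m : P.Carrier) :
    (P.map (IsScalarTower.toAlgHom k R S)).incl (P.bcEquiv (s ⊗ₜ m)) =
      s • lmap (algebraMap R S) (P.incl m) := by
  have h0 : ∀ m : P.Carrier, (P.map (IsScalarTower.toAlgHom k R S)).incl
      (P.bcEquiv ((1 : S) ⊗ₜ m)) = lmap (algebraMap R S) (P.incl m) := by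
    intro m
    have hm : m ∈ Submodule.span R (Set.range P.basis) := by
      rw [P.basis.span_eq]
      trivial
    induction hm using Submodule.span_induction with
    | mem x h =>
      obtain ⟨j, rfl⟩ := h
      have h1 : (1 : S) ⊗ₜ P.basis j = (P.basis.baseChange S) j := by
        rw [Module.Basis.baseChange_apply]
      rw [h1, WPt.bcEquiv, Module.Basis.equiv_apply, Equiv.refl_apply, WPt.incl_basis,
        WPt.incl_basis, WPt.map_wb]
      rfl
    | zero => rw [TensorProduct.tmul_zero, map_zero, map_zero, map_zero, map_zero]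
    | add x y _ _ hx hy => rw [TensorProduct.tmul_add, map_add, map_add, hx, hy, map_add, map_add]
    | smul r x _ hx =>
      rw [TensorProduct.tmul_smul, ← algebraMap_smul S r, map_smul, map_smul, hx, map_smul,
        lmap_smul]
  have h1 : s ⊗ₜ[R] m = s • ((1 : S) ⊗ₜ[R] m) := by
    rw [TensorProduct.smul_tmul', smul_eq_mul, mul_one]
  rw [h1, map_smul, map_smul, h0]

/-- compatibility with the action of `A` -/
theorem WPt.bcEquiv_smul (s : S) (a : A) (m : P.Carrier) :
    P.bcEquiv (s ⊗ₜ (((1 : R) ⊗ₜ[k] a : R ⊗[k] A) • m)) =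
      ((1 : S) ⊗ₜ[k] a : S ⊗[k] A) • P.bcEquiv (s ⊗ₜ m) := by
  apply WPt.incl_injective
  rw [P.bcEquiv_tmul, WPt.incl_smul, WPt.incl_smul, P.bcEquiv_tmul, exR_tmul, exR_tmul, one_smul,
    one_smul, map_mul, mul_smul_comm]
  have h := lmap_ex e (IsScalarTower.toAlgHom k R S) a
  have h2 : ((IsScalarTower.toAlgHom k R S : R →ₐ[k] S) : R →+* S) = algebraMap R S := rfl
  rw [h2] at h
  rw [h]

end BaseChange

section Free

/-- division by powers of `a` -/
theorem WPt.exists_poly {a : A} {d : ℕ} (hd : 0 < d) (had : e a ∈ LV k (-(d : ℤ)))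
    (ha : (e a).coeff (-(d : ℤ)) = 1) (x : LaurentSeries R) (hx : x ∈ P.M) :
    ∃ q : Fin d → R[X], x = ∑ j, aeval (ex e R a) (q j) * P.wb j := by
  have key : ∀ n : ℕ, ∀ x ∈ P.M, x ∈ LV R (-(n : ℤ)) →
      ∃ q : Fin d → R[X], x = ∑ j, aeval (ex e R a) (q j) * P.wb j := by
    intro n
    induction n using Nat.strong_induction_on with
    | _ n ih =>
      intro x hx hn
      -- small poles
      by_cases hnd : n < d
      · refine ⟨fun j => Polynomial.C (x.coeff (-((j : ℕ) : ℤ))), ?_⟩
        have h1 : x ∈ LV R (-((d - 1 : ℕ) : ℤ)) := LV_mono (by omega) hn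
        have h2 := P.eq_sum hx h1
        rw [Nat.sub_add_cancel hd] at h2
        rw [Finset.sum_range] at h2
        refine h2.trans (Finset.sum_congr rfl fun j _ => ?_)
        rw [aeval_C, algebraMap_mul_eq_smul]
      · -- subtract a multiple of `a * wb (n - d)`
        push Not at hnd
        have hm : n - d + d = n := Nat.sub_add_cancel hnd
        let y : LaurentSeries R := ex e R a * P.wb (n - d)
        have hy : y ∈ P.M := P.stab a _ (P.wb_mem _)
        have hyn : y ∈ LV R (-(n : ℤ)) := by
          have h := mul_mem_LV (ex_mem_LV e (R := R) had) (P.wb_mem_LV (n - d))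
          have e1 : -(n : ℤ) = -(d : ℤ) + -((n - d : ℕ) : ℤ) := by omega
          rw [e1]
          exact h
        have hyc : y.coeff (-(n : ℤ)) = 1 := by
          have h := coeff_mul_bot (ex_mem_LV e (R := R) had) (P.wb_mem_LV (n - d))
          have e1 : -(n : ℤ) = -(d : ℤ) + -((n - d : ℕ) : ℤ) := by omega
          rw [e1]
          refine h.trans ?_
          rw [ex_apply, lmap_coeff, ha, map_one, one_mul, P.wb_coeff, if_pos rfl]
        have hsub : x - x.coeff (-(n : ℤ)) • y ∈ LV R (-((n - 1 : ℕ) : ℤ)) := by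
          intro i hi
          rw [HahnSeries.coeff_sub, HahnSeries.coeff_smul, smul_eq_mul]
          by_cases hin : i = -(n : ℤ)
          · rw [hin, hyc, mul_one, sub_self]
          · rw [hn i (by omega), hyn i (by omega), mul_zero, sub_zero]
        obtain ⟨q, hq⟩ := ih (n - 1) (by omega) _ (P.M.sub_mem hx (P.M.smul_mem _ hy)) hsub
        obtain ⟨q', hq'⟩ := ih (n - d) (by omega) _ (P.wb_mem (n - d)) (P.wb_mem_LV _)
        refine ⟨fun j => q j + Polynomial.C (x.coeff (-(n : ℤ))) * (X * q' j), ?_⟩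
        rw [sub_eq_iff_eq_add] at hq
        refine hq.trans ?_
        have h3 : x.coeff (-(n : ℤ)) • y =
            ∑ j, aeval (ex e R a) (Polynomial.C (x.coeff (-(n : ℤ))) * (X * q' j)) * P.wb j := by
          have h4 : y = ex e R a * P.wb (n - d) := rfl
          rw [h4, hq', Finset.mul_sum, Finset.smul_sum]
          refine Finset.sum_congr rfl fun j _ => ?_
          rw [map_mul, map_mul, aeval_C, aeval_X, ← algebraMap_mul_eq_smul]
          ring
        rw [h3, ← Finset.sum_add_distrib]
        refine Finset.sum_congr rfl fun j _ => ?_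
        rw [map_add, add_mul]
  obtain ⟨n, hn⟩ := exists_mem_LV x
  exact key n x hx hn

end Free

end Fermat.Agent.J25
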