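import Mathlib
import Fermat.Agent.J25.LocRepA
import Fermat.Agent.J25.Hub2
import Fermat.Agent.J25.CutA
import Fermat.Agent.J25.Lat6
import Fermat.Agent.H02J.Inv8

/-!
# The charts of the functor of points
-/

set_option autoImplicit false

universe u

open CategoryTheory CategoryTheory.Limits AlgebraicGeometry TopologicalSpace Opposite
open AlgebraicGeometry.RelPicard NeronModelInfra

noncomputable section

namespace Fermat.Agent.J25.CF

attribute [-instance] HahnSeries.powerSeriesAlgebra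

variable {k : Type u} [Field k] {C : Scheme.{u}} {c : C ⟶ Spec (CommRingCat.of k)}
    {ε : SchemeHomOver (𝟙 (Spec (CommRingCat.of k))) c} {g : Geo c ε}

/-- the functor of points in elementary form -/
def ptFun (D : PicData g) : AFun.{u} where
  obj T := PicData.FPt D T
  map φ x := x.map φ
  map_id x := x.map_id
  map_comp φ ψ x := x.map_comp φ ψ

section alg

variable {R S : Type u} [CommRing R] [Algebra k R] [CommRing S] [Algebra k S]

theorem exists_algHom (s : SchemeHomOver (sS k S) (sS k R)) : ∃ f : R →ₐ[k] S, s = sH f := by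
  obtain ⟨s, hs⟩ := s
  obtain ⟨φ, rfl⟩ := Spec.map_surjective s
  have h1 : CommRingCat.ofHom (algebraMap k R) ≫ φ = CommRingCat.ofHom (algebraMap k S) := by
    apply Spec.map_injective
    rw [Spec.map_comp]
    exact hs
  refine ⟨{ φ.hom with commutes' := fun r => ?_ }, ?_⟩
  · exact congrArg (fun f => f.hom r) h1
  · rfl

theorem comp_ofId (f : R →ₐ[k] S) : f.comp (Algebra.ofId k R) = Algebra.ofId k S := by
  ext

theorem bc_bc_ofId (f : R →ₐ[k] S) (η : G g.e (R := k) g.a) :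
    bc f (bc (Algebra.ofId k R) η) = bc (Algebra.ofId k S) η := by
  rw [Cut.bc_bc, comp_ofId]

end alg

variable (D : PicData g)

theorem deg0_toPic_iff {R : Type u} [CommRing R] [Algebra k R] (M : G g.e (R := R) g.a) :
    D.Deg0 (sS k R) (D.toPic R M) ↔
      ∀ (K : Type u) [Field K] [IsAlgClosed K] [Algebra k K] (f : R →ₐ[k] K),
        IsDegZero (bc f M) := by
  constructor
  · intro h K _ _ _ f
    have := h K (sH f)
    rw [← D.degZ_toPic, D.nat]
    exact this
  · intro h K _ _ _ s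
    obtain ⟨f, rfl⟩ := exists_algHom s
    have := h K f
    rw [← D.degZ_toPic, D.nat] at this
    exact this

/-- the point attached to a lattice -/
def mkPt {R : Type u} [CommRing R] [Algebra k R] (M : G g.e (R := R) g.a)
    (h : D.Deg0 (sS k R) (D.toPic R M)) : PicData.FPt D (Spec (CommRingCat.of R)) where
  t := sS k R
  l := D.toPic R M
  rig := D.sec R M
  deg := h

theorem mkPt_congr {R : Type u} [CommRing R] [Algebra k R] {M M' : G g.e (R := R) g.a}
    (h : D.Deg0 (sS k R) (D.toPic R M)) (h' : D.Deg0 (sS k R) (D.toPic R M'))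
    (e : D.toPic R M = D.toPic R M') : mkPt D M h = mkPt D M' h' := by
  simp only [mkPt, e]

theorem exists_mkPt {R : Type u} [CommRing R] (y : PicData.FPt D (Spec (CommRingCat.of R))) :
    ∃ (_ : Algebra k R) (M : G g.e (R := R) g.a) (h : D.Deg0 (sS k R) (D.toPic R M)),
      y = mkPt D M h := by
  obtain ⟨t, l, rig, deg⟩ := y
  obtain ⟨i, hi⟩ := Cut.exists_algebra (k := k) R t
  subst hi
  obtain ⟨M, rfl⟩ := D.surj R l rig
  exact ⟨i, M, deg, rfl⟩

theorem deg_bc {R S : Type u} [CommRing R] [Algebra k R] [CommRing S] [Algebra k S]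
    (f : R →ₐ[k] S) {M : G g.e (R := R) g.a} (h : D.Deg0 (sS k R) (D.toPic R M)) :
    D.Deg0 (sS k S) (D.toPic S (bc f M)) := by
  rw [deg0_toPic_iff] at h ⊢
  intro K _ _ _ f'
  rw [Cut.bc_bc]
  exact h K _

theorem mkPt_map {R S : Type u} [CommRing R] [Algebra k R] [CommRing S] [Algebra k S]
    (f : R →ₐ[k] S) (M : G g.e (R := R) g.a) (h : D.Deg0 (sS k R) (D.toPic R M)) :
    (mkPt D M h).map (Spec.map (CommRingCat.ofHom (f : R →+* S))) =
      mkPt D (bc f M) (deg_bc D f h) := by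
  have hkey : baseChangeSnd c (⟨Spec.map (CommRingCat.ofHom (f : R →+* S)), rfl⟩ :
      SchemeHomOver (Spec.map (CommRingCat.ofHom (f : R →+* S)) ≫ sS k R) (sS k R)) =
      baseChangeSnd c (⟨𝟙 _, by rw [Category.id_comp]; exact (sH f).2.symm⟩ :
        SchemeHomOver (Spec.map (CommRingCat.ofHom (f : R →+* S)) ≫ sS k R) (sS k S)) ≫
      baseChangeSnd c (sH f) := by
    rw [baseChangeSnd_comp]
    congr 1
  refine PicData.FPt.ext' (sH f).2 ?_
  refine (congrArg (fun m => PicC.map m (D.toPic R M)) hkey).trans ?_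
  rw [PicC.map_comp_apply]
  exact congrArg _ (D.nat R S f M).symm

theorem toPic_eq_of_mkPt {R : Type u} [CommRing R] [Algebra k R] {M M' : G g.e (R := R) g.a}
    {h : D.Deg0 (sS k R) (D.toPic R M)} {h' : D.Deg0 (sS k R) (D.toPic R M')}
    (e : mkPt D M h = mkPt D M' h') : D.toPic R M = D.toPic R M' :=
  eq_of_heq (PicData.FPt.mk.inj e).2

/-- the chart condition -/
def Gd (η : G g.e (R := k) g.a) {R : Type u} [CommRing R]
    (y : PicData.FPt D (Spec (CommRingCat.of R))) : Prop :=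
  ∃ (_ : Algebra k R) (M : G g.e (R := R) g.a) (h : D.Deg0 (sS k R) (D.toPic R M)),
    y = mkPt D M h ∧ IsCompl (G.sub (M * bc (Algebra.ofId k R) η)) (LV R 1)

theorem gd_mkPt {η : G g.e (R := k) g.a} {R : Type u} [CommRing R] [iR : Algebra k R]
    {M : G g.e (R := R) g.a} {h : D.Deg0 (sS k R) (D.toPic R M)} :
    Gd D η (mkPt D M h) ↔ IsCompl (G.sub (M * bc (Algebra.ofId k R) η)) (LV R 1) := by
  constructor
  · rintro ⟨i, M', h', e, hc⟩
    obtain rfl : iR = i := Cut.algebra_unique _ _ (congrArg PicData.FPt.t e)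
    have e2 := toPic_eq_of_mkPt D e
    exact (D.isCompl_iff (M := M * bc (Algebra.ofId k R) η) (N := M' * bc (Algebra.ofId k R) η)
      (by rw [map_mul, map_mul, e2]) 1).2 hc
  · intro hc
    exact ⟨_, M, h, rfl, hc⟩

/-- admissible twists -/
def Adm (g : Geo c ε) (η : G g.e (R := k) g.a) : Prop :=
  ∀ (K : Type u) [Field K] [IsAlgClosed K] [Algebra k K] (N : G g.e (R := K) g.a),
    IsCompl (G.sub N) (LV K 1) → IsDegZero (N * (bc (Algebra.ofId k K) η)⁻¹)

/-- the universal lattice -/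
def unG (H : I.Hyp g.e g.a g.d) : G g.e (R := Buniv g.e) g.a := I.toG H (uniW g.e)

/-- the twisted universal lattice -/
def unT (H : I.Hyp g.e g.a g.d) (η : G g.e (R := k) g.a) : G g.e (R := Buniv g.e) g.a :=
  unG H * (bc (Algebra.ofId k (Buniv g.e)) η)⁻¹

theorem isCompl_bc_unG (H : I.Hyp g.e g.a g.d) {S : Type u} [CommRing S] [Algebra k S]
    (f : Buniv g.e →ₐ[k] S) : IsCompl (G.sub (bc f (unG H))) (LV S 1) := by
  rw [unG, I.toG_bc, I.toG_sub]
  exact ((uniW g.e).map f).compl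

theorem bc_unT (H : I.Hyp g.e g.a g.d) (η : G g.e (R := k) g.a) {S : Type u} [CommRing S]
    [Algebra k S] (f : Buniv g.e →ₐ[k] S) :
    bc f (unT H η) = bc f (unG H) * (bc (Algebra.ofId k S) η)⁻¹ := by
  rw [unT, map_mul, map_inv, bc_bc_ofId]

theorem deg_unT (H : I.Hyp g.e g.a g.d) {η : G g.e (R := k) g.a} (hη : Adm g η) :
    D.Deg0 (sS k (Buniv g.e)) (D.toPic _ (unT H η)) := by
  rw [deg0_toPic_iff]
  intro K _ _ _ f
  rw [bc_unT]
  exact hη K _ (isCompl_bc_unG H f)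

/-- the chart point -/
def chP (H : I.Hyp g.e g.a g.d) {η : G g.e (R := k) g.a} (hη : Adm g η) :
    PicData.FPt D (Spec (CommRingCat.of (Buniv g.e))) := mkPt D (unT H η) (deg_unT D H hη)

/-- the inputs -/
structure ChIn (D : PicData g) : Prop where
  H : I.Hyp g.e g.a g.d
  sheaf : (ptFun D).IsSheaf
  isOpen : ∀ (R : Type u) [CommRing R] [Algebra k R] (N : G g.e (R := R) g.a)
    (x : PrimeSpectrum R),
    IsCompl (G.sub (bc (IsScalarTower.toAlgHom k R x.asIdeal.ResidueField) N)) (LV _ 1) →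
    ∃ f ∉ x.asIdeal, ∀ y : PrimeSpectrum R, f ∉ y.asIdeal →
      IsCompl (G.sub (bc (IsScalarTower.toAlgHom k R y.asIdeal.ResidueField) N)) (LV _ 1)
  fib : ∀ (R : Type u) [CommRing R] [Algebra k R] (N : G g.e (R := R) g.a),
    (∀ x : PrimeSpectrum R,
      IsCompl (G.sub (bc (IsScalarTower.toAlgHom k R x.asIdeal.ResidueField) N)) (LV _ 1)) →
    IsCompl (G.sub N) (LV R 1)
  cls : ∀ (R : Type u) [CommRing R] [Algebra k R] (η : G g.e (R := k) g.a)
    (M : G g.e (R := R) g.a), IsCompl (G.sub (M * bc (Algebra.ofId k R) η)) (LV R 1) →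
    ∃! f : Buniv g.e →ₐ[k] R, PicC.map (mR c f) (D.toPic _ (unT H η)) = D.toPic R M
  eta : ∀ (K₁ K₂ : Type u) [Field K₁] [IsAlgClosed K₁] [Algebra k K₁] [Field K₂]
    [IsAlgClosed K₂] [Algebra k K₂] (M₁ : G g.e (R := K₁) g.a) (M₂ : G g.e (R := K₂) g.a),
    IsDegZero M₁ → IsDegZero M₂ → ∃ η : G g.e (R := k) g.a, Adm g η ∧
      IsCompl (G.sub (M₁ * bc (Algebra.ofId k K₁) η)) (LV K₁ 1) ∧
      IsCompl (G.sub (M₂ * bc (Algebra.ofId k K₂) η)) (LV K₂ 1)

variable {D}

theorem gd_map {η : G g.e (R := k) g.a} {R S : Type u} [CommRing R] [Algebra k R] [CommRing S]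
    [Algebra k S] (f : R →ₐ[k] S) (M : G g.e (R := R) g.a)
    (h : D.Deg0 (sS k R) (D.toPic R M)) :
    Gd D η ((mkPt D M h).map (Spec.map (CommRingCat.ofHom (f : R →+* S)))) ↔
      IsCompl (G.sub (bc f (M * bc (Algebra.ofId k R) η))) (LV S 1) := by
  rw [mkPt_map, gd_mkPt, map_mul, bc_bc_ofId]

theorem gd_ext (η : G g.e (R := k) g.a) (K K' : Type u) [Field K] [Field K'] (f : K →+* K')
    (y : PicData.FPt D (Spec (CommRingCat.of K))) :
    Gd D η (y.map (Spec.map (CommRingCat.ofHom f))) ↔ Gd D η y := by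
  obtain ⟨i, M, h, rfl⟩ := exists_mkPt D y
  let _ : Algebra k K' := (f.comp (algebraMap k K)).toAlgebra
  let f' : K →ₐ[k] K' := { f with commutes' := fun r => rfl }
  refine (gd_map f' M h).trans ?_
  rw [Lat.isCompl_bc, gd_mkPt]

theorem gd_isOpen (I : ChIn D) (η : G g.e (R := k) g.a) (R : Type u) [CommRing R]
    (y : PicData.FPt D (Spec (CommRingCat.of R))) (z : PrimeSpectrum R)
    (h : Gd D η (y.map (Spec.map (CommRingCat.ofHom (algebraMap R z.asIdeal.ResidueField))))) :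
    ∃ f ∉ z.asIdeal, ∀ z' : PrimeSpectrum R, f ∉ z'.asIdeal →
      Gd D η (y.map (Spec.map (CommRingCat.ofHom (algebraMap R z'.asIdeal.ResidueField)))) := by
  obtain ⟨i, M, hM, rfl⟩ := exists_mkPt D y
  have h1 := (gd_map (IsScalarTower.toAlgHom k R z.asIdeal.ResidueField) M hM).1 h
  obtain ⟨f, hf, h2⟩ := I.isOpen R _ z h1
  exact ⟨f, hf, fun z' hz' =>
    (gd_map (IsScalarTower.toAlgHom k R z'.asIdeal.ResidueField) M hM).2 (h2 z' hz')⟩

theorem gd_chP (I : ChIn D) {η : G g.e (R := k) g.a} (hη : Adm g η) (K : Type u) [Field K]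
    (s : Spec (CommRingCat.of K) ⟶ Spec (CommRingCat.of (Buniv g.e))) :
    Gd D η ((chP D I.H hη).map s) := by
  obtain ⟨φ, rfl⟩ := Spec.map_surjective s
  let _ : Algebra k K := (φ.hom.comp (algebraMap k (Buniv g.e))).toAlgebra
  let f' : Buniv g.e →ₐ[k] K := { φ.hom with commutes' := fun r => rfl }
  refine (gd_map f' (unT I.H η) (deg_unT D I.H hη)).2 ?_
  rw [unT, inv_mul_cancel_right]
  exact isCompl_bc_unG I.H f'

theorem exists_hom (I : ChIn D) {η : G g.e (R := k) g.a} (hη : Adm g η) (R : Type u)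
    [CommRing R] (y : PicData.FPt D (Spec (CommRingCat.of R)))
    (h : ∀ z : PrimeSpectrum R,
      Gd D η (y.map (Spec.map (CommRingCat.ofHom (algebraMap R z.asIdeal.ResidueField))))) :
    ∃! s : Spec (CommRingCat.of R) ⟶ Spec (CommRingCat.of (Buniv g.e)),
      (chP D I.H hη).map s = y := by
  obtain ⟨i, M, hM, rfl⟩ := exists_mkPt D y
  have h1 := I.fib R (M * bc (Algebra.ofId k R) η) fun z =>
    (gd_map (IsScalarTower.toAlgHom k R z.asIdeal.ResidueField) M hM).1 (h z)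
  obtain ⟨f, hf, hu⟩ := I.cls R η M h1
  refine ⟨Spec.map (CommRingCat.ofHom (f : Buniv g.e →+* R)), ?_, fun s hs => ?_⟩
  · refine (mkPt_map D f _ _).trans (mkPt_congr D _ _ ?_)
    rw [D.nat]
    exact hf
  · have ht : s ≫ sS k (Buniv g.e) = sS k R := congrArg PicData.FPt.t hs
    obtain ⟨f', hf'⟩ := exists_algHom (⟨s, ht⟩ : SchemeHomOver (sS k R) (sS k (Buniv g.e)))
    obtain rfl : s = Spec.map (CommRingCat.ofHom (f' : Buniv g.e →+* R)) :=
      congrArg Subtype.val hf'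
    have h2 := toPic_eq_of_mkPt D ((mkPt_map D f' _ _).symm.trans hs)
    rw [D.nat] at h2
    rw [hu f' h2]

theorem exists_eta_field (I : ChIn D) (K : Type u) [Field K]
    (y : PicData.FPt D (Spec (CommRingCat.of K))) :
    ∃ η : {η : G g.e (R := k) g.a // Adm g η}, Gd D η.1 y := by
  obtain ⟨i, M, h, rfl⟩ := exists_mkPt D y
  have h1 := (deg0_toPic_iff D M).1 h (AlgebraicClosure K)
    (IsScalarTower.toAlgHom k K (AlgebraicClosure K))
  obtain ⟨η, hη, h2, -⟩ := I.eta _ _ _ _ h1 h1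
  refine ⟨⟨η, hη⟩, (gd_mkPt D).2 ?_⟩
  rw [← bc_bc_ofId (IsScalarTower.toAlgHom k K (AlgebraicClosure K)), ← map_mul,
    Lat.isCompl_bc] at h2
  exact h2

/-- the charts of the functor of points -/
def charts (I : ChIn D) : AFun.Charts (ptFun D) {η : G g.e (R := k) g.a // Adm g η} where
  X _ := Spec (CommRingCat.of (Buniv g.e))
  x η := chP D I.H η.2
  Q η K _ y := Gd D η.1 y
  ext_iff η K K' _ _ f y := gd_ext η.1 K K' f y
  isOpen η R _ y z h := gd_isOpen I η.1 R y z h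
  Q_x η K _ s := gd_chP I η.2 K s
  rep η R _ y h := exists_hom I η.2 R y h
  cov _ _ y := exists_eta_field I _ y

theorem exists_eta_pair [IsAlgClosed k] (I : ChIn D)
    (y y' : PicData.FPt D (Spec (CommRingCat.of k))) (hy : y.t = 𝟙 _) (hy' : y'.t = 𝟙 _) :
    ∃ η : {η : G g.e (R := k) g.a // Adm g η}, Gd D η.1 y ∧ Gd D η.1 y' := by
  have hid : @sS k k _ _ (Algebra.id k) = 𝟙 _ := Spec.map_id _
  obtain ⟨i, M, h, rfl⟩ := exists_mkPt D y
  obtain rfl : i = Algebra.id k := Cut.algebra_unique _ _ (hy.trans hid.symm)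
  obtain ⟨i, M', h', rfl⟩ := exists_mkPt D y'
  obtain rfl : i = Algebra.id k := Cut.algebra_unique _ _ (hy'.trans hid.symm)
  have h1 := (Lat.isDegZero_bc _ _).1 ((deg0_toPic_iff D M).1 h k (Algebra.ofId k k))
  have h2 := (Lat.isDegZero_bc _ _).1 ((deg0_toPic_iff D M').1 h' k (Algebra.ofId k k))
  obtain ⟨η, hη, h3, h4⟩ := I.eta _ _ _ _ h1 h2
  exact ⟨⟨η, hη⟩, (gd_mkPt D).2 h3, (gd_mkPt D).2 h4⟩

/-- **WP7**: the functor of points is representable; the charts are open immersions which cover,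
and two rational points lie in a common chart. -/
theorem exists_univ [IsAlgClosed k] (I : ChIn D) : ∃ (P : Scheme.{u}) (x : PicData.FPt D P),
    (∀ (T : Scheme.{u}) (y : PicData.FPt D T), ∃! φ : T ⟶ P, x.map φ = y) ∧
    ∃ (ι : Type u) (j : ι → (Spec (CommRingCat.of (Buniv g.e)) ⟶ P)),
      (∀ i, IsOpenImmersion (j i)) ∧ (∀ i, j i ≫ x.t = sS k (Buniv g.e)) ∧
      (∀ y : P, ∃ i, y ∈ Set.range (j i)) ∧
      ∀ p p' : Spec (CommRingCat.of k) ⟶ P, p ≫ x.t = 𝟙 _ → p' ≫ x.t = 𝟙 _ →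
        ∃ i, (∃ a, a ≫ j i = p) ∧ ∃ a', a' ≫ j i = p' := by
  obtain ⟨P, x, h1, j, h2, h3, h4, h5⟩ := (charts I).exists_rep I.sheaf
  refine ⟨P, x, fun T y => h1 y, _, j, h2, fun i => congrArg PicData.FPt.t (h3 i), h5,
    fun p p' hp hp' => ?_⟩
  obtain ⟨i, h6, h7⟩ := exists_eta_pair I (x.map p) (x.map p') hp hp'
  have key : ∀ q : Spec (CommRingCat.of k) ⟶ P, Gd D i.1 (x.map q) → ∃ a, a ≫ j i = q := by
    intro q hq
    have h8 : Set.range q ⊆ Set.range (j i) := by
      rintro _ ⟨o, rfl⟩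
      rw [h4, (charts I).at_iff i x k q (q o) fun o' => by rw [Subsingleton.elim o' o]]
      exact hq
    exact ⟨IsOpenImmersion.lift (j i) q h8, IsOpenImmersion.lift_fac _ _ _⟩
  exact ⟨i, key p h6, key p' h7⟩

end Fermat.Agent.J25.CF
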