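import Mathlib

/-!
# A criterion of flatness for quotients
-/

set_option autoImplicit false

noncomputable section

namespace Fermat.Agent.J25.KB

open TensorProduct

universe u

variable {R : Type u} [CommRing R] {N F : Type u} [AddCommGroup N] [Module R N] [AddCommGroup F]
  [Module R F]

/-- the elements of `I N` come from `I ⊗ N` -/
theorem exists_of_mem_smul_top {I : Ideal R} {n : N} (hn : n ∈ I • (⊤ : Submodule R N)) :
    ∃ w : I ⊗[R] N, TensorProduct.lid R N (I.subtype.rTensor N w) = n := by
  refine Submodule.smul_induction_on (p := fun n => ∃ w : I ⊗[R] N,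
    TensorProduct.lid R N (I.subtype.rTensor N w) = n) hn ?_ ?_
  · intro r hr m _
    refine ⟨(⟨r, hr⟩ : I) ⊗ₜ m, ?_⟩
    rw [LinearMap.rTensor_tmul, TensorProduct.lid_tmul]
    rfl
  · rintro x y ⟨w, rfl⟩ ⟨w', rfl⟩
    exact ⟨w + w', by rw [map_add, map_add]⟩

theorem mem_smul_top_of_lid (I : Ideal R) (w : I ⊗[R] N) :
    TensorProduct.lid R N (I.subtype.rTensor N w) ∈ I • (⊤ : Submodule R N) := by
  induction w using TensorProduct.induction_on with
  | zero => rw [map_zero, map_zero]; exact zero_mem _
  | tmul r m =>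
    rw [LinearMap.rTensor_tmul, TensorProduct.lid_tmul]
    exact Submodule.smul_mem_smul r.2 trivial
  | add x y hx hy => rw [map_add, map_add]; exact add_mem hx hy

theorem one_tmul_eq_zero_iff (I : Ideal R) (n : N) :
    (1 : R ⧸ I) ⊗ₜ[R] n = 0 ↔ n ∈ I • (⊤ : Submodule R N) := by
  rw [← (TensorProduct.quotTensorEquivQuotSMul N I).map_eq_zero_iff,
    TensorProduct.quotTensorEquivQuotSMul_mk_one_tmul, Submodule.Quotient.mk_eq_zero]

theorem lid_rTensor_lTensor (I : Ideal R) (f : N →ₗ[R] F) (w : I ⊗[R] N) :
    TensorProduct.lid R F (I.subtype.rTensor F (f.lTensor I w)) =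
      f (TensorProduct.lid R N (I.subtype.rTensor N w)) := by
  induction w using TensorProduct.induction_on with
  | zero => simp only [map_zero]
  | tmul r m =>
    rw [LinearMap.lTensor_tmul, LinearMap.rTensor_tmul, LinearMap.rTensor_tmul,
      TensorProduct.lid_tmul, TensorProduct.lid_tmul, map_smul]
  | add x y hx hy => simp only [map_add, hx, hy]

/-- a quotient of a flat module by a submodule which stays injective modulo all ideals is flat -/
theorem flat_quot [Module.Flat R F] (ψ : N →ₗ[R] F)
    (h : ∀ I : Ideal R, Function.Injective (ψ.baseChange (R ⧸ I))) :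
    Module.Flat R (F ⧸ LinearMap.range ψ) := by
  rw [Module.Flat.iff_rTensor_injective']
  intro I
  rw [injective_iff_map_eq_zero]
  intro x hx
  obtain ⟨y, rfl⟩ := LinearMap.lTensor_surjective I (Submodule.mkQ_surjective
    (LinearMap.range ψ)) x
  have h1 : (LinearMap.range ψ).mkQ (TensorProduct.lid R F (I.subtype.rTensor F y)) = 0 := by
    rw [← lid_rTensor_lTensor, hx, map_zero]
  rw [Submodule.mkQ_apply, Submodule.Quotient.mk_eq_zero] at h1
  obtain ⟨n, hn⟩ := h1
  have h2 : (1 : R ⧸ I) ⊗ₜ[R] n = 0 := by
    apply h I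
    rw [LinearMap.baseChange_tmul, map_zero, hn, one_tmul_eq_zero_iff]
    exact mem_smul_top_of_lid I y
  obtain ⟨w, hw⟩ := exists_of_mem_smul_top ((one_tmul_eq_zero_iff I n).mp h2)
  have h3 : ψ.lTensor I w = y := by
    apply (Module.Flat.iff_rTensor_injective'.mp (inferInstance : Module.Flat R F)) I
    apply (TensorProduct.lid R F).injective
    rw [lid_rTensor_lTensor, hw, hn]
  rw [← h3, ← LinearMap.comp_apply, ← LinearMap.lTensor_comp]
  have h4 : (LinearMap.range ψ).mkQ ∘ₗ ψ = 0 := by
    ext n
    exact (Submodule.Quotient.mk_eq_zero _).mpr ⟨n, rfl⟩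
  rw [h4, LinearMap.lTensor_zero, LinearMap.zero_apply]

/-- the fibres of a quotient -/
theorem finrank_baseChange_quot (K : Type u) [Field K] [Algebra R K] (ψ : N →ₗ[R] F)
    {V : Type*} [AddCommGroup V] [Module K V] (g : K ⊗[R] F →ₗ[K] V)
    (hg : LinearMap.ker g = LinearMap.range (ψ.baseChange K)) :
    Module.finrank K (K ⊗[R] (F ⧸ LinearMap.range ψ)) = Module.finrank K (LinearMap.range g) := by
  set q := (LinearMap.range ψ).mkQ.baseChange K with hq
  have hex : Function.Exact (LinearMap.lTensor K ψ) (LinearMap.lTensor K (LinearMap.range ψ).mkQ) :=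
    lTensor_exact K (LinearMap.exact_map_mkQ_range ψ) (Submodule.mkQ_surjective _)
  have hsurj : Function.Surjective q :=
    LinearMap.lTensor_surjective K (Submodule.mkQ_surjective _)
  have hker : LinearMap.ker q = LinearMap.ker g := by
    rw [hg]
    ext z
    exact hex z
  rw [← (LinearMap.quotKerEquivOfSurjective q hsurj).finrank_eq,
    ← (LinearMap.quotKerEquivRange g).finrank_eq, hker]

/-- the rank of a finitely presented flat module at a point with values in a field -/
theorem finrank_eq_rankAtStalk {E : Type u} [AddCommGroup E] [Module R E] [Module.Flat R E]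
    [Module.Finite R E] (K : Type u) [Field K] [Algebra R K] :
    Module.finrank K (K ⊗[R] E) =
      Module.rankAtStalk E (PrimeSpectrum.comap (algebraMap R K) ⊥) := by
  rw [← Module.rankAtStalk_baseChange (S := K), Module.rankAtStalk_eq_finrank_of_free]
  rfl

end Fermat.Agent.J25.KB
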