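import Fermat.Agent.J25.KerBC
import Fermat.Agent.J25.KerFG2
import Fermat.Agent.J25.FlatQ
import Fermat.Agent.J25.Lat5

/-!
# **(6b)** the index of the fibres is locally constant
-/

set_option autoImplicit false
set_option linter.unusedSectionVars false
set_option linter.style.haveILetI false

noncomputable section

namespace Fermat.Agent.J25.KB

attribute [-instance] HahnSeries.powerSeriesAlgebra

open HahnSeries
open scoped TensorProduct

universe u

variable {k : Type u} [Field k] {A : Type u} [CommRing A] [Algebra k A] {e : A →ₐ[k] LaurentSeries k}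
  {R : Type u} [CommRing R] [Algebra k R] {a : A}

section Psi

variable (he : Function.Injective e) (M : G e (R := R) a) (p : LaurentSeries R)
  (hM : ∀ m ∈ G.sub M, p * m ∈ AR e R)

/-- multiplication by `p`, from `M` to `R ⊗ A` -/
def psi : G.sub M →ₗ[R] R ⊗[k] A :=
  (eqA he).symm.toLinearMap ∘ₗ
    ({ toFun := fun m => (⟨p * m, hM m m.2⟩ : AR e R)
       map_add' := fun x y => by ext1; exact mul_add _ _ _
       map_smul' := fun r x => by ext1; exact mul_smul_comm _ _ _ } : G.sub M →ₗ[R] AR e R)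

theorem exR_psi (m : G.sub M) : exR e R (psi he M p hM m) = p * m := by
  rw [← inA_eqA he, psi, LinearMap.comp_apply, LinearEquiv.coe_coe, LinearEquiv.apply_symm_apply]
  rfl

/-- the ideal `p M` of `R ⊗ A` -/
def idl : Ideal (R ⊗[k] A) where
  carrier := {t | ∃ m ∈ G.sub M, exR e R t = p * m}
  zero_mem' := ⟨0, zero_mem _, by rw [map_zero, mul_zero]⟩
  add_mem' := by
    rintro s t ⟨m, hm, hs⟩ ⟨m', hm', ht⟩
    exact ⟨m + m', add_mem hm hm', by rw [map_add, hs, ht, mul_add]⟩
  smul_mem' := by
    rintro c t ⟨m, hm, ht⟩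
    exact ⟨exR e R c * m, G.smul_mem ⟨c, rfl⟩ hm, by
      rw [smul_eq_mul, map_mul, ht, mul_left_comm]⟩

theorem mem_idl {t : R ⊗[k] A} : t ∈ idl M p ↔ ∃ m ∈ G.sub M, exR e R t = p * m := Iff.rfl

theorem range_psi : LinearMap.range (psi he M p hM) = (idl M p).restrictScalars R := by
  ext t
  rw [Submodule.restrictScalars_mem, mem_idl]
  constructor
  · rintro ⟨m, rfl⟩
    exact ⟨m, m.2, exR_psi he M p hM m⟩
  · rintro ⟨m, hm, ht⟩
    refine ⟨⟨m, hm⟩, exR_injective e he ?_⟩
    rw [exR_psi, ht]

include he hM in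
theorem idl_fg : (idl M p).FG := by
  classical
  have hinj : Function.Injective (exR e R) := exR_injective e he
  obtain ⟨s, hs⟩ := Submodule.fg_of_isUnit (M.1.isUnit)
  have hsM : ∀ m ∈ s, m ∈ G.sub M := by
    intro m hm
    rw [G.mem_sub, ← hs]
    exact Submodule.subset_span hm
  choose! τ hτ using fun (m : LaurentSeries R) (hm : m ∈ G.sub M) => hM m hm
  refine ⟨s.image τ, ?_⟩
  apply le_antisymm
  · rw [Submodule.span_le, Finset.coe_image]
    rintro _ ⟨m, hm, rfl⟩
    exact ⟨m, hsM m hm, hτ m (hsM m hm)⟩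
  · rintro t ⟨m, hm, ht⟩
    rw [G.mem_sub, ← hs] at hm
    have key : ∀ m ∈ Submodule.span (AR e R) (s : Set (LaurentSeries R)), ∀ t,
        exR e R t = p * m → t ∈ Submodule.span (R ⊗[k] A) ((s.image τ : Finset _) : Set _) := by
      intro m hm
      refine Submodule.span_induction (p := fun m _ => ∀ t,
        exR e R t = p * m → t ∈ Submodule.span (R ⊗[k] A) ((s.image τ : Finset _) : Set _))
        ?_ ?_ ?_ ?_ hm
      · intro m hm t ht
        have : t = τ m := hinj (by rw [ht]; exact (hτ m (hsM m hm)).symm)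
        rw [this]
        refine Submodule.subset_span ?_
        rw [Finset.coe_image]
        exact ⟨m, hm, rfl⟩
      · intro t ht
        rw [mul_zero] at ht
        have : t = 0 := hinj (by rw [ht, map_zero])
        rw [this]
        exact zero_mem _
      · intro m m' hm hm' ih ih' t ht
        obtain ⟨u, hu⟩ : ∃ u, exR e R u = p * m := hM m (by rw [G.mem_sub, ← hs]; exact hm)
        have h3 : exR e R (t - u) = p * m' := by
          rw [map_sub, ht, hu]
          ring
        have h4 : t = u + (t - u) := by abel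
        rw [h4]
        exact add_mem (ih u hu) (ih' _ h3)
      · rintro ⟨_, c, rfl⟩ m hm ih t ht
        obtain ⟨u, hu⟩ : ∃ u, exR e R u = p * m := hM m (by rw [G.mem_sub, ← hs]; exact hm)
        have h3 : t = c * u := by
          apply hinj
          rw [ht, map_mul, hu, Subalgebra.smul_def, smul_eq_mul, mul_left_comm]
          rfl
        rw [h3]
        exact Submodule.smul_mem _ c (ih u hu)
    exact key m hm t ht

/-- `A_R / p M` -/
abbrev quo : Type u := (R ⊗[k] A) ⧸ LinearMap.range (psi he M p hM)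

/-- `A_R / P(a) M` is finitely presented -/
theorem fp_quo {P : Polynomial R} (hP : P.Monic)
    (hM : ∀ m ∈ G.sub M, pev e R a P * m ∈ AR e R)
    (hM' : ∀ m ∈ ((M.1⁻¹ : (Submodule (AR e R) (LaurentSeries R))ˣ) :
      Submodule (AR e R) (LaurentSeries R)), pev e R a P * m ∈ AR e R)
    (finA : (Polynomial.aeval (R := k) a).toRingHom.Finite) :
    Module.FinitePresentation R (quo he M (pev e R a P) hM) := by
  have h1 : Polynomial.aeval ((1 : R) ⊗ₜ[k] a) (P * P) ∈ idl M (pev e R a P) := by
    refine ⟨pev e R a P * 1, KF.pev_mem_G M hM' (one_mem _), ?_⟩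
    have hev : ∀ Q : Polynomial R, exR e R (Polynomial.aeval ((1 : R) ⊗ₜ[k] a) Q) =
        pev e R a Q := by
      intro Q
      rw [← Polynomial.aeval_algHom_apply, exR_tmul, one_smul]
      rfl
    rw [hev, pev, map_mul, mul_one]
    rfl
  have h2 := KF.fp_quot finA (idl_fg he M (pev e R a P) hM) (hP.mul hP) h1
  exact Module.FinitePresentation.of_equiv
    ((Submodule.Quotient.restrictScalarsEquiv R (idl M (pev e R a P))).symm.trans
      (Submodule.quotEquivOfEq _ _ (range_psi he M (pev e R a P) hM).symm))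

variable (T : Type u) [CommRing T] [Algebra k T] [Algebra R T] [IsScalarTower k R T]

include he in
theorem bm_exR_injective : Function.Injective (bm T (exR e R).toLinearMap) := by
  have h1 : ∀ z : T ⊗[R] (R ⊗[k] A), bm T (exR e R).toLinearMap z =
      bm T (inA e R) ((eqA he).baseChange R T _ _ z) := by
    intro z
    induction z using TensorProduct.induction_on with
    | zero => simp
    | tmul t x => rw [LinearEquiv.baseChange_tmul, bm_tmul, bm_tmul]; rfl
    | add x y hx hy => rw [map_add, map_add, hx, hy, map_add]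
  intro x y hxy
  rw [h1, h1] at hxy
  exact ((eqA he).baseChange R T _ _).injective (bm_inA_injective he T hxy)

theorem range_bm_exR : LinearMap.range (bm T (exR e R).toLinearMap) =
    Subalgebra.toSubmodule (AR e T) := by
  rw [range_bm]
  apply le_antisymm
  · rw [Submodule.span_le]
    rintro _ ⟨_, ⟨x, rfl⟩, rfl⟩
    exact lmap_mem_AR T (IsScalarTower.toAlgHom k R T) ⟨x, rfl⟩
  · rintro _ ⟨x, rfl⟩
    induction x using TensorProduct.induction_on with
    | zero =>
      change exR e T 0 ∈ _
      rw [map_zero]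
      exact zero_mem _
    | tmul t y =>
      change exR e T (t ⊗ₜ y) ∈ _
      rw [exR_tmul]
      refine Submodule.smul_mem _ _ (Submodule.subset_span ⟨ex e R y, ⟨1 ⊗ₜ y, ?_⟩, ?_⟩)
      · change exR e R (1 ⊗ₜ y) = _
        rw [exR_tmul, one_smul]
      · ext i
        rw [lmap_coeff, ex_coeff, ex_coeff, ← IsScalarTower.algebraMap_apply]
    | add x y hx hy =>
      change exR e T (x + y) ∈ _
      rw [map_add]
      exact add_mem hx hy

theorem bm_psi (z : T ⊗[R] G.sub M) :
    bm T (exR e R).toLinearMap ((psi he M p hM).baseChange T z) =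
      lmap (algebraMap R T) p * bm T (G.sub M).subtype z := by
  induction z using TensorProduct.induction_on with
  | zero => simp
  | tmul t x =>
    rw [LinearMap.baseChange_tmul, bm_tmul, bm_tmul, AlgHom.toLinearMap_apply, exR_psi, map_mul,
      mul_smul_comm]
    rfl
  | add x y hx hy => rw [map_add, map_add, hx, hy, map_add, mul_add]

theorem psi_baseChange_injective (hp : ∃ y : LaurentSeries R, p * y = 1) :
    Function.Injective ((psi he M p hM).baseChange T) := by
  rw [injective_iff_map_eq_zero]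
  intro z hz
  have h1 := bm_psi he M p hM T z
  rw [hz, map_zero] at h1
  obtain ⟨y, hy⟩ := hp
  have h2 : lmap (algebraMap R T) y * (lmap (algebraMap R T) p * bm T (G.sub M).subtype z) = 0 := by
    rw [← h1, mul_zero]
  rw [← mul_assoc, ← map_mul, mul_comm y p, hy, map_one, one_mul] at h2
  exact bm_sub_injective T he M (h2.trans (map_zero _).symm)

/-- `A_R / p M` is flat -/
theorem flat_quo (hp : ∃ y : LaurentSeries R, p * y = 1) : Module.Flat R (quo he M p hM) := by
  refine flat_quot _ fun I => ?_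
  exact psi_baseChange_injective he M p hM (R ⧸ I) hp

/-- the fibres of `A_R / p M` -/
theorem finrank_quo (K : Type u) [Field K] [Algebra k K] [Algebra R K] [IsScalarTower k R K]
    {X : Submodule K (LaurentSeries K)}
    (hX : ∀ x, x ∈ X ↔ ∃ m ∈ G.sub (bc (IsScalarTower.toAlgHom k R K) M),
      x = lmap (algebraMap R K) p * m) :
    Module.finrank K (K ⊗[R] quo he M p hM) = Lat.rd X (Subalgebra.toSubmodule (AR e K)) := by
  rw [finrank_baseChange_quot K (psi he M p hM) (X.mkQ ∘ₗ bm K (exR e R).toLinearMap),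
    LinearMap.range_comp, range_bm_exR, Lat.rd]
  ext z
  rw [LinearMap.mem_ker, LinearMap.comp_apply, Submodule.mkQ_apply, Submodule.Quotient.mk_eq_zero,
    hX]
  constructor
  · rintro ⟨m, hm, hz⟩
    rw [← range_bm_sub] at hm
    obtain ⟨y, rfl⟩ := hm
    refine ⟨y, bm_exR_injective he K ?_⟩
    rw [bm_psi, hz]
  · rintro ⟨y, rfl⟩
    refine ⟨bm K (G.sub M).subtype y, ?_, bm_psi he M p hM K y⟩
    rw [← range_bm_sub]
    exact ⟨y, rfl⟩

end Psi

section AdA

variable {d : ℕ}

theorem range_ex_k : Subalgebra.toSubmodule (AR e k) = LinearMap.range e.toLinearMap := by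
  apply le_antisymm
  · rintro _ ⟨x, rfl⟩
    change exR e k x ∈ _
    induction x using TensorProduct.induction_on with
    | zero => rw [map_zero]; exact zero_mem _
    | tmul t y =>
      rw [exR_tmul]
      refine Submodule.smul_mem _ _ ⟨y, ?_⟩
      ext i
      rw [ex_coeff]
      rfl
    | add x y hx hy => rw [map_add]; exact add_mem hx hy
  · rintro _ ⟨x, rfl⟩
    have : e.toLinearMap x = ex e k x := by
      ext i
      rw [ex_coeff]
      rfl
    rw [this]
    exact ex_mem_AR e k x

theorem AR_eq_bcV (K : Type u) [Field K] [Algebra k K] :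
    Subalgebra.toSubmodule (AR e K) =
      Lat.bcV (algebraMap k K) (Subalgebra.toSubmodule (AR e k)) := by
  have h1 := bc_sub (e := e) (a := (0 : A)) (Algebra.ofId k K) (1 : G e (R := k) (0 : A))
  rw [map_one] at h1
  have h2 : ∀ (S : Type u) [CommRing S] [Algebra k S],
      G.sub (1 : G e (R := S) (0 : A)) = Subalgebra.toSubmodule (AR e S) := by
    intro S _ _
    ext x
    rw [G.mem_one]
    rfl
  rw [h2, h2] at h1
  exact h1

/-- finiteness of the cohomology of `A_K` -/
theorem ad_AR (H0 : ∀ x : A, e x ∈ LV k 0 → ∃ r : k, x = algebraMap k A r)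
    (H1 : Module.Finite k (LaurentSeries k ⧸ (LinearMap.range e.toLinearMap ⊔ LV k 1)))
    (K : Type u) [Field K] [Algebra k K] (n : ℤ) :
    Lat.Ad (LV K n) (Subalgebra.toSubmodule (AR e K)) := by
  have h1 : Lat.Ad (LV k 1) (Subalgebra.toSubmodule (AR e k)) := by
    refine ⟨?_, ?_⟩
    · have := KF.fg_AR_inf e k H0 1
      exact Module.Finite.iff_fg.mpr this
    · rw [range_ex_k]
      exact H1
  rw [AR_eq_bcV]
  exact Lat.ad_bcV.mpr h1.shift

theorem chi_AR (K : Type u) [Field K] [Algebra k K] (n : ℤ) :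
    Lat.chi (LV K n) (Subalgebra.toSubmodule (AR e K)) =
      Lat.chi (LV k n) (Subalgebra.toSubmodule (AR e k)) := by
  rw [AR_eq_bcV]
  exact Lat.chi_bcV _ _

theorem rs_one (K : Type u) [Field K] [Algebra k K] :
    Lat.rs (1 : Submodule (AR e K) (LaurentSeries K)) = Subalgebra.toSubmodule (AR e K) := by
  ext x
  rw [Lat.mem_rs, Submodule.mem_one]
  exact ⟨fun ⟨y, hy⟩ => hy ▸ y.2, fun h => ⟨⟨x, h⟩, rfl⟩⟩

theorem sub_one (K : Type u) [Field K] [Algebra k K] :
    G.sub (1 : G e (R := K) a) = Subalgebra.toSubmodule (AR e K) := by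
  ext x
  rw [G.mem_one]
  rfl

/-- finiteness of the cohomology of all lattices -/
theorem ad_sub (H0 : ∀ x : A, e x ∈ LV k 0 → ∃ r : k, x = algebraMap k A r)
    (H1 : Module.Finite k (LaurentSeries k ⧸ (LinearMap.range e.toLinearMap ⊔ LV k 1)))
    {K : Type u} [Field K] [Algebra k K] (M : G e (R := K) a) (n : ℤ) :
    Lat.Ad (LV K n) (G.sub M) :=
  Lat.ad_unit (by rw [rs_one]; exact ad_AR H0 H1 K 0) M.1

theorem chi_eq_lat {K : Type u} [Field K] (M : Submodule K (LaurentSeries K)) :
    chi M = Lat.chi (LV K 1) M := rfl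

/-- the index of the trivial lattice does not depend on the field -/
theorem chi_one (K : Type u) [Field K] [Algebra k K] :
    chi (G.sub (1 : G e (R := K) a)) = chi (G.sub (1 : G e (R := k) a)) := by
  rw [chi_eq_lat, chi_eq_lat, sub_one, sub_one]
  exact chi_AR K 1

end AdA

section Main

variable {d : ℕ}

/-- **(6b)** the index of the fibres of a lattice is a locally constant function on the spectrum,
and depends only on the point. -/
theorem exists_chi (he : Function.Injective e) (ha : e a ∈ LV k (-(d : ℤ)))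
    (ha1 : (e a).coeff (-(d : ℤ)) = 1) (hd : 0 < d)
    (finA : (Polynomial.aeval (R := k) a).toRingHom.Finite)
    (H0 : ∀ x : A, e x ∈ LV k 0 → ∃ r : k, x = algebraMap k A r)
    (H1 : Module.Finite k (LaurentSeries k ⧸ (LinearMap.range e.toLinearMap ⊔ LV k 1)))
    (M : G e (R := R) a) :
    ∃ c : PrimeSpectrum R → ℤ, IsLocallyConstant c ∧
      ∀ (K : Type u) [Field K] [Algebra k K] (φ : R →ₐ[k] K),
        chi (G.sub (bc φ M)) = c (PrimeSpectrum.comap (φ : R →+* K) ⊥) := by
  obtain ⟨P, hP, hM, hM'⟩ := M.2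
  obtain ⟨h1, h2⟩ := KF.pev_mem (R := R) ha ha1 hd hP
  obtain ⟨y, -, hy⟩ := KF.exists_inv_LV h1 (by rw [h2]; exact isUnit_one)
  have hfp := fp_quo he M hP hM hM' finA
  have hfl := flat_quo he M (pev e R a P) hM ⟨y, hy⟩
  refine ⟨fun x => chi (G.sub (1 : G e (R := k) a)) + ((d * P.natDegree : ℕ) : ℤ) -
    Module.rankAtStalk (R := R) (quo he M (pev e R a P) hM) x, ?_, ?_⟩
  · exact (Module.isLocallyConstant_rankAtStalk (R := R)
      (M := quo he M (pev e R a P) hM)).comp (fun n : ℕ => chi (G.sub (1 : G e (R := k) a)) +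
        ((d * P.natDegree : ℕ) : ℤ) - (n : ℤ))
  · intro K _ _ φ
    letI : Algebra R K := (φ : R →+* K).toAlgebra
    haveI : IsScalarTower k R K := IsScalarTower.of_algebraMap_eq fun r => (φ.commutes r).symm
    have hφ : IsScalarTower.toAlgHom k R K = φ := by
      ext r
      rfl
    have hπ1 : lmap (algebraMap R K) (pev e R a P) ∈ LV K (-((d * P.natDegree : ℕ) : ℤ)) :=
      lmap_mem_LV _ h1
    have hπ2 : (lmap (algebraMap R K) (pev e R a P)).coeff (-((d * P.natDegree : ℕ) : ℤ)) = 1 := by
      rw [lmap_coeff, h2, map_one]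
    have hπ0 : lmap (algebraMap R K) (pev e R a P) ≠ 0 := by
      intro h0
      rw [h0, HahnSeries.coeff_zero] at hπ2
      exact zero_ne_one hπ2
    have hord : (lmap (algebraMap R K) (pev e R a P)).order = -((d * P.natDegree : ℕ) : ℤ) := by
      apply le_antisymm
      · exact HahnSeries.order_le_of_coeff_ne_zero (by rw [hπ2]; exact one_ne_zero)
      · rcases Lat.mem_LV_iff.mp hπ1 with h | h
        · exact absurd h hπ0
        · exact h
    set X : Submodule K (LaurentSeries K) := (G.sub (bc φ M)).map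
      (Lat.mulE (lmap (algebraMap R K) (pev e R a P)) hπ0 : LaurentSeries K →ₗ[K] LaurentSeries K)
      with hX
    have hXmem : ∀ x, x ∈ X ↔ ∃ m ∈ G.sub (bc (IsScalarTower.toAlgHom k R K) M),
        x = lmap (algebraMap R K) (pev e R a P) * m := by
      intro x
      rw [hφ]
      constructor
      · rintro ⟨m, hm, rfl⟩
        exact ⟨m, hm, rfl⟩
      · rintro ⟨m, hm, rfl⟩
        exact ⟨m, hm, rfl⟩
    have hXle : X ≤ Subalgebra.toSubmodule (AR e K) := by
      intro x hx
      obtain ⟨m, hm, rfl⟩ := (hXmem x).mp hx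
      rw [← range_bm_sub] at hm
      obtain ⟨z, rfl⟩ := hm
      rw [← bm_psi he M _ hM K z, ← range_bm_exR (R := R) K]
      exact ⟨_, rfl⟩
    have hAdM : Lat.Ad (LV K 1) (G.sub (bc φ M)) := ad_sub H0 H1 _ 1
    have hAdX : Lat.Ad (LV K 1) X := hAdM.mul _ hπ0
    have hAdA : Lat.Ad (LV K 1) (Subalgebra.toSubmodule (AR e K)) := ad_AR H0 H1 K 1
    have e1 := Lat.chi_add hXle hAdX hAdA
    have e2 := Lat.chi_mul hAdM _ hπ0
    rw [← hX, hord] at e2
    rw [← finrank_quo he M (pev e R a P) hM K hXmem, finrank_eq_rankAtStalk K] at e1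
    have e3 : Lat.chi (LV K 1) (Subalgebra.toSubmodule (AR e K)) =
        chi (G.sub (1 : G e (R := k) a)) := by
      rw [← chi_one (a := a) K, chi_eq_lat, sub_one]
    rw [e3] at e1
    rw [chi_eq_lat]
    have e4 : PrimeSpectrum.comap (algebraMap R K) ⊥ = PrimeSpectrum.comap (φ : R →+* K) ⊥ := rfl
    rw [e4] at e1
    rw [e1, e2]
    ring

/-- the degree is constant on a connected spectrum -/
theorem chi_eq_of_preconnected (he : Function.Injective e) (ha : e a ∈ LV k (-(d : ℤ)))
    (ha1 : (e a).coeff (-(d : ℤ)) = 1) (hd : 0 < d)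
    (finA : (Polynomial.aeval (R := k) a).toRingHom.Finite)
    (H0 : ∀ x : A, e x ∈ LV k 0 → ∃ r : k, x = algebraMap k A r)
    (H1 : Module.Finite k (LaurentSeries k ⧸ (LinearMap.range e.toLinearMap ⊔ LV k 1)))
    [PreconnectedSpace (PrimeSpectrum R)] (M : G e (R := R) a)
    {K K' : Type u} [Field K] [Algebra k K] [Field K'] [Algebra k K'] (φ : R →ₐ[k] K)
    (φ' : R →ₐ[k] K') : chi (G.sub (bc φ M)) = chi (G.sub (bc φ' M)) := by
  obtain ⟨c, hc, h⟩ := exists_chi he ha ha1 hd finA H0 H1 M
  rw [h, h]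
  exact hc.apply_eq_of_preconnectedSpace _ _

end Main

section Geom

open AlgebraicGeometry CategoryTheory NeronModelInfra

variable {k : Type u} [Field k] {C : Scheme.{u}} {c : C ⟶ Spec (CommRingCat.of k)}
    {ε : SchemeHomOver (𝟙 (Spec (CommRingCat.of k))) c} (g : Geo c ε)
    {R : Type u} [CommRing R] [Algebra k R]

/-- **(6b)** for the curve -/
theorem geo_exists_chi (M : G g.e (R := R) g.a) :
    ∃ c : PrimeSpectrum R → ℤ, IsLocallyConstant c ∧
      ∀ (K : Type u) [Field K] [Algebra k K] (φ : R →ₐ[k] K),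
        chi (G.sub (bc φ M)) = c (PrimeSpectrum.comap (φ : R →+* K) ⊥) :=
  KB.exists_chi (e := g.e) (a := g.a) (d := g.d) g.injA g.ea_mem g.ea_coeff g.hd g.finA g.H0 g.H1 M

/-- the locus of degree zero is open and closed -/
theorem geo_exists_degZero (M : G g.e (R := R) g.a) :
    ∃ U : Set (PrimeSpectrum R), IsClopen U ∧
      ∀ (K : Type u) [Field K] [Algebra k K] (φ : R →ₐ[k] K),
        IsDegZero (bc φ M) ↔ PrimeSpectrum.comap (φ : R →+* K) ⊥ ∈ U := by
  obtain ⟨c, hc, h⟩ := geo_exists_chi g M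
  refine ⟨c ⁻¹' {chi (G.sub (1 : G g.e (R := k) g.a))}, hc.isClopen_fiber _, ?_⟩
  intro K _ _ φ
  rw [IsDegZero, h, chi_one, Set.mem_preimage, Set.mem_singleton_iff]

/-- the degree is constant on a connected spectrum -/
theorem geo_isDegZero_iff [PreconnectedSpace (PrimeSpectrum R)]
    (M : G g.e (R := R) g.a)
    {K K' : Type u} [Field K] [Algebra k K] [Field K'] [Algebra k K'] (φ : R →ₐ[k] K)
    (φ' : R →ₐ[k] K') : IsDegZero (bc φ M) ↔ IsDegZero (bc φ' M) := by
  rw [IsDegZero, IsDegZero, chi_one K, chi_one K', chi_eq_of_preconnected (e := g.e) (a := g.a) (d := g.d)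
    g.injA g.ea_mem g.ea_coeff g.hd g.finA g.H0 g.H1 M φ φ']

end Geom

end Fermat.Agent.J25.KB
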