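import Mathlib
import Fermat.Agent.J25.Hub2

/-!
# S25, (7r-1): classification of good classes over affine bases
-/

set_option autoImplicit false

noncomputable section

universe u

open CategoryTheory CategoryTheory.Limits AlgebraicGeometry TensorProduct NeronModelInfra Opposite
open AlgebraicGeometry.RelPicard

namespace Fermat.Agent.J25.CLS

attribute [-instance] HahnSeries.powerSeriesAlgebra

section alg

variable {k : Type u} [Field k] {A : Type u} [CommRing A] [Algebra k A]
  {e : A →ₐ[k] LaurentSeries k} {a : A}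
variable {R S T : Type u} [CommRing R] [Algebra k R] [CommRing S] [Algebra k S]
  [CommRing T] [Algebra k T]

theorem lmap_comp' (f : R →ₐ[k] S) (g : S →ₐ[k] T) (x : LaurentSeries R) :
    lmap (g : S →+* T) (lmap (f : R →+* S) x) = lmap ((g.comp f : R →ₐ[k] T) : R →+* T) x := by
  ext i
  rfl

/-- transitivity of base change -/
theorem bc_bc (f : R →ₐ[k] S) (g : S →ₐ[k] T) (M : G e (R := R) a) :
    bc g (bc f M) = bc (g.comp f) M := by
  apply G.ext
  rw [bc_sub, bc_sub, bc_sub]
  apply le_antisymm
  · rw [Submodule.span_le]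
    rintro _ ⟨y, hy, rfl⟩
    induction hy using Submodule.span_induction with
    | mem y h =>
      obtain ⟨m, hm, rfl⟩ := h
      rw [lmap_comp']
      exact Submodule.subset_span ⟨m, hm, rfl⟩
    | zero => rw [map_zero]; exact Submodule.zero_mem _
    | add x y _ _ hx hy => rw [map_add]; exact Submodule.add_mem _ hx hy
    | smul r x _ hx => rw [lmap_smul]; exact Submodule.smul_mem _ _ hx
  · rw [Submodule.span_le]
    rintro _ ⟨m, hm, rfl⟩
    rw [← lmap_comp']
    exact Submodule.subset_span ⟨_, Submodule.subset_span ⟨m, hm, rfl⟩, rfl⟩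

theorem bc_id (M : G e (R := R) a) : bc (AlgHom.id k R) M = M := by
  apply G.ext
  rw [bc_sub]
  have : lmap ((AlgHom.id k R : R →ₐ[k] R) : R →+* R) '' (G.sub M : Set (LaurentSeries R)) =
      (G.sub M : Set (LaurentSeries R)) := by
    ext x
    constructor
    · rintro ⟨y, hy, rfl⟩
      exact hy
    · intro hx
      exact ⟨x, hx, rfl⟩
  rw [this, Submodule.span_eq]

/-- the scaling of a good lattice: a point of the chart -/
theorem exists_toW (N : Submodule R (LaurentSeries R)) (hst : ∀ (x : A), ∀ m ∈ N, ex e R x * m ∈ N)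
    (hc : IsCompl N (LV R 1)) : ∃ (P : WPt e R) (u : LaurentSeries R) (hu : IsU u),
      N = P.M.map (hu.equiv : LaurentSeries R →ₗ[R] LaurentSeries R) := by
  obtain ⟨s, hs, hs1⟩ : ∃ s ∈ N, s - 1 ∈ LV R 1 := by
    have h : (1 : LaurentSeries R) ∈ N ⊔ LV R 1 := by
      rw [hc.sup_eq_top]
      trivial
    obtain ⟨m, hm, v, hv, hmv⟩ := Submodule.mem_sup.mp h
    refine ⟨m, hm, ?_⟩
    rw [← hmv]
    have : m - (m + v) = -v := by ring
    rw [this]
    exact (LV R 1).neg_mem hv
  have hsU : IsU s := by
    constructor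
    · have := (LV R 0).add_mem (LV_mono (by omega) hs1) one_mem_LV
      rwa [sub_add_cancel] at this
    · have := hs1 0 (by omega)
      rw [HahnSeries.coeff_sub, sub_eq_zero, HahnSeries.coeff_one, if_pos rfl] at this
      rw [this]
      exact isUnit_one
  let P : WPt e R :=
    { M := N.map (hsU.equiv.symm : LaurentSeries R →ₗ[R] LaurentSeries R)
      stab := by
        rintro x _ ⟨m, hm, rfl⟩
        refine ⟨ex e R x * m, hst x m hm, ?_⟩
        apply hsU.equiv.injective
        change hsU.equiv (hsU.equiv.symm _) = hsU.equiv (ex e R x * hsU.equiv.symm m)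
        rw [LinearEquiv.apply_symm_apply, hsU.equiv_apply, mul_left_comm, ← hsU.equiv_apply,
          LinearEquiv.apply_symm_apply]
      one_mem := by
        refine ⟨s, hs, ?_⟩
        apply hsU.equiv.injective
        change hsU.equiv (hsU.equiv.symm _) = hsU.equiv 1
        rw [LinearEquiv.apply_symm_apply, hsU.equiv_apply, mul_one]
      compl := by
        rw [← hsU.isCompl_iff]
        have : (N.map (hsU.equiv.symm : LaurentSeries R →ₗ[R] LaurentSeries R)).map
            (hsU.equiv : LaurentSeries R →ₗ[R] LaurentSeries R) = N := by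
          ext x
          constructor
          · rintro ⟨_, ⟨y, hy, rfl⟩, rfl⟩
            change hsU.equiv (hsU.equiv.symm y) ∈ N
            rwa [LinearEquiv.apply_symm_apply]
          · intro hx
            exact ⟨hsU.equiv.symm x, ⟨x, hx, rfl⟩, hsU.equiv.apply_symm_apply x⟩
        rwa [this] }
  refine ⟨P, s, hsU, ?_⟩
  ext x
  constructor
  · intro hx
    exact ⟨hsU.equiv.symm x, ⟨x, hx, rfl⟩, hsU.equiv.apply_symm_apply x⟩
  · rintro ⟨_, ⟨y, hy, rfl⟩, rfl⟩
    change hsU.equiv (hsU.equiv.symm y) ∈ N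
    rwa [LinearEquiv.apply_symm_apply]

/-- two points of the chart which differ by a unit series are equal -/
theorem WPt_unique {P P' : WPt e R} {u : LaurentSeries R} (hu : IsU u)
    (h : P.M = P'.M.map (hu.equiv : LaurentSeries R →ₗ[R] LaurentSeries R)) : P = P' := by
  have h1 : u ∈ P.M := by
    rw [h]
    exact ⟨1, P'.one_mem, mul_one u⟩
  have h2 : u = u.coeff 0 • (1 : LaurentSeries R) := by
    refine P.eq_of_sub_mem h1 (P.M.smul_mem _ P.one_mem) fun i hi => ?_
    rw [HahnSeries.coeff_sub, HahnSeries.coeff_smul, HahnSeries.coeff_one, smul_eq_mul]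
    rcases eq_or_ne i 0 with rfl | h0
    · rw [if_pos rfl, mul_one, sub_self]
    · rw [hu.1 i (by omega), if_neg h0, mul_zero, sub_zero]
  have h3 : P'.M.map (hu.equiv : LaurentSeries R →ₗ[R] LaurentSeries R) = P'.M := by
    have h4 : ∀ x : LaurentSeries R, u * x = u.coeff 0 • x := fun x => by
      conv_lhs => rw [h2]
      rw [smul_mul_assoc, one_mul]
    obtain ⟨v, hv⟩ := hu.2
    ext x
    constructor
    · rintro ⟨y, hy, rfl⟩
      change u * y ∈ P'.M
      rw [h4]
      exact P'.M.smul_mem _ hy
    · intro hx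
      refine ⟨(↑v⁻¹ : R) • x, P'.M.smul_mem _ hx, ?_⟩
      change u * ((↑v⁻¹ : R) • x) = x
      rw [h4, ← hv, smul_smul, Units.mul_inv, one_smul]
  exact WPt.ext (h.trans h3)

end alg

section geom

variable {k : Type u} [Field k] {C : Scheme.{u}} {c : C ⟶ Spec (CommRingCat.of k)}
    {ε : SchemeHomOver (𝟙 (Spec (CommRingCat.of k))) c} {g : Geo c ε} (D : PicData g)
    (η : G g.e (R := k) g.a) (univG : G g.e (R := Buniv g.e) g.a)

/-- the universal class on the chart, twisted back -/
def leta : PicC (CR c (Buniv g.e)) :=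
  D.toPic _ univG * (D.toPic _ (bc (Algebra.ofId k (Buniv g.e)) η))⁻¹

variable {R S : Type u} [CommRing R] [Algebra k R] [CommRing S] [Algebra k S]

theorem map_leta (f : Buniv g.e →ₐ[k] R) : PicC.map (mR c f) (leta D η univG) =
    D.toPic R (bc f univG) * (D.toPic R (bc (Algebra.ofId k R) η))⁻¹ := by
  have h : f.comp (Algebra.ofId k (Buniv g.e)) = Algebra.ofId k R := Subsingleton.elim _ _
  rw [leta, map_mul, map_inv, ← D.nat, ← D.nat, bc_bc, h]

variable {univG} (hU : G.sub univG = (uniW g.e).M)

include hU in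
theorem sub_bc_univ (f : Buniv g.e →ₐ[k] R) : G.sub (bc f univG) = ((uniW g.e).map f).M := by
  rw [bc_sub, hU, WPt.map_M]

include hU in
/-- uniqueness of the classifying map -/
theorem cls_unique_aff {f f' : Buniv g.e →ₐ[k] R}
    (h : PicC.map (mR c f) (leta D η univG) = PicC.map (mR c f') (leta D η univG)) : f = f' := by
  rw [map_leta, map_leta] at h
  have h1 := mul_right_cancel h
  obtain ⟨u, hu, h2⟩ := (D.toPic_eq_iff _ _).1 h1
  rw [sub_bc_univ hU, sub_bc_univ hU] at h2
  have h3 := WPt_unique hu h2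
  rw [← cl_map f, ← cl_map f', h3]

include hU in
/-- existence of the classifying map -/
theorem exists_cls_aff {l : PicC (CR c R)} {M : G g.e (R := R) g.a} (hM : D.toPic R M = l)
    (hc : IsCompl (G.sub (M * bc (Algebra.ofId k R) η)) (LV R 1)) :
    ∃! f : Buniv g.e →ₐ[k] R, PicC.map (mR c f) (leta D η univG) = l := by
  obtain ⟨P, u, hu, hP⟩ := exists_toW (e := g.e) (G.sub (M * bc (Algebra.ofId k R) η))
    (fun x m hm => G.smul_mem (ex_mem_AR g.e R x) hm) hc
  have h1 : D.toPic R (M * bc (Algebra.ofId k R) η) = D.toPic R (bc P.cl univG) := by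
    rw [D.toPic_eq_iff]
    refine ⟨u, hu, ?_⟩
    rw [hP, sub_bc_univ hU, P.map_cl]
  have h2 : PicC.map (mR c P.cl) (leta D η univG) = l := by
    rw [map_leta, ← h1, map_mul, mul_inv_cancel_right, hM]
  exact ⟨P.cl, h2, fun f hf => cls_unique_aff D η hU (hf.trans h2.symm)⟩

include hU in
/-- the lattice of the universal class is good -/
theorem good_leta {f : Buniv g.e →ₐ[k] R} {M : G g.e (R := R) g.a}
    (hM : D.toPic R M = PicC.map (mR c f) (leta D η univG)) :
    IsCompl (G.sub (M * bc (Algebra.ofId k R) η)) (LV R 1) := by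
  rw [map_leta] at hM
  have h1 : D.toPic R (M * bc (Algebra.ofId k R) η) = D.toPic R (bc f univG) := by
    rw [map_mul, hM, inv_mul_cancel_right]
  rw [D.isCompl_iff h1, sub_bc_univ hU]
  exact WPt.compl _

end geom

end Fermat.Agent.J25.CLS
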