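import Mathlib
import Fermat.Agent.J25.RigCls

/-!
# Geometric fibres and the cut in terms of classes of cocycles
-/

set_option autoImplicit false
set_option linter.unusedSectionVars false
set_option linter.style.haveILetI false

noncomputable section

universe u

open CategoryTheory CategoryTheory.Limits AlgebraicGeometry AlgebraicGeometry.RelPicard
open NeronModelInfra TopologicalSpace

namespace Fermat.Agent.J25

/-! ## Local schemes -/

theorem PicC.eq_one_of_point {X : Scheme.{u}} (x₀ : X) (h : ∀ U : X.Opens, x₀ ∈ U → U = ⊤)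
    (ℓ : PicC X) : ℓ = 1 := by
  obtain ⟨c, rfl⟩ := PicC.mk_surjective ℓ
  have h0 : ∀ V : X.Opens, V ≤ c.U x₀ := fun V => by
    rw [h _ (c.mem x₀)]
    exact le_top
  refine PicC.mk_eq_one.mpr ⟨fun x => c.gg x₀ x (h0 _) le_rfl, fun x y V hx hy => ?_⟩
  rw [Coc.ru_gg, Coc.ru_gg, Coc.gg_inv]
  exact (c.gg_mul x x₀ y hx (h0 _) hy).symm

theorem PicC.spec_local (R : Type u) [CommRing R] [IsLocalRing R]
    (ℓ : PicC (Spec (CommRingCat.of R))) : ℓ = 1 := by
  refine PicC.eq_one_of_point (X := Spec (CommRingCat.of R)) (IsLocalRing.closedPoint R)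
    (fun U hU => ?_) ℓ
  rw [eq_top_iff]
  intro x _
  exact (IsLocalRing.specializes_closedPoint x).mem_open U.2 hU

instance (R : Type u) [CommRing R] [IsLocalRing R] :
    Subsingleton (PicC (Spec (CommRingCat.of R))) :=
  ⟨fun a b => (PicC.spec_local R a).trans (PicC.spec_local R b).symm⟩

/-! ## Pullback of classes which are algebraically equivalent to zero -/

theorem AEZ.map {k : Type u} [Field k] {A A' : Scheme.{u}} {a : A ⟶ Spec (CommRingCat.of k)}
    {a' : A' ⟶ Spec (CommRingCat.of k)} (e : A' ⟶ A) (he : e ≫ a = a') {ℓ : PicC A}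
    (h : AEZ a ℓ) : AEZ a' (PicC.map e ℓ) := by
  obtain ⟨L, hL, rfl⟩ := cls_surj ℓ
  rw [← isAlgEquivZero_iff] at h
  rw [← cls_pullback e hL (hL.pullback e), ← isAlgEquivZero_iff]
  exact h.pullback e he

theorem AEZ.iso {k : Type u} [Field k] {A A' : Scheme.{u}} {a : A ⟶ Spec (CommRingCat.of k)}
    {a' : A' ⟶ Spec (CommRingCat.of k)} (e : A' ≅ A) (he : e.hom ≫ a = a') {ℓ : PicC A} :
    AEZ a' (PicC.map e.hom ℓ) ↔ AEZ a ℓ := by
  refine ⟨fun h => ?_, AEZ.map e.hom he⟩
  have h1 := h.map e.inv (a' := a) (by rw [← he, Iso.inv_hom_id_assoc])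
  rwa [← PicC.map_comp_apply, Iso.inv_hom_id, PicC.map_id_apply] at h1

section

variable {R : Type u} [CommRing R] {C T : Scheme.{u}} (c : C ⟶ Spec (CommRingCat.of R))
  (ε : SchemeHomOver (𝟙 (Spec (CommRingCat.of R))) c) (t : T ⟶ Spec (CommRingCat.of R))
  {K : Type u} [Field K]

theorem fibIso_fst {Z : Scheme.{u}} (s : Z ⟶ T) :
    (pullbackLeftPullbackSndIso c t s).hom ≫
      baseChangeSnd c (⟨s, rfl⟩ : SchemeHomOver (s ≫ t) t) =
    pullback.fst (pullback.snd c t) s := by
  apply pullback.hom_ext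
  · simp only [baseChangeSnd, Category.assoc, pullback.lift_fst, Category.comp_id,
      pullbackLeftPullbackSndIso_hom_fst]
  · simp only [baseChangeSnd, Category.assoc, pullback.lift_snd]
    rw [pullbackLeftPullbackSndIso_hom_snd_assoc, pullback.condition]

/-- **the geometric fibres** -/
theorem aez_fibreAt (s : Spec (CommRingCat.of K) ⟶ T) (ℓ : PicC (pullback c t)) :
    AEZ (fibreAt c t s) (PicC.map (pullback.fst (pullback.snd c t) s) ℓ) ↔
      AEZ (pullback.snd c (s ≫ t))
        (PicC.map (baseChangeSnd c (⟨s, rfl⟩ : SchemeHomOver (s ≫ t) t)) ℓ) := by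
  rw [← fibIso_fst, PicC.map_comp_apply]
  exact AEZ.iso _ (pullbackLeftPullbackSndIso_hom_snd c t s)

variable {c t}

/-- a point over `𝟙`, seen over the base -/
def ovr {T' : Scheme.{u}} {h : T' ⟶ Spec (CommRingCat.of K)}
    (s : Spec (CommRingCat.of K) ⟶ Spec (CommRingCat.of R))
    (t₀ : SchemeHomOver (𝟙 (Spec (CommRingCat.of K))) h) : SchemeHomOver s (h ≫ s) :=
  ⟨t₀.1, by rw [← Category.assoc, t₀.2, Category.id_comp]⟩

variable (c)

theorem ovr_comm {T' : Scheme.{u}} {h : T' ⟶ Spec (CommRingCat.of K)}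
    (s : Spec (CommRingCat.of K) ⟶ Spec (CommRingCat.of R))
    (t₀ : SchemeHomOver (𝟙 (Spec (CommRingCat.of K))) h) :
    baseChangeSnd (pullback.snd c s) t₀ ≫ (pullbackLeftPullbackSndIso c s h).hom =
      pullback.fst (pullback.snd c s) (𝟙 _) ≫ baseChangeSnd c (ovr s t₀) := by
  apply pullback.hom_ext
  · simp only [baseChangeSnd, Category.assoc, pullback.lift_fst, Category.comp_id,
      pullbackLeftPullbackSndIso_hom_fst, pullback.lift_fst_assoc, Category.id_comp]
  · simp only [baseChangeSnd, Category.assoc, pullback.lift_snd, ovr,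
      pullbackLeftPullbackSndIso_hom_snd]
    rw [← Category.assoc, pullback.condition, Category.assoc, Category.id_comp]

/-- **algebraic equivalence to zero on a fibre** -/
theorem aez_iff (s : Spec (CommRingCat.of K) ⟶ Spec (CommRingCat.of R))
    (ℓ : PicC (pullback c s)) :
    AEZ (pullback.snd c s) ℓ ↔
      ∃ (T' : Scheme.{u}) (h : T' ⟶ Spec (CommRingCat.of K)) (_ : LocallyOfFiniteType h)
        (_ : GeometricallyIntegral h) (m : PicC (pullback c (h ≫ s)))
        (t₀ t₁ : SchemeHomOver (𝟙 (Spec (CommRingCat.of K))) h),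
        PicC.map (baseChangeSnd c (ovr s t₀)) m = 1 ∧
        PicC.map (baseChangeSnd c (ovr s t₁)) m = ℓ := by
  have hinj : Function.Injective
      (PicC.map (pullback.fst (pullback.snd c s) (𝟙 (Spec (CommRingCat.of K))))) := by
    intro x y hxy
    have h1 := congrArg (PicC.map
      (inv (pullback.fst (pullback.snd c s) (𝟙 (Spec (CommRingCat.of K)))))) hxy
    rwa [← PicC.map_comp_apply, ← PicC.map_comp_apply, IsIso.inv_hom_id, PicC.map_id_apply,
      PicC.map_id_apply] at h1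
  have key : ∀ (T' : Scheme.{u}) (h : T' ⟶ Spec (CommRingCat.of K))
      (t₀ : SchemeHomOver (𝟙 (Spec (CommRingCat.of K))) h) (m : PicC (pullback c (h ≫ s))),
      PicC.map (pullback.fst (pullback.snd c s) (𝟙 _)) (PicC.map (baseChangeSnd c (ovr s t₀)) m) =
        PicC.map (baseChangeSnd (pullback.snd c s) t₀)
          (PicC.map (pullbackLeftPullbackSndIso c s h).hom m) := by
    intro T' h t₀ m
    rw [← PicC.map_comp_apply, ← PicC.map_comp_apply, ovr_comm]
  constructor
  · rintro ⟨T', h, h1, h2, m, t₀, t₁, h3, h4⟩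
    have hm : PicC.map (pullbackLeftPullbackSndIso c s h).hom
        (PicC.map (pullbackLeftPullbackSndIso c s h).inv m) = m := by
      rw [← PicC.map_comp_apply, Iso.hom_inv_id, PicC.map_id_apply]
    refine ⟨T', h, h1, h2, PicC.map (pullbackLeftPullbackSndIso c s h).inv m, t₀, t₁,
      hinj ?_, hinj ?_⟩
    · rw [key, hm, h3, map_one]
    · rw [key, hm, h4]
  · rintro ⟨T', h, h1, h2, m, t₀, t₁, h3, h4⟩
    refine ⟨T', h, h1, h2, PicC.map (pullbackLeftPullbackSndIso c s h).hom m, t₀, t₁, ?_, ?_⟩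
    · rw [← key, h3, map_one]
    · rw [← key, h4]

theorem rigSection_snd (t : T ⟶ Spec (CommRingCat.of R)) :
    rigSection c t ε ≫ pullback.snd c t = 𝟙 T := by
  simp only [rigSection, pullback.lift_snd]

theorem baseChangeSnd_snd {T' : Scheme.{u}} {t : T ⟶ Spec (CommRingCat.of R)}
    {t' : T' ⟶ Spec (CommRingCat.of R)} (ψ : SchemeHomOver t' t) :
    baseChangeSnd c ψ ≫ pullback.snd c t = pullback.snd c t' ≫ ψ.1 := by
  simp only [baseChangeSnd, pullback.lift_snd]

/-- algebraic equivalence to zero on a fibre, with a rigidified family -/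
def DZ (s : Spec (CommRingCat.of K) ⟶ Spec (CommRingCat.of R)) (ℓ : PicC (pullback c s)) : Prop :=
  ∃ (T' : Scheme.{u}) (h : T' ⟶ Spec (CommRingCat.of K)) (_ : LocallyOfFiniteType h)
    (_ : GeometricallyIntegral h) (m : PicC (pullback c (h ≫ s)))
    (t₀ t₁ : SchemeHomOver (𝟙 (Spec (CommRingCat.of K))) h),
    PicC.map (rigSection c (h ≫ s) ε) m = 1 ∧
    PicC.map (baseChangeSnd c (ovr s t₀)) m = 1 ∧
    PicC.map (baseChangeSnd c (ovr s t₁)) m = ℓ

/-- **algebraic equivalence to zero on a fibre: the family may be rigidified** -/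
theorem aez_iff_dz (s : Spec (CommRingCat.of K) ⟶ Spec (CommRingCat.of R))
    (ℓ : PicC (pullback c s)) : AEZ (pullback.snd c s) ℓ ↔ DZ c ε s ℓ := by
  rw [aez_iff]
  constructor
  · rintro ⟨T', h, h1, h2, m, t₀, t₁, h3, h4⟩
    have key : ∀ t₀ : SchemeHomOver (𝟙 (Spec (CommRingCat.of K))) h,
        PicC.map (baseChangeSnd c (ovr s t₀)) (PicC.map (pullback.snd c (h ≫ s))
          (PicC.map (rigSection c (h ≫ s) ε) m)) = 1 := by
      intro t₀
      rw [← PicC.map_comp_apply, baseChangeSnd_snd, PicC.map_comp_apply,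
        PicC.spec_local K (PicC.map _ _), map_one]
    refine ⟨T', h, h1, h2, m * (PicC.map (pullback.snd c (h ≫ s))
      (PicC.map (rigSection c (h ≫ s) ε) m))⁻¹, t₀, t₁, ?_, ?_, ?_⟩
    · rw [map_mul, map_inv, ← PicC.map_comp_apply, rigSection_snd, PicC.map_id_apply,
        mul_inv_cancel]
    · rw [map_mul, map_inv, key, h3, inv_one, mul_one]
    · rw [map_mul, map_inv, key, h4, inv_one, mul_one]
  · rintro ⟨T', h, h1, h2, m, t₀, t₁, -, h3, h4⟩
    exact ⟨T', h, h1, h2, m, t₀, t₁, h3, h4⟩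

end

/-- **the cut in terms of classes** -/
theorem fibrewise_iff_dz {R : Type u} [CommRing R] {C T : Scheme.{u}}
    {c : C ⟶ Spec (CommRingCat.of R)} {ε : SchemeHomOver (𝟙 (Spec (CommRingCat.of R))) c}
    {t : T ⟶ Spec (CommRingCat.of R)} (M : RigidifiedLineBundle c ε t) :
    FibrewiseAlgEquivZero M ↔ ∀ (K : Type u) [Field K] [IsAlgClosed K]
      (s : Spec (CommRingCat.of K) ⟶ T),
      DZ c ε (s ≫ t) (PicC.map (baseChangeSnd c (⟨s, rfl⟩ : SchemeHomOver (s ≫ t) t))
        (rcls M)) := by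
  rw [fibrewise_iff]
  have h : ∀ (K : Type u) [Field K] (s : Spec (CommRingCat.of K) ⟶ T),
      AEZ (fibreAt c t s) (PicC.map (pullback.fst (pullback.snd c t) s) (rcls M)) ↔
      DZ c ε (s ≫ t) (PicC.map (baseChangeSnd c (⟨s, rfl⟩ : SchemeHomOver (s ≫ t) t))
        (rcls M)) := fun K _ s => (aez_fibreAt c t s _).trans (aez_iff_dz c ε _ _)
  exact ⟨fun H K _ _ s => (h K s).mp (H K s), fun H K _ _ s => (h K s).mpr (H K s)⟩

end Fermat.Agent.J25
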