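import Fermat.Agent.J25.Hub

/-!
# Base change of lattices over `A_R`

For `M ∈ G(R)` the map `T ⊗[R] M → T((z))` is injective, with image the base change of `M`;
`M` is a projective `R`-module; the principal parts.
-/

set_option autoImplicit false

noncomputable section

namespace Fermat.Agent.J25.KB

attribute [-instance] HahnSeries.powerSeriesAlgebra

open HahnSeries
open scoped TensorProduct

universe u

section Lmap

variable (R T : Type u) [CommRing R] [CommRing T] [Algebra R T]

/-- the coefficientwise map, as a linear map -/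
def lmL : LaurentSeries R →ₗ[R] LaurentSeries T where
  toFun x := lmap (algebraMap R T) x
  map_add' x y := map_add _ x y
  map_smul' r x := by
    rw [lmap_smul]
    ext i
    rw [HahnSeries.coeff_smul, RingHom.id_apply, HahnSeries.coeff_smul, smul_eq_mul,
      Algebra.smul_def]

variable {R}

theorem lmL_apply (x : LaurentSeries R) : lmL R T x = lmap (algebraMap R T) x := rfl

variable {N : Type*} [AddCommGroup N] [Module R N]

/-- the base change of a map to the Laurent series -/
def bm (i : N →ₗ[R] LaurentSeries R) : T ⊗[R] N →ₗ[T] LaurentSeries T :=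
  (lmL R T ∘ₗ i).liftBaseChange T

@[simp] theorem bm_tmul (i : N →ₗ[R] LaurentSeries R) (t : T) (x : N) :
    bm T i (t ⊗ₜ x) = t • lmap (algebraMap R T) (i x) := rfl

theorem range_bm (i : N →ₗ[R] LaurentSeries R) :
    LinearMap.range (bm T i) =
      Submodule.span T (lmap (algebraMap R T) '' (LinearMap.range i : Set (LaurentSeries R))) := by
  rw [bm, LinearMap.range_liftBaseChange]
  congr 1
  ext x
  constructor
  · rintro ⟨y, rfl⟩
    exact ⟨i y, ⟨y, rfl⟩, rfl⟩
  · rintro ⟨_, ⟨y, rfl⟩, rfl⟩
    exact ⟨y, rfl⟩

end Lmap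

variable {k : Type u} [Field k] {A : Type u} [CommRing A] [Algebra k A] {e : A →ₐ[k] LaurentSeries k}
  {R : Type u} [CommRing R] [Algebra k R]

section AR

variable (he : Function.Injective e)

variable (e R) in
/-- the inclusion of `A_R` -/
def inA : AR e R →ₗ[R] LaurentSeries R := (AR e R).val.toLinearMap

@[simp] theorem inA_apply (x : AR e R) : inA e R x = x := rfl

/-- `R ⊗ A ≃ A_R` -/
def eqA : R ⊗[k] A ≃ₗ[R] AR e R :=
  (AlgEquiv.ofInjective (exR e R) (exR_injective e he)).toLinearEquiv

theorem inA_eqA (x : R ⊗[k] A) : inA e R (eqA he x) = exR e R x := rfl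

include he in
/-- `A_R` is free over `R` -/
theorem free_AR : Module.Free R (AR e R) := Module.Free.of_equiv (eqA (R := R) he)

variable (T : Type u) [CommRing T] [Algebra k T] [Algebra R T] [IsScalarTower k R T]

theorem lmap_exR' (x : R ⊗[k] A) (t : T) :
    t • lmap (algebraMap R T) (exR e R x) =
      exR e T (TensorProduct.AlgebraTensorModule.cancelBaseChange k R T T A (t ⊗ₜ x)) := by
  induction x using TensorProduct.induction_on with
  | zero => simp
  | tmul r y =>
    rw [exR_tmul, lmap_smul, TensorProduct.AlgebraTensorModule.cancelBaseChange_tmul, exR_tmul]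
    have h1 : lmap (algebraMap R T) (ex e R y) = ex e T y := by
      ext i
      rw [lmap_coeff, ex_coeff, ex_coeff, ← IsScalarTower.algebraMap_apply]
    rw [h1, smul_smul]
    congr 1
    rw [Algebra.smul_def, mul_comm]
  | add x y hx hy => rw [map_add, map_add, smul_add, hx, hy, TensorProduct.tmul_add, map_add,
      map_add]

include he in
/-- `T ⊗ A_R` embeds in the Laurent series -/
theorem bm_inA_injective : Function.Injective (bm T (inA e R)) := by
  have h1 : ∀ z : T ⊗[R] (R ⊗[k] A), bm T (inA e R) ((eqA he).baseChange R T _ _ z) =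
      exR e T (TensorProduct.AlgebraTensorModule.cancelBaseChange k R T T A z) := by
    intro z
    induction z using TensorProduct.induction_on with
    | zero => simp
    | tmul t x =>
      rw [LinearEquiv.baseChange_tmul, bm_tmul, inA_eqA, lmap_exR']
    | add x y hx hy => rw [map_add, map_add, hx, hy, map_add, map_add]
  intro x y hxy
  obtain ⟨x, rfl⟩ := ((eqA he).baseChange R T _ _).surjective x
  obtain ⟨y, rfl⟩ := ((eqA he).baseChange R T _ _).surjective y
  rw [h1, h1] at hxy
  rw [(TensorProduct.AlgebraTensorModule.cancelBaseChange k R T T A).injective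
    (exR_injective e he hxy)]

end AR

section G

variable {a : A}

/-- `1` as a sum of products -/
theorem exists_dual (M : G e (R := R) a) : ∃ (n : ℕ) (m m' : Fin n → LaurentSeries R),
    (∀ i, m i ∈ G.sub M) ∧ (∀ i, m' i ∈ G.sub M⁻¹) ∧ ∑ i, m' i * m i = 1 := by
  have h1 : (1 : LaurentSeries R) ∈ G.sub M⁻¹ * G.sub M := by
    rw [← G.sub_mul, inv_mul_cancel, G.mem_one]
    exact one_mem _
  refine Submodule.mul_induction_on (C := fun x => ∃ (n : ℕ) (m m' : Fin n → LaurentSeries R),
    (∀ i, m i ∈ G.sub M) ∧ (∀ i, m' i ∈ G.sub M⁻¹) ∧ ∑ i, m' i * m i = x) h1 ?_ ?_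
  · intro x hx y hy
    refine ⟨1, fun _ => y, fun _ => x, fun _ => hy, fun _ => hx, ?_⟩
    simp
  · rintro x y ⟨n, m, m', h1, h2, h3⟩ ⟨p, q, q', h4, h5, h6⟩
    refine ⟨n + p, Fin.append m q, Fin.append m' q', ?_, ?_, ?_⟩
    · intro i
      induction i using Fin.addCases with
      | left i => rw [Fin.append_left]; exact h1 i
      | right i => rw [Fin.append_right]; exact h4 i
    · intro i
      induction i using Fin.addCases with
      | left i => rw [Fin.append_left]; exact h2 i
      | right i => rw [Fin.append_right]; exact h5 i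
    · rw [Fin.sum_univ_add]
      simp only [Fin.append_left, Fin.append_right, h3, h6]

/-- multiplication by an element of `M` -/
def mulM (M : G e (R := R) a) (m : LaurentSeries R) (hm : m ∈ G.sub M) : AR e R →ₗ[R] G.sub M where
  toFun x := ⟨x * m, G.smul_mem x.2 hm⟩
  map_add' x y := by ext1; exact add_mul _ _ _
  map_smul' r x := by ext1; exact smul_mul_assoc _ _ _

@[simp] theorem coe_mulM (M : G e (R := R) a) (m : LaurentSeries R) (hm : m ∈ G.sub M)
    (x : AR e R) : (mulM M m hm x : LaurentSeries R) = x * m := rfl

/-- multiplication by an element of the inverse of `M` -/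
def mulI (M : G e (R := R) a) (m : LaurentSeries R) (hm : m ∈ G.sub M⁻¹) :
    G.sub M →ₗ[R] AR e R where
  toFun x := ⟨m * x, by
    rw [← G.mem_one (a := a), ← inv_mul_cancel M]
    exact G.mul_mem_mul hm x.2⟩
  map_add' x y := by ext1; exact mul_add _ _ _
  map_smul' r x := by ext1; exact mul_smul_comm _ _ _

@[simp] theorem coe_mulI (M : G e (R := R) a) (m : LaurentSeries R) (hm : m ∈ G.sub M⁻¹)
    (x : G.sub M) : (mulI M m hm x : LaurentSeries R) = m * x := rfl

theorem sum_mulM_mulI (M : G e (R := R) a) {n : ℕ} {m m' : Fin n → LaurentSeries R}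
    (hm : ∀ i, m i ∈ G.sub M) (hm' : ∀ i, m' i ∈ G.sub M⁻¹) (h1 : ∑ i, m' i * m i = 1) :
    ∑ i, mulM M (m i) (hm i) ∘ₗ mulI M (m' i) (hm' i) = LinearMap.id := by
  ext x : 2
  rw [LinearMap.sum_apply, AddSubmonoidClass.coe_finsetSum]
  simp only [LinearMap.comp_apply, coe_mulM, coe_mulI, LinearMap.id_apply]
  have : ∀ i, m' i * (x : LaurentSeries R) * m i = (m' i * m i) * x := fun i => by ring
  simp only [this]
  rw [← Finset.sum_mul, h1, one_mul]

/-- the lattices are projective over the base -/
theorem projective_sub (he : Function.Injective e) (M : G e (R := R) a) :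
    Module.Projective R (G.sub M) := by
  obtain ⟨n, m, m', hm, hm', h1⟩ := exists_dual M
  have := free_AR (R := R) he
  refine Module.Projective.of_split (P := G.sub M) (M := Fin n → AR e R)
    (LinearMap.pi fun i => mulI M (m' i) (hm' i))
    (∑ i, mulM M (m i) (hm i) ∘ₗ LinearMap.proj i) ?_
  rw [← sum_mulM_mulI M hm hm' h1]
  ext x : 2
  simp only [LinearMap.comp_apply, LinearMap.sum_apply, LinearMap.proj_apply, LinearMap.pi_apply]

variable (T : Type u) [CommRing T] [Algebra k T] [Algebra R T] [IsScalarTower k R T]

/-- **(K4)** `T ⊗ M` embeds in the Laurent series -/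
theorem bm_sub_injective (he : Function.Injective e) (M : G e (R := R) a) :
    Function.Injective (bm T (G.sub M).subtype) := by
  obtain ⟨n, m, m', hm, hm', h1⟩ := exists_dual M
  rw [injective_iff_map_eq_zero]
  intro z hz
  have h2 : ∀ i, (mulI M (m' i) (hm' i)).baseChange T z = 0 := by
    intro i
    apply bm_inA_injective he T
    rw [map_zero]
    have h3 : ∀ y : T ⊗[R] G.sub M, bm T (inA e R) ((mulI M (m' i) (hm' i)).baseChange T y) =
        lmap (algebraMap R T) (m' i) * bm T (G.sub M).subtype y := by
      intro y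
      induction y using TensorProduct.induction_on with
      | zero => simp
      | tmul t x =>
        rw [LinearMap.baseChange_tmul, bm_tmul, bm_tmul, inA_apply, coe_mulI, map_mul,
          mul_smul_comm]
        rfl
      | add x y hx hy => rw [map_add, map_add, hx, hy, map_add, mul_add]
    rw [h3, hz, mul_zero]
  have h4 : z = ∑ i, (mulM M (m i) (hm i)).baseChange T
      ((mulI M (m' i) (hm' i)).baseChange T z) := by
    have h5 := congrArg (fun f => f.baseChange T z) (sum_mulM_mulI M hm hm' h1)
    beta_reduce at h5
    rw [LinearMap.baseChange_id, LinearMap.id_apply] at h5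
    rw [← h5]
    have h6 : ∀ (s : Finset (Fin n)), (∑ i ∈ s, mulM M (m i) (hm i) ∘ₗ
        mulI M (m' i) (hm' i)).baseChange T z = ∑ i ∈ s, (mulM M (m i) (hm i)).baseChange T
      ((mulI M (m' i) (hm' i)).baseChange T z) := by
      classical
      intro s
      induction s using Finset.induction_on with
      | empty => simp
      | insert i s hi ih =>
        rw [Finset.sum_insert hi, Finset.sum_insert hi, LinearMap.baseChange_add,
          LinearMap.add_apply, ih, LinearMap.baseChange_comp]
        rfl
    conv_rhs => rw [h5]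
    exact h6 _
  rw [h4]
  refine Finset.sum_eq_zero fun i _ => ?_
  rw [h2, map_zero]

variable (M : G e (R := R) a)

theorem range_bm_sub : LinearMap.range (bm T (G.sub M).subtype) =
    G.sub (bc (IsScalarTower.toAlgHom k R T) M) := by
  rw [range_bm, bc_sub, Submodule.range_subtype]
  rfl

/-- **(K4)** base change of lattices: `T ⊗ M ≃ M_T` -/
def bcE (he : Function.Injective e) :
    T ⊗[R] G.sub M ≃ₗ[T] G.sub (bc (IsScalarTower.toAlgHom k R T) M) :=
  (LinearEquiv.ofInjective _ (bm_sub_injective T he M)).trans
    (LinearEquiv.ofEq _ _ (range_bm_sub T M))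

theorem coe_bcE (he : Function.Injective e) (z : T ⊗[R] G.sub M) :
    (bcE T M he z : LaurentSeries T) = bm T (G.sub M).subtype z := rfl

@[simp] theorem coe_bcE_tmul (he : Function.Injective e) (t : T) (x : G.sub M) :
    (bcE T M he (t ⊗ₜ x) : LaurentSeries T) = t • lmap (algebraMap R T) (x : LaurentSeries R) :=
  rfl

end G

section PP

variable (R : Type u) [CommRing R]

/-- the principal part: the coefficients below `n` -/
def pp (n : ℤ) : LaurentSeries R →ₗ[R] (ℕ →₀ R) where
  toFun x := Finsupp.onFinset (Finset.range (n - 1 - x.order).toNat.succ)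
    (fun j => x.coeff (n - 1 - j)) (fun j hj => by
      rw [Finset.mem_range]
      by_contra h
      refine hj (coeff_eq_zero_of_lt_order ?_)
      have := Int.self_le_toNat (n - 1 - x.order)
      omega)
  map_add' x y := by
    ext j
    simp
  map_smul' r x := by
    ext j
    simp

variable {R}

@[simp] theorem pp_apply (n : ℤ) (x : LaurentSeries R) (j : ℕ) :
    pp R n x j = x.coeff (n - 1 - j) := rfl

theorem ker_pp (n : ℤ) : LinearMap.ker (pp R n) = LV R n := by
  ext x
  rw [LinearMap.mem_ker, mem_LV]
  constructor
  · intro h i hi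
    have h1 := DFunLike.congr_fun h (n - 1 - i).toNat
    rw [pp_apply, Finsupp.zero_apply] at h1
    rw [← h1]
    congr 1
    omega
  · intro h
    ext j
    rw [pp_apply, Finsupp.zero_apply]
    exact h _ (by omega)

theorem pp_single (n : ℤ) (j : ℕ) (r : R) : pp R n (single (n - 1 - j) r) = Finsupp.single j r := by
  ext i
  rw [pp_apply, coeff_single, Finsupp.single_apply]
  have : n - 1 - (i : ℤ) = n - 1 - (j : ℤ) ↔ j = i := by omega
  simp only [this]

theorem pp_surjective (n : ℤ) : Function.Surjective (pp R n) := by
  rw [← LinearMap.range_eq_top, eq_top_iff]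
  intro y _
  induction y using Finsupp.induction_linear with
  | zero => exact zero_mem _
  | add x y hx hy => exact add_mem (hx trivial) (hy trivial)
  | single j r => exact ⟨_, pp_single n j r⟩

/-- the principal parts of the elements of a submodule -/
def ppM (N : Submodule R (LaurentSeries R)) (n : ℤ) : N →ₗ[R] (ℕ →₀ R) :=
  pp R n ∘ₗ N.subtype

theorem ppM_apply (N : Submodule R (LaurentSeries R)) (n : ℤ) (x : N) :
    ppM N n x = pp R n x := rfl

theorem range_ppM (N : Submodule R (LaurentSeries R)) (n : ℤ) :
    LinearMap.range (ppM N n) = N.map (pp R n) := by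
  rw [ppM, LinearMap.range_comp, Submodule.range_subtype]

theorem comap_range_ppM (N : Submodule R (LaurentSeries R)) (n : ℤ) :
    (LinearMap.range (ppM N n)).comap (pp R n) = N ⊔ LV R n := by
  rw [range_ppM, Submodule.comap_map_eq, ker_pp]

/-- the cokernel of the principal part map -/
def cokE (N : Submodule R (LaurentSeries R)) (n : ℤ) :
    (LaurentSeries R ⧸ (N ⊔ LV R n)) ≃ₗ[R] ((ℕ →₀ R) ⧸ LinearMap.range (ppM N n)) :=
  (Submodule.quotEquivOfEq _ _ (comap_range_ppM N n).symm).trans
    (LinearEquiv.ofBijective
      (Submodule.mapQ _ _ (pp R n) le_rfl) (by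
        constructor
        · rw [← LinearMap.ker_eq_bot, Submodule.ker_mapQ, Submodule.mkQ_map_self]
        · rw [← LinearMap.range_eq_top, Submodule.range_mapQ, LinearMap.range_eq_top.mpr
            (pp_surjective n), Submodule.map_top, Submodule.range_mkQ]))

theorem surjective_ppM_iff (N : Submodule R (LaurentSeries R)) (n : ℤ) :
    Function.Surjective (ppM N n) ↔ N ⊔ LV R n = ⊤ := by
  rw [← LinearMap.range_eq_top, ← comap_range_ppM]
  constructor
  · intro h
    rw [h, Submodule.comap_top]
  · intro h
    rw [← Submodule.map_comap_eq_of_surjective (pp_surjective n) (LinearMap.range (ppM N n)), h,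
      Submodule.map_top, LinearMap.range_eq_top.mpr (pp_surjective n)]

/-- the kernel of the principal part map -/
def kerE (N : Submodule R (LaurentSeries R)) (n : ℤ) :
    LinearMap.ker (ppM N n) ≃ₗ[R] (N ⊓ LV R n : Submodule R (LaurentSeries R)) where
  toFun x := ⟨x.1, x.1.2, by
    have := x.2
    rw [LinearMap.mem_ker, ppM_apply, ← LinearMap.mem_ker, ker_pp] at this
    exact this⟩
  invFun x := ⟨⟨x, x.2.1⟩, by
    rw [LinearMap.mem_ker, ppM_apply, ← LinearMap.mem_ker, ker_pp]
    exact x.2.2⟩
  map_add' x y := rfl
  map_smul' r x := rfl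
  left_inv x := rfl
  right_inv x := rfl

theorem injective_ppM_iff (N : Submodule R (LaurentSeries R)) (n : ℤ) :
    Function.Injective (ppM N n) ↔ N ⊓ LV R n = ⊥ := by
  rw [← LinearMap.ker_eq_bot, ← Submodule.subsingleton_iff_eq_bot,
    ← Submodule.subsingleton_iff_eq_bot]
  exact (kerE N n).toEquiv.subsingleton_congr

theorem bijective_ppM_iff (N : Submodule R (LaurentSeries R)) (n : ℤ) :
    Function.Bijective (ppM N n) ↔ IsCompl N (LV R n) := by
  rw [Function.Bijective, injective_ppM_iff, surjective_ppM_iff, isCompl_iff, disjoint_iff,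
    codisjoint_iff]

end PP

section Square

variable (T : Type u) [CommRing T] [Algebra k T] [Algebra R T] [IsScalarTower k R T] {a : A}
  (M : G e (R := R) a)

/-- the base change of the principal part map is the principal part map -/
theorem ppM_bcE (he : Function.Injective e) (n : ℤ) (z : T ⊗[R] G.sub M) :
    ppM (G.sub (bc (IsScalarTower.toAlgHom k R T) M)) n (bcE T M he z) =
      TensorProduct.finsuppScalarRight R T T ℕ ((ppM (G.sub M) n).baseChange T z) := by
  induction z using TensorProduct.induction_on with
  | zero => simp only [map_zero]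
  | tmul t x =>
    ext j
    rw [LinearMap.baseChange_tmul, TensorProduct.finsuppScalarRight_apply_tmul_apply, ppM_apply,
      ppM_apply, pp_apply, pp_apply, coe_bcE_tmul, HahnSeries.coeff_smul, lmap_coeff, smul_eq_mul,
      Algebra.smul_def, mul_comm]
  | add x y hx hy => simp only [map_add, hx, hy]

theorem injective_ppM_bc_iff (he : Function.Injective e) (n : ℤ) :
    Function.Injective (ppM (G.sub (bc (IsScalarTower.toAlgHom k R T) M)) n) ↔
      Function.Injective ((ppM (G.sub M) n).baseChange T) := by
  have h1 : (TensorProduct.finsuppScalarRight R T T ℕ) ∘ ((ppM (G.sub M) n).baseChange T) =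
      (ppM (G.sub (bc (IsScalarTower.toAlgHom k R T) M)) n) ∘ (bcE T M he) := by
    funext z
    exact (ppM_bcE T M he n z).symm
  have h2 : Function.Injective ((TensorProduct.finsuppScalarRight R T T ℕ) ∘
      ((ppM (G.sub M) n).baseChange T)) ↔ Function.Injective ((ppM (G.sub M) n).baseChange T) :=
    (TensorProduct.finsuppScalarRight R T T ℕ).injective.of_comp_iff _
  rw [← h2, h1]
  exact (Function.Injective.of_comp_iff' _ (bcE T M he).bijective).symm

theorem surjective_ppM_bc_iff (he : Function.Injective e) (n : ℤ) :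
    Function.Surjective (ppM (G.sub (bc (IsScalarTower.toAlgHom k R T) M)) n) ↔
      Function.Surjective ((ppM (G.sub M) n).baseChange T) := by
  have h1 : (TensorProduct.finsuppScalarRight R T T ℕ) ∘ ((ppM (G.sub M) n).baseChange T) =
      (ppM (G.sub (bc (IsScalarTower.toAlgHom k R T) M)) n) ∘ (bcE T M he) := by
    funext z
    exact (ppM_bcE T M he n z).symm
  have h2 : Function.Surjective ((TensorProduct.finsuppScalarRight R T T ℕ) ∘
      ((ppM (G.sub M) n).baseChange T)) ↔ Function.Surjective ((ppM (G.sub M) n).baseChange T) :=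
    Function.Surjective.of_comp_iff' (TensorProduct.finsuppScalarRight R T T ℕ).bijective _
  rw [← h2, h1]
  exact (Function.Surjective.of_comp_iff _ (bcE T M he).surjective).symm

theorem bijective_ppM_bc_iff (he : Function.Injective e) (n : ℤ) :
    Function.Bijective (ppM (G.sub (bc (IsScalarTower.toAlgHom k R T) M)) n) ↔
      Function.Bijective ((ppM (G.sub M) n).baseChange T) := by
  rw [Function.Bijective, Function.Bijective, injective_ppM_bc_iff T M he,
    surjective_ppM_bc_iff T M he]

end Square

end Fermat.Agent.J25.KB
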