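import Mathlib

/-!
# Local representability, elementary form
-/

set_option autoImplicit false

universe u

open CategoryTheory CategoryTheory.Limits AlgebraicGeometry Opposite

namespace Fermat.Agent.J25

/-- a contravariant functor on schemes over `S`, in elementary form -/
structure ZFun (S : Scheme.{u}) where
  obj : ∀ {T : Scheme.{u}}, (T ⟶ S) → Type u
  map : ∀ {T T' : Scheme.{u}} {t : T ⟶ S} {t' : T' ⟶ S} (g : T' ⟶ T), g ≫ t = t' →
    obj t → obj t'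
  map_id : ∀ {T : Scheme.{u}} {t : T ⟶ S} (l : obj t), map (𝟙 T) (Category.id_comp t) l = l
  map_comp : ∀ {T T' T'' : Scheme.{u}} {t : T ⟶ S} {t' : T' ⟶ S} {t'' : T'' ⟶ S}
    (g : T' ⟶ T) (hg : g ≫ t = t') (g' : T'' ⟶ T') (hg' : g' ≫ t' = t'') (l : obj t),
    map g' hg' (map g hg l) = map (g' ≫ g) (by rw [Category.assoc, hg, hg']) l

namespace ZFun

variable {S : Scheme.{u}} (F : ZFun S)

theorem map_id' {T : Scheme.{u}} {t t' : T ⟶ S} (h : 𝟙 T ≫ t = t') (l : F.obj t)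
    (l' : F.obj t') (hl : F.map (𝟙 T) h l = l') : (⟨t, l⟩ : Σ t : T ⟶ S, F.obj t) = ⟨t', l'⟩ := by
  have : t = t' := by rw [← h, Category.id_comp]
  subst this
  rw [F.map_id] at hl
  rw [hl]

theorem map_congr {T T' : Scheme.{u}} {t : T ⟶ S} {t' : T' ⟶ S} {g g' : T' ⟶ T}
    (h : g = g') (hg : g ≫ t = t') (hg' : g' ≫ t = t') (l : F.obj t) :
    F.map g hg l = F.map g' hg' l := by
  subst h
  rfl

/-- Zariski sheaf condition -/
structure IsSheaf : Prop where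
  sep : ∀ {T : Scheme.{u}} (t : T ⟶ S) {ι : Type u} (U : ι → T.Opens) (_ : ∀ y : T, ∃ i, y ∈ U i)
    (l l' : F.obj t), (∀ i, F.map (U i).ι rfl l = F.map (U i).ι rfl l') → l = l'
  glue : ∀ {T : Scheme.{u}} (t : T ⟶ S) {ι : Type u} (U : ι → T.Opens)
    (_ : ∀ y : T, ∃ i, y ∈ U i) (l : ∀ i, F.obj ((U i).ι ≫ t)),
    (∀ i j, F.map (T.homOfLE (inf_le_left : U i ⊓ U j ≤ U i)) (by simp) (l i) =
      F.map (t' := (U i ⊓ U j).ι ≫ t) (T.homOfLE (inf_le_right : U i ⊓ U j ≤ U j)) (by simp)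
        (l j)) →
    ∃ l₀ : F.obj t, ∀ i, F.map (U i).ι rfl l₀ = l i

/-- the functor on all schemes -/
def tot : Scheme.{u}ᵒᵖ ⥤ Type u where
  obj T := Σ t : T.unop ⟶ S, F.obj t
  map g := TypeCat.ofHom fun x => ⟨g.unop ≫ x.1, F.map g.unop rfl x.2⟩
  map_id T := TypeCat.homEquiv.injective <| funext fun x => by
    obtain ⟨t, l⟩ := x
    exact (F.map_id' (t' := 𝟙 T.unop ≫ t) (by simp) l _ rfl).symm
  map_comp {T T' T''} g g' := TypeCat.homEquiv.injective <| funext fun x => by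
    obtain ⟨t, l⟩ := x
    change (⟨(g ≫ g').unop ≫ t, F.map (g ≫ g').unop rfl l⟩ : Σ t : T''.unop ⟶ S, F.obj t) =
      ⟨g'.unop ≫ g.unop ≫ t, F.map g'.unop rfl (F.map g.unop rfl l)⟩
    refine F.map_id' (by simp) _ _ ?_
    rw [F.map_comp, F.map_comp]
    exact F.map_congr (by simp) _ _ l

theorem tot_map {T T' : Scheme.{u}} (g : T' ⟶ T) (x : Σ t : T ⟶ S, F.obj t) :
    F.tot.map g.op x = ⟨g ≫ x.1, F.map g rfl x.2⟩ := rfl

/-- equality of restrictions -/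
theorem eq_of_sigma {Z W : Scheme.{u}} {z z' : Z ⟶ S} {l : F.obj z} {l' : F.obj z'}
    (h : (⟨z, l⟩ : Σ t : Z ⟶ S, F.obj t) = ⟨z', l'⟩) {w : W ⟶ S} (a : W ⟶ Z)
    (ha : a ≫ z = w) (ha' : a ≫ z' = w) : F.map a ha l = F.map a ha' l' := by
  obtain ⟨rfl, h⟩ := Sigma.mk.inj_iff.1 h
  obtain rfl := eq_of_heq h
  rfl

theorem sigma_mk_eq {T : Scheme.{u}} {t t' : T ⟶ S} {l : F.obj t} {l' : F.obj t'}
    (ht : t = t') (hl : F.map (𝟙 T) (by rw [Category.id_comp, ht]) l = l') :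
    (⟨t, l⟩ : Σ t : T ⟶ S, F.obj t) = ⟨t', l'⟩ := F.map_id' _ l l' hl

/-- restrictions of equal elements, in terms of arbitrary morphisms -/
theorem map_eq_of_tot {X X' Z : Scheme.{u}} {x : Σ t : X ⟶ S, F.obj t}
    {x' : Σ t : X' ⟶ S, F.obj t} {g : Z ⟶ X} {g' : Z ⟶ X'}
    (h : F.tot.map g.op x = F.tot.map g'.op x') {z : Z ⟶ S} (hg : g ≫ x.1 = z)
    (hg' : g' ≫ x'.1 = z) : F.map g hg x.2 = F.map g' hg' x'.2 := by
  rw [tot_map, tot_map] at h
  have h1 := F.eq_of_sigma h (𝟙 Z) (w := z) (by rw [Category.id_comp, hg])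
    (by rw [Category.id_comp, hg'])
  rw [F.map_comp, F.map_comp] at h1
  rw [← F.map_congr (Category.id_comp g) (by rw [Category.id_comp, hg]) hg,
    ← F.map_congr (Category.id_comp g') (by rw [Category.id_comp, hg']) hg']
  exact h1

theorem IsSheaf.tot_aux (hF : F.IsSheaf) {T : Scheme.{u}} {ι : Type u} (X : ι → Scheme.{u})
    (f : ∀ i, X i ⟶ T) (U : ι → T.Opens) (hU : ∀ y, ∃ i, y ∈ U i)
    (e : ∀ i, (U i : Scheme.{u}) ⟶ X i) (he : ∀ i, e i ≫ f i = (U i).ι)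
    (d : ∀ i, X i ⟶ (U i : Scheme.{u})) (hd : ∀ i, d i ≫ (U i).ι = f i)
    (hde : ∀ i, d i ≫ e i = 𝟙 _) (x : ∀ i, Σ t : X i ⟶ S, F.obj t)
    (hx : ∀ i j Z (gi : Z ⟶ X i) (gj : Z ⟶ X j), gi ≫ f i = gj ≫ f j →
      F.tot.map gi.op (x i) = F.tot.map gj.op (x j)) (t : T ⟶ S) (ht : ∀ i, f i ≫ t = (x i).1) :
    ∃! l₀ : F.obj t, ∀ i, F.map (f i) (ht i) l₀ = (x i).2 := by
  have het : ∀ i, e i ≫ (x i).1 = (U i).ι ≫ t := fun i => by
    rw [← ht i, ← Category.assoc, he]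
  obtain ⟨l₀, hl₀⟩ := hF.glue t U hU (fun i => F.map (e i) (het i) (x i).2) (fun i j => by
      rw [F.map_comp, F.map_comp]
      refine F.map_eq_of_tot (hx i j _ _ _ ?_) _ _
      rw [Category.assoc, Category.assoc, he, he, Scheme.homOfLE_ι, Scheme.homOfLE_ι])
  have hkey : ∀ i, F.map (f i) (ht i) l₀ = (x i).2 := by
    intro i
    have h1 := congrArg (F.map (t' := (x i).1) (d i) (by rw [← Category.assoc, hd, ht])) (hl₀ i)
    rw [F.map_comp, F.map_comp] at h1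
    rw [F.map_congr (hd i) _ (ht i), F.map_congr (hde i) _ (Category.id_comp _), F.map_id] at h1
    exact h1
  refine ⟨l₀, hkey, fun l' hl' => ?_⟩
  refine hF.sep t U hU _ _ fun i => ?_
  rw [← F.map_congr (he i) (by rw [Category.assoc, ht, het]) rfl,
    ← F.map_congr (he i) (by rw [Category.assoc, ht, het]) rfl,
    ← F.map_comp (f i) (ht i) (e i) (het i), ← F.map_comp (f i) (ht i) (e i) (het i), hl', hkey]

theorem IsSheaf.tot_isSheafFor (hF : F.IsSheaf) {T : Scheme.{u}} (𝓤 : Scheme.OpenCover.{u} T) :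
    Presieve.IsSheafFor F.tot (Presieve.ofArrows 𝓤.X 𝓤.f) := by
  rw [Presieve.isSheafFor_arrows_iff]
  intro x hx
  -- the structure morphism
  obtain ⟨t, ht⟩ : ∃ t : T ⟶ S, ∀ i, 𝓤.f i ≫ t = (x i).1 := by
    refine ⟨𝓤.glueMorphisms (fun i => (x i).1) fun i j => ?_, fun i => 𝓤.ι_glueMorphisms _ _ _⟩
    exact congrArg Sigma.fst (hx i j _ (pullback.fst _ _) (pullback.snd _ _) pullback.condition)
  obtain ⟨U, hU⟩ : ∃ U : 𝓤.I₀ → T.Opens, ∀ i, U i = (𝓤.f i).opensRange := ⟨_, fun i => rfl⟩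
  have h1 : ∀ i, Set.range (U i).ι ⊆ Set.range (𝓤.f i) := fun i => by
    rw [hU, Scheme.Opens.range_ι]
    rfl
  have h2 : ∀ i, Set.range (𝓤.f i) ⊆ Set.range (U i).ι := fun i => by
    rw [hU, Scheme.Opens.range_ι]
    rfl
  obtain ⟨l₀, hl₀, huniq⟩ := hF.tot_aux F 𝓤.X 𝓤.f U
    (fun y => ⟨𝓤.idx y, by rw [hU]; exact 𝓤.covers y⟩)
    (fun i => IsOpenImmersion.lift (𝓤.f i) (U i).ι (h1 i))
    (fun i => IsOpenImmersion.lift_fac _ _ _)
    (fun i => IsOpenImmersion.lift (U i).ι (𝓤.f i) (h2 i))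
    (fun i => IsOpenImmersion.lift_fac _ _ _)
    (fun i => by
      rw [← cancel_mono (𝓤.f i), Category.assoc, IsOpenImmersion.lift_fac,
        IsOpenImmersion.lift_fac, Category.id_comp]) x hx t ht
  refine ⟨⟨t, l₀⟩, fun i => ?_, fun y hy => ?_⟩
  · rw [F.tot_map]
    refine F.sigma_mk_eq (ht i) ?_
    rw [F.map_comp, ← hl₀ i]
    exact F.map_congr (Category.id_comp _) _ _ _
  · obtain ⟨t', l'⟩ := y
    have ht' : t' = t := by
      refine 𝓤.hom_ext _ _ fun i => ?_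
      rw [ht i, ← hy i]
      rfl
    subst ht'
    congr 1
    refine huniq l' fun i => ?_
    have h3 := hy i
    rw [F.tot_map] at h3
    have h4 := F.eq_of_sigma h3 (𝟙 _) (w := (x i).1) (by rw [Category.id_comp]; exact ht i)
      (Category.id_comp _)
    rw [F.map_id, F.map_comp] at h4
    rw [← h4]
    exact F.map_congr (Category.id_comp _).symm _ _ _

theorem IsSheaf.tot_isSheaf (hF : F.IsSheaf) :
    Presieve.IsSheaf Scheme.zariskiTopology F.tot := by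
  rw [Scheme.zariskiTopology, Scheme.grothendieckTopology,
    Precoverage.isSheaf_toGrothendieck_iff_of_isStableUnderBaseChange_of_small.{u}]
  intro Y 𝓤
  exact hF.tot_isSheafFor F (𝓤 : Scheme.OpenCover.{u} Y)

/-- charts covering a functor by open subfunctors -/
structure Charts (ι : Type u) where
  X : ι → Scheme.{u}
  s : ∀ i, X i ⟶ S
  x : ∀ i, F.obj (s i)
  V : ∀ {T : Scheme.{u}} (t : T ⟶ S) (_ : F.obj t) (_ : ι), T.Opens
  hV : ∀ {T T' : Scheme.{u}} (t : T ⟶ S) (l : F.obj t) (i : ι) (g : T' ⟶ T),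
    (∀ y, g y ∈ V t l i) ↔ ∃ (h : T' ⟶ X i) (hh : h ≫ s i = g ≫ t),
      F.map h hh (x i) = F.map g rfl l
  hM : ∀ {T' : Scheme.{u}} {t' : T' ⟶ S} (i : ι) (h h' : T' ⟶ X i) (hh : h ≫ s i = t')
    (hh' : h' ≫ s i = t'), F.map h hh (x i) = F.map h' hh' (x i) → h = h'
  cov : ∀ {T : Scheme.{u}} (t : T ⟶ S) (l : F.obj t) (y : T), ∃ i, y ∈ V t l i

variable {F}

theorem tot_map_eq {X X' Z : Scheme.{u}} {x : Σ t : X ⟶ S, F.obj t}
    {x' : Σ t : X' ⟶ S, F.obj t} {g : Z ⟶ X} {g' : Z ⟶ X'} (h : g ≫ x.1 = g' ≫ x'.1)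
    (h' : F.map g h x.2 = F.map g' rfl x'.2) : F.tot.map g.op x = F.tot.map g'.op x' := by
  rw [tot_map, tot_map]
  refine F.sigma_mk_eq h ?_
  rw [F.map_comp, ← h']
  exact F.map_congr (Category.id_comp _) _ _ _

namespace Charts

variable {ι : Type u} (K : Charts F ι)

/-- the map to the functor attached to a chart -/
noncomputable def f (i : ι) : yoneda.obj (K.X i) ⟶ F.tot :=
  yonedaEquiv.symm (⟨K.s i, K.x i⟩ : Σ t : K.X i ⟶ S, F.obj t)

theorem f_app (i : ι) {Z : Scheme.{u}} (h : Z ⟶ K.X i) :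
    (K.f i).app (op Z) h = F.tot.map h.op (⟨K.s i, K.x i⟩ : Σ t : K.X i ⟶ S, F.obj t) := rfl

theorem app_eq {T : Scheme.{u}} (g : yoneda.obj T ⟶ F.tot) (y : Σ t : T ⟶ S, F.obj t)
    (hy : yonedaEquiv g = y) {Z : Scheme.{u}} (h : Z ⟶ T) :
    g.app (op Z) h = F.tot.map h.op y := by
  subst hy
  obtain ⟨y, rfl⟩ := yonedaEquiv.symm.surjective g
  rw [Equiv.apply_symm_apply]
  rfl

theorem exists_lift {i : ι} {T : Scheme.{u}} {t : T ⟶ S} {l : F.obj t} {V : T.Opens}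
    (hVdef : V = K.V t l i) {h : (V : Scheme.{u}) ⟶ K.X i} {hh : h ≫ K.s i = V.ι ≫ t}
    (hhe : F.map h hh (K.x i) = F.map V.ι rfl l) {Z : Scheme.{u}} (a : Z ⟶ K.X i) (b : Z ⟶ T)
    (hab : F.tot.map a.op (⟨K.s i, K.x i⟩ : Σ t : K.X i ⟶ S, F.obj t) =
      F.tot.map b.op (⟨t, l⟩ : Σ t : T ⟶ S, F.obj t)) :
    ∃ c : Z ⟶ (V : Scheme.{u}), c ≫ h = a ∧ c ≫ V.ι = b := by
  have h1 : a ≫ K.s i = b ≫ t := congrArg Sigma.fst hab
  have h2 := F.map_eq_of_tot hab h1 rfl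
  have h3 := (K.hV t l i b).2 ⟨a, h1, h2⟩
  rw [← hVdef] at h3
  have h4 : Set.range b ⊆ Set.range V.ι := by
    rw [Scheme.Opens.range_ι]
    rintro _ ⟨y, rfl⟩
    exact h3 y
  obtain ⟨c, hc⟩ : ∃ c : Z ⟶ (V : Scheme.{u}), c ≫ V.ι = b :=
    ⟨IsOpenImmersion.lift V.ι b h4, IsOpenImmersion.lift_fac _ _ _⟩
  have h5 : (c ≫ h) ≫ K.s i = b ≫ t := by rw [Category.assoc, hh, ← Category.assoc, hc]
  refine ⟨c, K.hM i (t' := b ≫ t) _ _ h5 h1 ?_, hc⟩
  rw [h2, ← F.map_comp h hh _ (by rw [← Category.assoc, hc]), hhe, F.map_comp]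
  exact F.map_congr hc _ _ _

theorem hf (i : ι) : IsOpenImmersion.presheaf (K.f i) := by
  refine MorphismProperty.relative.of_exists fun T g => ?_
  obtain ⟨y, hy⟩ : ∃ y : Σ t : T ⟶ S, F.obj t, yonedaEquiv g = y := ⟨_, rfl⟩
  obtain ⟨t, l⟩ := y
  obtain ⟨V, hVdef⟩ : ∃ V, V = K.V t l i := ⟨_, rfl⟩
  obtain ⟨h, hh, hhe⟩ := (K.hV t l i V.ι).1 fun y => by
    rw [← hVdef]
    exact y.2
  have key : F.tot.map h.op (⟨K.s i, K.x i⟩ : Σ t : K.X i ⟶ S, F.obj t) =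
      F.tot.map V.ι.op (⟨t, l⟩ : Σ t : T ⟶ S, F.obj t) := tot_map_eq hh hhe
  refine ⟨V, yoneda.map h, V.ι, IsPullback.of_forall_isPullback_app fun Z => ?_, inferInstance⟩
  obtain ⟨Z⟩ := Z
  rw [Types.isPullback_iff]
  refine ⟨TypeCat.homEquiv.injective <| funext fun a => ?_, fun a a' haa => ?_,
    fun x₂ x₃ hx => ?_⟩
  · change (K.f i).app (op Z) (a ≫ h) = g.app (op Z) (a ≫ V.ι)
    rw [f_app, app_eq g _ hy, op_comp, op_comp, Functor.map_comp_apply, Functor.map_comp_apply,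
      key]
  · exact (cancel_mono V.ι).1 haa.2
  · obtain ⟨c, h1, h2⟩ := K.exists_lift hVdef hhe (Z := Z) x₂ x₃ (by
      rw [← f_app, ← app_eq g _ hy]
      exact hx)
    exact ⟨c, h1, h2⟩

open Presheaf in
theorem locallySurjective :
    Presheaf.IsLocallySurjective Scheme.zariskiTopology (Sigma.desc K.f) where
  imageSieve_mem {T} y := by
    obtain ⟨t, l⟩ : Σ t : T ⟶ S, F.obj t := y
    rw [Scheme.mem_grothendieckTopology_iff]
    refine ⟨T.openCoverOfIsOpenCover (fun i => K.V t l i) ?_, ?_⟩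
    · rw [TopologicalSpace.IsOpenCover, eq_top_iff]
      intro y _
      obtain ⟨i, hi⟩ := K.cov t l y
      exact TopologicalSpace.Opens.mem_iSup.2 ⟨i, hi⟩
    · rintro Z g ⟨i⟩
      obtain ⟨h, hh, hhe⟩ := (K.hV t l i (K.V t l i).ι).1 fun y => y.2
      refine ⟨(Sigma.ι (fun i => yoneda.obj (K.X i)) i).app _ h, ?_⟩
      have h1 : (Sigma.ι (fun i => yoneda.obj (K.X i)) i) ≫ Sigma.desc K.f = K.f i :=
        Sigma.ι_desc _ _
      have h2 : (Sigma.desc K.f).app (op _) ((Sigma.ι (fun i => yoneda.obj (K.X i)) i).app _ h) =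
          (K.f i).app (op _) h := by
        rw [← h1]
        rfl
      refine h2.trans ?_
      rw [f_app]
      exact tot_map_eq hh hhe

/-- the sheaf attached to a functor -/
def sheaf (hF : F.IsSheaf) : Sheaf Scheme.zariskiTopology.{u} (Type u) :=
  ⟨F.tot, (isSheaf_iff_isSheaf_of_type _ _).2 (hF.tot_isSheaf F)⟩

/-- representability of the total functor, together with the charts -/
theorem exists_rep_aux (hF : F.IsSheaf) : ∃ (P : Scheme.{u}) (rep : F.tot.RepresentableBy P)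
    (j : ∀ i, K.X i ⟶ P), (∀ i, IsOpenImmersion (j i)) ∧
      ∀ i, rep.homEquiv (j i) = (⟨K.s i, K.x i⟩ : Σ t : K.X i ⟶ S, F.obj t) := by
  let 𝓕 := sheaf hF
  let f' : (i : ι) → yoneda.obj (K.X i) ⟶ 𝓕.1 := K.f
  have hf' : ∀ i, IsOpenImmersion.presheaf (f' i) := K.hf
  have hls : Presheaf.IsLocallySurjective Scheme.zariskiTopology (Sigma.desc f') :=
    K.locallySurjective
  refine ⟨_, Scheme.LocalRepresentability.representableBy hf',
    fun i => Scheme.LocalRepresentability.toGlued hf' i, fun i => inferInstance, fun i => ?_⟩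
  refine Eq.trans ?_ ((Scheme.LocalRepresentability.yonedaGluedToSheaf_app_toGlued
    (i := i) hf').trans (yonedaEquiv.apply_symm_apply _))
  rfl

/-- **local representability** -/
theorem exists_rep (hF : F.IsSheaf) : ∃ (P : Scheme.{u}) (p : P ⟶ S) (u : F.obj p),
    (∀ {T : Scheme.{u}} (t : T ⟶ S) (l : F.obj t),
      ∃! g : T ⟶ P, ∃ hg : g ≫ p = t, F.map g hg u = l) ∧
    (∀ i, ∃ (j : K.X i ⟶ P) (hj : j ≫ p = K.s i), F.map j hj u = K.x i ∧ IsOpenImmersion j ∧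
      Set.range j = (K.V p u i : Set P)) := by
  obtain ⟨P, rep, j, hj1, hj2⟩ := K.exists_rep_aux hF
  obtain ⟨v, hv⟩ : ∃ v : Σ t : P ⟶ S, F.obj t, v = rep.homEquiv (𝟙 P) := ⟨_, rfl⟩
  obtain ⟨p, u⟩ := v
  have hrep : ∀ {T : Scheme.{u}} (g : T ⟶ P), rep.homEquiv g =
      (⟨g ≫ p, F.map g rfl u⟩ : Σ t : T ⟶ S, F.obj t) := by
    intro T g
    rw [rep.homEquiv_eq, ← hv]
    rfl
  have hex : ∀ {T : Scheme.{u}} {t : T ⟶ S} {l : F.obj t} {g : T ⟶ P}
      (_ : rep.homEquiv g = (⟨t, l⟩ : Σ t : T ⟶ S, F.obj t)), ∃ hg : g ≫ p = t,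
      F.map g hg u = l := by
    intro T t l g h
    rw [hrep] at h
    obtain ⟨rfl, h2⟩ := Sigma.mk.inj_iff.1 h
    exact ⟨rfl, eq_of_heq h2⟩
  have huniv : ∀ {T : Scheme.{u}} (t : T ⟶ S) (l : F.obj t),
      ∃! g : T ⟶ P, ∃ hg : g ≫ p = t, F.map g hg u = l := by
    intro T t l
    refine ⟨rep.homEquiv.symm (⟨t, l⟩ : Σ t : T ⟶ S, F.obj t),
      hex (Equiv.apply_symm_apply _ _), ?_⟩
    rintro g ⟨hg, hgl⟩
    subst hg
    rw [← hgl]
    apply rep.homEquiv.injective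
    rw [Equiv.apply_symm_apply, hrep]
  refine ⟨P, p, u, huniv, fun i => ?_⟩
  obtain ⟨hg, hgl⟩ := hex (hj2 i)
  refine ⟨j i, hg, hgl, hj1 i, ?_⟩
  apply Set.Subset.antisymm
  · rintro _ ⟨y, rfl⟩
    refine (K.hV p u i (j i)).2 ⟨𝟙 _, by rw [Category.id_comp, hg], ?_⟩ y
    have h1 : F.map (j i) rfl u = F.map (𝟙 _) (by rw [Category.id_comp, hg]) (K.x i) := by
      rw [← hgl, F.map_comp]
      exact F.map_congr (Category.id_comp _).symm _ _ _
    exact h1.symm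
  · intro y hy
    obtain ⟨h, hh, hhe⟩ := (K.hV p u i (K.V p u i).ι).1 fun y => y.2
    have h1 : h ≫ j i = (K.V p u i).ι := by
      refine (huniv ((K.V p u i).ι ≫ p) (F.map (K.V p u i).ι rfl u)).unique
        ⟨by rw [Category.assoc, hg, hh], ?_⟩ ⟨rfl, rfl⟩
      rw [← hhe, ← hgl, F.map_comp]
    refine ⟨h ⟨y, hy⟩, ?_⟩
    rw [← Scheme.Hom.comp_apply, h1]
    rfl

end Charts

end ZFun

end Fermat.Agent.J25
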