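import Mathlib
import Fermat.Agent.J25.PicG

/-!
# The comparison data of the geometric datum (values)
-/

set_option autoImplicit false

universe u v w

open CategoryTheory CategoryTheory.Limits AlgebraicGeometry TopologicalSpace Opposite Polynomial
open NeronModelInfra

noncomputable section

namespace Fermat.Agent.J25

attribute [-instance] HahnSeries.powerSeriesAlgebra

variable {k : Type u} [Field k] {C : Scheme.{u}} {c : C ⟶ Spec (CommRingCat.of k)}
    {ε : SchemeHomOver (𝟙 (Spec (CommRingCat.of k))) c}

namespace Geo

theorem picData_toPic (g : Geo c ε) (R : Type u) [CommRing R] [Algebra k R]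
    (M : G g.e (R := R) g.a) : g.picData.toPic R M = (g.xd R).cl M.1 M.2 := rfl

end Geo

end Fermat.Agent.J25
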